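import Mathlib
import Fermat.Agent.S05.helper1745_XOnly

/-!
# Kernel of reduction has no prime-to-residue torsion (general `b`-form, no hypothesis on `v 2`)

`K` a field with a valuation `v`, `W` a Weierstrass curve over `K` whose `b`-invariants are
`v`-integral.  If `P = (x, y)` is an affine point with `1 < v x` ("kernel of reduction") and
`n • P = 0`, then `v n < 1`.  The proof is an `x`-only induction on `n` with the invariant
`x(P) / x(nP) ≡ n²` modulo the maximal ideal, using the sum/product/duplication identities of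
`helper1745_XOnly`.  Nothing is assumed about `v 2`, so this applies at residue characteristic 2.
-/

set_option autoImplicit false

namespace Fermat.Agent.S13.helper5736

open WeierstrassCurve WeierstrassCurve.Affine
open Fermat.Agent.S05.helper1745

variable {K : Type*} [Field K] {Γ₀ : Type*} [LinearOrderedCommGroupWithZero Γ₀]

section basics

variable (v : Valuation K Γ₀)

theorem v_natCast_le (n : ℕ) : v (n : K) ≤ 1 := by
  induction n with
  | zero => simp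
  | succ n ih =>
    rw [Nat.cast_succ]
    exact v.map_add_le ih (le_of_eq v.map_one)

theorem v_two_le : v (2 : K) ≤ 1 := by
  have := v_natCast_le v 2
  simpa using this

theorem v_four_le : v (4 : K) ≤ 1 := by
  have := v_natCast_le v 4
  simpa using this

theorem v_mul_lt_of_lt_of_le {a b : K} (ha : v a < 1) (hb : v b ≤ 1) : v (a * b) < 1 := by
  rw [map_mul]
  exact mul_lt_one_of_lt_of_le ha hb

theorem v_mul_lt_of_le_of_lt {a b : K} (ha : v a ≤ 1) (hb : v b < 1) : v (a * b) < 1 := by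
  rw [map_mul]
  exact Right.mul_lt_one_of_le_of_lt ha hb

theorem v_mul_le {a b : K} (ha : v a ≤ 1) (hb : v b ≤ 1) : v (a * b) ≤ 1 := by
  rw [map_mul]
  exact Left.mul_le_one ha hb

theorem v_pow_le {a : K} (ha : v a ≤ 1) (n : ℕ) : v (a ^ n) ≤ 1 := by
  rw [map_pow]
  exact pow_le_one' ha n

theorem v_lt_of_sq_lt {a : K} (ha : v (a ^ 2) < 1) : v a < 1 := by
  rw [map_pow] at ha
  by_contra h
  exact absurd ha (not_lt.2 (one_le_pow_of_one_le' (not_lt.1 h) 2))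

theorem v_le_of_sq_le {a : K} (ha : v (a ^ 2) ≤ 1) : v a ≤ 1 := by
  rw [map_pow] at ha
  by_contra h
  exact absurd ha (not_le.2 (one_lt_pow' (not_le.1 h) two_ne_zero))

theorem v_inv_lt {x : K} (hx : 1 < v x) : v x⁻¹ < 1 := by
  rw [map_inv₀]
  exact inv_lt_one_of_one_lt₀ hx

theorem ne_zero_of_one_lt {x : K} (hx : 1 < v x) : x ≠ 0 := by
  rintro rfl
  simp at hx

/-- If `x / X` is integral with `X ≠ 0` and `1 < v x` then `1 < v X`. -/
theorem one_lt_of_div_le {x X : K} (hX : X ≠ 0) (hx : 1 < v x) (h : v (x / X) ≤ 1) : 1 < v X := by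
  rw [map_div₀] at h
  have hpos : 0 < v X := by
    rw [pos_iff_ne_zero]
    exact (Valuation.ne_zero_iff v).2 hX
  have := (div_le_one₀ hpos).1 h
  exact lt_of_lt_of_le hx this

end basics

section estimates

variable (v : Valuation K Γ₀) (W : Affine K)

/-- Duplication estimate in the kernel of reduction: `x / x(2P) ≡ 4`. -/
theorem dbl_est (hb2 : v W.b₂ ≤ 1) (hb4 : v W.b₄ ≤ 1) (hb6 : v W.b₆ ≤ 1) (hb8 : v W.b₈ ≤ 1)
    {x X : K} (hx : 1 < v x)
    (hX : X * (4 * x ^ 3 + W.b₂ * x ^ 2 + 2 * W.b₄ * x + W.b₆) =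
      x ^ 4 - W.b₄ * x ^ 2 - 2 * W.b₆ * x - W.b₈) :
    X ≠ 0 ∧ v (x / X - 4) < 1 := by
  have hx0 : x ≠ 0 := ne_zero_of_one_lt v hx
  have hζ : v x⁻¹ < 1 := v_inv_lt v hx
  have hζ' : v x⁻¹ ≤ 1 := le_of_lt hζ
  -- the quartic is `x^4 * D` with `D` a unit
  have hD : v (1 - x⁻¹ * (W.b₄ * x⁻¹ + 2 * W.b₆ * x⁻¹ ^ 2 + W.b₈ * x⁻¹ ^ 3)) = 1 := by
    apply Valuation.map_one_sub_of_lt
    apply v_mul_lt_of_lt_of_le v hζ
    refine v.map_add_le (v.map_add_le (v_mul_le v hb4 hζ') ?_) (v_mul_le v hb8 (v_pow_le v hζ' 3))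
    exact v_mul_le v (v_mul_le v (v_two_le v) hb6) (v_pow_le v hζ' 2)
  have hE : v (x⁻¹ * (W.b₂ + 6 * W.b₄ * x⁻¹ + 9 * W.b₆ * x⁻¹ ^ 2 + 4 * W.b₈ * x⁻¹ ^ 3)) < 1 := by
    apply v_mul_lt_of_lt_of_le v hζ
    have h6 : v (6 : K) ≤ 1 := by simpa using v_natCast_le v 6
    have h9 : v (9 : K) ≤ 1 := by simpa using v_natCast_le v 9
    refine v.map_add_le (v.map_add_le (v.map_add_le hb2 ?_) ?_) ?_
    · exact v_mul_le v (v_mul_le v h6 hb4) hζ'
    · exact v_mul_le v (v_mul_le v h9 hb6) (v_pow_le v hζ' 2)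
    · exact v_mul_le v (v_mul_le v (v_four_le v) hb8) (v_pow_le v hζ' 3)
  have hquart : x ^ 4 - W.b₄ * x ^ 2 - 2 * W.b₆ * x - W.b₈ =
      x ^ 4 * (1 - x⁻¹ * (W.b₄ * x⁻¹ + 2 * W.b₆ * x⁻¹ ^ 2 + W.b₈ * x⁻¹ ^ 3)) := by
    field_simp
    ring
  have hq0 : x ^ 4 - W.b₄ * x ^ 2 - 2 * W.b₆ * x - W.b₈ ≠ 0 := by
    rw [hquart]
    refine mul_ne_zero (pow_ne_zero 4 hx0) ?_
    intro h0
    rw [h0, map_zero] at hD
    exact zero_ne_one hD
  have hX0 : X ≠ 0 := by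
    rintro rfl
    rw [zero_mul] at hX
    exact hq0 hX.symm
  have hc0 : 4 * x ^ 3 + W.b₂ * x ^ 2 + 2 * W.b₄ * x + W.b₆ ≠ 0 := by
    intro h0
    rw [h0, mul_zero] at hX
    exact hq0 hX.symm
  refine ⟨hX0, ?_⟩
  have h2 : (x - 4 * X) * (1 - x⁻¹ * (W.b₄ * x⁻¹ + 2 * W.b₆ * x⁻¹ ^ 2 + W.b₈ * x⁻¹ ^ 3)) =
      x⁻¹ * (W.b₂ + 6 * W.b₄ * x⁻¹ + 9 * W.b₆ * x⁻¹ ^ 2 + 4 * W.b₈ * x⁻¹ ^ 3) * X := by
    apply mul_right_cancel₀ hc0
    field_simp
    linear_combination (-(x * (4 * x ^ 3 + W.b₂ * x ^ 2 + 2 * W.b₄ * x + W.b₆))) * hX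
  have key : (x / X - 4) * (1 - x⁻¹ * (W.b₄ * x⁻¹ + 2 * W.b₆ * x⁻¹ ^ 2 + W.b₈ * x⁻¹ ^ 3)) =
      x⁻¹ * (W.b₂ + 6 * W.b₄ * x⁻¹ + 9 * W.b₆ * x⁻¹ ^ 2 + 4 * W.b₈ * x⁻¹ ^ 3) := by
    have h3 : x / X - 4 = (x - 4 * X) / X := by
      field_simp
    rw [h3, div_mul_eq_mul_div, h2, mul_div_assoc, div_self hX0, mul_one]
  have := congrArg v key
  rw [map_mul, hD, mul_one] at this
  rw [this]
  exact hE

/-- Sum estimate in the kernel of reduction:
`x / x(Q + P) + x / x(Q - P) ≡ 2 + 2 x / x(Q)`. -/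
theorem sum_est (hb2 : v W.b₂ ≤ 1) (hb4 : v W.b₄ ≤ 1) (hb6 : v W.b₆ ≤ 1) (hb8 : v W.b₈ ≤ 1)
    {x x₁ Xp Xm : K} (hx : 1 < v x) (hx₁ : 1 < v x₁)
    (hP : Xp * Xm * (x₁ - x) ^ 2 =
      x₁ ^ 2 * x ^ 2 - W.b₄ * x₁ * x - W.b₆ * (x₁ + x) - W.b₈)
    (hS : (Xp + Xm) * (x₁ - x) ^ 2 =
      2 * x₁ * x * (x₁ + x) + W.b₂ * x₁ * x + W.b₄ * (x₁ + x) + W.b₆) :
    Xp ≠ 0 ∧ Xm ≠ 0 ∧ v (x / Xp + x / Xm - 2 - 2 * (x / x₁)) < 1 := by
  have hx0 : x ≠ 0 := ne_zero_of_one_lt v hx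
  have hx₁0 : x₁ ≠ 0 := ne_zero_of_one_lt v hx₁
  have hζ : v x⁻¹ < 1 := v_inv_lt v hx
  have hζ' : v x⁻¹ ≤ 1 := le_of_lt hζ
  have hζ₁ : v x₁⁻¹ < 1 := v_inv_lt v hx₁
  have hζ₁' : v x₁⁻¹ ≤ 1 := le_of_lt hζ₁
  have hsum : v (x₁⁻¹ + x⁻¹) ≤ 1 := v.map_add_le hζ₁' hζ'
  have hG : v (W.b₄ + W.b₆ * (x₁⁻¹ + x⁻¹) + W.b₈ * (x₁⁻¹ * x⁻¹)) ≤ 1 :=
    v.map_add_le (v.map_add_le hb4 (v_mul_le v hb6 hsum)) (v_mul_le v hb8 (v_mul_le v hζ₁' hζ'))
  have hD : v (1 - x₁⁻¹ * x⁻¹ * (W.b₄ + W.b₆ * (x₁⁻¹ + x⁻¹) + W.b₈ * (x₁⁻¹ * x⁻¹))) = 1 := by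
    apply Valuation.map_one_sub_of_lt
    exact v_mul_lt_of_lt_of_le v (v_mul_lt_of_lt_of_le v hζ₁ hζ') hG
  have hE : v (2 * x₁⁻¹ * (x₁⁻¹ + x⁻¹) * (W.b₄ + W.b₆ * (x₁⁻¹ + x⁻¹) + W.b₈ * (x₁⁻¹ * x⁻¹)) +
      x₁⁻¹ * (W.b₂ + W.b₄ * (x₁⁻¹ + x⁻¹) + W.b₆ * (x₁⁻¹ * x⁻¹))) < 1 := by
    apply v.map_add_lt
    · refine v_mul_lt_of_lt_of_le v (v_mul_lt_of_lt_of_le v ?_ hsum) hG
      exact v_mul_lt_of_le_of_lt v (v_two_le v) hζ₁
    · apply v_mul_lt_of_lt_of_le v hζ₁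
      exact v.map_add_le (v.map_add_le hb2 (v_mul_le v hb4 hsum))
        (v_mul_le v hb6 (v_mul_le v hζ₁' hζ'))
  have hPD : x₁ ^ 2 * x ^ 2 - W.b₄ * x₁ * x - W.b₆ * (x₁ + x) - W.b₈ =
      x₁ ^ 2 * x ^ 2 *
        (1 - x₁⁻¹ * x⁻¹ * (W.b₄ + W.b₆ * (x₁⁻¹ + x⁻¹) + W.b₈ * (x₁⁻¹ * x⁻¹))) := by
    field_simp
    ring
  have hxx : x₁ ^ 2 * x ^ 2 ≠ 0 := mul_ne_zero (pow_ne_zero 2 hx₁0) (pow_ne_zero 2 hx0)
  have hP0 : x₁ ^ 2 * x ^ 2 - W.b₄ * x₁ * x - W.b₆ * (x₁ + x) - W.b₈ ≠ 0 := by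
    rw [hPD]
    refine mul_ne_zero hxx ?_
    intro h0
    rw [h0, map_zero] at hD
    exact zero_ne_one hD
  have hXp : Xp ≠ 0 := by
    rintro rfl
    rw [zero_mul, zero_mul] at hP
    exact hP0 hP.symm
  have hXm : Xm ≠ 0 := by
    rintro rfl
    rw [mul_zero, zero_mul] at hP
    exact hP0 hP.symm
  refine ⟨hXp, hXm, ?_⟩
  have hu : (x / Xp + x / Xm) * (x₁ ^ 2 * x ^ 2 - W.b₄ * x₁ * x - W.b₆ * (x₁ + x) - W.b₈) =
      x * (2 * x₁ * x * (x₁ + x) + W.b₂ * x₁ * x + W.b₄ * (x₁ + x) + W.b₆) := by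
    rw [← hP, ← hS]
    field_simp
    ring
  have h2 : (x / Xp + x / Xm - 2 - 2 * (x / x₁)) *
      (x₁ ^ 2 * x ^ 2 *
        (1 - x₁⁻¹ * x⁻¹ * (W.b₄ + W.b₆ * (x₁⁻¹ + x⁻¹) + W.b₈ * (x₁⁻¹ * x⁻¹)))) =
      x₁ ^ 2 * x ^ 2 *
        (2 * x₁⁻¹ * (x₁⁻¹ + x⁻¹) * (W.b₄ + W.b₆ * (x₁⁻¹ + x⁻¹) + W.b₈ * (x₁⁻¹ * x⁻¹)) +
          x₁⁻¹ * (W.b₂ + W.b₄ * (x₁⁻¹ + x⁻¹) + W.b₆ * (x₁⁻¹ * x⁻¹))) := by
    rw [← hPD]
    have h3 : (x / Xp + x / Xm - 2 - 2 * (x / x₁)) *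
        (x₁ ^ 2 * x ^ 2 - W.b₄ * x₁ * x - W.b₆ * (x₁ + x) - W.b₈) =
        x * (2 * x₁ * x * (x₁ + x) + W.b₂ * x₁ * x + W.b₄ * (x₁ + x) + W.b₆) -
          (2 + 2 * (x / x₁)) * (x₁ ^ 2 * x ^ 2 - W.b₄ * x₁ * x - W.b₆ * (x₁ + x) - W.b₈) := by
      rw [← hu]
      ring
    rw [h3]
    field_simp
    ring
  have key : (x / Xp + x / Xm - 2 - 2 * (x / x₁)) *
      (1 - x₁⁻¹ * x⁻¹ * (W.b₄ + W.b₆ * (x₁⁻¹ + x⁻¹) + W.b₈ * (x₁⁻¹ * x⁻¹))) =
      2 * x₁⁻¹ * (x₁⁻¹ + x⁻¹) * (W.b₄ + W.b₆ * (x₁⁻¹ + x⁻¹) + W.b₈ * (x₁⁻¹ * x⁻¹)) +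
          x₁⁻¹ * (W.b₂ + W.b₄ * (x₁⁻¹ + x⁻¹) + W.b₆ * (x₁⁻¹ * x⁻¹)) := by
    apply mul_left_cancel₀ hxx
    rw [← h2]
    ring
  have := congrArg v key
  rw [map_mul, hD, mul_one] at this
  rw [this]
  exact hE

end estimates

section induction

variable [DecidableEq K] (v : Valuation K Γ₀) (W : Affine K)

/-- Invariant of the kernel induction for the point `P = (x, y)`. -/
def KerInv {x y : K} (h : W.Nonsingular x y) (n : ℕ) : Prop :=
  (n • Point.some x y h = 0 ∧ v (n : K) < 1) ∨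
    ∃ (xn yn : K) (hn : W.Nonsingular xn yn),
      n • Point.some x y h = Point.some xn yn hn ∧ xn ≠ 0 ∧ v (x / xn - (n : K) ^ 2) < 1

omit [DecidableEq K] in
/-- A `2`-torsion point in the kernel of reduction forces `v 2 < 1`. -/
theorem v_two_lt_of_two_torsion (hb2 : v W.b₂ ≤ 1) (hb4 : v W.b₄ ≤ 1) (hb6 : v W.b₆ ≤ 1)
    {x y : K} (h : W.Nonsingular x y) (hx : 1 < v x) (hy : y = W.negY x y) : v (2 : K) < 1 := by
  have hx0 : x ≠ 0 := ne_zero_of_one_lt v hx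
  have hζ : v x⁻¹ < 1 := v_inv_lt v hx
  have hζ' : v x⁻¹ ≤ 1 := le_of_lt hζ
  have hc := (y_eq_negY_iff h.1).1 hy
  have h4 : (4 : K) = -(x⁻¹ * (W.b₂ + 2 * W.b₄ * x⁻¹ + W.b₆ * x⁻¹ ^ 2)) := by
    field_simp
    linear_combination hc
  have hv4 : v (4 : K) < 1 := by
    rw [h4, Valuation.map_neg]
    apply v_mul_lt_of_lt_of_le v hζ
    exact v.map_add_le (v.map_add_le hb2 (v_mul_le v (v_mul_le v (v_two_le v) hb4) hζ'))
      (v_mul_le v hb6 (v_pow_le v hζ' 2))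
  apply v_lt_of_sq_lt v
  have : (2 : K) ^ 2 = 4 := by norm_num
  rw [this]
  exact hv4

theorem kerInv_zero {x y : K} (h : W.Nonsingular x y) : KerInv v W h 0 := by
  left
  exact ⟨zero_nsmul _, by simp⟩

theorem kerInv_one {x y : K} (h : W.Nonsingular x y) (hx : 1 < v x) : KerInv v W h 1 := by
  have hx0 : x ≠ 0 := ne_zero_of_one_lt v hx
  right
  refine ⟨x, y, h, one_nsmul _, hx0, ?_⟩
  rw [div_self hx0]
  simp

theorem kerInv_step (hb2 : v W.b₂ ≤ 1) (hb4 : v W.b₄ ≤ 1) (hb6 : v W.b₆ ≤ 1) (hb8 : v W.b₈ ≤ 1)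
    {x y : K} (h : W.Nonsingular x y) (hx : 1 < v x) (n : ℕ)
    (I0 : KerInv v W h n) (I1 : KerInv v W h (n + 1)) : KerInv v W h (n + 2) := by
  have hx0 : x ≠ 0 := ne_zero_of_one_lt v hx
  have hsucc : (n + 2) • Point.some x y h = (n + 1) • Point.some x y h + Point.some x y h :=
    succ_nsmul (Point.some x y h) (n + 1)
  have hpred : n • Point.some x y h = (n + 1) • Point.some x y h - Point.some x y h := by
    rw [succ_nsmul]
    abel
  rcases I1 with ⟨h0, hv⟩ | ⟨x₁, y₁, h₁, hQ, hx₁0, hc⟩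
  · -- `(n+1)P = 0`
    right
    refine ⟨x, y, h, by rw [hsucc, h0, zero_add], hx0, ?_⟩
    have e : x / x - ((n + 2 : ℕ) : K) ^ 2 = -(((n + 1 : ℕ) : K) * ((n + 3 : ℕ) : K)) := by
      rw [div_self hx0]
      push_cast
      ring
    rw [e, Valuation.map_neg]
    exact v_mul_lt_of_lt_of_le v hv (v_natCast_le v _)
  · by_cases hxx : x₁ = x
    · subst hxx
      have hc' : v (((n : ℕ) : K) * ((n + 2 : ℕ) : K)) < 1 := by
        have e : x₁ / x₁ - ((n + 1 : ℕ) : K) ^ 2 = -(((n : ℕ) : K) * ((n + 2 : ℕ) : K)) := by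
          rw [div_self hx0]
          push_cast
          ring
        rwa [e, Valuation.map_neg] at hc
      by_cases hyy : y = W.negY x₁ y
      · -- `P` is 2-torsion
        have hv2 := v_two_lt_of_two_torsion v W hb2 hb4 hb6 h hx hyy
        have hy1 : y₁ = y := by
          rcases Y_eq_of_X_eq h₁.1 h.1 rfl with hy | hy
          · exact hy
          · rw [hy, ← hyy]
        subst hy1
        have hn0 : n • Point.some x₁ y₁ h = 0 := by rw [hpred, hQ, sub_self]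
        have hvn : v (n : K) < 1 := by
          rcases I0 with ⟨_, hvn⟩ | ⟨xn, yn, hn, hnP, _⟩
          · exact hvn
          · rw [hn0] at hnP
            exact absurd hnP.symm (Point.some_ne_zero _)
        left
        refine ⟨by rw [hsucc, hQ]; exact Point.add_self_of_Y_eq hyy, ?_⟩
        have e : ((n + 2 : ℕ) : K) = (n : K) + 2 := by push_cast; ring
        rw [e]
        exact v.map_add_lt hvn hv2
      · obtain ⟨X, Y, h', hadd, hX, -⟩ := exists_add_self_some h hyy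
        obtain ⟨hX0, hd⟩ := dbl_est v W hb2 hb4 hb6 hb8 hx hX
        rcases Y_eq_of_X_eq h₁.1 h.1 rfl with hy | hy
        · -- `(n+1)P = P`
          subst hy
          have hn0 : n • Point.some x₁ y₁ h = 0 := by rw [hpred, hQ, sub_self]
          have hvn : v (n : K) < 1 := by
            rcases I0 with ⟨_, hvn⟩ | ⟨xn, yn, hn, hnP, _⟩
            · exact hvn
            · rw [hn0] at hnP
              exact absurd hnP.symm (Point.some_ne_zero _)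
          right
          refine ⟨X, Y, h', by rw [hsucc, hQ, hadd], hX0, ?_⟩
          have e : x₁ / X - ((n + 2 : ℕ) : K) ^ 2 = (x₁ / X - 4) - (n : K) * ((n + 4 : ℕ) : K) := by
            push_cast
            ring
          rw [e]
          exact v.map_sub_lt hd (v_mul_lt_of_lt_of_le v hvn (v_natCast_le v _))
        · -- `(n+1)P = -P`
          have hneg : (n + 1) • Point.some x₁ y h = -Point.some x₁ y h := by
            rw [hQ, Point.neg_some]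
            subst hy
            rfl
          left
          refine ⟨by rw [hsucc, hneg, neg_add_cancel], ?_⟩
          have hnP : n • Point.some x₁ y h = -Point.some X Y h' := by
            rw [hpred, hneg, ← hadd]
            abel
          rw [Point.neg_some] at hnP
          rcases I0 with ⟨hn0, _⟩ | ⟨xn, yn, hn, hnP', hxn0, hcn⟩
          · rw [hn0] at hnP
            exact absurd hnP.symm (Point.some_ne_zero _)
          · rw [hnP] at hnP'
            have hXn : X = xn := by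
              injection hnP'
            subst hXn
            have h4 : v ((n : K) ^ 2 - 4) < 1 := by
              have e : (n : K) ^ 2 - 4 = (x₁ / X - 4) - (x₁ / X - (n : K) ^ 2) := by ring
              rw [e]
              exact v.map_sub_lt hd hcn
            by_contra hcon
            have h1 : v ((n + 2 : ℕ) : K) = 1 :=
              le_antisymm (v_natCast_le v _) (not_lt.1 hcon)
            have hvn : v (n : K) < 1 := by
              rw [map_mul, h1, mul_one] at hc'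
              exact hc'
            have hv4 : v (4 : K) < 1 := by
              have e : (4 : K) = (n : K) ^ 2 - ((n : K) ^ 2 - 4) := by ring
              rw [e]
              refine v.map_sub_lt ?_ h4
              have e2 : (n : K) ^ 2 = (n : K) * (n : K) := by ring
              rw [e2]
              exact v_mul_lt_of_lt_of_le v hvn (le_of_lt hvn)
            have hv2 : v (2 : K) < 1 := by
              apply v_lt_of_sq_lt v
              have e : (2 : K) ^ 2 = 4 := by norm_num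
              rw [e]
              exact hv4
            apply hcon
            have e : ((n + 2 : ℕ) : K) = (n : K) + 2 := by push_cast; ring
            rw [e]
            exact v.map_add_lt hvn hv2
    · -- generic case `x(Q) ≠ x(P)`
      obtain ⟨Xp, Yp, Xm, Ym, hp, hm, hadd, hsub, hP, hS⟩ := exists_add_sub_some h₁ h hxx
      have hnP : n • Point.some x y h = Point.some Xm Ym hm := by rw [hpred, hQ, hsub]
      rcases I0 with ⟨hn0, _⟩ | ⟨xn, yn, hn, hnP', hxn0, hcn⟩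
      · rw [hn0] at hnP
        exact absurd hnP.symm (Point.some_ne_zero _)
      · rw [hnP] at hnP'
        have hXn : Xm = xn := by
          injection hnP'
        subst hXn
        have hc1 : v (x / x₁) ≤ 1 := by
          have e : x / x₁ = (x / x₁ - ((n + 1 : ℕ) : K) ^ 2) + ((n + 1 : ℕ) : K) ^ 2 := by ring
          rw [e]
          exact v.map_add_le (le_of_lt hc) (v_pow_le v (v_natCast_le v _) 2)
        have hx₁ : 1 < v x₁ := one_lt_of_div_le v hx₁0 hx hc1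
        obtain ⟨hXp0, -, hs⟩ := sum_est v W hb2 hb4 hb6 hb8 hx hx₁ hP hS
        right
        refine ⟨Xp, Yp, hp, by rw [hsucc, hQ, hadd], hXp0, ?_⟩
        have e : x / Xp - ((n + 2 : ℕ) : K) ^ 2 =
            (x / Xp + x / Xm - 2 - 2 * (x / x₁)) - (x / Xm - (n : K) ^ 2) +
              2 * (x / x₁ - ((n + 1 : ℕ) : K) ^ 2) := by
          push_cast
          ring
        rw [e]
        exact v.map_add_lt (v.map_sub_lt hs hcn) (v_mul_lt_of_le_of_lt v (v_two_le v) hc)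

theorem kerInv_all (hb2 : v W.b₂ ≤ 1) (hb4 : v W.b₄ ≤ 1) (hb6 : v W.b₆ ≤ 1) (hb8 : v W.b₈ ≤ 1)
    {x y : K} (h : W.Nonsingular x y) (hx : 1 < v x) (n : ℕ) :
    KerInv v W h n ∧ KerInv v W h (n + 1) := by
  induction n with
  | zero => exact ⟨kerInv_zero v W h, kerInv_one v W h hx⟩
  | succ n ih => exact ⟨ih.2, kerInv_step v W hb2 hb4 hb6 hb8 h hx n ih.1 ih.2⟩

/-- **Kernel of reduction has no prime-to-residue torsion** (general `b`-form):
if `P = (x, y)` has `1 < v x` and `n • P = 0` then `v n < 1`. -/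
theorem ker_general (hb2 : v W.b₂ ≤ 1) (hb4 : v W.b₄ ≤ 1) (hb6 : v W.b₆ ≤ 1) (hb8 : v W.b₈ ≤ 1)
    {x y : K} (h : W.Nonsingular x y) (hx : 1 < v x) (n : ℕ)
    (hn : n • Point.some x y h = 0) : v (n : K) < 1 := by
  rcases (kerInv_all v W hb2 hb4 hb6 hb8 h hx n).1 with ⟨_, hv⟩ | ⟨xn, yn, hn', hnP, _, _⟩
  · exact hv
  · rw [hn] at hnP
    exact absurd hnP.symm (Point.some_ne_zero _)

/-- Contrapositive form: a torsion point of order prime to the residue characteristic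
is not in the kernel of reduction. -/
theorem v_le_one_of_torsion (hb2 : v W.b₂ ≤ 1) (hb4 : v W.b₄ ≤ 1) (hb6 : v W.b₆ ≤ 1)
    (hb8 : v W.b₈ ≤ 1) {x y : K} (h : W.Nonsingular x y) (n : ℕ) (hvn : v (n : K) = 1)
    (hn : n • Point.some x y h = 0) : v x ≤ 1 := by
  by_contra hx
  have := ker_general v W hb2 hb4 hb6 hb8 h (not_le.1 hx) n hn
  rw [hvn] at this
  exact lt_irrefl _ this

end induction

end Fermat.Agent.S13.helper5736
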