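import Fermat.Agent.S13.helper1633_LocalAbs
import Fermat.Agent.S05.helper245_Local
import Fermat.Agent.S05.helper1445_Top
import Fermat.Agent.S05.helper2200_Inertia

set_option autoImplicit false

/-!
# S13, local input at `p` (helper1633), Frey level

For the Frey curve `E` of a Frey package `P` and a valuation subring `A` of `ℚ̄` lying over an
odd prime `q` (the case `q = P.p` is allowed), the kernel of reduction

  `InKer P A Q  :=  Q = 0 ∨ 1 < A.valuation (x(Q))`     (`x` = coordinate on the Frey model)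

is a subgroup of `E(ℚ̄)` (`kerRed`), and every inertia element `σ ∈ I_A` moves every
`p`-torsion point inside it: `inertia_sub_inKer : InKer P A (σ • Q - Q)`.
-/

namespace Fermat.Agent.S13.helper1633

open WeierstrassCurve WeierstrassCurve.Affine WeierstrassCurve.Affine.Point
open Fermat.Agent.S05.helper245 Fermat.Agent.S05.helper725 Fermat.Agent.S05.helper1445

local notation "Qbar" => AlgebraicClosure ℚ

section Transfer

variable {K : Type*} [Field K] [DecidableEq K] {Γ₀ : Type*} [LinearOrderedCommGroupWithZero Γ₀]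
  (v : Valuation K Γ₀) {W₁ W₂ : WeierstrassCurve K} {u r s t : K}

/-- The kernel of reduction is invariant under a change of variables
`(X, Y) = (u²x + r, u³y + u²sx + t)` with `u` a unit and `r` integral. -/
theorem inE1_vcHom_iff (h : IsVarChange W₁ W₂ u r s t) (hu : v u = 1) (hr : v r ≤ 1)
    (Q : W₁.toAffine.Point) :
    InE1 v (ptX (W := W₂.toAffine)) (vcHom h Q) ↔ InE1 v (ptX (W := W₁.toAffine)) Q := by
  rcases Q with _ | ⟨x, y, hxy⟩
  · exact ⟨fun _ => Or.inl rfl, fun _ => Or.inl rfl⟩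
  · rw [vcHom_some]
    have hl : InE1 v (ptX (W := W₂.toAffine))
        (Point.some (u ^ 2 * x + r) (u ^ 3 * y + u ^ 2 * s * x + t)
          ((h.nonsingular_iff x y).mpr hxy)) ↔ 1 < v (u ^ 2 * x + r) :=
      ⟨fun H => H.resolve_left (Point.some_ne_zero _), fun H => Or.inr H⟩
    have hr' : InE1 v (ptX (W := W₁.toAffine)) (Point.some x y hxy) ↔ 1 < v x :=
      ⟨fun H => H.resolve_left (Point.some_ne_zero _), fun H => Or.inr H⟩
    rw [hl, hr']
    have hux : v (u ^ 2 * x) = v x := by rw [v.map_mul, v.map_pow, hu, one_pow, one_mul]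
    constructor
    · intro H
      by_contra hx
      have hx' : v x ≤ 1 := le_of_not_gt hx
      have : v (u ^ 2 * x + r) ≤ 1 := v.map_add_le (by rw [hux]; exact hx') hr
      exact absurd H (not_lt.mpr this)
    · intro H
      have hlt : v r < v (u ^ 2 * x) := by rw [hux]; exact lt_of_le_of_lt hr H
      rw [v.map_add_eq_of_lt_left hlt, hux]
      exact H

end Transfer

section Legendre

/-- **The local theorem without `v n = 1`**: for a curve `Y² = X³ + a₂ X² + a₄ X` over `ℚ` with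
coefficients integral at a valuation subring `A` of `ℚ̄` with `2` a unit and `a₂² - 4 a₄` a
unit, and `a₄` either a unit or of valuation an `n`-th power of the valuation of a rational, every
automorphism `σ` preserving the valuation and acting trivially modulo the maximal ideal of `A`
moves every `n`-torsion point (`n` an odd prime, possibly the residue characteristic) inside the
kernel of reduction. -/
theorem local_sub_mem (A : ValuationSubring Qbar) (W : WeierstrassCurve ℚ)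
    (h₁ : W.a₁ = 0) (h₃ : W.a₃ = 0) (h₆ : W.a₆ = 0) (h₄ : W.a₄ ≠ 0)
    (ha₂ : algebraMap ℚ Qbar W.a₂ ∈ A) (ha₄ : algebraMap ℚ Qbar W.a₄ ∈ A)
    (h2 : A.valuation (2 : Qbar) = 1)
    (hdisc : A.valuation (algebraMap ℚ Qbar (W.a₂ ^ 2 - 4 * W.a₄)) = 1)
    (σ : Qbar ≃ₐ[ℚ] Qbar) (hσv : ∀ x, A.valuation (σ x) = A.valuation x)
    (hσ : ∀ x, x ∈ A → σ x - x ∈ A.nonunits)
    (n : ℕ) (hn : n.Prime) (hn2 : n ≠ 2)
    (hcase : A.valuation (algebraMap ℚ Qbar W.a₄) = 1 ∨
      ∃ w : ℚ, A.valuation (algebraMap ℚ Qbar W.a₄) = A.valuation (algebraMap ℚ Qbar w) ^ n)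
    (P : (W⁄Qbar).Point) (hP : n • P = 0) :
    InE1 A.valuation (ptX (W := (W⁄Qbar))) (σ • P - P) := by
  have e₁ : (W⁄Qbar).a₁ = 0 := by simp [WeierstrassCurve.baseChange, h₁]
  have e₃ : (W⁄Qbar).a₃ = 0 := by simp [WeierstrassCurve.baseChange, h₃]
  have e₆ : (W⁄Qbar).a₆ = 0 := by simp [WeierstrassCurve.baseChange, h₆]
  have e₂ : (W⁄Qbar).a₂ = algebraMap ℚ Qbar W.a₂ := by simp [WeierstrassCurve.baseChange]
  have e₄ : (W⁄Qbar).a₄ = algebraMap ℚ Qbar W.a₄ := by simp [WeierstrassCurve.baseChange]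
  have hL := isLegCoord_of_short (W := (W⁄Qbar)) e₁ e₃ e₆
  rw [e₂, e₄] at hL
  have hva : A.valuation (algebraMap ℚ Qbar W.a₂) ≤ 1 := (A.valuation_le_one_iff _).mpr ha₂
  have hvb : A.valuation (algebraMap ℚ Qbar W.a₄) ≤ 1 := (A.valuation_le_one_iff _).mpr ha₄
  have hdisc' : A.valuation ((algebraMap ℚ Qbar W.a₂) ^ 2 - 4 * algebraMap ℚ Qbar W.a₄) = 1 := by
    rw [← hdisc]; congr 1; simp
  have hs : ∀ u : Qbar, A.valuation u ≤ 1 → A.valuation (σ u - u) < 1 := fun u hu =>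
    (A.mem_nonunits_iff).mp (hσ u ((A.valuation_le_one_iff u).mp hu))
  have hτ0 : ∀ Q : (W⁄Qbar).Point, Q ≠ 0 → Point.map (W' := W) σ.toAlgHom Q ≠ 0 := by
    intro Q hQ
    cases Q with
    | zero => exact absurd rfl hQ
    | some x y h => rw [Point.map_some]; exact Point.some_ne_zero _
  have hτX : ∀ Q : (W⁄Qbar).Point, Q ≠ 0 →
      ptX (Point.map (W' := W) σ.toAlgHom Q) = (σ : Qbar →+* Qbar) (ptX Q) := by
    intro Q hQ
    cases Q with
    | zero => exact absurd rfl hQ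
    | some x y h => rw [Point.map_some]; rfl
  have hτY : ∀ Q : (W⁄Qbar).Point, Q ≠ 0 →
      ptY (Point.map (W' := W) σ.toAlgHom Q) = (σ : Qbar →+* Qbar) (ptY Q) := by
    intro Q hQ
    cases Q with
    | zero => exact absurd rfl hQ
    | some x y h => rw [Point.map_some]; rfl
  have hsv : ∀ u : Qbar, A.valuation ((σ : Qbar →+* Qbar) u) = A.valuation u := hσv
  have hodd : Odd n := hn.odd_of_ne_two hn2
  rw [algEquiv_smul_def]
  have good : A.valuation (algebraMap ℚ Qbar W.a₄) = 1 →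
      InE1 A.valuation (ptX (W := (W⁄Qbar))) (Point.map (W' := W) σ.toAlgHom P - P) := fun hb =>
    good_sub_mem A.valuation hL hva hb hdisc' h2 hodd (Point.map (W' := W) σ.toAlgHom) hτ0
      (σ : Qbar →+* Qbar) hτX hτY hs hsv hP
  rcases hcase with hb | ⟨w, hw⟩
  · exact good hb
  · rcases hvb.lt_or_eq with hlt | heq
    · have hb0 : algebraMap ℚ Qbar W.a₄ ≠ 0 := by
        rw [Ne, map_eq_zero]; exact h₄
      have hva1 : A.valuation (algebraMap ℚ Qbar W.a₂) = 1 := by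
        apply eq_of_sq_eq_sq'
        have h4b : A.valuation (4 * algebraMap ℚ Qbar W.a₄) <
            A.valuation ((algebraMap ℚ Qbar W.a₂) ^ 2 - 4 * algebraMap ℚ Qbar W.a₄) := by
          rw [hdisc', (A.valuation).map_mul]
          calc A.valuation 4 * A.valuation (algebraMap ℚ Qbar W.a₄)
              ≤ 1 * A.valuation (algebraMap ℚ Qbar W.a₄) := by
                gcongr; exact val_four_le_one _
            _ = A.valuation (algebraMap ℚ Qbar W.a₄) := one_mul _
            _ < 1 := hlt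
        have e : (algebraMap ℚ Qbar W.a₂) ^ 2 =
            ((algebraMap ℚ Qbar W.a₂) ^ 2 - 4 * algebraMap ℚ Qbar W.a₄) +
              4 * algebraMap ℚ Qbar W.a₄ := by ring
        rw [← (A.valuation).map_pow, e, (A.valuation).map_add_eq_of_lt_left h4b, hdisc', one_pow]
      obtain ⟨β, hβ⟩ := IsAlgClosed.exists_pow_nat_eq (algebraMap ℚ Qbar W.a₂) (n := 2)
        (by norm_num)
      have hT : (W⁄Qbar).Nonsingular 0 0 := by
        rw [nonsingular_zero]
        exact ⟨e₆, Or.inr (by rw [e₄]; exact hb0)⟩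
      have hT0 : Point.some 0 0 hT ≠ 0 := Point.some_ne_zero _
      exact node_sub_mem A.valuation hL hva1 hlt hb0 h2 hβ hT0 rfl rfl hn hn2
        (Point.map (W' := W) σ.toAlgHom) hτ0 (σ : Qbar →+* Qbar) hτX hτY hs hsv
        (d := algebraMap ℚ Qbar w) (σ.commutes w) hw hP
    · exact good heq

/-- The kernel of reduction of a Legendre-type model with integral coefficients is closed under
addition. -/
theorem local_inE1_add (A : ValuationSubring Qbar) (W : WeierstrassCurve ℚ)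
    (h₁ : W.a₁ = 0) (h₃ : W.a₃ = 0) (h₆ : W.a₆ = 0)
    (ha₂ : algebraMap ℚ Qbar W.a₂ ∈ A) (ha₄ : algebraMap ℚ Qbar W.a₄ ∈ A)
    {P Q : (W⁄Qbar).Point} (hP : InE1 A.valuation (ptX (W := (W⁄Qbar))) P)
    (hQ : InE1 A.valuation (ptX (W := (W⁄Qbar))) Q) :
    InE1 A.valuation (ptX (W := (W⁄Qbar))) (P + Q) := by
  have e₁ : (W⁄Qbar).a₁ = 0 := by simp [WeierstrassCurve.baseChange, h₁]
  have e₃ : (W⁄Qbar).a₃ = 0 := by simp [WeierstrassCurve.baseChange, h₃]
  have e₆ : (W⁄Qbar).a₆ = 0 := by simp [WeierstrassCurve.baseChange, h₆]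
  have e₂ : (W⁄Qbar).a₂ = algebraMap ℚ Qbar W.a₂ := by simp [WeierstrassCurve.baseChange]
  have e₄ : (W⁄Qbar).a₄ = algebraMap ℚ Qbar W.a₄ := by simp [WeierstrassCurve.baseChange]
  have hL := isLegCoord_of_short (W := (W⁄Qbar)) e₁ e₃ e₆
  rw [e₂, e₄] at hL
  have hva : A.valuation (algebraMap ℚ Qbar W.a₂) ≤ 1 := (A.valuation_le_one_iff _).mpr ha₂
  have hvb : A.valuation (algebraMap ℚ Qbar W.a₄) ≤ 1 := (A.valuation_le_one_iff _).mpr ha₄
  exact inE1_add A.valuation hL hva hvb hP hQ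

/-- The kernel of reduction of a Legendre-type model is closed under negation. -/
theorem local_inE1_neg (A : ValuationSubring Qbar) (W : WeierstrassCurve ℚ)
    (h₁ : W.a₁ = 0) (h₃ : W.a₃ = 0) (h₆ : W.a₆ = 0)
    {P : (W⁄Qbar).Point} (hP : InE1 A.valuation (ptX (W := (W⁄Qbar))) P) :
    InE1 A.valuation (ptX (W := (W⁄Qbar))) (-P) := by
  have e₁ : (W⁄Qbar).a₁ = 0 := by simp [WeierstrassCurve.baseChange, h₁]
  have e₃ : (W⁄Qbar).a₃ = 0 := by simp [WeierstrassCurve.baseChange, h₃]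
  have e₆ : (W⁄Qbar).a₆ = 0 := by simp [WeierstrassCurve.baseChange, h₆]
  have hL := isLegCoord_of_short (W := (W⁄Qbar)) e₁ e₃ e₆
  exact inE1_neg A.valuation hL hP

/-- The local theorem for the Legendre model `Y² = X³ + a₂ X² + e w^p X` with integer data, at a
valuation subring over an odd prime `q` (possibly `q = p`) not dividing the square root `d` of
the discriminant. -/
theorem legendre_sub_mem {q p : ℕ} (hq : q.Prime) (hq2 : q ≠ 2) (hp : p.Prime) (hp2 : p ≠ 2)
    (a₂ w d : ℤ) (hw : w ≠ 0) (e : ℤ) (he : e = 1 ∨ e = -1) (hd : ¬ (q : ℤ) ∣ d)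
    (hdisc : a₂ ^ 2 - 4 * (e * w ^ p) = d ^ 2)
    (A : ValuationSubring Qbar) (hA : A.LiesOverPrime q) (σ : Qbar ≃ₐ[ℚ] Qbar)
    (hσ : σ ∈ A.inertiaSubgroupIn ℚ)
    (Q : ((legendreModel (a₂ : ℚ) ((e : ℚ) * (w : ℚ) ^ p))⁄Qbar).Point) (hQ : p • Q = 0) :
    InE1 A.valuation (ptX (W := ((legendreModel (a₂ : ℚ) ((e : ℚ) * (w : ℚ) ^ p))⁄Qbar)))
      (σ • Q - Q) := by
  have hA' : (q : Qbar) ∈ A.nonunits := hA
  obtain ⟨-, hσ2⟩ := inertia_facts hσ
  have he0 : (e : ℚ) ≠ 0 := by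
    rcases he with rfl | rfl <;> norm_num
  have hve : A.valuation ((e : ℤ) : Qbar) = 1 := by
    rcases he with rfl | rfl <;> simp
  refine local_sub_mem A (legendreModel (a₂ : ℚ) ((e : ℚ) * (w : ℚ) ^ p)) rfl rfl rfl ?_ ?_ ?_
    (valuation_two_eq_one A hq hA' hq2) ?_ σ
    (fun x => Fermat.Agent.S05.helper2200.valuation_apply A hσ x) hσ2 p hp hp2
    (Or.inr ⟨(w : ℚ), ?_⟩) _ hQ
  · simp only [legendreModel_a₄]
    exact mul_ne_zero he0 (pow_ne_zero _ (by exact_mod_cast hw))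
  · simp only [legendreModel_a₂, map_intCast]
    exact intCast_mem' A a₂
  · simp only [legendreModel_a₄, map_mul, map_pow, map_intCast]
    exact A.mul_mem _ _ (intCast_mem' A e) (A.pow_mem (intCast_mem' A w) _)
  · have h1 : algebraMap ℚ Qbar ((legendreModel (a₂ : ℚ) ((e : ℚ) * (w : ℚ) ^ p)).a₂ ^ 2
        - 4 * (legendreModel (a₂ : ℚ) ((e : ℚ) * (w : ℚ) ^ p)).a₄) = ((d : ℤ) : Qbar) ^ 2 := by
      simp only [legendreModel_a₂, legendreModel_a₄]
      have h2 : ((a₂ : ℚ) ^ 2 - 4 * ((e : ℚ) * (w : ℚ) ^ p)) = ((d ^ 2 : ℤ) : ℚ) := by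
        rw [← hdisc]; push_cast; ring
      rw [h2]
      simp
    rw [h1, map_pow, valuation_intCast_eq_one A hq hA' hd, one_pow]
  · simp only [legendreModel_a₄, map_mul, map_pow, map_intCast]
    rw [hve, one_mul]

end Legendre

section Frey

variable (P : FreyPackage)

/-- **Kernel of reduction** on the Frey curve at a valuation subring `A` of `ℚ̄`: the point is
`0` or its `x`-coordinate (on the Frey model `y² + xy = x³ + a₂x² + a₄x`) has valuation `> 1`. -/
def InKer (A : ValuationSubring Qbar) (Q : (P.freyCurve⁄Qbar).Point) : Prop :=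
  InE1 A.valuation (ptX (W := (P.freyCurve⁄Qbar))) Q

theorem inKer_iff (A : ValuationSubring Qbar) (Q : (P.freyCurve⁄Qbar).Point) :
    InKer P A Q ↔ Q = 0 ∨ 1 < A.valuation (ptX Q) := Iff.rfl

theorem inKer_zero (A : ValuationSubring Qbar) : InKer P A 0 := Or.inl rfl

theorem inKer_some_iff (A : ValuationSubring Qbar) {x y : Qbar}
    (h : (P.freyCurve⁄Qbar).Nonsingular x y) :
    InKer P A (Point.some x y h) ↔ 1 < A.valuation x :=
  ⟨fun H => H.resolve_left (Point.some_ne_zero _), fun H => Or.inr H⟩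

/-- The unshifted Legendre model of the Frey curve. -/
noncomputable abbrev legA : WeierstrassCurve ℚ :=
  legendreModel ((P.b : ℚ) ^ P.p - (P.a : ℚ) ^ P.p) (-((P.a : ℚ) ^ P.p * (P.b : ℚ) ^ P.p))

/-- The shifted Legendre model of the Frey curve. -/
noncomputable abbrev legC : WeierstrassCurve ℚ :=
  legendreModel ((P.a : ℚ) ^ P.p + (P.c : ℚ) ^ P.p) ((P.a : ℚ) ^ P.p * (P.c : ℚ) ^ P.p)

theorem varChangeA : IsVarChange (P.freyCurve⁄Qbar) ((legA P)⁄Qbar)
    (algebraMap ℚ Qbar 2) (algebraMap ℚ Qbar 0) (algebraMap ℚ Qbar 1) (algebraMap ℚ Qbar 0) :=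
  (frey_isVarChange P).map (algebraMap ℚ Qbar)

theorem varChangeC : IsVarChange (P.freyCurve⁄Qbar) ((legC P)⁄Qbar)
    (algebraMap ℚ Qbar 2) (algebraMap ℚ Qbar (-((P.a : ℚ) ^ P.p))) (algebraMap ℚ Qbar 1)
    (algebraMap ℚ Qbar 0) :=
  (frey_isVarChange_shift P).map (algebraMap ℚ Qbar)

theorem inKer_iff_legA (A : ValuationSubring Qbar) (h2 : A.valuation (2 : Qbar) = 1)
    (Q : (P.freyCurve⁄Qbar).Point) :
    InKer P A Q ↔ InE1 A.valuation (ptX (W := ((legA P)⁄Qbar))) (vcHom (varChangeA P) Q) := by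
  refine (inE1_vcHom_iff A.valuation (varChangeA P) ?_ ?_ Q).symm
  · rw [map_ofNat]; exact h2
  · rw [_root_.map_zero, _root_.map_zero]; exact zero_le_one

theorem inKer_iff_legC (A : ValuationSubring Qbar) (h2 : A.valuation (2 : Qbar) = 1)
    (Q : (P.freyCurve⁄Qbar).Point) :
    InKer P A Q ↔ InE1 A.valuation (ptX (W := ((legC P)⁄Qbar))) (vcHom (varChangeC P) Q) := by
  refine (inE1_vcHom_iff A.valuation (varChangeC P) ?_ ?_ Q).symm
  · rw [map_ofNat]; exact h2
  · have : algebraMap ℚ Qbar (-((P.a : ℚ) ^ P.p)) = ((-(P.a ^ P.p) : ℤ) : Qbar) := by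
      push_cast; simp
    rw [this]
    exact (A.valuation_le_one_iff _).mpr (intCast_mem' A _)

theorem legA_a₂_mem (A : ValuationSubring Qbar) : algebraMap ℚ Qbar (legA P).a₂ ∈ A := by
  have : algebraMap ℚ Qbar (legA P).a₂ = ((P.b ^ P.p - P.a ^ P.p : ℤ) : Qbar) := by
    simp only [legendreModel_a₂]; push_cast; simp
  rw [this]; exact intCast_mem' A _

theorem legA_a₄_mem (A : ValuationSubring Qbar) : algebraMap ℚ Qbar (legA P).a₄ ∈ A := by
  have : algebraMap ℚ Qbar (legA P).a₄ = ((-(P.a ^ P.p * P.b ^ P.p) : ℤ) : Qbar) := by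
    simp only [legendreModel_a₄]; push_cast; simp
  rw [this]; exact intCast_mem' A _

/-- The kernel of reduction of the Frey curve at a valuation subring with `2` a unit is closed
under addition. -/
theorem inKer_add' (A : ValuationSubring Qbar) (h2 : A.valuation (2 : Qbar) = 1)
    {Q R : (P.freyCurve⁄Qbar).Point} (hQ : InKer P A Q) (hR : InKer P A R) :
    InKer P A (Q + R) := by
  rw [inKer_iff_legA P A h2] at hQ hR ⊢
  rw [map_add]
  exact local_inE1_add A (legA P) rfl rfl rfl (legA_a₂_mem P A) (legA_a₄_mem P A) hQ hR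

theorem inKer_neg' (A : ValuationSubring Qbar) (h2 : A.valuation (2 : Qbar) = 1)
    {Q : (P.freyCurve⁄Qbar).Point} (hQ : InKer P A Q) : InKer P A (-Q) := by
  rw [inKer_iff_legA P A h2] at hQ ⊢
  rw [map_neg]
  exact local_inE1_neg A (legA P) rfl rfl rfl hQ

/-- **The kernel of reduction of the Frey curve** at a valuation subring `A` of `ℚ̄` in which
`2` is a unit, as an additive subgroup of `E(ℚ̄)`. -/
noncomputable def kerRed (A : ValuationSubring Qbar) (h2 : A.valuation (2 : Qbar) = 1) :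
    AddSubgroup (P.freyCurve⁄Qbar).Point where
  carrier := {Q | InKer P A Q}
  zero_mem' := inKer_zero P A
  add_mem' := fun hQ hR => inKer_add' P A h2 hQ hR
  neg_mem' := fun hQ => inKer_neg' P A h2 hQ

theorem mem_kerRed_iff (A : ValuationSubring Qbar) (h2 : A.valuation (2 : Qbar) = 1)
    {Q : (P.freyCurve⁄Qbar).Point} : Q ∈ kerRed P A h2 ↔ InKer P A Q := Iff.rfl

variable {P}

theorem two_unit {A : ValuationSubring Qbar} {q : ℕ} (hq : q.Prime) (hq2 : q ≠ 2)
    (hA : A.LiesOverPrime q) : A.valuation (2 : Qbar) = 1 :=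
  valuation_two_eq_one A hq hA hq2

theorem inKer_add {A : ValuationSubring Qbar} {q : ℕ} (hq : q.Prime) (hq2 : q ≠ 2)
    (hA : A.LiesOverPrime q) {Q R : (P.freyCurve⁄Qbar).Point} (hQ : InKer P A Q)
    (hR : InKer P A R) : InKer P A (Q + R) :=
  inKer_add' P A (two_unit hq hq2 hA) hQ hR

theorem inKer_neg {A : ValuationSubring Qbar} {q : ℕ} (hq : q.Prime) (hq2 : q ≠ 2)
    (hA : A.LiesOverPrime q) {Q : (P.freyCurve⁄Qbar).Point} (hQ : InKer P A Q) :
    InKer P A (-Q) :=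
  inKer_neg' P A (two_unit hq hq2 hA) hQ

theorem inKer_sub {A : ValuationSubring Qbar} {q : ℕ} (hq : q.Prime) (hq2 : q ≠ 2)
    (hA : A.LiesOverPrime q) {Q R : (P.freyCurve⁄Qbar).Point} (hQ : InKer P A Q)
    (hR : InKer P A R) : InKer P A (Q - R) := by
  rw [sub_eq_add_neg]
  exact inKer_add hq hq2 hA hQ (inKer_neg hq hq2 hA hR)

theorem inKer_nsmul {A : ValuationSubring Qbar} {q : ℕ} (hq : q.Prime) (hq2 : q ≠ 2)
    (hA : A.LiesOverPrime q) {Q : (P.freyCurve⁄Qbar).Point} (hQ : InKer P A Q) (n : ℕ) :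
    InKer P A (n • Q) :=
  (kerRed P A (two_unit hq hq2 hA)).nsmul_mem hQ n

theorem inKer_zsmul {A : ValuationSubring Qbar} {q : ℕ} (hq : q.Prime) (hq2 : q ≠ 2)
    (hA : A.LiesOverPrime q) {Q : (P.freyCurve⁄Qbar).Point} (hQ : InKer P A Q) (n : ℤ) :
    InKer P A (n • Q) :=
  (kerRed P A (two_unit hq hq2 hA)).zsmul_mem hQ n

/-- **Inertia moves `p`-torsion inside the kernel of reduction** (any odd prime `q`, including
`q = P.p`): for a valuation subring `A` of `ℚ̄` over `q`, `σ ∈ I_A` and a `p`-torsion point `Q`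
of the Frey curve, `σ • Q - Q` lies in the kernel of reduction at `A`. -/
theorem inertia_sub_inKer (P : FreyPackage) (A : ValuationSubring Qbar) {q : ℕ} (hq : q.Prime)
    (hq2 : q ≠ 2) (hA : A.LiesOverPrime q) (σ : Qbar ≃ₐ[ℚ] Qbar)
    (hσ : σ ∈ A.inertiaSubgroupIn ℚ) (Q : (P.freyCurve⁄Qbar).Point) (hQ : P.p • Q = 0) :
    InKer P A (σ • Q - Q) := by
  have h2 := two_unit hq hq2 hA
  have hp2 : P.p ≠ 2 := by have := P.hp5; omega
  have hFLT := P.hFLT
  by_cases hc : (q : ℤ) ∣ P.c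
  · -- `q ∣ c`: shifted model `Y² = X (X + a^p) (X + c^p)`
    have hb : ¬ (q : ℤ) ∣ P.b :=
      not_dvd_of_gcd_eq_one hq (by rw [gcd_comm]; exact P.hgcdbc) hc
    rw [inKer_iff_legC P A h2, map_sub, vcHom_smul (varChangeC P) σ Q]
    have hQ' : P.p • vcHom (varChangeC P) Q = 0 := by rw [← map_nsmul, hQ, _root_.map_zero]
    have e1 : (((P.a ^ P.p + P.c ^ P.p : ℤ) : ℚ)) = (P.a : ℚ) ^ P.p + (P.c : ℚ) ^ P.p := by
      push_cast; ring
    have e2 : ((1 : ℤ) : ℚ) * ((P.a * P.c : ℤ) : ℚ) ^ P.p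
        = (P.a : ℚ) ^ P.p * (P.c : ℚ) ^ P.p := by
      push_cast; ring
    have key := legendre_sub_mem hq hq2 P.pp hp2 (P.a ^ P.p + P.c ^ P.p) (P.a * P.c)
      (P.b ^ P.p) (mul_ne_zero P.ha0 P.hc0) 1 (Or.inl rfl)
      (fun h => hb ((Nat.prime_iff_prime_int.mp hq).dvd_of_dvd_pow h))
      (by rw [mul_pow, ← hFLT]; ring) A hA σ hσ
    rw [e1, e2] at key
    exact key _ hQ'
  · -- `q ∤ c`: model `Y² = X (X - a^p) (X + b^p)`
    rw [inKer_iff_legA P A h2, map_sub, vcHom_smul (varChangeA P) σ Q]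
    have hQ' : P.p • vcHom (varChangeA P) Q = 0 := by rw [← map_nsmul, hQ, _root_.map_zero]
    have e1 : (((P.b ^ P.p - P.a ^ P.p : ℤ) : ℚ)) = (P.b : ℚ) ^ P.p - (P.a : ℚ) ^ P.p := by
      push_cast; ring
    have e2 : ((-1 : ℤ) : ℚ) * ((P.a * P.b : ℤ) : ℚ) ^ P.p
        = -((P.a : ℚ) ^ P.p * (P.b : ℚ) ^ P.p) := by
      push_cast; ring
    have key := legendre_sub_mem hq hq2 P.pp hp2 (P.b ^ P.p - P.a ^ P.p) (P.a * P.b)
      (P.c ^ P.p) (mul_ne_zero P.ha0 P.hb0) (-1) (Or.inr rfl)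
      (fun h => hc ((Nat.prime_iff_prime_int.mp hq).dvd_of_dvd_pow h))
      (by rw [mul_pow, ← hFLT]; ring) A hA σ hσ
    rw [e1, e2] at key
    exact key _ hQ'

end Frey

end Fermat.Agent.S13.helper1633
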