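import Fermat.Agent.S13.helper3073_AtP
import Fermat.Agent.S13.helper1633_LocalAtP
import Fermat.Agent.Lib.helper4453_NewtonBound

/-!
# S13, ingredient I5 (`at_p`) for the Frey curve, modulo the division polynomial only (helper3073)

`at_p_of_divPoly` is the field `at_p` of the S13 skeletons (with the exact count `p ^ 2` as a
hypothesis, as in `helper613.WeakIngredients` / `helper8682.Inputs`), from ONE remaining input:

* `DivPolyStmt P.freyCurve P.p` : for every valuation subring `A` of `ℚ̄` over `p` there is a
  polynomial `Ψ` with `A`-integral coefficients, `v p ≤ v (leadingCoeff Ψ)`, vanishing at the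
  `x`-coordinate of every affine point killed by `p`  (= the `p`-th division polynomial).

The local inputs at `p` come from `helper1633_LocalAtP` (on main), the Newton bound from
`Lib/helper4453_NewtonBound` (on main), the assembly from `helper3073_AtP`.
-/

set_option autoImplicit false
open WeierstrassCurve WeierstrassCurve.Affine WeierstrassCurve.Affine.Point

namespace Fermat.Agent.S13.helper3073

noncomputable section

/-- **Division polynomial input.** -/
def DivPolyStmt (W : WeierstrassCurve ℚ) (p : ℕ) : Prop :=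
  ∀ A : ValuationSubring (AlgebraicClosure ℚ), A.LiesOverPrime p →
    ∃ Ψ : Polynomial (AlgebraicClosure ℚ),
      (∀ i, A.valuation (Ψ.coeff i) ≤ 1) ∧
      A.valuation (p : AlgebraicClosure ℚ) ≤ A.valuation Ψ.leadingCoeff ∧
      ∀ (x y : AlgebraicClosure ℚ) (h : (W⁄(AlgebraicClosure ℚ)).Nonsingular x y),
        p • (Point.some x y h : Pt W) = 0 → Ψ.eval x = 0

/-- The Newton bound turns the division polynomial into `DivBound`. -/
theorem divBound_of_divPoly {W : WeierstrassCurve ℚ} {p : ℕ} (h : DivPolyStmt W p) :
    DivBound W p := by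
  intro A hA X hX
  obtain ⟨Ψ, hint, hlead, hroot⟩ := h A hA
  have hS : ∀ t ∈ X, Ψ.eval t = 0 ∧ 1 < A.valuation t := by
    intro t ht
    obtain ⟨htA, Q, hQ0, hQx⟩ := hX t ht
    refine ⟨?_, ?_⟩
    · have hQp : p • (Q : Pt W) = 0 := by
        have := Q.2
        rw [Submodule.mem_torsionBy_iff, natCast_zsmul] at this
        exact this
      have hQ0' : (Q : Pt W) ≠ 0 := fun h => hQ0 (Subtype.ext h)
      generalize (Q : Pt W) = T at hQp hQ0' hQx
      cases T with
      | zero => exact absurd rfl hQ0'
      | some x' y' hxy =>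
        have hx' : x' = t := hQx
        subst hx'
        exact hroot x' y' hxy hQp
    · rw [← ValuationSubring.valuation_le_one_iff, not_le] at htA
      exact htA
  have hb := Fermat.Agent.Lib.helper4453.newton_bound A.valuation X Ψ hint hS
  rw [← ValuationSubring.valuation_le_one_iff, map_mul, map_prod]
  exact le_trans (mul_le_mul_left hlead _) hb

theorem ptX_eq_xc {W : WeierstrassCurve ℚ} (Q : Pt W) :
    Fermat.Agent.S05.helper245.ptX Q = xc Q := by
  cases Q <;> rfl

theorem inKer_iff_helper1633 (P : FreyPackage) (A : ValuationSubring (AlgebraicClosure ℚ))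
    (Q : Pt P.freyCurve) : InKer A Q ↔ Fermat.Agent.S13.helper1633.InKer P A Q := by
  rw [inKer_iff_valuation, Fermat.Agent.S13.helper1633.inKer_iff, ptX_eq_xc]

/-- The kernel of reduction of the Frey curve at a place over `p` is closed under addition. -/
theorem kerAdd_frey (P : FreyPackage) : KerAdd P.freyCurve P.p := by
  have hp2 : P.p ≠ 2 := by have := P.hp5; omega
  apply kerAdd_of_forall
  intro A hA Q R hQ hR
  rw [inKer_iff_helper1633] at hQ hR ⊢
  exact Fermat.Agent.S13.helper1633.inKer_add P.pp hp2 hA hQ hR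

/-- Inertia at a place over `p` moves `p`-torsion points of the Frey curve inside the kernel
of reduction. -/
theorem inertiaKer_frey (P : FreyPackage) : InertiaKer P.freyCurve P.p := by
  have hp2 : P.p ≠ 2 := by have := P.hp5; omega
  apply inertiaKer_of_forall
  intro A hA σ hσ Q hQ
  rw [inKer_iff_helper1633]
  exact Fermat.Agent.S13.helper1633.inertia_sub_inKer P A P.pp hp2 hA σ hσ Q hQ

/-- **Field `at_p`** (shape of `helper613.WeakIngredients.at_p` / `helper8682.Inputs.at_p`),
from the division polynomial statement alone. -/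
theorem at_p_of_divPoly (P : FreyPackage) (hΨ : DivPolyStmt P.freyCurve P.p) :
    Nat.card (Submodule.torsionBy ℤ ((P.freyCurve)⁄(AlgebraicClosure ℚ)).Point P.p) = P.p ^ 2 →
    ∀ N : Submodule (ZMod P.p)
        (Submodule.torsionBy ℤ ((P.freyCurve)⁄(AlgebraicClosure ℚ)).Point P.p),
      IsGaloisStable ℚ N → N ≠ ⊥ → N ≠ ⊤ →
      (∀ A : ValuationSubring (AlgebraicClosure ℚ), A.LiesOverPrime P.p →
        ∀ σ ∈ A.inertiaSubgroupIn ℚ, ∀ x ∈ N, σ • x = x) ∨
      (∀ A : ValuationSubring (AlgebraicClosure ℚ), A.LiesOverPrime P.p →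
        ∀ σ ∈ A.inertiaSubgroupIn ℚ,
          ∀ x : Submodule.torsionBy ℤ ((P.freyCurve)⁄(AlgebraicClosure ℚ)).Point P.p,
            σ • x - x ∈ N) :=
  fun hcard => at_p_of_frey P hcard (kerAdd_frey P) (inertiaKer_frey P) (divBound_of_divPoly hΨ)

end

end Fermat.Agent.S13.helper3073
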