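import Mathlib
import Fermat.Prelude.Def_FLTPrelim_FreyPackage
import Fermat.Prelude.Def_FLTPrelim_GaloisRep
import Fermat.Prelude.Def_FLTPrelim_Ramification
import Fermat.Prelude.Def_FLTPrelim_CofixedLine

/-!
# S13, ingredient I7 (`open_stab`): point stabilisers are open

For an algebraic field extension `K / S` and a Weierstrass curve `W'` over a ring `R` mapping
to `S`, the stabiliser in `K ≃ₐ[S] K` (Krull topology) of any `K`-point of `W'`, and of any
`n`-torsion point, is open: it contains the fixing subgroup of the finite extension generated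
by the two coordinates.

`open_stab` is the field `open_stab` of `helper13.Ingredients`, verbatim (types unfolded).
-/

set_option autoImplicit false
open WeierstrassCurve WeierstrassCurve.Affine WeierstrassCurve.Affine.Point

namespace Fermat.Agent.S13.helper4462

section General

variable {R : Type*} {S : Type*} {K : Type*} [CommRing R] [Field S] [Field K]
  [DecidableEq K] [Algebra R S] [Algebra R K] [Algebra S K] [IsScalarTower R S K]
  {W' : Affine R}

/-- The fixing subgroup of `S(x, y)` fixes the affine point `(x, y)`. -/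
theorem fixingSubgroup_le_stabilizer_some {x y : K} (h : (W'⁄K).Nonsingular x y) :
    (IntermediateField.adjoin S ({x, y} : Set K)).fixingSubgroup ≤
      MulAction.stabilizer (K ≃ₐ[S] K) (Point.some x y h : (W'⁄K).Point) := by
  intro σ hσ
  rw [MulAction.mem_stabilizer_iff]
  have hx : σ x = x := hσ ⟨x, IntermediateField.subset_adjoin S _ (by simp)⟩
  have hy : σ y = y := hσ ⟨y, IntermediateField.subset_adjoin S _ (by simp)⟩
  change Point.map σ.toAlgHom (Point.some x y h) = Point.some x y h
  rw [Point.map_some]
  simp only [Point.some.injEq]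
  exact ⟨hx, hy⟩

/-- The stabiliser of a `K`-point of a Weierstrass curve is open in the Krull topology. -/
theorem isOpen_stabilizer_point [Algebra.IsAlgebraic S K] (Q : (W'⁄K).Point) :
    IsOpen (MulAction.stabilizer (K ≃ₐ[S] K) Q : Set (K ≃ₐ[S] K)) := by
  rcases Q with _ | ⟨x, y, h⟩
  · have : MulAction.stabilizer (K ≃ₐ[S] K) (Point.zero : (W'⁄K).Point) = ⊤ := by
      ext σ
      simp only [MulAction.mem_stabilizer_iff, Subgroup.mem_top, iff_true]
      rfl
    rw [this]
    exact isOpen_univ
  · have hfd : FiniteDimensional S (IntermediateField.adjoin S ({x, y} : Set K)) := by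
      have : Finite ({x, y} : Set K) := ((Set.finite_singleton y).insert x).to_subtype
      exact IntermediateField.finiteDimensional_adjoin
        (fun z _ => (Algebra.IsAlgebraic.isAlgebraic z).isIntegral)
    exact Subgroup.isOpen_mono (fixingSubgroup_le_stabilizer_some h)
      (IntermediateField.fixingSubgroup_isOpen _)

/-- Set form of `isOpen_stabilizer_point`. -/
theorem isOpen_setOf_smul_eq_point [Algebra.IsAlgebraic S K] (Q : (W'⁄K).Point) :
    IsOpen {σ : K ≃ₐ[S] K | σ • Q = Q} :=
  isOpen_stabilizer_point Q

/-- The stabiliser of an `n`-torsion point is open in the Krull topology. -/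
theorem isOpen_setOf_smul_eq_torsion [Algebra.IsAlgebraic S K] (n : ℕ)
    (x : Submodule.torsionBy ℤ (W'⁄K).Point n) :
    IsOpen {σ : K ≃ₐ[S] K | σ • x = x} := by
  have : {σ : K ≃ₐ[S] K | σ • x = x} = {σ : K ≃ₐ[S] K | σ • (x : (W'⁄K).Point) = x} := by
    ext σ
    change σ • x = x ↔ σ • (x : (W'⁄K).Point) = x
    constructor
    · intro h
      exact congrArg Subtype.val h
    · intro h
      exact Subtype.ext h
  rw [this]
  exact isOpen_setOf_smul_eq_point (x : (W'⁄K).Point)

end General

/-- **I7** (`open_stab` of `helper13.Ingredients`): stabilisers of `p`-torsion points of the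
Frey curve are open in `Gal(ℚ̄/ℚ)`. -/
theorem open_stab (P : FreyPackage) :
    ∀ x : Submodule.torsionBy ℤ ((P.freyCurve)⁄(AlgebraicClosure ℚ)).Point P.p,
      IsOpen {σ : AlgebraicClosure ℚ ≃ₐ[ℚ] AlgebraicClosure ℚ | σ • x = x} :=
  haveI : Algebra.IsAlgebraic ℚ (AlgebraicClosure ℚ) := AlgebraicClosure.isAlgebraic ℚ
  fun x => isOpen_setOf_smul_eq_torsion P.p x

end Fermat.Agent.S13.helper4462
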