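import Mathlib

/-!
# The 2-adic x-only ladder (helper4507)

Abstract core of S13-I4 ("the Frey curve has no rational point of order `p`").

`NodeData X β a₄ h` axiomatises an `x`-coordinate function `X : G → ℚ` on an abelian group `G`
satisfying the duplication and the product formula of a curve `y² + xy = x³ + a₂x² + a₄x`
(`β = 1 + 4a₂` a `2`-adic unit, `v₂(a₄) = h ≥ 1`: node at the origin modulo `2`).
`NodeData.no_torsion`: if `p ≥ 5` is a prime not dividing `2h`, then `G` has no element of order `p`.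

The proof only uses the `2`-adic valuations of `x`-coordinates ("depths"):
* depth `< 0` is impossible: doubling makes the depth strictly smaller, but `2^(p-1) Q = Q`;
* depth `0` is impossible: then `3Q` has depth `< 0`;
* depth `≥ h` is impossible: then `2Q` has depth `≤ 0`;
* for depth `0 < m < h`, the ladder gives `depth (nQ) = nm` or `2h - nm` as long as `nm < 2h`;
  at the first `N` with `Nm ≥ 2h`, either `p ∣ N` and `Nm = 2h` (so `p ∣ 2h`), or `NQ` has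
  depth `Nm - 2h < m` and we conclude by descent on `m`.
-/

set_option autoImplicit false

namespace Fermat.Agent.S13.helper4507

local notation "v₂" => padicValRat 2

section Val

theorem v_mul {x y : ℚ} (hx : x ≠ 0) (hy : y ≠ 0) : v₂ (x * y) = v₂ x + v₂ y :=
  padicValRat.mul hx hy

theorem v_sq (x : ℚ) : v₂ (x ^ 2) = 2 * v₂ x := by
  rw [padicValRat.pow]; norm_num

theorem v_two : v₂ (2 : ℚ) = 1 := by
  have := padicValRat.self (p := 2) (by norm_num : 1 < 2)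
  simpa using this

theorem v_four : v₂ (4 : ℚ) = 2 := by
  have : (4 : ℚ) = 2 ^ 2 := by norm_num
  rw [this, v_sq, v_two]; norm_num

theorem v_four_mul {x : ℚ} (hx : x ≠ 0) : v₂ (4 * x) = 2 + v₂ x := by
  rw [v_mul (by norm_num) hx, v_four]

theorem v_add_left {x y : ℚ} (hx : x ≠ 0) (h : y = 0 ∨ v₂ x < v₂ y) :
    x + y ≠ 0 ∧ v₂ (x + y) = v₂ x := by
  rcases eq_or_ne y 0 with rfl | hy
  · simpa using hx
  · have hlt : v₂ x < v₂ y := h.resolve_left hy
    have hxy : x + y ≠ 0 := by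
      intro h0
      have : y = -x := by linarith
      rw [this, padicValRat.neg] at hlt
      exact lt_irrefl _ hlt
    exact ⟨hxy, padicValRat.add_eq_of_lt hxy hx hy hlt⟩

theorem v_sub_left {x y : ℚ} (hx : x ≠ 0) (h : y = 0 ∨ v₂ x < v₂ y) :
    x - y ≠ 0 ∧ v₂ (x - y) = v₂ x := by
  have h' : -y = 0 ∨ v₂ x < v₂ (-y) := by
    rcases h with h | h
    · left; simpa using h
    · right; rwa [padicValRat.neg]
  have := v_add_left hx h'
  rwa [← sub_eq_add_neg] at this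

theorem v_sub_right {x y : ℚ} (hy : y ≠ 0) (h : x = 0 ∨ v₂ y < v₂ x) :
    x - y ≠ 0 ∧ v₂ (x - y) = v₂ y := by
  have := v_sub_left hy h
  have e : x - y = -(y - x) := by ring
  rw [e, padicValRat.neg]
  exact ⟨neg_ne_zero.mpr this.1, this.2⟩

theorem v_add_ge {x y : ℚ} {k : ℤ} (hx : x = 0 ∨ k ≤ v₂ x) (hy : y = 0 ∨ k ≤ v₂ y) :
    x + y = 0 ∨ k ≤ v₂ (x + y) := by
  by_cases hxy : x + y = 0
  · exact Or.inl hxy
  right
  rcases hx with rfl | hx
  · rcases hy with rfl | hy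
    · simp at hxy
    · simpa using hy
  rcases hy with rfl | hy
  · simpa using hx
  exact le_trans (le_min hx hy) (padicValRat.min_le_padicValRat_add hxy)

theorem v_sub_ge {x y : ℚ} {k : ℤ} (hx : x = 0 ∨ k ≤ v₂ x) (hy : y = 0 ∨ k ≤ v₂ y) :
    x - y = 0 ∨ k ≤ v₂ (x - y) := by
  have hy' : -y = 0 ∨ k ≤ v₂ (-y) := by
    rcases hy with h | h
    · left; simpa using h
    · right; rwa [padicValRat.neg]
  have := v_add_ge hx hy'
  rwa [← sub_eq_add_neg] at this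

theorem v_sub_tri {u w : ℚ} (hu : u ≠ 0) (hw : w ≠ 0) (huw : u - w ≠ 0) :
    (v₂ u < v₂ w → v₂ (u - w) = v₂ u) ∧ (v₂ w < v₂ u → v₂ (u - w) = v₂ w) ∧
    (v₂ u = v₂ w → v₂ u ≤ v₂ (u - w)) := by
  refine ⟨fun h => (v_sub_left hu (Or.inr h)).2, fun h => (v_sub_right hw (Or.inr h)).2,
    fun h => ?_⟩
  exact (v_sub_ge (Or.inr le_rfl) (Or.inr h.le)).resolve_left huw

/-- a rational of `2`-adic valuation `0` has odd numerator and denominator -/
theorem odd_num_den {t : ℚ} (ht : t ≠ 0) (h0 : v₂ t = 0) :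
    ¬ (2 : ℤ) ∣ t.num ∧ ¬ 2 ∣ t.den := by
  rw [padicValRat_def] at h0
  have hnum : t.num ≠ 0 := Rat.num_ne_zero.2 ht
  by_cases h2n : (2 : ℤ) ∣ t.num
  · by_cases h2d : 2 ∣ t.den
    · exfalso
      have h1 : 2 ∣ t.num.natAbs := Int.natCast_dvd.mp h2n
      have h2 : 2 ∣ Nat.gcd t.num.natAbs t.den := Nat.dvd_gcd h1 h2d
      have h3 : Nat.gcd t.num.natAbs t.den = 1 := t.reduced
      rw [h3] at h2
      omega
    · exfalso
      have h1 : padicValNat 2 t.den = 0 := padicValNat.eq_zero_of_not_dvd h2d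
      have h2 : 1 ≤ padicValInt 2 t.num := by
        have := (padicValInt_dvd_iff (p := 2) 1 t.num).mp (by simpa using h2n)
        rcases this with h | h
        · exact absurd h hnum
        · exact h
      rw [h1] at h0
      have : (1 : ℤ) ≤ (padicValInt 2 t.num : ℤ) := by exact_mod_cast h2
      have h0' : (padicValInt 2 t.num : ℤ) - ((0 : ℕ) : ℤ) = 0 := h0
      rw [Nat.cast_zero] at h0'
      omega
  · refine ⟨h2n, fun h2d => ?_⟩
    have h1 : padicValInt 2 t.num = 0 := padicValInt.eq_zero_of_not_dvd h2n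
    have h2 : 1 ≤ padicValNat 2 t.den := one_le_padicValNat_of_dvd t.den_nz h2d
    rw [h1] at h0
    have : (1 : ℤ) ≤ (padicValNat 2 t.den : ℤ) := by exact_mod_cast h2
    have h0' : ((0 : ℕ) : ℤ) - (padicValNat 2 t.den : ℤ) = 0 := h0
    rw [Nat.cast_zero] at h0'
    omega

/-- two distinct `2`-adic units differ by a non-unit -/
theorem v_sub_units {u w : ℚ} (hu : u ≠ 0) (hw : w ≠ 0) (hu0 : v₂ u = 0) (hw0 : v₂ w = 0)
    (huw : u - w ≠ 0) : 1 ≤ v₂ (u - w) := by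
  obtain ⟨hun, hud⟩ := odd_num_den hu hu0
  obtain ⟨hwn, hwd⟩ := odd_num_den hw hw0
  have hud' : (u.den : ℚ) ≠ 0 := by exact_mod_cast u.den_nz
  have hwd' : (w.den : ℚ) ≠ 0 := by exact_mod_cast w.den_nz
  have e : u - w = ((u.num * w.den - w.num * u.den : ℤ) : ℚ) / ((u.den * w.den : ℕ) : ℚ) := by
    conv_lhs => rw [← Rat.num_div_den u, ← Rat.num_div_den w]
    push_cast
    field_simp
  have hN0 : ((u.num * w.den - w.num * u.den : ℤ) : ℚ) ≠ 0 := by
    intro h0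
    rw [h0, zero_div] at e
    exact huw e
  have hN0' : (u.num * w.den - w.num * u.den : ℤ) ≠ 0 := by
    intro h0; apply hN0; rw [h0]; simp
  have hD0 : ((u.den * w.den : ℕ) : ℚ) ≠ 0 := by push_cast; exact mul_ne_zero hud' hwd'
  have hNe : (2 : ℤ) ∣ u.num * w.den - w.num * u.den := by
    have o1 : Odd u.num := Int.not_even_iff_odd.mp (fun h => hun (even_iff_two_dvd.mp h))
    have o2 : Odd w.num := Int.not_even_iff_odd.mp (fun h => hwn (even_iff_two_dvd.mp h))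
    have o3 : Odd (u.den : ℤ) := by
      have : Odd u.den := Nat.not_even_iff_odd.mp (fun h => hud (even_iff_two_dvd.mp h))
      exact_mod_cast this
    have o4 : Odd (w.den : ℤ) := by
      have : Odd w.den := Nat.not_even_iff_odd.mp (fun h => hwd (even_iff_two_dvd.mp h))
      exact_mod_cast this
    exact even_iff_two_dvd.mp ((o1.mul o4).sub_odd (o2.mul o3))
  have hDv : v₂ ((u.den * w.den : ℕ) : ℚ) = 0 := by
    rw [padicValRat.of_nat]
    have : ¬ 2 ∣ u.den * w.den := by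
      intro h
      rcases (Nat.Prime.dvd_mul Nat.prime_two).mp h with h | h
      · exact hud h
      · exact hwd h
    simp [padicValNat.eq_zero_of_not_dvd this]
  have hNv : 1 ≤ v₂ ((u.num * w.den - w.num * u.den : ℤ) : ℚ) := by
    rw [padicValRat.of_int]
    have := (padicValInt_dvd_iff (p := 2) 1 (u.num * w.den - w.num * u.den)).mp (by simpa using hNe)
    rcases this with h | h
    · exact absurd h hN0'
    · exact_mod_cast h
  rw [e, padicValRat.div hN0 hD0, hDv]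
  omega

end Val

/-- Abstract `x`-coordinate data of a curve `y² + xy = x³ + a₂x² + a₄x` with a node at the origin
modulo `2` (`β = 1 + 4a₂`, `h = v₂(a₄) ≥ 1`). -/
structure NodeData {G : Type*} [AddCommGroup G] (X : G → ℚ) (β a₄ : ℚ) (h : ℤ) : Prop where
  hβ0 : β ≠ 0
  hβ : padicValRat 2 β = 0
  ha0 : a₄ ≠ 0
  ha : padicValRat 2 a₄ = h
  hh : 1 ≤ h
  neg : ∀ Q : G, X (-Q) = X Q
  dup : ∀ Q : G, Q ≠ 0 → Q + Q ≠ 0 →
    X Q * (4 * X Q ^ 2 + β * X Q + 4 * a₄) ≠ 0 ∧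
    X (Q + Q) * (X Q * (4 * X Q ^ 2 + β * X Q + 4 * a₄)) = (X Q ^ 2 - a₄) ^ 2
  addsub : ∀ Q R : G, Q ≠ 0 → R ≠ 0 → Q + R ≠ 0 → Q - R ≠ 0 →
    X Q ≠ X R ∧ (X Q - X R) ^ 2 * (X (Q + R) * X (Q - R)) = (X Q * X R - a₄) ^ 2

section Core

variable {G : Type*} [AddCommGroup G] {X : G → ℚ} {β a₄ : ℚ} {h : ℤ} {p : ℕ}

/-- `Q` has exact order `p` (for `p` prime). -/
def IsOrd (p : ℕ) (Q : G) : Prop := Q ≠ 0 ∧ p • Q = 0

theorem IsOrd.nsmul_eq_zero_iff (hp : p.Prime) {Q : G} (hQ : IsOrd p Q) (n : ℕ) :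
    n • Q = 0 ↔ p ∣ n := by
  have : Fact p.Prime := Fact.mk hp
  have : addOrderOf Q = p := addOrderOf_eq_prime hQ.2 hQ.1
  rw [← this]
  exact addOrderOf_dvd_iff_nsmul_eq_zero.symm

theorem IsOrd.nsmul (hp : p.Prime) {Q : G} (hQ : IsOrd p Q) {n : ℕ} (hn : ¬ p ∣ n) :
    IsOrd p (n • Q) :=
  ⟨fun h0 => hn ((hQ.nsmul_eq_zero_iff hp n).mp h0), by rw [smul_comm, hQ.2, smul_zero]⟩

theorem not_dvd_two (hp5 : 5 ≤ p) : ¬ p ∣ 2 := fun h => by
  have := Nat.le_of_dvd (by norm_num) h; omega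

theorem not_dvd_three (hp5 : 5 ≤ p) : ¬ p ∣ 3 := fun h => by
  have := Nat.le_of_dvd (by norm_num) h; omega

end Core

namespace NodeData

variable {G : Type*} [AddCommGroup G] {X : G → ℚ} {β a₄ : ℚ} {h : ℤ} {p : ℕ}
variable (D : NodeData X β a₄ h) (hp : p.Prime) (hp5 : 5 ≤ p)

include D hp hp5

omit D in
theorem isOrd_add_self {Q : G} (hQ : IsOrd p Q) : IsOrd p (Q + Q) := by
  rw [← two_nsmul]; exact hQ.nsmul hp (not_dvd_two hp5)

theorem x_ne_zero {Q : G} (hQ : IsOrd p Q) : X Q ≠ 0 :=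
  left_ne_zero_of_mul (D.dup Q hQ.1 (isOrd_add_self hp hp5 hQ).1).1

/-- valuation form of the duplication formula -/
theorem dup_val_eq {Q : G} (hQ : IsOrd p Q) :
    4 * X Q ^ 2 + β * X Q + 4 * a₄ ≠ 0 ∧ X Q ^ 2 - a₄ ≠ 0 ∧
    v₂ (X (Q + Q)) + v₂ (X Q) + v₂ (4 * X Q ^ 2 + β * X Q + 4 * a₄) =
      2 * v₂ (X Q ^ 2 - a₄) := by
  have hQ2 := isOrd_add_self hp hp5 hQ
  obtain ⟨hne, heq⟩ := D.dup Q hQ.1 hQ2.1
  have hx := D.x_ne_zero hp hp5 hQ
  have hx2 := D.x_ne_zero hp hp5 hQ2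
  have hg : 4 * X Q ^ 2 + β * X Q + 4 * a₄ ≠ 0 := right_ne_zero_of_mul hne
  have hr : X Q ^ 2 - a₄ ≠ 0 := by
    intro h0
    have : X (Q + Q) * (X Q * (4 * X Q ^ 2 + β * X Q + 4 * a₄)) = 0 := by
      rw [heq, h0]; norm_num
    exact mul_ne_zero hx2 hne this
  refine ⟨hg, hr, ?_⟩
  have := congrArg (padicValRat 2) heq
  rw [v_mul hx2 hne, v_mul hx hg, v_sq] at this
  linarith

/-- doubling a point of negative depth makes the depth smaller -/
theorem dup_lt {Q : G} (hQ : IsOrd p Q) (hneg : v₂ (X Q) < 0) :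
    v₂ (X (Q + Q)) < v₂ (X Q) := by
  obtain ⟨hg, hr, hv⟩ := D.dup_val_eq hp hp5 hQ
  have hx := D.x_ne_zero hp hp5 hQ
  have hx2 : X Q ^ 2 ≠ 0 := pow_ne_zero 2 hx
  have hh := D.hh
  have h1 : v₂ (X Q ^ 2 - a₄) = 2 * v₂ (X Q) := by
    rw [(v_sub_left hx2 (Or.inr (by rw [v_sq, D.ha]; omega))).2, v_sq]
  have h2 : 2 * v₂ (X Q) + 1 ≤ v₂ (4 * X Q ^ 2 + β * X Q + 4 * a₄) := by
    have ha : 2 * v₂ (X Q) + 1 ≤ v₂ (4 * X Q ^ 2) := by rw [v_four_mul hx2, v_sq]; omega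
    have hb : 2 * v₂ (X Q) + 1 ≤ v₂ (β * X Q) := by rw [v_mul D.hβ0 hx, D.hβ]; omega
    have hc : 2 * v₂ (X Q) + 1 ≤ v₂ (4 * a₄) := by rw [v_four_mul D.ha0, D.ha]; omega
    exact (v_add_ge (v_add_ge (Or.inr ha) (Or.inr hb)) (Or.inr hc)).resolve_left hg
  omega

/-- no point of order `p` in the kernel of reduction -/
theorem not_neg {Q : G} (hQ : IsOrd p Q) : ¬ v₂ (X Q) < 0 := by
  intro hneg
  have key : ∀ k : ℕ, IsOrd p (2 ^ k • Q) ∧ v₂ (X (2 ^ k • Q)) ≤ v₂ (X Q) - k := by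
    intro k
    induction k with
    | zero => simpa using hQ
    | succ k ih =>
      have e : 2 ^ (k + 1) • Q = 2 ^ k • Q + 2 ^ k • Q := by rw [pow_succ, mul_two, add_nsmul]
      rw [e]
      have := D.dup_lt hp hp5 ih.1 (by have := ih.2; omega)
      refine ⟨isOrd_add_self hp hp5 ih.1, ?_⟩
      have := ih.2
      push_cast
      omega
  have hf : 2 ^ (p - 1) • Q = Q := by
    have hcop : Nat.Coprime 2 p := (Nat.coprime_primes Nat.prime_two hp).mpr (by omega)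
    have hmod : 2 ^ (p - 1) % p = 1 := by
      have h0 := Nat.ModEq.pow_totient hcop
      rw [Nat.totient_prime hp] at h0
      have h1 : 1 % p = 1 := Nat.mod_eq_of_lt (by omega)
      have h2 : 2 ^ (p - 1) % p = 1 % p := h0
      rw [h2, h1]
    have hdm := Nat.div_add_mod (2 ^ (p - 1)) p
    rw [hmod] at hdm
    rw [← hdm, add_nsmul, one_nsmul, mul_nsmul, hQ.2, nsmul_zero, zero_add]
  have h1 := (key (p - 1)).2
  rw [hf] at h1
  have h2 : (1 : ℤ) ≤ ((p - 1 : ℕ) : ℤ) := by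
    have : 1 ≤ p - 1 := by omega
    exact_mod_cast this
  omega

/-- no point of order `p` of depth `0` -/
theorem not_unit {Q : G} (hQ : IsOrd p Q) : v₂ (X Q) ≠ 0 := by
  intro h0
  obtain ⟨hg, hr, hv⟩ := D.dup_val_eq hp hp5 hQ
  have hx := D.x_ne_zero hp hp5 hQ
  have hx2 : X Q ^ 2 ≠ 0 := pow_ne_zero 2 hx
  have hQ2 := isOrd_add_self hp hp5 hQ
  have hxx := D.x_ne_zero hp hp5 hQ2
  have hh := D.hh
  have h1 : v₂ (X Q ^ 2 - a₄) = 0 := by
    rw [(v_sub_left hx2 (Or.inr (by rw [v_sq, D.ha, h0]; omega))).2, v_sq, h0]; norm_num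
  have h2 : v₂ (4 * X Q ^ 2 + β * X Q + 4 * a₄) = 0 := by
    have e : 4 * X Q ^ 2 + β * X Q + 4 * a₄ = β * X Q + (4 * X Q ^ 2 + 4 * a₄) := by ring
    have hb : v₂ (β * X Q) = 0 := by rw [v_mul D.hβ0 hx, D.hβ, h0]; norm_num
    have ha : (1 : ℤ) ≤ v₂ (4 * X Q ^ 2) := by rw [v_four_mul hx2, v_sq, h0]; norm_num
    have hc : (1 : ℤ) ≤ v₂ (4 * a₄) := by rw [v_four_mul D.ha0, D.ha]; omega
    have := v_add_ge (Or.inr ha) (Or.inr hc)
    rw [e, (v_add_left (mul_ne_zero D.hβ0 hx) (by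
      rcases this with h | h
      · exact Or.inl h
      · right; omega)).2, hb]
  have h3 : v₂ (X (Q + Q)) = 0 := by omega
  have hQ3 : IsOrd p (Q + Q + Q) := by
    have : Q + Q + Q = 3 • Q := by rw [succ_nsmul, two_nsmul]
    rw [this]; exact hQ.nsmul hp (not_dvd_three hp5)
  have hsub : Q + Q - Q = Q := add_sub_cancel_right Q Q
  obtain ⟨hne, heq⟩ := D.addsub (Q + Q) Q hQ2.1 hQ.1 hQ3.1 (by rw [hsub]; exact hQ.1)
  rw [hsub] at heq
  have hd : X (Q + Q) - X Q ≠ 0 := sub_ne_zero.mpr hne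
  have hx3 := D.x_ne_zero hp hp5 hQ3
  have hprod : X (Q + Q) * X Q ≠ 0 := mul_ne_zero hxx hx
  have h4 : v₂ (X (Q + Q) * X Q - a₄) = 0 := by
    rw [(v_sub_left hprod (Or.inr (by rw [v_mul hxx hx, D.ha, h3, h0]; omega))).2,
      v_mul hxx hx, h3, h0]; norm_num
  have h5 := v_sub_units hxx hx h3 h0 hd
  have := congrArg (padicValRat 2) heq
  rw [v_mul (pow_ne_zero 2 hd) (mul_ne_zero hx3 hx), v_sq, v_mul hx3 hx, v_sq, h4, h0] at this
  exact D.not_neg hp hp5 hQ3 (by omega)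

theorem one_le_val {Q : G} (hQ : IsOrd p Q) : 1 ≤ v₂ (X Q) := by
  have := D.not_neg hp hp5 hQ
  have := D.not_unit hp hp5 hQ
  omega

/-- no point of order `p` of depth `≥ h` -/
theorem val_lt {Q : G} (hQ : IsOrd p Q) : v₂ (X Q) < h := by
  by_contra hcon
  rw [not_lt] at hcon
  obtain ⟨hg, hr, hv⟩ := D.dup_val_eq hp hp5 hQ
  have hx := D.x_ne_zero hp hp5 hQ
  have hx2 : X Q ^ 2 ≠ 0 := pow_ne_zero 2 hx
  have hQ2 := isOrd_add_self hp hp5 hQ
  have hpos := D.one_le_val hp hp5 hQ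
  have hpos2 := D.one_le_val hp hp5 hQ2
  have hh := D.hh
  have h1 : v₂ (X Q ^ 2 - a₄) = h := by
    rw [(v_sub_right D.ha0 (Or.inr (by rw [v_sq, D.ha]; omega))).2, D.ha]
  have h2 : 2 * h - v₂ (X Q) ≤ v₂ (4 * X Q ^ 2 + β * X Q + 4 * a₄) := by
    have ha : 2 * h - v₂ (X Q) ≤ v₂ (4 * X Q ^ 2) := by rw [v_four_mul hx2, v_sq]; omega
    have hb : 2 * h - v₂ (X Q) ≤ v₂ (β * X Q) := by rw [v_mul D.hβ0 hx, D.hβ]; omega
    have hc : 2 * h - v₂ (X Q) ≤ v₂ (4 * a₄) := by rw [v_four_mul D.ha0, D.ha]; omega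
    exact (v_add_ge (v_add_ge (Or.inr ha) (Or.inr hb)) (Or.inr hc)).resolve_left hg
  omega

/-- the depth of `2Q` -/
theorem dup_val {Q : G} (hQ : IsOrd p Q) :
    2 * v₂ (X Q) ≠ h ∧
    v₂ (X (Q + Q)) = if 2 * v₂ (X Q) < h then 2 * v₂ (X Q) else 2 * h - 2 * v₂ (X Q) := by
  obtain ⟨hg, hr, hv⟩ := D.dup_val_eq hp hp5 hQ
  have hx := D.x_ne_zero hp hp5 hQ
  have hx2 : X Q ^ 2 ≠ 0 := pow_ne_zero 2 hx
  have hQ2 := isOrd_add_self hp hp5 hQ
  have hpos := D.one_le_val hp hp5 hQ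
  have hlt := D.val_lt hp hp5 hQ
  have hlt2 := D.val_lt hp hp5 hQ2
  have h2 : v₂ (4 * X Q ^ 2 + β * X Q + 4 * a₄) = v₂ (X Q) := by
    have e : 4 * X Q ^ 2 + β * X Q + 4 * a₄ = β * X Q + (4 * X Q ^ 2 + 4 * a₄) := by ring
    have hb : v₂ (β * X Q) = v₂ (X Q) := by rw [v_mul D.hβ0 hx, D.hβ]; ring
    have ha : v₂ (X Q) + 1 ≤ v₂ (4 * X Q ^ 2) := by rw [v_four_mul hx2, v_sq]; omega
    have hc : v₂ (X Q) + 1 ≤ v₂ (4 * a₄) := by rw [v_four_mul D.ha0, D.ha]; omega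
    have := v_add_ge (Or.inr ha) (Or.inr hc)
    rw [e, (v_add_left (mul_ne_zero D.hβ0 hx) (by
      rcases this with h | h
      · exact Or.inl h
      · right; omega)).2, hb]
  obtain ⟨t1, t2, t3⟩ := v_sub_tri hx2 D.ha0 hr
  rw [v_sq, D.ha] at t1 t2 t3
  split_ifs <;> omega

/-- valuation form of the product formula -/
theorem addsub_val_eq {Q R : G} (hQ : IsOrd p Q) (hR : IsOrd p R) (hadd : IsOrd p (Q + R))
    (hsub : IsOrd p (Q - R)) :
    X Q - X R ≠ 0 ∧ X Q * X R - a₄ ≠ 0 ∧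
    2 * v₂ (X Q - X R) + v₂ (X (Q + R)) + v₂ (X (Q - R)) = 2 * v₂ (X Q * X R - a₄) := by
  obtain ⟨hne, heq⟩ := D.addsub Q R hQ.1 hR.1 hadd.1 hsub.1
  have hd : X Q - X R ≠ 0 := sub_ne_zero.mpr hne
  have h3 := D.x_ne_zero hp hp5 hadd
  have h4 := D.x_ne_zero hp hp5 hsub
  have hl : (X Q - X R) ^ 2 * (X (Q + R) * X (Q - R)) ≠ 0 :=
    mul_ne_zero (pow_ne_zero 2 hd) (mul_ne_zero h3 h4)
  have hr : X Q * X R - a₄ ≠ 0 := by
    intro h0
    rw [heq, h0] at hl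
    simp at hl
  refine ⟨hd, hr, ?_⟩
  have := congrArg (padicValRat 2) heq
  rw [v_mul (pow_ne_zero 2 hd) (mul_ne_zero h3 h4), v_sq, v_mul h3 h4, v_sq] at this
  linarith

/-- expected depth on the ladder: `c` if `c < h`, else `2h - c` -/
def expVal (h c : ℤ) : ℤ := if c < h then c else 2 * h - c

omit D hp hp5 in
/-- integer arithmetic of one ladder step -/
theorem ladder_arith {m h c0 c1 c e0 e1 e2 t : ℤ} (hm : 1 ≤ m) (hc0 : 1 ≤ c0)
    (hc1 : c1 = c0 + m) (hc : c = c1 + m) (hlt : c < 2 * h) (h0 : c0 ≠ h) (h1 : c1 ≠ h)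
    (he0 : e0 = expVal h c0) (he1 : e1 = expVal h c1)
    (hid : 2 * m + e2 + e0 = 2 * t)
    (ht1 : e1 + m < h → t = e1 + m) (ht2 : h < e1 + m → t = h)
    (ht3 : e1 + m = h → e1 + m ≤ t)
    (he2 : e2 < h) :
    c ≠ h ∧ e2 = expVal h c := by
  unfold expVal at *
  split_ifs at he0 he1 ⊢ <;> omega

/-- **The ladder**: the depth of `nQ` is `nm` or `2h - nm` as long as `nm < 2h`. -/
theorem ladder {Q : G} (hQ : IsOrd p Q) {m : ℤ} (hm : v₂ (X Q) = m) :
    ∀ n : ℕ, 1 ≤ n →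
      (∀ c : ℤ, c = (n : ℤ) * m → c < 2 * h →
        ¬ p ∣ n ∧ c ≠ h ∧ v₂ (X (n • Q)) = expVal h c) ∧
      (∀ c : ℤ, c = ((n + 1 : ℕ) : ℤ) * m → c < 2 * h →
        ¬ p ∣ (n + 1) ∧ c ≠ h ∧ v₂ (X ((n + 1) • Q)) = expVal h c) := by
  have hm1 : 1 ≤ m := hm ▸ D.one_le_val hp hp5 hQ
  have hmh : m < h := hm ▸ D.val_lt hp hp5 hQ
  intro n hn
  induction n, hn using Nat.le_induction with
  | base =>
    refine ⟨fun c hc hlt => ⟨?_, ?_, ?_⟩, fun c hc hlt => ⟨?_, ?_, ?_⟩⟩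
    · intro h1
      have := Nat.le_of_dvd (by norm_num) h1
      omega
    · rw [Nat.cast_one, one_mul] at hc; omega
    · rw [Nat.cast_one, one_mul] at hc
      rw [one_nsmul, hm, expVal, if_pos (by omega)]; omega
    · exact not_dvd_two hp5
    · have := (D.dup_val hp hp5 hQ).1
      rw [hm] at this
      push_cast at hc
      omega
    · have := (D.dup_val hp hp5 hQ).2
      rw [hm] at this
      rw [show (1 + 1) • Q = Q + Q from two_nsmul Q, this]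
      unfold expVal
      push_cast at hc
      split_ifs <;> omega
  | succ n hn ih =>
    obtain ⟨ih0, ih1⟩ := ih
    refine ⟨ih1, fun c hc hlt => ?_⟩
    have hn' : (1 : ℤ) ≤ (n : ℤ) := by exact_mod_cast hn
    have hc0pos : 1 ≤ (n : ℤ) * m := by nlinarith
    have hc1' : ((n + 1 : ℕ) : ℤ) * m = (n : ℤ) * m + m := by push_cast; ring
    have hc' : c = ((n + 1 : ℕ) : ℤ) * m + m := by rw [hc]; push_cast; ring
    have hc1lt : ((n + 1 : ℕ) : ℤ) * m < 2 * h := by omega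
    have hc0lt : (n : ℤ) * m < 2 * h := by omega
    obtain ⟨hp0, hne0, hv0⟩ := ih0 _ rfl hc0lt
    obtain ⟨hp1, hne1, hv1⟩ := ih1 _ rfl hc1lt
    have hR1 : IsOrd p ((n + 1) • Q) := hQ.nsmul hp hp1
    have hR0 : IsOrd p (n • Q) := hQ.nsmul hp hp0
    have hp2 : ¬ p ∣ (n + 1 + 1) := by
      intro hdvd
      have hz : (n + 1 + 1) • Q = 0 := (hQ.nsmul_eq_zero_iff hp _).mpr hdvd
      have hneg : (n + 1) • Q = -Q := by
        rw [succ_nsmul] at hz
        exact eq_neg_of_add_eq_zero_left hz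
      have hx : X ((n + 1) • Q) = X Q := by rw [hneg, D.neg]
      rw [hx, hm] at hv1
      unfold expVal at hv1
      split_ifs at hv1 <;> omega
    have hR2 : IsOrd p ((n + 1 + 1) • Q) := hQ.nsmul hp hp2
    have e2 : (n + 1) • Q + Q = (n + 1 + 1) • Q := (succ_nsmul Q (n + 1)).symm
    have e0 : (n + 1) • Q - Q = n • Q := by rw [succ_nsmul, add_sub_cancel_right]
    obtain ⟨hd, hr, hv⟩ := D.addsub_val_eq hp hp5 hR1 hQ (e2 ▸ hR2) (e0 ▸ hR0)
    rw [e2, e0] at hv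
    have hx1 := D.x_ne_zero hp hp5 hR1
    have hx := D.x_ne_zero hp hp5 hQ
    have hlt2 := D.val_lt hp hp5 hR2
    have hgt : m < expVal h (((n + 1 : ℕ) : ℤ) * m) := by
      unfold expVal
      split_ifs <;> omega
    have hdv : v₂ (X ((n + 1) • Q) - X Q) = m := by
      rw [(v_sub_right hx (Or.inr (by rw [hv1, hm]; exact hgt))).2, hm]
    obtain ⟨t1, t2, t3⟩ := v_sub_tri (mul_ne_zero hx1 hx) D.ha0 hr
    rw [v_mul hx1 hx, hv1, hm, D.ha] at t1 t2 t3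
    rw [hdv, hv0] at hv
    have key := ladder_arith (h := h) hm1 hc0pos hc1' hc' hlt hne0 hne1 rfl rfl hv t1 t2 t3 hlt2
    exact ⟨hp2, key.1, key.2⟩

/-- **Descent**: there is no point of order `p` of depth `m`, by strong induction on `m`. -/
theorem no_ord (hcop : ¬ (p : ℤ) ∣ 2 * h) :
    ∀ (m : ℕ) (Q : G), IsOrd p Q → v₂ (X Q) = m → False := by
  intro m
  induction m using Nat.strong_induction_on with
  | _ m ih =>
    intro Q hQ hm
    have hm1 : 1 ≤ (m : ℤ) := hm ▸ D.one_le_val hp hp5 hQ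
    have hmh : (m : ℤ) < h := hm ▸ D.val_lt hp hp5 hQ
    -- the last `k` with `k * m < 2 * h`
    obtain ⟨k, hk1, hk2⟩ : ∃ k : ℕ, (k : ℤ) * m < 2 * h ∧ 2 * h ≤ (k : ℤ) * m + m := by
      have hq0 : 0 ≤ (2 * h - 1) / (m : ℤ) := Int.ediv_nonneg (by omega) (by omega)
      have hdm := Int.mul_ediv_add_emod (2 * h - 1) (m : ℤ)
      have hr0 := Int.emod_nonneg (2 * h - 1) (by omega : (m : ℤ) ≠ 0)
      have hr1 := Int.emod_lt_of_pos (2 * h - 1) (by omega : (0 : ℤ) < m)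
      refine ⟨((2 * h - 1) / (m : ℤ)).toNat, ?_, ?_⟩
      · rw [Int.toNat_of_nonneg hq0]
        nlinarith
      · rw [Int.toNat_of_nonneg hq0]
        nlinarith
    have hk : 2 ≤ k := by
      by_contra hcon
      have : (k : ℤ) ≤ 1 := by
        have : k ≤ 1 := by omega
        exact_mod_cast this
      nlinarith
    obtain ⟨n, rfl⟩ : ∃ n : ℕ, k = n + 1 := ⟨k - 1, by omega⟩
    have hn : 1 ≤ n := by omega
    have hn' : (1 : ℤ) ≤ (n : ℤ) := by exact_mod_cast hn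
    obtain ⟨L0, L1⟩ := D.ladder hp hp5 hQ hm n hn
    have hc1' : ((n + 1 : ℕ) : ℤ) * m = (n : ℤ) * m + m := by push_cast; ring
    have hc0lt : (n : ℤ) * m < 2 * h := by omega
    obtain ⟨hp0, hne0, hv0⟩ := L0 _ rfl hc0lt
    obtain ⟨hp1, hne1, hv1⟩ := L1 _ rfl hk1
    have hR1 : IsOrd p ((n + 1) • Q) := hQ.nsmul hp hp1
    have hR0 : IsOrd p (n • Q) := hQ.nsmul hp hp0
    -- `(n+1) m > h`
    have hv1' : v₂ (X ((n + 1) • Q)) = 2 * h - ((n + 1 : ℕ) : ℤ) * m := by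
      rw [hv1, expVal, if_neg (by omega)]
    by_cases hdvd : p ∣ (n + 1 + 1)
    · -- then `(n+2) m = 2h`, so `p ∣ 2h`
      have hz : (n + 1 + 1) • Q = 0 := (hQ.nsmul_eq_zero_iff hp _).mpr hdvd
      have hneg : (n + 1) • Q = -Q := by
        rw [succ_nsmul] at hz
        exact eq_neg_of_add_eq_zero_left hz
      have hx : X ((n + 1) • Q) = X Q := by rw [hneg, D.neg]
      rw [hx, hm] at hv1'
      apply hcop
      have e : 2 * h = ((n + 1 + 1 : ℕ) : ℤ) * m := by push_cast at hv1' ⊢; linarith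
      rw [e]
      exact Dvd.dvd.mul_right (Int.natCast_dvd_natCast.mpr hdvd) _
    · have hR2 : IsOrd p ((n + 1 + 1) • Q) := hQ.nsmul hp hdvd
      have e2 : (n + 1) • Q + Q = (n + 1 + 1) • Q := (succ_nsmul Q (n + 1)).symm
      have e0 : (n + 1) • Q - Q = n • Q := by rw [succ_nsmul, add_sub_cancel_right]
      obtain ⟨hd, hr, hv⟩ := D.addsub_val_eq hp hp5 hR1 hQ (e2 ▸ hR2) (e0 ▸ hR0)
      rw [e2, e0] at hv
      have hx1 := D.x_ne_zero hp hp5 hR1
      have hx := D.x_ne_zero hp hp5 hQ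
      have hpos2 := D.one_le_val hp hp5 hR2
      have hdv : 2 * h - ((n + 1 : ℕ) : ℤ) * m ≤ v₂ (X ((n + 1) • Q) - X Q) :=
        (v_sub_ge (Or.inr (by rw [hv1'])) (Or.inr (by rw [hm]; omega))).resolve_left hd
      obtain ⟨t1, t2, t3⟩ := v_sub_tri (mul_ne_zero hx1 hx) D.ha0 hr
      rw [v_mul hx1 hx, hv1', hm, D.ha] at t1 t2 t3
      rw [hv0] at hv
      have hsmall : v₂ (X ((n + 1 + 1) • Q)) < m := by
        unfold expVal at hv
        split_ifs at hv <;> omega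
      exact ih (v₂ (X ((n + 1 + 1) • Q))).toNat
        (by have := Int.toNat_of_nonneg (by omega : 0 ≤ v₂ (X ((n + 1 + 1) • Q))); omega)
        ((n + 1 + 1) • Q) hR2 (by rw [Int.toNat_of_nonneg (by omega)])

/-- **No `p`-torsion**: if the prime `p ≥ 5` does not divide `2h`, then `G` has no element of
order `p`. -/
theorem no_torsion (hcop : ¬ (p : ℤ) ∣ 2 * h) (Q : G) (hQ : p • Q = 0) : Q = 0 := by
  by_contra hne
  have hO : IsOrd p Q := ⟨hne, hQ⟩
  have h1 := D.one_le_val hp hp5 hO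
  exact D.no_ord hp hp5 hcop (v₂ (X Q)).toNat Q hO (by rw [Int.toNat_of_nonneg (by omega)])

end NodeData

end Fermat.Agent.S13.helper4507
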