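import Mathlib.AlgebraicGeometry.EllipticCurve.Affine.Point
import Mathlib.Tactic

/-!
# x-only formulas on curves `y² + a₁xy = x³ + a₂x² + a₄x` (helper4507)

Product formula `x(P+Q) x(P-Q) (x₁-x₂)² = (x₁x₂ - a₄)²` and duplication formula
`x(2P) · x(4x² + b₂x + 4a₄) = (x² - a₄)²` for Mathlib points, with `a₃ = a₆ = 0`.
-/

set_option autoImplicit false

namespace Fermat.Agent.S13.helper4507

open WeierstrassCurve WeierstrassCurve.Affine

section Formulas

variable {F : Type*} [Field F] (W : WeierstrassCurve.Affine F)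

/-- product formula for the `x`-coordinates of `P + Q` and `P - Q` (`a₃ = a₆ = 0`) -/
theorem addX_mul_addX_negY {x₁ x₂ y₁ y₂ : F} (h₁ : W.Equation x₁ y₁) (h₂ : W.Equation x₂ y₂)
    (h3 : W.a₃ = 0) (h6 : W.a₆ = 0) (hx : x₁ ≠ x₂) :
    (x₁ - x₂) ^ 2 * (W.addX x₁ x₂ ((y₁ - y₂) / (x₁ - x₂)) *
        W.addX x₁ x₂ ((y₁ - W.negY x₂ y₂) / (x₁ - x₂))) = (x₁ * x₂ - W.a₄) ^ 2 := by
  have hx' : x₁ - x₂ ≠ 0 := sub_ne_zero.mpr hx
  rw [Affine.equation_iff] at h₁ h₂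
  simp only [Affine.addX, Affine.negY, h3, h6] at h₁ h₂ ⊢
  field_simp
  grind

/-- the square of `y - negY x y` (`a₃ = a₆ = 0`) -/
theorem sq_sub_negY {x y : F} (h : W.Equation x y) (h3 : W.a₃ = 0) (h6 : W.a₆ = 0) :
    (y - W.negY x y) ^ 2 = x * (4 * x ^ 2 + (W.a₁ ^ 2 + 4 * W.a₂) * x + 4 * W.a₄) := by
  rw [Affine.equation_iff] at h
  simp only [Affine.negY, h3, h6] at h ⊢
  linear_combination 4 * h

/-- duplication formula for the `x`-coordinate (`a₃ = a₆ = 0`) -/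
theorem addX_dup {x y : F} (h : W.Equation x y) (h3 : W.a₃ = 0) (h6 : W.a₆ = 0)
    (hy : y ≠ W.negY x y) :
    W.addX x x ((3 * x ^ 2 + 2 * W.a₂ * x + W.a₄ - W.a₁ * y) / (y - W.negY x y)) *
        (x * (4 * x ^ 2 + (W.a₁ ^ 2 + 4 * W.a₂) * x + 4 * W.a₄)) = (x ^ 2 - W.a₄) ^ 2 := by
  have hy' : y - W.negY x y ≠ 0 := sub_ne_zero.mpr hy
  rw [← sq_sub_negY W h h3 h6]
  have hd : y - W.negY x y = 2 * y + W.a₁ * x := by
    simp only [Affine.negY, h3]; ring
  rw [hd] at hy' ⊢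
  rw [Affine.equation_iff] at h
  simp only [Affine.addX, h3, h6] at h ⊢
  have key : ∀ d : F, d ≠ 0 → d = 2 * y + W.a₁ * x →
      (((3 * x ^ 2 + 2 * W.a₂ * x + W.a₄ - W.a₁ * y) / d) ^ 2 +
        W.a₁ * ((3 * x ^ 2 + 2 * W.a₂ * x + W.a₄ - W.a₁ * y) / d) - W.a₂ - x - x) * d ^ 2 =
        (x ^ 2 - W.a₄) ^ 2 := by
    intro d hd0 hdef
    field_simp
    subst hdef
    grind
  exact key _ hy' rfl

end Formulas

section Points

variable {F : Type*} [Field F] {W : WeierstrassCurve.Affine F}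

/-- The `x`-coordinate of a point (junk value `0` at infinity). -/
def xOf : W.Point → F
  | .zero => 0
  | .some x _ _ => x

theorem xOf_neg (P : W.Point) : xOf (-P) = xOf P := by
  cases P with
  | zero => rfl
  | some x y h => rw [Point.neg_some]; rfl

/-- Two nonzero points with the same `x`-coordinate are equal or opposite. -/
theorem eq_or_eq_neg_of_xOf_eq {P Q : W.Point} (hP : P ≠ 0) (hQ : Q ≠ 0)
    (hx : xOf P = xOf Q) : P = Q ∨ P = -Q := by
  cases P with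
  | zero => exact absurd rfl hP
  | some x₁ y₁ h₁ =>
    cases Q with
    | zero => exact absurd rfl hQ
    | some x₂ y₂ h₂ => exact Point.X_eq_iff.mp hx

variable [DecidableEq F]

/-- If `P ± Q ≠ 0` then the `x`-coordinates of `P` and `Q` differ. -/
theorem xOf_ne_of_add_sub_ne_zero {P Q : W.Point} (hP : P ≠ 0) (hQ : Q ≠ 0)
    (hadd : P + Q ≠ 0) (hsub : P - Q ≠ 0) : xOf P ≠ xOf Q := by
  intro hx
  rcases eq_or_eq_neg_of_xOf_eq hP hQ hx with h | h
  · exact hsub (by rw [h, sub_self])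
  · exact hadd (by rw [h, neg_add_cancel])

/-- **Product formula** on points (`a₃ = a₆ = 0`). -/
theorem xOf_add_mul_xOf_sub (h3 : W.a₃ = 0) (h6 : W.a₆ = 0) {P Q : W.Point} (hP : P ≠ 0)
    (hQ : Q ≠ 0) (hx : xOf P ≠ xOf Q) :
    (xOf P - xOf Q) ^ 2 * (xOf (P + Q) * xOf (P - Q)) = (xOf P * xOf Q - W.a₄) ^ 2 := by
  cases P with
  | zero => exact absurd rfl hP
  | some x₁ y₁ h₁ =>
    cases Q with
    | zero => exact absurd rfl hQ
    | some x₂ y₂ h₂ =>
      have hx' : x₁ ≠ x₂ := hx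
      have e : Point.some x₁ y₁ h₁ - Point.some x₂ y₂ h₂ =
          Point.some x₁ y₁ h₁ + Point.some x₂ (W.negY x₂ y₂) ((nonsingular_neg ..).mpr h₂) := by
        rw [sub_eq_add_neg, Point.neg_some]
      rw [e, Point.add_of_X_ne hx', Point.add_of_X_ne hx']
      simp only [xOf]
      rw [slope_of_X_ne hx', slope_of_X_ne hx']
      exact addX_mul_addX_negY W h₁.1 h₂.1 h3 h6 hx'

/-- **Duplication formula** on points (`a₃ = a₆ = 0`), together with the non-vanishing of the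
denominator. -/
theorem xOf_add_self (h3 : W.a₃ = 0) (h6 : W.a₆ = 0) {P : W.Point} (hP : P ≠ 0)
    (h2 : P + P ≠ 0) :
    xOf P * (4 * xOf P ^ 2 + (W.a₁ ^ 2 + 4 * W.a₂) * xOf P + 4 * W.a₄) ≠ 0 ∧
    xOf (P + P) * (xOf P * (4 * xOf P ^ 2 + (W.a₁ ^ 2 + 4 * W.a₂) * xOf P + 4 * W.a₄)) =
      (xOf P ^ 2 - W.a₄) ^ 2 := by
  cases P with
  | zero => exact absurd rfl hP
  | some x y h =>
    have hy : y ≠ W.negY x y := by
      intro hy
      exact h2 (Point.add_self_of_Y_eq hy)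
    refine ⟨?_, ?_⟩
    · simp only [xOf]
      rw [← sq_sub_negY W h.1 h3 h6]
      exact pow_ne_zero 2 (sub_ne_zero.mpr hy)
    · rw [Point.add_self_of_Y_ne hy]
      simp only [xOf]
      rw [slope_of_Y_ne rfl hy]
      exact addX_dup W h.1 h3 h6 hy

end Points

end Fermat.Agent.S13.helper4507
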