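import Mathlib
import Fermat.Prelude.Def_FLTPrelim_FreyPackage
import Fermat.Prelude.Def_FLTPrelim_GaloisRep
import Fermat.Agent.S13.helper4507_XFormulas
import Fermat.Agent.S13.helper4507_Ladder

/-!
# S13-I4: the Frey curve has no Galois-fixed point of order `p` (helper4507)

`no_fixed` is, verbatim, the field `no_fixed` of helper13's `Ingredients` structure:
a `p`-torsion point of the Frey curve over `ℚ̄` fixed by all of `Gal(ℚ̄/ℚ)` is zero.

Proof: a Galois-fixed point is rational; the Frey curve `y² + xy = x³ + a₂x² + a₄x` has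
`1 + 4a₂ = b^p - a^p` odd and `v₂(a₄) = p v₂(b) - 4 =: h ≥ 1`, and `p ∤ 2h = 2p v₂(b) - 8`;
conclude by the `2`-adic ladder `NodeData.no_torsion`.
-/

set_option autoImplicit false

open WeierstrassCurve WeierstrassCurve.Affine WeierstrassCurve.Affine.Point

namespace Fermat.Agent.S13.helper4507

local notation "Qbar" => AlgebraicClosure ℚ

section FreyArith

variable (P : FreyPackage)

theorem frey_two_dvd_b : (2 : ℤ) ∣ P.b :=
  (ZMod.intCast_zmod_eq_zero_iff_dvd P.b 2).1 P.hb2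

theorem frey_a_odd : ¬ (2 : ℤ) ∣ P.a := by
  intro h
  have h4 : ((P.a : ℤ) : ZMod 4) = ((3 : ℤ) : ZMod 4) := by
    rw [P.ha4]; norm_num
  rw [ZMod.intCast_eq_intCast_iff_dvd_sub] at h4
  omega

theorem frey_beta_odd : ¬ (2 : ℤ) ∣ P.b ^ P.p - P.a ^ P.p := by
  intro h
  have hb : (2 : ℤ) ∣ P.b ^ P.p := dvd_pow (frey_two_dvd_b P) P.hp0
  have ha : (2 : ℤ) ∣ P.a ^ P.p := by
    have := (dvd_sub hb h)
    rwa [sub_sub_cancel] at this
  exact frey_a_odd P (Int.prime_two.dvd_of_dvd_pow ha)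

/-- the valuation `h = p v₂(b) - 4` of `a₄` -/
noncomputable def freyH : ℤ := (P.p : ℤ) * padicValRat 2 (P.b : ℚ) - 4

theorem frey_vb : 1 ≤ padicValRat 2 (P.b : ℚ) := by
  rw [padicValRat.of_int]
  have := (padicValInt_dvd_iff (p := 2) 1 P.b).mp (by simpa using frey_two_dvd_b P)
  rcases this with h | h
  · exact absurd h P.hb0
  · exact_mod_cast h

theorem frey_va : padicValRat 2 (P.a : ℚ) = 0 := by
  rw [padicValRat.of_int, padicValInt.eq_zero_of_not_dvd (frey_a_odd P)]; rfl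

theorem freyH_pos : 1 ≤ freyH P := by
  have h1 := frey_vb P
  have h2 : (5 : ℤ) ≤ (P.p : ℤ) := by exact_mod_cast P.hp5
  unfold freyH
  nlinarith

theorem freyH_cop : ¬ (P.p : ℤ) ∣ 2 * freyH P := by
  intro h
  have e : 2 * freyH P = (P.p : ℤ) * (2 * padicValRat 2 (P.b : ℚ)) - 8 := by
    unfold freyH; ring
  rw [e] at h
  have h8 : (P.p : ℤ) ∣ 8 := by
    have := dvd_sub (Dvd.intro _ rfl : (P.p : ℤ) ∣ (P.p : ℤ) * (2 * padicValRat 2 (P.b : ℚ))) h
    rwa [sub_sub_cancel] at this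
  have h8' : P.p ∣ 2 ^ 3 := by exact_mod_cast h8
  have hle := Nat.le_of_dvd (by norm_num) (P.pp.dvd_of_dvd_pow h8')
  have h5 := P.hp5
  omega

end FreyArith

section Curve

variable (P : FreyPackage)

theorem frey_a1 : ((P.freyCurve)⁄ℚ).a₁ = 1 := by
  simp [WeierstrassCurve.baseChange, FreyPackage.freyCurve]

theorem frey_a3 : ((P.freyCurve)⁄ℚ).a₃ = 0 := by
  simp [WeierstrassCurve.baseChange, FreyPackage.freyCurve]

theorem frey_a6 : ((P.freyCurve)⁄ℚ).a₆ = 0 := by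
  simp [WeierstrassCurve.baseChange, FreyPackage.freyCurve]

theorem frey_a2 : ((P.freyCurve)⁄ℚ).a₂ = ((P.b : ℚ) ^ P.p - 1 - (P.a : ℚ) ^ P.p) / 4 := by
  simp [WeierstrassCurve.baseChange, FreyPackage.freyCurve]

theorem frey_a4 : ((P.freyCurve)⁄ℚ).a₄ = -((P.a : ℚ) ^ P.p) * ((P.b : ℚ) ^ P.p) / 16 := by
  simp [WeierstrassCurve.baseChange, FreyPackage.freyCurve]

theorem frey_beta : ((P.freyCurve)⁄ℚ).a₁ ^ 2 + 4 * ((P.freyCurve)⁄ℚ).a₂ =
    ((P.b ^ P.p - P.a ^ P.p : ℤ) : ℚ) := by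
  rw [frey_a1, frey_a2]; push_cast; ring

theorem frey_a4_ne : ((P.freyCurve)⁄ℚ).a₄ ≠ 0 := by
  rw [frey_a4]
  have ha : (P.a : ℚ) ≠ 0 := by exact_mod_cast P.ha0
  have hb : (P.b : ℚ) ≠ 0 := by exact_mod_cast P.hb0
  exact div_ne_zero (mul_ne_zero (neg_ne_zero.mpr (pow_ne_zero _ ha)) (pow_ne_zero _ hb))
    (by norm_num)

theorem frey_a4_val : padicValRat 2 ((P.freyCurve)⁄ℚ).a₄ = freyH P := by
  rw [frey_a4]
  have ha : (P.a : ℚ) ≠ 0 := by exact_mod_cast P.ha0
  have hb : (P.b : ℚ) ≠ 0 := by exact_mod_cast P.hb0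
  have h16 : padicValRat 2 (16 : ℚ) = 4 := by
    have : (16 : ℚ) = 2 ^ 4 := by norm_num
    rw [this, padicValRat.pow, v_two]; norm_num
  rw [padicValRat.div (mul_ne_zero (neg_ne_zero.mpr (pow_ne_zero _ ha)) (pow_ne_zero _ hb))
    (by norm_num), padicValRat.mul (neg_ne_zero.mpr (pow_ne_zero _ ha)) (pow_ne_zero _ hb),
    padicValRat.neg, padicValRat.pow, padicValRat.pow, frey_va, h16]
  unfold freyH
  ring

/-- The rational points of the Frey curve carry `NodeData`. -/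
theorem frey_nodeData : NodeData (G := ((P.freyCurve)⁄ℚ).Point) xOf
    (((P.freyCurve)⁄ℚ).a₁ ^ 2 + 4 * ((P.freyCurve)⁄ℚ).a₂) ((P.freyCurve)⁄ℚ).a₄ (freyH P) where
  hβ0 := by
    rw [frey_beta]
    intro h0
    have h0' : (P.b ^ P.p - P.a ^ P.p : ℤ) = 0 := by exact_mod_cast h0
    exact frey_beta_odd P (h0' ▸ dvd_zero _)
  hβ := by
    rw [frey_beta, padicValRat.of_int, padicValInt.eq_zero_of_not_dvd (frey_beta_odd P)]; rfl
  ha0 := frey_a4_ne P
  ha := frey_a4_val P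
  hh := freyH_pos P
  neg := xOf_neg
  dup := fun Q hQ h2 => xOf_add_self (frey_a3 P) (frey_a6 P) hQ h2
  addsub := fun Q R hQ hR hadd hsub =>
    have hx := xOf_ne_of_add_sub_ne_zero hQ hR hadd hsub
    ⟨hx, xOf_add_mul_xOf_sub (frey_a3 P) (frey_a6 P) hQ hR hx⟩

/-- **The Frey curve has no rational point of order `p`.** -/
theorem frey_no_rational_torsion (Q : ((P.freyCurve)⁄ℚ).Point) (hQ : P.p • Q = 0) : Q = 0 :=
  (frey_nodeData P).no_torsion P.pp P.hp5 (freyH_cop P) Q hQ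

end Curve

section Galois

theorem isGalois_Qbar' : IsGalois ℚ Qbar :=
  haveI : IsAlgClosure ℚ Qbar := ⟨inferInstance, AlgebraicClosure.isAlgebraic ℚ⟩
  inferInstance

/-- **S13-I4** (field `no_fixed` of helper13's `Ingredients`, verbatim): a Galois-fixed
`p`-torsion point of the Frey curve is zero. -/
theorem no_fixed (P : FreyPackage)
    (x : Submodule.torsionBy ℤ ((P.freyCurve)⁄Qbar).Point P.p)
    (hx : ∀ σ : Qbar ≃ₐ[ℚ] Qbar, σ • x = x) : x = 0 := by
  obtain ⟨Q, hQ⟩ := x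
  have hQ' : (P.p : ℤ) • Q = 0 := (Submodule.mem_torsionBy_iff _ _).mp hQ
  have hfix : ∀ σ : Qbar ≃ₐ[ℚ] Qbar, Point.map (W' := P.freyCurve) σ.toAlgHom Q = Q :=
    fun σ => congrArg Subtype.val (hx σ)
  apply Subtype.ext
  change Q = 0
  cases Q with
  | zero => rfl
  | some x0 y0 h =>
    exfalso
    have hx0 : ∀ σ : Qbar ≃ₐ[ℚ] Qbar, σ x0 = x0 := fun σ => by
      have := hfix σ
      rw [Point.map_some] at this
      exact (Point.some.inj this).1
    have hy0 : ∀ σ : Qbar ≃ₐ[ℚ] Qbar, σ y0 = y0 := fun σ => by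
      have := hfix σ
      rw [Point.map_some] at this
      exact (Point.some.inj this).2
    have : IsGalois ℚ Qbar := isGalois_Qbar'
    obtain ⟨x1, rfl⟩ := (InfiniteGalois.mem_range_algebraMap_iff_fixed x0).mpr hx0
    obtain ⟨y1, rfl⟩ := (InfiniteGalois.mem_range_algebraMap_iff_fixed y0).mpr hy0
    have h1 : ((P.freyCurve)⁄ℚ).Nonsingular x1 y1 :=
      (WeierstrassCurve.Affine.baseChange_nonsingular (P.freyCurve : Affine ℚ)
        (f := Algebra.ofId ℚ Qbar) (Algebra.ofId ℚ Qbar).injective x1 y1).mp h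
    have hmap : Point.map (W' := P.freyCurve) (Algebra.ofId ℚ Qbar) (Point.some x1 y1 h1) =
        Point.some _ _ h := rfl
    have hz : P.p • (Point.some x1 y1 h1 : ((P.freyCurve)⁄ℚ).Point) = 0 := by
      apply Point.map_injective (W' := P.freyCurve) (Algebra.ofId ℚ Qbar)
      rw [map_nsmul, hmap, Point.map_zero, ← natCast_zsmul]
      exact hQ'
    exact Point.some_ne_zero h1 (frey_no_rational_torsion P _ hz)

end Galois

end Fermat.Agent.S13.helper4507
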