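import Mathlib
import Fermat.Prelude.Def_FLTPrelim_FreyPackage
import Fermat.Prelude.Def_FLTPrelim_GaloisRep
import Fermat.Agent.Lib.helper1080_Ladder

/-!
# S13, ingredient I1 in the weak form: `Nontrivial E[p]` and `Nat.card E[p] ≤ p ^ 2`

Consequences of the x-only ladder `Lib/helper1080_Ladder` (helper1080):

* `exists_torsion_point` : over an algebraically closed field, a Weierstrass curve with `Δ ≠ 0`
  has a nonzero point killed by `n`, for every `n ≥ 2` with `(n : F) ≠ 0`;
* `card_torsionBy_le` : for `p = 2 m + 1` with `(p : F) ≠ 0`, the `p`-torsion has at most `p ^ 2`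
  points (the `x`-coordinates of the nonzero ones are roots of `psiOdd W m`, of degree
  `≤ (p ^ 2 - 1) / 2`, and each `x` carries at most two points);
* `frey_nontrivial`, `frey_card_le` : the fields `nontrivial` and `card_le` of
  `helper613.WeakIngredients` for the Frey curve, verbatim.
-/

set_option autoImplicit false

namespace Fermat.Agent.S13.helper613

open Polynomial WeierstrassCurve WeierstrassCurve.Affine
open Fermat.Agent.Lib.helper1080

noncomputable section

section General

variable {F : Type*} [Field F] (W : WeierstrassCurve.Affine F)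

/-- The quadratic polynomial in `y` cutting out the points with abscissa `x`. -/
def quadY (x : F) : F[X] :=
  X ^ 2 + C (W.a₁ * x + W.a₃) * X - C (x ^ 3 + W.a₂ * x ^ 2 + W.a₄ * x + W.a₆)

lemma quadY_natDegree (x : F) : (quadY W x).natDegree = 2 := by
  unfold quadY
  compute_degree!

lemma quadY_ne_zero (x : F) : quadY W x ≠ 0 := by
  intro h
  have := quadY_natDegree W x
  rw [h, natDegree_zero] at this
  omega

lemma quadY_eval (x y : F) :
    (quadY W x).eval y = y ^ 2 + (W.a₁ * x + W.a₃) * y - (x ^ 3 + W.a₂ * x ^ 2 + W.a₄ * x + W.a₆) := by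
  simp [quadY]

lemma equation_iff_quadY (x y : F) : W.Equation x y ↔ (quadY W x).eval y = 0 := by
  rw [Affine.equation_iff, quadY_eval]
  constructor
  · intro h
    linear_combination h
  · intro h
    linear_combination h

/-- Over an algebraically closed field, a Weierstrass curve with `Δ ≠ 0` has a nonzero point
killed by `n`, as soon as `n ≥ 2` and `(n : F) ≠ 0`. -/
theorem exists_torsion_point [DecidableEq F] [IsAlgClosed F] (hΔ : W.Δ ≠ 0) (n : ℕ) (hn : 2 ≤ n)
    (hnF : (n : F) ≠ 0) : ∃ P : W.Point, P ≠ 0 ∧ n • P = 0 := by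
  -- a root of the denominator polynomial
  have hc : (ladZ W n).coeff (n ^ 2 - 1) = (n : F) ^ 2 := coeff_ladZ W n
  have hdeg : (ladZ W n).degree ≠ 0 := by
    intro h0
    have h1 : (ladZ W n).natDegree = 0 := natDegree_eq_of_degree_eq_some h0
    have h2 : n ^ 2 - 1 ≠ 0 := by
      have : 4 ≤ n ^ 2 := by nlinarith
      omega
    have h3 : (ladZ W n).coeff (n ^ 2 - 1) = 0 :=
      coeff_eq_zero_of_natDegree_lt (by omega)
    rw [hc] at h3
    exact hnF (pow_eq_zero_iff (two_ne_zero)|>.mp h3)
  obtain ⟨x, hx⟩ := IsAlgClosed.exists_root (ladZ W n) hdeg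
  -- a point above it
  have hq : (quadY W x).degree ≠ 0 := by
    intro h0
    have h1 : (quadY W x).natDegree = 0 := natDegree_eq_of_degree_eq_some h0
    rw [quadY_natDegree] at h1
    omega
  obtain ⟨y, hy⟩ := IsAlgClosed.exists_root (quadY W x) hq
  have heq : W.Equation x y := (equation_iff_quadY W x y).mpr hy
  have hns : W.Nonsingular x y := (W.equation_iff_nonsingular_of_Δ_ne_zero hΔ).mp heq
  exact ⟨Point.some x y hns, Point.some_ne_zero hns, (nsmul_eq_zero_iff W hns n).mpr hx⟩

/-- The affine coordinates of a point, `none` at infinity. -/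
def coords : W.Point → Option (F × F)
  | .zero => none
  | .some x y _ => some (x, y)

lemma coords_injective : Function.Injective (coords W) := by
  rintro (_ | ⟨x, y, h⟩) (_ | ⟨x', y', h'⟩) hPQ
  · rfl
  · simp [coords] at hPQ
  · simp [coords] at hPQ
  · simp only [coords, Option.some.injEq, Prod.mk.injEq] at hPQ
    obtain ⟨rfl, rfl⟩ := hPQ
    rfl

/-- The finite set of pairs `(x, y)` with `x` a root of `f` and `(x, y)` on the curve. -/
def pairsOver [DecidableEq F] (f : F[X]) : Finset (F × F) :=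
  f.roots.toFinset.biUnion fun x => (quadY W x).roots.toFinset.image fun y => (x, y)

lemma card_pairsOver_le [DecidableEq F] (f : F[X]) : (pairsOver W f).card ≤ 2 * f.natDegree := by
  unfold pairsOver
  refine Finset.card_biUnion_le.trans ?_
  have h1 : ∀ x ∈ f.roots.toFinset,
      ((quadY W x).roots.toFinset.image fun y => (x, y)).card ≤ 2 := by
    intro x _
    refine Finset.card_image_le.trans ?_
    refine (Multiset.toFinset_card_le _).trans ?_
    exact (card_roots' _).trans (quadY_natDegree W x).le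
  refine (Finset.sum_le_card_nsmul _ _ 2 h1).trans ?_
  rw [smul_eq_mul, mul_comm]
  exact Nat.mul_le_mul_left 2 ((Multiset.toFinset_card_le _).trans (card_roots' _))

/-- For `p = 2 m + 1` with `(p : F) ≠ 0`, the `p`-torsion of a Weierstrass curve has at most
`p ^ 2` points. -/
theorem card_torsionBy_le [DecidableEq F] (m : ℕ) (hF : ((2 * m + 1 : ℕ) : F) ≠ 0) :
    Nat.card (Submodule.torsionBy ℤ W.Point ((2 * m + 1 : ℕ) : ℤ)) ≤ (2 * m + 1) ^ 2 := by
  classical
  set f := psiOdd W m with hf
  have hf0 : f ≠ 0 := by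
    refine (psiOdd_isLC W m).ne_zero ?_
    intro h
    apply hF
    have : ((2 * m + 1 : ℕ) : F) = -(-(2 * (m : F) + 1)) := by push_cast; ring
    rw [this, h, neg_zero]
  set S : Finset (Option (F × F)) := insert none ((pairsOver W f).image some) with hS
  have hScard : S.card ≤ (2 * m + 1) ^ 2 := by
    refine (Finset.card_insert_le _ _).trans ?_
    have h1 := (Finset.card_image_le (s := pairsOver W f) (f := some)).trans (card_pairsOver_le W f)
    have h2 : f.natDegree ≤ 2 * m ^ 2 + 2 * m := natDegree_psiOdd_le W m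
    nlinarith
  have hmem : ∀ P : Submodule.torsionBy ℤ W.Point ((2 * m + 1 : ℕ) : ℤ),
      coords W P.1 ∈ S := by
    rintro ⟨P, hP⟩
    have hP' : (2 * m + 1) • P = 0 := by
      have : ((2 * m + 1 : ℕ) : ℤ) • P = 0 := (Submodule.mem_torsionBy_iff _ _).mp hP
      rwa [natCast_zsmul] at this
    rcases P with _ | ⟨x, y, h⟩
    · exact Finset.mem_insert_self _ _
    · refine Finset.mem_insert_of_mem (Finset.mem_image.mpr ⟨(x, y), ?_, rfl⟩)
      have hx : f.eval x = 0 := (odd_nsmul_eq_zero_iff W h m).mp hP'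
      have hy : (quadY W x).eval y = 0 := (equation_iff_quadY W x y).mp h.1
      unfold pairsOver
      refine Finset.mem_biUnion.mpr ⟨x, ?_, Finset.mem_image.mpr ⟨y, ?_, rfl⟩⟩
      · rw [Multiset.mem_toFinset, mem_roots hf0]
        exact hx
      · rw [Multiset.mem_toFinset, mem_roots (quadY_ne_zero W x)]
        exact hy
  have hinj : Function.Injective
      (fun P : Submodule.torsionBy ℤ W.Point ((2 * m + 1 : ℕ) : ℤ) =>
        (⟨coords W P.1, hmem P⟩ : S)) := by
    intro P Q hPQ
    have : coords W P.1 = coords W Q.1 := congrArg Subtype.val hPQ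
    exact Subtype.ext (coords_injective W this)
  calc Nat.card (Submodule.torsionBy ℤ W.Point ((2 * m + 1 : ℕ) : ℤ))
      ≤ Nat.card S := Nat.card_le_card_of_injective _ hinj
    _ = S.card := Nat.card_eq_finsetCard S
    _ ≤ (2 * m + 1) ^ 2 := hScard

end General

section Frey

/-- The discriminant of the Frey curve. -/
lemma frey_Δ (P : FreyPackage) :
    P.freyCurve.Δ = ((P.a : ℚ) ^ P.p * (P.b : ℚ) ^ P.p * (P.c : ℚ) ^ P.p) ^ 2 / 256 := by
  have hc : (P.c : ℚ) ^ P.p = (P.a : ℚ) ^ P.p + (P.b : ℚ) ^ P.p := by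
    have := P.hFLT
    exact_mod_cast this.symm
  rw [hc]
  simp only [WeierstrassCurve.Δ, WeierstrassCurve.b₂, WeierstrassCurve.b₄, WeierstrassCurve.b₆,
    WeierstrassCurve.b₈, FreyPackage.freyCurve]
  ring

lemma frey_Δ_ne_zero (P : FreyPackage) : P.freyCurve.Δ ≠ 0 := by
  rw [frey_Δ]
  have ha : (P.a : ℚ) ≠ 0 := by exact_mod_cast P.ha0
  have hb : (P.b : ℚ) ≠ 0 := by exact_mod_cast P.hb0
  have hc : (P.c : ℚ) ≠ 0 := by exact_mod_cast P.hc0
  positivity

lemma frey_baseChange_Δ_ne_zero (P : FreyPackage) :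
    ((P.freyCurve)⁄(AlgebraicClosure ℚ)).Δ ≠ 0 := by
  change (P.freyCurve.map (algebraMap ℚ (AlgebraicClosure ℚ))).Δ ≠ 0
  rw [WeierstrassCurve.map_Δ]
  exact (_root_.map_ne_zero _).mpr (frey_Δ_ne_zero P)

/-- Field `nontrivial` of `WeakIngredients`: the Frey curve has a nonzero `p`-torsion point
over `ℚ̄`. -/
theorem frey_nontrivial (P : FreyPackage) :
    Nontrivial (Submodule.torsionBy ℤ ((P.freyCurve)⁄(AlgebraicClosure ℚ)).Point P.p) := by
  have hp2 : 2 ≤ P.p := P.pp.two_le
  have hpF : ((P.p : ℕ) : AlgebraicClosure ℚ) ≠ 0 := Nat.cast_ne_zero.mpr P.pp.ne_zero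
  obtain ⟨Q, hQ0, hQ⟩ := exists_torsion_point ((P.freyCurve)⁄(AlgebraicClosure ℚ))
    (frey_baseChange_Δ_ne_zero P) P.p hp2 hpF
  have hmem : Q ∈ Submodule.torsionBy ℤ ((P.freyCurve)⁄(AlgebraicClosure ℚ)).Point P.p := by
    rw [Submodule.mem_torsionBy_iff, natCast_zsmul]
    exact hQ
  refine ⟨⟨⟨Q, hmem⟩, 0, ?_⟩⟩
  intro h
  exact hQ0 (congrArg Subtype.val h :)

/-- Field `card_le` of `WeakIngredients`: the `p`-torsion of the Frey curve over `ℚ̄` has at
most `p ^ 2` points. -/
theorem frey_card_le (P : FreyPackage) :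
    Nat.card (Submodule.torsionBy ℤ ((P.freyCurve)⁄(AlgebraicClosure ℚ)).Point P.p) ≤ P.p ^ 2 := by
  obtain ⟨m, hm⟩ := P.hp_odd
  have hpF : ((2 * m + 1 : ℕ) : AlgebraicClosure ℚ) ≠ 0 := by
    rw [← hm]
    exact Nat.cast_ne_zero.mpr P.pp.ne_zero
  have h := card_torsionBy_le ((P.freyCurve)⁄(AlgebraicClosure ℚ)) m hpF
  rw [← hm] at h
  exact h

end Frey

end

end Fermat.Agent.S13.helper613
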