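/-
helper965 (S13): abstract x-only ("Kummer line") interface in `b`-form, valid in every residue
characteristic (in particular at `2`), for curves `y² + a₁xy = x³ + a₂x² + a₄x`
(`b₂ = b2`, `b₄ = 2 be`, `b₆ = 0`, `b₈ = -be²`), and the theorem that the kernel of reduction
has no torsion of order prime to the residue characteristic.

This is the `b`-form port of the S05 argument of helper65 (`ζ = 1/x`, `ζ(nP) = n² ζ(P) + ζ(P)² d`
with `d` integral); the hypothesis "`2` is a unit" is not needed, only `v b2 ≤ 1`, `v be ≤ 1`.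
-/
import Mathlib
import Fermat.Agent.S05.helper1745_XOnly

set_option autoImplicit false

namespace Fermat.Agent.S13.helper965

open WeierstrassCurve WeierstrassCurve.Affine

variable {K : Type*} [Field K]

/-- Abstract x-only data of a curve with `b₂ = b2`, `b₄ = 2 be`, `b₆ = 0`, `b₈ = -be²`. -/
structure KLine (G : Type*) [AddCommGroup G] (b2 be : K) (X : G → Option K) : Prop where
  X_none : ∀ P, X P = none ↔ P = 0
  X_neg : ∀ P, X (-P) = X P
  pair : ∀ P Q x₁ x₂, X P = some x₁ → X Q = some x₂ → x₁ ≠ x₂ →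
    ∃ x₃ x₄, X (P + Q) = some x₃ ∧ X (P - Q) = some x₄ ∧
      x₃ * x₄ * (x₁ - x₂) ^ 2 = (x₁ * x₂ - be) ^ 2 ∧
      (x₃ + x₄) * (x₁ - x₂) ^ 2 = 2 * (x₁ + x₂) * (x₁ * x₂ + be) + b2 * x₁ * x₂
  same : ∀ P Q x, X P = some x → X Q = some x → P = Q ∨ P = -Q
  dbl : ∀ P x, X P = some x → x * (4 * x ^ 2 + b2 * x + 4 * be) ≠ 0 →
    ∃ x₃, X (P + P) = some x₃ ∧ x₃ * (x * (4 * x ^ 2 + b2 * x + 4 * be)) = (x ^ 2 - be) ^ 2
  dbl_zero : ∀ P x, X P = some x → x * (4 * x ^ 2 + b2 * x + 4 * be) = 0 → P + P = 0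

/-- The `x`-coordinate of a point (`none` at the origin). -/
def xo {W : Affine K} : W.Point → Option K
  | .zero => none
  | .some x _ _ => some x

@[simp] theorem xo_zero {W : Affine K} : xo (0 : W.Point) = none := rfl

@[simp] theorem xo_some {W : Affine K} {x y : K} (h : W.Nonsingular x y) :
    xo (Point.some x y h) = some x := rfl

theorem b₂_of_shape {W : Affine K} : W.b₂ = W.a₁ ^ 2 + 4 * W.a₂ := rfl

theorem b₄_of_shape {W : Affine K} (h₃ : W.a₃ = 0) : W.b₄ = 2 * W.a₄ := by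
  simp [WeierstrassCurve.b₄, h₃]

theorem b₆_of_shape {W : Affine K} (h₃ : W.a₃ = 0) (h₆ : W.a₆ = 0) : W.b₆ = 0 := by
  simp [WeierstrassCurve.b₆, h₃, h₆]

theorem b₈_of_shape {W : Affine K} (h₃ : W.a₃ = 0) (h₆ : W.a₆ = 0) : W.b₈ = -W.a₄ ^ 2 := by
  simp [WeierstrassCurve.b₈, h₃, h₆]

/-- Mathlib points of a curve `y² + a₁xy = x³ + a₂x² + a₄x` form a `KLine`. -/
theorem kLine_of_shape [DecidableEq K] {W : Affine K} (h₃ : W.a₃ = 0) (h₆ : W.a₆ = 0) :
    KLine W.Point W.b₂ W.a₄ (xo (W := W)) where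
  X_none := by
    rintro (_ | ⟨x, y, h⟩)
    · exact ⟨fun _ => rfl, fun _ => rfl⟩
    · exact ⟨fun h' => by simp at h', fun h' => absurd h' (Point.some_ne_zero h)⟩
  X_neg := by
    rintro (_ | ⟨x, y, h⟩)
    · rfl
    · rfl
  pair := by
    rintro (_ | ⟨x₁, y₁, h₁⟩) (_ | ⟨x₂, y₂, h₂⟩) ξ₁ ξ₂ hP hQ hne
    · simp [xo] at hP
    · simp [xo] at hP
    · simp [xo] at hQ
    · simp only [xo_some, Option.some.injEq] at hP hQ
      subst hP hQ
      obtain ⟨Xp, Yp, Xm, Ym, hp, hm, hadd, hsub, hprod, hsum⟩ :=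
        Fermat.Agent.S05.helper1745.exists_add_sub_some h₁ h₂ hne
      refine ⟨Xp, Xm, by rw [hadd]; rfl, by rw [hsub]; rfl, ?_, ?_⟩
      · rw [b₄_of_shape h₃, b₆_of_shape h₃ h₆, b₈_of_shape h₃ h₆] at hprod
        linear_combination hprod
      · rw [b₄_of_shape h₃, b₆_of_shape h₃ h₆] at hsum
        linear_combination hsum
  same := by
    rintro (_ | ⟨x₁, y₁, h₁⟩) (_ | ⟨x₂, y₂, h₂⟩) ξ hP hQ
    · simp [xo] at hP
    · simp [xo] at hP
    · simp [xo] at hQ
    · simp only [xo_some, Option.some.injEq] at hP hQ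
      have hx : x₁ = x₂ := hP.trans hQ.symm
      exact Point.X_eq_iff.mp hx
  dbl := by
    rintro (_ | ⟨x, y, h⟩) ξ hP hne
    · simp [xo] at hP
    · simp only [xo_some, Option.some.injEq] at hP
      subst hP
      have hcub : 4 * x ^ 3 + W.b₂ * x ^ 2 + 2 * W.b₄ * x + W.b₆ =
          x * (4 * x ^ 2 + W.b₂ * x + 4 * W.a₄) := by
        rw [b₄_of_shape h₃, b₆_of_shape h₃ h₆]; ring
      have hy : y ≠ W.negY x y := fun hy =>
        hne (by rw [← hcub]; exact (Fermat.Agent.S05.helper1745.y_eq_negY_iff h.1).mp hy)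
      obtain ⟨X', Y', h', hadd, hdup, _⟩ :=
        Fermat.Agent.S05.helper1745.exists_add_self_some h hy
      refine ⟨X', by rw [hadd]; rfl, ?_⟩
      rw [hcub, b₄_of_shape h₃, b₆_of_shape h₃ h₆, b₈_of_shape h₃ h₆] at hdup
      linear_combination hdup
  dbl_zero := by
    rintro (_ | ⟨x, y, h⟩) ξ hP h0
    · simp [xo] at hP
    · simp only [xo_some, Option.some.injEq] at hP
      subst hP
      have hcub : 4 * x ^ 3 + W.b₂ * x ^ 2 + 2 * W.b₄ * x + W.b₆ =
          x * (4 * x ^ 2 + W.b₂ * x + 4 * W.a₄) := by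
        rw [b₄_of_shape h₃, b₆_of_shape h₃ h₆]; ring
      exact Fermat.Agent.S05.helper1745.add_self_eq_zero_of_cubic_eq_zero h (by rw [hcub]; exact h0)

end Fermat.Agent.S13.helper965
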