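/-
helper965 (S13): local theory at a place of residue characteristic `2` for a curve
`W : y² + a₁xy = x³ + a₂x² + a₄x` over a valued field `(K, v)` with `v a₁ = 1`, `v a₂ ≤ 1`,
`v a₄ < 1`, `v 2 < 1` (multiplicative reduction, node at the origin):

* `same_red`  : two points with `v x = 1` and the same reduction differ by a point of `E₁`;
* `branch`    : in the node region `v a₄ ≤ v x < 1`, two points of the same depth and the same
                branch (`γ = y/x`) differ by a point of `E₀`;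
* `deep`      : if `v x < v a₄` then `2P ∈ E₁`;
* `local_unip`: if `τ` is a group automorphism of the points induced by a field automorphism `σ`
                acting trivially modulo the maximal ideal (an inertia element), then
                `(τ - 1)² = 0` on the `n`-torsion, for `v n = 1`.
-/
import Mathlib
import Fermat.Agent.S13.helper965_Ker

set_option autoImplicit false

namespace Fermat.Agent.S13.helper965

open WeierstrassCurve WeierstrassCurve.Affine

section Gamma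

variable {Γ₀ : Type*} [LinearOrderedCommGroupWithZero Γ₀]

theorem g_lt_sq {a : Γ₀} (h : 1 < a) : a < a ^ 2 := by
  have h0 : 0 < a := lt_trans zero_lt_one h
  calc a = a * 1 := (mul_one a).symm
    _ < a * a := (mul_lt_mul_iff_of_pos_left h0).mpr h
    _ = a ^ 2 := (pow_two a).symm

end Gamma

section Local

variable {K : Type*} [Field K] [DecidableEq K] {Γ₀ : Type*} [LinearOrderedCommGroupWithZero Γ₀]

omit [DecidableEq K] in
/-- The equation of a curve with `a₃ = a₆ = 0`. -/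
theorem eqn_of_shape {W : Affine K} (h₃ : W.a₃ = 0) (h₆ : W.a₆ = 0) {x y : K}
    (h : W.Equation x y) : y ^ 2 + W.a₁ * x * y = x ^ 3 + W.a₂ * x ^ 2 + W.a₄ * x := by
  have := (W.equation_iff x y).mp h
  rw [h₃, h₆] at this
  linear_combination this

omit [DecidableEq K] in
/-- Integral `x` forces integral `y`. -/
theorem val_y_le_one (v : Valuation K Γ₀) {W : Affine K} (h₃ : W.a₃ = 0) (h₆ : W.a₆ = 0)
    (ha₁ : v W.a₁ ≤ 1) (ha₂ : v W.a₂ ≤ 1) (ha₄ : v W.a₄ ≤ 1) {x y : K} (h : W.Equation x y)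
    (hx : v x ≤ 1) : v y ≤ 1 := by
  by_contra hcon
  have hy : 1 < v y := not_le.mp hcon
  have e := eqn_of_shape h₃ h₆ h
  have h1 : v (y ^ 2) ≤ v y := by
    have : y ^ 2 = (x ^ 3 + W.a₂ * x ^ 2 + W.a₄ * x) - W.a₁ * x * y := by linear_combination e
    rw [this]
    apply v.map_sub_le
    · apply le_trans _ hy.le
      apply v.map_add_le (v.map_add_le _ _) _
      · rw [v.map_pow]; exact pow_le_one' hx 3
      · rw [v.map_mul, v.map_pow]; exact mul_le_one' ha₂ (pow_le_one' hx 2)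
      · rw [v.map_mul]; exact mul_le_one' ha₄ hx
    · rw [v.map_mul, v.map_mul]
      exact mul_le_of_le_one_left' (mul_le_one' ha₁ hx)
  rw [v.map_pow] at h1
  exact absurd h1 (not_le.mpr (g_lt_sq hy))

/-- **Same reduction.** Two points with `v x = 1` whose coordinates are congruent modulo the
maximal ideal are equal or differ by a point of the kernel of reduction. -/
theorem same_red (v : Valuation K Γ₀) {W : Affine K} (h₃ : W.a₃ = 0)
    (ha₁ : v W.a₁ = 1) (ha₂ : v W.a₂ ≤ 1) (h2 : v (2 : K) < 1)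
    {x₁ y₁ x₂ y₂ : K} (h₁ : W.Nonsingular x₁ y₁) (h₂ : W.Nonsingular x₂ y₂)
    (hx₂ : v x₂ = 1) (hy₂ : v y₂ ≤ 1) (hx : v (x₁ - x₂) < 1) (hy : v (y₁ - y₂) < 1) :
    Point.some x₁ y₁ h₁ = Point.some x₂ y₂ h₂ ∨
      ∃ (X Y : K) (h : W.Nonsingular X Y),
        Point.some x₁ y₁ h₁ - Point.some x₂ y₂ h₂ = Point.some X Y h ∧ 1 < v X := by
  have hu : v (2 * y₂ + W.a₁ * x₂) = 1 := by
    have h1 : v (2 * y₂) < v (W.a₁ * x₂) := by
      rw [v.map_mul, v.map_mul, ha₁, hx₂, one_mul]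
      exact mul_lt_one_left' h2 hy₂
    rw [v.map_add_eq_of_lt_right h1, v.map_mul, ha₁, hx₂, one_mul]
  have hN : v (y₁ - W.negY x₂ y₂) = 1 := by
    have e : y₁ - W.negY x₂ y₂ = (2 * y₂ + W.a₁ * x₂) + (y₁ - y₂) := by
      simp only [negY, h₃]; ring
    rw [e, v.map_add_eq_of_lt_left (by rw [hu]; exact hy), hu]
  by_cases hxe : x₁ = x₂
  · left
    subst hxe
    rcases Y_eq_of_X_eq h₁.1 h₂.1 rfl with hyy | hyy
    · subst hyy; rfl
    · exfalso
      rw [hyy, sub_self, map_zero] at hN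
      exact zero_ne_one hN
  · right
    have hD0 : x₁ - x₂ ≠ 0 := sub_ne_zero.mpr hxe
    have hDpos : 0 < v (x₁ - x₂) := zero_lt_iff.mpr ((v.ne_zero_iff).mpr hD0)
    refine ⟨_, _, _, by rw [sub_eq_add_neg, Point.neg_some, Point.add_of_X_ne hxe], ?_⟩
    rw [slope_of_X_ne hxe]
    set ℓ := (y₁ - W.negY x₂ y₂) / (x₁ - x₂) with hℓ
    have hvℓ : 1 < v ℓ := by
      rw [hℓ, v.map_div, hN, one_div]
      exact (one_lt_inv₀ hDpos).mpr hx
    by_contra hcon
    have hle : v (W.addX x₁ x₂ ℓ) ≤ 1 := not_lt.mp hcon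
    have hx₁ : v x₁ ≤ 1 := by
      have : x₁ = x₂ + (x₁ - x₂) := by ring
      rw [this]; exact v.map_add_le hx₂.le hx.le
    have e : ℓ ^ 2 = W.addX x₁ x₂ ℓ - W.a₁ * ℓ + W.a₂ + x₁ + x₂ := by
      simp only [addX]; ring
    have h1 : v (ℓ ^ 2) ≤ v ℓ := by
      rw [e]
      refine v.map_add_le (v.map_add_le (v.map_add_le (v.map_sub_le (hle.trans hvℓ.le) ?_)
        (ha₂.trans hvℓ.le)) (hx₁.trans hvℓ.le)) (hx₂.le.trans hvℓ.le)
      rw [v.map_mul, ha₁, one_mul]
    rw [v.map_pow] at h1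
    exact absurd h1 (not_le.mpr (g_lt_sq hvℓ))

omit [DecidableEq K] in
/-- In the node region `v a₄ ≤ v x < 1`, the slope `γ = y/x` is integral. -/
theorem val_gamma_le_one (v : Valuation K Γ₀) {W : Affine K} (h₃ : W.a₃ = 0) (h₆ : W.a₆ = 0)
    (ha₁ : v W.a₁ ≤ 1) (ha₂ : v W.a₂ ≤ 1) {x y : K} (h : W.Equation x y)
    (hx0 : x ≠ 0) (hx : v x ≤ 1) (hax : v W.a₄ ≤ v x) : v (y / x) ≤ 1 := by
  by_contra hcon
  have hg : 1 < v (y / x) := not_le.mp hcon
  set γ := y / x with hγ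
  have hy : y = γ * x := by rw [hγ]; field_simp
  have e := eqn_of_shape h₃ h₆ h
  have hxpos : 0 < v x := zero_lt_iff.mpr ((v.ne_zero_iff).mpr hx0)
  have e' : γ ^ 2 = x + W.a₂ + W.a₄ / x - W.a₁ * γ := by
    have hx2 : x ^ 2 ≠ 0 := pow_ne_zero 2 hx0
    apply mul_right_cancel₀ hx2
    have h4 : W.a₄ / x * x ^ 2 = W.a₄ * x := by field_simp
    rw [hy] at e
    linear_combination e - h4
  have h1 : v (γ ^ 2) ≤ v γ := by
    rw [e']
    refine v.map_sub_le (v.map_add_le (v.map_add_le (hx.trans hg.le) (ha₂.trans hg.le)) ?_) ?_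
    · rw [v.map_div]
      exact ((div_le_one₀ hxpos).mpr hax).trans hg.le
    · rw [v.map_mul]
      exact mul_le_of_le_one_left' ha₁
  rw [v.map_pow] at h1
  exact absurd h1 (not_le.mpr (g_lt_sq hg))

/-- **Branch lemma.** In the node region `v a₄ ≤ v x < 1`, two points of the same depth whose
slopes `γ = y/x` are congruent modulo the maximal ideal are equal or differ by a point with
integral `x`-coordinate of valuation one or more (a point of `E₀`). -/
theorem branch (v : Valuation K Γ₀) {W : Affine K} (h₃ : W.a₃ = 0) (h₆ : W.a₆ = 0)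
    (ha₁ : v W.a₁ = 1) (ha₂ : v W.a₂ ≤ 1) (h2 : v (2 : K) < 1)
    {x₁ y₁ x₂ y₂ : K} (h₁ : W.Nonsingular x₁ y₁) (h₂ : W.Nonsingular x₂ y₂)
    (hx₂0 : x₂ ≠ 0) (hx₂ : v x₂ < 1) (hax : v W.a₄ ≤ v x₂) (hxx : v x₁ = v x₂)
    (hg : v (y₁ / x₁ - y₂ / x₂) < 1) :
    Point.some x₁ y₁ h₁ = Point.some x₂ y₂ h₂ ∨
      ∃ (X Y : K) (h : W.Nonsingular X Y),
        Point.some x₁ y₁ h₁ - Point.some x₂ y₂ h₂ = Point.some X Y h ∧ 1 ≤ v X := by
  have hx₁0 : x₁ ≠ 0 := by
    intro h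
    rw [h, map_zero] at hxx
    exact hx₂0 ((v.zero_iff).mp hxx.symm)
  have hγ₂ : v (y₂ / x₂) ≤ 1 := val_gamma_le_one v h₃ h₆ ha₁.le ha₂ h₂.1 hx₂0 hx₂.le hax
  have hy₁ : y₁ = y₁ / x₁ * x₁ := by field_simp
  have hy₂ : y₂ = y₂ / x₂ * x₂ := by field_simp
  generalize y₁ / x₁ = γ₁ at hg hy₁
  generalize y₂ / x₂ = γ₂ at hg hy₂ hγ₂
  have hu : v (2 * γ₂ + W.a₁) = 1 := by
    rw [v.map_add_eq_of_lt_right (by rw [v.map_mul, ha₁]; exact mul_lt_one_left' h2 hγ₂), ha₁]
  have hu' : v (γ₁ + γ₂ + W.a₁) = 1 := by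
    have e : γ₁ + γ₂ + W.a₁ = (2 * γ₂ + W.a₁) + (γ₁ - γ₂) := by ring
    rw [e, v.map_add_eq_of_lt_left (by rw [hu]; exact hg), hu]
  by_cases hxe : x₁ = x₂
  · left
    subst hxe
    rcases Y_eq_of_X_eq h₁.1 h₂.1 rfl with hyy | hyy
    · subst hyy; rfl
    · exfalso
      have h0 : γ₁ + γ₂ + W.a₁ = 0 := by
        have h' : y₁ + y₂ + W.a₁ * x₁ = 0 := by
          rw [hyy]; simp only [negY, h₃]; ring
        have h'' : (γ₁ + γ₂ + W.a₁) * x₁ = 0 := by
          linear_combination h' - hy₁ - hy₂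
        exact (mul_eq_zero.mp h'').resolve_right hx₁0
      rw [h0, map_zero] at hu'
      exact zero_ne_one hu'
  · right
    have hD0 : x₁ - x₂ ≠ 0 := sub_ne_zero.mpr hxe
    refine ⟨_, _, _, by rw [sub_eq_add_neg, Point.neg_some, Point.add_of_X_ne hxe], ?_⟩
    rw [slope_of_X_ne hxe]
    have e₁ := eqn_of_shape h₃ h₆ h₁.1
    have e₂ := eqn_of_shape h₃ h₆ h₂.1
    have key : W.addX x₁ x₂ ((y₁ - W.negY x₂ y₂) / (x₁ - x₂)) * (x₁ - x₂) ^ 2 =
        (y₁ + y₂ + W.a₁ * x₂) ^ 2 + W.a₁ * (y₁ + y₂ + W.a₁ * x₂) * (x₁ - x₂)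
          - (W.a₂ + x₁ + x₂) * (x₁ - x₂) ^ 2 := by
      simp only [addX, negY, h₃]
      field_simp
      ring
    generalize W.addX x₁ x₂ ((y₁ - W.negY x₂ y₂) / (x₁ - x₂)) = X at key ⊢
    have hid : X * (x₁ * x₂ * (x₁ - x₂) ^ 2) = (y₁ * x₂ + y₂ * x₁ + W.a₁ * x₁ * x₂) ^ 2 := by
      linear_combination x₁ * x₂ * key + x₂ * (x₁ - x₂) * e₁ - x₁ * (x₁ - x₂) * e₂
    have hid' : X * (x₁ * x₂ * (x₁ - x₂) ^ 2) = (x₁ * x₂) ^ 2 * (γ₁ + γ₂ + W.a₁) ^ 2 := by
      rw [hid]
      have : y₁ * x₂ + y₂ * x₁ + W.a₁ * x₁ * x₂ = x₁ * x₂ * (γ₁ + γ₂ + W.a₁) := by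
        linear_combination x₂ * hy₁ + x₁ * hy₂
      rw [this]; ring
    have hv := congrArg v hid'
    rw [v.map_mul, v.map_mul, v.map_mul, v.map_pow, v.map_mul, v.map_pow, v.map_mul, v.map_pow,
      hu', one_pow, mul_one, hxx] at hv
    by_contra hcon
    have hlt : v X < 1 := not_le.mp hcon
    have hD : v (x₁ - x₂) ≤ v x₂ := v.map_sub_le hxx.le le_rfl
    have hx₂pos : 0 < v x₂ := zero_lt_iff.mpr ((v.ne_zero_iff).mpr hx₂0)
    have hDpos : 0 < v (x₁ - x₂) := zero_lt_iff.mpr ((v.ne_zero_iff).mpr hD0)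
    have hpos : 0 < v x₂ * v x₂ * v (x₁ - x₂) ^ 2 :=
      zero_lt_iff.mpr (mul_ne_zero (mul_ne_zero hx₂pos.ne' hx₂pos.ne') (pow_ne_zero 2 hDpos.ne'))
    have hcontra : v X * (v x₂ * v x₂ * v (x₁ - x₂) ^ 2) < (v x₂ * v x₂) ^ 2 := by
      calc v X * (v x₂ * v x₂ * v (x₁ - x₂) ^ 2)
          < 1 * (v x₂ * v x₂ * v (x₁ - x₂) ^ 2) := (mul_lt_mul_iff_of_pos_right hpos).mpr hlt
        _ = v x₂ * v x₂ * v (x₁ - x₂) ^ 2 := one_mul _
        _ ≤ v x₂ * v x₂ * v x₂ ^ 2 := mul_le_mul' le_rfl (pow_le_pow_left' hD 2)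
        _ = (v x₂ * v x₂) ^ 2 := by simp only [pow_two]
    exact absurd hv hcontra.ne

/-- **Deep region.** If `v x < v a₄` then `2P` is zero or lies in the kernel of reduction. -/
theorem deep (v : Valuation K Γ₀) {W : Affine K} (h₃ : W.a₃ = 0) (h₆ : W.a₆ = 0)
    (hb₂ : v W.b₂ ≤ 1) (ha₄ : v W.a₄ < 1)
    {x y : K} (h : W.Nonsingular x y) (hx : v x < v W.a₄) :
    Point.some x y h + Point.some x y h = 0 ∨
      ∃ (X Y : K) (h' : W.Nonsingular X Y),
        Point.some x y h + Point.some x y h = Point.some X Y h' ∧ 1 < v X := by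
  by_cases hy : y = W.negY x y
  · left; exact Point.add_self_of_Y_eq hy
  · right
    obtain ⟨X, Y, h', hadd, hdup, -⟩ := Fermat.Agent.S05.helper1745.exists_add_self_some h hy
    refine ⟨X, Y, h', hadd, ?_⟩
    rw [b₄_of_shape h₃, b₆_of_shape h₃ h₆, b₈_of_shape h₃ h₆] at hdup
    have hdup' : X * (x * (4 * x ^ 2 + W.b₂ * x + 4 * W.a₄)) = (x ^ 2 - W.a₄) ^ 2 := by
      linear_combination hdup
    have hapos : 0 < v W.a₄ := lt_of_le_of_lt zero_le hx
    have hx1 : v x < 1 := hx.trans ha₄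
    have hxsq : v (x ^ 2) < v W.a₄ := by
      rw [v.map_pow, pow_two]
      exact lt_of_le_of_lt (mul_le_of_le_one_left' hx1.le) hx
    have hnum : v (x ^ 2 - W.a₄) = v W.a₄ := v.map_sub_eq_of_lt_right hxsq
    have hq : v (4 * x ^ 2 + W.b₂ * x + 4 * W.a₄) ≤ v W.a₄ := by
      apply v.map_add_le (v.map_add_le _ _) _
      · rw [v.map_mul]; exact (mul_le_of_le_one_left' (val_four_le_one v)).trans hxsq.le
      · rw [v.map_mul]; exact (mul_le_of_le_one_left' hb₂).trans hx.le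
      · rw [v.map_mul]; exact mul_le_of_le_one_left' (val_four_le_one v)
    have hv := congrArg v hdup'
    rw [v.map_mul, v.map_mul, v.map_pow, hnum] at hv
    by_contra hcon
    have hle : v X ≤ 1 := not_lt.mp hcon
    have hcontra : v X * (v x * v (4 * x ^ 2 + W.b₂ * x + 4 * W.a₄)) < v W.a₄ ^ 2 := by
      calc v X * (v x * v (4 * x ^ 2 + W.b₂ * x + 4 * W.a₄))
          ≤ 1 * (v x * v (4 * x ^ 2 + W.b₂ * x + 4 * W.a₄)) := mul_le_mul' hle le_rfl
        _ = v x * v (4 * x ^ 2 + W.b₂ * x + 4 * W.a₄) := one_mul _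
        _ ≤ v x * v W.a₄ := mul_le_mul' le_rfl hq
        _ < v W.a₄ * v W.a₄ := (mul_lt_mul_iff_of_pos_right hapos).mpr hx
        _ = v W.a₄ ^ 2 := (pow_two _).symm
    exact absurd hv hcontra.ne

/-- **Unipotence of inertia at a place of residue characteristic `2`** (abstract form).
Let `W : y² + a₁xy = x³ + a₂x² + a₄x` with `v a₁ = 1`, `v a₂ ≤ 1`, `0 < v a₄ < 1`, `v 2 < 1`.
Let `τ` be an additive endomorphism of `W.Point` given on coordinates by a ring endomorphism `σ`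
of `K` preserving `v` and acting trivially modulo the maximal ideal. Then `(τ - 1)² = 0` on every
point killed by an integer `n` with `v n = 1`. -/
theorem local_unip (v : Valuation K Γ₀) {W : Affine K} (h₃ : W.a₃ = 0) (h₆ : W.a₆ = 0)
    (ha₁ : v W.a₁ = 1) (ha₂ : v W.a₂ ≤ 1) (ha₄ : v W.a₄ < 1) (ha₄0 : W.a₄ ≠ 0)
    (h2 : v (2 : K) < 1)
    (τ : W.Point →+ W.Point) (σ : K →+* K)
    (hτ : ∀ (x y : K) (h : W.Nonsingular x y), ∃ h' : W.Nonsingular (σ x) (σ y),
      τ (Point.some x y h) = Point.some (σ x) (σ y) h')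
    (hσv : ∀ x, v (σ x) = v x) (hσ : ∀ x, v x ≤ 1 → v (σ x - x) < 1)
    {n : ℕ} (hn : v (n : K) = 1) (T : W.Point) (hT : n • T = 0) :
    τ (τ T - T) = τ T - T := by
  have hb₂ : v W.b₂ ≤ 1 := by
    rw [b₂_of_shape]
    apply v.map_add_le
    · rw [v.map_pow, ha₁, one_pow]
    · rw [v.map_mul]; exact mul_le_one' (val_four_le_one v) ha₂
  have hodd : Odd n := by
    rcases Nat.even_or_odd n with ⟨k, hk⟩ | h
    · exfalso
      have e : (n : K) = 2 * k := by rw [hk]; push_cast; ring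
      rw [e, v.map_mul] at hn
      have := mul_lt_one_left' h2 (val_natCast_le_one v k)
      rw [hn] at this
      exact lt_irrefl _ this
    · exact h
  have ker : ∀ (x y : K) (h : W.Nonsingular x y), n • Point.some x y h = 0 → ¬ 1 < v x := by
    intro x y h hn0 hx
    have := ker_point v h₃ h₆ hb₂ ha₄.le h hx hn0
    rw [hn] at this
    exact lt_irrefl _ this
  have L : ∀ (x y : K) (h : W.Nonsingular x y), n • Point.some x y h = 0 → v x = 1 →
      τ (Point.some x y h) = Point.some x y h := by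
    intro x y h hn0 hx
    obtain ⟨h', hτ'⟩ := hτ x y h
    have hy : v y ≤ 1 := val_y_le_one v h₃ h₆ ha₁.le ha₂ ha₄.le h.1 hx.le
    rcases same_red v h₃ ha₁ ha₂ h2 h' h hx hy (hσ x hx.le) (hσ y hy) with
      heq | ⟨X, Y, hXY, hsub, hX⟩
    · rw [hτ', heq]
    · exfalso
      refine ker X Y hXY ?_ hX
      rw [← hsub, ← hτ', smul_sub, ← map_nsmul, hn0, map_zero, sub_zero]
  cases T with
  | zero =>
    have h0 : (Point.zero : W.Point) = 0 := rfl
    rw [h0, map_zero, sub_zero, map_zero]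
  | some x y h =>
    obtain ⟨h', hτ'⟩ := hτ x y h
    have hnQ : n • (τ (Point.some x y h) - Point.some x y h) = 0 := by
      rw [smul_sub, ← map_nsmul, hT, map_zero, sub_zero]
    rcases lt_trichotomy (v x) 1 with hx | hx | hx
    · by_cases hax : v W.a₄ ≤ v x
      · have hx0 : x ≠ 0 := by
          rintro rfl
          rw [map_zero] at hax
          exact ha₄0 ((v.zero_iff).mp (le_antisymm hax zero_le))
        have hγ : v (y / x) ≤ 1 := val_gamma_le_one v h₃ h₆ ha₁.le ha₂ h.1 hx0 hx.le hax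
        have hg : v (σ y / σ x - y / x) < 1 := by
          rw [← map_div₀]; exact hσ _ hγ
        rcases branch v h₃ h₆ ha₁ ha₂ h2 h' h hx0 hx hax (hσv x) hg with
          heq | ⟨X, Y, hXY, hsub, hX⟩
        · rw [hτ', heq, sub_self, map_zero]
        · rw [hτ', hsub] at hnQ
          rw [hτ', hsub]
          rcases hX.lt_or_eq with hX1 | hX1
          · exact absurd hX1 (ker X Y hXY hnQ)
          · exact L X Y hXY hnQ hX1.symm
      · exfalso
        have hax' : v x < v W.a₄ := not_le.mp hax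
        rcases deep v h₃ h₆ hb₂ ha₄ h hax' with h0 | ⟨X, Y, hXY, hsub, hX⟩
        · obtain ⟨k, hk⟩ := hodd
          have h1 : n • Point.some x y h =
              k • (Point.some x y h + Point.some x y h) + Point.some x y h := by
            rw [hk, add_nsmul, one_nsmul, mul_comm, mul_nsmul, two_nsmul, nsmul_add]
          rw [hT, h0, nsmul_zero, zero_add] at h1
          exact Point.some_ne_zero h h1.symm
        · refine ker X Y hXY ?_ hX
          rw [← hsub, nsmul_add, hT, add_zero]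
    · rw [L x y h hT hx, sub_self, map_zero]
    · exact absurd hx (ker x y h hT)

end Local

end Fermat.Agent.S13.helper965
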