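/-
helper965 (S13, ingredient I3): inertia at `2` acts unipotently on the `p`-torsion of the Frey
curve `y² + xy = x³ + a₂x² + a₄x`, `a₂ = (b^p - 1 - a^p)/4`, `a₄ = -a^p b^p/16`.

`unip_two` is verbatim the field `unip_two` of helper13's `Ingredients` (with `Vp P` unfolded).
-/
import Mathlib
import Fermat.Prelude.Def_FLTPrelim_FreyPackage
import Fermat.Prelude.Def_FLTPrelim_GaloisRep
import Fermat.Prelude.Def_FLTPrelim_Ramification
import Fermat.Agent.S05.helper4205_Inertia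
import Fermat.Agent.S13.helper965_Local

set_option autoImplicit false

namespace Fermat.Agent.S13.helper965

open WeierstrassCurve WeierstrassCurve.Affine WeierstrassCurve.Affine.Point

local notation "Qbar" => AlgebraicClosure ℚ

/-- **Unipotence of inertia at residue characteristic `2`**, over `ℚ̄`: for a curve
`W : y² + xy = x³ + a₂x² + a₄x` over `ℚ` with `a₂` integral and `a₄ ≠ 0` a non-unit at a
valuation subring `A` of `ℚ̄` over `2`, every automorphism `σ` preserving the valuation and acting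
trivially modulo the maximal ideal satisfies `(σ - 1)² = 0` on the `n`-torsion, `n` a unit. -/
theorem local_unip_Qbar (A : ValuationSubring Qbar) (W : WeierstrassCurve ℚ)
    (h₁ : W.a₁ = 1) (h₃ : W.a₃ = 0) (h₆ : W.a₆ = 0) (h₄ : W.a₄ ≠ 0)
    (ha₂ : algebraMap ℚ Qbar W.a₂ ∈ A) (ha₄ : algebraMap ℚ Qbar W.a₄ ∈ A.nonunits)
    (h2 : (2 : Qbar) ∈ A.nonunits)
    (σ : Qbar ≃ₐ[ℚ] Qbar) (hσv : ∀ x, A.valuation (σ x) = A.valuation x)
    (hσ : ∀ x, x ∈ A → σ x - x ∈ A.nonunits)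
    (n : ℕ) (hnv : A.valuation (n : Qbar) = 1)
    (P : (W⁄Qbar).Point) (hP : n • P = 0) : σ • (σ • P - P) = σ • P - P := by
  have e₁ : (W⁄Qbar).a₁ = 1 := by simp [WeierstrassCurve.baseChange, h₁]
  have e₃ : (W⁄Qbar).a₃ = 0 := by simp [WeierstrassCurve.baseChange, h₃]
  have e₆ : (W⁄Qbar).a₆ = 0 := by simp [WeierstrassCurve.baseChange, h₆]
  have e₂ : (W⁄Qbar).a₂ = algebraMap ℚ Qbar W.a₂ := by simp [WeierstrassCurve.baseChange]
  have e₄ : (W⁄Qbar).a₄ = algebraMap ℚ Qbar W.a₄ := by simp [WeierstrassCurve.baseChange]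
  simp only [algEquiv_smul_def]
  refine local_unip A.valuation e₃ e₆ (by rw [e₁, map_one])
    (by rw [e₂]; exact (A.valuation_le_one_iff _).mpr ha₂)
    (by rw [e₄]; exact (A.mem_nonunits_iff).mp ha₄)
    (by rw [e₄]; simpa using h₄) ((A.mem_nonunits_iff).mp h2)
    (Point.map (W' := W) σ.toAlgHom) (σ : Qbar →+* Qbar) ?_ hσv ?_ hnv P hP
  · intro x y h
    exact ⟨_, Point.map_some _ h⟩
  · intro x hx
    exact (A.mem_nonunits_iff).mp (hσ x ((A.valuation_le_one_iff x).mp hx))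

/-! ### Arithmetic of the Frey curve at `2` -/

theorem frey_a_pow_modEq (P : FreyPackage) : P.a ^ P.p ≡ 3 [ZMOD 4] := by
  have ha : P.a ≡ 3 [ZMOD 4] := by
    have h := P.ha4
    have h3 : ((3 : ℤ) : ZMod 4) = 3 := by norm_num
    rw [← h3] at h
    exact (ZMod.intCast_eq_intCast_iff P.a 3 4).mp h
  obtain ⟨k, hk⟩ := P.hp_odd
  have h9 : (9 : ℤ) ≡ 1 [ZMOD 4] := by decide
  calc P.a ^ P.p ≡ 3 ^ P.p [ZMOD 4] := ha.pow _
    _ = 9 ^ k * 3 := by rw [hk, pow_succ, pow_mul]; norm_num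
    _ ≡ 1 ^ k * 3 [ZMOD 4] := (h9.pow k).mul_right 3
    _ = 3 := by simp

theorem frey_two_dvd_b (P : FreyPackage) : (2 : ℤ) ∣ P.b := by
  have := (ZMod.intCast_zmod_eq_zero_iff_dvd P.b 2).1 P.hb2
  exact_mod_cast this

theorem frey_32_dvd_b_pow (P : FreyPackage) : (32 : ℤ) ∣ P.b ^ P.p := by
  obtain ⟨k, hk⟩ := frey_two_dvd_b P
  obtain ⟨j, hj⟩ : ∃ j, P.p = 5 + j := ⟨P.p - 5, by have := P.hp5; omega⟩
  rw [hk, hj, mul_pow, pow_add, pow_add]
  exact ⟨2 ^ j * (k ^ 5 * k ^ j), by ring⟩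

theorem frey_four_dvd (P : FreyPackage) : (4 : ℤ) ∣ P.b ^ P.p - 1 - P.a ^ P.p := by
  have h1 : (4 : ℤ) ∣ P.b ^ P.p := Dvd.dvd.trans (by norm_num) (frey_32_dvd_b_pow P)
  have h2 : (4 : ℤ) ∣ P.a ^ P.p - 3 := (Int.modEq_iff_dvd.mp (frey_a_pow_modEq P).symm)
  have e : P.b ^ P.p - 1 - P.a ^ P.p = P.b ^ P.p - (P.a ^ P.p - 3) - 4 := by ring
  rw [e]
  exact dvd_sub (dvd_sub h1 h2) (dvd_refl 4)

/-- `a₂` of the Frey curve is an integer. -/
theorem frey_a₂_int (P : FreyPackage) : ∃ m : ℤ, P.freyCurve.a₂ = (m : ℚ) := by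
  obtain ⟨m, hm⟩ := frey_four_dvd P
  refine ⟨m, ?_⟩
  have h : ((P.b : ℚ) ^ P.p - 1 - (P.a : ℚ) ^ P.p) = 4 * (m : ℚ) := by
    exact_mod_cast congrArg (fun z : ℤ => (z : ℚ)) hm
  simp only [FreyPackage.freyCurve]
  rw [h]
  ring

/-- `a₄` of the Frey curve is an even integer. -/
theorem frey_a₄_even (P : FreyPackage) : ∃ m : ℤ, P.freyCurve.a₄ = 2 * (m : ℚ) := by
  obtain ⟨m, hm⟩ := frey_32_dvd_b_pow P
  refine ⟨-(P.a ^ P.p) * m, ?_⟩
  have h : ((P.b : ℚ) ^ P.p) = 32 * (m : ℚ) := by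
    exact_mod_cast congrArg (fun z : ℤ => (z : ℚ)) hm
  simp only [FreyPackage.freyCurve]
  rw [h]
  push_cast
  ring

theorem frey_a₄_ne_zero (P : FreyPackage) : P.freyCurve.a₄ ≠ 0 := by
  simp only [FreyPackage.freyCurve]
  have ha : (P.a : ℚ) ≠ 0 := by exact_mod_cast P.ha0
  have hb : (P.b : ℚ) ≠ 0 := by exact_mod_cast P.hb0
  have h1 : (P.a : ℚ) ^ P.p ≠ 0 := pow_ne_zero _ ha
  have h2 : (P.b : ℚ) ^ P.p ≠ 0 := pow_ne_zero _ hb
  intro h
  rw [div_eq_zero_iff] at h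
  rcases h with h | h
  · rcases mul_eq_zero.mp h with h | h
    · exact h1 (neg_eq_zero.mp h)
    · exact h2 h
  · norm_num at h

/-- **I3 (`unip_two`)**: inertia at `2` acts unipotently on the `p`-torsion of the Frey curve. -/
theorem unip_two (P : FreyPackage) :
    ∀ A : ValuationSubring (AlgebraicClosure ℚ), A.LiesOverPrime 2 →
      ∀ σ ∈ A.inertiaSubgroupIn ℚ,
      ∀ x : Submodule.torsionBy ℤ ((P.freyCurve)⁄(AlgebraicClosure ℚ)).Point P.p,
        σ • (σ • x - x) = σ • x - x := by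
  intro A hA σ hσ x
  have : Algebra.IsAlgebraic ℚ Qbar := AlgebraicClosure.isAlgebraic ℚ
  have hD := Fermat.Agent.S05.helper4205.mem_decomposition_of_mem_inertiaSubgroupIn hσ
  have h2 : (2 : Qbar) ∈ A.nonunits := by
    have : ((2 : ℕ) : Qbar) ∈ A.nonunits := hA
    simpa using this
  have hx : P.p • (x : ((P.freyCurve)⁄Qbar).Point) = 0 := by
    have := (Submodule.mem_torsionBy_iff _ _).1 x.2
    rwa [natCast_zsmul] at this
  have hp2 : ¬ 2 ∣ P.p := by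
    intro h
    have := (Nat.prime_dvd_prime_iff_eq Nat.prime_two P.pp).mp h
    have := P.hp5
    omega
  obtain ⟨m₂, hm₂⟩ := frey_a₂_int P
  obtain ⟨m₄, hm₄⟩ := frey_a₄_even P
  have ha₂ : algebraMap ℚ Qbar P.freyCurve.a₂ ∈ A := by
    rw [hm₂, map_intCast]
    exact Fermat.Agent.S05.helper4205.vs_intCast_mem A m₂
  have ha₄ : algebraMap ℚ Qbar P.freyCurve.a₄ ∈ A.nonunits := by
    rw [hm₄, map_mul, map_intCast, map_ofNat]
    exact Fermat.Agent.S05.helper4205.mul_mem_nonunits_right h2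
      (Fermat.Agent.S05.helper4205.vs_intCast_mem A m₄)
  have key := local_unip_Qbar A P.freyCurve rfl rfl rfl (frey_a₄_ne_zero P) ha₂ ha₄ h2 σ
    (fun z => Fermat.Agent.S05.helper4205.valuation_apply_of_mem_decomposition hD z)
    (fun z hz => Fermat.Agent.S05.helper4205.apply_sub_mem_nonunits hσ hz) P.p
    (Fermat.Agent.S05.helper4205.valuation_natCast_eq_one Nat.prime_two hA hp2) x hx
  exact Subtype.ext key

end Fermat.Agent.S13.helper965
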