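import Mathlib
import Fermat.Prelude.Def_FLTPrelim_FreyPackage
import Fermat.Prelude.Def_FLTPrelim_Ramification

/-!
# Arithmetic of the Frey curve at the prime `2` (helper3034, S13)

The Frey curve `y² + x y = x³ + a₂ x² + a₄ x` of a Frey package (`a ≡ 3 mod 4`, `b` even,
`p ≥ 5`) is already `2`-integral in its given model, with

* `a₁ = 1`, `a₃ = a₆ = 0`;
* `a₂ = A2 ∈ ℤ`, so `b₂ = 1 + 4 A2 = b^p - a^p` is odd (a `2`-adic unit);
* `a₄ = A4 ∈ ℤ` with `A4 = 2 ^ h * u`, `u` odd, `h = p · v₂(b) - 4 > 0`;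
* `p` is coprime to `2 h` (so `p · d = 2 j h` is impossible for `0 < d < 2 h`).

Everything is stated (1) over `ℚ` with integers, and (2) for the base change to any field
`K ⊇ ℚ` with any valuation `v` such that `v 2 < 1`, and (3) for a valuation subring of
`AlgebraicClosure ℚ` lying over `2`.  Imports Mathlib and the Prelude only.
-/

set_option autoImplicit false

namespace Fermat.Agent.S13.helper3034

open WeierstrassCurve

/-! ### Integer facts -/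

theorem two_dvd_b (P : FreyPackage) : (2 : ℤ) ∣ P.b :=
  (ZMod.intCast_zmod_eq_zero_iff_dvd P.b 2).1 P.hb2

theorem a_mod_four (P : FreyPackage) : P.a % 4 = 3 := by
  have h := P.ha4
  have h3 : ((3 : ℤ) : ZMod 4) = 3 := by norm_num
  rw [← h3, ZMod.intCast_eq_intCast_iff_dvd_sub] at h
  have h4 : ((4 : ℕ) : ℤ) = 4 := by norm_num
  rw [h4] at h
  omega

theorem a_odd (P : FreyPackage) : Odd P.a := by
  rw [Int.odd_iff]
  have := a_mod_four P
  omega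

theorem not_two_dvd_a (P : FreyPackage) : ¬ (2 : ℤ) ∣ P.a := by
  have := a_mod_four P
  omega

/-- `a ^ p ≡ 3 mod 4` since `p` is odd. -/
theorem a_pow_mod_four (P : FreyPackage) : P.a ^ P.p % 4 = 3 := by
  obtain ⟨k, hk⟩ := P.hp_odd
  have h1 : P.a ^ 2 % 4 = 1 := by
    have := a_mod_four P
    have h2 : P.a ^ 2 % 4 = (P.a % 4) ^ 2 % 4 := by
      rw [pow_two, pow_two, Int.mul_emod]
    rw [h2, this]; norm_num
  have h3 : (P.a ^ 2) ^ k % 4 = 1 := by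
    rw [Int.ModEq.pow k (show P.a ^ 2 ≡ 1 [ZMOD 4] from h1)]
    simp
  rw [hk, pow_succ, pow_mul, Int.mul_emod, h3, a_mod_four P]
  norm_num

/-- `32 ∣ b ^ p`. -/
theorem thirtytwo_dvd_b_pow (P : FreyPackage) : (32 : ℤ) ∣ P.b ^ P.p := by
  obtain ⟨m, hm⟩ := two_dvd_b P
  have h5 : P.p = 5 + (P.p - 5) := by have := P.hp5; omega
  rw [hm, h5, pow_add, mul_pow]
  exact Dvd.dvd.mul_right (Dvd.dvd.mul_right (by norm_num) _) _

theorem four_dvd_a₂_num (P : FreyPackage) : (4 : ℤ) ∣ P.b ^ P.p - 1 - P.a ^ P.p := by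
  obtain ⟨m, hm⟩ := thirtytwo_dvd_b_pow P
  have := a_pow_mod_four P
  omega

theorem sixteen_dvd_a₄_num (P : FreyPackage) : (16 : ℤ) ∣ -(P.a ^ P.p) * (P.b ^ P.p) := by
  obtain ⟨m, hm⟩ := thirtytwo_dvd_b_pow P
  exact ⟨-(P.a ^ P.p) * (2 * m), by rw [hm]; ring⟩

/-- The integer `a₂` of the Frey curve. -/
def A2 (P : FreyPackage) : ℤ := (P.b ^ P.p - 1 - P.a ^ P.p) / 4

/-- The integer `a₄` of the Frey curve. -/
def A4 (P : FreyPackage) : ℤ := -(P.a ^ P.p) * (P.b ^ P.p) / 16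

theorem four_mul_A2 (P : FreyPackage) : 4 * A2 P = P.b ^ P.p - 1 - P.a ^ P.p :=
  Int.mul_ediv_cancel' (four_dvd_a₂_num P)

theorem sixteen_mul_A4 (P : FreyPackage) : 16 * A4 P = -(P.a ^ P.p) * (P.b ^ P.p) :=
  Int.mul_ediv_cancel' (sixteen_dvd_a₄_num P)

/-- `b₂ = 1 + 4 a₂ = b^p - a^p`. -/
theorem one_add_four_mul_A2 (P : FreyPackage) : 1 + 4 * A2 P = P.b ^ P.p - P.a ^ P.p := by
  rw [four_mul_A2]; ring

theorem odd_one_add_four_mul_A2 (P : FreyPackage) : Odd (1 + 4 * A2 P) :=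
  ⟨2 * A2 P, by ring⟩

theorem A4_ne_zero (P : FreyPackage) : A4 P ≠ 0 := by
  intro h
  have h1 := sixteen_mul_A4 P
  rw [h, mul_zero] at h1
  have h2 : P.a ^ P.p * P.b ^ P.p ≠ 0 :=
    mul_ne_zero (pow_ne_zero _ P.ha0) (pow_ne_zero _ P.hb0)
  apply h2
  linarith

/-- `b = 2 ^ k * b'` with `k ≥ 1` and `b'` odd. -/
theorem exists_b_eq (P : FreyPackage) : ∃ (k : ℕ) (b' : ℤ), 0 < k ∧ Odd b' ∧ P.b = 2 ^ k * b' := by
  have hnat : P.b.natAbs ≠ 0 := Int.natAbs_ne_zero.mpr P.hb0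
  obtain ⟨k, m, hm, hkm⟩ := Nat.exists_eq_two_pow_mul_odd hnat
  have hk : 0 < k := by
    rcases Nat.eq_zero_or_pos k with h0 | h0
    · exfalso
      rw [h0, pow_zero, one_mul] at hkm
      have h2 : (2 : ℤ) ∣ P.b := two_dvd_b P
      have h3 : (2 : ℕ) ∣ P.b.natAbs := by
        have := Int.natAbs_dvd_natAbs.mpr h2
        simpa using this
      rw [hkm] at h3
      exact (Nat.not_even_iff_odd.mpr hm) (even_iff_two_dvd.mpr h3)
    · exact h0
  rcases Int.natAbs_eq P.b with h | h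
  · refine ⟨k, (m : ℤ), hk, ?_, ?_⟩
    · exact_mod_cast hm
    · rw [h, hkm]; push_cast; ring
  · refine ⟨k, -(m : ℤ), hk, ?_, ?_⟩
    · exact Odd.neg (by exact_mod_cast hm)
    · rw [h, hkm]; push_cast; ring

/-- **`a₄ = 2 ^ h * u`** with `u` odd, `h > 0` and `p` coprime to `2 h`. -/
theorem exists_A4_eq (P : FreyPackage) : ∃ (h : ℕ) (u : ℤ),
    0 < h ∧ Odd u ∧ A4 P = 2 ^ h * u ∧ Nat.Coprime P.p (2 * h) ∧
      ∃ k : ℕ, 0 < k ∧ h + 4 = P.p * k := by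
  obtain ⟨k, b', hk, hb', hb⟩ := exists_b_eq P
  have hp5 := P.hp5
  have hpk : 5 ≤ P.p * k := le_trans hp5 (Nat.le_mul_of_pos_right _ hk)
  refine ⟨P.p * k - 4, -(P.a ^ P.p) * b' ^ P.p, by omega, ?_, ?_, ?_, k, hk, by omega⟩
  · exact Odd.mul (Odd.neg (Odd.pow (a_odd P))) (Odd.pow hb')
  · have h16 := sixteen_mul_A4 P
    have hsplit : P.p * k = (P.p * k - 4) + 4 := by omega
    have h2 : (16 : ℤ) * A4 P = 16 * (2 ^ (P.p * k - 4) * (-(P.a ^ P.p) * b' ^ P.p)) := by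
      rw [h16, hb, mul_pow, ← pow_mul, mul_comm k P.p]
      conv_lhs => rw [hsplit, pow_add]
      ring
    exact mul_left_cancel₀ (by norm_num) h2
  · have hp2 : Nat.Coprime P.p 2 := by
      rw [Nat.coprime_comm, Nat.coprime_primes Nat.prime_two P.pp]
      omega
    have hp4 : Nat.Coprime P.p 4 := by
      have : (4 : ℕ) = 2 * 2 := by norm_num
      rw [this]
      exact Nat.Coprime.mul_right hp2 hp2
    refine Nat.Coprime.mul_right hp2 ?_
    -- gcd(p, pk - 4) = gcd(p, 4) = 1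
    have hd : Nat.gcd P.p (P.p * k - 4) ∣ 4 := by
      have h1 : Nat.gcd P.p (P.p * k - 4) ∣ P.p * k :=
        Dvd.dvd.mul_right (Nat.gcd_dvd_left _ _) _
      have h2 : Nat.gcd P.p (P.p * k - 4) ∣ P.p * k - 4 := Nat.gcd_dvd_right _ _
      have h3 : P.p * k - (P.p * k - 4) = 4 := by omega
      have h4 : Nat.gcd P.p (P.p * k - 4) ∣ P.p * k - (P.p * k - 4) := Nat.dvd_sub h1 h2
      rwa [h3] at h4
    have hd' : Nat.gcd P.p (P.p * k - 4) ∣ P.p := Nat.gcd_dvd_left _ _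
    exact Nat.eq_one_of_dvd_coprimes hp4 hd' hd

/-- The arithmetic obstruction used for "no rational `p`-torsion near the node at `2`":
if `p` is coprime to `2 h`, no `0 < d < 2 h` satisfies `p * d = 2 * j * h`. -/
theorem no_depth {p h : ℕ} (hcop : Nat.Coprime p (2 * h)) {d j : ℤ} (hd0 : 0 < d)
    (hd : d < 2 * h) (heq : (p : ℤ) * d = 2 * j * h) : False := by
  have hcopZ : IsCoprime (p : ℤ) ((2 * h : ℕ) : ℤ) := Nat.isCoprime_iff_coprime.mpr hcop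
  have hdvd : ((2 * h : ℕ) : ℤ) ∣ (p : ℤ) * d := ⟨j, by rw [heq]; push_cast; ring⟩
  have hdvd' : ((2 * h : ℕ) : ℤ) ∣ d := hcopZ.symm.dvd_of_dvd_mul_left hdvd
  have hle := Int.le_of_dvd hd0 hdvd'
  push_cast at hle
  omega

/-! ### The Frey curve over `ℚ` -/

theorem frey_a₁ (P : FreyPackage) : P.freyCurve.a₁ = 1 := rfl

theorem frey_a₃ (P : FreyPackage) : P.freyCurve.a₃ = 0 := rfl

theorem frey_a₆ (P : FreyPackage) : P.freyCurve.a₆ = 0 := rfl

theorem frey_a₂ (P : FreyPackage) : P.freyCurve.a₂ = (A2 P : ℚ) := by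
  have h := four_mul_A2 P
  have h' : (4 : ℚ) * (A2 P : ℚ) = (P.b : ℚ) ^ P.p - 1 - (P.a : ℚ) ^ P.p := by
    exact_mod_cast h
  change ((P.b : ℚ) ^ P.p - 1 - (P.a : ℚ) ^ P.p) / 4 = (A2 P : ℚ)
  rw [← h']; ring

theorem frey_a₄ (P : FreyPackage) : P.freyCurve.a₄ = (A4 P : ℚ) := by
  have h := sixteen_mul_A4 P
  have h' : (16 : ℚ) * (A4 P : ℚ) = -((P.a : ℚ) ^ P.p) * ((P.b : ℚ) ^ P.p) := by
    exact_mod_cast h
  change -((P.a : ℚ) ^ P.p) * ((P.b : ℚ) ^ P.p) / 16 = (A4 P : ℚ)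
  rw [← h']; ring

theorem frey_b₂' (P : FreyPackage) : P.freyCurve.b₂ = 1 + 4 * (A2 P : ℚ) := by
  simp only [WeierstrassCurve.b₂, frey_a₁, frey_a₂]; ring

theorem frey_b₄' (P : FreyPackage) : P.freyCurve.b₄ = 2 * (A4 P : ℚ) := by
  simp only [WeierstrassCurve.b₄, frey_a₁, frey_a₃, frey_a₄]; ring

theorem frey_b₆' (P : FreyPackage) : P.freyCurve.b₆ = 0 := by
  simp only [WeierstrassCurve.b₆, frey_a₃, frey_a₆]; ring

theorem frey_b₈' (P : FreyPackage) : P.freyCurve.b₈ = -(A4 P : ℚ) ^ 2 := by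
  simp only [WeierstrassCurve.b₈, frey_a₁, frey_a₂, frey_a₃, frey_a₄, frey_a₆]; ring

/-- **The Frey curve over `ℚ` at `2`**, integer form: `a₁ = 1`, `a₃ = a₆ = 0`, `a₂ = A2 ∈ ℤ`,
`a₄ = A4 = 2 ^ h * u` with `u` odd, `h > 0`, and `p` coprime to `2 h`. -/
theorem frey_two_rat (P : FreyPackage) : ∃ (h : ℕ) (u : ℤ), 0 < h ∧ Odd u ∧
    Nat.Coprime P.p (2 * h) ∧
    P.freyCurve.a₁ = 1 ∧ P.freyCurve.a₃ = 0 ∧ P.freyCurve.a₆ = 0 ∧
    P.freyCurve.a₂ = (A2 P : ℚ) ∧ P.freyCurve.a₄ = (2 : ℚ) ^ h * (u : ℚ) := by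
  obtain ⟨h, u, hh, hu, hA4, hcop, -⟩ := exists_A4_eq P
  refine ⟨h, u, hh, hu, hcop, frey_a₁ P, frey_a₃ P, frey_a₆ P, frey_a₂ P, ?_⟩
  rw [frey_a₄, hA4]
  push_cast
  ring

/-! ### Base change to a valued field `K ⊇ ℚ` -/

section valued

variable {K : Type*} [Field K] [Algebra ℚ K] {Γ₀ : Type*} [LinearOrderedCommGroupWithZero Γ₀]

theorem map_a₁ (P : FreyPackage) : (P.freyCurve.map (algebraMap ℚ K)).a₁ = 1 := by
  rw [WeierstrassCurve.map_a₁, frey_a₁, map_one]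

theorem map_a₃ (P : FreyPackage) : (P.freyCurve.map (algebraMap ℚ K)).a₃ = 0 := by
  rw [WeierstrassCurve.map_a₃, frey_a₃, map_zero]

theorem map_a₆ (P : FreyPackage) : (P.freyCurve.map (algebraMap ℚ K)).a₆ = 0 := by
  rw [WeierstrassCurve.map_a₆, frey_a₆, map_zero]

theorem map_a₂ (P : FreyPackage) : (P.freyCurve.map (algebraMap ℚ K)).a₂ = (A2 P : K) := by
  rw [WeierstrassCurve.map_a₂, frey_a₂, map_intCast]

theorem map_a₄ (P : FreyPackage) : (P.freyCurve.map (algebraMap ℚ K)).a₄ = (A4 P : K) := by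
  rw [WeierstrassCurve.map_a₄, frey_a₄, map_intCast]

theorem map_b₂ (P : FreyPackage) :
    (P.freyCurve.map (algebraMap ℚ K)).b₂ = 1 + 4 * (A2 P : K) := by
  rw [WeierstrassCurve.map_b₂, frey_b₂']
  simp only [map_add, map_mul, map_one, map_ofNat, map_intCast]

theorem map_b₄ (P : FreyPackage) :
    (P.freyCurve.map (algebraMap ℚ K)).b₄ = 2 * (A4 P : K) := by
  rw [WeierstrassCurve.map_b₄, frey_b₄']
  simp only [map_mul, map_ofNat, map_intCast]

theorem map_b₆ (P : FreyPackage) : (P.freyCurve.map (algebraMap ℚ K)).b₆ = 0 := by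
  rw [WeierstrassCurve.map_b₆, frey_b₆', map_zero]

theorem map_b₈ (P : FreyPackage) :
    (P.freyCurve.map (algebraMap ℚ K)).b₈ = -(A4 P : K) ^ 2 := by
  rw [WeierstrassCurve.map_b₈, frey_b₈']
  simp only [map_neg, map_pow, map_intCast]

omit [Algebra ℚ K] in
theorem vNat_le_one (v : Valuation K Γ₀) (n : ℕ) : v (n : K) ≤ 1 := by
  induction n with
  | zero => simp
  | succ n ih =>
    rw [Nat.cast_succ]
    exact (v.map_add _ _).trans (max_le ih (by simp))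

omit [Algebra ℚ K] in
theorem vInt_le_one (v : Valuation K Γ₀) (n : ℤ) : v (n : K) ≤ 1 := by
  rcases Int.natAbs_eq n with h | h
  · rw [h]
    simpa using vNat_le_one v n.natAbs
  · rw [h, Int.cast_neg, Valuation.map_neg]
    simpa using vNat_le_one v n.natAbs

omit [Algebra ℚ K] in
/-- If `v 2 < 1`, every odd integer is a `v`-unit. -/
theorem vInt_odd (v : Valuation K Γ₀) (hv2 : v (2 : K) < 1) {u : ℤ} (hu : Odd u) :
    v (u : K) = 1 := by
  obtain ⟨m, rfl⟩ := hu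
  have h1 : v ((2 : K) * (m : K)) < v (1 : K) := by
    rw [map_mul, map_one]
    calc v (2 : K) * v (m : K) ≤ v (2 : K) * 1 := mul_le_mul' le_rfl (vInt_le_one v m)
      _ = v (2 : K) := mul_one _
      _ < 1 := hv2
  have h2 := Valuation.map_add_eq_of_lt_right v h1
  rw [map_one] at h2
  push_cast
  exact h2

omit [Algebra ℚ K] in
/-- If `v 2 < 1`, every even integer is a `v`-nonunit. -/
theorem vInt_even (v : Valuation K Γ₀) (hv2 : v (2 : K) < 1) {u : ℤ} (hu : (2 : ℤ) ∣ u) :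
    v (u : K) < 1 := by
  obtain ⟨m, rfl⟩ := hu
  push_cast
  rw [map_mul]
  calc v (2 : K) * v (m : K) ≤ v (2 : K) * 1 := mul_le_mul' le_rfl (vInt_le_one v m)
    _ = v (2 : K) := mul_one _
    _ < 1 := hv2

omit [Algebra ℚ K] in
theorem v_A2_le_one (v : Valuation K Γ₀) (P : FreyPackage) : v (A2 P : K) ≤ 1 :=
  vInt_le_one v _

omit [Algebra ℚ K] in
/-- `b₂ = 1 + 4 a₂` is a unit at `2`. -/
theorem v_b₂ (v : Valuation K Γ₀) (hv2 : v (2 : K) < 1) (P : FreyPackage) :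
    v (1 + 4 * (A2 P : K)) = 1 := by
  have h := vInt_odd v hv2 (odd_one_add_four_mul_A2 P)
  push_cast at h
  exact h

/-- `a₁² + 4 a₂ = b₂` is a unit at `2`, in `a`-form. -/
theorem v_a₁_sq_add (v : Valuation K Γ₀) (hv2 : v (2 : K) < 1) (P : FreyPackage) :
    v ((P.freyCurve.map (algebraMap ℚ K)).a₁ ^ 2 + 4 * (P.freyCurve.map (algebraMap ℚ K)).a₂)
      = 1 := by
  rw [map_a₁, map_a₂, one_pow]
  exact v_b₂ v hv2 P

/-- **The Frey curve at `2`** (valuation form): the base change `W` of the Frey curve to `K`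
is `y² + x y = x³ + A2 x² + A4 x` with `v A2 ≤ 1`, `v (1 + 4 A2) = 1`, `A4 ≠ 0`,
`v A4 = v 2 ^ h < 1`, `h > 0`, `p` coprime to `2 h`. -/
theorem frey_at_two (v : Valuation K Γ₀) (hv2 : v (2 : K) < 1) (P : FreyPackage) :
    ∃ h : ℕ, 0 < h ∧ Nat.Coprime P.p (2 * h) ∧
      (P.freyCurve.map (algebraMap ℚ K)).a₁ = 1 ∧
      (P.freyCurve.map (algebraMap ℚ K)).a₃ = 0 ∧
      (P.freyCurve.map (algebraMap ℚ K)).a₆ = 0 ∧
      (P.freyCurve.map (algebraMap ℚ K)).a₂ = (A2 P : K) ∧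
      (P.freyCurve.map (algebraMap ℚ K)).a₄ = (A4 P : K) ∧
      v (A2 P : K) ≤ 1 ∧ v (1 + 4 * (A2 P : K)) = 1 ∧
      (A4 P : K) ≠ 0 ∧ v (A4 P : K) = v (2 : K) ^ h ∧ v (A4 P : K) < 1 := by
  obtain ⟨h, u, hh, hu, hA4, hcop, -⟩ := exists_A4_eq P
  have hchar : CharZero K := algebraRat.charZero K
  have hval : v (A4 P : K) = v (2 : K) ^ h := by
    rw [hA4]
    push_cast
    rw [map_mul, map_pow, vInt_odd v hv2 hu, mul_one]
  refine ⟨h, hh, hcop, map_a₁ P, map_a₃ P, map_a₆ P, map_a₂ P, map_a₄ P, v_A2_le_one v P,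
    v_b₂ v hv2 P, ?_, hval, ?_⟩
  · exact_mod_cast A4_ne_zero P
  · rw [hval]
    exact pow_lt_one' hv2 hh.ne'

end valued

/-! ### Valuation subrings of `AlgebraicClosure ℚ` over `2` -/

theorem valuation_two_lt_one (A : ValuationSubring (AlgebraicClosure ℚ))
    (hA : A.LiesOverPrime 2) : A.valuation (2 : AlgebraicClosure ℚ) < 1 := by
  have h : ((2 : ℕ) : AlgebraicClosure ℚ) ∈ A.nonunits := hA
  rw [ValuationSubring.mem_nonunits_iff] at h
  simpa using h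

/-- **The Frey curve at a valuation subring over `2`.** -/
theorem frey_at_two_of_liesOver (A : ValuationSubring (AlgebraicClosure ℚ))
    (hA : A.LiesOverPrime 2) (P : FreyPackage) :
    ∃ h : ℕ, 0 < h ∧ Nat.Coprime P.p (2 * h) ∧
      (P.freyCurve.map (algebraMap ℚ (AlgebraicClosure ℚ))).a₁ = 1 ∧
      (P.freyCurve.map (algebraMap ℚ (AlgebraicClosure ℚ))).a₃ = 0 ∧
      (P.freyCurve.map (algebraMap ℚ (AlgebraicClosure ℚ))).a₆ = 0 ∧
      (P.freyCurve.map (algebraMap ℚ (AlgebraicClosure ℚ))).a₂ = (A2 P : AlgebraicClosure ℚ) ∧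
      (P.freyCurve.map (algebraMap ℚ (AlgebraicClosure ℚ))).a₄ = (A4 P : AlgebraicClosure ℚ) ∧
      A.valuation (A2 P : AlgebraicClosure ℚ) ≤ 1 ∧
      A.valuation (1 + 4 * (A2 P : AlgebraicClosure ℚ)) = 1 ∧
      (A4 P : AlgebraicClosure ℚ) ≠ 0 ∧
      A.valuation (A4 P : AlgebraicClosure ℚ) = A.valuation (2 : AlgebraicClosure ℚ) ^ h ∧
      A.valuation (A4 P : AlgebraicClosure ℚ) < 1 :=
  frey_at_two A.valuation (valuation_two_lt_one A hA) P

end Fermat.Agent.S13.helper3034
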