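import Fermat.Agent.S13.helper3073_AtPFrey
import Fermat.Agent.S13.helper3034_FreyAtTwo
import Fermat.Agent.Lib.helper1080_Ladder

/-!
# S13, field `at_p`: the division-polynomial input for the Frey curve (architect helper613)

`frey_divPolyStmt : helper3073.DivPolyStmt P.freyCurve P.p` from the x-only ladder
`Lib/helper1080_Ladder` (helper1080): with `p = 2 m + 1`, the polynomial
`psiOdd (freyCurve⁄ℚ̄) m` is the image of an integer polynomial (the Frey curve has the
integral model `y² + x y = x³ + A2 x² + A4 x` of `helper3034_FreyAtTwo`), has leading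
coefficient `-p`, and vanishes at the abscissa of every affine point killed by `p`.

Consequence: `frey_at_p`, the field `at_p` of `helper613.WeakIngredients`, verbatim
(via `helper3073.at_p_of_divPoly`).
-/

set_option autoImplicit false

namespace Fermat.Agent.S13.helper613

open Polynomial WeierstrassCurve WeierstrassCurve.Affine WeierstrassCurve.Affine.Point
open Fermat.Agent.Lib.helper1080

noncomputable section

/-- The integral model of the Frey curve. -/
def freyInt (P : FreyPackage) : WeierstrassCurve ℤ :=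
  ⟨1, Fermat.Agent.S13.helper3034.A2 P, 0, Fermat.Agent.S13.helper3034.A4 P, 0⟩

lemma freyInt_map (P : FreyPackage) (K : Type*) [Field K] [Algebra ℚ K] :
    (freyInt P).map (Int.castRingHom K) = P.freyCurve.map (algebraMap ℚ K) := by
  ext
  · rw [Fermat.Agent.S13.helper3034.map_a₁]; simp [freyInt]
  · rw [Fermat.Agent.S13.helper3034.map_a₂]; simp [freyInt]
  · rw [Fermat.Agent.S13.helper3034.map_a₃]; simp [freyInt]
  · rw [Fermat.Agent.S13.helper3034.map_a₄]; simp [freyInt]
  · rw [Fermat.Agent.S13.helper3034.map_a₆]; simp [freyInt]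

/-- The division-polynomial input of `helper3073.at_p_of_divPoly` for the Frey curve. -/
theorem frey_divPolyStmt (P : FreyPackage) :
    Fermat.Agent.S13.helper3073.DivPolyStmt P.freyCurve P.p := by
  intro A _
  obtain ⟨m, hm⟩ := P.hp_odd
  set W : WeierstrassCurve (AlgebraicClosure ℚ) :=
    P.freyCurve.map (algebraMap ℚ (AlgebraicClosure ℚ)) with hW
  have hmap : psiOdd W m = (psiOdd (freyInt P) m).map (Int.castRingHom (AlgebraicClosure ℚ)) := by
    rw [psiOdd_map, freyInt_map]
  have hLC := psiOdd_isLC W m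
  have hpK : ((P.p : ℕ) : AlgebraicClosure ℚ) ≠ 0 := Nat.cast_ne_zero.mpr P.pp.ne_zero
  have hcoeff : (psiOdd W m).coeff (2 * m ^ 2 + 2 * m) = -((P.p : ℕ) : AlgebraicClosure ℚ) := by
    rw [hLC.2, hm]
    push_cast
    ring
  have hcoeff0 : (psiOdd W m).coeff (2 * m ^ 2 + 2 * m) ≠ 0 := by
    rw [hcoeff]
    exact neg_ne_zero.mpr hpK
  have hdeg : (psiOdd W m).natDegree = 2 * m ^ 2 + 2 * m :=
    le_antisymm hLC.1 (le_natDegree_of_ne_zero hcoeff0)
  refine ⟨psiOdd W m, ?_, ?_, ?_⟩
  · intro i
    rw [hmap, coeff_map]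
    exact Fermat.Agent.S13.helper3034.vInt_le_one A.valuation _
  · rw [leadingCoeff, hdeg, hcoeff, Valuation.map_neg]
  · intro x y h hx
    rw [hm] at hx
    exact (odd_nsmul_eq_zero_iff W h m).mp hx

/-- **Field `at_p`** of `helper613.WeakIngredients` for the Frey curve, verbatim. -/
theorem frey_at_p (P : FreyPackage) :
    Nat.card (Submodule.torsionBy ℤ ((P.freyCurve)⁄(AlgebraicClosure ℚ)).Point P.p) = P.p ^ 2 →
    ∀ N : Submodule (ZMod P.p)
        (Submodule.torsionBy ℤ ((P.freyCurve)⁄(AlgebraicClosure ℚ)).Point P.p),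
      IsGaloisStable ℚ N → N ≠ ⊥ → N ≠ ⊤ →
      (∀ A : ValuationSubring (AlgebraicClosure ℚ), A.LiesOverPrime P.p →
        ∀ σ ∈ A.inertiaSubgroupIn ℚ, ∀ x ∈ N, σ • x = x) ∨
      (∀ A : ValuationSubring (AlgebraicClosure ℚ), A.LiesOverPrime P.p →
        ∀ σ ∈ A.inertiaSubgroupIn ℚ,
          ∀ x : Submodule.torsionBy ℤ ((P.freyCurve)⁄(AlgebraicClosure ℚ)).Point P.p,
            σ • x - x ∈ N) :=
  Fermat.Agent.S13.helper3073.at_p_of_divPoly P (frey_divPolyStmt P)

end

end Fermat.Agent.S13.helper613
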