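import Mathlib

/-!
# Tropical calculus for additive valuations (helper836)

An "additive valuation on nonzero elements" `o : K → Γ` (`IsOrd o`), with values in an
arbitrary linearly ordered additive commutative group, and the predicate
`GE o x g` ("`x = 0` or `g ≤ o x`").  No assumption on the residue characteristic.
-/

set_option autoImplicit false
set_option linter.unusedSectionVars false

namespace Fermat.Agent.S13.helper836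

variable {K : Type*} [Field K] {Γ : Type*} [AddCommGroup Γ] [LinearOrder Γ] [IsOrderedAddMonoid Γ]

/-- An additive valuation on the nonzero elements of a field. -/
structure IsOrd (o : K → Γ) : Prop where
  mul : ∀ x y : K, x ≠ 0 → y ≠ 0 → o (x * y) = o x + o y
  add : ∀ x y : K, x ≠ 0 → y ≠ 0 → x + y ≠ 0 → min (o x) (o y) ≤ o (x + y)

namespace IsOrd

variable {o : K → Γ} (ho : IsOrd o)
include ho

theorem one : o 1 = 0 := by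
  have h := ho.mul 1 1 one_ne_zero one_ne_zero
  rw [mul_one] at h
  grind

theorem neg_one : o (-1) = 0 := by
  have h := ho.mul (-1) (-1) (by simp) (by simp)
  have h1 := ho.one
  rw [neg_mul_neg, mul_one, h1] at h
  grind

theorem neg (x : K) : o (-x) = o x := by
  rcases eq_or_ne x 0 with rfl | hx
  · simp
  · have h := ho.mul (-1) x (by simp) hx
    rw [neg_one_mul, ho.neg_one, zero_add] at h
    exact h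

theorem inv {x : K} (hx : x ≠ 0) : o x⁻¹ = - o x := by
  have h := ho.mul x x⁻¹ hx (inv_ne_zero hx)
  rw [mul_inv_cancel₀ hx, ho.one] at h
  grind

theorem sq {x : K} (hx : x ≠ 0) : o (x ^ 2) = 2 • o x := by
  rw [pow_two, ho.mul x x hx hx, two_nsmul]

theorem div {x y : K} (hx : x ≠ 0) (hy : y ≠ 0) : o (x / y) = o x - o y := by
  rw [div_eq_mul_inv, ho.mul x y⁻¹ hx (inv_ne_zero hy), ho.inv hy, sub_eq_add_neg]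

/-- Strict domination: the sum has the valuation of the dominant term. -/
theorem add_eq_of_lt {x y : K} (hx : x ≠ 0) (hy : y ≠ 0) (h : o x < o y) :
    x + y ≠ 0 ∧ o (x + y) = o x := by
  have hne : x + y ≠ 0 := by
    intro h0
    have : y = -x := by linear_combination h0
    rw [this, ho.neg] at h
    exact lt_irrefl _ h
  refine ⟨hne, ?_⟩
  have h1 := ho.add x y hx hy hne
  have h2 := ho.add (x + y) (-y) hne (neg_ne_zero.mpr hy) (by simpa using hx)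
  rw [ho.neg, add_neg_cancel_right] at h2
  grind

/-- The two-root lemma. -/
theorem two_root {x y : K} (hx : x ≠ 0) (hy : y ≠ 0) :
    (x + y = 0 → o x = o y) ∧
      (x + y ≠ 0 → min (o x) (o y) ≤ o (x + y) ∧ (o x ≠ o y → o (x + y) = min (o x) (o y))) := by
  refine ⟨fun h0 => ?_, fun hne => ⟨ho.add x y hx hy hne, fun hxy => ?_⟩⟩
  · have : y = -x := by linear_combination h0
    rw [this, ho.neg]
  · rcases lt_or_gt_of_ne hxy with h | h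
    · rw [(ho.add_eq_of_lt hx hy h).2, min_eq_left h.le]
    · rw [add_comm, (ho.add_eq_of_lt hy hx h).2, min_eq_right h.le]

end IsOrd

/-- `GE o x g`: "`o x ≥ g`", where `o 0 = ∞`. -/
def GE (o : K → Γ) (x : K) (g : Γ) : Prop := x = 0 ∨ g ≤ o x

namespace GE

variable {o : K → Γ}

theorem zero (g : Γ) : GE o 0 g := Or.inl rfl

theorem of_le {x : K} {g : Γ} (h : g ≤ o x) : GE o x g := Or.inr h

theorem mono {x : K} {g g' : Γ} (h : GE o x g) (hg : g' ≤ g) : GE o x g' := by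
  rcases h with h | h
  · exact Or.inl h
  · exact Or.inr (hg.trans h)

theorem le_of_ne {x : K} {g : Γ} (h : GE o x g) (hx : x ≠ 0) : g ≤ o x := by
  rcases h with h | h
  · exact absurd h hx
  · exact h

theorem mul (ho : IsOrd o) {x y : K} {g g' : Γ} (hx : GE o x g) (hy : GE o y g') :
    GE o (x * y) (g + g') := by
  rcases eq_or_ne x 0 with rfl | hx0
  · left; simp
  rcases eq_or_ne y 0 with rfl | hy0
  · left; simp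
  right
  rw [ho.mul x y hx0 hy0]
  exact add_le_add (hx.le_of_ne hx0) (hy.le_of_ne hy0)

theorem add (ho : IsOrd o) {x y : K} {g : Γ} (hx : GE o x g) (hy : GE o y g) :
    GE o (x + y) g := by
  rcases eq_or_ne x 0 with rfl | hx0
  · simpa using hy
  rcases eq_or_ne y 0 with rfl | hy0
  · simpa using hx
  rcases eq_or_ne (x + y) 0 with h0 | h0
  · exact Or.inl h0
  right
  exact (le_min (hx.le_of_ne hx0) (hy.le_of_ne hy0)).trans (ho.add x y hx0 hy0 h0)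

theorem neg (ho : IsOrd o) {x : K} {g : Γ} (hx : GE o x g) : GE o (-x) g := by
  rcases hx with h | h
  · left; simp [h]
  · right; rwa [ho.neg]

theorem sub (ho : IsOrd o) {x y : K} {g : Γ} (hx : GE o x g) (hy : GE o y g) :
    GE o (x - y) g := by
  rw [sub_eq_add_neg]; exact hx.add ho (hy.neg ho)

theorem one (ho : IsOrd o) : GE o (1 : K) 0 := Or.inr (le_of_eq ho.one.symm)

theorem natCast (ho : IsOrd o) (n : ℕ) : GE o (n : K) 0 := by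
  induction n with
  | zero => left; simp
  | succ n ih => rw [Nat.cast_succ]; exact ih.add ho (one ho)

theorem two (ho : IsOrd o) : GE o (2 : K) 0 := by
  have := natCast (K := K) ho 2; simpa using this

theorem four (ho : IsOrd o) : GE o (4 : K) 0 := by
  have := natCast (K := K) ho 4; simpa using this

theorem intCast (ho : IsOrd o) (n : ℤ) : GE o (n : K) 0 := by
  rcases Int.eq_nat_or_neg n with ⟨m, rfl | rfl⟩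
  · simpa using natCast ho m
  · simpa using (natCast ho m).neg ho

/-- Strict domination against a `GE` term. -/
theorem add_eq_of_lt (ho : IsOrd o) {x y : K} {g : Γ} (hx : x ≠ 0) (hy : GE o y g)
    (h : o x < g) : x + y ≠ 0 ∧ o (x + y) = o x := by
  rcases eq_or_ne y 0 with rfl | hy0
  · simpa using hx
  · exact ho.add_eq_of_lt hx hy0 (h.trans_le (hy.le_of_ne hy0))

/-- Cancel a nonzero factor: `s * d = r`. -/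
theorem of_mul_eq (ho : IsOrd o) {s d r : K} {g : Γ} (h : s * d = r) (hd : d ≠ 0)
    (hr : GE o r g) : GE o s (g - o d) := by
  rcases eq_or_ne s 0 with rfl | hs
  · exact zero _
  right
  have hr0 : r ≠ 0 := by rw [← h]; exact mul_ne_zero hs hd
  have := hr.le_of_ne hr0
  rw [← h, ho.mul s d hs hd] at this
  grind

end GE

/-- Cancel a nonzero factor, exact form. -/
theorem IsOrd.eq_of_mul_eq {o : K → Γ} (ho : IsOrd o) {s d r : K} (h : s * d = r) (hd : d ≠ 0)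
    (hr : r ≠ 0) : s ≠ 0 ∧ o s = o r - o d := by
  have hs : s ≠ 0 := by
    rintro rfl
    rw [zero_mul] at h
    exact hr h.symm
  refine ⟨hs, ?_⟩
  rw [← h, ho.mul s d hs hd]
  grind


/-! ### The tropical Kummer law on the node Kummer line

Parameters `a c : K` with `o c = 0`, `0 < o a`.  The "depth" of a coordinate `ξ` is its
valuation clamped to `[0, o a]` (with `ξ = 0` at depth `o a`). -/

open Classical in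
/-- depth of a coordinate. -/
noncomputable def dep (o : K → Γ) (N : Γ) (ξ : K) : Γ :=
  if ξ = 0 then N else max 0 (min (o ξ) N)

theorem dep_zero (o : K → Γ) (N : Γ) : dep o N 0 = N := by simp [dep]

theorem dep_of_ne (o : K → Γ) (N : Γ) {ξ : K} (h : ξ ≠ 0) : dep o N ξ = max 0 (min (o ξ) N) := by
  simp [dep, h]

theorem dep_nonneg (o : K → Γ) {N : Γ} (hN : 0 ≤ N) (ξ : K) : 0 ≤ dep o N ξ := by
  unfold dep; split_ifs <;> grind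

theorem dep_le (o : K → Γ) {N : Γ} (hN : 0 ≤ N) (ξ : K) : dep o N ξ ≤ N := by
  unfold dep; split_ifs <;> grind

section law

variable {o : K → Γ} (ho : IsOrd o) {a c : K} (ha : a ≠ 0) (hc : c ≠ 0) (hN : 0 < o a)
  (hc0 : o c = 0)
include ho ha hc hN hc0

/-- **Tropical law, deep case**: `P` deep (`ξ₁ = 0` or `o a ≤ o ξ₁`), `Q` in the middle. -/
theorem tl_deep {ξ₁ ξ₂ ξp ξm : K}
    (hPi : ξp * ξm * (ξ₁ - ξ₂) ^ 2 = (ξ₁ * ξ₂ - a) ^ 2)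
    (hSi : (ξp + ξm) * (ξ₁ - ξ₂) ^ 2 = 2 * (ξ₁ + ξ₂) * (ξ₁ * ξ₂ + a) + c * ξ₁ * ξ₂)
    (h1 : GE o ξ₁ (o a)) (h2 : ξ₂ ≠ 0) (h2a : 0 < o ξ₂) (h2b : o ξ₂ < o a) :
    ξp ≠ 0 ∧ ξm ≠ 0 ∧ o ξp = o a - o ξ₂ ∧ o ξm = o a - o ξ₂ := by
  have hD : ξ₁ - ξ₂ ≠ 0 ∧ o (ξ₁ - ξ₂) = o ξ₂ := by
    have := GE.add_eq_of_lt ho (x := -ξ₂) (y := ξ₁) (neg_ne_zero.mpr h2) h1
      (by rw [ho.neg]; exact h2b)
    rw [ho.neg, neg_add_eq_sub] at this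
    exact this
  have hD2 : (ξ₁ - ξ₂) ^ 2 ≠ 0 := pow_ne_zero 2 hD.1
  have hoD2 : o ((ξ₁ - ξ₂) ^ 2) = 2 • o ξ₂ := by rw [ho.sq hD.1, hD.2]
  have h12 : GE o (ξ₁ * ξ₂) (o a + o ξ₂) := h1.mul ho (GE.of_le le_rfl)
  have hA : ξ₁ * ξ₂ - a ≠ 0 ∧ o (ξ₁ * ξ₂ - a) = o a := by
    have := GE.add_eq_of_lt ho (x := -a) (y := ξ₁ * ξ₂) (neg_ne_zero.mpr ha) h12
      (by rw [ho.neg]; grind)
    rw [ho.neg, neg_add_eq_sub] at this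
    exact this
  have hA2 : (ξ₁ * ξ₂ - a) ^ 2 ≠ 0 := pow_ne_zero 2 hA.1
  have hoA2 : o ((ξ₁ * ξ₂ - a) ^ 2) = 2 • o a := by rw [ho.sq hA.1, hA.2]
  obtain ⟨hpm0, hpm⟩ := ho.eq_of_mul_eq hPi hD2 hA2
  have hp : ξp ≠ 0 := left_ne_zero_of_mul hpm0
  have hm : ξm ≠ 0 := right_ne_zero_of_mul hpm0
  rw [ho.mul ξp ξm hp hm, hoA2, hoD2] at hpm
  have hR : GE o (2 * (ξ₁ + ξ₂) * (ξ₁ * ξ₂ + a) + c * ξ₁ * ξ₂) (o ξ₂ + o a) := by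
    have t1 : GE o (ξ₁ + ξ₂) (o ξ₂) := (h1.mono h2b.le).add ho (GE.of_le le_rfl)
    have t2 : GE o (ξ₁ * ξ₂ + a) (o a) := (h12.mono (by grind)).add ho (GE.of_le le_rfl)
    have t3 : GE o (2 * (ξ₁ + ξ₂) * (ξ₁ * ξ₂ + a)) (0 + o ξ₂ + o a) :=
      ((GE.two ho).mul ho t1).mul ho t2
    have t4 : GE o (c * ξ₁ * ξ₂) (0 + (o a + o ξ₂)) := by
      rw [mul_assoc]; exact (GE.of_le (le_of_eq hc0.symm)).mul ho h12
    exact (t3.mono (by grind)).add ho (t4.mono (by grind))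
  have hs := GE.of_mul_eq ho hSi hD2 hR
  rw [hoD2] at hs
  obtain ⟨tr0, tr1⟩ := ho.two_root hp hm
  refine ⟨hp, hm, ?_⟩
  rcases eq_or_ne (ξp + ξm) 0 with h0 | h0
  · have := tr0 h0
    grind
  · obtain ⟨q1, q2⟩ := tr1 h0
    have := hs.le_of_ne h0
    grind

/-- **Tropical law, unit case**: `P` in `E₀` (`o ξ₁ ≤ 0`), `Q` in the middle. -/
theorem tl_unit {ξ₁ ξ₂ ξp ξm : K}
    (hPi : ξp * ξm * (ξ₁ - ξ₂) ^ 2 = (ξ₁ * ξ₂ - a) ^ 2)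
    (hSi : (ξp + ξm) * (ξ₁ - ξ₂) ^ 2 = 2 * (ξ₁ + ξ₂) * (ξ₁ * ξ₂ + a) + c * ξ₁ * ξ₂)
    (h1 : ξ₁ ≠ 0) (h1a : o ξ₁ ≤ 0) (h2 : ξ₂ ≠ 0) (h2a : 0 < o ξ₂) (h2b : o ξ₂ < o a) :
    ξp ≠ 0 ∧ ξm ≠ 0 ∧ o ξp = o ξ₂ ∧ o ξm = o ξ₂ := by
  have hD : ξ₁ - ξ₂ ≠ 0 ∧ o (ξ₁ - ξ₂) = o ξ₁ := by
    have := ho.add_eq_of_lt (x := ξ₁) (y := -ξ₂) h1 (neg_ne_zero.mpr h2)
      (by rw [ho.neg]; grind)
    rw [← sub_eq_add_neg] at this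
    exact this
  have hD2 : (ξ₁ - ξ₂) ^ 2 ≠ 0 := pow_ne_zero 2 hD.1
  have hoD2 : o ((ξ₁ - ξ₂) ^ 2) = 2 • o ξ₁ := by rw [ho.sq hD.1, hD.2]
  have h12 : ξ₁ * ξ₂ ≠ 0 := mul_ne_zero h1 h2
  have ho12 : o (ξ₁ * ξ₂) = o ξ₁ + o ξ₂ := ho.mul _ _ h1 h2
  have hA : ξ₁ * ξ₂ - a ≠ 0 ∧ o (ξ₁ * ξ₂ - a) = o ξ₁ + o ξ₂ := by
    have := ho.add_eq_of_lt (x := ξ₁ * ξ₂) (y := -a) h12 (neg_ne_zero.mpr ha)
      (by rw [ho.neg, ho12]; grind)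
    rw [← sub_eq_add_neg, ho12] at this
    exact this
  have hA2 : (ξ₁ * ξ₂ - a) ^ 2 ≠ 0 := pow_ne_zero 2 hA.1
  have hoA2 : o ((ξ₁ * ξ₂ - a) ^ 2) = 2 • (o ξ₁ + o ξ₂) := by rw [ho.sq hA.1, hA.2]
  obtain ⟨hpm0, hpm⟩ := ho.eq_of_mul_eq hPi hD2 hA2
  have hp : ξp ≠ 0 := left_ne_zero_of_mul hpm0
  have hm : ξm ≠ 0 := right_ne_zero_of_mul hpm0
  rw [ho.mul ξp ξm hp hm, hoA2, hoD2] at hpm
  have hR : GE o (2 * (ξ₁ + ξ₂) * (ξ₁ * ξ₂ + a) + c * ξ₁ * ξ₂) (2 • o ξ₁ + o ξ₂) := by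
    have t1 : GE o (ξ₁ + ξ₂) (o ξ₁) :=
      (GE.of_le le_rfl).add ho (GE.of_le (by grind))
    have t2 : GE o (ξ₁ * ξ₂ + a) (o ξ₁ + o ξ₂) :=
      (GE.of_le (le_of_eq ho12.symm)).add ho (GE.of_le (by grind))
    have t3 : GE o (2 * (ξ₁ + ξ₂) * (ξ₁ * ξ₂ + a)) (0 + o ξ₁ + (o ξ₁ + o ξ₂)) :=
      ((GE.two ho).mul ho t1).mul ho t2
    have t4 : GE o (c * ξ₁ * ξ₂) (0 + (o ξ₁ + o ξ₂)) := by
      rw [mul_assoc]
      exact (GE.of_le (le_of_eq hc0.symm)).mul ho (GE.of_le (le_of_eq ho12.symm))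
    exact (t3.mono (by grind)).add ho (t4.mono (by grind))
  have hs := GE.of_mul_eq ho hSi hD2 hR
  rw [hoD2] at hs
  obtain ⟨tr0, tr1⟩ := ho.two_root hp hm
  refine ⟨hp, hm, ?_⟩
  rcases eq_or_ne (ξp + ξm) 0 with h0 | h0
  · have := tr0 h0
    grind
  · obtain ⟨q1, q2⟩ := tr1 h0
    have := hs.le_of_ne h0
    grind

/-- **Tropical law, middle case**: both `P` and `Q` in the middle region. -/
theorem tl_mid {ξ₁ ξ₂ ξp ξm : K} (hne : ξ₁ ≠ ξ₂)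
    (hPi : ξp * ξm * (ξ₁ - ξ₂) ^ 2 = (ξ₁ * ξ₂ - a) ^ 2)
    (hSi : (ξp + ξm) * (ξ₁ - ξ₂) ^ 2 = 2 * (ξ₁ + ξ₂) * (ξ₁ * ξ₂ + a) + c * ξ₁ * ξ₂)
    (h1 : ξ₁ ≠ 0) (h1a : 0 < o ξ₁) (h1b : o ξ₁ < o a)
    (h2 : ξ₂ ≠ 0) (h2a : 0 < o ξ₂) (h2b : o ξ₂ < o a) :
    (dep o (o a) ξp = max (o ξ₁ - o ξ₂) (o ξ₂ - o ξ₁) ∧
        dep o (o a) ξm = min (o ξ₁ + o ξ₂) (2 • o a - (o ξ₁ + o ξ₂))) ∨
      (dep o (o a) ξm = max (o ξ₁ - o ξ₂) (o ξ₂ - o ξ₁) ∧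
        dep o (o a) ξp = min (o ξ₁ + o ξ₂) (2 • o a - (o ξ₁ + o ξ₂))) := by
  have hD0 : ξ₁ - ξ₂ ≠ 0 := sub_ne_zero.mpr hne
  have hD2 : (ξ₁ - ξ₂) ^ 2 ≠ 0 := pow_ne_zero 2 hD0
  have hoD2 : o ((ξ₁ - ξ₂) ^ 2) = 2 • o (ξ₁ - ξ₂) := ho.sq hD0
  -- valuation of the difference
  obtain ⟨-, trD⟩ := ho.two_root (x := ξ₁) (y := -ξ₂) h1 (neg_ne_zero.mpr h2)
  rw [← sub_eq_add_neg, ho.neg] at trD
  obtain ⟨hD1, hD2'⟩ := trD hD0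
  have h12 : ξ₁ * ξ₂ ≠ 0 := mul_ne_zero h1 h2
  have ho12 : o (ξ₁ * ξ₂) = o ξ₁ + o ξ₂ := ho.mul _ _ h1 h2
  -- the sum side: exact valuation
  have hT2 : c * ξ₁ * ξ₂ ≠ 0 ∧ o (c * ξ₁ * ξ₂) = o ξ₁ + o ξ₂ := by
    rw [mul_assoc]
    refine ⟨mul_ne_zero hc h12, ?_⟩
    rw [ho.mul c _ hc h12, hc0, ho12, zero_add]
  have hT1 : GE o (2 * (ξ₁ + ξ₂) * (ξ₁ * ξ₂ + a))
      (0 + min (o ξ₁) (o ξ₂) + min (o ξ₁ + o ξ₂) (o a)) := by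
    have t1 : GE o (ξ₁ + ξ₂) (min (o ξ₁) (o ξ₂)) :=
      (GE.of_le (min_le_left _ _)).add ho (GE.of_le (min_le_right _ _))
    have t2 : GE o (ξ₁ * ξ₂ + a) (min (o ξ₁ + o ξ₂) (o a)) :=
      (GE.of_le (by rw [ho12]; exact min_le_left _ _)).add ho (GE.of_le (min_le_right _ _))
    exact ((GE.two ho).mul ho t1).mul ho t2
  have hR : 2 * (ξ₁ + ξ₂) * (ξ₁ * ξ₂ + a) + c * ξ₁ * ξ₂ ≠ 0 ∧
      o (2 * (ξ₁ + ξ₂) * (ξ₁ * ξ₂ + a) + c * ξ₁ * ξ₂) = o ξ₁ + o ξ₂ := by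
    have := GE.add_eq_of_lt ho hT2.1 hT1 (by rw [hT2.2]; grind)
    rw [add_comm, hT2.2] at this
    exact this
  obtain ⟨hs0, hs⟩ := ho.eq_of_mul_eq hSi hD2 hR.1
  rw [hR.2, hoD2] at hs
  -- the product side
  obtain ⟨trA0, trA⟩ := ho.two_root (x := ξ₁ * ξ₂) (y := -a) h12 (neg_ne_zero.mpr ha)
  rw [← sub_eq_add_neg, ho.neg, ho12] at trA0 trA
  rcases eq_or_ne (ξ₁ * ξ₂ - a) 0 with hA0 | hA0
  · have hsum := trA0 hA0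
    rw [hA0] at hPi
    have hz : ξp * ξm = 0 := by
      have : ξp * ξm * (ξ₁ - ξ₂) ^ 2 = 0 := by rw [hPi]; ring
      rcases mul_eq_zero.mp this with h | h
      · exact h
      · exact absurd h hD2
    rcases mul_eq_zero.mp hz with hp | hm
    · right
      rw [hp, zero_add] at hs0 hs
      rw [hp, dep_zero, dep_of_ne o _ hs0]
      grind
    · left
      rw [hm, add_zero] at hs0 hs
      rw [hm, dep_zero, dep_of_ne o _ hs0]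
      grind
  · obtain ⟨hρ1, hρ2⟩ := trA hA0
    have hA2 : (ξ₁ * ξ₂ - a) ^ 2 ≠ 0 := pow_ne_zero 2 hA0
    have hoA2 : o ((ξ₁ * ξ₂ - a) ^ 2) = 2 • o (ξ₁ * ξ₂ - a) := ho.sq hA0
    obtain ⟨hpm0, hpm⟩ := ho.eq_of_mul_eq hPi hD2 hA2
    have hp : ξp ≠ 0 := left_ne_zero_of_mul hpm0
    have hm : ξm ≠ 0 := right_ne_zero_of_mul hpm0
    rw [ho.mul ξp ξm hp hm, hoA2, hoD2] at hpm
    obtain ⟨-, tr1⟩ := ho.two_root hp hm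
    obtain ⟨q1, q2⟩ := tr1 hs0
    rw [dep_of_ne o _ hp, dep_of_ne o _ hm]
    generalize o ξp = p at *
    generalize o ξm = m at *
    generalize o (ξp + ξm) = s at *
    generalize o (ξ₁ * ξ₂ - a) = ρ at *
    generalize o (ξ₁ - ξ₂) = δ at *
    generalize o ξ₁ = o1 at *
    generalize o ξ₂ = o2 at *
    generalize o a = N at *
    grind

/-- Duplication in the middle region: the depth of `2P` is the folded double depth. -/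
theorem dup_mid {ξ X : K}
    (hX : X * (ξ * (4 * ξ ^ 2 + c * ξ + 4 * a)) = (ξ ^ 2 - a) ^ 2)
    (h : ξ ≠ 0) (h1 : 0 < o ξ) (h2 : o ξ < o a) :
    dep o (o a) X = min (2 • o ξ) (2 • o a - 2 • o ξ) := by
  have hξ2 : ξ ^ 2 ≠ 0 := pow_ne_zero 2 h
  have hoξ2 : o (ξ ^ 2) = 2 • o ξ := ho.sq h
  have hG : 4 * ξ ^ 2 + c * ξ + 4 * a ≠ 0 ∧ o (4 * ξ ^ 2 + c * ξ + 4 * a) = o ξ := by
    have hcξ : c * ξ ≠ 0 ∧ o (c * ξ) = o ξ :=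
      ⟨mul_ne_zero hc h, by rw [ho.mul c ξ hc h, hc0, zero_add]⟩
    have t : GE o (4 * ξ ^ 2 + 4 * a) (min (2 • o ξ) (o a)) := by
      have t1 : GE o (4 * ξ ^ 2) (0 + 2 • o ξ) :=
        (GE.four ho).mul ho (GE.of_le (le_of_eq hoξ2.symm))
      have t2 : GE o (4 * a) (0 + o a) := (GE.four ho).mul ho (GE.of_le le_rfl)
      exact (t1.mono (by grind)).add ho (t2.mono (by grind))
    have := GE.add_eq_of_lt ho hcξ.1 t (by rw [hcξ.2]; grind)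
    rw [hcξ.2] at this
    have e : c * ξ + (4 * ξ ^ 2 + 4 * a) = 4 * ξ ^ 2 + c * ξ + 4 * a := by ring
    rw [e] at this
    exact this
  have hF : ξ * (4 * ξ ^ 2 + c * ξ + 4 * a) ≠ 0 := mul_ne_zero h hG.1
  have hoF : o (ξ * (4 * ξ ^ 2 + c * ξ + 4 * a)) = 2 • o ξ := by
    rw [ho.mul _ _ h hG.1, hG.2, two_nsmul]
  obtain ⟨trA0, trA⟩ := ho.two_root (x := ξ ^ 2) (y := -a) hξ2 (neg_ne_zero.mpr ha)
  rw [← sub_eq_add_neg, ho.neg, hoξ2] at trA0 trA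
  rcases eq_or_ne (ξ ^ 2 - a) 0 with hA0 | hA0
  · have hsum := trA0 hA0
    rw [hA0] at hX
    have hX0 : X = 0 := by
      have : X * (ξ * (4 * ξ ^ 2 + c * ξ + 4 * a)) = 0 := by rw [hX]; ring
      rcases mul_eq_zero.mp this with h' | h'
      · exact h'
      · exact absurd h' hF
    rw [hX0, dep_zero]
    grind
  · obtain ⟨hρ1, hρ2⟩ := trA hA0
    have hA2 : (ξ ^ 2 - a) ^ 2 ≠ 0 := pow_ne_zero 2 hA0
    have hoA2 : o ((ξ ^ 2 - a) ^ 2) = 2 • o (ξ ^ 2 - a) := ho.sq hA0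
    obtain ⟨hX0, hoX⟩ := ho.eq_of_mul_eq hX hF hA2
    rw [hoA2, hoF] at hoX
    rw [dep_of_ne o _ hX0]
    grind

/-- Duplication outside the middle region lands in `E₀`. -/
theorem dup_out {ξ X : K}
    (hX : X * (ξ * (4 * ξ ^ 2 + c * ξ + 4 * a)) = (ξ ^ 2 - a) ^ 2)
    (hF : ξ * (4 * ξ ^ 2 + c * ξ + 4 * a) ≠ 0)
    (h : ξ ≠ 0) (hout : o ξ ≤ 0 ∨ o a ≤ o ξ) :
    X ≠ 0 ∧ o X ≤ 0 ∧ (o ξ ≤ 0 → o X ≤ o ξ) := by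
  have hξ2 : ξ ^ 2 ≠ 0 := pow_ne_zero 2 h
  have hoξ2 : o (ξ ^ 2) = 2 • o ξ := ho.sq h
  have hG0 : 4 * ξ ^ 2 + c * ξ + 4 * a ≠ 0 := right_ne_zero_of_mul hF
  have hoF : o (ξ * (4 * ξ ^ 2 + c * ξ + 4 * a)) = o ξ + o (4 * ξ ^ 2 + c * ξ + 4 * a) :=
    ho.mul _ _ h hG0
  have t1 : GE o (4 * ξ ^ 2) (0 + 2 • o ξ) :=
    (GE.four ho).mul ho (GE.of_le (le_of_eq hoξ2.symm))
  have t2 : GE o (c * ξ) (0 + o ξ) :=
    (GE.of_le (le_of_eq hc0.symm)).mul ho (GE.of_le le_rfl)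
  have t3 : GE o (4 * a) (0 + o a) := (GE.four ho).mul ho (GE.of_le le_rfl)
  rcases hout with h1 | h1
  · have hA : ξ ^ 2 - a ≠ 0 ∧ o (ξ ^ 2 - a) = 2 • o ξ := by
      have := ho.add_eq_of_lt (x := ξ ^ 2) (y := -a) hξ2 (neg_ne_zero.mpr ha)
        (by rw [ho.neg, hoξ2]; grind)
      rw [← sub_eq_add_neg, hoξ2] at this
      exact this
    have hA2 : (ξ ^ 2 - a) ^ 2 ≠ 0 := pow_ne_zero 2 hA.1
    have hoA2 : o ((ξ ^ 2 - a) ^ 2) = 2 • (2 • o ξ) := by rw [ho.sq hA.1, hA.2]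
    obtain ⟨hX0, hoX⟩ := ho.eq_of_mul_eq hX hF hA2
    rw [hoA2, hoF] at hoX
    have hG : GE o (4 * ξ ^ 2 + c * ξ + 4 * a) (2 • o ξ) :=
      ((t1.mono (by grind)).add ho (t2.mono (by grind))).add ho (t3.mono (by grind))
    have := hG.le_of_ne hG0
    refine ⟨hX0, ?_, ?_⟩ <;> grind
  · have hA : ξ ^ 2 - a ≠ 0 ∧ o (ξ ^ 2 - a) = o a := by
      have := ho.add_eq_of_lt (x := -a) (y := ξ ^ 2) (neg_ne_zero.mpr ha) hξ2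
        (by rw [ho.neg, hoξ2]; grind)
      rw [neg_add_eq_sub, ho.neg] at this
      exact this
    have hA2 : (ξ ^ 2 - a) ^ 2 ≠ 0 := pow_ne_zero 2 hA.1
    have hoA2 : o ((ξ ^ 2 - a) ^ 2) = 2 • o a := by rw [ho.sq hA.1, hA.2]
    obtain ⟨hX0, hoX⟩ := ho.eq_of_mul_eq hX hF hA2
    rw [hoA2, hoF] at hoX
    have hG : GE o (4 * ξ ^ 2 + c * ξ + 4 * a) (o a) :=
      ((t1.mono (by grind)).add ho (t2.mono (by grind))).add ho (t3.mono (by grind))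
    have := hG.le_of_ne hG0
    refine ⟨hX0, ?_, ?_⟩ <;> grind

/-- `E₀` is closed under addition (generic case `ξ₁ ≠ ξ₂`). -/
theorem add_e0 {ξ₁ ξ₂ ξp ξm : K} (hne : ξ₁ ≠ ξ₂)
    (hPi : ξp * ξm * (ξ₁ - ξ₂) ^ 2 = (ξ₁ * ξ₂ - a) ^ 2)
    (hSi : (ξp + ξm) * (ξ₁ - ξ₂) ^ 2 = 2 * (ξ₁ + ξ₂) * (ξ₁ * ξ₂ + a) + c * ξ₁ * ξ₂)
    (h1 : ξ₁ ≠ 0) (h1a : o ξ₁ ≤ 0) (h2 : ξ₂ ≠ 0) (h2a : o ξ₂ ≤ 0) :
    ξp ≠ 0 ∧ ξm ≠ 0 ∧ o ξp ≤ 0 ∧ o ξm ≤ 0 := by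
  have hD0 : ξ₁ - ξ₂ ≠ 0 := sub_ne_zero.mpr hne
  have hD2 : (ξ₁ - ξ₂) ^ 2 ≠ 0 := pow_ne_zero 2 hD0
  have hoD2 : o ((ξ₁ - ξ₂) ^ 2) = 2 • o (ξ₁ - ξ₂) := ho.sq hD0
  obtain ⟨-, trD⟩ := ho.two_root (x := ξ₁) (y := -ξ₂) h1 (neg_ne_zero.mpr h2)
  rw [← sub_eq_add_neg, ho.neg] at trD
  obtain ⟨hD1, -⟩ := trD hD0
  have h12 : ξ₁ * ξ₂ ≠ 0 := mul_ne_zero h1 h2
  have ho12 : o (ξ₁ * ξ₂) = o ξ₁ + o ξ₂ := ho.mul _ _ h1 h2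
  have hA : ξ₁ * ξ₂ - a ≠ 0 ∧ o (ξ₁ * ξ₂ - a) = o ξ₁ + o ξ₂ := by
    have := ho.add_eq_of_lt (x := ξ₁ * ξ₂) (y := -a) h12 (neg_ne_zero.mpr ha)
      (by rw [ho.neg, ho12]; grind)
    rw [← sub_eq_add_neg, ho12] at this
    exact this
  have hA2 : (ξ₁ * ξ₂ - a) ^ 2 ≠ 0 := pow_ne_zero 2 hA.1
  have hoA2 : o ((ξ₁ * ξ₂ - a) ^ 2) = 2 • (o ξ₁ + o ξ₂) := by rw [ho.sq hA.1, hA.2]
  obtain ⟨hpm0, hpm⟩ := ho.eq_of_mul_eq hPi hD2 hA2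
  have hp : ξp ≠ 0 := left_ne_zero_of_mul hpm0
  have hm : ξm ≠ 0 := right_ne_zero_of_mul hpm0
  rw [ho.mul ξp ξm hp hm, hoA2, hoD2] at hpm
  have hR : GE o (2 * (ξ₁ + ξ₂) * (ξ₁ * ξ₂ + a) + c * ξ₁ * ξ₂)
      (o ξ₁ + o ξ₂ + min (o ξ₁) (o ξ₂)) := by
    have t1 : GE o (ξ₁ + ξ₂) (min (o ξ₁) (o ξ₂)) :=
      (GE.of_le (min_le_left _ _)).add ho (GE.of_le (min_le_right _ _))
    have t2 : GE o (ξ₁ * ξ₂ + a) (o ξ₁ + o ξ₂) :=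
      (GE.of_le (le_of_eq ho12.symm)).add ho (GE.of_le (by grind))
    have t3 : GE o (2 * (ξ₁ + ξ₂) * (ξ₁ * ξ₂ + a)) (0 + min (o ξ₁) (o ξ₂) + (o ξ₁ + o ξ₂)) :=
      ((GE.two ho).mul ho t1).mul ho t2
    have t4 : GE o (c * ξ₁ * ξ₂) (0 + (o ξ₁ + o ξ₂)) := by
      rw [mul_assoc]
      exact (GE.of_le (le_of_eq hc0.symm)).mul ho (GE.of_le (le_of_eq ho12.symm))
    exact (t3.mono (by grind)).add ho (t4.mono (by grind))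
  have hs := GE.of_mul_eq ho hSi hD2 hR
  rw [hoD2] at hs
  obtain ⟨tr0, tr1⟩ := ho.two_root hp hm
  refine ⟨hp, hm, ?_⟩
  rcases eq_or_ne (ξp + ξm) 0 with h0 | h0
  · have := tr0 h0
    grind
  · obtain ⟨q1, q2⟩ := tr1 h0
    have := hs.le_of_ne h0
    grind

/-- The kernel of reduction `E₁ = {o ξ < 0}` is closed under addition (generic case), and
`ζ = 1/ξ` satisfies `ζ₊ + ζ₋ ≡ 2(ζ₁ + ζ₂)` modulo `ζ₁ζ₂`. -/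
theorem e1_add {ξ₁ ξ₂ ξp ξm : K} (hne : ξ₁ ≠ ξ₂)
    (hPi : ξp * ξm * (ξ₁ - ξ₂) ^ 2 = (ξ₁ * ξ₂ - a) ^ 2)
    (hSi : (ξp + ξm) * (ξ₁ - ξ₂) ^ 2 = 2 * (ξ₁ + ξ₂) * (ξ₁ * ξ₂ + a) + c * ξ₁ * ξ₂)
    (h1 : ξ₁ ≠ 0) (h1a : o ξ₁ < 0) (h2 : ξ₂ ≠ 0) (h2a : o ξ₂ < 0) :
    ξp ≠ 0 ∧ ξm ≠ 0 ∧ o ξp < 0 ∧ o ξm < 0 ∧
      GE o (ξp⁻¹ + ξm⁻¹ - 2 * (ξ₁⁻¹ + ξ₂⁻¹)) (-(o ξ₁ + o ξ₂)) := by
  have hD0 : ξ₁ - ξ₂ ≠ 0 := sub_ne_zero.mpr hne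
  have hD2 : (ξ₁ - ξ₂) ^ 2 ≠ 0 := pow_ne_zero 2 hD0
  have hoD2 : o ((ξ₁ - ξ₂) ^ 2) = 2 • o (ξ₁ - ξ₂) := ho.sq hD0
  obtain ⟨-, trD⟩ := ho.two_root (x := ξ₁) (y := -ξ₂) h1 (neg_ne_zero.mpr h2)
  rw [← sub_eq_add_neg, ho.neg] at trD
  obtain ⟨hD1, -⟩ := trD hD0
  have h12 : ξ₁ * ξ₂ ≠ 0 := mul_ne_zero h1 h2
  have ho12 : o (ξ₁ * ξ₂) = o ξ₁ + o ξ₂ := ho.mul _ _ h1 h2
  have hA : ξ₁ * ξ₂ - a ≠ 0 ∧ o (ξ₁ * ξ₂ - a) = o ξ₁ + o ξ₂ := by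
    have := ho.add_eq_of_lt (x := ξ₁ * ξ₂) (y := -a) h12 (neg_ne_zero.mpr ha)
      (by rw [ho.neg, ho12]; grind)
    rw [← sub_eq_add_neg, ho12] at this
    exact this
  have hA2 : (ξ₁ * ξ₂ - a) ^ 2 ≠ 0 := pow_ne_zero 2 hA.1
  have hoA2 : o ((ξ₁ * ξ₂ - a) ^ 2) = 2 • (o ξ₁ + o ξ₂) := by rw [ho.sq hA.1, hA.2]
  obtain ⟨hpm0, hpm⟩ := ho.eq_of_mul_eq hPi hD2 hA2
  have hp : ξp ≠ 0 := left_ne_zero_of_mul hpm0
  have hm : ξm ≠ 0 := right_ne_zero_of_mul hpm0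
  rw [ho.mul ξp ξm hp hm, hoA2, hoD2] at hpm
  have hR : GE o (2 * (ξ₁ + ξ₂) * (ξ₁ * ξ₂ + a) + c * ξ₁ * ξ₂)
      (o ξ₁ + o ξ₂ + min (o ξ₁) (o ξ₂)) := by
    have t1 : GE o (ξ₁ + ξ₂) (min (o ξ₁) (o ξ₂)) :=
      (GE.of_le (min_le_left _ _)).add ho (GE.of_le (min_le_right _ _))
    have t2 : GE o (ξ₁ * ξ₂ + a) (o ξ₁ + o ξ₂) :=
      (GE.of_le (le_of_eq ho12.symm)).add ho (GE.of_le (by grind))
    have t3 : GE o (2 * (ξ₁ + ξ₂) * (ξ₁ * ξ₂ + a)) (0 + min (o ξ₁) (o ξ₂) + (o ξ₁ + o ξ₂)) :=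
      ((GE.two ho).mul ho t1).mul ho t2
    have t4 : GE o (c * ξ₁ * ξ₂) (0 + (o ξ₁ + o ξ₂)) := by
      rw [mul_assoc]
      exact (GE.of_le (le_of_eq hc0.symm)).mul ho (GE.of_le (le_of_eq ho12.symm))
    exact (t3.mono (by grind)).add ho (t4.mono (by grind))
  have hs := GE.of_mul_eq ho hSi hD2 hR
  rw [hoD2] at hs
  obtain ⟨tr0, tr1⟩ := ho.two_root hp hm
  have hneg : o ξp < 0 ∧ o ξm < 0 := by
    rcases eq_or_ne (ξp + ξm) 0 with h0 | h0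
    · have := tr0 h0
      grind
    · obtain ⟨q1, q2⟩ := tr1 h0
      have := hs.le_of_ne h0
      grind
  refine ⟨hp, hm, hneg.1, hneg.2, ?_⟩
  -- the error term
  have key : (ξp⁻¹ + ξm⁻¹) * (ξ₁ * ξ₂ - a) ^ 2 =
      2 * (ξ₁ + ξ₂) * (ξ₁ * ξ₂ + a) + c * ξ₁ * ξ₂ := by
    rw [← hPi, ← hSi]
    field_simp
    ring
  have key2 : (ξ₁⁻¹ + ξ₂⁻¹) * (ξ₁ * ξ₂) = ξ₁ + ξ₂ := by
    field_simp
    ring
  have hε : (ξp⁻¹ + ξm⁻¹ - 2 * (ξ₁⁻¹ + ξ₂⁻¹)) * ((ξ₁ * ξ₂ - a) ^ 2 * (ξ₁ * ξ₂)) =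
      2 * (ξ₁ + ξ₂) * a * (3 * (ξ₁ * ξ₂) - a) + c * (ξ₁ * ξ₂) ^ 2 := by
    linear_combination (ξ₁ * ξ₂) * key - 2 * (ξ₁ * ξ₂ - a) ^ 2 * key2
  have hd : (ξ₁ * ξ₂ - a) ^ 2 * (ξ₁ * ξ₂) ≠ 0 := mul_ne_zero hA2 h12
  have hod : o ((ξ₁ * ξ₂ - a) ^ 2 * (ξ₁ * ξ₂)) = 2 • (o ξ₁ + o ξ₂) + (o ξ₁ + o ξ₂) := by
    rw [ho.mul _ _ hA2 h12, hoA2, ho12]
  have hNum : GE o (2 * (ξ₁ + ξ₂) * a * (3 * (ξ₁ * ξ₂) - a) + c * (ξ₁ * ξ₂) ^ 2)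
      (2 • (o ξ₁ + o ξ₂)) := by
    have t1 : GE o (ξ₁ + ξ₂) (min (o ξ₁) (o ξ₂)) :=
      (GE.of_le (min_le_left _ _)).add ho (GE.of_le (min_le_right _ _))
    have t3' : GE o (3 : K) 0 := by
      have := GE.natCast (K := K) ho 3; simpa using this
    have t2 : GE o (3 * (ξ₁ * ξ₂) - a) (o ξ₁ + o ξ₂) := by
      have u1 : GE o (3 * (ξ₁ * ξ₂)) (0 + (o ξ₁ + o ξ₂)) :=
        t3'.mul ho (GE.of_le (le_of_eq ho12.symm))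
      exact (u1.mono (by grind)).sub ho (GE.of_le (by grind))
    have t3 : GE o (2 * (ξ₁ + ξ₂) * a * (3 * (ξ₁ * ξ₂) - a))
        (0 + min (o ξ₁) (o ξ₂) + o a + (o ξ₁ + o ξ₂)) :=
      ((((GE.two ho).mul ho t1).mul ho (GE.of_le le_rfl))).mul ho t2
    have t4 : GE o (c * (ξ₁ * ξ₂) ^ 2) (0 + 2 • (o ξ₁ + o ξ₂)) :=
      (GE.of_le (le_of_eq hc0.symm)).mul ho
        (GE.of_le (le_of_eq (by rw [ho.sq h12, ho12])))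
    exact (t3.mono (by grind)).add ho (t4.mono (by grind))
  have := GE.of_mul_eq ho hε hd hNum
  rw [hod] at this
  exact this.mono (by grind)

/-- Duplication inside the kernel of reduction: `ζ(2P) ≡ 4ζ(P)` modulo `ζ(P)²`. -/
theorem e1_dup {ξ X : K}
    (hX : X * (ξ * (4 * ξ ^ 2 + c * ξ + 4 * a)) = (ξ ^ 2 - a) ^ 2)
    (hF : ξ * (4 * ξ ^ 2 + c * ξ + 4 * a) ≠ 0)
    (h : ξ ≠ 0) (h1 : o ξ < 0) :
    X ≠ 0 ∧ o X < 0 ∧ GE o (X⁻¹ - 4 * ξ⁻¹) (-(2 • o ξ)) := by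
  obtain ⟨hX0, -, hXle⟩ := dup_out ho ha hc hN hc0 hX hF h (Or.inl h1.le)
  refine ⟨hX0, lt_of_le_of_lt (hXle h1.le) h1, ?_⟩
  have hξ2 : ξ ^ 2 ≠ 0 := pow_ne_zero 2 h
  have hoξ2 : o (ξ ^ 2) = 2 • o ξ := ho.sq h
  have hA : ξ ^ 2 - a ≠ 0 ∧ o (ξ ^ 2 - a) = 2 • o ξ := by
    have := ho.add_eq_of_lt (x := ξ ^ 2) (y := -a) hξ2 (neg_ne_zero.mpr ha)
      (by rw [ho.neg, hoξ2]; grind)
    rw [← sub_eq_add_neg, hoξ2] at this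
    exact this
  have hA2 : (ξ ^ 2 - a) ^ 2 ≠ 0 := pow_ne_zero 2 hA.1
  have hoA2 : o ((ξ ^ 2 - a) ^ 2) = 2 • (2 • o ξ) := by rw [ho.sq hA.1, hA.2]
  have key : X⁻¹ * (ξ ^ 2 - a) ^ 2 = ξ * (4 * ξ ^ 2 + c * ξ + 4 * a) := by
    rw [← hX]
    field_simp
  have hε : (X⁻¹ - 4 * ξ⁻¹) * (ξ * (ξ ^ 2 - a) ^ 2) =
      c * ξ ^ 3 + 12 * a * ξ ^ 2 - 4 * a ^ 2 := by
    have e1 : ξ⁻¹ * ξ = 1 := inv_mul_cancel₀ h
    linear_combination ξ * key - 4 * (ξ ^ 2 - a) ^ 2 * e1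
  have hd : ξ * (ξ ^ 2 - a) ^ 2 ≠ 0 := mul_ne_zero h hA2
  have hod : o (ξ * (ξ ^ 2 - a) ^ 2) = o ξ + 2 • (2 • o ξ) := by
    rw [ho.mul _ _ h hA2, hoA2]
  have hξ3 : o (ξ ^ 3) = 3 • o ξ := by
    have e : ξ ^ 3 = ξ ^ 2 * ξ := by ring
    rw [e, ho.mul _ _ hξ2 h, hoξ2]
    grind
  have hNum : GE o (c * ξ ^ 3 + 12 * a * ξ ^ 2 - 4 * a ^ 2) (3 • o ξ) := by
    have t12 : GE o (12 : K) 0 := by
      have := GE.natCast (K := K) ho 12; simpa using this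
    have t1 : GE o (c * ξ ^ 3) (0 + 3 • o ξ) :=
      (GE.of_le (le_of_eq hc0.symm)).mul ho (GE.of_le (le_of_eq hξ3.symm))
    have t2 : GE o (12 * a * ξ ^ 2) (0 + o a + 2 • o ξ) :=
      (t12.mul ho (GE.of_le le_rfl)).mul ho (GE.of_le (le_of_eq hoξ2.symm))
    have t3 : GE o (4 * a ^ 2) (0 + 2 • o a) :=
      (GE.four ho).mul ho (GE.of_le (le_of_eq (ho.sq ha).symm))
    exact ((t1.mono (by grind)).add ho (t2.mono (by grind))).sub ho (t3.mono (by grind))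
  have := GE.of_mul_eq ho hε hd hNum
  rw [hod] at this
  exact this.mono (by grind)

/-- A `2`-torsion point in the kernel of reduction (residue characteristic `2` only). -/
theorem e1_two_tors {ξ : K} (hG : 4 * ξ ^ 2 + c * ξ + 4 * a = 0) (h : ξ ≠ 0) (h1 : o ξ < 0) :
    GE o (4 * ξ⁻¹) (-(2 • o ξ)) := by
  have hcξ : c * ξ ≠ 0 ∧ o (c * ξ) = o ξ :=
    ⟨mul_ne_zero hc h, by rw [ho.mul c ξ hc h, hc0, zero_add]⟩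
  have t2 : GE o (4 * a) (0 + o a) := (GE.four ho).mul ho (GE.of_le le_rfl)
  have h3 := GE.add_eq_of_lt ho hcξ.1 t2 (by rw [hcξ.2]; grind)
  rw [hcξ.2] at h3
  have e : 4 * ξ ^ 2 = -(c * ξ + 4 * a) := by linear_combination hG
  have h4 : 4 * ξ ^ 2 ≠ 0 ∧ o (4 * ξ ^ 2) = o ξ := by
    rw [e, ho.neg]
    exact ⟨neg_ne_zero.mpr h3.1, h3.2⟩
  have hξ2 : ξ ^ 2 ≠ 0 := pow_ne_zero 2 h
  have hξ3 : ξ ^ 3 ≠ 0 := pow_ne_zero 3 h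
  have hoξ3 : o (ξ ^ 3) = 3 • o ξ := by
    have e : ξ ^ 3 = ξ ^ 2 * ξ := by ring
    rw [e, ho.mul _ _ hξ2 h, ho.sq h]
    grind
  have e2 : 4 * ξ⁻¹ * ξ ^ 3 = 4 * ξ ^ 2 := by
    field_simp
  obtain ⟨-, h5⟩ := ho.eq_of_mul_eq e2 hξ3 h4.1
  rw [h4.2, hoξ3] at h5
  exact GE.of_le (by grind)

/-- **The tropical Kummer law** (field level): `Q` in the middle region, `P` arbitrary with
`ξ₁ ≠ ξ₂`.  The depths of `P + Q` and `P - Q` are, in some order, `|d₁ - d₂|` and the folded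
sum `min (d₁ + d₂) (2N - (d₁ + d₂))`. -/
theorem tl_field {ξ₁ ξ₂ ξp ξm : K} (hne : ξ₁ ≠ ξ₂)
    (hPi : ξp * ξm * (ξ₁ - ξ₂) ^ 2 = (ξ₁ * ξ₂ - a) ^ 2)
    (hSi : (ξp + ξm) * (ξ₁ - ξ₂) ^ 2 = 2 * (ξ₁ + ξ₂) * (ξ₁ * ξ₂ + a) + c * ξ₁ * ξ₂)
    (h2 : ξ₂ ≠ 0) (h2a : 0 < o ξ₂) (h2b : o ξ₂ < o a) :
    (dep o (o a) ξp = max (dep o (o a) ξ₁ - o ξ₂) (o ξ₂ - dep o (o a) ξ₁) ∧
        dep o (o a) ξm = min (dep o (o a) ξ₁ + o ξ₂) (2 • o a - (dep o (o a) ξ₁ + o ξ₂))) ∨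
      (dep o (o a) ξm = max (dep o (o a) ξ₁ - o ξ₂) (o ξ₂ - dep o (o a) ξ₁) ∧
        dep o (o a) ξp = min (dep o (o a) ξ₁ + o ξ₂) (2 • o a - (dep o (o a) ξ₁ + o ξ₂))) := by
  rcases eq_or_ne ξ₁ 0 with h10 | h10
  · obtain ⟨hp, hm, e1, e2⟩ := tl_deep ho ha hc hN hc0 hPi hSi (Or.inl h10) h2 h2a h2b
    left
    rw [dep_of_ne o _ hp, dep_of_ne o _ hm, e1, e2, h10, dep_zero]
    grind
  rcases le_or_gt (o a) (o ξ₁) with h1 | h1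
  · obtain ⟨hp, hm, e1, e2⟩ := tl_deep ho ha hc hN hc0 hPi hSi (Or.inr h1) h2 h2a h2b
    left
    rw [dep_of_ne o _ hp, dep_of_ne o _ hm, e1, e2, dep_of_ne o _ h10]
    grind
  rcases le_or_gt (o ξ₁) 0 with h1' | h1'
  · obtain ⟨hp, hm, e1, e2⟩ := tl_unit ho ha hc hN hc0 hPi hSi h10 h1' h2 h2a h2b
    left
    rw [dep_of_ne o _ hp, dep_of_ne o _ hm, e1, e2, dep_of_ne o _ h10]
    grind
  · have := tl_mid ho ha hc hN hc0 hne hPi hSi h10 h1' h1 h2 h2a h2b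
    rw [dep_of_ne o _ h10]
    have e : max 0 (min (o ξ₁) (o a)) = o ξ₁ := by grind
    rw [e]
    exact this

end law

end Fermat.Agent.S13.helper836
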