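import Mathlib
import Fermat.Agent.S05.helper872_Kummer
import Fermat.Agent.S13.helper836_Trop

/-!
# NODEVAL in any residue characteristic (helper836)

Shape coordinates of `helper305_Shape`: `ξ = x - e`, equation `η² = ξ (ξ² + al ξ + be)`.
For an arbitrary valuation `v` with `v (4 * al) = 1`, `v be < 1`, `be ≠ 0`
(**no hypothesis on `v 2` and none on `v n`**):

* `InE0.add`, `InE0.nsmul`: `E₀ = {O} ∪ {1 ≤ v ξ}` is closed under addition;
* `tl_point`: the tropical Kummer law for the depth function;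
* `nodeVal_gen`: an `n`-torsion point (`n` odd) with `v ξ < 1` satisfies
  `v be < v ξ` and `v ξ ^ n = v be ^ (2 j)` for some `j : ℤ`;
* `nodeVal`: the S05 interface `helper5.NodeValStmt`.
-/

set_option autoImplicit false
set_option linter.unusedSectionVars false

namespace Fermat.Agent.S13.helper836

open WeierstrassCurve WeierstrassCurve.Affine
open Fermat.Agent.S05
open Fermat.Agent.S05.helper305 (Shape)

/-! ### The additive valuation attached to a valuation -/

section ordOf

variable {K : Type*} [Field K] {Γ₀ : Type*} [LinearOrderedCommGroupWithZero Γ₀]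

open Classical in
/-- The additive valuation `-log v` with values in `Additive (Γ₀ˣ)ᵒᵈ` (junk value `0` at `0`). -/
noncomputable def ordOf (v : Valuation K Γ₀) (x : K) : Additive (Γ₀ˣ)ᵒᵈ :=
  if h : x = 0 then 0
  else Additive.ofMul (OrderDual.toDual (Units.mk0 (v x) ((Valuation.ne_zero_iff v).mpr h)))

variable (v : Valuation K Γ₀)

theorem ordOf_of_ne {x : K} (h : x ≠ 0) :
    ordOf v x = Additive.ofMul (OrderDual.toDual
      (Units.mk0 (v x) ((Valuation.ne_zero_iff v).mpr h))) := by
  simp [ordOf, h]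

theorem ordOf_le_iff {x y : K} (hx : x ≠ 0) (hy : y ≠ 0) :
    ordOf v x ≤ ordOf v y ↔ v y ≤ v x := by
  rw [ordOf_of_ne v hx, ordOf_of_ne v hy, Additive.ofMul_le, OrderDual.toDual_le_toDual,
    ← Units.val_le_val]
  rfl

theorem ordOf_lt_iff {x y : K} (hx : x ≠ 0) (hy : y ≠ 0) :
    ordOf v x < ordOf v y ↔ v y < v x := by
  rw [← not_le, ← not_le, ordOf_le_iff v hy hx]

theorem ordOf_one : ordOf v (1 : K) = 0 := by
  rw [ordOf_of_ne v one_ne_zero]
  have : Units.mk0 (v (1 : K)) ((Valuation.ne_zero_iff v).mpr one_ne_zero) = 1 := by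
    ext; simp
  rw [this]; rfl

theorem ordOf_nonpos_iff {x : K} (hx : x ≠ 0) : ordOf v x ≤ 0 ↔ 1 ≤ v x := by
  rw [← ordOf_one v, ordOf_le_iff v hx one_ne_zero, map_one]

theorem ordOf_nonneg_iff {x : K} (hx : x ≠ 0) : 0 ≤ ordOf v x ↔ v x ≤ 1 := by
  rw [← ordOf_one v, ordOf_le_iff v one_ne_zero hx, map_one]

theorem ordOf_pos_iff {x : K} (hx : x ≠ 0) : 0 < ordOf v x ↔ v x < 1 := by
  rw [← ordOf_one v, ordOf_lt_iff v one_ne_zero hx, map_one]

theorem ordOf_neg_iff {x : K} (hx : x ≠ 0) : ordOf v x < 0 ↔ 1 < v x := by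
  rw [← ordOf_one v, ordOf_lt_iff v hx one_ne_zero, map_one]

theorem ordOf_eq_zero_iff {x : K} (hx : x ≠ 0) : ordOf v x = 0 ↔ v x = 1 := by
  rw [le_antisymm_iff, ordOf_nonpos_iff v hx, ordOf_nonneg_iff v hx, le_antisymm_iff, and_comm]

theorem isOrd_ordOf : IsOrd (ordOf v) where
  mul x y hx hy := by
    rw [ordOf_of_ne v hx, ordOf_of_ne v hy, ordOf_of_ne v (mul_ne_zero hx hy), ← ofMul_mul,
      ← toDual_mul]
    congr 2
    ext
    simp
  add x y hx hy hxy := by
    rcases le_total (v x) (v y) with h | h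
    · have h1 : ordOf v y ≤ ordOf v x := (ordOf_le_iff v hy hx).mpr h
      rw [min_eq_right h1, ordOf_le_iff v hy hxy]
      exact (v.map_add x y).trans (max_le h le_rfl)
    · have h1 : ordOf v x ≤ ordOf v y := (ordOf_le_iff v hx hy).mpr h
      rw [min_eq_left h1, ordOf_le_iff v hx hxy]
      exact (v.map_add x y).trans (max_le le_rfl h)

/-- Back-translation of a relation `n • o ξ = j • (2 • o a)` to the valuation. -/
theorem pow_eq_zpow_of_ordOf {x a : K} (hx : x ≠ 0) (ha : a ≠ 0) {n : ℕ} {j : ℤ}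
    (h : j • ((2 : ℕ) • ordOf v a) = n • ordOf v x) : v x ^ n = v a ^ (2 * j) := by
  rw [ordOf_of_ne v hx, ordOf_of_ne v ha] at h
  have h' : ((Units.mk0 (v a) ((Valuation.ne_zero_iff v).mpr ha)) ^ 2) ^ j =
      (Units.mk0 (v x) ((Valuation.ne_zero_iff v).mpr hx)) ^ n := by
    have := congrArg (fun t => OrderDual.ofDual (Additive.toMul t)) h
    simpa using this
  have h2 := congrArg (fun u : Γ₀ˣ => (u : Γ₀)) h'
  simp only [Units.val_zpow_eq_zpow_val, Units.val_pow_eq_pow_val, Units.val_mk0] at h2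
  rw [zpow_mul, ← h2, zpow_ofNat]

end ordOf

/-! ### The relation "equal up to sign modulo `2N`" -/

section sim

variable {Γ : Type*} [AddCommGroup Γ]

/-- `x ≡ ± y` modulo `2 N`. -/
def Sim (N x y : Γ) : Prop :=
  x - y ∈ AddSubgroup.zmultiples ((2 : ℕ) • N) ∨ x + y ∈ AddSubgroup.zmultiples ((2 : ℕ) • N)

theorem Sim.refl (N x : Γ) : Sim N x x := Or.inl (by simp)

theorem Sim.symm {N x y : Γ} (h : Sim N x y) : Sim N y x := by
  rcases h with h | h
  · left
    have := (AddSubgroup.zmultiples ((2 : ℕ) • N)).neg_mem h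
    simpa using this
  · right
    rwa [add_comm]

theorem Sim.trans {N x y z : Γ} (h1 : Sim N x y) (h2 : Sim N y z) : Sim N x z := by
  rcases h1 with h1 | h1 <;> rcases h2 with h2 | h2
  · left
    convert (AddSubgroup.zmultiples ((2 : ℕ) • N)).add_mem h1 h2 using 1
    abel
  · right
    convert (AddSubgroup.zmultiples ((2 : ℕ) • N)).add_mem h1 h2 using 1
    abel
  · right
    convert (AddSubgroup.zmultiples ((2 : ℕ) • N)).sub_mem h1 h2 using 1
    abel
  · left
    convert (AddSubgroup.zmultiples ((2 : ℕ) • N)).sub_mem h1 h2 using 1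
    abel

variable [LinearOrder Γ]

theorem sim_step {N d x : Γ} {k : ℕ} (hx : Sim N x ((k + 1) • d)) :
    (Sim N (max (x - d) (d - x)) (k • d) ∧
        Sim N (min (x + d) ((2 : ℕ) • N - (x + d))) ((k + 2) • d)) ∨
      (Sim N (max (x - d) (d - x)) ((k + 2) • d) ∧
        Sim N (min (x + d) ((2 : ℕ) • N - (x + d))) (k • d)) := by
  have hZ : (2 : ℕ) • N ∈ AddSubgroup.zmultiples ((2 : ℕ) • N) :=
    AddSubgroup.mem_zmultiples _
  rcases hx with h | h
  · left
    constructor
    · rcases max_choice (x - d) (d - x) with hm | hm <;> rw [hm]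
      · left
        convert h using 1
        rw [add_smul, one_smul]; abel
      · right
        convert (AddSubgroup.zmultiples ((2 : ℕ) • N)).neg_mem h using 1
        rw [add_smul, one_smul]; abel
    · rcases min_choice (x + d) ((2 : ℕ) • N - (x + d)) with hm | hm <;> rw [hm]
      · left
        convert h using 1
        rw [add_smul, add_smul, one_smul, two_smul]; abel
      · right
        convert (AddSubgroup.zmultiples ((2 : ℕ) • N)).sub_mem hZ h using 1
        rw [add_smul, add_smul, one_smul, two_smul]; abel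
  · right
    constructor
    · rcases max_choice (x - d) (d - x) with hm | hm <;> rw [hm]
      · right
        convert h using 1
        rw [add_smul, add_smul, one_smul, two_smul]; abel
      · left
        convert (AddSubgroup.zmultiples ((2 : ℕ) • N)).neg_mem h using 1
        rw [add_smul, add_smul, one_smul, two_smul]; abel
    · rcases min_choice (x + d) ((2 : ℕ) • N - (x + d)) with hm | hm <;> rw [hm]
      · right
        convert h using 1
        rw [add_smul, one_smul]; abel
      · left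
        convert (AddSubgroup.zmultiples ((2 : ℕ) • N)).sub_mem hZ h using 1
        rw [add_smul, one_smul]; abel

end sim

/-! ### Point level -/

section point

variable {K : Type*} [Field K] [DecidableEq K] {W : WeierstrassCurve K} {e al be : K}
variable {Γ : Type*} [AddCommGroup Γ] [LinearOrder Γ] [IsOrderedAddMonoid Γ]

/-- x-only addition/subtraction formulas, in the normal form used by `helper836_Trop`. -/
theorem shape_add_sub (hS : Shape W e al be) {x₁ y₁ x₂ y₂ : K}
    (h₁ : W.toAffine.Nonsingular x₁ y₁) (h₂ : W.toAffine.Nonsingular x₂ y₂) (hx : x₁ ≠ x₂) :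
    ∃ (Xp Yp Xm Ym : K) (hp : W.toAffine.Nonsingular Xp Yp)
      (hm : W.toAffine.Nonsingular Xm Ym),
      (Point.some x₁ y₁ h₁ : W.toAffine.Point) + Point.some x₂ y₂ h₂ = Point.some Xp Yp hp ∧
      (Point.some x₁ y₁ h₁ : W.toAffine.Point) - Point.some x₂ y₂ h₂ = Point.some Xm Ym hm ∧
      (Xp - e) * (Xm - e) * ((x₁ - e) - (x₂ - e)) ^ 2 = ((x₁ - e) * (x₂ - e) - be) ^ 2 ∧
      ((Xp - e) + (Xm - e)) * ((x₁ - e) - (x₂ - e)) ^ 2 =
        2 * ((x₁ - e) + (x₂ - e)) * ((x₁ - e) * (x₂ - e) + be) +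
          4 * al * (x₁ - e) * (x₂ - e) := by
  obtain ⟨Xp, Yp, Xm, Ym, hp, hm, hadd, hsub, hprod, hsum⟩ :=
    helper872.exists_add_sub_shape hS h₁ h₂ hx
  have e12 : (x₁ - e) - (x₂ - e) = x₁ - x₂ := by ring
  exact ⟨Xp, Yp, Xm, Ym, hp, hm, hadd, hsub, by rw [e12]; exact hprod, by rw [e12]; exact hsum⟩

/-- x-only duplication formula, in the normal form used by `helper836_Trop`. -/
theorem shape_dup (hS : Shape W e al be) {x y : K}
    (h : W.toAffine.Nonsingular x y) (hy : y ≠ W.toAffine.negY x y) :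
    ∃ (X Y : K) (h' : W.toAffine.Nonsingular X Y),
      (Point.some x y h : W.toAffine.Point) + Point.some x y h = Point.some X Y h' ∧
      (X - e) * ((x - e) * (4 * (x - e) ^ 2 + 4 * al * (x - e) + 4 * be)) =
        ((x - e) ^ 2 - be) ^ 2 ∧
      (x - e) * (4 * (x - e) ^ 2 + 4 * al * (x - e) + 4 * be) ≠ 0 := by
  obtain ⟨X, Y, h', hadd, hdup, hne⟩ := helper872.exists_add_self_shape hS h hy
  refine ⟨X, Y, h', hadd, by linear_combination hdup, ?_⟩
  have h4 : (4 : K) ≠ 0 := by
    have : (4 : K) = 2 * 2 := by norm_num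
    rw [this]; exact mul_ne_zero hS.two_ne hS.two_ne
  have e1 : (x - e) * (4 * (x - e) ^ 2 + 4 * al * (x - e) + 4 * be) =
      4 * ((x - e) * ((x - e) ^ 2 + al * (x - e) + be)) := by ring
  rw [e1]
  exact mul_ne_zero h4 hne

/-- The depth of a point: `0` at the origin, the clamped valuation of `ξ = x - e` otherwise. -/
noncomputable def dP (o : K → Γ) (N : Γ) (e : K) : W.toAffine.Point → Γ
  | .zero => 0
  | .some x _ _ => dep o N (x - e)

theorem dP_zero (o : K → Γ) (N : Γ) (e : K) : dP o N e (0 : W.toAffine.Point) = 0 := rfl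

theorem dP_some (o : K → Γ) (N : Γ) (e : K) {x y : K} (h : W.toAffine.Nonsingular x y) :
    dP o N e (Point.some x y h : W.toAffine.Point) = dep o N (x - e) := rfl

theorem dP_neg (o : K → Γ) (N : Γ) (e : K) (P : W.toAffine.Point) :
    dP o N e (-P) = dP o N e P := by
  rcases P with _ | ⟨x, y, h⟩
  · rfl
  · rw [Point.neg_some]; rfl

/-- Membership in `E₀ = {O} ∪ {ξ ≠ 0, o ξ ≤ 0}`. -/
def InE0 (o : K → Γ) (e : K) : W.toAffine.Point → Prop
  | .zero => True
  | .some x _ _ => x - e ≠ 0 ∧ o (x - e) ≤ 0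

theorem InE0.zero (o : K → Γ) (e : K) : InE0 o e (0 : W.toAffine.Point) := trivial

theorem inE0_some (o : K → Γ) (e : K) {x y : K} (h : W.toAffine.Nonsingular x y) :
    InE0 o e (Point.some x y h : W.toAffine.Point) ↔ x - e ≠ 0 ∧ o (x - e) ≤ 0 := Iff.rfl

theorem InE0.neg {o : K → Γ} {e : K} {P : W.toAffine.Point} (hP : InE0 o e P) :
    InE0 o e (-P) := by
  rcases P with _ | ⟨x, y, h⟩
  · exact hP
  · rw [Point.neg_some]; exact hP

variable {o : K → Γ} (ho : IsOrd o) (hS : Shape W e al be) (hc : 4 * al ≠ 0)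
  (hc0 : o (4 * al) = 0) (ha : be ≠ 0) (hN : 0 < o be)
include ho hS hc hc0 ha hN

/-- Doubling a point outside the middle region lands in `E₀`. -/
theorem inE0_add_self {x y : K} (h : W.toAffine.Nonsingular x y)
    (hout : x - e = 0 ∨ o (x - e) ≤ 0 ∨ o be ≤ o (x - e)) :
    InE0 o e ((Point.some x y h : W.toAffine.Point) + Point.some x y h) := by
  by_cases hy : y = W.toAffine.negY x y
  · rw [Point.add_self_of_Y_eq hy]; trivial
  · obtain ⟨X, Y, h', hadd, hdup, hF⟩ := shape_dup hS h hy
    rw [hadd, inE0_some]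
    have hξ : x - e ≠ 0 := left_ne_zero_of_mul hF
    have hout' : o (x - e) ≤ 0 ∨ o be ≤ o (x - e) := by
      rcases hout with h0 | h0
      · exact absurd h0 hξ
      · exact h0
    obtain ⟨hX0, hX1, -⟩ := dup_out ho ha hc hN hc0 hdup hF hξ hout'
    exact ⟨hX0, hX1⟩

/-- `E₀` is closed under addition and subtraction. -/
theorem InE0.add_sub {P Q : W.toAffine.Point} (hP : InE0 o e P) (hQ : InE0 o e Q) :
    InE0 o e (P + Q) ∧ InE0 o e (P - Q) := by
  rcases P with _ | ⟨x₁, y₁, h₁⟩
  · have e1 : (Point.zero : W.toAffine.Point) = 0 := rfl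
    rw [e1, zero_add, zero_sub]
    exact ⟨hQ, hQ.neg⟩
  rcases Q with _ | ⟨x₂, y₂, h₂⟩
  · have e1 : (Point.zero : W.toAffine.Point) = 0 := rfl
    rw [e1, add_zero, sub_zero]
    exact ⟨hP, hP⟩
  by_cases hx : x₁ = x₂
  · have hself := inE0_add_self ho hS hc hc0 ha hN h₂ (Or.inr (Or.inl hQ.2))
    rcases helper872.eq_or_eq_neg_of_X_eq h₁ h₂ hx with hPQ | hPQ
    · rw [hPQ, sub_self]
      exact ⟨hself, trivial⟩
    · rw [hPQ, neg_add_cancel]
      refine ⟨trivial, ?_⟩
      have : -(Point.some x₂ y₂ h₂ : W.toAffine.Point) - Point.some x₂ y₂ h₂ =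
          -(Point.some x₂ y₂ h₂ + Point.some x₂ y₂ h₂) := by abel
      rw [this]
      exact hself.neg
  · obtain ⟨Xp, Yp, Xm, Ym, hp, hm, hadd, hsub, hprod, hsum⟩ := shape_add_sub hS h₁ h₂ hx
    have hne : x₁ - e ≠ x₂ - e := fun h => hx (by linear_combination h)
    obtain ⟨a1, a2, a3, a4⟩ := add_e0 ho ha hc hN hc0 hne hprod hsum hP.1 hP.2 hQ.1 hQ.2
    rw [hadd, hsub]
    exact ⟨⟨a1, a3⟩, ⟨a2, a4⟩⟩

theorem InE0.nsmul {P : W.toAffine.Point} (hP : InE0 o e P) (k : ℕ) : InE0 o e (k • P) := by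
  induction k with
  | zero => rw [zero_smul]; trivial
  | succ k ih => rw [succ_nsmul]; exact (InE0.add_sub ho hS hc hc0 ha hN ih hP).1

/-- A point of odd order is not in the deep region `{ξ = 0} ∪ {o be ≤ o ξ}`. -/
theorem not_deep_of_odd_torsion {n : ℕ} (hn : Odd n) {x y : K}
    (h : W.toAffine.Nonsingular x y)
    (hT : n • (Point.some x y h : W.toAffine.Point) = 0)
    (hdeep : x - e = 0 ∨ o be ≤ o (x - e)) : False := by
  obtain ⟨m, rfl⟩ := hn
  have h2 : InE0 o e ((Point.some x y h : W.toAffine.Point) + Point.some x y h) :=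
    inE0_add_self ho hS hc hc0 ha hN h (by tauto)
  have h3 := InE0.nsmul ho hS hc hc0 ha hN h2 (m + 1)
  have e1 : (m + 1) • ((Point.some x y h : W.toAffine.Point) + Point.some x y h) =
      Point.some x y h := by
    have : (m + 1) • ((Point.some x y h : W.toAffine.Point) + Point.some x y h) =
        (2 * m + 1) • (Point.some x y h : W.toAffine.Point) + Point.some x y h := by
      rw [← two_nsmul, ← mul_nsmul, ← succ_nsmul]
      congr 1
    rw [this, hT, zero_add]
  rw [e1, inE0_some] at h3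
  rcases hdeep with h0 | h0
  · exact h3.1 h0
  · exact absurd (lt_of_lt_of_le hN (h0.trans h3.2)) (lt_irrefl _)

/-- **The tropical Kummer law** (point level): `Q = (x, y)` in the middle region
(`0 < o ξ < o be`), `P` arbitrary.  The depths of `P + Q` and `P - Q` are, in some order,
`|d(P) - d(Q)|` and the folded sum. -/
theorem tl_point {x y : K} (h : W.toAffine.Nonsingular x y) (hξ : x - e ≠ 0)
    (h1 : 0 < o (x - e)) (h2 : o (x - e) < o be) (P : W.toAffine.Point) :
    (dP o (o be) e (P + Point.some x y h) =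
          max (dP o (o be) e P - o (x - e)) (o (x - e) - dP o (o be) e P) ∧
        dP o (o be) e (P - Point.some x y h) =
          min (dP o (o be) e P + o (x - e)) (2 • o be - (dP o (o be) e P + o (x - e)))) ∨
      (dP o (o be) e (P - Point.some x y h) =
          max (dP o (o be) e P - o (x - e)) (o (x - e) - dP o (o be) e P) ∧
        dP o (o be) e (P + Point.some x y h) =
          min (dP o (o be) e P + o (x - e)) (2 • o be - (dP o (o be) e P + o (x - e)))) := by
  have hdQ : dep o (o be) (x - e) = o (x - e) := by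
    rw [dep_of_ne o _ hξ]; grind
  -- the double of `Q`
  have hdbl : dP o (o be) e ((Point.some x y h : W.toAffine.Point) + Point.some x y h) =
      min (2 • o (x - e)) (2 • o be - 2 • o (x - e)) := by
    by_cases hy : y = W.toAffine.negY x y
    · exfalso
      have h0 := (helper872.eq_negY_iff_cubic_eq_zero hS h.1).1 hy
      have hG : 4 * (x - e) ^ 2 + 4 * al * (x - e) + 4 * be = 0 := by
        rcases mul_eq_zero.mp h0 with h0 | h0
        · exact absurd h0 hξ
        · linear_combination 4 * h0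
      -- impossible in the middle region
      have hcξ : 4 * al * (x - e) ≠ 0 ∧ o (4 * al * (x - e)) = o (x - e) :=
        ⟨mul_ne_zero hc hξ, by rw [ho.mul _ _ hc hξ, hc0, zero_add]⟩
      have t : GE o (4 * (x - e) ^ 2 + 4 * be) (min (2 • o (x - e)) (o be)) := by
        have t1 : GE o (4 * (x - e) ^ 2) (0 + 2 • o (x - e)) :=
          (GE.four ho).mul ho (GE.of_le (le_of_eq (ho.sq hξ).symm))
        have t2 : GE o (4 * be) (0 + o be) := (GE.four ho).mul ho (GE.of_le le_rfl)
        exact (t1.mono (by grind)).add ho (t2.mono (by grind))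
      have := (GE.add_eq_of_lt ho hcξ.1 t (by rw [hcξ.2]; grind)).1
      apply this
      linear_combination hG
    · obtain ⟨X, Y, h', hadd, hdup, hF⟩ := shape_dup hS h hy
      rw [hadd, dP_some]
      exact dup_mid ho ha hc hN hc0 hdup hξ h1 h2
  rcases P with _ | ⟨x₁, y₁, h₁⟩
  · have e1 : (Point.zero : W.toAffine.Point) = 0 := rfl
    rw [e1, zero_add, zero_sub, dP_neg, dP_zero, dP_some, hdQ]
    left
    grind
  by_cases hx : x₁ = x
  · rcases helper872.eq_or_eq_neg_of_X_eq h₁ h hx with hPQ | hPQ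
    · right
      rw [hPQ, sub_self, dP_zero, dP_some, hdQ, hdbl]
      grind
    · left
      have e2 : -(Point.some x y h : W.toAffine.Point) - Point.some x y h =
          -(Point.some x y h + Point.some x y h) := by abel
      rw [hPQ, neg_add_cancel, e2, dP_neg, dP_neg, dP_zero, dP_some, hdQ, hdbl]
      grind
  · obtain ⟨Xp, Yp, Xm, Ym, hp, hm, hadd, hsub, hprod, hsum⟩ := shape_add_sub hS h₁ h hx
    have hne : x₁ - e ≠ x - e := fun h => hx (by linear_combination h)
    have := tl_field ho ha hc hN hc0 hne hprod hsum hξ h1 h2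
    rw [hadd, hsub, dP_some, dP_some, dP_some]
    exact this

/-- The depth of `k • Q` is `± k • d(Q)` modulo `2 N`, for `Q` in the middle region. -/
theorem depth_sim {x y : K} (h : W.toAffine.Nonsingular x y) (hξ : x - e ≠ 0)
    (h1 : 0 < o (x - e)) (h2 : o (x - e) < o be) (k : ℕ) :
    Sim (o be) (dP o (o be) e (k • (Point.some x y h : W.toAffine.Point))) (k • o (x - e)) ∧
      Sim (o be) (dP o (o be) e ((k + 1) • (Point.some x y h : W.toAffine.Point)))
        ((k + 1) • o (x - e)) := by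
  have hdQ : dep o (o be) (x - e) = o (x - e) := by
    rw [dep_of_ne o _ hξ]; grind
  induction k with
  | zero =>
    refine ⟨?_, ?_⟩
    · rw [zero_smul, zero_smul, dP_zero]; exact Sim.refl _ _
    · rw [zero_add, one_smul, one_smul, dP_some, hdQ]; exact Sim.refl _ _
  | succ k ih =>
    obtain ⟨ih0, ih1⟩ := ih
    refine ⟨ih1, ?_⟩
    have hadd : (k + 1 + 1) • (Point.some x y h : W.toAffine.Point) =
        (k + 1) • (Point.some x y h : W.toAffine.Point) + Point.some x y h := succ_nsmul _ _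
    have hsub : k • (Point.some x y h : W.toAffine.Point) =
        (k + 1) • (Point.some x y h : W.toAffine.Point) - Point.some x y h := by
      rw [succ_nsmul, add_sub_cancel_right]
    have hstep := sim_step (N := o be) (d := o (x - e)) (k := k) ih1
    have htl := tl_point ho hS hc hc0 ha hN h hξ h1 h2
      ((k + 1) • (Point.some x y h : W.toAffine.Point))
    rw [← hadd, ← hsub] at htl
    rcases htl with ⟨t1, t2⟩ | ⟨t1, t2⟩
    · rw [t1]
      rw [t2] at ih0
      rcases hstep with ⟨s1, s2⟩ | ⟨s1, s2⟩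
      · exact (s1.trans ih0.symm).trans s2
      · exact s1
    · rw [t2]
      rw [t1] at ih0
      rcases hstep with ⟨s1, s2⟩ | ⟨s1, s2⟩
      · exact s2
      · exact (s2.trans ih0.symm).trans s1

/-- **NODEVAL, additive form.** -/
theorem nodeVal_ord {n : ℕ} (hn : Odd n) {x y : K} (h : W.toAffine.Nonsingular x y)
    (hξ : x - e ≠ 0) (h1 : 0 < o (x - e))
    (hT : n • (Point.some x y h : W.toAffine.Point) = 0) :
    o (x - e) < o be ∧ ∃ j : ℤ, j • ((2 : ℕ) • o be) = n • o (x - e) := by
  have h2 : o (x - e) < o be := by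
    by_contra hcon
    exact not_deep_of_odd_torsion ho hS hc hc0 ha hN hn h hT (Or.inr (not_lt.mp hcon))
  refine ⟨h2, ?_⟩
  have hs := (depth_sim ho hS hc hc0 ha hN h hξ h1 h2 n).1
  rw [hT, dP_zero] at hs
  rcases hs with hs | hs
  · rw [zero_sub] at hs
    have := (AddSubgroup.zmultiples ((2 : ℕ) • o be)).neg_mem hs
    rw [neg_neg] at this
    exact AddSubgroup.mem_zmultiples_iff.mp this
  · rw [zero_add] at hs
    exact AddSubgroup.mem_zmultiples_iff.mp hs

end point

/-! ### Valuation form -/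

section final

variable {K : Type*} [Field K] [DecidableEq K] {Γ₀ : Type*} [LinearOrderedCommGroupWithZero Γ₀]
  {W : WeierstrassCurve K} {e al be : K}

/-- **NODEVAL in any residue characteristic.**  `Shape W e al be`, `v (4 * al) = 1`,
`v be < 1`, `be ≠ 0`; no hypothesis on `v 2`, none on `v n`.  A point of odd order `n` with
`v (x - e) < 1` satisfies `v be < v (x - e)` and `v (x - e) ^ n = v be ^ (2 j)`. -/
theorem nodeVal_gen (v : Valuation K Γ₀) (hS : Shape W e al be) (hal : v (4 * al) = 1)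
    (hbe : v be < 1) (hbe0 : be ≠ 0) {n : ℕ} (hn : Odd n) {x y : K}
    (h : W.toAffine.Nonsingular x y) (hx : v (x - e) < 1)
    (hT : n • (Point.some x y h : W.toAffine.Point) = 0) :
    v be < v (x - e) ∧ ∃ j : ℤ, v (x - e) ^ n = v be ^ (2 * j) := by
  have hc : 4 * al ≠ 0 := by
    intro h0; rw [h0, map_zero] at hal; exact zero_ne_one hal
  have hc0 : ordOf v (4 * al) = 0 := (ordOf_eq_zero_iff v hc).mpr hal
  have hN : 0 < ordOf v be := (ordOf_pos_iff v hbe0).mpr hbe
  have ho := isOrd_ordOf v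
  by_cases hξ : x - e = 0
  · exact (not_deep_of_odd_torsion ho hS hc hc0 hbe0 hN hn h hT (Or.inl hξ)).elim
  · have h1 : 0 < ordOf v (x - e) := (ordOf_pos_iff v hξ).mpr hx
    obtain ⟨h2, j, hj⟩ := nodeVal_ord ho hS hc hc0 hbe0 hN hn h hξ h1 hT
    exact ⟨(ordOf_lt_iff v hξ hbe0).mp h2, j, pow_eq_zpow_of_ordOf v hξ hbe0 hj⟩

end final

end Fermat.Agent.S13.helper836
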