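import Fermat.Agent.S05.helper305_Points
import Fermat.Agent.S05.helper1205_E1Add

/-!
# Local lemmas for S13 at the residue characteristic (helper1330)

Setting: a Weierstrass curve `W` over a valued field `(K, v)` in the shape coordinates of
`helper305_Shape` (`η² = ξ(ξ² + al ξ + be)`), and a ring endomorphism `σ` of `K` which preserves
`v` and is trivial modulo the maximal ideal (an inertia element).

Main result `sub_mem_E1`: if `T` is a torsion point of order dividing `n ≠ 0` and `T'` is its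
`σ`-conjugate, then `T' - T` lies in the kernel of reduction `E₁ = {O} ∪ {1 < v ξ}`.
Contrary to S05 there is **no** hypothesis that `n` is a unit for `v`: the statement is used at
the residue characteristic, where `E₁` does contain `n`-torsion.
-/

set_option autoImplicit false

namespace Fermat.Agent.S13.helper1330

open WeierstrassCurve WeierstrassCurve.Affine
open Fermat.Agent.S05.helper305

variable {K : Type*} [Field K] {Γ₀ : Type*} [LinearOrderedCommGroupWithZero Γ₀]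

section field

variable {v : Valuation K Γ₀} {al be ξ₁ η₁ ξ₂ η₂ ξ₃ η₃ lam : K}

/-- In the value group: `x * d ^ 2 = a ^ 2` and `d < a` imply `1 < x`. -/
theorem one_lt_of_mul_sq_of_lt {x a d : Γ₀} (hd : d < a) (h : x * d ^ 2 = a ^ 2) : 1 < x := by
  by_contra hx
  push Not at hx
  have h1 : x * d ^ 2 ≤ 1 * d ^ 2 := mul_le_mul' hx le_rfl
  rw [one_mul] at h1
  have h2 : d ^ 2 < a ^ 2 := pow_lt_pow_left₀ hd zero_le two_ne_zero
  exact absurd h (h1.trans_lt h2).ne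

/-- Chord estimate: if `(ξ₁, η₁)` is congruent to `(ξ₂, -η₂)` to higher order than the size of
`ξ₂` and `η₂`, then the sum lies in the kernel of reduction. -/
theorem chord_sub (h : AddRel al be ξ₁ η₁ ξ₂ η₂ ξ₃ η₃ lam) (hv2 : v 2 = 1)
    (hξ : v (ξ₁ - ξ₂) < v ξ₂) (hη : v (η₁ + η₂) < v η₂) (hξη : v (ξ₁ - ξ₂) < v η₂) :
    1 < v ξ₃ := by
  have h2 : (2 : K) ≠ 0 := two_ne_zero_of_val v hv2
  have hξ₂pos : 0 < v ξ₂ := lt_of_le_of_lt zero_le hξ
  have hη₂pos : 0 < v η₂ := lt_of_le_of_lt zero_le hη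
  have hne : ξ₁ ≠ ξ₂ := by
    intro he
    obtain ⟨h12, -, -⟩ := h.lam_tangent h2 he
    rw [h12, ← two_mul, map_mul, hv2, one_mul] at hη
    exact lt_irrefl _ hη
  have hv1 : v ξ₁ = v ξ₂ := by
    have e : ξ₁ = ξ₂ + (ξ₁ - ξ₂) := by ring
    rw [e, Valuation.map_add_eq_of_lt_left v hξ]
  have hF3 := h.F3 hne
  have hnum : v (η₁ * ξ₂ - η₂ * ξ₁) = v η₂ * v ξ₂ := by
    have e : η₁ * ξ₂ - η₂ * ξ₁ = -(2 * η₂ * ξ₂) + ((η₁ + η₂) * ξ₂ - η₂ * (ξ₁ - ξ₂)) := by ring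
    have hmain : v (-(2 * η₂ * ξ₂)) = v η₂ * v ξ₂ := by
      rw [Valuation.map_neg, map_mul, map_mul, hv2, one_mul]
    have hsmall : v ((η₁ + η₂) * ξ₂ - η₂ * (ξ₁ - ξ₂)) < v η₂ * v ξ₂ := by
      apply v.map_sub_lt
      · rw [map_mul]; exact mul_lt_mul_of_pos_right hη hξ₂pos
      · rw [map_mul]; exact mul_lt_mul_of_pos_left hξ hη₂pos
    rw [e, Valuation.map_add_eq_of_lt_left v (by rw [hmain]; exact hsmall), hmain]
  have hv := congrArg v hF3
  simp only [map_mul, map_pow, hnum, hv1] at hv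
  have hne2 : v ξ₂ ^ 2 ≠ 0 := pow_ne_zero _ hξ₂pos.ne'
  have hv' : v ξ₃ * v (ξ₁ - ξ₂) ^ 2 = v η₂ ^ 2 := by
    have e : v ξ₃ * v ξ₂ * v ξ₂ * v (ξ₁ - ξ₂) ^ 2 = (v ξ₃ * v (ξ₁ - ξ₂) ^ 2) * v ξ₂ ^ 2 := by
      rw [sq (v ξ₂)]; ac_rfl
    rw [e, mul_pow] at hv
    exact mul_right_cancel₀ hne2 hv
  exact one_lt_of_mul_sq_of_lt hξη hv'

/-- On the curve, with `be` a unit and `v ξ < 1`: `v η ^ 2 = v ξ`. -/
theorem val_eta_sq_of_small {ξ η : K} (c : η ^ 2 = ξ * (ξ ^ 2 + al * ξ + be)) (hal : v al ≤ 1)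
    (hbe : v be = 1) (hξ : v ξ < 1) : v η ^ 2 = v ξ := by
  have hq : v (ξ ^ 2 + al * ξ + be) = 1 := by
    have e : ξ ^ 2 + al * ξ + be = be + (ξ ^ 2 + al * ξ) := by ring
    rw [e]
    apply val_add_eq_one v hbe
    apply v.map_add_lt
    · rw [map_pow]; exact pow_lt_one₀ zero_le hξ two_ne_zero
    · rw [map_mul]
      calc v al * v ξ ≤ 1 * v ξ := mul_le_mul' hal le_rfl
        _ = v ξ := one_mul _
        _ < 1 := hξ
  rw [← map_pow, c, map_mul, hq, mul_one]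

/-- Good reduction, both points near the 2-torsion point `(0, 0)`: the sum lies in the kernel of
reduction. -/
theorem small_sub (h : AddRel al be ξ₁ η₁ ξ₂ η₂ ξ₃ η₃ lam) (hv2 : v 2 = 1) (hal : v al ≤ 1)
    (hbe : v be = 1) (h₁ : v ξ₁ < 1) (h₂ : v ξ₂ < 1) : 1 < v ξ₃ := by
  have h2 : (2 : K) ≠ 0 := two_ne_zero_of_val v hv2
  have c₁ := h.c₁
  have c₂ := h.c₂
  have hbe0 : be ≠ 0 := by
    rintro rfl
    rw [map_zero] at hbe
    exact zero_ne_one hbe
  by_cases hz₁ : ξ₁ = 0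
  · subst hz₁
    have hη₁ : η₁ = 0 := by
      have : η₁ ^ 2 = 0 := by rw [c₁]; ring
      exact pow_eq_zero_iff two_ne_zero |>.mp this
    subst hη₁
    have hξ₂ : ξ₂ ≠ 0 := by
      rintro rfl
      rcases h.hlam with ⟨hne, -⟩ | ⟨-, -, hne, -⟩
      · exact hne rfl
      · exact hne rfl
    have hl := h.lam_chord (Ne.symm hξ₂)
    have key : ξ₃ = be / ξ₂ := by
      rw [h.hξ, hl]
      field_simp
      grind
    rw [key, map_div₀, hbe]
    exact (one_lt_div₀ (zero_lt_iff.mpr ((Valuation.ne_zero_iff v).mpr hξ₂))).mpr h₂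
  by_cases hz₂ : ξ₂ = 0
  · subst hz₂
    have hη₂ : η₂ = 0 := by
      have : η₂ ^ 2 = 0 := by rw [c₂]; ring
      exact pow_eq_zero_iff two_ne_zero |>.mp this
    subst hη₂
    obtain ⟨key, -⟩ := h.add_T hz₁
    rw [key, map_div₀, hbe]
    exact (one_lt_div₀ (zero_lt_iff.mpr ((Valuation.ne_zero_iff v).mpr hz₁))).mpr h₁
  have hp₁ : 0 < v ξ₁ := zero_lt_iff.mpr ((Valuation.ne_zero_iff v).mpr hz₁)
  have hp₂ : 0 < v ξ₂ := zero_lt_iff.mpr ((Valuation.ne_zero_iff v).mpr hz₂)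
  have e₁ := val_eta_sq_of_small c₁ hal hbe h₁
  have e₂ := val_eta_sq_of_small c₂ hal hbe h₂
  have hD : v (ξ₁ * ξ₂ - be) = 1 := by
    have e : ξ₁ * ξ₂ - be = -be + ξ₁ * ξ₂ := by ring
    rw [e]
    apply val_add_eq_one v (by rw [Valuation.map_neg]; exact hbe)
    rw [map_mul]
    calc v ξ₁ * v ξ₂ ≤ 1 * v ξ₂ := mul_le_mul' h₁.le le_rfl
      _ = v ξ₂ := one_mul _
      _ < 1 := h₂
  have hF2 := h.F2 h2
  have hv := congrArg v hF2
  simp only [map_mul, map_pow, hD, one_pow, mul_one] at hv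
  have hb₁ : v (η₁ * ξ₂) ^ 2 < v ξ₁ * v ξ₂ := by
    rw [map_mul, mul_pow, e₁, sq]
    calc v ξ₁ * (v ξ₂ * v ξ₂) = (v ξ₁ * v ξ₂) * v ξ₂ := by ac_rfl
      _ < (v ξ₁ * v ξ₂) * 1 := mul_lt_mul_of_pos_left h₂ (mul_pos hp₁ hp₂)
      _ = v ξ₁ * v ξ₂ := mul_one _
  have hb₂ : v (η₂ * ξ₁) ^ 2 < v ξ₁ * v ξ₂ := by
    rw [map_mul, mul_pow, e₂, sq]
    calc v ξ₂ * (v ξ₁ * v ξ₁) = (v ξ₁ * v ξ₂) * v ξ₁ := by ac_rfl
      _ < (v ξ₁ * v ξ₂) * 1 := mul_lt_mul_of_pos_left h₁ (mul_pos hp₁ hp₂)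
      _ = v ξ₁ * v ξ₂ := mul_one _
  have hN : v (η₁ * ξ₂ + η₂ * ξ₁) ^ 2 < v ξ₁ * v ξ₂ := by
    rcases le_total (v (η₁ * ξ₂)) (v (η₂ * ξ₁)) with hle | hle
    · exact lt_of_le_of_lt (pow_le_pow_left₀ zero_le (v.map_add_le hle le_rfl) 2) hb₂
    · exact lt_of_le_of_lt (pow_le_pow_left₀ zero_le (v.map_add_le le_rfl hle) 2) hb₁
  by_contra hx
  push Not at hx
  have h1 : v ξ₃ * v (η₁ * ξ₂ + η₂ * ξ₁) ^ 2 ≤ 1 * v (η₁ * ξ₂ + η₂ * ξ₁) ^ 2 :=
    mul_le_mul' hx le_rfl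
  rw [one_mul, hv] at h1
  exact absurd hN (not_lt.mpr h1)

end field

section point

variable [DecidableEq K] {v : Valuation K Γ₀} {W : WeierstrassCurve K} {e al be : K}

/-- The kernel of reduction is stable under negation. -/
theorem inE1_neg (h2 : (2 : K) ≠ 0) {P : W.toAffine.Point} (h : InE1 v W e P) :
    InE1 v W e (-P) := by
  rcases h with rfl | ⟨ξ, η, hP, hv⟩
  · exact Or.inl neg_zero
  · exact Or.inr ⟨ξ, -η, hP.neg h2, hv⟩

/-- The kernel of reduction is stable under addition. -/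
theorem inE1_add (hS : Shape W e al be) (hv2 : v 2 = 1) (hal : v al ≤ 1) (hbe : v be ≤ 1)
    {P Q : W.toAffine.Point} (hP : InE1 v W e P) (hQ : InE1 v W e Q) :
    InE1 v W e (P + Q) := by
  rcases hP with rfl | ⟨ξ₁, η₁, hP, h₁⟩
  · rw [zero_add]; exact hQ
  rcases hQ with rfl | ⟨ξ₂, η₂, hQ, h₂⟩
  · rw [add_zero]; exact Or.inr ⟨ξ₁, η₁, hP, h₁⟩
  by_cases hne : ξ₁ = ξ₂ ∧ η₁ = -η₂
  · obtain ⟨rfl, rfl⟩ := hne
    left
    have hQ' : IsPt W e Q ξ₁ (-(-η₂)) := by rw [neg_neg]; exact hQ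
    exact hP.add_eq_zero hS.two_ne hQ'
  · obtain ⟨ξ₃, η₃, lam, hP₃, hrel⟩ := hP.add hS hQ hne
    exact Or.inr ⟨ξ₃, η₃, hP₃,
      (Fermat.Agent.S05.helper1205.e1_add v hrel hv2 hal hbe h₁ h₂).1⟩

/-- The kernel of reduction is stable under multiples. -/
theorem inE1_nsmul (hS : Shape W e al be) (hv2 : v 2 = 1) (hal : v al ≤ 1) (hbe : v be ≤ 1)
    {P : W.toAffine.Point} (hP : InE1 v W e P) (n : ℕ) : InE1 v W e (n • P) := by
  induction n with
  | zero => exact Or.inl (zero_nsmul P)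
  | succ n ih => rw [succ_nsmul]; exact inE1_add hS hv2 hal hbe ih hP

variable (σ : K →+* K)

/-- A point of `E₀` (`1 ≤ v ξ`) and its conjugate under an inertia element differ by an element
of the kernel of reduction. No torsion hypothesis. -/
theorem sub_of_E0 (hS : Shape W e al be) (hv2 : v 2 = 1) (hal : v al ≤ 1) (hbe : v be ≤ 1)
    (hdisc : v (al ^ 2 - 4 * be) = 1) (hσv : ∀ x, v (σ x) = v x)
    (hσ : ∀ x, v x ≤ 1 → v (σ x - x) < 1)
    {X X' : W.toAffine.Point} {ξ η : K} (hX : IsPt W e X ξ η) (hX' : IsPt W e X' (σ ξ) (σ η))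
    (h1 : 1 ≤ v ξ) : InE1 v W e (X' - X) := by
  have h2 : (2 : K) ≠ 0 := hS.two_ne
  rw [sub_eq_add_neg]
  rcases lt_or_eq_of_le h1 with hlt | heq
  · have hXE : InE1 v W e X := Or.inr ⟨ξ, η, hX, hlt⟩
    have hX'E : InE1 v W e X' := Or.inr ⟨σ ξ, σ η, hX', by rw [hσv]; exact hlt⟩
    exact inE1_add hS hv2 hal hbe hX'E (inE1_neg h2 hXE)
  · have hξ1 : v ξ = 1 := heq.symm
    by_cases hsame : σ ξ = ξ ∧ σ η = η
    · left
      rw [hsame.1, hsame.2] at hX'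
      rw [hX'.ext hX, add_neg_cancel]
    · have hXn : IsPt W e (-X) ξ (-η) := hX.neg h2
      have hne : ¬(σ ξ = ξ ∧ σ η = -(-η)) := by rwa [neg_neg]
      obtain ⟨ξ₃, η₃, lam, hP₃, hrel⟩ := hX'.add hS hXn hne
      have c := hX.curve hS
      have hη1 : v η ≤ 1 := by
        apply val_le_one_of_sq v
        rw [c, map_mul, hξ1, one_mul]
        refine v.map_add_le (v.map_add_le ?_ ?_) hbe
        · rw [map_pow, hξ1, one_pow]
        · rw [map_mul, hξ1, mul_one]; exact hal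
      refine Or.inr ⟨ξ₃, η₃, hP₃, hrel.unit_sub hv2 hal hbe hdisc ?_ hξ1 ?_ ?_⟩
      · rw [hσv, hξ1]
      · exact hσ ξ hξ1.le
      · rw [← sub_eq_add_neg]; exact hσ η hη1

/-- **Local theorem at the residue characteristic.** Let `T` be a point killed by `n ≠ 0` and
`T'` its conjugate under an inertia element `σ`.  Then `T' - T` lies in the kernel of reduction.
Good reduction: `v be = 1`.  Multiplicative reduction: `v be = v d ^ n` with `σ d = d`. -/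
theorem sub_mem_E1 (hS : Shape W e al be) (hv2 : v 2 = 1) (hal : v al ≤ 1) (hbe : v be ≤ 1)
    (hdisc : v (al ^ 2 - 4 * be) = 1) (hσv : ∀ x, v (σ x) = v x)
    (hσ : ∀ x, v x ≤ 1 → v (σ x - x) < 1) (hσbe : σ be = be) {n : ℕ} (hn : n ≠ 0)
    (hcase : v be = 1 ∨ (be ≠ 0 ∧ (∃ r : K, r ^ 2 = al) ∧ ∃ d : K, σ d = d ∧ v be = v d ^ n))
    {T T' : W.toAffine.Point} {ξ η : K} (hT : IsPt W e T ξ η) (hT' : IsPt W e T' (σ ξ) (σ η))
    (hnT : n • T = 0) : InE1 v W e (T' - T) := by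
  have h2 : (2 : K) ≠ 0 := hS.two_ne
  rcases le_or_gt 1 (v ξ) with h1 | hlt
  · exact sub_of_E0 σ hS hv2 hal hbe hdisc hσv hσ hT hT' h1
  -- from now on `v ξ < 1`
  by_cases hsame : σ ξ = ξ ∧ σ η = η
  · left
    rw [hsame.1, hsame.2] at hT'
    rw [hT'.ext hT, sub_self]
  have hTn : IsPt W e (-T) ξ (-η) := hT.neg h2
  have hne : ¬(σ ξ = ξ ∧ σ η = -(-η)) := by rwa [neg_neg]
  obtain ⟨ξ₃, η₃, lam, hP₃, hrel⟩ := hT'.add hS hTn hne
  rw [← sub_eq_add_neg] at hP₃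
  have c := hT.curve hS
  rcases hcase with hgood | ⟨hbe0, ⟨r, hr⟩, d, hσd, hd⟩
  · -- good reduction, near the 2-torsion point
    exact Or.inr ⟨ξ₃, η₃, hP₃, small_sub hrel hv2 hal hgood (by rw [hσv]; exact hlt) hlt⟩
  -- multiplicative reduction
  rcases eq_or_lt_of_le hbe with hbe1 | hbelt
  · exact Or.inr ⟨ξ₃, η₃, hP₃, small_sub hrel hv2 hal hbe1 (by rw [hσv]; exact hlt) hlt⟩
  have hval : v al = 1 := by
    apply val_eq_one_of_sq v
    have e4 : al ^ 2 = (al ^ 2 - 4 * be) + 4 * be := by ring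
    rw [e4]
    exact val_add_eq_one v hdisc (by rw [map_mul, val_four v hv2, one_mul]; exact hbelt)
  have hvr : v r = 1 := val_eq_one_of_sq v (by rw [hr]; exact hval)
  have hξ0 : ξ ≠ 0 := by
    rintro rfl
    have hη0 : η = 0 := by
      have : η ^ 2 = 0 := by rw [c]; ring
      exact pow_eq_zero_iff two_ne_zero |>.mp this
    exact hsame ⟨map_zero σ, by rw [hη0, map_zero]⟩
  have hξpos : 0 < v ξ := zero_lt_iff.mpr ((Valuation.ne_zero_iff v).mpr hξ0)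
  have hσξ0 : σ ξ ≠ 0 := by
    rw [← Valuation.ne_zero_iff v, hσv]; exact hξpos.ne'
  obtain ⟨T0, hT0⟩ := exists_T hS hbe0
  rcases le_or_gt (v ξ) (v be) with hle | hmid
  · -- `v ξ ≤ v be`: translate by the 2-torsion point `T0` into `E₀`
    have hne1 : ¬(ξ = 0 ∧ η = -0) := fun h => hξ0 h.1
    have hne2 : ¬(σ ξ = 0 ∧ σ η = -0) := fun h => hσξ0 h.1
    obtain ⟨ξ₄, η₄, lam₄, hX, hrel₄⟩ := hT.add hS hT0 hne1
    obtain ⟨ξ₅, η₅, lam₅, hX', hrel₅⟩ := hT'.add hS hT0 hne2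
    obtain ⟨e4, e4'⟩ := hrel₄.add_T hξ0
    obtain ⟨e5, e5'⟩ := hrel₅.add_T hσξ0
    have e5σ : ξ₅ = σ ξ₄ := by rw [e5, e4, map_div₀, hσbe]
    have e5σ' : η₅ = σ η₄ := by
      rw [e5', e4', map_neg, map_div₀, map_mul, map_pow, hσbe]
    rw [e5σ, e5σ'] at hX'
    have h14 : 1 ≤ v ξ₄ := by
      rw [e4, map_div₀]
      exact (one_le_div₀ hξpos).mpr hle
    have := sub_of_E0 σ hS hv2 hal hbe hdisc hσv hσ hX hX' h14
    have eab : T' + T0 - (T + T0) = T' - T := by abel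
    rwa [eab] at this
  · -- middle region: `v be < v ξ < 1`
    set ρ := η / ξ with hρ
    have hηρ : η = ρ * ξ := by rw [hρ]; field_simp
    have hρ2 : ρ ^ 2 - al = ξ + be / ξ := by
      rw [hρ]
      field_simp
      rw [c]; ring
    have hbeξ : v (be / ξ) < 1 := by
      rw [map_div₀]; exact (div_lt_one₀ hξpos).mpr hmid
    have hprod : v ((ρ - r) * (ρ + r)) < 1 := by
      have e3 : (ρ - r) * (ρ + r) = ρ ^ 2 - al := by rw [← hr]; ring
      rw [e3, hρ2]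
      exact v.map_add_lt hlt hbeξ
    -- the branch
    have hbranch : v (ρ - r) < 1 ∨ v (ρ + r) < 1 := by
      by_contra hcon
      push Not at hcon
      rw [map_mul] at hprod
      have : (1 : Γ₀) ≤ v (ρ - r) * v (ρ + r) := by
        calc (1 : Γ₀) = 1 * 1 := (one_mul 1).symm
          _ ≤ v (ρ - r) * v (ρ + r) := mul_le_mul' hcon.1 hcon.2
      exact absurd hprod (not_lt.mpr this)
    have hvρ : v ρ = 1 := by
      rcases hbranch with hb | hb
      · have e3 : ρ = r + (ρ - r) := by ring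
        rw [e3]; exact val_add_eq_one v hvr hb
      · have e3 : ρ = -r + (ρ + r) := by ring
        rw [e3]; exact val_add_eq_one v (by rw [Valuation.map_neg]; exact hvr) hb
    have hvη : v η = v ξ := by rw [hηρ, map_mul, hvρ, one_mul]
    -- depth of the torsion point
    obtain ⟨k, hk⟩ : ∃ k : ℕ, v ξ ^ n = v be ^ k := by
      rcases hbranch with hb | hb
      · exact mid_torsion hS hv2 hr hvr hbe0 hT0 ⟨ξ, η, hT, rfl, hb⟩ hlt hmid n hnT
      · have hr' : (-r) ^ 2 = al := by rw [neg_sq]; exact hr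
        have hvr' : v (-r) = 1 := by rw [Valuation.map_neg]; exact hvr
        have hb' : v (η / ξ - -r) < 1 := by rw [sub_neg_eq_add]; exact hb
        exact mid_torsion hS hv2 hr' hvr' hbe0 hT0 ⟨ξ, η, hT, rfl, hb'⟩ hlt hmid n hnT
    have hdepth : v ξ = v (d ^ k) := by
      have e3 : v ξ ^ n = v (d ^ k) ^ n := by
        rw [hk, hd, map_pow, ← pow_mul, ← pow_mul, mul_comm]
      exact (pow_left_inj₀ zero_le zero_le hn).mp e3
    set w := d ^ k with hw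
    have hσw : σ w = w := by rw [hw, map_pow, hσd]
    have hw0 : w ≠ 0 := by
      rw [← Valuation.ne_zero_iff v, ← hdepth]; exact hξpos.ne'
    -- `σ ξ ≡ ξ` to higher order
    have hξσ : v (σ ξ - ξ) < v ξ := by
      have hu : v (ξ / w) ≤ 1 := by
        rw [map_div₀, hdepth, div_self ((Valuation.ne_zero_iff v).mpr hw0)]
      have h3 := hσ (ξ / w) hu
      have e3 : σ (ξ / w) - ξ / w = (σ ξ - ξ) / w := by
        rw [map_div₀, hσw]; ring
      rw [e3, map_div₀, div_lt_one₀ (zero_lt_iff.mpr ((Valuation.ne_zero_iff v).mpr hw0))] at h3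
      rw [hdepth]; exact h3
    have hησ : v (σ η - η) < v ξ := by
      have h3 := hσ ρ hvρ.le
      have e3 : σ η - η = (σ ρ - ρ) * σ ξ + ρ * (σ ξ - ξ) := by
        rw [hηρ, map_mul]; ring
      rw [e3]
      apply v.map_add_lt
      · rw [map_mul, hσv]
        calc v (σ ρ - ρ) * v ξ < 1 * v ξ := mul_lt_mul_of_pos_right h3 hξpos
          _ = v ξ := one_mul _
      · rw [map_mul, hvρ, one_mul]; exact hξσ
    refine Or.inr ⟨ξ₃, η₃, hP₃, chord_sub hrel hv2 hξσ ?_ ?_⟩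
    · rw [← sub_eq_add_neg, Valuation.map_neg, hvη]; exact hησ
    · rw [Valuation.map_neg, hvη]; exact hξσ

end point

end Fermat.Agent.S13.helper1330
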