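import Mathlib
import Fermat.Prelude.Def_FLTPrelim_FreyPackage
import Fermat.Prelude.Def_FLTPrelim_GaloisRep
import Fermat.Prelude.Def_FLTPrelim_Ramification
import Fermat.Agent.S13.helper1330_Local
import Fermat.Agent.S05.helper172_FreyShape
import Fermat.Agent.S05.helper2200_Inertia
import Fermat.Agent.S51.helper2811_GaloisDescent

/-!
# S13, ingredient I5 (`at_p`): inertia at `p` on a Galois-stable line (helper1330)
-/

set_option autoImplicit false

namespace Fermat.Agent.S13.helper1330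

open WeierstrassCurve WeierstrassCurve.Affine WeierstrassCurve.Affine.Point
open Fermat.Agent.S05.helper305

/-- `ℚ̄`. -/
abbrev Qb : Type := AlgebraicClosure ℚ

/-- The absolute Galois group of `ℚ`. -/
abbrev GQ : Type := Qb ≃ₐ[ℚ] Qb

/-- The Frey curve over `ℚ̄`. -/
noncomputable abbrev EQb (P : FreyPackage) : WeierstrassCurve Qb :=
  WeierstrassCurve.baseChange P.freyCurve Qb

/-- The `p`-torsion of the Frey curve over `ℚ̄`. -/
abbrev Vp (P : FreyPackage) : Type :=
  Submodule.torsionBy ℤ ((P.freyCurve)⁄Qb).Point P.p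

section coords

variable {W : WeierstrassCurve Qb}

/-- The `x`-coordinate of a point (`0` for the point at infinity). -/
noncomputable def xc : W.toAffine.Point → Qb
  | .zero => 0
  | .some x _ _ => x

theorem xc_some {x y : Qb} (h : W.toAffine.Nonsingular x y) :
    xc (Point.some x y h : W.toAffine.Point) = x := rfl

/-- Kernel of reduction for the valuation subring `A`, in terms of the `x`-coordinate. -/
def InK1 (A : ValuationSubring Qb) (Q : W.toAffine.Point) : Prop :=
  Q = 0 ∨ 1 < A.valuation (xc Q)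

theorem inK1_of_inE1 {A : ValuationSubring Qb} {e : Qb} (he : A.valuation e ≤ 1)
    {Q : W.toAffine.Point} (h : InE1 A.valuation W e Q) : InK1 A Q := by
  rcases h with h | ⟨ξ, η, ⟨x, y, hxy, rfl, rfl, rfl⟩, hv⟩
  · exact Or.inl h
  · right
    rw [xc_some]
    have e1 : x = (x - e) + e := by ring
    rw [e1, Valuation.map_add_eq_of_lt_left _ (lt_of_le_of_lt he hv)]
    exact hv

theorem inE1_of_inK1 {A : ValuationSubring Qb} {e : Qb} (he : A.valuation e ≤ 1)
    {Q : W.toAffine.Point} (h : InK1 A Q) : InE1 A.valuation W e Q := by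
  rcases h with h | hv
  · exact Or.inl h
  · rcases Q with _ | ⟨x, y, hxy⟩
    · exact Or.inl rfl
    · right
      rw [xc_some] at hv
      refine ⟨x - e, eta W x y, ⟨x, y, hxy, rfl, rfl, rfl⟩, ?_⟩
      rw [Valuation.map_sub_eq_of_lt_left _ (lt_of_le_of_lt he hv)]
      exact hv

end coords

section galois

variable (P : FreyPackage)

/-- The Galois action on points of the Frey curve, in shape coordinates. -/
theorem isPt_smul (σ : GQ) {e : Qb} (he : σ e = e) {T : ((P.freyCurve)⁄Qb).Point} {ξ η : Qb}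
    (hT : IsPt (EQb P) e T ξ η) : IsPt (EQb P) e (σ • T) (σ ξ) (σ η) := by
  obtain ⟨x, y, hxy, rfl, rfl, rfl⟩ := hT
  refine ⟨σ x, σ y, (WeierstrassCurve.Affine.baseChange_nonsingular (W := P.freyCurve)
        (f := σ.toAlgHom) σ.toAlgHom.injective x y).mpr hxy, rfl, ?_, ?_⟩
  · rw [map_sub, he]
  · have h1 : σ (EQb P).a₁ = (EQb P).a₁ := σ.commutes _
    have h3 : σ (EQb P).a₃ = (EQb P).a₃ := σ.commutes _
    simp only [eta, map_add, map_div₀, map_mul, h1, h3, map_ofNat]

theorem xc_smul (σ : GQ) (T : ((P.freyCurve)⁄Qb).Point) :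
    xc (W := EQb P) (σ • T) = σ (xc (W := EQb P) T) := by
  rcases T with _ | ⟨x, y, hxy⟩
  · exact (map_zero σ).symm
  · rfl

end galois

section stepA

variable (P : FreyPackage)

theorem val_two_of_liesOver (A : ValuationSubring Qb) (hA : A.LiesOverPrime P.p) :
    A.valuation (2 : Qb) = 1 :=
  Fermat.Agent.S05.helper2200.valuation_two_eq_one A P.pp (by have := P.hp5; omega) hA

/-- **Step (a)**: for an inertia element `σ` at a place `A` over `p` and a `p`-torsion point
`T` of the Frey curve, `σ T - T` lies in the kernel of reduction at `A`. -/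
theorem smul_sub_inK1 (A : ValuationSubring Qb) (hA : A.LiesOverPrime P.p) (σ : GQ)
    (hσ : σ ∈ A.inertiaSubgroupIn ℚ) (T : ((P.freyCurve)⁄Qb).Point) (hT : P.p • T = 0) :
    InK1 (W := EQb P) A (σ • T - T) := by
  rcases T with _ | ⟨x, y, hxy⟩
  · left
    have h0 : σ • (0 : ((P.freyCurve)⁄Qb).Point) = 0 := rfl
    show σ • (0 : ((P.freyCurve)⁄Qb).Point) - 0 = 0
    rw [h0, sub_zero]
  set v := A.valuation with hv
  have hv2 : v 2 = 1 := val_two_of_liesOver P A hA
  have hvp : v (P.p : Qb) < 1 :=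
    Fermat.Agent.S05.helper2200.valuation_natCast_prime_lt_one A hA
  obtain ⟨e, al, be, hS, hve, hval, hvbe, hbe0, hdisc, hcase⟩ :=
    Fermat.Agent.S05.helper172.exists_shape P v P.pp hv2 hvp
  have hS' : Shape (EQb P) (algebraMap ℚ Qb e) (algebraMap ℚ Qb al) (algebraMap ℚ Qb be) := hS
  have hdisc' : v (algebraMap ℚ Qb al ^ 2 - 4 * algebraMap ℚ Qb be) = 1 := by
    have : algebraMap ℚ Qb (al ^ 2 - 4 * be)
        = algebraMap ℚ Qb al ^ 2 - 4 * algebraMap ℚ Qb be := by
      simp only [map_sub, map_mul, map_pow, map_ofNat]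
    rw [← this]; exact hdisc
  let τ : Qb →+* Qb := σ.toAlgHom.toRingHom
  have hτv : ∀ z, v (τ z) = v z := fun z =>
    Fermat.Agent.S05.helper2200.valuation_apply A hσ z
  have hτ : ∀ z, v z ≤ 1 → v (τ z - z) < 1 := fun z hz =>
    Fermat.Agent.S05.helper2200.valuation_apply_sub_lt_one A hσ z hz
  have hτbe : τ (algebraMap ℚ Qb be) = algebraMap ℚ Qb be := σ.commutes be
  have hτe : σ (algebraMap ℚ Qb e) = algebraMap ℚ Qb e := σ.commutes e
  have hTpt : IsPt (EQb P) (algebraMap ℚ Qb e) (Point.some x y hxy)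
      (x - algebraMap ℚ Qb e) (eta (EQb P) x y) := ⟨x, y, hxy, rfl, rfl, rfl⟩
  have hT'pt := isPt_smul P σ hτe hTpt
  have hcase' : v (algebraMap ℚ Qb be) = 1 ∨ (algebraMap ℚ Qb be ≠ 0 ∧
      (∃ r : Qb, r ^ 2 = algebraMap ℚ Qb al) ∧
      ∃ d : Qb, τ d = d ∧ v (algebraMap ℚ Qb be) = v d ^ P.p) := by
    rcases hcase with h | ⟨-, w, -, hw⟩
    · exact Or.inl h
    · exact Or.inr ⟨(map_ne_zero _).mpr hbe0, IsAlgClosed.exists_pow_nat_eq _ (by norm_num),
        (w : Qb), map_intCast σ w, hw⟩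
  have key := sub_mem_E1 τ hS' hv2 hval hvbe hdisc' hτv hτ hτbe P.hp0 hcase' hTpt hT'pt hT
  exact inK1_of_inE1 hve key

/-- The kernel of reduction at a place over `p` is stable under addition. -/
theorem inK1_add (A : ValuationSubring Qb) (hA : A.LiesOverPrime P.p)
    {Q R : ((P.freyCurve)⁄Qb).Point} (hQ : InK1 (W := EQb P) A Q) (hR : InK1 (W := EQb P) A R) :
    InK1 (W := EQb P) A (Q + R) := by
  set v := A.valuation with hv
  have hv2 : v 2 = 1 := val_two_of_liesOver P A hA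
  have hvp : v (P.p : Qb) < 1 :=
    Fermat.Agent.S05.helper2200.valuation_natCast_prime_lt_one A hA
  obtain ⟨e, al, be, hS, hve, hval, hvbe, -, -, -⟩ :=
    Fermat.Agent.S05.helper172.exists_shape P v P.pp hv2 hvp
  have hS' : Shape (EQb P) (algebraMap ℚ Qb e) (algebraMap ℚ Qb al) (algebraMap ℚ Qb be) := hS
  exact inK1_of_inE1 hve
    (inE1_add hS' hv2 hval hvbe (inE1_of_inK1 hve hQ) (inE1_of_inK1 hve hR))

/-- The kernel of reduction is stable under negation. -/
theorem inK1_neg (A : ValuationSubring Qb) {W : WeierstrassCurve Qb} {Q : W.toAffine.Point}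
    (hQ : InK1 A Q) : InK1 A (-Q) := by
  rcases Q with _ | ⟨x, y, hxy⟩
  · exact Or.inl rfl
  · rcases hQ with h | h
    · exact absurd h (Point.some_ne_zero hxy)
    · right
      rw [Point.neg_some]
      exact h

end stepA

section valuegroup

variable {Γ₀ : Type*} [LinearOrderedCommGroupWithZero Γ₀] {ι : Type*}

theorem one_le_prod_of_one_lt (S : Finset ι) (f : ι → Γ₀) (h : ∀ s ∈ S, 1 < f s) :
    1 ≤ ∏ s ∈ S, f s := by
  classical
  induction S using Finset.induction_on with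
  | empty => simp
  | insert a S ha ih =>
    rw [Finset.prod_insert ha]
    calc (1 : Γ₀) = 1 * 1 := (one_mul 1).symm
      _ ≤ f a * ∏ s ∈ S, f s :=
        mul_le_mul' (h a (Finset.mem_insert_self a S)).le
          (ih fun s hs => h s (Finset.mem_insert_of_mem hs))

theorem one_lt_prod_of_one_lt (S : Finset ι) (f : ι → Γ₀) (h : ∀ s ∈ S, 1 < f s)
    (hne : S.Nonempty) : 1 < ∏ s ∈ S, f s := by
  classical
  obtain ⟨a, ha⟩ := hne
  rw [← Finset.mul_prod_erase S f ha]
  have h1 : 1 ≤ ∏ s ∈ S.erase a, f s :=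
    one_le_prod_of_one_lt _ f fun s hs => h s (Finset.mem_of_mem_erase hs)
  calc (1 : Γ₀) < f a := h a ha
    _ = f a * 1 := (mul_one _).symm
    _ ≤ f a * ∏ s ∈ S.erase a, f s := mul_le_mul' le_rfl h1

end valuegroup

/-- A rational number which is not integral at a place over `p` has valuation at least
`v(p)⁻¹`. -/
theorem one_le_val_mul_of_rat (A : ValuationSubring Qb) {p : ℕ} (hp : p.Prime)
    (hA : A.LiesOverPrime p) (r : ℚ) (hr : 1 < A.valuation (algebraMap ℚ Qb r)) :
    1 ≤ A.valuation (p : Qb) * A.valuation (algebraMap ℚ Qb r) := by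
  have hcast : algebraMap ℚ Qb r = (r.num : Qb) / (r.den : Qb) := by
    rw [eq_ratCast]; exact Rat.cast_def r
  have hden0 : (r.den : Qb) ≠ 0 := Nat.cast_ne_zero.mpr r.den_ne_zero
  have hnum1 : A.valuation (r.num : Qb) ≤ 1 :=
    (ValuationSubring.valuation_le_one_iff A _).2 (intCast_mem A r.num)
  have hdenpos : 0 < A.valuation (r.den : Qb) :=
    zero_lt_iff.mpr ((Valuation.ne_zero_iff _).mpr hden0)
  have hlt : A.valuation (r.den : Qb) < A.valuation (r.num : Qb) := by
    rw [hcast, map_div₀, one_lt_div₀ hdenpos] at hr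
    exact hr
  have hdvd : p ∣ r.den := by
    rw [← Fermat.Agent.S05.helper4205.natCast_mem_nonunits_iff hp hA, 
      ValuationSubring.mem_nonunits_iff]
    exact lt_of_lt_of_le hlt hnum1
  have hnd : ¬ (p : ℤ) ∣ r.num := by
    intro hd
    have h1 : p ∣ r.num.natAbs := Int.natCast_dvd.mp hd
    have h2 : p ∣ Nat.gcd r.num.natAbs r.den := Nat.dvd_gcd h1 hdvd
    rw [r.reduced] at h2
    exact hp.one_lt.ne' (Nat.dvd_one.mp h2)
  have hnumv : A.valuation (r.num : Qb) = 1 :=
    Fermat.Agent.S05.helper4205.valuation_intCast_eq_one hp hA hnd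
  obtain ⟨m, hm⟩ := hdvd
  have hm0 : (m : Qb) ≠ 0 := by
    intro h0
    apply hden0
    rw [hm]; push_cast; rw [h0, mul_zero]
  have hp0 : (p : Qb) ≠ 0 := Nat.cast_ne_zero.mpr hp.ne_zero
  have hmv : A.valuation (m : Qb) ≤ 1 :=
    (ValuationSubring.valuation_le_one_iff A _).2 (natCast_mem A m)
  have hmpos : 0 < A.valuation (m : Qb) := zero_lt_iff.mpr ((Valuation.ne_zero_iff _).mpr hm0)
  have key : (p : Qb) * algebraMap ℚ Qb r = (r.num : Qb) / (m : Qb) := by
    rw [hcast, hm]; push_cast; field_simp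
  rw [← map_mul, key, map_div₀, hnumv, one_le_div₀ hmpos]
  exact hmv

section ladder

variable (P : FreyPackage)

/-- **Ladder input** (deliverable (e) of helper853's torsion ladder, in valuation form): for
distinct `x`-coordinates of `p`-torsion points lying in the kernel of reduction at a place `A`
over `p`, `v(p) * ∏ v(x) ≤ 1`.  (The division polynomial `Ψ_p` has integral coefficients and
leading coefficient `± p`.) -/
def LadderStmt : Prop :=
  ∀ (A : ValuationSubring Qb), A.LiesOverPrime P.p → ∀ (S : Finset Qb),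
    (∀ s ∈ S, ∃ (y : Qb) (h : ((P.freyCurve)⁄Qb).Nonsingular s y),
        P.p • (Point.some s y h : ((P.freyCurve)⁄Qb).Point) = 0) →
    (∀ s ∈ S, 1 < A.valuation s) →
    A.valuation (P.p : Qb) * ∏ s ∈ S, A.valuation s ≤ 1

variable {P}

theorem torsion_nsmul (T : Vp P) : P.p • (T : ((P.freyCurve)⁄Qb).Point) = 0 := by
  have h := T.2
  rw [Submodule.mem_torsionBy_iff] at h
  rw [← h]
  exact (natCast_zsmul _ P.p).symm

theorem exists_coords (T : Vp P) (hT : T ≠ 0) :
    ∃ (x y : Qb) (h : ((P.freyCurve)⁄Qb).Nonsingular x y),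
      (T : ((P.freyCurve)⁄Qb).Point) = Point.some x y h := by
  rcases hTpt : (T : ((P.freyCurve)⁄Qb).Point) with _ | ⟨x, y, hxy⟩
  · exact absurd (Subtype.ext hTpt) hT
  · exact ⟨x, y, hxy, rfl⟩

theorem eq_or_eq_neg_of_xc_eq (T Q : Vp P) (hT : T ≠ 0) (hQ : Q ≠ 0)
    (h : xc (W := EQb P) (T : ((P.freyCurve)⁄Qb).Point)
      = xc (W := EQb P) (Q : ((P.freyCurve)⁄Qb).Point)) : T = Q ∨ T = -Q := by
  obtain ⟨x, y, hxy, hTc⟩ := exists_coords T hT
  obtain ⟨x', y', hxy', hQc⟩ := exists_coords Q hQ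
  rw [hTc, hQc] at h
  have hx : x = x' := h
  rcases (Point.X_eq_iff (h₁ := hxy) (h₂ := hxy')).mp hx with h1 | h1
  · left
    apply Subtype.ext
    rw [hTc, hQc]; exact h1
  · right
    apply Subtype.ext
    rw [Submodule.coe_neg, hTc, hQc]; exact h1

/-- **Step (b)**: the `p`-torsion is not contained in the kernel of reduction at a place over
`p`, as soon as there is a Galois-stable proper nonzero submodule. -/
theorem not_forall_inK1 (hLad : LadderStmt P) [Finite (Vp P)] (A : ValuationSubring Qb)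
    (hA : A.LiesOverPrime P.p) (N : Submodule (ZMod P.p) (Vp P)) (hN : IsGaloisStable ℚ N)
    (h0 : N ≠ ⊥) (h1 : N ≠ ⊤) :
    ¬ ∀ T : Vp P, InK1 (W := EQb P) A (T : ((P.freyCurve)⁄Qb).Point) := by
  classical
  intro hall
  have := Fintype.ofFinite (Vp P)
  let f : Vp P → Qb := fun T => xc (W := EQb P) (T : ((P.freyCurve)⁄Qb).Point)
  let SV : Finset Qb := (Finset.univ.filter (fun T : Vp P => T ≠ 0)).image f
  let SN : Finset Qb := (Finset.univ.filter (fun T : Vp P => T ∈ N ∧ T ≠ 0)).image f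
  have hSV1 : ∀ s ∈ SV, 1 < A.valuation s := by
    intro s hs
    obtain ⟨T, hT, rfl⟩ := Finset.mem_image.mp hs
    have hT0 : T ≠ 0 := (Finset.mem_filter.mp hT).2
    rcases hall T with h | h
    · exact absurd (Subtype.ext h) hT0
    · exact h
  have hSVtors : ∀ s ∈ SV, ∃ (y : Qb) (h : ((P.freyCurve)⁄Qb).Nonsingular s y),
      P.p • (Point.some s y h : ((P.freyCurve)⁄Qb).Point) = 0 := by
    intro s hs
    obtain ⟨T, hT, rfl⟩ := Finset.mem_image.mp hs
    have hT0 : T ≠ 0 := (Finset.mem_filter.mp hT).2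
    obtain ⟨x, y, hxy, hTc⟩ := exists_coords T hT0
    have hfx : f T = x := by
      show xc (W := EQb P) (T : ((P.freyCurve)⁄Qb).Point) = x
      rw [hTc]; rfl
    rw [hfx]
    refine ⟨y, hxy, ?_⟩
    rw [← hTc]; exact torsion_nsmul T
  have hsub : SN ⊆ SV := by
    apply Finset.image_subset_image
    intro T hT
    rw [Finset.mem_filter] at hT ⊢
    exact ⟨hT.1, hT.2.2⟩
  have hex : ∃ s ∈ SV, s ∉ SN := by
    obtain ⟨T, hTN⟩ : ∃ T : Vp P, T ∉ N := by
      by_contra hcon
      push Not at hcon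
      exact h1 (Submodule.eq_top_iff'.mpr hcon)
    have hT0 : T ≠ 0 := by
      rintro rfl
      exact hTN N.zero_mem
    refine ⟨f T, Finset.mem_image_of_mem f (Finset.mem_filter.mpr ⟨Finset.mem_univ _, hT0⟩), ?_⟩
    intro hmem
    obtain ⟨Q, hQ, hQf⟩ := Finset.mem_image.mp hmem
    obtain ⟨-, hQN, hQ0⟩ := Finset.mem_filter.mp hQ
    rcases eq_or_eq_neg_of_xc_eq T Q hT0 hQ0 hQf.symm with h | h
    · exact hTN (h ▸ hQN)
    · exact hTN (h ▸ N.neg_mem hQN)
  have hinv : ∀ σ : GQ, SN.image σ = SN := by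
    intro σ
    apply Finset.eq_of_subset_of_card_le
    · intro s hs
      obtain ⟨t, ht, rfl⟩ := Finset.mem_image.mp hs
      obtain ⟨T, hT, rfl⟩ := Finset.mem_image.mp ht
      obtain ⟨-, hTN, hT0⟩ := Finset.mem_filter.mp hT
      have hσT0 : σ • T ≠ 0 := by
        intro h
        apply hT0
        have h2 : σ⁻¹ • (σ • T) = σ⁻¹ • (0 : Vp P) := by rw [h]
        rwa [inv_smul_smul, smul_zero] at h2
      refine Finset.mem_image.mpr ⟨σ • T,
        Finset.mem_filter.mpr ⟨Finset.mem_univ _, hN σ T hTN, hσT0⟩, ?_⟩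
      exact xc_smul P σ (T : ((P.freyCurve)⁄Qb).Point)
    · rw [Finset.card_image_of_injective _ σ.injective]
  have hfix : ∀ σ : GQ, σ (∏ s ∈ SN, s) = ∏ s ∈ SN, s := by
    intro σ
    rw [map_prod]
    conv_rhs => rw [← hinv σ]
    rw [Finset.prod_image (fun a _ b _ h => σ.injective h)]
  obtain ⟨r, hr⟩ := Fermat.Agent.S51.helper2811.fixed_mem_range _ hfix
  have hSNne : SN.Nonempty := by
    obtain ⟨T, hTN, hT0⟩ := (Submodule.ne_bot_iff N).mp h0
    exact ⟨f T, Finset.mem_image_of_mem f (Finset.mem_filter.mpr ⟨Finset.mem_univ _, hTN, hT0⟩)⟩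
  have hvu : 1 < A.valuation (∏ s ∈ SN, s) := by
    rw [map_prod]
    exact one_lt_prod_of_one_lt SN _ (fun s hs => hSV1 s (hsub hs)) hSNne
  have hrat := one_le_val_mul_of_rat A P.pp hA r (by rw [hr]; exact hvu)
  have hlad := hLad A hA SV hSVtors hSV1
  have hgt : 1 < ∏ s ∈ SV \ SN, A.valuation s := by
    obtain ⟨s, hs, hsn⟩ := hex
    exact one_lt_prod_of_one_lt _ _ (fun s hs => hSV1 s (Finset.mem_sdiff.mp hs).1)
      ⟨s, Finset.mem_sdiff.mpr ⟨hs, hsn⟩⟩
  have hcontra : 1 < A.valuation (P.p : Qb) * ∏ s ∈ SV, A.valuation s := by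
    rw [← Finset.prod_sdiff hsub]
    rw [hr, map_prod] at hrat
    calc (1 : A.ValueGroup) < ∏ s ∈ SV \ SN, A.valuation s := hgt
      _ = 1 * ∏ s ∈ SV \ SN, A.valuation s := (one_mul _).symm
      _ ≤ (A.valuation (P.p : Qb) * ∏ s ∈ SN, A.valuation s) * ∏ s ∈ SV \ SN, A.valuation s :=
        mul_le_mul' hrat le_rfl
      _ = A.valuation (P.p : Qb) *
          ((∏ s ∈ SV \ SN, A.valuation s) * ∏ s ∈ SN, A.valuation s) := by ac_rfl
  exact absurd hlad (not_le.mpr hcontra)

end ladder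

section linalg

variable {p : ℕ} [Fact p.Prime] {V : Type*} [AddCommGroup V] [Module (ZMod p) V]

theorem zmod_smul_mem (L : AddSubgroup V) (c : ZMod p) {D : V} (hD : D ∈ L) : c • D ∈ L := by
  have h1 : c • D = c.val • D := by
    rw [← Nat.cast_smul_eq_nsmul (ZMod p) c.val D, ZMod.natCast_zmod_val]
  rw [h1]
  exact L.nsmul_mem hD _

variable [Finite V]

theorem finrank_lt_three (hcard : Nat.card V < p ^ 3) : Module.finrank (ZMod p) V < 3 := by
  have hp : 1 < p := (Fact.out : p.Prime).one_lt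
  have h := Module.natCard_eq_pow_finrank (K := ZMod p) (V := V)
  rw [Nat.card_zmod] at h
  rw [h] at hcard
  exact (Nat.pow_lt_pow_iff_right hp).mp hcard

/-- If an additive subgroup `L` contains a proper nonzero submodule `N` and an element outside
`N`, then `L` is everything (the ambient space has dimension at most `2`). -/
theorem mem_of_line_of_notMem (hcard : Nat.card V < p ^ 3) (N : Submodule (ZMod p) V)
    (h0 : N ≠ ⊥) (L : AddSubgroup V) (hNL : ∀ x ∈ N, x ∈ L) {D : V} (hD : D ∈ L)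
    (hDN : D ∉ N) (x : V) : x ∈ L := by
  have hfr := finrank_lt_three hcard
  have hlt : N < N ⊔ Submodule.span (ZMod p) {D} := by
    refine lt_of_le_of_ne le_sup_left ?_
    intro h
    apply hDN
    rw [h]
    exact Submodule.mem_sup_right (Submodule.mem_span_singleton_self D)
  have hpos : 0 < Module.finrank (ZMod p) N := by
    rw [Nat.pos_iff_ne_zero]
    intro h
    exact h0 (Submodule.finrank_eq_zero.mp h)
  have h2 : Module.finrank (ZMod p) N <
      Module.finrank (ZMod p) ↥(N ⊔ Submodule.span (ZMod p) {D}) :=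
    Submodule.finrank_lt_finrank_of_lt hlt
  have hle : Module.finrank (ZMod p) ↥(N ⊔ Submodule.span (ZMod p) {D}) ≤
      Module.finrank (ZMod p) V := Submodule.finrank_le _
  have htop : N ⊔ Submodule.span (ZMod p) {D} = ⊤ :=
    Submodule.eq_top_of_finrank_eq (by omega)
  have hx : x ∈ N ⊔ Submodule.span (ZMod p) {D} := htop ▸ Submodule.mem_top
  obtain ⟨n, hn, z, hz, rfl⟩ := Submodule.mem_sup.mp hx
  obtain ⟨d, rfl⟩ := Submodule.mem_span_singleton.mp hz
  exact L.add_mem (hNL n hn) (zmod_smul_mem L d hD)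

/-- If an additive subgroup `L` contains a nonzero element of a line `N`, it contains `N`. -/
theorem line_subset_of_mem (hcard : Nat.card V < p ^ 3) (N : Submodule (ZMod p) V)
    (h0 : N ≠ ⊥) (h1 : N ≠ ⊤) (L : AddSubgroup V) {D : V} (hD : D ∈ L) (hDN : D ∈ N)
    (hD0 : D ≠ 0) (x : V) (hx : x ∈ N) : x ∈ L := by
  obtain ⟨Q, -, -, hgen⟩ :=
    Fermat.Agent.S51.helper2811.exists_generator_of_proper hcard N h0 h1
  obtain ⟨k, hk⟩ := hgen D hDN
  obtain ⟨k', hk'⟩ := hgen x hx
  have hk0 : k ≠ 0 := by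
    rintro rfl
    rw [zero_smul] at hk
    exact hD0 hk
  have hQ : Q = k⁻¹ • D := by
    rw [hk, smul_smul, inv_mul_cancel₀ hk0, one_smul]
  rw [hk', hQ, smul_smul]
  exact zmod_smul_mem L _ hD

end linalg

section main

variable (P : FreyPackage)

/-- **Conjugacy input**: the places of `ℚ̄` over `p` are conjugate under `G_ℚ`. -/
def ConjStmt (p : ℕ) : Prop :=
  ∀ A A' : ValuationSubring Qb, A.LiesOverPrime p → A'.LiesOverPrime p →
    ∃ τ : GQ, ∀ x : Qb, x ∈ A ↔ τ x ∈ A'

variable {P}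

/-- The kernel of reduction at a place `A` over `p` inside the `p`-torsion, as an additive
subgroup. -/
noncomputable def kerRed (A : ValuationSubring Qb) (hA : A.LiesOverPrime P.p) : AddSubgroup (Vp P) where
  carrier := {T | InK1 (W := EQb P) A (T : ((P.freyCurve)⁄Qb).Point)}
  zero_mem' := Or.inl rfl
  add_mem' := fun {a b} ha hb => by
    show InK1 (W := EQb P) A ((a + b : Vp P) : ((P.freyCurve)⁄Qb).Point)
    rw [Submodule.coe_add]
    exact inK1_add P A hA ha hb
  neg_mem' := fun {a} ha => by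
    show InK1 (W := EQb P) A ((-a : Vp P) : ((P.freyCurve)⁄Qb).Point)
    rw [Submodule.coe_neg]
    exact inK1_neg A ha

theorem mem_kerRed {A : ValuationSubring Qb} {hA : A.LiesOverPrime P.p} {T : Vp P} :
    T ∈ kerRed A hA ↔ InK1 (W := EQb P) A (T : ((P.freyCurve)⁄Qb).Point) := Iff.rfl

/-- Step (a) for the torsion module. -/
theorem smul_sub_mem_kerRed (A : ValuationSubring Qb) (hA : A.LiesOverPrime P.p) (σ : GQ)
    (hσ : σ ∈ A.inertiaSubgroupIn ℚ) (T : Vp P) : σ • T - T ∈ kerRed A hA := by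
  rw [mem_kerRed]
  have h := smul_sub_inK1 P A hA σ hσ (T : ((P.freyCurve)⁄Qb).Point) (torsion_nsmul T)
  exact h

/-- "`N` lies in the kernel of reduction" does not depend on the place over `p`. -/
theorem subset_kerRed_of_conj (hConj : ConjStmt P.p) (N : Submodule (ZMod P.p) (Vp P))
    (hN : IsGaloisStable ℚ N) (A A' : ValuationSubring Qb) (hA : A.LiesOverPrime P.p)
    (hA' : A'.LiesOverPrime P.p) (h : ∀ T ∈ N, T ∈ kerRed A hA) :
    ∀ T ∈ N, T ∈ kerRed A' hA' := by
  obtain ⟨τ, hτ⟩ := hConj A A' hA hA'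
  intro T hT
  have hT' : τ⁻¹ • T ∈ N := hN τ⁻¹ T hT
  have hback : τ • (τ⁻¹ • T) = T := smul_inv_smul τ T
  rcases h _ hT' with h0 | hv
  · left
    have h00 : τ⁻¹ • T = 0 := Subtype.ext h0
    rw [← hback, h00, smul_zero]
    rfl
  · right
    have hnot : xc (W := EQb P) ((τ⁻¹ • T : Vp P) : ((P.freyCurve)⁄Qb).Point) ∉ A := by
      rw [← ValuationSubring.valuation_le_one_iff]
      exact not_le.mpr hv
    have hnot' : τ (xc (W := EQb P) ((τ⁻¹ • T : Vp P) : ((P.freyCurve)⁄Qb).Point)) ∉ A' :=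
      fun hmem => hnot ((hτ _).mpr hmem)
    have hxc : τ (xc (W := EQb P) ((τ⁻¹ • T : Vp P) : ((P.freyCurve)⁄Qb).Point))
        = xc (W := EQb P) (T : ((P.freyCurve)⁄Qb).Point) := by
      rw [← xc_smul P τ]
      have : τ • ((τ⁻¹ • T : Vp P) : ((P.freyCurve)⁄Qb).Point)
          = ((τ • (τ⁻¹ • T) : Vp P) : ((P.freyCurve)⁄Qb).Point) := rfl
      rw [this, hback]
    rw [hxc, ← ValuationSubring.valuation_le_one_iff] at hnot'
    exact not_le.mp hnot'

/-- **Ingredient I5 (`at_p`) of S13**, from the ladder input and the conjugacy of places. -/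
theorem at_p_of (hLad : LadderStmt P) (hConj : ConjStmt P.p) [Finite (Vp P)]
    (hcard : Nat.card (Vp P) < P.p ^ 3)
    (N : Submodule (ZMod P.p) (Vp P)) (hN : IsGaloisStable ℚ N) (h0 : N ≠ ⊥) (h1 : N ≠ ⊤) :
    (∀ A : ValuationSubring Qb, A.LiesOverPrime P.p →
      ∀ σ ∈ A.inertiaSubgroupIn ℚ, ∀ x ∈ N, σ • x = x) ∨
    (∀ A : ValuationSubring Qb, A.LiesOverPrime P.p →
      ∀ σ ∈ A.inertiaSubgroupIn ℚ, ∀ x : Vp P, σ • x - x ∈ N) := by
  have : Fact P.p.Prime := ⟨P.pp⟩
  by_cases hNK : ∃ (A : ValuationSubring Qb) (hA : A.LiesOverPrime P.p),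
      ∀ T ∈ N, T ∈ kerRed A hA
  · -- `N` is the kernel of reduction: inertia is trivial on the quotient
    right
    obtain ⟨A₀, hA₀, hsub₀⟩ := hNK
    intro A hA σ hσ x
    have hsub := subset_kerRed_of_conj hConj N hN A₀ A hA₀ hA hsub₀
    by_contra hDN
    have hD := smul_sub_mem_kerRed A hA σ hσ x
    have hall : ∀ T : Vp P, T ∈ kerRed A hA :=
      mem_of_line_of_notMem hcard N h0 (kerRed A hA) hsub hD hDN
    exact not_forall_inK1 hLad A hA N hN h0 h1 hall
  · -- `N` meets the kernel of reduction trivially: inertia fixes `N`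
    left
    intro A hA σ hσ x hx
    have hD := smul_sub_mem_kerRed A hA σ hσ x
    have hDN : σ • x - x ∈ N := N.sub_mem (hN σ x hx) hx
    by_contra hne
    have hD0 : σ • x - x ≠ 0 := fun h => hne (sub_eq_zero.mp h)
    exact hNK ⟨A, hA, line_subset_of_mem hcard N h0 h1 (kerRed A hA) hD hDN hD0⟩

/-- Variant with the hypothesis `#E[p] = p²` in the shape of the S13 skeleton. -/
theorem at_p_of_card (hLad : LadderStmt P) (hConj : ConjStmt P.p)
    (hcard : Nat.card (Vp P) = P.p ^ 2)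
    (N : Submodule (ZMod P.p) (Vp P)) (hN : IsGaloisStable ℚ N) (h0 : N ≠ ⊥) (h1 : N ≠ ⊤) :
    (∀ A : ValuationSubring Qb, A.LiesOverPrime P.p →
      ∀ σ ∈ A.inertiaSubgroupIn ℚ, ∀ x ∈ N, σ • x = x) ∨
    (∀ A : ValuationSubring Qb, A.LiesOverPrime P.p →
      ∀ σ ∈ A.inertiaSubgroupIn ℚ, ∀ x : Vp P, σ • x - x ∈ N) := by
  have hp0 : P.p ^ 2 ≠ 0 := pow_ne_zero _ P.pp.ne_zero
  have : Finite (Vp P) := Nat.finite_of_card_ne_zero (by rw [hcard]; exact hp0)
  refine at_p_of hLad hConj ?_ N hN h0 h1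
  rw [hcard]
  exact Nat.pow_lt_pow_right P.pp.one_lt (by norm_num)

end main

end Fermat.Agent.S13.helper1330
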