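import Mathlib

/-!
# The node normal form `E_t : Y² + XY = X³ + tX` (helper1347, S13)

Every Weierstrass curve with a node with rational tangent directions can be brought to this
form (in every residue characteristic, including `2`).  This file contains the purely
algebraic facts: the curve, its points, and the Vieta relations for three collinear points.
-/

set_option autoImplicit false

namespace Fermat.Agent.S13.helper1347

open WeierstrassCurve WeierstrassCurve.Affine

variable {K : Type*} [Field K]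

/-- The node normal form `Y² + XY = X³ + tX`. -/
def Et (t : K) : WeierstrassCurve K := ⟨1, 0, 0, t, 0⟩

@[simp] lemma Et_a₁ (t : K) : (Et t).a₁ = 1 := rfl
@[simp] lemma Et_a₂ (t : K) : (Et t).a₂ = 0 := rfl
@[simp] lemma Et_a₃ (t : K) : (Et t).a₃ = 0 := rfl
@[simp] lemma Et_a₄ (t : K) : (Et t).a₄ = t := rfl
@[simp] lemma Et_a₆ (t : K) : (Et t).a₆ = 0 := rfl

lemma Et_equation_iff (t x y : K) :
    (Et t).toAffine.Equation x y ↔ y ^ 2 + x * y = x ^ 3 + t * x := by
  rw [Affine.equation_iff]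
  simp only [Et_a₁, Et_a₂, Et_a₃, Et_a₄, Et_a₆]
  constructor <;> intro h <;> linear_combination h

lemma Et_negY (t x y : K) : (Et t).toAffine.negY x y = -y - x := by
  simp [Affine.negY]

/-- The equation in factored form `y (y + x) = x (x² + t)`. -/
lemma Et_equation_factored {t x y : K} (h : (Et t).toAffine.Equation x y) :
    y * (y + x) = x * (x ^ 2 + t) := by
  rw [Et_equation_iff] at h
  linear_combination h

variable [DecidableEq K]

/-- **Vieta relations** for three affine points of `E_t` summing to zero: they lie on a line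
`y = ℓ x + μ`, and the elementary symmetric functions of their `x`-coordinates are
`ℓ² + ℓ`, `t - μ (2ℓ + 1)`, `μ²`. -/
theorem vieta {t x₁ y₁ x₂ y₂ x₃ y₃ : K}
    {h₁ : (Et t).toAffine.Nonsingular x₁ y₁} {h₂ : (Et t).toAffine.Nonsingular x₂ y₂}
    {h₃ : (Et t).toAffine.Nonsingular x₃ y₃}
    (h : Point.some x₁ y₁ h₁ + Point.some x₂ y₂ h₂ + Point.some x₃ y₃ h₃ = 0) :
    ∃ ℓ μ : K, y₁ = ℓ * x₁ + μ ∧ y₂ = ℓ * x₂ + μ ∧ y₃ = ℓ * x₃ + μ ∧
      x₁ + x₂ + x₃ = ℓ ^ 2 + ℓ ∧
      x₁ * x₂ + x₁ * x₃ + x₂ * x₃ = t - μ * (2 * ℓ + 1) ∧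
      x₁ * x₂ * x₃ = μ ^ 2 := by
  have h12 : Point.some x₁ y₁ h₁ + Point.some x₂ y₂ h₂ = -Point.some x₃ y₃ h₃ :=
    eq_neg_of_add_eq_zero_left h
  have hxy : ¬(x₁ = x₂ ∧ y₁ = (Et t).toAffine.negY x₂ y₂) := by
    rintro ⟨hx, hy⟩
    rw [Point.add_of_Y_eq hx hy, Point.neg_some] at h12
    exact Point.some_ne_zero _ h12.symm
  rw [Point.add_some hxy, Point.neg_some, Point.some.injEq] at h12
  obtain ⟨hx3, hy3⟩ := h12
  set ℓ := (Et t).toAffine.slope x₁ x₂ y₁ y₂ with hℓ
  -- y₃ on the line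
  have hy3' : y₃ = ℓ * (x₃ - x₁) + y₁ := by
    have := congrArg ((Et t).toAffine.negY x₃) hy3
    rw [Affine.negY_negY, Affine.addY, hx3, Affine.negY_negY, Affine.negAddY, hx3] at this
    exact this.symm
  -- y₂ on the line
  have hy2' : y₂ = ℓ * (x₂ - x₁) + y₁ := by
    by_cases hx : x₁ = x₂
    · have hy : y₁ ≠ (Et t).toAffine.negY x₂ y₂ := fun hy => hxy ⟨hx, hy⟩
      have := Affine.Y_eq_of_Y_ne h₁.1 h₂.1 hx hy
      rw [hx, this]; ring
    · have hd : x₁ - x₂ ≠ 0 := sub_ne_zero.mpr hx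
      rw [hℓ, Affine.slope_of_X_ne hx]
      field_simp
      ring
  have hpoly := Affine.addPolynomial_slope h₁.1 h₂.1 hxy
  rw [← hℓ, hx3, Affine.addPolynomial_eq, neg_inj, Cubic.prod_X_sub_C_eq,
    Cubic.toPoly_injective] at hpoly
  simp only [Et_a₁, Et_a₂, Et_a₃, Et_a₄, Et_a₆, Cubic.mk.injEq] at hpoly
  obtain ⟨-, hb, hc, hd⟩ := hpoly
  refine ⟨ℓ, y₁ - ℓ * x₁, by ring, by rw [hy2']; ring, by rw [hy3']; ring, ?_, ?_, ?_⟩
  · linear_combination hb
  · linear_combination -hc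
  · linear_combination hd

end Fermat.Agent.S13.helper1347
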