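import Fermat.Agent.S13.helper1347_Ord
import Fermat.Agent.S13.helper1347_NodeCurve

/-!
# Valuation theory of the node normal form `y (y + x) = x (x² + t)` (helper1347, S13)

`A` is a valuation subring of `K`, `v = A.valuation` (multiplicative), `t` lies in the maximal
ideal (`v t < 1`).  No assumption on the residue characteristic.

Coordinate-level statements only (no points): single-point facts, then facts about three
collinear points, expressed through the Vieta relations of `helper1347_NodeCurve`.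
-/

set_option autoImplicit false

namespace Fermat.Agent.S13.helper1347

variable {K : Type*} [Field K] (A : ValuationSubring K)

local notation "v" => A.valuation

section SinglePoint

variable {t x y : K}

/-- A point with a pole in `x`: `v y ^ 2 = v x ^ 3`. -/
theorem pole_val (ht : v t < 1) (h : y * (y + x) = x * (x ^ 2 + t)) (hx : 1 < v x) :
    v y ^ 2 = v x ^ 3 ∧ v x < v y ∧ v (y + x) = v y := by
  have hx0 : 0 < v x := zero_lt_one.trans hx
  have h2 : v (x ^ 2 + t) = v x ^ 2 := by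
    rw [Valuation.map_add_eq_of_lt_left, map_pow]
    rw [map_pow]
    exact ht.trans (one_lt_pow₀ hx two_ne_zero)
  have hprod : v y * v (y + x) = v x ^ 3 := by
    rw [← map_mul, h, map_mul, h2]
    exact (pow_succ' _ 2).symm
  have hlt : v x < v y := by
    by_contra hcon
    rw [not_lt] at hcon
    have h3 : v (y + x) ≤ v x := Valuation.map_add_le _ hcon le_rfl
    have h4 : v y * v (y + x) ≤ v x * v x := mul_le_mul' hcon h3
    rw [hprod] at h4
    have h5 : v x * v x < v x ^ 3 := by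
      rw [← pow_two]
      exact pow_lt_pow_right₀ hx (by norm_num)
    exact absurd h4 (not_le.mpr h5)
  have h6 : v (y + x) = v y := Valuation.map_add_eq_of_lt_left _ hlt
  refine ⟨?_, hlt, h6⟩
  rw [← hprod, h6, pow_two]

/-- Integral `x` forces integral `y`. -/
theorem y_integral (ht : v t < 1) (h : y * (y + x) = x * (x ^ 2 + t)) (hx : v x ≤ 1) :
    v y ≤ 1 := by
  by_contra hcon
  rw [not_le] at hcon
  have h1 : v (y + x) = v y := Valuation.map_add_eq_of_lt_left _ (hx.trans_lt hcon)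
  have h2 : v (x * (x ^ 2 + t)) ≤ 1 := by
    rw [map_mul]
    have : v (x ^ 2 + t) ≤ 1 :=
      Valuation.map_add_le _ (by rw [map_pow]; exact pow_le_one' hx 2) ht.le
    calc v x * v (x ^ 2 + t) ≤ 1 * 1 := mul_le_mul' hx this
      _ = 1 := one_mul 1
  rw [← h, map_mul, h1] at h2
  have h3 : 1 < v y * v y := one_lt_mul'' hcon hcon
  exact absurd h2 (not_le.mpr h3)

/-- Near the node (`v x < 1`), `y` is small too. -/
theorem y_small (ht : v t < 1) (h : y * (y + x) = x * (x ^ 2 + t)) (hx : v x < 1) :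
    v y < 1 := by
  by_contra hcon
  rw [not_lt] at hcon
  have h1 : v (y + x) = v y := Valuation.map_add_eq_of_lt_left _ (hx.trans_le hcon)
  have h2 : v (x * (x ^ 2 + t)) < 1 := by
    rw [map_mul]
    have : v (x ^ 2 + t) ≤ 1 :=
      Valuation.map_add_le _ (by rw [map_pow]; exact pow_le_one' hx.le 2) ht.le
    calc v x * v (x ^ 2 + t) ≤ v x * 1 := mul_le_mul' le_rfl this
      _ = v x := mul_one _
      _ < 1 := hx
  rw [← h, map_mul, h1] at h2
  have h3 : 1 ≤ v y * v y := one_le_mul_of_one_le_of_one_le hcon hcon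
  exact absurd h2 (not_lt.mpr h3)

/-- **The two branches at the node.** For `v t < v x < 1` exactly one of `y`, `y + x` is
smaller than `x`. -/
theorem node_branch (h : y * (y + x) = x * (x ^ 2 + t)) (hxt : v t < v x) (hx : v x < 1) :
    (v y < v x ∧ v (y + x) = v x) ∨ (v (y + x) < v x ∧ v y = v x) := by
  have hx0 : 0 < v x := lt_of_le_of_lt zero_le hxt
  have h2 : v (x ^ 2 + t) < v x := by
    apply Valuation.map_add_lt _ _ hxt
    rw [map_pow, pow_two]
    calc v x * v x < v x * 1 := by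
          exact mul_lt_mul_of_pos_left hx hx0
      _ = v x := mul_one _
  have hprod : v y * v (y + x) < v x * v x := by
    rw [← map_mul, h, map_mul]
    exact mul_lt_mul_of_pos_left h2 hx0
  rcases lt_trichotomy (v y) (v x) with hlt | heq | hgt
  · left
    refine ⟨hlt, ?_⟩
    exact Valuation.map_add_eq_of_lt_right _ hlt
  · right
    refine ⟨?_, heq⟩
    by_contra hcon
    rw [not_lt] at hcon
    have : v x * v x ≤ v y * v (y + x) := mul_le_mul' heq.ge hcon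
    exact absurd hprod (not_lt.mpr this)
  · exfalso
    have h1 : v (y + x) = v y := Valuation.map_add_eq_of_lt_left _ hgt
    rw [h1] at hprod
    have : v x * v x ≤ v y * v y := mul_le_mul' hgt.le hgt.le
    exact absurd hprod (not_lt.mpr this)

end SinglePoint

end Fermat.Agent.S13.helper1347

namespace Fermat.Agent.S13.helper1347

variable {K : Type*} [Field K]

/-- Three affine points of `E_t` on the line `y = ℓ x + μ`, with the Vieta relations. -/
structure Col (t x₁ y₁ x₂ y₂ x₃ y₃ ℓ μ : K) : Prop where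
  l₁ : y₁ = ℓ * x₁ + μ
  l₂ : y₂ = ℓ * x₂ + μ
  l₃ : y₃ = ℓ * x₃ + μ
  e₁ : x₁ + x₂ + x₃ = ℓ ^ 2 + ℓ
  e₂ : x₁ * x₂ + x₁ * x₃ + x₂ * x₃ = t - μ * (2 * ℓ + 1)
  e₃ : x₁ * x₂ * x₃ = μ ^ 2
  c₁ : y₁ * (y₁ + x₁) = x₁ * (x₁ ^ 2 + t)
  c₂ : y₂ * (y₂ + x₂) = x₂ * (x₂ ^ 2 + t)
  c₃ : y₃ * (y₃ + x₃) = x₃ * (x₃ ^ 2 + t)

namespace Col

variable {t x₁ y₁ x₂ y₂ x₃ y₃ ℓ μ : K}

lemma swap₁₂ (h : Col t x₁ y₁ x₂ y₂ x₃ y₃ ℓ μ) : Col t x₂ y₂ x₁ y₁ x₃ y₃ ℓ μ where
  l₁ := h.l₂
  l₂ := h.l₁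
  l₃ := h.l₃
  e₁ := by linear_combination h.e₁
  e₂ := by linear_combination h.e₂
  e₃ := by linear_combination h.e₃
  c₁ := h.c₂
  c₂ := h.c₁
  c₃ := h.c₃

lemma rot (h : Col t x₁ y₁ x₂ y₂ x₃ y₃ ℓ μ) : Col t x₂ y₂ x₃ y₃ x₁ y₁ ℓ μ where
  l₁ := h.l₂
  l₂ := h.l₃
  l₃ := h.l₁
  e₁ := by linear_combination h.e₁
  e₂ := by linear_combination h.e₂
  e₃ := by linear_combination h.e₃
  c₁ := h.c₂
  c₂ := h.c₃
  c₃ := h.c₁

/-- Negating the three points. -/
lemma neg (h : Col t x₁ y₁ x₂ y₂ x₃ y₃ ℓ μ) :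
    Col t x₁ (-y₁ - x₁) x₂ (-y₂ - x₂) x₃ (-y₃ - x₃) (-ℓ - 1) (-μ) where
  l₁ := by linear_combination -h.l₁
  l₂ := by linear_combination -h.l₂
  l₃ := by linear_combination -h.l₃
  e₁ := by linear_combination h.e₁
  e₂ := by linear_combination h.e₂
  e₃ := by linear_combination h.e₃
  c₁ := by linear_combination h.c₁
  c₂ := by linear_combination h.c₂
  c₃ := by linear_combination h.c₃

/-- The `x`-only relation between `x₁, x₂` and `x₃ = x(P₁ + P₂)`. -/
lemma quad (h : Col t x₁ y₁ x₂ y₂ x₃ y₃ ℓ μ) :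
    (x₁ - x₂) ^ 2 * x₃ ^ 2 - (2 * (x₁ + x₂) * (x₁ * x₂ + t) + x₁ * x₂) * x₃
      + (x₁ * x₂ - t) ^ 2 = 0 := by
  linear_combination (x₁ * x₂ + x₁ * x₃ + x₂ * x₃ - t - μ * (2 * ℓ + 1)) * h.e₂
    - (2 * ℓ + 1) ^ 2 * h.e₃ - 4 * (x₁ * x₂ * x₃) * h.e₁

/-- The sum of the `z = x / y` coordinates, cleared of denominators. -/
lemma zsum (h : Col t x₁ y₁ x₂ y₂ x₃ y₃ ℓ μ) :
    x₁ * y₂ * y₃ + x₂ * y₁ * y₃ + x₃ * y₁ * y₂ = ℓ * μ * (2 * t - μ) := by
  rw [h.l₁, h.l₂, h.l₃]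
  linear_combination (3 * ℓ ^ 2) * h.e₃ + (2 * ℓ * μ) * h.e₂ + μ ^ 2 * h.e₁

end Col

end Fermat.Agent.S13.helper1347

namespace Fermat.Agent.S13.helper1347

variable {K : Type*} [Field K] (A : ValuationSubring K)

local notation "v" => A.valuation

lemma val_two_le_one : v (2 : K) ≤ 1 :=
  (A.valuation_le_one_iff 2).mpr (ofNat_mem A 2)

open Classical in
/-- The component value of a node point `(x, y)` (`v t < v x < 1`): `ord x` on the branch
`y ≈ 0` and `2 ord t - ord x` on the branch `y ≈ -x`. -/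
noncomputable def cval (t x y : K) : Additive A.ValueGroupˣ :=
  if v y < v x then ord v x else 2 • ord v t - ord v x

section NodeCol

variable {t x y x₁ y₁ x₂ y₂ x₃ y₃ ℓ μ : K}

/-- Negation swaps the two branches. -/
theorem cval_neg (hc : y * (y + x) = x * (x ^ 2 + t)) (n : v t < v x ∧ v x < 1) :
    cval A t x (-y - x) = 2 • ord v t - cval A t x y := by
  have h1 : v (-y - x) = v (y + x) := by
    rw [← Valuation.map_neg]; congr 1; ring
  unfold cval
  rw [h1]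
  rcases node_branch A hc n.1 n.2 with ⟨ha, hb⟩ | ⟨ha, hb⟩
  · rw [if_pos ha, if_neg (by rw [hb]; exact lt_irrefl _)]
  · rw [if_pos ha, if_neg (by rw [hb]; exact lt_irrefl _)]
    abel

/-- Bounds for the component value of a node point: `0 < c < 2 ord t`. -/
theorem cval_bounds (ht0 : t ≠ 0) (hx0 : x ≠ 0) (n : v t < v x ∧ v x < 1) :
    0 < cval A t x y ∧ cval A t x y < 2 • ord v t := by
  have h1 : 0 < ord v x := (ord_pos_iff v hx0).mpr n.2
  have h2 : ord v x < ord v t := (ord_lt_ord_iff v hx0 ht0).mpr n.1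
  unfold cval
  split_ifs <;> constructor <;> grind

/-- On a line `y = ℓ x + μ` with small slope, the branch of a node point is read off from
`ord μ`. -/
lemma branch_of_line (hc : y * (y + x) = x * (x ^ 2 + t)) (hl : y = ℓ * x + μ)
    (n : v t < v x ∧ v x < 1) (hℓ : v ℓ < 1) (hμ : μ ≠ 0) (hx0 : x ≠ 0) :
    (ord v x < ord v μ ∧ cval A t x y = ord v x) ∨
      (ord v x = ord v μ ∧ cval A t x y = 2 • ord v t - ord v x) := by
  have hxpos : 0 < v x := lt_of_le_of_lt zero_le n.1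
  have h1 : v (ℓ * x) < v x := by
    rw [map_mul]
    calc v ℓ * v x < 1 * v x := mul_lt_mul_of_pos_right hℓ hxpos
      _ = v x := one_mul _
  rcases lt_trichotomy (v μ) (v x) with hlt | heq | hgt
  · left
    refine ⟨(ord_lt_ord_iff v hx0 hμ).mpr hlt, ?_⟩
    have : v y < v x := by rw [hl]; exact Valuation.map_add_lt _ h1 hlt
    unfold cval
    rw [if_pos this]
  · right
    refine ⟨(ord_eq_ord_iff v hx0 hμ).mpr heq.symm, ?_⟩
    have : v y = v x := by
      rw [hl, Valuation.map_add_eq_of_lt_right _ (by rw [heq]; exact h1), heq]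
    unfold cval
    rw [if_neg (by rw [this]; exact lt_irrefl _)]
  · exfalso
    have : v y = v μ := by
      rw [hl, Valuation.map_add_eq_of_lt_right _ (h1.trans hgt)]
    rcases node_branch A hc n.1 n.2 with ⟨ha, -⟩ | ⟨-, hb⟩
    · rw [this] at ha; exact lt_asymm ha hgt
    · rw [this] at hb; exact hgt.ne' hb

/-- **Collinear node points, small slope**: the component values add up to `2 ord t`. -/
theorem node_col_core (h : Col t x₁ y₁ x₂ y₂ x₃ y₃ ℓ μ) (ht0 : t ≠ 0)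
    (n₁ : v t < v x₁ ∧ v x₁ < 1) (n₂ : v t < v x₂ ∧ v x₂ < 1) (n₃ : v t < v x₃ ∧ v x₃ < 1)
    (hℓ : v ℓ < 1) :
    cval A t x₁ y₁ + cval A t x₂ y₂ + cval A t x₃ y₃ = 2 • ord v t := by
  have hx1 : x₁ ≠ 0 := fun h0 => by rw [h0, map_zero] at n₁; exact not_lt_zero n₁.1
  have hx2 : x₂ ≠ 0 := fun h0 => by rw [h0, map_zero] at n₂; exact not_lt_zero n₂.1
  have hx3 : x₃ ≠ 0 := fun h0 => by rw [h0, map_zero] at n₃; exact not_lt_zero n₃.1
  have hμ : μ ≠ 0 := by
    intro h0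
    have := h.e₃
    rw [h0] at this
    simp [hx1, hx2, hx3] at this
  have r1 : 0 < ord v x₁ := (ord_pos_iff v hx1).mpr n₁.2
  have r2 : 0 < ord v x₂ := (ord_pos_iff v hx2).mpr n₂.2
  have r3 : 0 < ord v x₃ := (ord_pos_iff v hx3).mpr n₃.2
  have hm : 2 • ord v μ = ord v x₁ + ord v x₂ + ord v x₃ := by
    rw [← ord_pow, ← h.e₃, ord_mul v (mul_ne_zero hx1 hx2) hx3, ord_mul v hx1 hx2]
  have b1 := branch_of_line A h.c₁ h.l₁ n₁ hℓ hμ hx1
  have b2 := branch_of_line A h.c₂ h.l₂ n₂ hℓ hμ hx2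
  have b3 := branch_of_line A h.c₃ h.l₃ n₃ hℓ hμ hx3
  -- if no point is on the second branch then `ord μ = ord t`
  have key : ord v x₁ < ord v μ → ord v x₂ < ord v μ → ord v x₃ < ord v μ →
      ord v μ = ord v t := by
    intro l1 l2 l3
    have hu : v (2 * ℓ + 1) = 1 := by
      have : v (2 * ℓ) < 1 := by
        rw [map_mul]
        calc v 2 * v ℓ ≤ 1 * v ℓ := mul_le_mul' (val_two_le_one A) le_rfl
          _ = v ℓ := one_mul _
          _ < 1 := hℓ
      rw [Valuation.map_add_eq_of_lt_right _ (by rwa [map_one]), map_one]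
    have e12 : v (x₁ * x₂) < v μ := by
      rw [← ord_lt_ord_iff v hμ (mul_ne_zero hx1 hx2), ord_mul v hx1 hx2]
      grind
    have e13 : v (x₁ * x₃) < v μ := by
      rw [← ord_lt_ord_iff v hμ (mul_ne_zero hx1 hx3), ord_mul v hx1 hx3]
      grind
    have e23 : v (x₂ * x₃) < v μ := by
      rw [← ord_lt_ord_iff v hμ (mul_ne_zero hx2 hx3), ord_mul v hx2 hx3]
      grind
    have ht : t = (x₁ * x₂ + x₁ * x₃ + x₂ * x₃) + μ * (2 * ℓ + 1) := by
      linear_combination -h.e₂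
    have hvt : v t = v μ := by
      rw [ht, Valuation.map_add_eq_of_lt_right, map_mul, hu, mul_one]
      rw [map_mul, hu, mul_one]
      exact Valuation.map_add_lt _ (Valuation.map_add_lt _ e12 e13) e23
    exact (ord_eq_ord_iff v hμ ht0).mpr hvt.symm
  grind

end NodeCol

end Fermat.Agent.S13.helper1347

namespace Fermat.Agent.S13.helper1347

variable {K : Type*} [Field K] (A : ValuationSubring K)

local notation "v" => A.valuation

section NodeCol2

variable {t x y x₁ y₁ x₂ y₂ x₃ y₃ ℓ μ : K}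

/-- **Collinear node points**: the component values add up to `2 ord t` or `4 ord t`. -/
theorem node_col (h : Col t x₁ y₁ x₂ y₂ x₃ y₃ ℓ μ) (ht0 : t ≠ 0)
    (n₁ : v t < v x₁ ∧ v x₁ < 1) (n₂ : v t < v x₂ ∧ v x₂ < 1) (n₃ : v t < v x₃ ∧ v x₃ < 1) :
    cval A t x₁ y₁ + cval A t x₂ y₂ + cval A t x₃ y₃ = 2 • ord v t ∨
      cval A t x₁ y₁ + cval A t x₂ y₂ + cval A t x₃ y₃ = 4 • ord v t := by
  have hsum : v (ℓ * (ℓ + 1)) < 1 := by
    have : ℓ * (ℓ + 1) = x₁ + x₂ + x₃ := by linear_combination -h.e₁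
    rw [this]
    exact Valuation.map_add_lt _ (Valuation.map_add_lt _ n₁.2 n₂.2) n₃.2
  by_cases hℓ : v ℓ < 1
  · left
    exact node_col_core A h ht0 n₁ n₂ n₃ hℓ
  · right
    rw [not_lt] at hℓ
    have hℓ' : v (-ℓ - 1) < 1 := by
      have h1 : v (-ℓ - 1) = v (ℓ + 1) := by
        rw [← Valuation.map_neg]; congr 1; ring
      rw [h1]
      by_contra hcon
      rw [not_lt] at hcon
      rw [map_mul] at hsum
      exact absurd hsum (not_lt.mpr (one_le_mul_of_one_le_of_one_le hℓ hcon))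
    have key := node_col_core A h.neg ht0 n₁ n₂ n₃ hℓ'
    rw [cval_neg A h.c₁ n₁, cval_neg A h.c₂ n₂, cval_neg A h.c₃ n₃] at key
    grind

end NodeCol2

section Integrality

variable {t x y x₁ y₁ x₂ y₂ x₃ y₃ ℓ μ : K}

lemma mem_of_val_le_one {a : K} (h : v a ≤ 1) : a ∈ A := (A.valuation_le_one_iff a).mp h

lemma mem_of_val_lt_one {a : K} (h : v a < 1) : a ∈ A := mem_of_val_le_one A h.le

lemma nonunits_of_val_lt_one {a : K} (h : v a < 1) : a ∈ A.nonunits :=
  A.mem_nonunits_iff.mpr h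

lemma nonunits_mul {s a : K} (hs : s ∈ A.nonunits) (ha : a ∈ A) : s * a ∈ A.nonunits := by
  rw [A.mem_nonunits_iff] at hs ⊢
  rw [map_mul]
  calc v s * v a ≤ v s * 1 := mul_le_mul' le_rfl ((A.valuation_le_one_iff a).mpr ha)
    _ = v s := mul_one _
    _ < 1 := hs

lemma one_not_mem_nonunits : (1 : K) ∉ A.nonunits := by
  rw [A.mem_nonunits_iff, map_one]
  exact lt_irrefl _

lemma val_inv_lt_one {a : K} (h : 1 < v a) : v a⁻¹ < 1 := by
  rw [map_inv₀]
  exact inv_lt_one_of_one_lt₀ h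

/-- **The kernel of reduction is closed under addition** (coordinate form). -/
theorem pole_add (h : Col t x₁ y₁ x₂ y₂ x₃ y₃ ℓ μ) (ht : v t < 1)
    (p₁ : 1 < v x₁) (p₂ : 1 < v x₂) : 1 < v x₃ := by
  by_contra hcon
  rw [not_lt] at hcon
  have hx1 : x₁ ≠ 0 := fun h0 => by rw [h0, map_zero] at p₁; exact not_lt_zero p₁
  have hx2 : x₂ ≠ 0 := fun h0 => by rw [h0, map_zero] at p₂; exact not_lt_zero p₂
  obtain ⟨w₁, hw₁, hw1⟩ : ∃ w, x₁ * w = 1 ∧ w ∈ A.nonunits :=
    ⟨x₁⁻¹, mul_inv_cancel₀ hx1, nonunits_of_val_lt_one A (val_inv_lt_one A p₁)⟩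
  obtain ⟨w₂, hw₂, hw2⟩ : ∃ w, x₂ * w = 1 ∧ w ∈ A.nonunits :=
    ⟨x₂⁻¹, mul_inv_cancel₀ hx2, nonunits_of_val_lt_one A (val_inv_lt_one A p₂)⟩
  have hw1' : w₁ ∈ A := A.nonunits_subset hw1
  have hw2' : w₂ ∈ A := A.nonunits_subset hw2
  have ht' : t ∈ A := mem_of_val_lt_one A ht
  have hx3 : x₃ ∈ A := mem_of_val_le_one A hcon
  have ha : -(w₂ - w₁) * x₃ ^ 2 - (2 * (1 + t * w₁ * w₂) + w₂) * x₃ - 2 * t * w₂
      + t ^ 2 * w₁ * w₂ ^ 2 ∈ A := by aesop
  have hb : (w₂ - w₁) * x₃ ^ 2 - 2 * (1 + t * w₁ * w₂) * x₃ ∈ A := by aesop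
  have hS := add_mem (nonunits_mul A hw1 ha) (nonunits_mul A hw2 hb)
  have hq := h.quad
  have key : (1 : K) = -(w₁ * (-(w₂ - w₁) * x₃ ^ 2 - (2 * (1 + t * w₁ * w₂) + w₂) * x₃
      - 2 * t * w₂ + t ^ 2 * w₁ * w₂ ^ 2)
      + w₂ * ((w₂ - w₁) * x₃ ^ 2 - 2 * (1 + t * w₁ * w₂) * x₃)) := by
    have e₁ : w₁ = x₁⁻¹ := eq_inv_of_mul_eq_one_right hw₁
    have e₂ : w₂ = x₂⁻¹ := eq_inv_of_mul_eq_one_right hw₂
    rw [e₁, e₂]
    field_simp
    linear_combination hq
  apply one_not_mem_nonunits A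
  rw [key]
  exact neg_mem hS

end Integrality

end Fermat.Agent.S13.helper1347

namespace Fermat.Agent.S13.helper1347

variable {K : Type*} [Field K] (A : ValuationSubring K)

local notation "v" => A.valuation

section Integrality2

variable {t x y x₁ y₁ x₂ y₂ x₃ y₃ ℓ μ : K}

lemma val_sq_lt_one {a : K} (h : v (a ^ 2) < 1) : v a < 1 := by
  by_contra hcon
  rw [not_lt] at hcon
  rw [map_pow] at h
  exact absurd h (not_lt.mpr (one_le_pow₀ hcon))

lemma val_sq_le_one {a : K} (h : v (a ^ 2) ≤ 1) : v a ≤ 1 := by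
  by_contra hcon
  rw [not_le] at hcon
  rw [map_pow] at h
  exact absurd h (not_le.mpr (one_lt_pow₀ hcon two_ne_zero))

/-- Mixed case of `integral_add`: a pole plus a unit point. -/
lemma integral_add_aux (h : Col t x₁ y₁ x₂ y₂ x₃ y₃ ℓ μ) (ht : v t < 1)
    (p₁ : 1 < v x₁) (p₂ : v x₂ = 1) : 1 ≤ v x₃ := by
  by_contra hcon
  rw [not_le] at hcon
  have hx1pos : 0 < v x₁ := zero_lt_one.trans p₁
  -- `v (ℓ (ℓ + 1)) = v x₁`
  have h1 : v (ℓ * (ℓ + 1)) = v x₁ := by
    have : ℓ * (ℓ + 1) = x₁ + (x₂ + x₃) := by linear_combination -h.e₁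
    rw [this]
    apply Valuation.map_add_eq_of_lt_left
    exact (Valuation.map_add_le _ p₂.le hcon.le).trans_lt p₁
  have hℓ : 1 < v ℓ := by
    by_contra hc
    rw [not_lt] at hc
    have : v (ℓ * (ℓ + 1)) ≤ 1 := by
      rw [map_mul]
      calc v ℓ * v (ℓ + 1) ≤ 1 * 1 :=
            mul_le_mul' hc (Valuation.map_add_le _ hc (by rw [map_one]))
        _ = 1 := one_mul 1
    rw [h1] at this
    exact absurd this (not_le.mpr p₁)
  have h2 : v ℓ * v ℓ = v x₁ := by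
    rw [← h1, map_mul, Valuation.map_add_eq_of_lt_left _ (by rwa [map_one])]
  -- `v μ = v ℓ`
  have hy2 : v y₂ ≤ 1 := y_integral A ht h.c₂ p₂.le
  have h3 : v μ = v ℓ := by
    have : μ = y₂ - ℓ * x₂ := by linear_combination -h.l₂
    rw [this, Valuation.map_sub_eq_of_lt_right, map_mul, p₂, mul_one]
    rw [map_mul, p₂, mul_one]
    exact hy2.trans_lt hℓ
  -- contradiction with `μ² = x₁ x₂ x₃`
  have h4 : v μ * v μ = v x₁ * v x₃ := by
    rw [← map_mul, ← pow_two, ← h.e₃, map_mul, map_mul, p₂, mul_one]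
  rw [h3, h2] at h4
  have : v x₁ * v x₃ < v x₁ * 1 := mul_lt_mul_of_pos_left hcon hx1pos
  rw [mul_one, ← h4] at this
  exact lt_irrefl _ this

/-- **The points with nonsingular reduction are closed under addition** (coordinate form). -/
theorem integral_add (h : Col t x₁ y₁ x₂ y₂ x₃ y₃ ℓ μ) (ht : v t < 1)
    (p₁ : 1 ≤ v x₁) (p₂ : 1 ≤ v x₂) : 1 ≤ v x₃ := by
  rcases p₁.lt_or_eq with q₁ | q₁ <;> rcases p₂.lt_or_eq with q₂ | q₂
  · exact (pole_add A h ht q₁ q₂).le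
  · exact integral_add_aux A h ht q₁ q₂.symm
  · exact integral_add_aux A h.swap₁₂ ht q₂ q₁.symm
  · -- both units
    by_contra hcon
    rw [not_le] at hcon
    have hμ : v μ < 1 := by
      apply val_sq_lt_one A
      rw [← h.e₃, map_mul, map_mul, ← q₁, ← q₂, one_mul, one_mul]
      exact hcon
    have hy1 : v y₁ ≤ 1 := y_integral A ht h.c₁ q₁.ge
    have hℓ : v ℓ ≤ 1 := by
      have h1 : v (ℓ * x₁) ≤ 1 := by
        have : ℓ * x₁ = y₁ - μ := by linear_combination -h.l₁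
        rw [this]
        exact Valuation.map_sub_le _ hy1 hμ.le
      rwa [map_mul, ← q₁, mul_one] at h1
    have hx1 : x₁ ∈ A := mem_of_val_le_one A q₁.ge
    have hx2 : x₂ ∈ A := mem_of_val_le_one A q₂.ge
    have hℓ' : ℓ ∈ A := mem_of_val_le_one A hℓ
    have hμ' := nonunits_of_val_lt_one A hμ
    have ht' := nonunits_of_val_lt_one A ht
    have hx3 := nonunits_of_val_lt_one A hcon
    have h2 : (2 : K) ∈ A := ofNat_mem A 2
    have key : x₁ * x₂ = t - μ * (2 * ℓ + 1) - x₃ * (x₁ + x₂) := by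
      linear_combination h.e₂
    have hsmall : x₁ * x₂ ∈ A.nonunits := by
      rw [key]
      exact sub_mem (sub_mem ht' (nonunits_mul A hμ' (by aesop))) (nonunits_mul A hx3 (by aesop))
    rw [A.mem_nonunits_iff, map_mul, ← q₁, ← q₂, one_mul] at hsmall
    exact lt_irrefl _ hsmall

/-- **Points with the same nonsingular reduction differ by an element of the kernel of
reduction** (coordinate form).  The three collinear points are `P₁ = (x₁, y₁)`,
`-P₂ = (x₂, y₂)` and `-(P₁ - P₂) = (x₃, y₃)`; the congruence `P₁ ≡ P₂` reads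
`x₁ ≡ x₂`, `y₁ ≡ -y₂ - x₂`. -/
theorem cong_sub (h : Col t x₁ y₁ x₂ y₂ x₃ y₃ ℓ μ) (ht : v t < 1)
    (u₁ : v x₁ = 1) (u₂ : v x₂ = 1) (hx : v (x₁ - x₂) < 1) (hy : v (y₁ + y₂ + x₂) < 1) :
    1 < v x₃ := by
  by_contra hcon
  rw [not_lt] at hcon
  have hμ : v μ ≤ 1 := by
    apply val_sq_le_one A
    rw [← h.e₃, map_mul, map_mul, u₁, u₂, one_mul, one_mul]
    exact hcon
  have hy1 : v y₁ ≤ 1 := y_integral A ht h.c₁ u₁.le
  have hℓ : v ℓ ≤ 1 := by
    have h1 : v (ℓ * x₁) ≤ 1 := by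
      have : ℓ * x₁ = y₁ - μ := by linear_combination -h.l₁
      rw [this]
      exact Valuation.map_sub_le _ hy1 hμ
    rwa [map_mul, u₁, mul_one] at h1
  have hx1 : x₁ ∈ A := mem_of_val_le_one A u₁.le
  have hx2 : x₂ ∈ A := mem_of_val_le_one A u₂.le
  have hx3 : x₃ ∈ A := mem_of_val_le_one A hcon
  have hℓ' : ℓ ∈ A := mem_of_val_le_one A hℓ
  have hy1' : y₁ ∈ A := mem_of_val_le_one A hy1
  have ht' := nonunits_of_val_lt_one A ht
  have hδ := nonunits_of_val_lt_one A hx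
  have hε := nonunits_of_val_lt_one A hy
  have h2 : (2 : K) ∈ A := ofNat_mem A 2
  -- `s = 2 y₁ + x₁` is small
  have hs : 2 * y₁ + x₁ ∈ A.nonunits := by
    have : 2 * y₁ + x₁ = (y₁ + y₂ + x₂) + (x₁ - x₂) * (ℓ + 1) := by
      linear_combination h.l₁ - h.l₂
    rw [this]
    exact add_mem hε (nonunits_mul A hδ (by aesop))
  -- `4 x₁ + 1` is small
  have unit_cancel : ∀ a : K, x₁ * a ∈ A.nonunits → a ∈ A.nonunits := by
    intro a ha
    rw [A.mem_nonunits_iff] at ha ⊢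
    rwa [map_mul, u₁, one_mul] at ha
  have h4 : 4 * x₁ + 1 ∈ A.nonunits := by
    apply unit_cancel; apply unit_cancel
    have : x₁ * (x₁ * (4 * x₁ + 1)) = (2 * y₁ + x₁) * (2 * y₁ + x₁) - t * (4 * x₁) := by
      linear_combination (-4) * h.c₁
    rw [this]
    exact sub_mem (nonunits_mul A hs (by aesop)) (nonunits_mul A ht' (by aesop))
  -- `y₁ - 3 x₁²` is small
  have h3 : y₁ - 3 * x₁ ^ 2 ∈ A.nonunits := by
    have : y₁ - 3 * x₁ ^ 2 = t - (2 * y₁ + x₁) * ℓ + (x₁ - x₂) * (x₃ - x₁) := by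
      linear_combination (-2 * x₁) * h.e₁ + h.e₂ + (2 * ℓ + 1) * h.l₁
    rw [this]
    exact add_mem (sub_mem ht' (nonunits_mul A hs hℓ')) (nonunits_mul A hδ (by aesop))
  -- `6 x₁ + 1` is small
  have h6 : 6 * x₁ + 1 ∈ A.nonunits := by
    apply unit_cancel
    have : x₁ * (6 * x₁ + 1) = (2 * y₁ + x₁) - (y₁ - 3 * x₁ ^ 2) * 2 := by ring
    rw [this]
    exact sub_mem hs (nonunits_mul A h3 h2)
  apply one_not_mem_nonunits A
  have : (1 : K) = (4 * x₁ + 1) * 3 - (6 * x₁ + 1) * 2 := by ring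
  rw [this]
  exact sub_mem (nonunits_mul A h4 (ofNat_mem A 3)) (nonunits_mul A h6 h2)

end Integrality2

end Fermat.Agent.S13.helper1347
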