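import Mathlib

/-!
# Additive valuations (helper1347, S13)

For a valuation `v : Valuation K Γ₀`, `ord v x : Additive Γ₀ˣ` is the additive valuation of `x`
(junk value `0` at `x = 0`), normalised so that `0 ≤ ord v x ↔ v x ≤ 1`.  The value group
`Additive Γ₀ˣ` is a linearly ordered additive commutative group, in which `grind` decides
linear arithmetic.  (The definition of `ord` and its basic lemmas follow the S05 file
`helper185_AddVal` of the team; they are restated here so that this development only depends on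
Mathlib.)

`gam g : Γ₀` is the element of the value group with zero corresponding to `g`, so that the
"ball" predicate `v x ≤ gam g` is the zero-robust version of `g ≤ ord v x`.
-/

set_option autoImplicit false

namespace Fermat.Agent.S13.helper1347

variable {K : Type*} [Field K] {Γ₀ : Type*} [LinearOrderedCommGroupWithZero Γ₀]

open Classical in
/-- Additive valuation of `x` with values in `Additive Γ₀ˣ` (junk value `0` at `0`).
Convention: `0 ≤ ord v x ↔ v x ≤ 1`. -/
noncomputable def ord (v : Valuation K Γ₀) (x : K) : Additive Γ₀ˣ :=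
  if h : x = 0 then 0 else Additive.ofMul (Units.mk0 (v x) ((Valuation.ne_zero_iff v).2 h))⁻¹

/-- The element of `Γ₀` corresponding to `g`: `v x = gam (ord v x)` for `x ≠ 0`. -/
def gam (g : Additive Γ₀ˣ) : Γ₀ := ((Additive.toMul g)⁻¹ : Γ₀ˣ)

variable (v : Valuation K Γ₀)

@[simp] theorem ord_zero : ord v 0 = 0 := by simp [ord]

theorem ord_of_ne {x : K} (hx : x ≠ 0) :
    ord v x = Additive.ofMul (Units.mk0 (v x) ((Valuation.ne_zero_iff v).2 hx))⁻¹ := by
  simp [ord, hx]

theorem gam_ord {x : K} (hx : x ≠ 0) : gam (ord v x) = v x := by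
  rw [ord_of_ne v hx]
  simp [gam]

theorem gam_pos (g : Additive Γ₀ˣ) : 0 < gam g := by
  unfold gam
  exact Units.zero_lt _

theorem gam_ne_zero (g : Additive Γ₀ˣ) : gam g ≠ 0 := (gam_pos g).ne'

@[simp] theorem gam_zero : gam (0 : Additive Γ₀ˣ) = 1 := by
  simp [gam]

theorem gam_add (g h : Additive Γ₀ˣ) : gam (g + h) = gam g * gam h := by
  simp [gam, mul_comm]

theorem gam_le_gam_iff {g h : Additive Γ₀ˣ} : gam g ≤ gam h ↔ h ≤ g := by
  unfold gam
  rw [Units.val_le_val, inv_le_inv_iff]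
  rfl

theorem gam_lt_gam_iff {g h : Additive Γ₀ˣ} : gam g < gam h ↔ h < g := by
  rw [← not_le, ← not_le, gam_le_gam_iff]

@[simp] theorem ord_one : ord v 1 = 0 := by
  rw [ord_of_ne v one_ne_zero]
  simp

theorem ord_mul {x y : K} (hx : x ≠ 0) (hy : y ≠ 0) : ord v (x * y) = ord v x + ord v y := by
  rw [ord_of_ne v hx, ord_of_ne v hy, ord_of_ne v (mul_ne_zero hx hy), ← ofMul_mul]
  congr 1
  ext
  simp [mul_comm]

@[simp] theorem ord_neg (x : K) : ord v (-x) = ord v x := by
  by_cases hx : x = 0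
  · simp [hx]
  · rw [ord_of_ne v hx, ord_of_ne v (neg_ne_zero.2 hx)]
    congr 2
    ext
    simp

theorem ord_inv (x : K) : ord v x⁻¹ = -ord v x := by
  by_cases hx : x = 0
  · simp [hx]
  · have h := ord_mul v hx (inv_ne_zero hx)
    rw [mul_inv_cancel₀ hx, ord_one] at h
    exact eq_neg_of_add_eq_zero_right h.symm

theorem ord_div {x y : K} (hx : x ≠ 0) (hy : y ≠ 0) : ord v (x / y) = ord v x - ord v y := by
  rw [div_eq_mul_inv, ord_mul v hx (inv_ne_zero hy), ord_inv, sub_eq_add_neg]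

theorem ord_pow (x : K) (n : ℕ) : ord v (x ^ n) = n • ord v x := by
  by_cases hx : x = 0
  · subst hx
    rcases Nat.eq_zero_or_pos n with rfl | hn
    · simp
    · simp [zero_pow hn.ne']
  · induction n with
    | zero => simp
    | succ n ih => rw [pow_succ, ord_mul v (pow_ne_zero n hx) hx, ih, succ_nsmul]

theorem ord_sq (x : K) : ord v (x ^ 2) = ord v x + ord v x := by
  rw [ord_pow, two_nsmul]

/-- Order comparison: larger `ord` means smaller valuation. -/
theorem ord_le_ord_iff {x y : K} (hx : x ≠ 0) (hy : y ≠ 0) : ord v x ≤ ord v y ↔ v y ≤ v x := by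
  rw [← gam_ord v hx, ← gam_ord v hy, gam_le_gam_iff]

theorem ord_lt_ord_iff {x y : K} (hx : x ≠ 0) (hy : y ≠ 0) : ord v x < ord v y ↔ v y < v x := by
  rw [← not_le, ← not_le, ord_le_ord_iff v hy hx]

theorem ord_eq_ord_iff {x y : K} (hx : x ≠ 0) (hy : y ≠ 0) : ord v x = ord v y ↔ v x = v y := by
  rw [le_antisymm_iff, le_antisymm_iff, ord_le_ord_iff v hx hy, ord_le_ord_iff v hy hx, and_comm]

theorem le_ord_iff {g : Additive Γ₀ˣ} {x : K} (hx : x ≠ 0) : g ≤ ord v x ↔ v x ≤ gam g := by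
  rw [← gam_ord v hx, gam_le_gam_iff]

theorem lt_ord_iff {g : Additive Γ₀ˣ} {x : K} (hx : x ≠ 0) : g < ord v x ↔ v x < gam g := by
  rw [← gam_ord v hx, gam_lt_gam_iff]

theorem ord_le_iff {g : Additive Γ₀ˣ} {x : K} (hx : x ≠ 0) : ord v x ≤ g ↔ gam g ≤ v x := by
  rw [← gam_ord v hx, gam_le_gam_iff]

theorem ord_lt_iff {g : Additive Γ₀ˣ} {x : K} (hx : x ≠ 0) : ord v x < g ↔ gam g < v x := by
  rw [← gam_ord v hx, gam_lt_gam_iff]

theorem ord_nonneg_iff {x : K} (hx : x ≠ 0) : 0 ≤ ord v x ↔ v x ≤ 1 := by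
  rw [le_ord_iff v hx, gam_zero]

theorem ord_pos_iff {x : K} (hx : x ≠ 0) : 0 < ord v x ↔ v x < 1 := by
  rw [lt_ord_iff v hx, gam_zero]

theorem ord_nonpos_iff {x : K} (hx : x ≠ 0) : ord v x ≤ 0 ↔ 1 ≤ v x := by
  rw [ord_le_iff v hx, gam_zero]

theorem ord_neg_iff {x : K} (hx : x ≠ 0) : ord v x < 0 ↔ 1 < v x := by
  rw [ord_lt_iff v hx, gam_zero]

theorem ord_eq_zero_iff {x : K} (hx : x ≠ 0) : ord v x = 0 ↔ v x = 1 := by
  have := ord_eq_ord_iff v hx (one_ne_zero (α := K))
  simpa using this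

/-- Ball form of the ultrametric inequality. -/
theorem val_add_le_gam {g : Additive Γ₀ˣ} {x y : K} (hx : v x ≤ gam g) (hy : v y ≤ gam g) :
    v (x + y) ≤ gam g :=
  (v.map_add x y).trans (max_le hx hy)

theorem val_add_lt_gam {g : Additive Γ₀ˣ} {x y : K} (hx : v x < gam g) (hy : v y < gam g) :
    v (x + y) < gam g :=
  v.map_add_lt hx hy

theorem val_sub_le_gam {g : Additive Γ₀ˣ} {x y : K} (hx : v x ≤ gam g) (hy : v y ≤ gam g) :
    v (x - y) ≤ gam g := by
  rw [sub_eq_add_neg]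
  exact val_add_le_gam v hx (by rwa [Valuation.map_neg])

theorem val_sub_lt_gam {g : Additive Γ₀ˣ} {x y : K} (hx : v x < gam g) (hy : v y < gam g) :
    v (x - y) < gam g := by
  rw [sub_eq_add_neg]
  exact val_add_lt_gam v hx (by rwa [Valuation.map_neg])

theorem val_mul_le_gam {g h : Additive Γ₀ˣ} {x y : K} (hx : v x ≤ gam g) (hy : v y ≤ gam h) :
    v (x * y) ≤ gam (g + h) := by
  rw [map_mul, gam_add]
  exact mul_le_mul' hx hy

/-- Ultrametric inequality for `ord`. -/
theorem min_le_ord_add {x y : K} (hx : x ≠ 0) (hy : y ≠ 0) (hxy : x + y ≠ 0) :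
    min (ord v x) (ord v y) ≤ ord v (x + y) := by
  rcases le_total (v x) (v y) with h | h
  · have h1 : v (x + y) ≤ v y := (v.map_add x y).trans (max_le h le_rfl)
    exact (min_le_right _ _).trans ((ord_le_ord_iff v hy hxy).2 h1)
  · have h1 : v (x + y) ≤ v x := (v.map_add x y).trans (max_le le_rfl h)
    exact (min_le_left _ _).trans ((ord_le_ord_iff v hx hxy).2 h1)

theorem min_le_ord_sub {x y : K} (hx : x ≠ 0) (hy : y ≠ 0) (hxy : x - y ≠ 0) :
    min (ord v x) (ord v y) ≤ ord v (x - y) := by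
  have := min_le_ord_add v hx (neg_ne_zero.2 hy) (by rwa [← sub_eq_add_neg])
  rwa [ord_neg, ← sub_eq_add_neg] at this

/-- Strict ultrametric equality: the term of smaller `ord` dominates. -/
theorem ord_add_eq_left {x y : K} (hx : x ≠ 0) (hy : y ≠ 0) (h : ord v x < ord v y) :
    x + y ≠ 0 ∧ ord v (x + y) = ord v x := by
  have hlt : v y < v x := (ord_lt_ord_iff v hx hy).1 h
  have hv : v (x + y) = v x := Valuation.map_add_eq_of_lt_left v hlt
  have hxy : x + y ≠ 0 := by
    intro h0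
    rw [h0, map_zero] at hv
    exact hx ((map_eq_zero v).1 hv.symm)
  exact ⟨hxy, (ord_eq_ord_iff v hxy hx).2 hv⟩

theorem ord_add_eq_right {x y : K} (hx : x ≠ 0) (hy : y ≠ 0) (h : ord v y < ord v x) :
    x + y ≠ 0 ∧ ord v (x + y) = ord v y := by
  rw [add_comm]; exact ord_add_eq_left v hy hx h

theorem ord_sub_eq_left {x y : K} (hx : x ≠ 0) (hy : y ≠ 0) (h : ord v x < ord v y) :
    x - y ≠ 0 ∧ ord v (x - y) = ord v x := by
  rw [sub_eq_add_neg]
  exact ord_add_eq_left v hx (neg_ne_zero.2 hy) (by rwa [ord_neg])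

theorem ord_sub_eq_right {x y : K} (hx : x ≠ 0) (hy : y ≠ 0) (h : ord v y < ord v x) :
    x - y ≠ 0 ∧ ord v (x - y) = ord v y := by
  have := ord_add_eq_right v hx (neg_ne_zero.2 hy) (by rwa [ord_neg])
  rwa [ord_neg, ← sub_eq_add_neg] at this

end Fermat.Agent.S13.helper1347
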