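import Fermat.Agent.S13.helper3073_AtPFrey
import Fermat.Agent.Lib.helper1080_Ladder

/-!
# S13, ingredient I5 (`at_p`): the division-polynomial input for the Frey curve (helper6013)

`divPolyStmt_frey` discharges the one remaining hypothesis `DivPolyStmt P.freyCurve P.p` of
`helper3073.at_p_of_divPoly`: the odd division polynomial `psiOdd` (helper1080 ladder) of the
integral Frey model `P.freyCurveInt`, mapped to `ℚ̄`, has integer coefficients, top coefficient
`-p`, and vanishes at the `x`-coordinate of every affine point killed by `p`.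

`at_p` is the resulting hypothesis-free field `at_p` of the S13 skeletons (with the exact count
`Nat.card E[p] = p ^ 2` as a hypothesis, as in `helper613.WeakIngredients` /
`helper8682.Inputs`).
-/

set_option autoImplicit false
open WeierstrassCurve WeierstrassCurve.Affine WeierstrassCurve.Affine.Point

namespace Fermat.Agent.S13.helper6013

noncomputable section

open Polynomial Fermat.Agent.Lib.helper1080

/-- `a ^ p ≡ 3 mod 4`, hence `4 ∣ b ^ p - 1 - a ^ p`. -/
theorem four_dvd_a2_num (P : FreyPackage) : (4 : ℤ) ∣ P.b ^ P.p - 1 - P.a ^ P.p := by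
  have hb : (2 : ℤ) ∣ P.b := (ZMod.intCast_zmod_eq_zero_iff_dvd P.b 2).1 P.hb2
  have hp5 := P.hp5
  have hb4 : (4 : ℤ) ∣ P.b ^ P.p := by
    have h1 : (2 : ℤ) ^ 2 ∣ P.b ^ 2 := pow_dvd_pow_of_dvd hb 2
    have h2 : P.b ^ 2 ∣ P.b ^ P.p := pow_dvd_pow _ (by omega)
    exact (by norm_num : (4 : ℤ) = 2 ^ 2) ▸ h1.trans h2
  have ha : ((P.a ^ P.p : ℤ) : ZMod 4) = 3 := by
    push_cast
    rw [P.ha4]
    have h3 : (3 : ZMod 4) = -1 := by decide
    rw [h3, P.hp_odd.neg_one_pow]
  have h14 : (4 : ℤ) ∣ 1 + P.a ^ P.p := by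
    have h4 : ((4 : ℕ) : ℤ) ∣ 1 + P.a ^ P.p := by
      rw [← ZMod.intCast_zmod_eq_zero_iff_dvd]
      push_cast
      push_cast at ha
      rw [ha]
      decide
    exact_mod_cast h4
  have : P.b ^ P.p - 1 - P.a ^ P.p = P.b ^ P.p - (1 + P.a ^ P.p) := by ring
  rw [this]
  exact dvd_sub hb4 h14

/-- `16 ∣ b ^ p`, hence `16 ∣ -(a ^ p) * b ^ p`. -/
theorem sixteen_dvd_a4_num (P : FreyPackage) : (16 : ℤ) ∣ -(P.a ^ P.p) * (P.b ^ P.p) := by
  have hb : (2 : ℤ) ∣ P.b := (ZMod.intCast_zmod_eq_zero_iff_dvd P.b 2).1 P.hb2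
  have hp5 := P.hp5
  have h1 : (2 : ℤ) ^ 4 ∣ P.b ^ 4 := pow_dvd_pow_of_dvd hb 4
  have h2 : P.b ^ 4 ∣ P.b ^ P.p := pow_dvd_pow _ (by omega)
  exact Dvd.dvd.mul_left ((by norm_num : (16 : ℤ) = 2 ^ 4) ▸ h1.trans h2) _

/-- The integral Frey curve base-changes to the rational Frey curve. -/
theorem freyCurveInt_map (P : FreyPackage) :
    P.freyCurveInt.map (Int.castRingHom ℚ) = P.freyCurve := by
  have h4 := four_dvd_a2_num P
  have h16 := sixteen_dvd_a4_num P
  ext
  · simp [FreyPackage.freyCurveInt, FreyPackage.freyCurve]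
  · simp only [FreyPackage.freyCurveInt, FreyPackage.freyCurve, WeierstrassCurve.map_a₂,
      eq_intCast]
    rw [Int.cast_div h4 (by norm_num)]
    push_cast
    ring
  · simp [FreyPackage.freyCurveInt, FreyPackage.freyCurve]
  · simp only [FreyPackage.freyCurveInt, FreyPackage.freyCurve, WeierstrassCurve.map_a₄,
      eq_intCast]
    rw [Int.cast_div h16 (by norm_num)]
    push_cast
    ring
  · simp [FreyPackage.freyCurveInt, FreyPackage.freyCurve]

/-- The `p`-th division polynomial of the Frey curve over `ℚ̄`, with integer coefficients. -/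
def freyPsi (P : FreyPackage) : Polynomial (AlgebraicClosure ℚ) :=
  ((psiOdd P.freyCurveInt ((P.p - 1) / 2)).map (Int.castRingHom ℚ)).map
    (algebraMap ℚ (AlgebraicClosure ℚ))

theorem freyPsi_eq (P : FreyPackage) :
    freyPsi P = psiOdd (P.freyCurve.map (algebraMap ℚ (AlgebraicClosure ℚ))) ((P.p - 1) / 2) := by
  rw [freyPsi, psiOdd_map, psiOdd_map, freyCurveInt_map]

theorem freyPsi_coeff (P : FreyPackage) (i : ℕ) :
    (freyPsi P).coeff i =
      (((psiOdd P.freyCurveInt ((P.p - 1) / 2)).coeff i : ℤ) : AlgebraicClosure ℚ) := by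
  rw [freyPsi, coeff_map, coeff_map]
  simp

theorem two_mul_half_add_one (P : FreyPackage) : 2 * ((P.p - 1) / 2) + 1 = P.p := by
  have h5 := P.hp5
  obtain ⟨k, hk⟩ := P.hp_odd
  omega

theorem freyPsi_natDegree_le (P : FreyPackage) :
    (freyPsi P).natDegree ≤ 2 * ((P.p - 1) / 2) ^ 2 + 2 * ((P.p - 1) / 2) := by
  rw [freyPsi_eq]
  exact natDegree_psiOdd_le _ _

theorem freyPsi_coeff_top (P : FreyPackage) :
    (freyPsi P).coeff (2 * ((P.p - 1) / 2) ^ 2 + 2 * ((P.p - 1) / 2)) =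
      -((P.p : ℕ) : AlgebraicClosure ℚ) := by
  rw [freyPsi_eq, coeff_psiOdd]
  have h := two_mul_half_add_one P
  have h' : ((P.p : ℕ) : AlgebraicClosure ℚ) = 2 * (((P.p - 1) / 2 : ℕ) : AlgebraicClosure ℚ) + 1 := by
    conv_lhs => rw [← h]
    push_cast
    ring
  rw [h']

theorem freyPsi_leadingCoeff (P : FreyPackage) :
    (freyPsi P).leadingCoeff = -((P.p : ℕ) : AlgebraicClosure ℚ) := by
  have hp0 : -((P.p : ℕ) : AlgebraicClosure ℚ) ≠ 0 := by
    rw [neg_ne_zero]
    exact Nat.cast_ne_zero.mpr P.pp.ne_zero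
  have hc := freyPsi_coeff_top P
  have hdeg : (freyPsi P).natDegree = 2 * ((P.p - 1) / 2) ^ 2 + 2 * ((P.p - 1) / 2) :=
    natDegree_eq_of_le_of_coeff_ne_zero (freyPsi_natDegree_le P) (by rw [hc]; exact hp0)
  rw [leadingCoeff, hdeg, hc]

/-- **The division polynomial input for the Frey curve.** -/
theorem divPolyStmt_frey (P : FreyPackage) :
    Fermat.Agent.S13.helper3073.DivPolyStmt P.freyCurve P.p := by
  intro A _
  refine ⟨freyPsi P, fun i => ?_, ?_, fun x y h hp => ?_⟩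
  · rw [freyPsi_coeff]
    exact (ValuationSubring.valuation_le_one_iff A _).mpr (intCast_mem A _)
  · rw [freyPsi_leadingCoeff, Valuation.map_neg]
  · rw [freyPsi_eq]
    have h2 := two_mul_half_add_one P
    rw [← h2] at hp
    exact (odd_nsmul_eq_zero_iff _ h ((P.p - 1) / 2)).mp hp

/-- **Field `at_p`** of the S13 skeletons (`helper613.WeakIngredients.at_p` /
`helper8682.Inputs.at_p`), hypothesis-free. -/
theorem at_p (P : FreyPackage) :
    Nat.card (Submodule.torsionBy ℤ ((P.freyCurve)⁄(AlgebraicClosure ℚ)).Point P.p) = P.p ^ 2 →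
    ∀ N : Submodule (ZMod P.p)
        (Submodule.torsionBy ℤ ((P.freyCurve)⁄(AlgebraicClosure ℚ)).Point P.p),
      IsGaloisStable ℚ N → N ≠ ⊥ → N ≠ ⊤ →
      (∀ A : ValuationSubring (AlgebraicClosure ℚ), A.LiesOverPrime P.p →
        ∀ σ ∈ A.inertiaSubgroupIn ℚ, ∀ x ∈ N, σ • x = x) ∨
      (∀ A : ValuationSubring (AlgebraicClosure ℚ), A.LiesOverPrime P.p →
        ∀ σ ∈ A.inertiaSubgroupIn ℚ,
          ∀ x : Submodule.torsionBy ℤ ((P.freyCurve)⁄(AlgebraicClosure ℚ)).Point P.p,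
            σ • x - x ∈ N) :=
  Fermat.Agent.S13.helper3073.at_p_of_divPoly P (divPolyStmt_frey P)

end

end Fermat.Agent.S13.helper6013
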