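import Fermat.Agent.S05
import Fermat.Agent.S13.helper613_Skeleton
import Fermat.Agent.S13.helper613_TorsionCount
import Fermat.Agent.S13.helper6013_DivPoly
import Fermat.Agent.Lib.helper2053_MinkowskiInertia
import Fermat.Agent.Lib.helper651_OpenStab
import Fermat.Agent.Lib.helper822_TorsionFinite

/-!
# S13 from its two remaining leaves (captain helper13)

All fields of `helper613.WeakIngredients` except the two `2`-adic ones are on main and are
plugged in here:

* `nontrivial`, `card_le` : `helper613.frey_nontrivial`, `helper613.frey_card_le`;
* `finite`                : `Lib.helper822.finite_torsionBy`;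
* `unram_odd`             : `Fermat.Agent.S05.result`;
* `at_p`                  : `helper6013.at_p`;
* `minkowski`             : `Lib.helper2053.minkowski_inertia`;
* `open_stab`             : `Lib.helper651.frey_open_stab`.

What remains is exactly `UnipTwo P` (inertia at `2` acts unipotently on `E[p]`) and
`NoFixed P` (no nonzero Galois-fixed point of `E[p]`).
-/

set_option autoImplicit false
open WeierstrassCurve WeierstrassCurve.Affine WeierstrassCurve.Affine.Point
open FreyPackage

namespace Fermat.Agent.S13.helper13

open Fermat.Agent.S13.helper613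

/-- Leaf I3: inertia at `2` acts unipotently on the `p`-torsion of the Frey curve. -/
def UnipTwo (P : FreyPackage) : Prop :=
  ∀ A : ValuationSubring (AlgebraicClosure ℚ), A.LiesOverPrime 2 →
    ∀ σ ∈ A.inertiaSubgroupIn ℚ, ∀ x : Vp P, σ • (σ • x - x) = σ • x - x

/-- Leaf I4: the `p`-torsion of the Frey curve has no nonzero Galois-fixed point. -/
def NoFixed (P : FreyPackage) : Prop :=
  ∀ x : Vp P, (∀ σ : GQ, σ • x = x) → x = 0

/-- All ingredients of the skeleton from the two leaves. -/
theorem weakIngredients_of_two (P : FreyPackage) (hU : UnipTwo P) (hF : NoFixed P) :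
    WeakIngredients P where
  nontrivial := frey_nontrivial P
  finite := Fermat.Agent.Lib.helper822.finite_torsionBy _ P.p P.pp.ne_zero
  card_le := frey_card_le P
  unram_odd := fun _ hq hq2 hqp => Fermat.Agent.S05.result P hq hq2 hqp
  unip_two := hU
  no_fixed := hF
  at_p := Fermat.Agent.S13.helper6013.at_p P
  minkowski := Fermat.Agent.Lib.helper2053.minkowski_inertia
  open_stab := Fermat.Agent.Lib.helper651.frey_open_stab P

/-- **S13 from the two `2`-adic leaves.** -/
theorem s13_of_two (P : FreyPackage) (hU : UnipTwo P) (hF : NoFixed P)
    (hred : ¬ GaloisRepIsIrreducible (K := AlgebraicClosure ℚ) ℚ P.freyCurve P.p) :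
    HasGaloisStableCofixedLine (K := AlgebraicClosure ℚ) ℚ P.freyCurve P.p :=
  cofixedLine_of_weakIngredients P (weakIngredients_of_two P hU hF) hred

end Fermat.Agent.S13.helper13
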