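/-
Kernel of reduction in `b`-form for an ARBITRARY valuation (no hypothesis on `v 2`,
general `a₁ … a₆`, only the `b`-invariants are required to be integral):

* `ker_zeta_nsmul`: if `S = (x, y)` has `1 < v x` and `S, 2S, …, nS ≠ 0`, then
  `mS = (x_m, y_m)` with `1 < v x_m` and `1/x_m ≡ m² · (1/x)  mod (1/x)²` for `1 ≤ m ≤ n`;
* `ker_bform`: such an `S` is not killed by an odd prime `p` with `v p = 1`.

Only the x-only identities of `helper1745_XOnly` are used.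
-/
import Mathlib.RingTheory.Valuation.Basic
import Fermat.Agent.S05.helper1745_XOnly

set_option autoImplicit false

namespace Fermat.Agent.S13.helper149

open WeierstrassCurve WeierstrassCurve.Affine

section Field

variable {K : Type*} [Field K] {Γ₀ : Type*} [LinearOrderedCommGroupWithZero Γ₀]
variable (v : Valuation K Γ₀)

theorem val_natCast_le_one (n : ℕ) : v (n : K) ≤ 1 := by
  induction n with
  | zero => simp
  | succ n ih =>
    rw [Nat.cast_succ]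
    exact v.map_add_le ih (le_of_eq v.map_one)

theorem val_ofNat_le_one (n : ℕ) [n.AtLeastTwo] : v (OfNat.ofNat n : K) ≤ 1 := by
  rw [← Nat.cast_ofNat]
  exact val_natCast_le_one v _

variable {v}

theorem int_add {a b : K} (ha : v a ≤ 1) (hb : v b ≤ 1) : v (a + b) ≤ 1 := v.map_add_le ha hb

theorem int_sub {a b : K} (ha : v a ≤ 1) (hb : v b ≤ 1) : v (a - b) ≤ 1 := v.map_sub_le ha hb

theorem int_mul {a b : K} (ha : v a ≤ 1) (hb : v b ≤ 1) : v (a * b) ≤ 1 := by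
  rw [v.map_mul]
  exact mul_le_one' ha hb

theorem int_pow {a : K} (ha : v a ≤ 1) (n : ℕ) : v (a ^ n) ≤ 1 := by
  rw [v.map_pow]
  exact pow_le_one' ha n

theorem val_sq_le_self {a : K} (ha : v a ≤ 1) : v a ^ 2 ≤ v a := by
  rw [pow_two]
  exact mul_le_of_le_one_right' ha

/-- Field-level duplication estimate in the kernel of reduction. -/
theorem ker_dbl_field {b₂ b₄ b₆ b₈ x X : K} (hb₂ : v b₂ ≤ 1) (hb₄ : v b₄ ≤ 1) (hb₆ : v b₆ ≤ 1)
    (hb₈ : v b₈ ≤ 1) (hx : 1 < v x)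
    (h : X * (4 * x ^ 3 + b₂ * x ^ 2 + 2 * b₄ * x + b₆) =
      x ^ 4 - b₄ * x ^ 2 - 2 * b₆ * x - b₈) :
    X ≠ 0 ∧ v (X⁻¹ - 4 * x⁻¹) ≤ v x⁻¹ ^ 2 := by
  have hx0 : x ≠ 0 := by
    rintro rfl
    simp at hx
  set z : K := x⁻¹ with hz
  have hz0 : z ≠ 0 := inv_ne_zero hx0
  have hvz : v z < 1 := (v.one_lt_val_iff hx0).mp hx
  have hvz' : v z ≤ 1 := hvz.le
  have hxz : x = z⁻¹ := by rw [hz, inv_inv]
  have h2 : v (2 : K) ≤ 1 := val_ofNat_le_one v 2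
  have h4 : v (4 : K) ≤ 1 := val_ofNat_le_one v 4
  have h6 : v (6 : K) ≤ 1 := val_ofNat_le_one v 6
  have h9 : v (9 : K) ≤ 1 := val_ofNat_le_one v 9
  -- the denominator
  set D : K := 1 - b₄ * z ^ 2 - 2 * b₆ * z ^ 3 - b₈ * z ^ 4 with hD
  have hD1 : v D = 1 := by
    have e : D = 1 - z * (b₄ * z + 2 * b₆ * z ^ 2 + b₈ * z ^ 3) := by rw [hD]; ring
    rw [e]
    apply v.map_one_sub_of_lt
    rw [v.map_mul]
    have : v (b₄ * z + 2 * b₆ * z ^ 2 + b₈ * z ^ 3) ≤ 1 := by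
      apply_rules [int_add, int_mul, int_pow]
    calc v z * v (b₄ * z + 2 * b₆ * z ^ 2 + b₈ * z ^ 3) ≤ v z * 1 := by gcongr
      _ < 1 := by rwa [mul_one]
  have hD0 : D ≠ 0 := by
    intro h0
    rw [h0, map_zero] at hD1
    exact zero_ne_one hD1
  have key : X * (z * (4 + b₂ * z + 2 * b₄ * z ^ 2 + b₆ * z ^ 3)) = D := by
    rw [hxz] at h
    rw [hD]
    field_simp at h
    linear_combination h
  have hX0 : X ≠ 0 := by
    rintro rfl
    rw [zero_mul] at key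
    exact hD0 key.symm
  refine ⟨hX0, ?_⟩
  have hXinv : X⁻¹ = z * (4 + b₂ * z + 2 * b₄ * z ^ 2 + b₆ * z ^ 3) / D := by
    rw [eq_div_iff hD0, ← key]
    field_simp
  have e : X⁻¹ - 4 * z = z ^ 2 * (b₂ + 6 * b₄ * z + 9 * b₆ * z ^ 2 + 4 * b₈ * z ^ 3) / D := by
    rw [hXinv, eq_div_iff hD0, sub_mul, div_mul_cancel₀ _ hD0, hD]
    ring
  rw [e, map_div₀, hD1, div_one, v.map_mul, v.map_pow]
  have : v (b₂ + 6 * b₄ * z + 9 * b₆ * z ^ 2 + 4 * b₈ * z ^ 3) ≤ 1 := by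
    apply_rules [int_add, int_mul, int_pow]
  exact mul_le_of_le_one_right' this

/-- Field-level addition estimate in the kernel of reduction. -/
theorem ker_add_field {b₂ b₄ b₆ b₈ x₁ x₂ Xp Xm : K} (hb₂ : v b₂ ≤ 1) (hb₄ : v b₄ ≤ 1)
    (hb₆ : v b₆ ≤ 1) (hb₈ : v b₈ ≤ 1) (hx₁ : 1 < v x₁) (hx₂ : 1 < v x₂)
    (hPi : Xp * Xm * (x₁ - x₂) ^ 2 = x₁ ^ 2 * x₂ ^ 2 - b₄ * x₁ * x₂ - b₆ * (x₁ + x₂) - b₈)
    (hSig : (Xp + Xm) * (x₁ - x₂) ^ 2 =
      2 * x₁ * x₂ * (x₁ + x₂) + b₂ * x₁ * x₂ + b₄ * (x₁ + x₂) + b₆) :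
    Xp ≠ 0 ∧ Xm ≠ 0 ∧ v (Xp⁻¹ + Xm⁻¹ - 2 * (x₁⁻¹ + x₂⁻¹)) ≤ v x₁⁻¹ * v x₂⁻¹ := by
  have hx₁0 : x₁ ≠ 0 := by
    rintro rfl
    simp at hx₁
  have hx₂0 : x₂ ≠ 0 := by
    rintro rfl
    simp at hx₂
  set ζ : K := x₁⁻¹ with hζ
  set z : K := x₂⁻¹ with hz
  have hζ0 : ζ ≠ 0 := inv_ne_zero hx₁0
  have hz0 : z ≠ 0 := inv_ne_zero hx₂0
  have hvζ : v ζ < 1 := (v.one_lt_val_iff hx₁0).mp hx₁
  have hvz : v z < 1 := (v.one_lt_val_iff hx₂0).mp hx₂
  have hvζ' : v ζ ≤ 1 := hvζ.le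
  have hvz' : v z ≤ 1 := hvz.le
  have hx₁z : x₁ = ζ⁻¹ := by rw [hζ, inv_inv]
  have hx₂z : x₂ = z⁻¹ := by rw [hz, inv_inv]
  have h2 : v (2 : K) ≤ 1 := val_ofNat_le_one v 2
  set D : K := 1 - b₄ * ζ * z - b₆ * ζ * z * (ζ + z) - b₈ * ζ ^ 2 * z ^ 2 with hD
  set Nn : K := 2 * (ζ + z) + b₂ * ζ * z + b₄ * ζ * z * (ζ + z) + b₆ * ζ ^ 2 * z ^ 2 with hNn
  have hD1 : v D = 1 := by
    have e : D = 1 - z * (b₄ * ζ + b₆ * ζ * (ζ + z) + b₈ * ζ ^ 2 * z) := by rw [hD]; ring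
    rw [e]
    apply v.map_one_sub_of_lt
    rw [v.map_mul]
    have : v (b₄ * ζ + b₆ * ζ * (ζ + z) + b₈ * ζ ^ 2 * z) ≤ 1 := by
      apply_rules [int_add, int_mul, int_pow]
    calc v z * v (b₄ * ζ + b₆ * ζ * (ζ + z) + b₈ * ζ ^ 2 * z) ≤ v z * 1 := by gcongr
      _ < 1 := by rwa [mul_one]
  have hD0 : D ≠ 0 := by
    intro h0
    rw [h0, map_zero] at hD1
    exact zero_ne_one hD1
  have kPi : Xp * Xm * (z - ζ) ^ 2 = D := by
    rw [hx₁z, hx₂z] at hPi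
    rw [hD]
    field_simp at hPi
    linear_combination hPi
  have kSig : (Xp + Xm) * (z - ζ) ^ 2 = Nn := by
    rw [hx₁z, hx₂z] at hSig
    rw [hNn]
    field_simp at hSig
    linear_combination hSig
  have hXp0 : Xp ≠ 0 := by
    rintro rfl
    rw [zero_mul, zero_mul] at kPi
    exact hD0 kPi.symm
  have hXm0 : Xm ≠ 0 := by
    rintro rfl
    rw [mul_zero, zero_mul] at kPi
    exact hD0 kPi.symm
  have hd0 : z - ζ ≠ 0 := by
    intro h0
    rw [h0] at kPi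
    simp at kPi
    exact hD0 kPi.symm
  refine ⟨hXp0, hXm0, ?_⟩
  have e1 : Xp⁻¹ + Xm⁻¹ = Nn / D := by
    rw [eq_div_iff hD0, ← kPi, ← kSig]
    field_simp
    ring
  have e : Xp⁻¹ + Xm⁻¹ - 2 * (ζ + z) =
      ζ * z * (b₂ + b₄ * (ζ + z) + b₆ * ζ * z +
        2 * (ζ + z) * (b₄ + b₆ * (ζ + z) + b₈ * ζ * z)) / D := by
    rw [e1, eq_div_iff hD0, sub_mul, div_mul_cancel₀ _ hD0, hNn, hD]
    ring
  rw [e, map_div₀, hD1, div_one, v.map_mul, v.map_mul]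
  have : v (b₂ + b₄ * (ζ + z) + b₆ * ζ * z +
      2 * (ζ + z) * (b₄ + b₆ * (ζ + z) + b₈ * ζ * z)) ≤ 1 := by
    apply_rules [int_add, int_mul, int_pow]
  exact mul_le_of_le_one_right' this

end Field

section Point

variable {K : Type*} [Field K] [DecidableEq K] {Γ₀ : Type*} [LinearOrderedCommGroupWithZero Γ₀]
variable (v : Valuation K Γ₀) {W : Affine K}

/-- **Quasi-parallelogram law in the kernel of reduction.**  If `S = (x, y)` has `1 < v x`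
and `m • S ≠ 0` for `1 ≤ m ≤ n`, then for these `m` the point `m • S = (x_m, y_m)` has
`1 < v x_m` and `1/x_m ≡ m² / x` modulo `(1/x)²`. -/
theorem ker_zeta_nsmul (hb₂ : v W.b₂ ≤ 1) (hb₄ : v W.b₄ ≤ 1) (hb₆ : v W.b₆ ≤ 1)
    (hb₈ : v W.b₈ ≤ 1) {x y : K} (h : W.Nonsingular x y) (hx : 1 < v x) (n : ℕ)
    (hn : ∀ m : ℕ, 1 ≤ m → m ≤ n → m • (Point.some x y h : W.Point) ≠ 0) :
    ∀ m : ℕ, 1 ≤ m → m ≤ n → ∃ (xm ym : K) (hm : W.Nonsingular xm ym),
      m • (Point.some x y h : W.Point) = Point.some xm ym hm ∧ 1 < v xm ∧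
        v (xm⁻¹ - (m : K) ^ 2 * x⁻¹) ≤ v x⁻¹ ^ 2 := by
  have hx0 : x ≠ 0 := by
    rintro rfl
    simp at hx
  have hvz : v x⁻¹ < 1 := (v.one_lt_val_iff hx0).mp hx
  have hvz' : v x⁻¹ ≤ 1 := hvz.le
  have hsq : v x⁻¹ ^ 2 ≤ v x⁻¹ := val_sq_le_self hvz'
  -- from the congruence to membership in the kernel
  have hker : ∀ (X : K) (m : ℕ), X ≠ 0 → v (X⁻¹ - (m : K) ^ 2 * x⁻¹) ≤ v x⁻¹ ^ 2 →
      v X⁻¹ ≤ v x⁻¹ := by
    intro X m _ hX
    have e : X⁻¹ = (X⁻¹ - (m : K) ^ 2 * x⁻¹) + (m : K) ^ 2 * x⁻¹ := by ring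
    rw [e]
    refine v.map_add_le (hX.trans hsq) ?_
    rw [v.map_mul]
    exact mul_le_of_le_one_left' (int_pow (val_natCast_le_one v m) 2)
  intro m
  induction m using Nat.strong_induction_on with
  | _ m ih =>
    intro h1 hmn
    rcases m with _ | _ | _ | k
    · omega
    · exact ⟨x, y, h, one_nsmul _, hx, by simp⟩
    · -- duplication
      have hy : y ≠ W.negY x y := by
        intro hy
        apply hn 2 (by omega) hmn
        rw [two_nsmul]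
        exact Point.add_self_of_Y_eq hy
      obtain ⟨X, Y, h', hadd, heq, -⟩ := Fermat.Agent.S05.helper1745.exists_add_self_some h hy
      obtain ⟨hX0, hval⟩ := ker_dbl_field hb₂ hb₄ hb₆ hb₈ hx heq
      have hval' : v (X⁻¹ - ((0 + 1 + 1 : ℕ) : K) ^ 2 * x⁻¹) ≤ v x⁻¹ ^ 2 := by
        have e : ((0 + 1 + 1 : ℕ) : K) ^ 2 = 4 := by push_cast; norm_num
        rw [e]
        exact hval
      refine ⟨X, Y, h', by rw [← hadd]; exact two_nsmul _, ?_, hval'⟩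
      rw [v.one_lt_val_iff hX0]
      exact lt_of_le_of_lt (hker X _ hX0 hval') hvz
    · -- addition step from `k + 2` and `k + 1`
      obtain ⟨x₁, y₁, h₁, e₁, hv₁, hz₁⟩ := ih (k + 2) (by omega) (by omega) (by omega)
      obtain ⟨x₀, y₀, h₀, e₀, hv₀, hz₀⟩ := ih (k + 1) (by omega) (by omega) (by omega)
      have hx₁0 : x₁ ≠ 0 := by
        rintro rfl
        simp at hv₁
      have hxne : x₁ ≠ x := by
        intro hxx
        subst hxx
        rcases Y_eq_of_X_eq h₁.left h.left rfl with hyy | hyy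
        · subst hyy
          apply hn (k + 1) (by omega) (by omega)
          have e2 : (k + 1 + 1) • (Point.some x₁ y₁ h : W.Point) =
              (k + 1) • Point.some x₁ y₁ h + Point.some x₁ y₁ h := succ_nsmul _ _
          rw [e₁] at e2
          exact (add_eq_right.mp e2.symm)
        · subst hyy
          apply hn (k + 3) (by omega) hmn
          have e2 : (k + 2 + 1) • (Point.some x₁ y h : W.Point) =
              (k + 2) • Point.some x₁ y h + Point.some x₁ y h := succ_nsmul _ _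
          rw [e2, e₁]
          have : (Point.some x₁ (W.negY x₁ y) h₁ : W.Point) = -Point.some x₁ y h :=
            (Point.neg_some h).symm
          rw [this, neg_add_cancel]
      obtain ⟨Xp, Yp, Xm, Ym, hp, hm', eadd, esub, hPi, hSig⟩ :=
        Fermat.Agent.S05.helper1745.exists_add_sub_some h₁ h hxne
      have e3 : (k + 2 + 1) • (Point.some x y h : W.Point) = Point.some Xp Yp hp := by
        rw [succ_nsmul, e₁, eadd]
      have e4 : (Point.some Xm Ym hm' : W.Point) = Point.some x₀ y₀ h₀ := by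
        rw [← esub, ← e₁, ← e₀, succ_nsmul (Point.some x y h : W.Point) (k + 1),
          add_sub_cancel_right]
      obtain ⟨rfl, rfl⟩ := Point.some.inj e4
      obtain ⟨hXp0, -, hval⟩ := ker_add_field hb₂ hb₄ hb₆ hb₈ hv₁ hx hPi hSig
      have hζ₁ : v x₁⁻¹ ≤ v x⁻¹ := hker x₁ _ hx₁0 hz₁
      have hfin : v (Xp⁻¹ - ((k + 1 + 1 + 1 : ℕ) : K) ^ 2 * x⁻¹) ≤ v x⁻¹ ^ 2 := by
        have e : Xp⁻¹ - ((k + 1 + 1 + 1 : ℕ) : K) ^ 2 * x⁻¹ =
            (Xp⁻¹ + Xm⁻¹ - 2 * (x₁⁻¹ + x⁻¹)) - (Xm⁻¹ - ((k + 1 : ℕ) : K) ^ 2 * x⁻¹) +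
              2 * (x₁⁻¹ - ((k + 2 : ℕ) : K) ^ 2 * x⁻¹) := by
          push_cast
          ring
        rw [e]
        refine v.map_add_le (v.map_sub_le ?_ hz₀) ?_
        · refine hval.trans ?_
          rw [pow_two]
          gcongr
        · rw [v.map_mul]
          exact (mul_le_of_le_one_left' (val_ofNat_le_one v 2)).trans hz₁
      refine ⟨Xp, Yp, hp, e3, ?_, hfin⟩
      rw [v.one_lt_val_iff hXp0]
      exact lt_of_le_of_lt (hker Xp _ hXp0 hfin) hvz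

/-- **Kernel of reduction, `b`-form, any residue characteristic.**  On a Weierstrass curve
with integral `b`-invariants, a point `(x, y)` with `1 < v x` is not killed by an odd prime
`p` that is a unit (`v p = 1`).  No hypothesis on `v 2`. -/
theorem ker_bform (hb₂ : v W.b₂ ≤ 1) (hb₄ : v W.b₄ ≤ 1) (hb₆ : v W.b₆ ≤ 1)
    (hb₈ : v W.b₈ ≤ 1) {p : ℕ} (hp : p.Prime) (hp2 : p ≠ 2) (hvp : v (p : K) = 1)
    {x y : K} (h : W.Nonsingular x y) (hx : 1 < v x) :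
    p • (Point.some x y h : W.Point) ≠ 0 := by
  intro hp0
  have hx0 : x ≠ 0 := by
    rintro rfl
    simp at hx
  have hvz : v x⁻¹ < 1 := (v.one_lt_val_iff hx0).mp hx
  have hvz0 : v x⁻¹ ≠ 0 := by
    rw [Ne, map_eq_zero]
    exact inv_ne_zero hx0
  obtain ⟨k, hk⟩ := hp.odd_of_ne_two hp2
  have hk1 : 1 ≤ k := by
    have := hp.two_le
    omega
  have hord : addOrderOf (Point.some x y h : W.Point) = p := by
    rcases (Nat.dvd_prime hp).mp (addOrderOf_dvd_of_nsmul_eq_zero hp0) with h1 | h1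
    · rw [AddMonoid.addOrderOf_eq_one_iff] at h1
      exact absurd h1 (Point.some_ne_zero h)
    · exact h1
  have hn : ∀ m : ℕ, 1 ≤ m → m ≤ k + 1 → m • (Point.some x y h : W.Point) ≠ 0 := by
    intro m hm1 hm2 hm0
    have hd := addOrderOf_dvd_of_nsmul_eq_zero hm0
    rw [hord] at hd
    have := Nat.le_of_dvd (by omega) hd
    omega
  obtain ⟨x₀, y₀, h₀, e₀, -, hz₀⟩ :=
    ker_zeta_nsmul v hb₂ hb₄ hb₆ hb₈ h hx (k + 1) hn k hk1 (by omega)
  obtain ⟨x₁, y₁, h₁, e₁, -, hz₁⟩ :=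
    ker_zeta_nsmul v hb₂ hb₄ hb₆ hb₈ h hx (k + 1) hn (k + 1) (by omega) le_rfl
  have hneg : (k + 1) • (Point.some x y h : W.Point) = -(k • Point.some x y h) := by
    apply eq_neg_of_add_eq_zero_left
    rw [← add_nsmul]
    have : k + 1 + k = p := by omega
    rw [this, hp0]
  rw [e₁, e₀, Point.neg_some] at hneg
  obtain ⟨rfl, -⟩ := Point.some.inj hneg
  have key : v ((p : K) * x⁻¹) ≤ v x⁻¹ ^ 2 := by
    have e : (p : K) * x⁻¹ = (x₁⁻¹ - (k : K) ^ 2 * x⁻¹) - (x₁⁻¹ - ((k + 1 : ℕ) : K) ^ 2 * x⁻¹) := by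
      rw [hk]
      push_cast
      ring
    rw [e]
    exact v.map_sub_le hz₀ hz₁
  rw [v.map_mul, hvp, one_mul, pow_two] at key
  have : v x⁻¹ * v x⁻¹ < v x⁻¹ * 1 :=
    mul_lt_mul_of_pos_left hvz (zero_lt_iff.mpr hvz0)
  rw [mul_one] at this
  exact absurd key (not_le.mpr this)

end Point

end Fermat.Agent.S13.helper149
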