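/-
Rational torsion at a prime of multiplicative reduction, 2-adic version (works at `2`):

For `W : y² + a₁xy = x³ + a₂x² + a₄x` over `ℚ` with `ord₂ a₄ = N > 0` and `b₂ = a₁² + 4a₂`
a 2-adic unit, there is no rational point of prime order `p ≥ 5` unless `p ∣ 2N`
(`no_rational_torsion`).

Route (x-coordinates only): kernel of reduction (`ker_bform`), the tropical Kummer-line
data of helper1629's tropical core (minimal generator trick, inlined below) instantiated
with the integer-valued `padicValRat 2`, and the fact that the residue field `𝔽₂` has a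
single unit.
-/
import Mathlib
import Fermat.Agent.S05.helper1745_XOnly
import Fermat.Agent.S13.helper149_KerB

set_option autoImplicit false

namespace Fermat.Agent.S13.helper149

open WeierstrassCurve WeierstrassCurve.Affine

/-! ### Tropical core

Pure ordered-abelian-group combinatorics (first version of helper1629's
`S05/helper1629_Tropical.lean`, inlined here so that this file does not depend on later
revisions of that file).  `Trop p N c` packages what the product formula and the duplication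
formula of the Kummer line say about the orders `c m = ord (ξ (m • T))` of the multiples of a
point `T` of odd prime order `p` on `η² = ξ (ξ² + α ξ + β)` with `ord α = 0`, `ord β = N > 0`,
when no nonzero multiple lies in the kernel of reduction (`0 ≤ c m`).
`Trop.nodeval`: if `0 < c 1` then `c 1 < N` and `p • c 1 ∈ 2 N ℤ` (minimal generator argument).
`Trop.unit_prop`: if `c 1 = 0` then `c j = 0` for all `1 ≤ j ≤ p - 1`. -/

section Tropical

variable {Γ : Type*} [AddCommGroup Γ] [LinearOrder Γ]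

/-- Tropical Kummer-line data for the multiples of a point of prime order `p`. -/
structure Trop (p : ℕ) (N : Γ) (c : ℕ → Γ) : Prop where
  per : ∀ m n : ℕ, p ∣ m + n → c m = c n
  ker : ∀ m : ℕ, ¬ p ∣ m → 0 ≤ c m
  dbl : ∀ m : ℕ, ¬ p ∣ m → ∃ q r : Γ, c (2 * m) + c m + q = 2 • r ∧
      (0 < c m → min (c m) N ≤ q) ∧ (0 < c m → c m ≠ N → q = min (c m) N) ∧
      (c m = 0 → 0 ≤ q) ∧ min (2 • c m) N ≤ r ∧ (2 • c m ≠ N → r = min (2 • c m) N)
  prod : ∀ m n : ℕ, ¬ p ∣ m → ¬ p ∣ n → ¬ p ∣ (m + n) → n ≤ m → ¬ p ∣ (m - n) →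
      ∃ d g : Γ, c (m + n) + c (m - n) + 2 • d = 2 • g ∧
      min (c m) (c n) ≤ d ∧ (c m ≠ c n → d = min (c m) (c n)) ∧
      min (c m + c n) N ≤ g ∧ (c m + c n ≠ N → g = min (c m + c n) N)

namespace Trop

variable {p : ℕ} {N : Γ} {c : ℕ → Γ}

/-- The data of the multiples of `k • T` (for `p ∤ k`). -/
theorem scale (h : Trop p N c) (hp : p.Prime) {k : ℕ} (hk : ¬ p ∣ k) :
    Trop p N (fun m => c (k * m)) := by
  have hmul : ∀ m : ℕ, ¬ p ∣ m → ¬ p ∣ k * m := fun m hm hd =>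
    (hp.dvd_mul.1 hd).elim hk hm
  refine ⟨?_, ?_, ?_, ?_⟩
  · intro m n hmn
    refine h.per _ _ ?_
    rw [← Nat.mul_add]
    exact Dvd.dvd.mul_left hmn k
  · intro m hm
    exact h.ker _ (hmul m hm)
  · intro m hm
    have := h.dbl _ (hmul m hm)
    rw [show 2 * (k * m) = k * (2 * m) by ring] at this
    exact this
  · intro m n hm hn hmn hle hsub
    have := h.prod (k * m) (k * n) (hmul m hm) (hmul n hn)
      (by rw [← Nat.mul_add]; exact hmul _ hmn) (Nat.mul_le_mul_left k hle)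
      (by rw [← Nat.mul_sub]; exact hmul _ hsub)
    rw [← Nat.mul_add, ← Nat.mul_sub] at this
    exact this

/-- `c` only depends on the index modulo `p`. -/
theorem congr_mod (h : Trop p N c) (hp : p.Prime) {m n : ℕ} (hmn : m ≡ n [MOD p]) :
    c m = c n := by
  have h1 : p ∣ m + (p - 1) * m := by
    have : m + (p - 1) * m = p * m := by
      have hp1 : 1 ≤ p := hp.one_lt.le
      calc m + (p - 1) * m = (1 + (p - 1)) * m := by ring
        _ = p * m := by rw [Nat.add_sub_cancel' hp1]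
    rw [this]; exact Dvd.intro _ rfl
  have h2 : p ∣ n + (p - 1) * m := by
    have h3 : n + (p - 1) * m ≡ m + (p - 1) * m [MOD p] := Nat.ModEq.add_right _ hmn.symm
    exact (Nat.modEq_zero_iff_dvd.1 (h3.trans (Nat.modEq_zero_iff_dvd.2 h1)))
  rw [h.per _ _ h1, h.per _ _ h2]

theorem not_dvd_of_mem {p m : ℕ} (h1 : 1 ≤ m) (h2 : m ≤ p - 1) : ¬ p ∣ m :=
  Nat.not_dvd_of_pos_of_lt (by omega) (by omega)

theorem not_dvd_two_mul (hp : p.Prime) (hp2 : p ≠ 2) {m : ℕ} (hm : ¬ p ∣ m) : ¬ p ∣ 2 * m := by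
  intro hd
  rcases hp.dvd_mul.1 hd with h' | h'
  · exact hp2 ((Nat.prime_dvd_prime_iff_eq hp Nat.prime_two).1 h')
  · exact hm h'

variable [IsOrderedAddMonoid Γ]

/-- If `T` itself has order `0`, so do all its nonzero multiples. -/
theorem unit_prop (h : Trop p N c) (hp : p.Prime) (hp2 : p ≠ 2) (hN : 0 < N) (h1 : c 1 = 0) :
    ∀ j : ℕ, 1 ≤ j → j ≤ p - 1 → c j = 0 := by
  have hp3 : 3 ≤ p := by
    have := hp.two_le
    omega
  intro j
  induction j using Nat.strong_induction_on with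
  | _ j ih =>
    intro hj1 hjp
    rcases j with _ | _ | _ | k
    · omega
    · exact h1
    · -- duplication at `1`
      obtain ⟨q, r, e1, -, -, e4, e5, e6⟩ := h.dbl 1 (not_dvd_of_mem le_rfl (by omega))
      have hk := h.ker 2 (not_dvd_of_mem (by omega) hjp)
      simp only [mul_one] at e1
      show c 2 = 0
      grind
    · -- product formula at `(k+2, 1)`
      have i1 := ih (k + 1) (by omega) (by omega) (by omega)
      have i2 := ih (k + 2) (by omega) (by omega) (by omega)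
      obtain ⟨d, g, e1, e2, -, e4, e5⟩ := h.prod (k + 2) 1 (not_dvd_of_mem (by omega) (by omega))
        (not_dvd_of_mem le_rfl (by omega)) (not_dvd_of_mem (by omega) (by omega)) (by omega)
        (not_dvd_of_mem (by omega) (by omega))
      have hk := h.ker (k + 3) (not_dvd_of_mem (by omega) hjp)
      have e1' : c (k + 3) + c (k + 1) + 2 • d = 2 • g := e1
      show c (k + 3) = 0
      grind

/-- There is `j ∈ [1, p-1]` with `k * j ≡ 1 mod p`. -/
theorem exists_inv (hp : p.Prime) {k : ℕ} (hk : ¬ p ∣ k) :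
    ∃ j : ℕ, 1 ≤ j ∧ j ≤ p - 1 ∧ k * j ≡ 1 [MOD p] := by
  have hcop : Nat.Coprime k p := ((Nat.Prime.coprime_iff_not_dvd hp).2 hk).symm
  obtain ⟨m, hmlt, hm⟩ := Nat.exists_mul_mod_eq_one_of_coprime hcop hp.one_lt
  refine ⟨m, ?_, by omega, ?_⟩
  · by_contra hcon
    have h0 : m = 0 := by omega
    rw [h0, Nat.mul_zero, Nat.zero_mod] at hm
    omega
  · show k * m % p = 1 % p
    rw [hm, Nat.mod_eq_of_lt hp.one_lt]

/-- If `T` has positive order, so do all its nonzero multiples. -/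
theorem all_pos (h : Trop p N c) (hp : p.Prime) (hp2 : p ≠ 2) (hN : 0 < N) (h1 : 0 < c 1) :
    ∀ k : ℕ, ¬ p ∣ k → 0 < c k := by
  intro k hk
  by_contra hcon
  have h0 : c k = 0 := le_antisymm (not_lt.1 hcon) (h.ker k hk)
  have hs := h.scale hp hk
  have hu := unit_prop hs hp hp2 hN (by simpa using h0)
  obtain ⟨j, hj1, hj2, hj⟩ := exists_inv hp hk
  have := hu j hj1 hj2
  have e : c (k * j) = c 1 := h.congr_mod hp hj
  simp only [e] at this
  exact absurd this h1.ne'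

/-- No nonzero multiple has order `≥ N` (else its double would have order `≤ 0`). -/
theorem lt_N (h : Trop p N c) (hp : p.Prime) (hp2 : p ≠ 2) (hN : 0 < N)
    (hpos : ∀ m, ¬ p ∣ m → 0 < c m) (m : ℕ) (hm : ¬ p ∣ m) : c m < N := by
  obtain ⟨q, r, e1, e2, e3, -, e5, e6⟩ := h.dbl m hm
  have h2m : 0 < c (2 * m) := hpos _ (not_dvd_two_mul hp hp2 hm)
  have hm0 := hpos m hm
  by_contra hcon
  grind

/-- **Minimal generator analysis.** If all nonzero multiples have positive order and `T`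
has minimal order `θ = c 1` among them, then `p θ = 2 N` and `c m ∈ {m θ, 2 N - m θ}`. -/
theorem main (h : Trop p N c) (hp : p.Prime) (hp2 : p ≠ 2) (hN : 0 < N)
    (hpos : ∀ m, ¬ p ∣ m → 0 < c m) (hmin : ∀ m, ¬ p ∣ m → c 1 ≤ c m) :
    p • c 1 = 2 • N ∧
      ∀ m, 1 ≤ m → m ≤ p - 1 → (c m = m • c 1 ∨ c m = 2 • N - m • c 1) := by
  have hp3 : 3 ≤ p := by
    have := hp.two_le
    omega
  have hlt := h.lt_N hp hp2 hN hpos
  obtain ⟨f, hf⟩ : ∃ f : ℕ → Γ, f = fun m => m • c 1 := ⟨_, rfl⟩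
  have hf0 : f 0 = 0 := by rw [hf]; simp
  have hfs : ∀ m, f (m + 1) = f m + c 1 := by
    intro m; rw [hf]; simp [succ_nsmul]
  have hθ : 0 < c 1 := hpos 1 (not_dvd_of_mem le_rfl (by omega))
  have hθN : c 1 < N := hlt 1 (not_dvd_of_mem le_rfl (by omega))
  have hc2N : c 2 < N := hlt 2 (not_dvd_of_mem (by omega) (by omega))
  have hc2 : 0 < c 2 := hpos 2 (not_dvd_of_mem (by omega) (by omega))
  have hf1 : f 1 = c 1 := by rw [hfs 0, hf0, zero_add]
  have hf2 : f 2 = c 1 + c 1 := by rw [hfs 1, hf1]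
  -- the step at `2`, and `2 θ ≠ N`
  obtain ⟨q, r, e1, e2, e3, -, e5, e6⟩ := h.dbl 1 (not_dvd_of_mem le_rfl (by omega))
  simp only [mul_one] at e1
  have h2θ : 2 • c 1 ≠ N := by
    intro hcon
    grind
  have key : ∀ m, 1 ≤ m → m ≤ p - 1 →
      (f m < N ∧ c m = f m) ∨ (N < f m ∧ c m = 2 • N - f m) := by
    intro m
    induction m using Nat.strong_induction_on with
    | _ m ih =>
      intro hm1 hmp
      rcases m with _ | _ | _ | k
      · omega
      · left; exact ⟨by rw [hf1]; exact hθN, hf1.symm⟩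
      · show (f 2 < N ∧ c 2 = f 2) ∨ (N < f 2 ∧ c 2 = 2 • N - f 2)
        grind
      · have i1 := ih (k + 1) (by omega) (by omega) (by omega)
        have i2 := ih (k + 2) (by omega) (by omega) (by omega)
        obtain ⟨d, g, p1, p2, p3, p4, p5⟩ := h.prod (k + 2) 1
          (not_dvd_of_mem (by omega) (by omega))
          (not_dvd_of_mem le_rfl (by omega)) (not_dvd_of_mem (by omega) (by omega)) (by omega)
          (not_dvd_of_mem (by omega) (by omega))
        have p1' : c (k + 3) + c (k + 1) + 2 • d = 2 • g := p1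
        have a1 := hpos (k + 1) (not_dvd_of_mem (by omega) (by omega))
        have a2 := hpos (k + 2) (not_dvd_of_mem (by omega) (by omega))
        have a3 := hpos (k + 3) (not_dvd_of_mem (by omega) (by omega))
        have b2 := hmin (k + 2) (not_dvd_of_mem (by omega) (by omega))
        have l3 := hlt (k + 3) (not_dvd_of_mem (by omega) (by omega))
        have s2 : f (k + 2) = f (k + 1) + c 1 := hfs (k + 1)
        have s3 : f (k + 3) = f (k + 2) + c 1 := hfs (k + 2)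
        show (f (k + 3) < N ∧ c (k + 3) = f (k + 3)) ∨
          (N < f (k + 3) ∧ c (k + 3) = 2 • N - f (k + 3))
        grind
  -- periodicity: `c (p - 1) = c 1`
  have hper : c (p - 1) = c 1 := h.per _ _ (by
    rw [Nat.sub_add_cancel hp.one_lt.le])
  have kp := key (p - 1) (by omega) le_rfl
  have kp2 := key (p - 2) (by omega) (by omega)
  have sp : f (p - 1) = f (p - 2) + c 1 := by
    have := hfs (p - 2)
    rwa [show p - 2 + 1 = p - 1 by omega] at this
  have sp' : f p = f (p - 1) + c 1 := by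
    have := hfs (p - 1)
    rwa [show p - 1 + 1 = p by omega] at this
  have a2 := hpos (p - 2) (not_dvd_of_mem (by omega) (by omega))
  have hfp : f p = 2 • N := by
    grind
  refine ⟨?_, ?_⟩
  · rw [← hfp, hf]
  · intro m hm1 hmp
    rcases key m hm1 hmp with ⟨-, e⟩ | ⟨-, e⟩
    · left; rw [e, hf]
    · right; rw [e, hf]

/-- **Tropical node-case statement.** If `T` has positive order then this order is `< N`
and `p` times it is an even multiple of `N`. -/
theorem nodeval (h : Trop p N c) (hp : p.Prime) (hp2 : p ≠ 2) (hN : 0 < N) (h1 : 0 < c 1) :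
    c 1 < N ∧ ∃ j : ℤ, p • c 1 = (2 * j) • N := by
  have hp3 : 3 ≤ p := by
    have := hp.two_le
    omega
  have hpos := h.all_pos hp hp2 hN h1
  refine ⟨h.lt_N hp hp2 hN hpos 1 (not_dvd_of_mem le_rfl (by omega)), ?_⟩
  -- a multiple of minimal order
  obtain ⟨k, hk, hkmin⟩ := Finset.exists_min_image (Finset.Icc 1 (p - 1)) c
    ⟨1, Finset.mem_Icc.2 ⟨le_rfl, by omega⟩⟩
  rw [Finset.mem_Icc] at hk
  have hkd : ¬ p ∣ k := not_dvd_of_mem hk.1 hk.2
  have hs := h.scale hp hkd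
  have hpos' : ∀ m, ¬ p ∣ m → 0 < c (k * m) := fun m hm =>
    hpos _ (fun hd => (hp.dvd_mul.1 hd).elim hkd hm)
  have hmin' : ∀ m, ¬ p ∣ m → c (k * 1) ≤ c (k * m) := by
    intro m hm
    have hd : ¬ p ∣ k * m := fun hd => (hp.dvd_mul.1 hd).elim hkd hm
    have hmod : c (k * m) = c (k * m % p) := h.congr_mod hp (Nat.mod_modEq _ _).symm
    have hlt : k * m % p < p := Nat.mod_lt _ hp.pos
    have hne : k * m % p ≠ 0 := fun h0 => hd (Nat.dvd_of_mod_eq_zero h0)
    rw [mul_one, hmod]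
    exact hkmin _ (Finset.mem_Icc.2 ⟨by omega, by omega⟩)
  obtain ⟨hpθ, hall⟩ := main hs hp hp2 hN hpos' hmin'
  obtain ⟨j, hj1, hj2, hj⟩ := exists_inv hp hkd
  have e : c (k * j) = c 1 := h.congr_mod hp hj
  have hj' := hall j hj1 hj2
  simp only [e] at hj'
  rcases hj' with hj' | hj'
  · refine ⟨(j : ℤ), ?_⟩
    rw [hj', smul_comm, hpθ, mul_comm, mul_zsmul, natCast_zsmul, two_zsmul, two_nsmul]
  · refine ⟨(p : ℤ) - (j : ℤ), ?_⟩
    rw [hj', smul_sub, smul_comm p j, hpθ, mul_comm, mul_zsmul, sub_zsmul, natCast_zsmul,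
      natCast_zsmul, two_zsmul, two_nsmul, smul_add, smul_add]
    exact sub_eq_add_neg _ _

end Trop

end Tropical

/-! ### The 2-adic order on `ℚ` -/

section Ord

local notation "o" => padicValRat 2

theorem o_mul {x y : ℚ} (hx : x ≠ 0) (hy : y ≠ 0) : o (x * y) = o x + o y :=
  padicValRat.mul hx hy

theorem o_sq (x : ℚ) : o (x ^ 2) = 2 * o x := by
  rw [padicValRat.pow]
  norm_num

theorem o_two : o (2 : ℚ) = 1 := by
  have := padicValRat.self (p := 2) (by norm_num)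
  simpa using this

theorem o_four : o (4 : ℚ) = 2 := by
  have e : (4 : ℚ) = 2 ^ 2 := by norm_num
  rw [e, o_sq, o_two]
  norm_num

theorem o_neg (x : ℚ) : o (-x) = o x := padicValRat.neg x

/-- `Big c y`: `y` is zero or has 2-adic order `> c`. -/
def Big (c : ℤ) (y : ℚ) : Prop := y = 0 ∨ c < o y

/-- `AtLeast c y`: `y` is zero or has 2-adic order `≥ c`. -/
def AtLeast (c : ℤ) (y : ℚ) : Prop := y = 0 ∨ c ≤ o y

theorem Big.add {c : ℤ} {y y' : ℚ} (h : Big c y) (h' : Big c y') : Big c (y + y') := by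
  by_cases h0 : y + y' = 0
  · exact Or.inl h0
  rcases h with rfl | h
  · simpa using h'
  rcases h' with rfl | h'
  · rw [add_zero]
    exact Or.inr h
  · exact Or.inr (lt_of_lt_of_le (lt_min h h') (padicValRat.min_le_padicValRat_add h0))

theorem AtLeast.add {c : ℤ} {y y' : ℚ} (h : AtLeast c y) (h' : AtLeast c y') :
    AtLeast c (y + y') := by
  by_cases h0 : y + y' = 0
  · exact Or.inl h0
  rcases h with rfl | h
  · simpa using h'
  rcases h' with rfl | h'
  · rw [add_zero]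
    exact Or.inr h
  · exact Or.inr (le_trans (le_min h h') (padicValRat.min_le_padicValRat_add h0))

theorem AtLeast.le {c : ℤ} {y : ℚ} (h : AtLeast c y) (hy : y ≠ 0) : c ≤ o y :=
  h.resolve_left hy

theorem o_add_big {x y : ℚ} (hx : x ≠ 0) (h : Big (o x) y) : x + y ≠ 0 ∧ o (x + y) = o x := by
  by_cases hy : y = 0
  · subst hy
    simpa using hx
  have h := h.resolve_left hy
  have hxy : x + y ≠ 0 := by
    intro h0
    have : y = -x := by linarith
    rw [this, o_neg] at h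
    exact lt_irrefl _ h
  exact ⟨hxy, padicValRat.add_eq_of_lt hxy hx hy h⟩

theorem o_sub_big {x y : ℚ} (hx : x ≠ 0) (h : Big (o x) y) : x - y ≠ 0 ∧ o (x - y) = o x := by
  have h' : Big (o x) (-y) := by
    rcases h with rfl | h
    · exact Or.inl neg_zero
    · exact Or.inr (by rwa [o_neg])
  simpa [sub_eq_add_neg] using o_add_big hx h'

theorem o_sub_big' {x y : ℚ} (hy : y ≠ 0) (h : Big (o y) x) : x - y ≠ 0 ∧ o (x - y) = o y := by
  have h1 := o_sub_big hy h
  refine ⟨fun h0 => h1.1 (by linarith), ?_⟩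
  rw [← h1.2, ← o_neg (y - x)]
  congr 1
  ring

theorem min_le_o_sub {x y : ℚ} (hxy : x - y ≠ 0) : min (o x) (o y) ≤ o (x - y) := by
  have := padicValRat.min_le_padicValRat_add (p := 2) (q := x) (r := -y)
    (by simpa [sub_eq_add_neg] using hxy)
  simpa [sub_eq_add_neg, o_neg] using this

theorem o_sub_eq_min {x y : ℚ} (hx : x ≠ 0) (hy : y ≠ 0) (h : o x ≠ o y) :
    x - y ≠ 0 ∧ o (x - y) = min (o x) (o y) := by
  rcases lt_or_gt_of_ne h with h | h
  · have := o_sub_big hx (Or.inr h)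
    exact ⟨this.1, by rw [this.2, min_eq_left h.le]⟩
  · have := o_sub_big' hy (Or.inr h)
    exact ⟨this.1, by rw [this.2, min_eq_right h.le]⟩

/-- The residue field `𝔽₂` has a single unit: two distinct 2-adic units are congruent. -/
theorem one_le_o_sub_of_units {x y : ℚ} (hx0 : x ≠ 0) (hy0 : y ≠ 0) (hx : o x = 0)
    (hy : o y = 0) (hxy : x ≠ y) : 1 ≤ o (x - y) := by
  -- numerators and denominators are odd
  have odd_parts : ∀ q : ℚ, q ≠ 0 → o q = 0 → ¬ (2 : ℤ) ∣ q.num ∧ ¬ (2 : ℤ) ∣ (q.den : ℤ) := by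
    intro q hq0 hq
    rw [padicValRat_def] at hq
    have hnum0 : q.num ≠ 0 := Rat.num_ne_zero.mpr hq0
    have hcop : Nat.Coprime q.num.natAbs q.den := q.reduced
    by_cases hd : (2 : ℤ) ∣ (q.den : ℤ)
    · exfalso
      have hd' : 2 ∣ q.den := by exact_mod_cast hd
      have h1 : 1 ≤ padicValNat 2 q.den := one_le_padicValNat_of_dvd q.den_ne_zero hd'
      have h2 : 1 ≤ padicValInt 2 q.num := by
        have : (padicValInt 2 q.num : ℤ) = padicValNat 2 q.den := by linarith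
        exact_mod_cast this ▸ (by exact_mod_cast h1 : (1 : ℤ) ≤ padicValNat 2 q.den)
      have hn' : 2 ∣ q.num.natAbs := by
        have : 1 ≤ padicValNat 2 q.num.natAbs := h2
        exact dvd_of_one_le_padicValNat this
      exact Nat.not_coprime_of_dvd_of_dvd (by norm_num) hn' hd' hcop
    · refine ⟨?_, hd⟩
      intro hn
      have hd' : ¬ 2 ∣ q.den := by exact_mod_cast hd
      have h1 : padicValNat 2 q.den = 0 := padicValNat.eq_zero_of_not_dvd hd'
      have h2 : 1 ≤ padicValInt 2 q.num := by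
        have hn' : 2 ∣ q.num.natAbs := Int.natCast_dvd.mp (by simpa using hn)
        exact one_le_padicValNat_of_dvd (Int.natAbs_ne_zero.mpr hnum0) hn'
      rw [h1] at hq
      have : (padicValInt 2 q.num : ℤ) = 0 := by simpa using hq
      have : padicValInt 2 q.num = 0 := by exact_mod_cast this
      omega
  obtain ⟨hxn, hxd⟩ := odd_parts x hx0 hx
  obtain ⟨hyn, hyd⟩ := odd_parts y hy0 hy
  set n : ℤ := x.num * y.den - y.num * x.den with hn
  set d : ℤ := x.den * y.den with hd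
  have hd0 : d ≠ 0 := by
    rw [hd]
    exact mul_ne_zero (by exact_mod_cast x.den_ne_zero) (by exact_mod_cast y.den_ne_zero)
  have hdq : (d : ℚ) ≠ 0 := by exact_mod_cast hd0
  have e : x - y = (n : ℚ) / (d : ℚ) := by
    have hxd0 : (x.den : ℚ) ≠ 0 := by exact_mod_cast x.den_ne_zero
    have hyd0 : (y.den : ℚ) ≠ 0 := by exact_mod_cast y.den_ne_zero
    rw [hn, hd]
    push_cast
    nth_rewrite 1 [← Rat.num_div_den x, ← Rat.num_div_den y]
    field_simp
  have hn0 : n ≠ 0 := by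
    intro h0
    apply hxy
    have : x - y = 0 := by rw [e, h0]; simp
    linarith
  have hnq : (n : ℚ) ≠ 0 := by exact_mod_cast hn0
  have hdodd : ¬ (2 : ℤ) ∣ d := by
    rw [hd]
    intro h
    rcases (Int.prime_two.dvd_mul).mp h with h | h
    · exact hxd h
    · exact hyd h
  have hneven : (2 : ℤ) ∣ n := by
    have h1 : x.num % 2 = 1 := by omega
    have h2 : (x.den : ℤ) % 2 = 1 := by omega
    have h3 : y.num % 2 = 1 := by omega
    have h4 : (y.den : ℤ) % 2 = 1 := by omega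
    rw [hn]
    apply Int.dvd_of_emod_eq_zero
    rw [Int.sub_emod, Int.mul_emod, Int.mul_emod y.num, h1, h2, h3, h4]
    norm_num
  rw [e, padicValRat.div hnq hdq, padicValRat.of_int, padicValRat.of_int]
  have h1 : padicValInt 2 d = 0 := padicValInt.eq_zero_of_not_dvd (by exact_mod_cast hdodd)
  have h2 : 1 ≤ padicValInt 2 n := by
    have := (padicValInt_dvd_iff (p := 2) 1 n).mp (by simpa using hneven)
    exact this.resolve_left hn0
  rw [h1]
  have : (1 : ℤ) ≤ (padicValInt 2 n : ℤ) := by exact_mod_cast h2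
  simpa using this

/-- Order bookkeeping for the product formula `X₊ X₋ (x₁ - x₂)² = (x₁ x₂ - a₄)²`. -/
theorem ord_prod {a₄ x₁ x₂ Xp Xm : ℚ} (ha₄ : a₄ ≠ 0) (hx₁ : x₁ ≠ 0) (hx₂ : x₂ ≠ 0)
    (hXp : Xp ≠ 0) (hXm : Xm ≠ 0) (hne : x₁ ≠ x₂)
    (h : Xp * Xm * (x₁ - x₂) ^ 2 = (x₁ * x₂ - a₄) ^ 2) :
    ∃ d g : ℤ, o Xp + o Xm + 2 • d = 2 • g ∧ min (o x₁) (o x₂) ≤ d ∧
      (o x₁ ≠ o x₂ → d = min (o x₁) (o x₂)) ∧ min (o x₁ + o x₂) (o a₄) ≤ g ∧
      (o x₁ + o x₂ ≠ o a₄ → g = min (o x₁ + o x₂) (o a₄)) := by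
  have hd : x₁ - x₂ ≠ 0 := sub_ne_zero.mpr hne
  have hg : x₁ * x₂ - a₄ ≠ 0 := by
    intro h0
    rw [h0] at h
    have : Xp * Xm * (x₁ - x₂) ^ 2 ≠ 0 := mul_ne_zero (mul_ne_zero hXp hXm) (pow_ne_zero 2 hd)
    exact this (by rw [h]; ring)
  have h12 : x₁ * x₂ ≠ 0 := mul_ne_zero hx₁ hx₂
  refine ⟨o (x₁ - x₂), o (x₁ * x₂ - a₄), ?_, min_le_o_sub hd, fun hh => (o_sub_eq_min hx₁ hx₂ hh).2,
    ?_, ?_⟩
  · have := congrArg (padicValRat 2) h
    rw [o_mul (mul_ne_zero hXp hXm) (pow_ne_zero 2 hd), o_mul hXp hXm, o_sq, o_sq] at this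
    simp only [nsmul_eq_mul, Nat.cast_ofNat]
    linarith
  · have := min_le_o_sub hg
    rwa [o_mul hx₁ hx₂] at this
  · intro hh
    have := (o_sub_eq_min h12 ha₄ (by rwa [o_mul hx₁ hx₂])).2
    rwa [o_mul hx₁ hx₂] at this

/-- Order bookkeeping for the duplication formula
`X · x · (4x² + b₂ x + 4a₄) = (x² - a₄)²` when `b₂` is a 2-adic unit, `ord a₄ > 0` and neither
`x` nor `X` lies in the kernel of reduction.  (At the prime `2` the cofactor `4x² + b₂x + 4a₄`
has order `min (ord x) (N + 2)`, which can differ from `min (ord x) N` only when `ord x > N`;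
that case is excluded by `0 ≤ ord X`.) -/
theorem ord_dbl {a₄ b₂ x X : ℚ} (ha₄ : a₄ ≠ 0) (hN : 0 < o a₄) (hb₂0 : b₂ ≠ 0) (hb₂ : o b₂ = 0)
    (hx : x ≠ 0) (hX : X ≠ 0) (hox : 0 ≤ o x) (hoX : 0 ≤ o X)
    (ht : 4 * x ^ 2 + b₂ * x + 4 * a₄ ≠ 0)
    (h : X * x * (4 * x ^ 2 + b₂ * x + 4 * a₄) = (x ^ 2 - a₄) ^ 2) :
    ∃ q r : ℤ, o X + o x + q = 2 • r ∧
      (0 < o x → min (o x) (o a₄) ≤ q) ∧ (0 < o x → o x ≠ o a₄ → q = min (o x) (o a₄)) ∧
      (o x = 0 → 0 ≤ q) ∧ min (2 • o x) (o a₄) ≤ r ∧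
      (2 • o x ≠ o a₄ → r = min (2 • o x) (o a₄)) := by
  have hx2 : x ^ 2 ≠ 0 := pow_ne_zero 2 hx
  have h4 : (4 : ℚ) ≠ 0 := by norm_num
  have hr0 : x ^ 2 - a₄ ≠ 0 := by
    intro h0
    rw [h0] at h
    have : X * x * (4 * x ^ 2 + b₂ * x + 4 * a₄) ≠ 0 := mul_ne_zero (mul_ne_zero hX hx) ht
    exact this (by rw [h]; ring)
  have e1 : o X + o x + o (4 * x ^ 2 + b₂ * x + 4 * a₄) = 2 * o (x ^ 2 - a₄) := by
    have := congrArg (padicValRat 2) h
    rwa [o_mul (mul_ne_zero hX hx) ht, o_mul hX hx, o_sq] at this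
  have ht₁ : o (4 * x ^ 2) = 2 + 2 * o x := by rw [o_mul h4 hx2, o_four, o_sq]
  have ht₂ : o (b₂ * x) = o x := by rw [o_mul hb₂0 hx, hb₂, zero_add]
  have ht₃ : o (4 * a₄) = 2 + o a₄ := by rw [o_mul h4 ha₄, o_four]
  have ht₂0 : b₂ * x ≠ 0 := mul_ne_zero hb₂0 hx
  have hq_ge : min (o x) (o a₄) ≤ o (4 * x ^ 2 + b₂ * x + 4 * a₄) := by
    have a1 : AtLeast (min (o x) (o a₄)) (4 * x ^ 2) := Or.inr (by rw [ht₁]; omega)
    have a2 : AtLeast (min (o x) (o a₄)) (b₂ * x) := Or.inr (by rw [ht₂]; omega)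
    have a3 : AtLeast (min (o x) (o a₄)) (4 * a₄) := Or.inr (by rw [ht₃]; omega)
    exact ((a1.add a2).add a3).le ht
  have hr_ge : min (2 * o x) (o a₄) ≤ o (x ^ 2 - a₄) := by
    have := min_le_o_sub hr0
    rwa [o_sq] at this
  refine ⟨o (4 * x ^ 2 + b₂ * x + 4 * a₄), o (x ^ 2 - a₄), ?_, fun _ => hq_ge, ?_, ?_, ?_, ?_⟩
  · simp only [nsmul_eq_mul, Nat.cast_ofNat]
    exact e1
  · intro hpos hne
    rcases lt_or_gt_of_ne hne with hlt | hgt
    · have et : 4 * x ^ 2 + b₂ * x + 4 * a₄ = b₂ * x + (4 * x ^ 2 + 4 * a₄) := by ring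
      have hbig : Big (o (b₂ * x)) (4 * x ^ 2 + 4 * a₄) :=
        Big.add (Or.inr (by rw [ht₁, ht₂]; omega)) (Or.inr (by rw [ht₃, ht₂]; omega))
      rw [et, (o_add_big ht₂0 hbig).2, ht₂, min_eq_left hlt.le]
    · exfalso
      have hr : o (x ^ 2 - a₄) = o a₄ :=
        (o_sub_big' ha₄ (Or.inr (by rw [o_sq]; omega))).2
      rw [hr] at e1
      have : min (o x) (o a₄) = o a₄ := min_eq_right hgt.le
      rw [this] at hq_ge
      omega
  · intro h0
    have : min (o x) (o a₄) = 0 := by rw [h0]; exact min_eq_left hN.le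
    rw [this] at hq_ge
    exact hq_ge
  · simp only [nsmul_eq_mul, Nat.cast_ofNat]
    exact hr_ge
  · simp only [nsmul_eq_mul, Nat.cast_ofNat]
    intro hh
    have := (o_sub_eq_min hx2 ha₄ (by rwa [o_sq])).2
    rwa [o_sq] at this

/-! ### Bridge to the valuation `Rat.padicValuation 2` -/

theorem val_eq_exp {x : ℚ} (hx : x ≠ 0) :
    Rat.padicValuation 2 x = WithZero.exp (-(o x)) := by
  simp [Rat.padicValuation, hx]

theorem one_lt_val_iff {x : ℚ} (hx : x ≠ 0) : 1 < Rat.padicValuation 2 x ↔ o x < 0 := by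
  rw [val_eq_exp hx, ← WithZero.exp_zero, WithZero.exp_lt_exp]
  omega

theorem val_le_one_of_atLeast {x : ℚ} (h : AtLeast 0 x) : Rat.padicValuation 2 x ≤ 1 := by
  by_cases hx : x = 0
  · simp [hx]
  · rw [val_eq_exp hx, ← WithZero.exp_zero, WithZero.exp_le_exp]
    have := h.le hx
    omega

theorem val_natCast_eq_one {n : ℕ} (hn : ¬ 2 ∣ n) : Rat.padicValuation 2 (n : ℚ) = 1 := by
  have hn0 : (n : ℚ) ≠ 0 := by
    have : n ≠ 0 := by
      rintro rfl
      exact hn (dvd_zero 2)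
    exact_mod_cast this
  rw [val_eq_exp hn0, padicValRat.of_nat, padicValNat.eq_zero_of_not_dvd hn]
  simp

end Ord

/-! ### Points of odd prime order on `y² + a₁xy = x³ + a₂x² + a₄x` over `ℚ` -/

section Curve

local notation "o" => padicValRat 2

variable {W : Affine ℚ}

/-- The `x`-coordinate of a point (`0` for the point at infinity). -/
def xc : W.Point → ℚ
  | .zero => 0
  | .some x _ _ => x

theorem xc_neg (P : W.Point) : xc (-P) = xc P := by
  rcases P with _ | ⟨x, y, h⟩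
  · rfl
  · rw [Point.neg_some]
    rfl

/-- Standing hypotheses: `a₃ = a₆ = 0`, `ord₂ a₄ > 0`, `b₂` a 2-adic unit, and `T` a rational
point of odd prime order `p`. -/
structure Setup (W : Affine ℚ) (p : ℕ) (T : W.Point) : Prop where
  a₃ : W.a₃ = 0
  a₆ : W.a₆ = 0
  a₄ : W.a₄ ≠ 0
  N : 0 < o W.a₄
  b₂0 : W.b₂ ≠ 0
  b₂ : o W.b₂ = 0
  prime : p.Prime
  ne_two : p ≠ 2
  tors : p • T = 0
  ne_zero : T ≠ 0

namespace Setup

variable {p : ℕ} {T : W.Point}

theorem b₄_eq (S : Setup W p T) : W.b₄ = 2 * W.a₄ := by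
  simp [WeierstrassCurve.b₄, S.a₃]

theorem b₆_eq (S : Setup W p T) : W.b₆ = 0 := by
  simp [WeierstrassCurve.b₆, S.a₃, S.a₆]

theorem b₈_eq (S : Setup W p T) : W.b₈ = -W.a₄ ^ 2 := by
  simp [WeierstrassCurve.b₈, S.a₃, S.a₆]

theorem nsmul_eq_zero_iff (S : Setup W p T) (m : ℕ) : m • T = 0 ↔ p ∣ m := by
  have hord : addOrderOf T = p := by
    rcases (Nat.dvd_prime S.prime).mp (addOrderOf_dvd_of_nsmul_eq_zero S.tors) with h1 | h1
    · exact absurd (AddMonoid.addOrderOf_eq_one_iff.mp h1) S.ne_zero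
    · exact h1
  rw [← hord]
  exact addOrderOf_dvd_iff_nsmul_eq_zero.symm

theorem not_dvd_two_mul (S : Setup W p T) {m : ℕ} (hm : ¬ p ∣ m) : ¬ p ∣ 2 * m := by
  intro hd
  rcases S.prime.dvd_mul.mp hd with h | h
  · exact S.ne_two ((Nat.prime_dvd_prime_iff_eq S.prime Nat.prime_two).mp h)
  · exact hm h

/-- Every nonzero multiple of `T` is affine with nonzero 2-integral `x`-coordinate. -/
theorem exists_affine (S : Setup W p T) {m : ℕ} (hm : ¬ p ∣ m) :
    ∃ (x y : ℚ) (h : W.Nonsingular x y), m • T = Point.some x y h ∧ x ≠ 0 ∧ 0 ≤ o x := by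
  have hmT : m • T ≠ 0 := fun h0 => hm ((S.nsmul_eq_zero_iff m).mp h0)
  rcases hP : m • T with _ | ⟨x, y, h⟩
  · exact absurd hP hmT
  have hx0 : x ≠ 0 := by
    rintro rfl
    have heq := (equation_iff _ _).mp h.left
    rw [S.a₃, S.a₆] at heq
    have hy0 : y = 0 := by
      have : y ^ 2 = 0 := by linear_combination heq
      exact pow_eq_zero_iff (two_ne_zero) |>.mp this
    have hneg : y = W.negY 0 y := by
      rw [hy0]
      simp [negY, S.a₃]
    have h2 : (2 * m) • T = 0 := by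
      rw [two_mul, add_nsmul, hP]
      exact Point.add_self_of_Y_eq hneg
    exact S.not_dvd_two_mul hm ((S.nsmul_eq_zero_iff _).mp h2)
  refine ⟨x, y, h, rfl, hx0, ?_⟩
  by_contra hneg
  rw [not_le] at hneg
  have hv : 1 < Rat.padicValuation 2 x := (one_lt_val_iff hx0).mpr hneg
  have hb₂ : Rat.padicValuation 2 W.b₂ ≤ 1 := val_le_one_of_atLeast (Or.inr (by rw [S.b₂]))
  have hb₄ : Rat.padicValuation 2 W.b₄ ≤ 1 := by
    rw [S.b₄_eq]
    refine val_le_one_of_atLeast (Or.inr ?_)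
    rw [o_mul two_ne_zero S.a₄, o_two]
    have := S.N
    omega
  have hb₆ : Rat.padicValuation 2 W.b₆ ≤ 1 := by
    rw [S.b₆_eq]
    simp
  have hb₈ : Rat.padicValuation 2 W.b₈ ≤ 1 := by
    rw [S.b₈_eq]
    refine val_le_one_of_atLeast (Or.inr ?_)
    rw [o_neg, o_sq]
    have := S.N
    omega
  have hp2 : ¬ 2 ∣ p := fun h2 =>
    S.ne_two ((Nat.prime_dvd_prime_iff_eq Nat.prime_two S.prime).mp h2).symm
  have := ker_bform (Rat.padicValuation 2) hb₂ hb₄ hb₆ hb₈ S.prime S.ne_two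
    (val_natCast_eq_one hp2) h hv
  apply this
  rw [← hP, ← mul_nsmul', mul_nsmul, S.tors, smul_zero]

/-- The order function of the multiples of `T`. -/
noncomputable def c (T : W.Point) (m : ℕ) : ℤ := o (xc (m • T))

/-- Duplication data for a nonzero multiple of `T`. -/
theorem dbl_data (S : Setup W p T) {m : ℕ} (hm : ¬ p ∣ m) :
    ∃ x X : ℚ, x ≠ 0 ∧ X ≠ 0 ∧ 0 ≤ o x ∧ 0 ≤ o X ∧ c T m = o x ∧ c T (2 * m) = o X ∧
      4 * x ^ 2 + W.b₂ * x + 4 * W.a₄ ≠ 0 ∧
      X * x * (4 * x ^ 2 + W.b₂ * x + 4 * W.a₄) = (x ^ 2 - W.a₄) ^ 2 := by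
  obtain ⟨x, y, h, e, hx0, hox⟩ := S.exists_affine hm
  obtain ⟨X, Y, h', e', hX0, hoX⟩ := S.exists_affine (S.not_dvd_two_mul hm)
  have e2 : (2 * m) • T = Point.some x y h + Point.some x y h := by
    rw [two_mul, add_nsmul, e]
  have hy : y ≠ W.negY x y := by
    intro hy
    rw [Point.add_self_of_Y_eq hy, e'] at e2
    exact Point.some_ne_zero h' e2
  obtain ⟨X', Y', h'', hadd, heq, hne⟩ := Fermat.Agent.S05.helper1745.exists_add_self_some h hy
  rw [hadd, e'] at e2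
  obtain ⟨rfl, rfl⟩ := Point.some.inj e2
  rw [S.b₄_eq, S.b₆_eq, S.b₈_eq] at heq
  rw [S.b₄_eq, S.b₆_eq] at hne
  refine ⟨x, X, hx0, hX0, hox, hoX, ?_, ?_, ?_, ?_⟩
  · simp only [c, e]; rfl
  · simp only [c, e']; rfl
  · intro h0
    apply hne
    linear_combination x * h0
  · linear_combination heq

/-- Addition/subtraction data for two nonzero multiples of `T`. -/
theorem prod_data (S : Setup W p T) {m n : ℕ} (hm : ¬ p ∣ m) (hn : ¬ p ∣ n)
    (hmn : ¬ p ∣ m + n) (hle : n ≤ m) (hsub : ¬ p ∣ m - n) :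
    ∃ x₁ x₂ Xp Xm : ℚ, x₁ ≠ 0 ∧ x₂ ≠ 0 ∧ Xp ≠ 0 ∧ Xm ≠ 0 ∧ x₁ ≠ x₂ ∧
      c T m = o x₁ ∧ c T n = o x₂ ∧ c T (m + n) = o Xp ∧ c T (m - n) = o Xm ∧
      Xp * Xm * (x₁ - x₂) ^ 2 = (x₁ * x₂ - W.a₄) ^ 2 := by
  obtain ⟨x₁, y₁, h₁, e₁, hx₁0, -⟩ := S.exists_affine hm
  obtain ⟨x₂, y₂, h₂, e₂, hx₂0, -⟩ := S.exists_affine hn
  obtain ⟨Xp, Yp, hp, ep, hXp0, -⟩ := S.exists_affine hmn
  obtain ⟨Xm, Ym, hm', em, hXm0, -⟩ := S.exists_affine hsub
  have hne : x₁ ≠ x₂ := by
    intro hxx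
    subst hxx
    rcases Y_eq_of_X_eq h₁.left h₂.left rfl with hyy | hyy
    · subst hyy
      apply hsub
      rw [← S.nsmul_eq_zero_iff, sub_nsmul _ hle, e₁, e₂, add_neg_cancel]
    · subst hyy
      apply hmn
      rw [← S.nsmul_eq_zero_iff, add_nsmul, e₁, e₂]
      have : (Point.some x₁ (W.negY x₁ y₂) h₁ : W.Point) = -Point.some x₁ y₂ h₂ :=
        (Point.neg_some h₂).symm
      rw [this, neg_add_cancel]
  obtain ⟨Xp', Yp', Xm', Ym', hp', hm'', eadd, esub, hPi, -⟩ :=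
    Fermat.Agent.S05.helper1745.exists_add_sub_some h₁ h₂ hne
  have e3 : (Point.some Xp Yp hp : W.Point) = Point.some Xp' Yp' hp' := by
    rw [← ep, add_nsmul, e₁, e₂, eadd]
  have e4 : (Point.some Xm Ym hm' : W.Point) = Point.some Xm' Ym' hm'' := by
    rw [← em, sub_nsmul _ hle, e₁, e₂, ← sub_eq_add_neg, esub]
  obtain ⟨rfl, rfl⟩ := Point.some.inj e3
  obtain ⟨rfl, rfl⟩ := Point.some.inj e4
  rw [S.b₄_eq, S.b₆_eq, S.b₈_eq] at hPi
  refine ⟨x₁, x₂, Xp, Xm, hx₁0, hx₂0, hXp0, hXm0, hne, ?_, ?_, ?_, ?_, ?_⟩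
  · simp only [c, e₁]; rfl
  · simp only [c, e₂]; rfl
  · simp only [c, ep]; rfl
  · simp only [c, em]; rfl
  · linear_combination hPi

/-- The multiples of `T` carry tropical Kummer-line data with `N = ord₂ a₄`. -/
theorem trop (S : Setup W p T) : Trop p (o W.a₄) (c T) where
  per := by
    intro m n hmn
    have h0 : (m + n) • T = 0 := (S.nsmul_eq_zero_iff _).mpr hmn
    rw [add_nsmul] at h0
    have : m • T = -(n • T) := eq_neg_of_add_eq_zero_left h0
    simp only [c]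
    rw [this, xc_neg]
  ker := by
    intro m hm
    obtain ⟨x, y, h, e, -, hox⟩ := S.exists_affine hm
    simp only [c, e]
    exact hox
  dbl := by
    intro m hm
    obtain ⟨x, X, hx0, hX0, hox, hoX, ec, eC, ht, heq⟩ := S.dbl_data hm
    rw [ec, eC]
    exact ord_dbl S.a₄ S.N S.b₂0 S.b₂ hx0 hX0 hox hoX ht heq
  prod := by
    intro m n hm hn hmn hle hsub
    obtain ⟨x₁, x₂, Xp, Xm, hx₁0, hx₂0, hXp0, hXm0, hne, e₁, e₂, ep, em, heq⟩ :=
      S.prod_data hm hn hmn hle hsub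
    rw [e₁, e₂, ep, em]
    exact ord_prod S.a₄ hx₁0 hx₂0 hXp0 hXm0 hne heq

end Setup

/-- **No rational torsion of prime order `p ≥ 5` at a multiplicative prime (2-adic form).**
Let `W : y² + a₁xy = x³ + a₂x² + a₄x` over `ℚ` with `ord₂ a₄ = N > 0` and `b₂` a 2-adic unit.
If `p ≥ 5` is a prime not dividing `2N`, then `W(ℚ)` has no point of order `p`. -/
theorem no_rational_torsion (W : Affine ℚ) (ha₃ : W.a₃ = 0) (ha₆ : W.a₆ = 0) (ha₄ : W.a₄ ≠ 0)
    (hN : 0 < o W.a₄) (hb₂0 : W.b₂ ≠ 0) (hb₂ : o W.b₂ = 0) {p : ℕ} (hp : p.Prime) (hp5 : 5 ≤ p)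
    (hpN : ¬ (p : ℤ) ∣ 2 * o W.a₄) (T : W.Point) (hT : p • T = 0) : T = 0 := by
  by_contra hT0
  have hp2 : p ≠ 2 := by omega
  have S : Setup W p T := ⟨ha₃, ha₆, ha₄, hN, hb₂0, hb₂, hp, hp2, hT, hT0⟩
  have htrop := S.trop
  have nd : ∀ m : ℕ, 1 ≤ m → m ≤ 4 → ¬ p ∣ m := fun m h1 h2 hd => by
    have := Nat.le_of_dvd (by omega) hd
    omega
  have hc1 : 0 ≤ Setup.c T 1 := htrop.ker 1 (nd 1 (by omega) (by omega))
  rcases hc1.lt_or_eq with hpos | hzero
  · -- node case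
    obtain ⟨hlt, j, hj⟩ := htrop.nodeval hp hp2 hN hpos
    simp only [nsmul_eq_mul, zsmul_eq_mul] at hj
    have hdvd : (p : ℤ) ∣ 2 * j * o W.a₄ := ⟨Setup.c T 1, by push_cast at hj ⊢; linarith⟩
    have hpZ : Prime (p : ℤ) := Nat.prime_iff_prime_int.mp hp
    have hj' : (p : ℤ) ∣ j := by
      have e : 2 * j * o W.a₄ = j * (2 * o W.a₄) := by ring
      rw [e] at hdvd
      exact (hpZ.dvd_mul.mp hdvd).resolve_right hpN
    obtain ⟨k, rfl⟩ := hj'
    have hp0 : (p : ℤ) ≠ 0 := by exact_mod_cast hp.ne_zero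
    have hc : Setup.c T 1 = 2 * k * o W.a₄ := by
      have : (p : ℤ) * Setup.c T 1 = (p : ℤ) * (2 * k * o W.a₄) := by
        push_cast at hj ⊢
        linarith
      exact mul_left_cancel₀ hp0 this
    rw [hc] at hpos hlt
    have hk : 0 < k := by
      by_contra hk
      rw [not_lt] at hk
      have : 2 * k * o W.a₄ ≤ 0 := by nlinarith
      omega
    nlinarith
  · -- unit case: impossible since `𝔽₂` has one unit
    have h0 : Setup.c T 1 = 0 := hzero.symm
    have hall := htrop.unit_prop hp hp2 hN h0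
    have h2 : Setup.c T 2 = 0 := hall 2 (by omega) (by omega)
    have h3 : Setup.c T 3 = 0 := hall 3 (by omega) (by omega)
    obtain ⟨x₁, x₂, Xp, Xm, hx₁0, hx₂0, hXp0, hXm0, hne, e₁, e₂, ep, em, heq⟩ :=
      S.prod_data (m := 2) (n := 1) (nd 2 (by omega) (by omega)) (nd 1 (by omega) (by omega))
        (nd 3 (by omega) (by omega)) (by omega) (nd 1 (by omega) (by omega))
    have o₁ : o x₁ = 0 := by rw [← e₁, h2]
    have o₂ : o x₂ = 0 := by rw [← e₂, h0]
    have op : o Xp = 0 := by rw [← ep]; exact h3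
    have om : o Xm = 0 := by rw [← em]; exact h0
    have hd : x₁ - x₂ ≠ 0 := sub_ne_zero.mpr hne
    have h12 : x₁ * x₂ ≠ 0 := mul_ne_zero hx₁0 hx₂0
    have hg := o_sub_big h12 (Or.inr (by rw [o_mul hx₁0 hx₂0, o₁, o₂]; simpa using hN) :
      Big (o (x₁ * x₂)) W.a₄)
    have := congrArg (padicValRat 2) heq
    rw [o_mul (mul_ne_zero hXp0 hXm0) (pow_ne_zero 2 hd), o_mul hXp0 hXm0, o_sq, o_sq, hg.2,
      o_mul hx₁0 hx₂0, o₁, o₂, op, om] at this
    have h1 := one_le_o_sub_of_units hx₁0 hx₂0 o₁ o₂ hne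
    omega

end Curve

end Fermat.Agent.S13.helper149
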