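import Mathlib
import Fermat.Prelude.Def_FLTPrelim_FreyPackage
import Fermat.Agent.S05.helper305_Shape

/-!
# Frey arithmetic at the prime 2 (helper172, S13 brick)

For a Frey package `P` the Frey curve is `y² + x y = x³ + a₂ x² + a₄ x` with
* `a₂ = n` an integer (`4 n = b^p - 1 - a^p`),
* `a₄ = -(a^p) * 2^(p k - 4) * b'^p` where `b = 2^k b'`, `b'` odd, `k ≥ 1`, `4 < p k`
  (so `a₄` is an even nonzero integer of exact 2-adic depth `p k - 4`, prime to `p`),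
* `b₂ = a₁² + 4 a₂ = b^p - a^p` an odd integer.

Valuation forms (any field `K ⊇ ℚ`, any valuation `v` with `v 2 < 1`) are provided as well,
and the shape `Shape (freyCurve⁄K) 0 (b₂/4) a₄` (no shift), with `v (4 * al) = v b₂ = 1`,
`v be = v a₄ < 1`, `be ≠ 0`: the hypotheses of node-depth lemmas that do not assume `v 2 = 1`.
-/

namespace Fermat.Agent.S13.helper172

section integers

variable (P : FreyPackage)

theorem two_dvd_b : (2 : ℤ) ∣ P.b :=
  (ZMod.intCast_zmod_eq_zero_iff_dvd P.b 2).1 P.hb2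

theorem four_dvd_a_sub_three : (4 : ℤ) ∣ P.a - 3 := by
  have h : ((P.a - 3 : ℤ) : ZMod 4) = 0 := by
    push_cast
    rw [P.ha4]
    decide
  exact (ZMod.intCast_zmod_eq_zero_iff_dvd (P.a - 3) 4).1 h

theorem odd_a : Odd P.a := by
  obtain ⟨t, ht⟩ := four_dvd_a_sub_three P
  exact ⟨2 * t + 1, by linarith⟩

theorem p_odd : Odd P.p := P.hp_odd

/-- `a^p ≡ 3 (mod 4)`. -/
theorem four_dvd_a_pow_sub_three : (4 : ℤ) ∣ P.a ^ P.p - 3 := by
  obtain ⟨m, hm⟩ := P.hp_odd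
  have h1 : (4 : ℤ) ∣ P.a - 3 := four_dvd_a_sub_three P
  have h3 : (4 : ℤ) ∣ P.a ^ 2 - 1 := by
    obtain ⟨t, ht⟩ := h1
    exact ⟨4 * t ^ 2 + 6 * t + 2, by
      have : P.a = 4 * t + 3 := by linarith
      rw [this]; ring⟩
  have h4 : (4 : ℤ) ∣ (P.a ^ 2) ^ m - 1 := by
    have := sub_one_dvd_pow_sub_one (P.a ^ 2) m
    exact h3.trans (by simpa using this)
  have e : P.a ^ P.p - 3 = P.a * ((P.a ^ 2) ^ m - 1) + (P.a - 3) := by
    rw [hm, pow_succ, pow_mul]; ring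
  rw [e]
  exact dvd_add (Dvd.dvd.mul_left h4 _) h1

theorem four_dvd_b_pow : (4 : ℤ) ∣ P.b ^ P.p := by
  obtain ⟨t, ht⟩ := two_dvd_b P
  have hp : 2 ≤ P.p := by have := P.hp5; omega
  have h : (2 : ℤ) ^ 2 ∣ P.b ^ P.p := by
    rw [ht, mul_pow]
    exact Dvd.dvd.mul_right (pow_dvd_pow 2 hp) _
  simpa using h

/-- `a₂` of the Frey curve is an integer. -/
theorem exists_a₂ : ∃ n : ℤ, P.b ^ P.p - 1 - P.a ^ P.p = 4 * n ∧ P.freyCurve.a₂ = (n : ℚ) := by
  have h : (4 : ℤ) ∣ P.b ^ P.p - 1 - P.a ^ P.p := by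
    have e : P.b ^ P.p - 1 - P.a ^ P.p = P.b ^ P.p - (P.a ^ P.p - 3) - 4 := by ring
    rw [e]
    exact dvd_sub (dvd_sub (four_dvd_b_pow P) (four_dvd_a_pow_sub_three P)) (dvd_refl 4)
  obtain ⟨n, hn⟩ := h
  refine ⟨n, hn, ?_⟩
  have hQ : (P.b : ℚ) ^ P.p - 1 - (P.a : ℚ) ^ P.p = 4 * (n : ℚ) := by exact_mod_cast hn
  simp only [FreyPackage.freyCurve]
  rw [hQ]
  field_simp

/-- `b₂ = a₁² + 4 a₂ = b^p - a^p` is an odd integer. -/
theorem exists_b₂ : ∃ n : ℤ, Odd n ∧ n = P.b ^ P.p - P.a ^ P.p ∧ P.freyCurve.b₂ = (n : ℚ) := by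
  refine ⟨P.b ^ P.p - P.a ^ P.p, ?_, rfl, ?_⟩
  · have hb : Even (P.b ^ P.p) := by
      have h2 : (2 : ℤ) ∣ P.b ^ P.p := dvd_pow (two_dvd_b P) P.hp0
      exact even_iff_two_dvd.mpr h2
    have ha : Odd (P.a ^ P.p) := (odd_a P).pow
    exact hb.sub_odd ha
  · simp only [FreyPackage.freyCurve, WeierstrassCurve.b₂]
    push_cast
    ring

/-- The 2-adic shape of `b`: `b = 2^k b'` with `b'` odd and `k ≥ 1`; moreover `4 < p k`. -/
theorem exists_b_shape : ∃ (k : ℕ) (b' : ℤ), 0 < k ∧ Odd b' ∧ P.b = 2 ^ k * b' ∧ 4 < P.p * k := by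
  have hb0 := P.hb0
  have hfin : FiniteMultiplicity (2 : ℤ) P.b :=
    Int.finiteMultiplicity_iff.mpr ⟨by decide, hb0⟩
  obtain ⟨b', hk, hnd⟩ := hfin.exists_eq_pow_mul_and_not_dvd
  have hb' : Odd b' := by
    rw [← Int.not_even_iff_odd, even_iff_two_dvd]
    exact hnd
  generalize multiplicity (2 : ℤ) P.b = k at hk
  have hk0 : 0 < k := by
    rcases Nat.eq_zero_or_pos k with h | h
    · exfalso
      rw [h, pow_zero, one_mul] at hk
      have : Even P.b := even_iff_two_dvd.mpr (two_dvd_b P)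
      rw [hk] at this
      exact (Int.not_even_iff_odd.mpr hb') this
    · exact h
  refine ⟨k, b', hk0, hb', hk, ?_⟩
  have := P.hp5
  nlinarith

/-- `a₄` of the Frey curve is the integer `-(a^p) * 2^(p k - 4) * b'^p`, where `b = 2^k b'`
with `b'` odd, `k ≥ 1`, `4 < p k`. -/
theorem exists_a₄ : ∃ (k : ℕ) (b' : ℤ), 0 < k ∧ Odd b' ∧ P.b = 2 ^ k * b' ∧ 4 < P.p * k ∧
    P.freyCurve.a₄ = ((-(P.a ^ P.p) * 2 ^ (P.p * k - 4) * b' ^ P.p : ℤ) : ℚ) := by
  obtain ⟨k, b', hk0, hb', hb, hpk⟩ := exists_b_shape P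
  refine ⟨k, b', hk0, hb', hb, hpk, ?_⟩
  have e : P.p * k = (P.p * k - 4) + 4 := by omega
  have hbp : (P.b : ℚ) ^ P.p = 2 ^ (P.p * k - 4) * 16 * (b' : ℚ) ^ P.p := by
    have h1 : P.b ^ P.p = 2 ^ (P.p * k - 4) * 16 * b' ^ P.p := by
      rw [hb, mul_pow, ← pow_mul]
      conv_lhs => rw [mul_comm k P.p, e, pow_add]
      norm_num
    exact_mod_cast h1
  simp only [FreyPackage.freyCurve]
  rw [hbp]
  push_cast
  field_simp

/-- The node depth `p k - 4` at `2` is prime to `p` (also after doubling). -/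
theorem coprime_depth {k : ℕ} (hpk : 4 < P.p * k) : Nat.Coprime P.p (2 * (P.p * k - 4)) := by
  have hp := P.pp
  rw [Nat.Prime.coprime_iff_not_dvd hp]
  intro h
  have h1 : P.p ∣ 2 * (P.p * k) := Dvd.dvd.mul_left (dvd_mul_right _ _) _
  have e : 2 * (P.p * k) = 2 * (P.p * k - 4) + 8 := by
    generalize P.p * k = m at hpk
    omega
  have h2 : P.p ∣ 8 := by
    rw [e] at h1
    exact (Nat.dvd_add_right h).mp h1
  have h3 : P.p = 2 :=
    (Nat.prime_dvd_prime_iff_eq hp Nat.prime_two).mp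
      (hp.dvd_of_dvd_pow (show P.p ∣ 2 ^ 3 by simpa using h2))
  have h5 := P.hp5
  omega

/-- Rational 2-adic valuation of `a₄`: `ord₂ a₄ = p k - 4 > 0`, prime to `p`. -/
theorem padicValRat_a₄ : ∃ k : ℕ, 0 < k ∧ 4 < P.p * k ∧
    Nat.Coprime P.p (2 * (P.p * k - 4)) ∧
    padicValRat 2 P.freyCurve.a₄ = ((P.p * k - 4 : ℕ) : ℤ) := by
  obtain ⟨k, b', hk0, hb', -, hpk, ha₄⟩ := exists_a₄ P
  refine ⟨k, hk0, hpk, coprime_depth P hpk, ?_⟩
  have hodd : ∀ n : ℤ, Odd n → padicValRat 2 (n : ℚ) = 0 := by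
    intro n hn
    rw [padicValRat.of_int]
    have : ¬ ((2 : ℕ) : ℤ) ∣ n := by
      rw [← Int.not_even_iff_odd, even_iff_two_dvd] at hn
      exact_mod_cast hn
    exact_mod_cast padicValInt.eq_zero_of_not_dvd this
  have ha0 : (P.a : ℚ) ≠ 0 := by exact_mod_cast P.ha0
  have hb0 : (b' : ℚ) ≠ 0 := by
    intro h
    have : b' = 0 := by exact_mod_cast h
    rw [this] at hb'
    exact absurd hb' (by decide)
  have e : P.freyCurve.a₄ = -((P.a : ℚ) ^ P.p * (2 : ℚ) ^ (P.p * k - 4) * (b' : ℚ) ^ P.p) := by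
    rw [ha₄]; push_cast; ring
  rw [e, padicValRat.neg,
    padicValRat.mul (mul_ne_zero (pow_ne_zero _ ha0) (pow_ne_zero _ (by norm_num)))
      (pow_ne_zero _ hb0),
    padicValRat.mul (pow_ne_zero _ ha0) (pow_ne_zero _ (by norm_num)),
    padicValRat.pow, padicValRat.pow, padicValRat.pow,
    hodd _ (odd_a P), hodd _ hb']
  have h1 : padicValRat 2 (2 : ℚ) = 1 := by
    have := padicValRat.self (p := 2) (by norm_num)
    simpa using this
  rw [h1]
  simp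

theorem frey_a₁ : P.freyCurve.a₁ = 1 := rfl
theorem frey_a₃ : P.freyCurve.a₃ = 0 := rfl
theorem frey_a₆ : P.freyCurve.a₆ = 0 := rfl

end integers

section valuation

variable {K : Type*} [Field K] {Γ₀ : Type*} [LinearOrderedCommGroupWithZero Γ₀]
  (v : Valuation K Γ₀)

theorem val_natCast_le_one (n : ℕ) : v (n : K) ≤ 1 := by
  induction n with
  | zero => simp
  | succ n ih =>
    rw [Nat.cast_succ]
    exact (v.map_add _ _).trans (max_le ih (by simp))

theorem val_intCast_le_one (n : ℤ) : v (n : K) ≤ 1 := by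
  rcases Int.natAbs_eq n with h | h
  · rw [h, Int.cast_natCast]; exact val_natCast_le_one v _
  · rw [h, Int.cast_neg, Int.cast_natCast, Valuation.map_neg]; exact val_natCast_le_one v _

/-- An odd integer is a unit for any valuation with `v 2 < 1`. -/
theorem val_odd_eq_one (hv2 : v (2 : K) < 1) {n : ℤ} (hn : Odd n) : v (n : K) = 1 := by
  obtain ⟨m, rfl⟩ := hn
  have h1 : v ((2 : K) * (m : K)) < 1 := by
    rw [map_mul]
    calc v (2 : K) * v (m : K) ≤ v (2 : K) * 1 := mul_le_mul' le_rfl (val_intCast_le_one v m)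
      _ = v (2 : K) := mul_one _
      _ < 1 := hv2
  have e : ((2 * m + 1 : ℤ) : K) = 1 + (2 : K) * (m : K) := by push_cast; ring
  rw [e, v.map_add_eq_of_lt_left (by rw [map_one]; exact h1), map_one]

variable [Algebra ℚ K] (P : FreyPackage)

/-- `a₂` is `v`-integral. -/
theorem val_a₂_le_one : v (algebraMap ℚ K P.freyCurve.a₂) ≤ 1 := by
  obtain ⟨n, -, hn⟩ := exists_a₂ P
  rw [hn, map_intCast]
  exact val_intCast_le_one v n

/-- `b₂ = a₁² + 4 a₂` is a `v`-unit when `v 2 < 1`. -/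
theorem val_b₂_eq_one (hv2 : v (2 : K) < 1) : v (algebraMap ℚ K P.freyCurve.b₂) = 1 := by
  obtain ⟨n, hn, -, hb⟩ := exists_b₂ P
  rw [hb, map_intCast]
  exact val_odd_eq_one v hv2 hn

/-- Exact valuation of `a₄`: `v a₄ = v 2 ^ (p k - 4)`, `k = ord₂ b ≥ 1`, `4 < p k`,
`gcd(p, 2 (p k - 4)) = 1`. -/
theorem val_a₄ (hv2 : v (2 : K) < 1) : ∃ k : ℕ, 0 < k ∧ 4 < P.p * k ∧
    Nat.Coprime P.p (2 * (P.p * k - 4)) ∧
    v (algebraMap ℚ K P.freyCurve.a₄) = v (2 : K) ^ (P.p * k - 4) := by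
  obtain ⟨k, b', hk0, hb', -, hpk, ha₄⟩ := exists_a₄ P
  refine ⟨k, hk0, hpk, coprime_depth P hpk, ?_⟩
  rw [ha₄, map_intCast]
  push_cast
  rw [map_mul, map_mul, Valuation.map_neg, map_pow, map_pow, map_pow,
    val_odd_eq_one v hv2 (odd_a P), val_odd_eq_one v hv2 hb', one_pow, one_mul, mul_one]

theorem val_a₄_lt_one (hv2 : v (2 : K) < 1) : v (algebraMap ℚ K P.freyCurve.a₄) < 1 := by
  obtain ⟨k, -, hpk, -, h⟩ := val_a₄ v P hv2
  rw [h]
  exact pow_lt_one' hv2 (by omega)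

theorem a₄_ne_zero : P.freyCurve.a₄ ≠ 0 := by
  simp only [FreyPackage.freyCurve]
  have ha : (P.a : ℚ) ≠ 0 := by exact_mod_cast P.ha0
  have hb : (P.b : ℚ) ≠ 0 := by exact_mod_cast P.hb0
  have : (P.a : ℚ) ^ P.p ≠ 0 := pow_ne_zero _ ha
  have : (P.b : ℚ) ^ P.p ≠ 0 := pow_ne_zero _ hb
  simp [*]

open Fermat.Agent.S05.helper305 in
/-- The Frey curve over `K` in shape coordinates without shift: `e = 0`, `al = b₂ / 4`,
`be = a₄` (valid in characteristic zero, in particular at the prime `2`). -/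
theorem frey_shape_zero :
    Shape (P.freyCurve.map (algebraMap ℚ K)) 0 (algebraMap ℚ K (P.freyCurve.b₂ / 4))
      (algebraMap ℚ K P.freyCurve.a₄) := by
  have hc : CharZero K := charZero_of_injective_algebraMap (algebraMap ℚ K).injective
  have h4 : (4 : K) ≠ 0 := by norm_num
  refine ⟨two_ne_zero, ?_, ?_, ?_⟩
  · rw [WeierstrassCurve.map_b₂, map_div₀, map_ofNat]
    field_simp
    ring
  · rw [WeierstrassCurve.map_b₄]
    have e : P.freyCurve.b₄ = 2 * P.freyCurve.a₄ := by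
      simp only [WeierstrassCurve.b₄, FreyPackage.freyCurve]
      ring
    rw [e, map_mul, map_ofNat]
    ring
  · rw [WeierstrassCurve.map_b₆]
    have e : P.freyCurve.b₆ = 0 := by
      simp only [WeierstrassCurve.b₆, FreyPackage.freyCurve]
      ring
    rw [e, map_zero]
    ring

/-- `v (4 * al) = 1` for `al = b₂ / 4`. -/
theorem val_four_mul_al (hv2 : v (2 : K) < 1) :
    v (4 * algebraMap ℚ K (P.freyCurve.b₂ / 4)) = 1 := by
  have hc : CharZero K := charZero_of_injective_algebraMap (algebraMap ℚ K).injective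
  have h4 : (4 : K) ≠ 0 := by norm_num
  have e : 4 * algebraMap ℚ K (P.freyCurve.b₂ / 4) = algebraMap ℚ K P.freyCurve.b₂ := by
    rw [map_div₀, map_ofNat]
    field_simp
  rw [e]
  exact val_b₂_eq_one v P hv2

theorem map_a₄_ne_zero : algebraMap ℚ K P.freyCurve.a₄ ≠ 0 :=
  (map_ne_zero (algebraMap ℚ K)).mpr (a₄_ne_zero P)

end valuation

end Fermat.Agent.S13.helper172
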