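/-
S13, ingredient I4 (`no_fixed`): the `p`-torsion of the Frey curve over `ℚ̄` has no nonzero
point fixed by the whole absolute Galois group of `ℚ`.

Route: a fixed point has rational coordinates (Galois descent), hence comes from a rational
point of order `p`; the Frey curve `y² + xy = x³ + a₂x² + a₄x` has `b₂ = b^p - a^p` odd and
`ord₂ a₄ = p·ord₂ b - 4 > 0` prime to `p`, so `no_rational_torsion` (2-adic tropical
Kummer-line argument, `helper149_RatTorsion`) excludes rational points of order `p`.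
-/
import Mathlib
import Fermat.Prelude.Def_FLTPrelim_FreyPackage
import Fermat.Prelude.Def_FLTPrelim_GaloisRep
import Fermat.Agent.S13.helper172_FreyAtTwo
import Fermat.Agent.S13.helper149_RatTorsion

set_option autoImplicit false

open WeierstrassCurve WeierstrassCurve.Affine WeierstrassCurve.Affine.Point

namespace Fermat.Agent.S13.helper149

/-! ### The Frey curve has no rational point of order `p` -/

/-- The Frey curve (base-changed to `ℚ` along the identity) has no rational `p`-torsion. -/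
theorem frey_no_rational_torsion (P : FreyPackage) (T : ((P.freyCurve)⁄ℚ).Point)
    (hT : P.p • T = 0) : T = 0 := by
  obtain ⟨k, hk0, hpk, hcop, hval⟩ := Fermat.Agent.S13.helper172.padicValRat_a₄ P
  obtain ⟨n, hn, -, hb⟩ := Fermat.Agent.S13.helper172.exists_b₂ P
  have ha₄ : ((P.freyCurve)⁄ℚ).a₄ = P.freyCurve.a₄ := by
    simp [WeierstrassCurve.baseChange]
  have hb₂ : ((P.freyCurve)⁄ℚ).b₂ = P.freyCurve.b₂ := by
    simp [WeierstrassCurve.baseChange]
  have hn0 : (n : ℚ) ≠ 0 := by
    intro h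
    have : n = 0 := by exact_mod_cast h
    rw [this] at hn
    exact absurd hn (by decide)
  have hon : padicValRat 2 (n : ℚ) = 0 := by
    rw [padicValRat.of_int]
    have : ¬ ((2 : ℕ) : ℤ) ∣ n := by
      rw [← Int.not_even_iff_odd, even_iff_two_dvd] at hn
      exact_mod_cast hn
    exact_mod_cast padicValInt.eq_zero_of_not_dvd this
  refine no_rational_torsion ((P.freyCurve)⁄ℚ) ?_ ?_ ?_ ?_ ?_ ?_ P.pp P.hp5 ?_ T hT
  · simp [WeierstrassCurve.baseChange, FreyPackage.freyCurve]
  · simp [WeierstrassCurve.baseChange, FreyPackage.freyCurve]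
  · rw [ha₄]
    exact Fermat.Agent.S13.helper172.a₄_ne_zero P
  · rw [ha₄, hval]
    have : 0 < P.p * k - 4 := by omega
    exact_mod_cast this
  · rw [hb₂, hb]
    exact hn0
  · rw [hb₂, hb]
    exact hon
  · rw [ha₄, hval]
    intro hd
    have hd' : P.p ∣ 2 * (P.p * k - 4) := by exact_mod_cast hd
    have h1 : P.p ∣ 1 := by
      have := Nat.dvd_gcd (dvd_refl P.p) hd'
      rwa [Nat.Coprime.gcd_eq_one hcop] at this
    have := P.hp5
    have := Nat.le_of_dvd one_pos h1
    omega

/-! ### Galois descent for a fixed point -/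

/-- The `ℚ`-algebra structure used by the frozen definitions on `AlgebraicClosure ℚ` is the
one of the algebraic closure. -/
theorem ratAlgebra_eq' :
    (DivisionRing.toRatAlgebra : Algebra ℚ (AlgebraicClosure ℚ)) =
      AlgebraicClosure.instAlgebra ℚ :=
  Subsingleton.elim _ _

theorem isGalois_rat' : IsGalois ℚ (AlgebraicClosure ℚ) := by
  have h : IsAlgClosure ℚ (AlgebraicClosure ℚ) := by
    rw [ratAlgebra_eq']
    infer_instance
  infer_instance

/-- An element of `AlgebraicClosure ℚ` fixed by every `ℚ`-automorphism is rational. -/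
theorem fixed_mem_range' (x : AlgebraicClosure ℚ)
    (h : ∀ σ : AlgebraicClosure ℚ ≃ₐ[ℚ] AlgebraicClosure ℚ, σ x = x) :
    ∃ q : ℚ, algebraMap ℚ (AlgebraicClosure ℚ) q = x :=
  haveI := isGalois_rat'
  (InfiniteGalois.mem_range_algebraMap_iff_fixed (k := ℚ) (K := AlgebraicClosure ℚ) x).mpr h

/-- A point of `E(ℚ̄)` fixed by the absolute Galois group comes from `E(ℚ)`. -/
theorem exists_rational_of_fixed (E : WeierstrassCurve ℚ)
    (Q : (E⁄(AlgebraicClosure ℚ)).Point)
    (hQ : ∀ σ : AlgebraicClosure ℚ ≃ₐ[ℚ] AlgebraicClosure ℚ, σ • Q = Q) :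
    ∃ T : (E⁄ℚ).Point, Point.map (W' := E) (Algebra.ofId ℚ (AlgebraicClosure ℚ)) T = Q := by
  rcases Q with _ | ⟨X, Y, h⟩
  · exact ⟨0, rfl⟩
  · have hX : ∀ σ : AlgebraicClosure ℚ ≃ₐ[ℚ] AlgebraicClosure ℚ, σ X = X := fun σ =>
      (Point.some.inj (hQ σ)).1
    have hY : ∀ σ : AlgebraicClosure ℚ ≃ₐ[ℚ] AlgebraicClosure ℚ, σ Y = Y := fun σ =>
      (Point.some.inj (hQ σ)).2
    obtain ⟨q₁, rfl⟩ := fixed_mem_range' X hX
    obtain ⟨q₂, rfl⟩ := fixed_mem_range' Y hY
    have h' : (E⁄ℚ).Nonsingular q₁ q₂ :=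
      (WeierstrassCurve.Affine.baseChange_nonsingular E
        (Algebra.ofId ℚ (AlgebraicClosure ℚ)).injective q₁ q₂).mp h
    exact ⟨Point.some q₁ q₂ h', rfl⟩

/-- **S13-I4 (`no_fixed`).** The `p`-torsion of the Frey curve over `ℚ̄` has no nonzero point
fixed by the absolute Galois group of `ℚ`. -/
theorem no_fixed (P : FreyPackage)
    (x : Submodule.torsionBy ℤ ((P.freyCurve)⁄(AlgebraicClosure ℚ)).Point P.p)
    (hx : ∀ σ : AlgebraicClosure ℚ ≃ₐ[ℚ] AlgebraicClosure ℚ, σ • x = x) : x = 0 := by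
  have hQ : ∀ σ : AlgebraicClosure ℚ ≃ₐ[ℚ] AlgebraicClosure ℚ,
      σ • (x : ((P.freyCurve)⁄(AlgebraicClosure ℚ)).Point) = x := fun σ =>
    congrArg Subtype.val (hx σ)
  obtain ⟨T, hT⟩ := exists_rational_of_fixed P.freyCurve _ hQ
  have htors : (P.p : ℤ) • (x : ((P.freyCurve)⁄(AlgebraicClosure ℚ)).Point) = 0 :=
    (Submodule.mem_torsionBy_iff _ _).mp x.2
  have hT0 : T = 0 := by
    apply frey_no_rational_torsion P T
    apply Point.map_injective (W' := P.freyCurve) (Algebra.ofId ℚ (AlgebraicClosure ℚ))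
    rw [map_nsmul, hT, _root_.map_zero]
    rw [← natCast_zsmul]
    exact htors
  apply Subtype.ext
  rw [← hT, hT0]
  rfl

end Fermat.Agent.S13.helper149
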