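import Mathlib

/-!
# Odd torsion at a place of residue characteristic two (helper1537, S13 ingredient I3)

Abstract local theorem.  `K` is a field with a valuation `v` such that `v 2 < 1`, and `W` is a
Weierstrass curve `y² + a₁xy = x³ + a₂x² + a₄x` with `v a₁ = 1`, `v a₂ ≤ 1`, `0 < v a₄ < 1`
(a node at the origin of the reduction).  `Φ` is an additive endomorphism of the group of points
given on coordinates by a ring endomorphism `σ` of `K` which preserves `v` and is trivial
modulo the maximal ideal (an inertia element).  Then for every point `T` of odd order,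
`Φ (Φ T - T) = Φ T - T`.

Four computations: (A) duplication strictly increases `v x` on `{1 < v x}`, so this set contains
no point of odd order; (B) two points with the same nonsingular reduction differ by a point of
`{1 < v x}`; (C) two points of the node region with the same depth and the same tangent
direction differ by a point with `1 ≤ v x`; (D) translation by `(0,0)` maps `x` to `a₄ / x`.
-/

set_option autoImplicit false

namespace Fermat.Agent.S13.helper1537

open WeierstrassCurve WeierstrassCurve.Affine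

section field

variable {K : Type*} [Field K] {Γ₀ : Type*} [LinearOrderedCommGroupWithZero Γ₀]

/-- Standing hypotheses: node at the origin, residue characteristic two. -/
structure TwoNode (v : Valuation K Γ₀) (W : Affine K) : Prop where
  a₃ : W.a₃ = 0
  a₆ : W.a₆ = 0
  va₁ : v W.a₁ = 1
  va₂ : v W.a₂ ≤ 1
  va₄ : v W.a₄ < 1
  a₄_ne : W.a₄ ≠ 0
  v2 : v 2 < 1

variable {v : Valuation K Γ₀} {W : Affine K}

namespace TwoNode

theorem equation_iff (hW : TwoNode v W) (x y : K) :
    W.Equation x y ↔ y ^ 2 + W.a₁ * x * y = x ^ 3 + W.a₂ * x ^ 2 + W.a₄ * x := by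
  rw [Affine.equation_iff, hW.a₃, hW.a₆]; simp

theorem negY_eq (hW : TwoNode v W) (x y : K) : W.negY x y = -y - W.a₁ * x := by
  simp [Affine.negY, hW.a₃]

theorem val_two_mul_lt (hW : TwoNode v W) {y : K} (hy : v y ≤ 1) : v (2 * y) < 1 := by
  rw [map_mul]
  calc v 2 * v y ≤ v 2 * 1 := mul_le_mul' le_rfl hy
    _ = v 2 := mul_one _
    _ < 1 := hW.v2

theorem val_four_lt (hW : TwoNode v W) : v (4 : K) < 1 := by
  have h4 : (4 : K) = 2 * 2 := by norm_num
  rw [h4]
  exact hW.val_two_mul_lt hW.v2.le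

/-- `a₁ x + 2 y` is a unit when `x` is a unit and `y` is integral. -/
theorem val_unit_add (hW : TwoNode v W) {x y : K} (hx : v x = 1) (hy : v y ≤ 1) :
    v (W.a₁ * x + 2 * y) = 1 := by
  have h1 : v (W.a₁ * x) = 1 := by rw [map_mul, hW.va₁, hx, one_mul]
  have h2 : v (2 * y) < v (W.a₁ * x) := by rw [h1]; exact hW.val_two_mul_lt hy
  rw [v.map_add_eq_of_lt_left h2, h1]

/-- `a₁ + 2 ρ` is a unit when `ρ` is integral. -/
theorem val_unit_add' (hW : TwoNode v W) {ρ : K} (hρ : v ρ ≤ 1) :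
    v (W.a₁ + 2 * ρ) = 1 := by
  have h2 : v (2 * ρ) < v W.a₁ := by rw [hW.va₁]; exact hW.val_two_mul_lt hρ
  rw [v.map_add_eq_of_lt_left h2, hW.va₁]

/-- Integral `x` forces integral `y`. -/
theorem val_y_le_one (hW : TwoNode v W) {x y : K} (h : W.Equation x y) (hx : v x ≤ 1) :
    v y ≤ 1 := by
  by_contra hy
  push Not at hy
  rw [hW.equation_iff] at h
  have hR : v (x ^ 3 + W.a₂ * x ^ 2 + W.a₄ * x) ≤ 1 := by
    refine v.map_add_le (v.map_add_le ?_ ?_) ?_
    · rw [map_pow]; exact pow_le_one₀ zero_le hx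
    · rw [map_mul, map_pow]; exact mul_le_one' hW.va₂ (pow_le_one₀ zero_le hx)
    · rw [map_mul]; exact mul_le_one' hW.va₄.le hx
  have hpos : (0 : Γ₀) < v y := lt_trans zero_lt_one hy
  have hL : v (y ^ 2 + W.a₁ * x * y) = v y ^ 2 := by
    rw [Valuation.map_add_eq_of_lt_left, map_pow]
    rw [map_pow, map_mul, map_mul, hW.va₁, one_mul, pow_two]
    calc v x * v y ≤ 1 * v y := mul_le_mul' hx le_rfl
      _ < v y * v y := mul_lt_mul_of_pos_right hy hpos
  rw [h] at hL
  have h2 : 1 < v y ^ 2 := one_lt_pow₀ hy two_ne_zero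
  rw [← hL] at h2
  exact absurd hR (not_le.mpr h2)


/-- The node equation: with `y = ρ x`, `x ≠ 0`, the curve reads `x (ρ² + a₁ρ - a₂ - x) = a₄`. -/
theorem node_eq (hW : TwoNode v W) {x ρ : K} (h : W.Equation x (ρ * x)) (hx0 : x ≠ 0) :
    x * (ρ ^ 2 + W.a₁ * ρ - W.a₂ - x) = W.a₄ := by
  rw [hW.equation_iff] at h
  apply mul_left_cancel₀ hx0
  linear_combination h

/-- In the node region the tangent direction `ρ = y / x` is integral. -/
theorem val_rho_le_one (hW : TwoNode v W) {x ρ : K} (h : W.Equation x (ρ * x)) (hx0 : x ≠ 0)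
    (hx1 : v x ≤ 1) (hx4 : v W.a₄ < v x) : v ρ ≤ 1 := by
  by_contra hρ
  push Not at hρ
  have hne := hW.node_eq h hx0
  have hxpos : (0 : Γ₀) < v x := (Valuation.pos_iff v).mpr hx0
  have hρpos : (0 : Γ₀) < v ρ := lt_trans zero_lt_one hρ
  have hρ2 : v ρ < v ρ ^ 2 := lt_self_pow₀ hρ (by norm_num)
  have h1 : v (W.a₁ * ρ - W.a₂ - x) < v (ρ ^ 2) := by
    rw [map_pow]
    refine v.map_sub_lt (v.map_sub_lt ?_ ?_) ?_
    · rw [map_mul, hW.va₁, one_mul]; exact hρ2
    · exact lt_of_le_of_lt hW.va₂ (lt_trans hρ hρ2)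
    · exact lt_of_le_of_lt hx1 (lt_trans hρ hρ2)
  have h2 : v (ρ ^ 2 + W.a₁ * ρ - W.a₂ - x) = v ρ ^ 2 := by
    have e : ρ ^ 2 + W.a₁ * ρ - W.a₂ - x = ρ ^ 2 + (W.a₁ * ρ - W.a₂ - x) := by ring
    rw [e, v.map_add_eq_of_lt_left h1, map_pow]
  have h3 := congrArg v hne
  rw [map_mul, h2] at h3
  have h4 : v x * 1 < v x * v ρ ^ 2 :=
    mul_lt_mul_of_pos_left (lt_trans hρ hρ2) hxpos
  rw [mul_one, h3] at h4
  exact absurd hx4 (not_lt.mpr h4.le)

end TwoNode

end field

section points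

set_option linter.unusedSectionVars false

variable {K : Type*} [Field K] [DecidableEq K] {Γ₀ : Type*} [LinearOrderedCommGroupWithZero Γ₀]
variable {v : Valuation K Γ₀} {W : Affine K}

theorem eq_zero_of_nsmul_coprime {G : Type*} [AddGroup G] {P : G} {a b : ℕ} (ha : a • P = 0)
    (hb : b • P = 0) (hab : Nat.Coprime a b) : P = 0 := by
  have h1 := addOrderOf_dvd_of_nsmul_eq_zero ha
  have h2 := addOrderOf_dvd_of_nsmul_eq_zero hb
  have h3 : addOrderOf P = 1 := Nat.eq_one_of_dvd_coprimes hab h1 h2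
  exact AddMonoid.addOrderOf_eq_one_iff.mp h3

theorem some_congr {x x' y y' : K} (hx : x = x') (hy : y = y') (h : W.Nonsingular x y)
    (h' : W.Nonsingular x' y') : (Point.some x y h : W.Point) = Point.some x' y' h' := by
  subst hx hy; rfl

namespace TwoNode

/-- Duplication formula. -/
theorem dup_formula (hW : TwoNode v W) {x y : K} (h : W.Equation x y) (hy : y ≠ W.negY x y) :
    W.addX x x ((3 * x ^ 2 + 2 * W.a₂ * x + W.a₄ - W.a₁ * y) / (y - W.negY x y)) *
      (x * (4 * x ^ 2 + (W.a₁ ^ 2 + 4 * W.a₂) * x + 4 * W.a₄)) = (x ^ 2 - W.a₄) ^ 2 := by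
  have hD : y - W.negY x y ≠ 0 := sub_ne_zero.mpr hy
  rw [hW.negY_eq] at hD ⊢
  rw [hW.equation_iff] at h
  set D := y - (-y - W.a₁ * x) with hDdef
  set N := 3 * x ^ 2 + 2 * W.a₂ * x + W.a₄ - W.a₁ * y with hNdef
  have hℓ : N / D * D = N := div_mul_cancel₀ N hD
  have hD2 : D ^ 2 = x * (4 * x ^ 2 + (W.a₁ ^ 2 + 4 * W.a₂) * x + 4 * W.a₄) := by
    rw [hDdef]; linear_combination 4 * h
  have hX : W.addX x x (N / D) * D ^ 2 = N ^ 2 + W.a₁ * N * D - (W.a₂ + 2 * x) * D ^ 2 := by
    simp only [Affine.addX]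
    linear_combination (N / D * D + N + W.a₁ * D) * hℓ
  have hN : N ^ 2 + W.a₁ * N * D - (W.a₂ + 2 * x) * D ^ 2 = (x ^ 2 - W.a₄) ^ 2 := by
    rw [hDdef, hNdef]; linear_combination (-(8 * x + W.a₁ ^ 2 + 4 * W.a₂)) * h
  rw [← hD2, hX, hN]

/-- (A0) Duplication strictly increases `v x` on the kernel of reduction. -/
theorem dbl (hW : TwoNode v W) {x y : K} (h : W.Nonsingular x y) (hx : 1 < v x)
    (hy : y ≠ W.negY x y) :
    ∃ x₂ y₂, ∃ h₂ : W.Nonsingular x₂ y₂,
      (Point.some x y h : W.Point) + Point.some x y h = Point.some x₂ y₂ h₂ ∧ v x < v x₂ := by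
  refine ⟨_, _, _, Point.add_self_of_Y_ne hy, ?_⟩
  rw [slope_of_Y_ne rfl hy]
  have key := congrArg v (hW.dup_formula h.1 hy)
  have hxpos : (0 : Γ₀) < v x := lt_trans zero_lt_one hx
  have hx2 : v x < v x ^ 2 := lt_self_pow₀ hx (by norm_num)
  have hnum : v ((x ^ 2 - W.a₄) ^ 2) = v x ^ 4 := by
    have h4 : v W.a₄ < v (x ^ 2) := by
      rw [map_pow]; exact lt_trans hW.va₄ (lt_trans hx hx2)
    rw [map_pow, v.map_sub_eq_of_lt_left h4, map_pow, ← pow_mul]
  have hden : v (4 * x ^ 2 + (W.a₁ ^ 2 + 4 * W.a₂) * x + 4 * W.a₄) < v x ^ 2 := by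
    refine v.map_add_lt (v.map_add_lt ?_ ?_) ?_
    · rw [map_mul, map_pow]
      calc v 4 * v x ^ 2 < 1 * v x ^ 2 :=
            mul_lt_mul_of_pos_right hW.val_four_lt (pow_pos hxpos 2)
        _ = v x ^ 2 := one_mul _
    · rw [map_mul]
      have hb : v (W.a₁ ^ 2 + 4 * W.a₂) ≤ 1 := by
        refine v.map_add_le ?_ ?_
        · rw [map_pow, hW.va₁, one_pow]
        · rw [map_mul]; exact mul_le_one' hW.val_four_lt.le hW.va₂
      calc v (W.a₁ ^ 2 + 4 * W.a₂) * v x ≤ 1 * v x := mul_le_mul' hb le_rfl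
        _ = v x := one_mul _
        _ < v x ^ 2 := hx2
    · rw [map_mul]
      calc v 4 * v W.a₄ ≤ 1 * 1 := mul_le_mul' hW.val_four_lt.le hW.va₄.le
        _ = 1 := one_mul _
        _ < v x ^ 2 := lt_trans hx hx2
  rw [map_mul, map_mul, hnum] at key
  by_contra hle
  push Not at hle
  set X₂ := W.addX x x ((3 * x ^ 2 + 2 * W.a₂ * x + W.a₄ - W.a₁ * y) / (y - W.negY x y))
  set d := v (4 * x ^ 2 + (W.a₁ ^ 2 + 4 * W.a₂) * x + 4 * W.a₄)
  have h1 : v X₂ * (v x * d) ≤ v x * (v x * d) := mul_le_mul' hle le_rfl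
  have h2 : v x * (v x * d) < v x * (v x * v x ^ 2) :=
    mul_lt_mul_of_pos_left (mul_lt_mul_of_pos_left hden hxpos) hxpos
  have h3 : v x * (v x * v x ^ 2) = v x ^ 4 := by
    rw [← pow_succ', ← pow_succ']
  rw [key] at h1
  rw [h3] at h2
  exact absurd (lt_of_le_of_lt h1 h2) (lt_irrefl _)


/-- (A) The kernel of reduction contains no point of odd order. -/
theorem no_odd_torsion (hW : TwoNode v W) {x y : K} (h : W.Nonsingular x y) (hx : 1 < v x)
    {n : ℕ} (hn : Odd n) (hT : n • (Point.some x y h : W.Point) = 0) : False := by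
  have hP0 : (Point.some x y h : W.Point) ≠ 0 := Point.some_ne_zero h
  have h2n : Nat.Coprime 2 n := Nat.coprime_two_left.mpr hn
  have key : ∀ k : ℕ, ∃ xk yk, ∃ hk : W.Nonsingular xk yk,
      2 ^ k • (Point.some x y h : W.Point) = Point.some xk yk hk ∧ v x ≤ v xk ∧
        (0 < k → v x < v xk) := by
    intro k
    induction k with
    | zero => exact ⟨x, y, h, by simp, le_rfl, fun h0 => absurd h0 (lt_irrefl 0)⟩
    | succ k ih =>
      obtain ⟨xk, yk, hk, hPk, hle, -⟩ := ih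
      have hdbl : 2 ^ (k + 1) • (Point.some x y h : W.Point) =
          Point.some xk yk hk + Point.some xk yk hk := by
        rw [pow_succ, mul_nsmul, hPk, two_nsmul]
      by_cases hy : yk = W.negY xk yk
      · exfalso
        have h0 : 2 ^ (k + 1) • (Point.some x y h : W.Point) = 0 := by
          rw [hdbl]; exact Point.add_self_of_Y_eq hy
        exact hP0 (eq_zero_of_nsmul_coprime h0 hT (Nat.Coprime.pow_left _ h2n))
      · obtain ⟨x₂, y₂, h₂, hsum, hlt⟩ := hW.dbl hk (lt_of_lt_of_le hx hle) hy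
        exact ⟨x₂, y₂, h₂, by rw [hdbl, hsum], hle.trans hlt.le, fun _ => lt_of_le_of_lt hle hlt⟩
  have hnpos : 0 < n := hn.pos
  obtain ⟨xk, yk, hk, hPk, -, hlt⟩ := key (Nat.totient n)
  have hmod : 2 ^ Nat.totient n ≡ 1 [MOD n] := Nat.ModEq.pow_totient h2n
  have hback : 2 ^ Nat.totient n • (Point.some x y h : W.Point) = Point.some x y h := by
    have hdvd : n ∣ 2 ^ Nat.totient n - 1 :=
      (Nat.modEq_iff_dvd' Nat.one_le_two_pow).mp hmod.symm
    obtain ⟨c, hc⟩ := hdvd
    have hpow : 2 ^ Nat.totient n = n * c + 1 := by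
      have := Nat.one_le_two_pow (n := Nat.totient n)
      omega
    rw [hpow, add_nsmul, mul_nsmul, hT, nsmul_zero, zero_add, one_nsmul]
  rw [hback, Point.some.injEq] at hPk
  have h1 := hlt (Nat.totient_pos.mpr hnpos)
  rw [← hPk.1] at h1
  exact lt_irrefl _ h1

/-- (B) Two points with the same nonsingular reduction differ by a point of the kernel of
reduction. -/
theorem same_red (hW : TwoNode v W) {x y x' y' : K} (h : W.Nonsingular x y)
    (h' : W.Nonsingular x' y') (hx : v x = 1) (hxx : v (x' - x) < 1) (hyy : v (y' - y) < 1) :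
    (Point.some x' y' h' : W.Point) - Point.some x y h = 0 ∨
      ∃ x₃ y₃, ∃ h₃ : W.Nonsingular x₃ y₃,
        (Point.some x' y' h' : W.Point) - Point.some x y h = Point.some x₃ y₃ h₃ ∧ 1 < v x₃ := by
  have hy : v y ≤ 1 := hW.val_y_le_one h.1 hx.le
  have hunit : v (W.a₁ * x + 2 * y) = 1 := hW.val_unit_add hx hy
  rw [sub_eq_add_neg, Point.neg_some]
  by_cases hxe : x' = x
  · subst hxe
    rcases Y_eq_of_X_eq h'.1 h.1 rfl with rfl | hy'
    · left
      exact Point.add_of_Y_eq rfl (W.negY_negY x' y').symm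
    · exfalso
      rw [hW.negY_eq] at hy'
      have e : y' - y = -(W.a₁ * x' + 2 * y) := by rw [hy']; ring
      rw [e, Valuation.map_neg, hunit] at hyy
      exact lt_irrefl _ hyy
  · right
    refine ⟨_, _, _, Point.add_of_X_ne hxe, ?_⟩
    rw [slope_of_X_ne hxe, hW.negY_eq]
    have hd : x' - x ≠ 0 := sub_ne_zero.mpr hxe
    have hdpos : (0 : Γ₀) < v (x' - x) := (Valuation.pos_iff v).mpr hd
    have hnum : v (y' - (-y - W.a₁ * x)) = 1 := by
      have e : y' - (-y - W.a₁ * x) = (W.a₁ * x + 2 * y) + (y' - y) := by ring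
      have hlt : v (y' - y) < v (W.a₁ * x + 2 * y) := by rw [hunit]; exact hyy
      rw [e, v.map_add_eq_of_lt_left hlt, hunit]
    set ℓ := (y' - (-y - W.a₁ * x)) / (x' - x) with hℓ
    have hvℓ : 1 < v ℓ := by
      rw [hℓ, map_div₀, hnum, one_div]
      exact (one_lt_inv₀ hdpos).mpr hxx
    have hℓ2 : v ℓ < v ℓ ^ 2 := lt_self_pow₀ hvℓ (by norm_num)
    have hx' : v x' ≤ 1 := by
      have e : x' = x + (x' - x) := by ring
      rw [e]; exact v.map_add_le hx.le hxx.le
    have hrest : v (W.a₁ * ℓ - W.a₂ - x' - x) < v (ℓ ^ 2) := by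
      rw [map_pow]
      refine v.map_sub_lt (v.map_sub_lt (v.map_sub_lt ?_ ?_) ?_) ?_
      · rw [map_mul, hW.va₁, one_mul]; exact hℓ2
      · exact lt_of_le_of_lt hW.va₂ (lt_trans hvℓ hℓ2)
      · exact lt_of_le_of_lt hx' (lt_trans hvℓ hℓ2)
      · exact lt_of_le_of_lt hx.le (lt_trans hvℓ hℓ2)
    have e : W.addX x' x ℓ = ℓ ^ 2 + (W.a₁ * ℓ - W.a₂ - x' - x) := by
      simp only [Affine.addX]; ring
    rw [e, v.map_add_eq_of_lt_left hrest, map_pow]
    exact lt_trans hvℓ hℓ2

/-- (C) Two points of the node region with the same depth and the same tangent direction differ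
by a point with `1 ≤ v x`. -/
theorem node_red (hW : TwoNode v W) {x y x' y' : K} (h : W.Nonsingular x y)
    (h' : W.Nonsingular x' y') (hx1 : v x < 1) (hx4 : v W.a₄ < v x) (hxx : v x' = v x)
    (hρ : v (y' / x' - y / x) < 1) :
    (Point.some x' y' h' : W.Point) - Point.some x y h = 0 ∨
      ∃ x₃ y₃, ∃ h₃ : W.Nonsingular x₃ y₃,
        (Point.some x' y' h' : W.Point) - Point.some x y h = Point.some x₃ y₃ h₃ ∧ 1 ≤ v x₃ := by
  have hxpos : (0 : Γ₀) < v x := lt_of_le_of_lt zero_le hx4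
  have hx0 : x ≠ 0 := (Valuation.pos_iff v).mp hxpos
  have hx0' : x' ≠ 0 := (Valuation.pos_iff v).mp (hxx ▸ hxpos)
  obtain ⟨ρ, rfl⟩ : ∃ ρ, y = ρ * x := ⟨y / x, by field_simp⟩
  obtain ⟨ρ', rfl⟩ : ∃ ρ', y' = ρ' * x' := ⟨y' / x', by field_simp⟩
  rw [mul_div_cancel_right₀ _ hx0, mul_div_cancel_right₀ _ hx0'] at hρ
  have hρle : v ρ ≤ 1 := hW.val_rho_le_one h.1 hx0 hx1.le hx4
  have hunit : v (W.a₁ + 2 * ρ) = 1 := hW.val_unit_add' hρle
  rw [sub_eq_add_neg, Point.neg_some]
  by_cases hxe : x' = x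
  · subst hxe
    rcases Y_eq_of_X_eq h'.1 h.1 rfl with hy' | hy'
    · left
      have hρρ : ρ' = ρ := mul_right_cancel₀ hx0 hy'
      subst hρρ
      exact Point.add_of_Y_eq rfl (W.negY_negY x' (ρ' * x')).symm
    · exfalso
      rw [hW.negY_eq] at hy'
      have e : ρ' - ρ = -(W.a₁ + 2 * ρ) := by
        apply mul_right_cancel₀ hx0
        linear_combination hy'
      rw [e, Valuation.map_neg, hunit] at hρ
      exact lt_irrefl _ hρ
  · right
    refine ⟨_, _, _, Point.add_of_X_ne hxe, ?_⟩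
    rw [slope_of_X_ne hxe, hW.negY_eq]
    have hd : x' - x ≠ 0 := sub_ne_zero.mpr hxe
    have hdpos : (0 : Γ₀) < v (x' - x) := (Valuation.pos_iff v).mpr hd
    have hdle : v (x' - x) ≤ v x := v.map_sub_le hxx.le le_rfl
    set M := ρ' * x' - (-(ρ * x) - W.a₁ * x) with hM
    set w := ρ + ρ' + W.a₁ with hw
    have hℓ : M / (x' - x) * (x' - x) = M := div_mul_cancel₀ M hd
    have hne' := hW.node_eq h'.1 hx0'
    -- the key identity
    have hid : W.addX x' x (M / (x' - x)) * (x' - x) ^ 2 =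
        x * x' * w ^ 2 + (x * w * (ρ' - ρ) * (x' - x) +
          ((ρ' ^ 2 + W.a₁ * ρ' - W.a₂ - x') - x) * (x' - x) ^ 2) := by
      simp only [Affine.addX]
      have h1 : (M / (x' - x)) ^ 2 * (x' - x) ^ 2 = M ^ 2 := by rw [← mul_pow, hℓ]
      have h2 : M ^ 2 + W.a₁ * M * (x' - x) - (W.a₂ + x' + x) * (x' - x) ^ 2 =
          x * x' * w ^ 2 + (x * w * (ρ' - ρ) * (x' - x) +
            ((ρ' ^ 2 + W.a₁ * ρ' - W.a₂ - x') - x) * (x' - x) ^ 2) := by
        rw [hM, hw]; ring
      linear_combination h1 + W.a₁ * (x' - x) * hℓ + h2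
    -- valuations
    have hvw : v w = 1 := by
      have e : w = (W.a₁ + 2 * ρ) + (ρ' - ρ) := by rw [hw]; ring
      have hlt : v (ρ' - ρ) < v (W.a₁ + 2 * ρ) := by rw [hunit]; exact hρ
      rw [e, v.map_add_eq_of_lt_left hlt, hunit]
    have hG : v (ρ' ^ 2 + W.a₁ * ρ' - W.a₂ - x') < 1 := by
      have h3 := congrArg v hne'
      rw [map_mul, hxx] at h3
      by_contra hc
      push Not at hc
      have h4 : v x * 1 ≤ v x * v (ρ' ^ 2 + W.a₁ * ρ' - W.a₂ - x') := mul_le_mul' le_rfl hc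
      rw [mul_one, h3] at h4
      exact absurd hx4 (not_lt.mpr h4)
    have hmain : v (x * x' * w ^ 2) = v x ^ 2 := by
      rw [map_mul, map_mul, map_pow, hvw, hxx, one_pow, mul_one, pow_two]
    have hr1 : v (x * w * (ρ' - ρ) * (x' - x)) < v x ^ 2 := by
      rw [map_mul, map_mul, map_mul, hvw, mul_one, pow_two, mul_assoc]
      apply mul_lt_mul_of_pos_left _ hxpos
      calc v (ρ' - ρ) * v (x' - x) ≤ v (ρ' - ρ) * v x := mul_le_mul' le_rfl hdle
        _ < 1 * v x := mul_lt_mul_of_pos_right hρ hxpos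
        _ = v x := one_mul _
    have hr2 : v (((ρ' ^ 2 + W.a₁ * ρ' - W.a₂ - x') - x) * (x' - x) ^ 2) < v x ^ 2 := by
      rw [map_mul, map_pow]
      have h5 : v ((ρ' ^ 2 + W.a₁ * ρ' - W.a₂ - x') - x) < 1 := v.map_sub_lt hG hx1
      calc v ((ρ' ^ 2 + W.a₁ * ρ' - W.a₂ - x') - x) * v (x' - x) ^ 2
          ≤ v ((ρ' ^ 2 + W.a₁ * ρ' - W.a₂ - x') - x) * v x ^ 2 :=
            mul_le_mul' le_rfl (pow_le_pow_left₀ zero_le hdle 2)
        _ < 1 * v x ^ 2 := mul_lt_mul_of_pos_right h5 (pow_pos hxpos 2)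
        _ = v x ^ 2 := one_mul _
    have hrest : v (x * w * (ρ' - ρ) * (x' - x) +
          ((ρ' ^ 2 + W.a₁ * ρ' - W.a₂ - x') - x) * (x' - x) ^ 2) < v (x * x' * w ^ 2) := by
      rw [hmain]; exact v.map_add_lt hr1 hr2
    have hval := congrArg v hid
    rw [v.map_add_eq_of_lt_left hrest, hmain, map_mul, map_pow] at hval
    -- `v X₃ * v (x' - x) ^ 2 = v x ^ 2` and `v (x' - x) ≤ v x`
    by_contra hc
    push Not at hc
    have h6 : v (W.addX x' x (M / (x' - x))) * v (x' - x) ^ 2 < 1 * v (x' - x) ^ 2 :=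
      mul_lt_mul_of_pos_right hc (pow_pos hdpos 2)
    rw [hval, one_mul] at h6
    exact absurd (pow_le_pow_left₀ zero_le hdle 2) (not_le.mpr h6)

/-- The point `(0, 0)`. -/
theorem nonsingular_zero (hW : TwoNode v W) : W.Nonsingular 0 0 := by
  rw [Affine.nonsingular_iff', hW.equation_iff]
  refine ⟨by ring, Or.inl ?_⟩
  simpa using hW.a₄_ne

/-- (D) Translation by `(0, 0)` maps `x` to `a₄ / x`. -/
theorem add_T0 (hW : TwoNode v W) {x y : K} (h : W.Nonsingular x y) (hx0 : x ≠ 0) :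
    ∃ x₃ y₃, ∃ h₃ : W.Nonsingular x₃ y₃,
      (Point.some x y h : W.Point) + Point.some 0 0 hW.nonsingular_zero = Point.some x₃ y₃ h₃ ∧
        x₃ * x = W.a₄ := by
  refine ⟨_, _, _, Point.add_of_X_ne hx0, ?_⟩
  rw [slope_of_X_ne hx0]
  have heq := (hW.equation_iff x y).mp h.1
  have hℓ : (y - 0) / (x - 0) * x = y := by rw [sub_zero, sub_zero, div_mul_cancel₀ y hx0]
  simp only [Affine.addX]
  apply mul_right_cancel₀ hx0
  linear_combination heq + ((y - 0) / (x - 0) * x + y + W.a₁ * x) * hℓ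


/-- **Abstract local theorem at residue characteristic two.**  An inertia-like endomorphism
`Φ` of the group of points acts unipotently on every point of odd order. -/
theorem unipotent (hW : TwoNode v W) (σ : K →+* K) (hσv : ∀ x, v (σ x) = v x)
    (hσ1 : ∀ x, v x ≤ 1 → v (σ x - x) < 1) (Φ : W.Point →+ W.Point)
    (hΦ : ∀ x y (h : W.Nonsingular x y), ∃ h' : W.Nonsingular (σ x) (σ y),
      Φ (Point.some x y h) = Point.some (σ x) (σ y) h')
    {n : ℕ} (hn : Odd n) {T : W.Point} (hT : n • T = 0) : Φ (Φ T - T) = Φ T - T := by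
  have h2n : Nat.Coprime 2 n := Nat.coprime_two_left.mpr hn
  have keyA : ∀ Q : W.Point, n • Q = 0 → ∀ x y (h : W.Nonsingular x y),
      Q = Point.some x y h → ¬ 1 < v x := by
    intro Q hQ x y h hQe hx
    subst hQe
    exact hW.no_odd_torsion h hx hn hQ
  have torsD : ∀ Q : W.Point, n • Q = 0 → n • (Φ Q - Q) = 0 := by
    intro Q hQ
    rw [nsmul_sub, ← map_nsmul, hQ, map_zero, sub_zero]
  have keyU : ∀ x y (h : W.Nonsingular x y), v x = 1 →
      n • (Φ (Point.some x y h) - Point.some x y h) = 0 →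
      Φ (Point.some x y h) - Point.some x y h = 0 := by
    intro x y h hx hD
    obtain ⟨h', hΦQ⟩ := hΦ x y h
    have hy : v y ≤ 1 := hW.val_y_le_one h.1 hx.le
    rw [hΦQ] at hD ⊢
    rcases hW.same_red h h' hx (hσ1 x hx.le) (hσ1 y hy) with h0 | ⟨x₃, y₃, h₃, hD3, hx3⟩
    · exact h0
    · exact absurd hx3 (keyA _ hD x₃ y₃ h₃ hD3)
  rcases T with _ | ⟨x, y, h⟩
  · change Φ (Φ 0 - 0) = Φ 0 - 0
    simp
  have hT0 : (Point.some x y h : W.Point) ≠ 0 := Point.some_ne_zero h
  by_cases hx0 : x = 0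
  · exfalso
    subst hx0
    have heq := (hW.equation_iff 0 y).mp h.1
    have hy0 : y = 0 := by
      have : y ^ 2 = 0 := by linear_combination heq
      exact pow_eq_zero_iff (two_ne_zero) |>.mp this
    have h2 : 2 • (Point.some 0 y h : W.Point) = 0 := by
      rw [two_nsmul]
      exact Point.add_self_of_Y_eq (by rw [hW.negY_eq, hy0]; ring)
    exact hT0 (eq_zero_of_nsmul_coprime h2 hT h2n)
  have hxpos : (0 : Γ₀) < v x := (Valuation.pos_iff v).mpr hx0
  rcases lt_trichotomy (v x) 1 with hlt | heq | hgt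
  · by_cases hmid : v W.a₄ < v x
    · -- node region
      obtain ⟨h', hΦT⟩ := hΦ x y h
      have hρ : v (y / x) ≤ 1 := by
        have h1 : W.Equation x (y / x * x) := by rw [div_mul_cancel₀ y hx0]; exact h.1
        exact hW.val_rho_le_one h1 hx0 hlt.le hmid
      have hρσ : v (σ y / σ x - y / x) < 1 := by
        rw [← map_div₀]; exact hσ1 _ hρ
      have hD : n • (Φ (Point.some x y h) - Point.some x y h) = 0 := torsD _ hT
      rw [hΦT] at hD ⊢
      rcases hW.node_red h h' hlt hmid (hσv x) hρσ with h0 | ⟨x₃, y₃, h₃, hD3, hx3⟩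
      · rw [h0, map_zero]
      · have hx3' : v x₃ = 1 := le_antisymm (not_lt.mp (keyA _ hD x₃ y₃ h₃ hD3)) hx3
        rw [hD3] at hD ⊢
        exact sub_eq_zero.mp (keyU x₃ y₃ h₃ hx3' (torsD _ hD))
    · -- deep region
      push Not at hmid
      obtain ⟨x₃, y₃, h₃, hsum, hx3⟩ := hW.add_T0 h hx0
      have hΦT₀ : Φ (Point.some 0 0 hW.nonsingular_zero) = Point.some 0 0 hW.nonsingular_zero := by
        obtain ⟨h'', e⟩ := hΦ 0 0 hW.nonsingular_zero
        rw [e]
        exact some_congr (map_zero σ) (map_zero σ) _ _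
      have hT₀ : (Point.some 0 0 hW.nonsingular_zero : W.Point) +
          Point.some 0 0 hW.nonsingular_zero = 0 :=
        Point.add_self_of_Y_eq (by rw [hW.negY_eq]; ring)
      have hDD : Φ (Point.some x₃ y₃ h₃) - Point.some x₃ y₃ h₃ =
          Φ (Point.some x y h) - Point.some x y h := by
        rw [← hsum, map_add, hΦT₀]; abel
      have hv3 : 1 ≤ v x₃ := by
        have h3 := congrArg v hx3
        rw [map_mul] at h3
        by_contra hc
        push Not at hc
        have h4 : v x₃ * v x < 1 * v x := mul_lt_mul_of_pos_right hc hxpos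
        rw [h3, one_mul] at h4
        exact absurd hmid (not_le.mpr h4)
      rcases eq_or_lt_of_le hv3 with h1 | h1
      · have h5 := keyU x₃ y₃ h₃ h1.symm (by rw [hDD]; exact torsD _ hT)
        rw [hDD] at h5
        rw [h5, map_zero]
      · exfalso
        have hsum2 : (Point.some x₃ y₃ h₃ : W.Point) + Point.some x₃ y₃ h₃ =
            Point.some x y h + Point.some x y h := by
          rw [← hsum]
          calc (Point.some x y h : W.Point) + Point.some 0 0 hW.nonsingular_zero +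
                (Point.some x y h + Point.some 0 0 hW.nonsingular_zero)
              = Point.some x y h + Point.some x y h +
                (Point.some 0 0 hW.nonsingular_zero + Point.some 0 0 hW.nonsingular_zero) := by
                abel
            _ = Point.some x y h + Point.some x y h := by rw [hT₀, add_zero]
        have hn2 : n • ((Point.some x y h : W.Point) + Point.some x y h) = 0 := by
          rw [nsmul_add, hT, add_zero]
        by_cases hy3 : y₃ = W.negY x₃ y₃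
        · have h6 : (Point.some x₃ y₃ h₃ : W.Point) + Point.some x₃ y₃ h₃ = 0 :=
            Point.add_self_of_Y_eq hy3
          have h2 : 2 • (Point.some x y h : W.Point) = 0 := by
            rw [two_nsmul, ← hsum2, h6]
          exact hT0 (eq_zero_of_nsmul_coprime h2 hT h2n)
        · obtain ⟨x₄, y₄, h₄, hsum4, hlt4⟩ := hW.dbl h₃ h1 hy3
          exact keyA _ hn2 x₄ y₄ h₄ (by rw [← hsum2, hsum4]) (h1.trans hlt4)
  · have h5 := keyU x y h heq (torsD _ hT)
    rw [h5, map_zero]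
  · exact absurd hgt (keyA _ hT x y h rfl)

end TwoNode

end points

end Fermat.Agent.S13.helper1537
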