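import Fermat.Agent.S05.helper245_LegE

set_option autoImplicit false

/-!
# S13, local input at `p` (helper1633), abstract part

For a group `G` with Legendre coordinates (`helper245.IsLegCoord`) over a valued field, and an
additive endomorphism `τ` of `G` induced by a field map `s` which is trivial modulo the maximal
ideal and preserves the valuation (an inertia element), we show that `τ P - P` lies in the
kernel of reduction `E₁ = {0} ∪ {1 < v (X ·)}` for every point `P` of odd prime order `p`: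

* `good_sub_mem`: good reduction;
* `node_sub_mem`: multiplicative reduction with `v b = v d ^ p`, `d` fixed by `s`.

In contrast with `helper245.good_main` / `helper245.node_main`, the prime `p` is NOT assumed to
be a unit, so the statements apply at the residue characteristic `p` itself.
-/

namespace Fermat.Agent.S13.helper1633

open Fermat.Agent.S05.helper245

section Abstract

variable {K : Type*} [Field K] {Γ₀ : Type*} [LinearOrderedCommGroupWithZero Γ₀]
  (v : Valuation K Γ₀) {G : Type*} [AddCommGroup G] {a b : K} {X Y : G → K}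

/-- The kernel of reduction, as a predicate: the point is `0` or its `X`-coordinate has
valuation `> 1`. -/
def InE1 (X : G → K) (P : G) : Prop := P = 0 ∨ 1 < v (X P)

theorem inE1_zero : InE1 v X (0 : G) := Or.inl rfl

theorem inE1_neg (hL : IsLegCoord a b X Y) {P : G} (h : InE1 v X P) : InE1 v X (-P) := by
  by_cases hP : P = 0
  · left; rw [hP, neg_zero]
  · right; rw [hL.negX P hP]; exact h.resolve_left hP

theorem inE1_add (hL : IsLegCoord a b X Y) (ha : v a ≤ 1) (hb : v b ≤ 1) {P Q : G}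
    (hP : InE1 v X P) (hQ : InE1 v X Q) : InE1 v X (P + Q) := by
  by_cases hP0 : P = 0
  · rw [hP0, zero_add]; exact hQ
  by_cases hQ0 : Q = 0
  · rw [hQ0, add_zero]; exact hP
  by_cases hPQ : P + Q = 0
  · exact Or.inl hPQ
  right
  have hR : -(P + Q) ≠ 0 := neg_ne_zero.mpr hPQ
  have := (E1_triple v hL ha hb hP0 hQ0 hR (by abel) (hP.resolve_left hP0)
    (hQ.resolve_left hQ0)).1
  rwa [hL.negX _ hPQ] at this

theorem inE1_sub (hL : IsLegCoord a b X Y) (ha : v a ≤ 1) (hb : v b ≤ 1) {P Q : G}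
    (hP : InE1 v X P) (hQ : InE1 v X Q) : InE1 v X (P - Q) := by
  rw [sub_eq_add_neg]
  exact inE1_add v hL ha hb hP (inE1_neg v hL hQ)

theorem inE1_nsmul (hL : IsLegCoord a b X Y) (ha : v a ≤ 1) (hb : v b ≤ 1) {P : G}
    (hP : InE1 v X P) (n : ℕ) : InE1 v X (n • P) := by
  induction n with
  | zero => rw [zero_nsmul]; exact inE1_zero v
  | succ n ih => rw [succ_nsmul]; exact inE1_add v hL ha hb ih hP

/-- The kernel of reduction as an additive subgroup. -/
def E1 (hL : IsLegCoord a b X Y) (ha : v a ≤ 1) (hb : v b ≤ 1) : AddSubgroup G where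
  carrier := {Q | InE1 v X Q}
  zero_mem' := inE1_zero v
  add_mem' := fun hP hQ => inE1_add v hL ha hb hP hQ
  neg_mem' := fun hP => inE1_neg v hL hP

theorem mem_E1_iff (hL : IsLegCoord a b X Y) (ha : v a ≤ 1) (hb : v b ≤ 1) {P : G} :
    P ∈ E1 v hL ha hb ↔ InE1 v X P := Iff.rfl

/-- A point of the kernel of reduction is moved inside the kernel of reduction. -/
theorem sub_mem_of_E1 (hL : IsLegCoord a b X Y) (ha : v a ≤ 1) (hb : v b ≤ 1)
    (τ : G →+ G) (s : K → K)
    (hτX : ∀ P, P ≠ 0 → X (τ P) = s (X P)) (hsv : ∀ u, v (s u) = v u)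
    {P : G} (hP : InE1 v X P) : InE1 v X (τ P - P) := by
  by_cases hP0 : P = 0
  · left; rw [hP0, map_zero, sub_zero]
  have hx : 1 < v (X P) := hP.resolve_left hP0
  have hτ : InE1 v X (τ P) := by
    right; rw [hτX P hP0, hsv]; exact hx
  exact inE1_sub v hL ha hb hτ hP

/-- Two points which are congruent at the scale `v (Y P)` differ by a point of the kernel of
reduction. -/
theorem sub_mem_of_close (hL : IsLegCoord a b X Y) (ha : v a ≤ 1) (h2 : v 2 = 1)
    (τ : G →+ G) (hτ0 : ∀ P, P ≠ 0 → τ P ≠ 0) {P : G} (hP : P ≠ 0)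
    (hXP : v (X P) ≤ 1) (hYP : v (Y P) ≤ 1)
    (hX : v (X P - X (τ P)) < v (Y P)) (hY : v (Y P - Y (τ P)) < v (Y P)) :
    InE1 v X (τ P - P) := by
  by_cases hne : τ P = P
  · left; rw [hne, sub_self]
  right
  have h1 := close_sub_mem_E1 v hL ha h2 hP (hτ0 P hP) (Ne.symm hne) hXP hYP hX hY
  have hD : P - τ P ≠ 0 := sub_ne_zero.mpr (Ne.symm hne)
  have : τ P - P = -(P - τ P) := by abel
  rw [this, hL.negX _ hD]
  exact h1

/-- A point of odd order `p` with integral `X`, non-unit `Y` and `f'(X)` a unit is moved inside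
the kernel of reduction (its double lies in the kernel of reduction). -/
theorem sub_mem_of_double (hL : IsLegCoord a b X Y) (ha : v a ≤ 1) (hb : v b ≤ 1) (h2 : v 2 = 1)
    {p : ℕ} (hodd : Odd p) (τ : G →+ G) (s : K → K)
    (hτX : ∀ P, P ≠ 0 → X (τ P) = s (X P)) (hsv : ∀ u, v (s u) = v u)
    {P : G} (hP : P ≠ 0) (hpP : p • P = 0) (hXP : v (X P) ≤ 1) (hYP : v (Y P) < 1)
    (hf' : v (3 * X P ^ 2 + 2 * a * X P + b) = 1) : InE1 v X (τ P - P) := by
  obtain ⟨k, hk⟩ := hodd
  have h2P : 2 • P ≠ 0 := by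
    intro h2P
    have : p • P = P := by
      rw [hk, add_nsmul, mul_nsmul, h2P, nsmul_zero, zero_add, one_nsmul]
    rw [this] at hpP
    exact hP hpP
  have h1 : InE1 v X (2 • P) := Or.inr (double_mem_E1 v hL ha h2 hP h2P hXP hYP hf')
  have h3 : InE1 v X (τ (2 • P) - 2 • P) := sub_mem_of_E1 v hL ha hb τ s hτX hsv h1
  have hD : p • (τ P - P) = 0 := by rw [smul_sub, ← map_nsmul, hpP, map_zero, sub_zero]
  have h4 : τ P - P = (k + 1) • (τ (2 • P) - 2 • P) := by
    have e1 : τ (2 • P) - 2 • P = 2 • (τ P - P) := by rw [map_nsmul, smul_sub]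
    rw [e1, ← mul_nsmul']
    have e2 : (k + 1) * 2 = p + 1 := by omega
    rw [e2, add_nsmul, hD, zero_add, one_nsmul]
  rw [h4]
  exact inE1_nsmul v hL ha hb h3 _

/-- **Good reduction, any residue characteristic ≠ 2**: `τ P - P` lies in the kernel of
reduction for every point `P` of odd order `p`. -/
theorem good_sub_mem (hL : IsLegCoord a b X Y) (ha : v a ≤ 1) (hb : v b = 1)
    (hdisc : v (a ^ 2 - 4 * b) = 1) (h2 : v 2 = 1) {p : ℕ} (hodd : Odd p)
    (τ : G →+ G) (hτ0 : ∀ P, P ≠ 0 → τ P ≠ 0) (s : K → K)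
    (hτX : ∀ P, P ≠ 0 → X (τ P) = s (X P)) (hτY : ∀ P, P ≠ 0 → Y (τ P) = s (Y P))
    (hs : ∀ u, v u ≤ 1 → v (s u - u) < 1) (hsv : ∀ u, v (s u) = v u)
    {P : G} (hpP : p • P = 0) : InE1 v X (τ P - P) := by
  by_cases hP : P = 0
  · left; rw [hP, map_zero, sub_zero]
  by_cases hx : 1 < v (X P)
  · exact sub_mem_of_E1 v hL ha hb.le τ s hτX hsv (Or.inr hx)
  have hXP : v (X P) ≤ 1 := le_of_not_gt hx
  have hf' : v (Y P) < 1 → v (3 * X P ^ 2 + 2 * a * X P + b) = 1 := by
    intro hY
    rcases hXP.lt_or_eq with hlt | heq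
    · have : 3 * X P ^ 2 + 2 * a * X P + b = b + (3 * X P + 2 * a) * X P := by ring
      rw [this]
      have hsmall : v ((3 * X P + 2 * a) * X P) < v b := by
        rw [hb, v.map_mul]
        have h3 : v (3 * X P + 2 * a) ≤ 1 := by
          apply v.map_add_le
          · rw [v.map_mul]
            calc v 3 * v (X P) ≤ 1 * 1 := mul_le_mul' (val_three_le_one v) hXP
              _ = 1 := one_mul 1
          · rw [v.map_mul, h2, one_mul]; exact ha
        calc v (3 * X P + 2 * a) * v (X P) ≤ 1 * v (X P) := by gcongr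
          _ = v (X P) := one_mul _
          _ < 1 := hlt
      rw [v.map_add_eq_of_lt_left hsmall, hb]
    · exact val_deriv_eq_one v hL hdisc hP heq hY
  have hYle : v (Y P) ≤ 1 := val_Y_le_one v hL ha hb.le hP hXP
  rcases hYle.lt_or_eq with hYlt | hYP
  · exact sub_mem_of_double v hL ha hb.le h2 hodd τ s hτX hsv hP hpP hXP hYlt (hf' hYlt)
  · apply sub_mem_of_close v hL ha h2 τ hτ0 hP hXP hYP.le
    · rw [hYP, hτX P hP, v.map_sub_swap]; exact hs _ hXP
    · rw [hYP, hτY P hP, v.map_sub_swap]; exact hs _ hYP.le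

/-- **Node case, any residue characteristic ≠ 2**: `τ P - P` lies in the kernel of reduction
for every point `P` of odd prime order `p`, when `v b` is the `p`-th power of the valuation of
an `s`-fixed element. -/
theorem node_sub_mem (hL : IsLegCoord a b X Y) (ha : v a = 1) (hb : v b < 1) (hb0 : b ≠ 0)
    (h2 : v 2 = 1) {β : K} (hβ : β ^ 2 = a) {T : G} (hT : T ≠ 0) (hTX : X T = 0)
    (hTY : Y T = 0) {p : ℕ} (hpp : p.Prime) (hp2 : p ≠ 2)
    (τ : G →+ G) (hτ0 : ∀ P, P ≠ 0 → τ P ≠ 0) (s : K →+* K)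
    (hτX : ∀ P, P ≠ 0 → X (τ P) = s (X P)) (hτY : ∀ P, P ≠ 0 → Y (τ P) = s (Y P))
    (hs : ∀ u, v u ≤ 1 → v (s u - u) < 1) (hsv : ∀ u, v (s u) = v u)
    {d : K} (hd : s d = d) (hbd : v b = v d ^ p)
    {P : G} (hpP : p • P = 0) : InE1 v X (τ P - P) := by
  by_cases hP : P = 0
  · left; rw [hP, map_zero, sub_zero]
  have hodd : Odd p := hpp.odd_of_ne_two hp2
  have hp3 : 3 ≤ p := by
    have := hpp.two_le
    omega
  have hdisc : v (a ^ 2 - 4 * b) = 1 := by
    have h4b : v (4 * b) < v (a ^ 2) := by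
      rw [v.map_pow, ha, one_pow, v.map_mul]
      calc v 4 * v b ≤ 1 * v b := by gcongr; exact val_four_le_one v
        _ = v b := one_mul _
        _ < 1 := hb
    rw [v.map_sub_eq_of_lt_left h4b, v.map_pow, ha, one_pow]
  by_cases hx : 1 < v (X P)
  · exact sub_mem_of_E1 v hL ha.le hb.le τ s hτX hsv (Or.inr hx)
  have hXP : v (X P) ≤ 1 := le_of_not_gt hx
  rcases hXP.lt_or_eq with hlt | heq
  · -- the node region
    have h1p : ¬ p ∣ 1 := Nat.not_dvd_of_pos_of_lt one_pos hpp.one_lt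
    have hPb : v b < v (X P) := by
      have := node_region_of_multiple v hL ha.le hb hb0 h2 hT hTX hTY hpp hp2 hpP hP hlt h1p
      rw [one_nsmul] at this; exact this.2.1
    obtain ⟨j, hj⟩ := cc_multiples v hL ha hb hb0 h2 hβ hT hTX hTY hpp hp2 hpP hP hlt (p - 1)
      (by omega) (by omega)
    have hneg : (p - 1) • P = -P := by
      have : (p - 1) • P + P = 0 := by
        rw [← succ_nsmul, Nat.sub_add_cancel hpp.one_le]; exact hpP
      exact eq_neg_of_add_eq_zero_left this
    rw [hneg] at hj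
    have kneg := cc_neg_mul v hL ha h2 hβ hP hPb hlt
    have hc : cc v b X Y β P ^ p = (v d ^ (2 * (j + 1))) ^ p := by
      calc cc v b X Y β P ^ p = cc v b X Y β P ^ (p - 1) * cc v b X Y β P := by
            rw [← pow_succ, Nat.sub_add_cancel hpp.one_le]
        _ = cc v b X Y β (-P) * v b ^ (2 * j) * cc v b X Y β P := by rw [hj]
        _ = (cc v b X Y β (-P) * cc v b X Y β P) * v b ^ (2 * j) := by ac_rfl
        _ = v b ^ 2 * v b ^ (2 * j) := by rw [kneg]
        _ = v b ^ (2 * (j + 1)) := by rw [← pow_add]; congr 1; ring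
        _ = (v d ^ (2 * (j + 1))) ^ p := by rw [hbd, ← pow_mul, ← pow_mul, mul_comm]
    have hc' : cc v b X Y β P = v d ^ (2 * (j + 1)) :=
      (pow_left_inj₀ zero_le zero_le hpp.ne_zero).mp hc
    obtain ⟨ϖ, hϖs, hϖv⟩ : ∃ ϖ : K, s ϖ = ϖ ∧ v (X P) = v ϖ := by
      rcases val_X_eq_cc_or v hb0 (β := β) (Y := Y) hPb with h | h
      · exact ⟨d ^ (2 * (j + 1)), by rw [map_pow, hd], by rw [h, hc', v.map_pow]⟩
      · refine ⟨d ^ (2 * p) / d ^ (2 * (j + 1)), by rw [map_div₀, map_pow, map_pow, hd], ?_⟩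
        rw [h, hc', v.map_div, v.map_pow, v.map_pow, hbd, ← pow_mul, mul_comm p 2]
    have hx0 : (0 : Γ₀) < v (X P) := lt_of_le_of_lt zero_le hPb
    have hϖ0 : ϖ ≠ 0 := by rw [← v.ne_zero_iff, ← hϖv]; exact hx0.ne'
    have hYX : v (Y P) = v (X P) := by
      apply eq_of_sq_eq_sq'
      rw [← v.map_pow, hL.eqn P hP]
      have e : X P ^ 3 + a * X P ^ 2 + b * X P = a * X P ^ 2 + (X P ^ 3 + b * X P) := by ring
      have hdom : v (a * X P ^ 2) = v (X P) ^ 2 := by rw [v.map_mul, ha, one_mul, v.map_pow]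
      have hsmall : v (X P ^ 3 + b * X P) < v (a * X P ^ 2) := by
        rw [hdom, sq]
        apply v.map_add_lt
        · rw [v.map_pow, pow_succ, sq]
          calc v (X P) * v (X P) * v (X P) < v (X P) * v (X P) * 1 :=
                mul_lt_mul_of_pos_left hlt (mul_pos hx0 hx0)
            _ = v (X P) * v (X P) := mul_one _
        · rw [v.map_mul]
          exact mul_lt_mul_of_pos_right hPb hx0
      rw [e, v.map_add_eq_of_lt_left hsmall, hdom]
    have scale : ∀ z : K, v z = v ϖ → v (z - s z) < v ϖ := by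
      intro z hz
      have hϖ0' : v ϖ ≠ 0 := (v.ne_zero_iff).mpr hϖ0
      have hu : v (z / ϖ) ≤ 1 := by rw [v.map_div, hz, div_self hϖ0']
      have hsu := hs (z / ϖ) hu
      have e : z - s z = -(ϖ * (s (z / ϖ) - z / ϖ)) := by
        rw [map_div₀, hϖs]; field_simp; ring
      rw [e, v.map_neg, v.map_mul]
      calc v ϖ * v (s (z / ϖ) - z / ϖ) < v ϖ * 1 :=
            mul_lt_mul_of_pos_left hsu (lt_of_le_of_ne zero_le hϖ0'.symm)
        _ = v ϖ := mul_one _
    have hYP : v (Y P) ≤ 1 := by rw [hYX]; exact hXP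
    apply sub_mem_of_close v hL ha.le h2 τ hτ0 hP hXP hYP
    · rw [hYX, hτX P hP, hϖv]; exact scale _ hϖv
    · rw [hτY P hP]
      have := scale (Y P) (hYX.trans hϖv)
      rwa [← hYX.trans hϖv] at this
  · -- unit `X`
    have hYle : v (Y P) ≤ 1 := val_Y_le_one v hL ha.le hb.le hP hXP
    rcases hYle.lt_or_eq with hYlt | hYP
    · exact sub_mem_of_double v hL ha.le hb.le h2 hodd τ s hτX hsv hP hpP hXP hYlt
        (val_deriv_eq_one v hL hdisc hP heq hYlt)
    · apply sub_mem_of_close v hL ha.le h2 τ hτ0 hP hXP hYP.le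
      · rw [hYP, hτX P hP, v.map_sub_swap]; exact hs _ hXP
      · rw [hYP, hτY P hP, v.map_sub_swap]; exact hs _ hYP.le

end Abstract

end Fermat.Agent.S13.helper1633
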