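import Fermat.Agent.S13.helper1663_LocalP
import Fermat.Agent.S05.helper3034_FreyShape
import Fermat.Agent.S05.helper2200_Inertia
import Fermat.Prelude.Def_FLTPrelim_CofixedLine

/-!
# Kernel of reduction of the Frey curve at a place above an odd prime (helper1663, S13)

For a valuation subring `A` of `ℚ̄` over an odd prime `q` (in particular `q = p`):

* `InKer v T`: the point `T` is `0` or has `1 < v (x-coordinate)`;
* `inKer_add`, `inKer_neg`, `inKer_sub`, `inKer_nsmul`: `InKer A.valuation` is a subgroup of the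
  points of the Frey curve over `ℚ̄`;
* `frey_smul_sub_inKer`: for `σ` in the inertia group of `A` and `T` of order dividing `p`,
  `σ • T - T` lies in the kernel of reduction.  (For `q ≠ p` the kernel of reduction has no
  `p`-torsion and this recovers S05; the statement here allows `q = p`.)
-/

set_option autoImplicit false
set_option linter.unusedSectionVars false

namespace Fermat.Agent.S13.helper1663

open WeierstrassCurve WeierstrassCurve.Affine WeierstrassCurve.Affine.Point
open Fermat.Agent.S05.helper305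

local notation "Qbar" => AlgebraicClosure ℚ

section generic

variable {K : Type*} [Field K] [DecidableEq K]
variable {Γ₀ : Type*} [LinearOrderedCommGroupWithZero Γ₀]

/-- The `x`-coordinate of a point (`0` for the point at infinity). -/
def xc {W : WeierstrassCurve K} : W.toAffine.Point → K
  | .zero => 0
  | @Point.some _ _ _ x _ _ => x

@[simp] theorem xc_zero {W : WeierstrassCurve K} : xc (0 : W.toAffine.Point) = 0 := rfl

@[simp] theorem xc_some {W : WeierstrassCurve K} {x y : K} (h : W.toAffine.Nonsingular x y) :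
    xc (Point.some x y h) = x := rfl

theorem xc_neg {W : WeierstrassCurve K} (T : W.toAffine.Point) : xc (-T) = xc T := by
  rcases T with _ | ⟨x, y, h⟩
  · rfl
  · rfl

/-- Kernel of reduction, in terms of the `x`-coordinate. -/
def InKer (v : Valuation K Γ₀) {W : WeierstrassCurve K} (T : W.toAffine.Point) : Prop :=
  T = 0 ∨ 1 < v (xc T)

variable {v : Valuation K Γ₀} {W : WeierstrassCurve K} {e : K}

theorem inE1_iff_inKer (he : v e ≤ 1) (T : W.toAffine.Point) : InE1 v W e T ↔ InKer v T := by
  have key : ∀ x : K, 1 < v (x - e) ↔ 1 < v x := by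
    intro x
    constructor
    · intro h
      have : x = (x - e) + e := by ring
      rw [this, Valuation.map_add_eq_of_lt_left v (lt_of_le_of_lt he h)]
      exact h
    · intro h
      rw [Valuation.map_sub_eq_of_lt_left v (lt_of_le_of_lt he h)]
      exact h
  constructor
  · rintro (h | ⟨ξ, η, ⟨x, y, hxy, rfl, rfl, rfl⟩, hv⟩)
    · exact Or.inl h
    · exact Or.inr ((key x).mp hv)
  · rintro (h | h)
    · exact Or.inl h
    · rcases T with _ | ⟨x, y, hxy⟩
      · exact Or.inl rfl
      · exact Or.inr ⟨x - e, eta W x y, ⟨x, y, hxy, rfl, rfl, rfl⟩, (key x).mpr h⟩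

end generic

/-- The Frey curve base-changed to `ℚ̄` (same as `helper2284.freyBar`). -/
noncomputable abbrev freyQbar (P : FreyPackage) : WeierstrassCurve Qbar :=
  WeierstrassCurve.baseChange P.freyCurve Qbar

section frey

variable (P : FreyPackage) (A : ValuationSubring Qbar) {q : ℕ}

theorem inKer_add (hq : q.Prime) (hq2 : q ≠ 2) (hA : A.LiesOverPrime q)
    {S T : (freyQbar P).toAffine.Point} (hS : InKer A.valuation S) (hT : InKer A.valuation T) :
    InKer A.valuation (S + T) := by
  obtain ⟨e, al, be, hSh, he, hal, hbe, -, -, -⟩ :=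
    Fermat.Agent.S05.helper3034.frey_shape_of_liesOver A P hq hq2 hA
  have hv2 := Fermat.Agent.S05.helper2200.valuation_two_eq_one A hq hq2 hA
  rw [← inE1_iff_inKer he] at hS hT ⊢
  exact inE1_add hSh hv2 hal hbe hS hT

theorem inKer_neg {S : (freyQbar P).toAffine.Point} (hS : InKer A.valuation S) :
    InKer A.valuation (-S) := by
  rcases hS with rfl | h
  · exact Or.inl _root_.neg_zero
  · exact Or.inr (by rw [xc_neg]; exact h)

theorem inKer_sub (hq : q.Prime) (hq2 : q ≠ 2) (hA : A.LiesOverPrime q)
    {S T : (freyQbar P).toAffine.Point} (hS : InKer A.valuation S) (hT : InKer A.valuation T) :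
    InKer A.valuation (S - T) := by
  rw [sub_eq_add_neg]
  exact inKer_add P A hq hq2 hA hS (inKer_neg P A hT)

theorem inKer_nsmul (hq : q.Prime) (hq2 : q ≠ 2) (hA : A.LiesOverPrime q)
    {S : (freyQbar P).toAffine.Point} (hS : InKer A.valuation S) (n : ℕ) :
    InKer A.valuation (n • S) := by
  induction n with
  | zero => rw [zero_nsmul]; exact Or.inl rfl
  | succ n ih => rw [succ_nsmul]; exact inKer_add P A hq hq2 hA ih hS

/-- **Inertia at an odd prime `q` (possibly `q = p`) moves `p`-torsion points of the Frey curve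
only inside the kernel of reduction.** -/
theorem frey_smul_sub_inKer (hq : q.Prime) (hq2 : q ≠ 2) (hA : A.LiesOverPrime q)
    {σ : Qbar ≃ₐ[ℚ] Qbar} (hσ : σ ∈ A.inertiaSubgroupIn ℚ)
    (T : (freyQbar P).toAffine.Point) (hT : P.p • T = 0) :
    InKer A.valuation (σ • T - T) := by
  rcases T with _ | ⟨x, y, h⟩
  · left
    have h0 : σ • (0 : (freyQbar P).toAffine.Point) = 0 := rfl
    change σ • (0 : (freyQbar P).toAffine.Point) - 0 = 0
    rw [h0, sub_zero]
  obtain ⟨e, al, be, hSh, he, hal, hbe, hbe0, hdisc, hcase⟩ :=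
    Fermat.Agent.S05.helper3034.frey_shape_of_liesOver A P hq hq2 hA
  have hv2 := Fermat.Agent.S05.helper2200.valuation_two_eq_one A hq hq2 hA
  let τ : Qbar →+* Qbar := σ.toAlgHom.toRingHom
  have hτ : ∀ z : Qbar, A.valuation z ≤ 1 → A.valuation (τ z - z) < 1 := fun z hz =>
    Fermat.Agent.S05.helper2200.valuation_apply_sub_lt_one A hσ z hz
  have hτrat : ∀ r : ℚ, τ (algebraMap ℚ Qbar r) = algebraMap ℚ Qbar r := fun r => σ.commutes r
  have hτa1 : τ (freyQbar P).a₁ = (freyQbar P).a₁ := hτrat _
  have hτa3 : τ (freyQbar P).a₃ = (freyQbar P).a₃ := hτrat _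
  have h' : (freyQbar P).toAffine.Nonsingular (σ x) (σ y) :=
    (WeierstrassCurve.Affine.baseChange_nonsingular (W := P.freyCurve)
      (f := σ.toAlgHom) σ.toAlgHom.injective x y).mpr h
  have hsmul : σ • (Point.some x y h : (freyQbar P).toAffine.Point) = Point.some (σ x) (σ y) h' :=
    rfl
  rw [hsmul, ← inE1_iff_inKer he]
  refine sub_inE1 (p := P.p) P.hp_odd hSh hv2 hal hbe hbe0 hdisc τ hτ (hτrat e) hτa1 hτa3 ?_
    h h' hT
  intro hlt
  rcases hcase with h1 | ⟨-, w, -, hw⟩
  · exact absurd hlt (by rw [h1]; exact lt_irrefl _)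
  · obtain ⟨r, hr⟩ := IsAlgClosed.exists_pow_nat_eq (algebraMap ℚ Qbar al) (n := 2) (by norm_num)
    exact ⟨r, (w : Qbar), hr, map_intCast σ w, hw⟩

end frey

end Fermat.Agent.S13.helper1663
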