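import Fermat.Agent.S13.helper1663_Regions
import Fermat.Agent.S05.helper2278_Mult

/-!
# Inertia moves torsion points only inside the kernel of reduction (helper1663, S13)

Setting: a Weierstrass curve `W` over a field `K` in shape coordinates
`η² = ξ(ξ² + al ξ + be)`, a valuation `v` on `K` with `v 2 = 1` (NO assumption on `v p`),
`al, be` integral, `be ≠ 0`, `v (al² - 4 be) = 1`; `σ : K →+* K` is "inertia-like":
`v z ≤ 1 → v (σ z - z) < 1`, and fixes `e`, `a₁`, `a₃`.

Main result `sub_inE1`: if `P = (x, y)` is a point of odd order `p` and `P' = (σ x, σ y)`, then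
`P' - P` lies in the kernel of reduction `E₁` (`InE1`), provided that in the node case
(`v be < 1`) `al` is a square and `v be = v w ^ p` for some `σ`-fixed `w`.

This is the residue-characteristic-free part of the analysis of inertia at `p` for S13: at a
prime `q ≠ p` the kernel of reduction has no `p`-torsion and one recovers S05; at `q = p` it is
the input of the "inertia at p" dichotomy.
-/

set_option autoImplicit false
set_option linter.unusedSectionVars false

namespace Fermat.Agent.S13.helper1663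

open WeierstrassCurve WeierstrassCurve.Affine
open Fermat.Agent.S05.helper305

variable {K : Type*} [Field K] [DecidableEq K]
variable {Γ₀ : Type*} [LinearOrderedCommGroupWithZero Γ₀]
variable {v : Valuation K Γ₀} {W : WeierstrassCurve K} {e al be : K}

section inertiaLike

variable {σ : K →+* K} (hσ : ∀ z : K, v z ≤ 1 → v (σ z - z) < 1)
include hσ

theorem sigma_lt_one {z : K} (hz : v z < 1) : v (σ z) < 1 := by
  have : σ z = z + (σ z - z) := by ring
  rw [this]
  exact v.map_add_lt hz (hσ z hz.le)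

theorem sigma_eq_one {z : K} (hz : v z = 1) : v (σ z) = 1 := by
  have : σ z = z + (σ z - z) := by ring
  rw [this]
  exact val_add_eq_one v hz (hσ z hz.le)

theorem sigma_le_one {z : K} (hz : v z ≤ 1) : v (σ z) ≤ 1 := by
  rcases eq_or_lt_of_le hz with h | h
  · exact (sigma_eq_one hσ h).le
  · exact (sigma_lt_one hσ h).le

theorem sigma_one_lt {z : K} (hz : 1 < v z) : 1 < v (σ z) := by
  have hz0 : z ≠ 0 := by
    rintro rfl
    rw [map_zero] at hz
    exact absurd hz (not_lt.mpr zero_le)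
  have hσz0 : σ z ≠ 0 := (map_ne_zero σ).mpr hz0
  have h1 : v z⁻¹ < 1 := by
    rw [map_inv₀]; exact inv_lt_one_of_one_lt₀ hz
  have h2 := sigma_lt_one hσ h1
  rw [map_inv₀, map_inv₀] at h2
  have hpos : 0 < v (σ z) := zero_lt_iff.mpr ((Valuation.ne_zero_iff v).mpr hσz0)
  exact (inv_lt_one₀ hpos).mp h2

end inertiaLike

/-- A point of `W` with `ξ = 0` is the 2-torsion point `T`. -/
theorem eq_T_of_xi_eq_zero (hS : Shape W e al be) {P T : W.toAffine.Point} {η : K}
    (hP : IsPt W e P 0 η) (hT : IsPt W e T 0 0) : P = T := by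
  have hc := hP.curve hS
  have hη : η = 0 := by
    have : η ^ 2 = 0 := by rw [hc]; ring
    exact pow_eq_zero_iff (two_ne_zero) |>.mp this
  subst hη
  exact hP.ext hT

/-- Translating a point with `0 < v ξ < 1` by `T` in the good reduction case lands in `E₁`. -/
theorem inE1_add_T_of_good (hS : Shape W e al be) (hbe1 : v be = 1) {T P : W.toAffine.Point}
    (hT : IsPt W e T 0 0) {ξ η : K} (hP : IsPt W e P ξ η) (hξ0 : ξ ≠ 0) (hξ : v ξ < 1) :
    InE1 v W e (P + T) := by
  have hne : ¬(ξ = 0 ∧ η = -0) := fun h => hξ0 h.1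
  obtain ⟨ξ₃, η₃, lam, hP₃, hrel⟩ := hP.add hS hT hne
  obtain ⟨h1, -⟩ := hrel.add_T hξ0
  refine Or.inr ⟨ξ₃, η₃, hP₃, ?_⟩
  have hpos : 0 < v ξ := zero_lt_iff.mpr ((Valuation.ne_zero_iff v).mpr hξ0)
  rw [h1, map_div₀, hbe1, one_div]
  exact (one_lt_inv₀ hpos).mpr hξ

/-- **Inertia moves points of odd order `p` only inside the kernel of reduction.** -/
theorem sub_inE1 {p : ℕ} (hp : Odd p)
    (hS : Shape W e al be) (hv2 : v 2 = 1) (hal : v al ≤ 1) (hbe : v be ≤ 1) (hbe0 : be ≠ 0)
    (hdisc : v (al ^ 2 - 4 * be) = 1)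
    (σ : K →+* K) (hσ : ∀ z : K, v z ≤ 1 → v (σ z - z) < 1)
    (hσe : σ e = e) (hσa1 : σ W.a₁ = W.a₁) (hσa3 : σ W.a₃ = W.a₃)
    (hnode : v be < 1 → ∃ r w : K, r ^ 2 = al ∧ σ w = w ∧ v be = v w ^ p)
    {x y : K} (h : W.toAffine.Nonsingular x y) (h' : W.toAffine.Nonsingular (σ x) (σ y))
    (hP : p • (Point.some x y h : W.toAffine.Point) = 0) :
    InE1 v W e (Point.some (σ x) (σ y) h' - Point.some x y h) := by
  have h2 : (2 : K) ≠ 0 := hS.two_ne
  have hp0 : p ≠ 0 := by
    rintro rfl
    exact absurd hp (by decide)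
  -- shape coordinates of the two points
  set ξ : K := x - e with hξdef
  set η : K := eta W x y with hηdef
  set ξ' : K := σ x - e with hξ'def
  set η' : K := eta W (σ x) (σ y) with hη'def
  have hPt : IsPt W e (Point.some x y h) ξ η := ⟨x, y, h, rfl, rfl, rfl⟩
  have hPt' : IsPt W e (Point.some (σ x) (σ y) h') ξ' η' := ⟨σ x, σ y, h', rfl, rfl, rfl⟩
  have hσξ : σ ξ = ξ' := by rw [hξdef, hξ'def, map_sub, hσe]
  have hσ2 : σ 2 = 2 := map_ofNat σ 2
  have hση : σ η = η' := by
    simp only [hηdef, hη'def, eta, map_add, map_mul, map_div₀, hσa1, hσa3, hσ2]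
  have hcurve : η ^ 2 = ξ * (ξ ^ 2 + al * ξ + be) := hPt.curve hS
  -- the trivial case: the two points coincide
  have hsame : ξ' = ξ → η' = η →
      InE1 v W e (Point.some (σ x) (σ y) h' - Point.some x y h) := by
    intro h1 h3
    have hPt'' : IsPt W e (Point.some (σ x) (σ y) h') ξ η := by rw [← h1, ← h3]; exact hPt'
    rw [hPt''.ext hPt, sub_self]
    exact inE1_zero
  rcases lt_trichotomy (v ξ) 1 with hlt | heq | hgt
  · -- `v ξ < 1`
    obtain ⟨T, hT⟩ := exists_T hS hbe0
    have hTT : T + T = 0 := T_add_T hS hT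
    have hξ'lt : v ξ' < 1 := hσξ ▸ sigma_lt_one hσ hlt
    rcases eq_or_lt_of_le hbe with hbe1 | hbelt
    · -- good reduction: translate by `T`
      by_cases hξ0 : ξ = 0
      · have hη0 : η = 0 := by
          have : η ^ 2 = 0 := by rw [hcurve, hξ0]; ring
          exact (pow_eq_zero_iff two_ne_zero).mp this
        have h1 : ξ' = ξ := by rw [← hσξ, hξ0, map_zero]
        have h3 : η' = η := by rw [← hση, hη0, map_zero]
        exact hsame h1 h3
      · have hξ'0 : ξ' ≠ 0 := by rw [← hσξ]; exact (map_ne_zero σ).mpr hξ0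
        have hA := inE1_add_T_of_good (v := v) hS hbe1 hT hPt hξ0 hlt
        have hB := inE1_add_T_of_good (v := v) hS hbe1 hT hPt' hξ'0 hξ'lt
        have hsub := inE1_sub hS hv2 hal hbe hB hA
        have : Point.some (σ x) (σ y) h' + T - (Point.some x y h + T) =
            Point.some (σ x) (σ y) h' - Point.some x y h := by abel
        rwa [this] at hsub
    · -- node case
      obtain ⟨r, w, hr, hσw, hw⟩ := hnode hbelt
      have hval : v al = 1 := by
        apply val_eq_one_of_sq v
        have : al ^ 2 = (al ^ 2 - 4 * be) + 4 * be := by ring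
        rw [this]
        exact val_add_eq_one v hdisc (by rw [map_mul, val_four v hv2, one_mul]; exact hbelt)
      have hvr : v r = 1 := val_eq_one_of_sq v (by rw [hr]; exact hval)
      have h2r : v (2 * r) = 1 := by rw [map_mul, hv2, hvr, one_mul]
      have hbepos : 0 < v be := zero_lt_iff.mpr ((Valuation.ne_zero_iff v).mpr hbe0)
      -- `ξ ≠ 0`
      have hξ0 : ξ ≠ 0 := by
        intro hξ0
        have hPT : Point.some x y h = T := by
          have hPt0 : IsPt W e (Point.some x y h) 0 η := by rw [← hξ0]; exact hPt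
          exact eq_T_of_xi_eq_zero hS hPt0 hT
        rw [hPT, odd_nsmul_of_add_self hTT hp] at hP
        exact hT.ne_zero hP
      have hξpos : 0 < v ξ := zero_lt_iff.mpr ((Valuation.ne_zero_iff v).mpr hξ0)
      -- (i) `v be < v ξ`
      have hdepth : v be < v ξ := by
        by_contra hcon
        have hle : v ξ ≤ v be := not_lt.mp hcon
        have hne : ¬(ξ = 0 ∧ η = -0) := fun h => hξ0 h.1
        obtain ⟨ξ₃, η₃, lam, hP₃, hrel⟩ := hPt.add hS hT hne
        obtain ⟨h1, -⟩ := hrel.add_T hξ0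
        have hE0 : InE0 v W e (Point.some x y h + T) := by
          refine Or.inr ⟨ξ₃, η₃, hP₃, ?_⟩
          rw [h1, map_div₀]
          exact (one_le_div₀ hξpos).mpr hle
        have hE0' := inE0_nsmul hS hv2 hal hbelt hE0 p
        rw [smul_add, hP, zero_add, odd_nsmul_of_add_self hTT hp] at hE0'
        exact not_inE0_T hT hE0'
      -- (ii) the branch
      set ρ : K := η / ξ with hρdef
      have hρ2 : ρ ^ 2 = ξ + al + be / ξ := by
        rw [hρdef, div_pow, hcurve]
        field_simp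
      have hbeξ : v (be / ξ) < 1 := by
        rw [map_div₀]; exact (div_lt_one₀ hξpos).mpr hdepth
      have hρle : v ρ ≤ 1 := by
        apply val_le_one_of_sq v
        rw [hρ2]
        exact v.map_add_le (v.map_add_le hlt.le hal) hbeξ.le
      have hprod : v ((ρ - r) * (ρ + r)) < 1 := by
        have : (ρ - r) * (ρ + r) = ξ + be / ξ := by
          have : (ρ - r) * (ρ + r) = ρ ^ 2 - r ^ 2 := by ring
          rw [this, hρ2, hr]; ring
        rw [this]
        exact v.map_add_lt hlt hbeξ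
      obtain ⟨r', hr', hvr', hbr⟩ : ∃ r' : K, r' ^ 2 = al ∧ v r' = 1 ∧ v (ρ - r') < 1 := by
        by_cases hb : v (ρ - r) < 1
        · exact ⟨r, hr, hvr, hb⟩
        · refine ⟨-r, by rw [neg_sq]; exact hr, by rw [Valuation.map_neg]; exact hvr, ?_⟩
          rw [sub_neg_eq_add]
          by_contra hb'
          have h1 : 1 ≤ v (ρ - r) := not_lt.mp hb
          have h3 : 1 ≤ v (ρ + r) := not_lt.mp hb'
          have : 1 ≤ v ((ρ - r) * (ρ + r)) := by
            rw [map_mul]; exact one_le_mul_of_one_le_of_one_le h1 h3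
          exact absurd hprod (not_lt.mpr this)
      have h2r' : v (2 * r') = 1 := by rw [map_mul, hv2, hvr', one_mul]
      -- (iii) torsion in the middle region
      have hMid : InMid v W e r' (v ξ) (Point.some x y h) := ⟨ξ, η, hPt, rfl, hbr⟩
      obtain ⟨k, hk⟩ := mid_torsion hS hv2 hr' hvr' hbe0 hT hMid hlt hdepth p hP
      -- (iv) `v ξ = v (w ^ k)`
      have hξw : v ξ = v (w ^ k) := by
        rw [map_pow]
        apply (pow_left_inj₀ zero_le zero_le hp0).mp
        rw [hk, hw, ← pow_mul, ← pow_mul, mul_comm]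
      have hwk0 : w ^ k ≠ 0 := by
        rw [← Valuation.ne_zero_iff v, ← hξw]; exact hξpos.ne'
      have hwkpos : 0 < v (w ^ k) := hξw ▸ hξpos
      -- (v) `v (ξ' - ξ) < v ξ`
      have hdiff : v (ξ' - ξ) < v ξ := by
        have hu : v (ξ / w ^ k) ≤ 1 := by
          rw [map_div₀, hξw, div_self hwkpos.ne']
        have h1 := hσ _ hu
        have h3 : σ (ξ / w ^ k) - ξ / w ^ k = (ξ' - ξ) / w ^ k := by
          rw [map_div₀, map_pow, hσw, hσξ]; ring
        rw [h3, map_div₀, div_lt_one₀ hwkpos] at h1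
        rw [hξw]; exact h1
      have hξ'v : v ξ' = v ξ := by
        have : ξ' = ξ + (ξ' - ξ) := by ring
        rw [this]; exact Valuation.map_add_eq_of_lt_left v hdiff
      have hξ'0 : ξ' ≠ 0 := by
        rw [← Valuation.ne_zero_iff v, hξ'v]; exact hξpos.ne'
      -- (vi) same branch
      set ρ' : K := η' / ξ' with hρ'def
      have hσρ : σ ρ = ρ' := by rw [hρdef, hρ'def, map_div₀, hση, hσξ]
      have hbr' : v (ρ' - r') < 1 := by
        have : ρ' - r' = (σ ρ - ρ) + (ρ - r') := by rw [hσρ]; ring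
        rw [this]
        exact v.map_add_lt (hσ ρ hρle) hbr
      by_cases hPP : ξ' = ξ ∧ η' = η
      · exact hsame hPP.1 hPP.2
      · have hneg : IsPt W e (-(Point.some x y h)) ξ (-η) := hPt.neg h2
        have hne : ¬(ξ' = ξ ∧ η' = -(-η)) := by rw [neg_neg]; exact hPP
        obtain ⟨ξ₃, η₃, lam, hP₃, hrel⟩ := hPt'.add hS hneg hne
        have hsum : v (ρ' + ρ) = 1 := by
          have : ρ' + ρ = 2 * r' + ((ρ' - r') + (ρ - r')) := by ring
          rw [this]
          exact val_add_eq_one v h2r' (v.map_add_lt hbr' hbr)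
        have hξne : ξ' ≠ ξ := by
          intro he
          obtain ⟨h12, -, -⟩ := hrel.lam_tangent h2 he
          -- `η' = -η`, so `ρ' = -ρ`
          have : ρ' + ρ = 0 := by
            rw [hρ'def, hρdef, he, h12]; ring
          rw [this, map_zero] at hsum
          exact zero_ne_one hsum
        have hF3 := hrel.F3 hξne
        have hnum : η' * ξ - -η * ξ' = ξ' * ξ * (ρ' + ρ) := by
          rw [hρ'def, hρdef]; field_simp; ring
        rw [hnum] at hF3
        have hv := congrArg v hF3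
        simp only [map_mul, map_pow, hsum, mul_one, hξ'v] at hv
        have hv' : v ξ₃ * v (ξ' - ξ) ^ 2 = v ξ ^ 2 := by
          have hne2 : v ξ * v ξ ≠ 0 := mul_ne_zero hξpos.ne' hξpos.ne'
          apply mul_right_cancel₀ hne2
          calc v ξ₃ * v (ξ' - ξ) ^ 2 * (v ξ * v ξ)
              = v ξ₃ * v ξ * v ξ * v (ξ' - ξ) ^ 2 := by ac_rfl
            _ = (v ξ * v ξ) ^ 2 := hv
            _ = v ξ ^ 2 * (v ξ * v ξ) := by rw [sq, sq]
        have h1 : 1 < v ξ₃ := Fermat.Agent.S05.helper2278.one_lt_of_mul_sq_lt hdiff hv'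
        rw [sub_eq_add_neg]
        exact Or.inr ⟨ξ₃, η₃, hP₃, h1⟩
  · -- `v ξ = 1`
    have hξ'1 : v ξ' = 1 := hσξ ▸ sigma_eq_one hσ heq
    have hdiff : v (ξ' - ξ) < 1 := hσξ ▸ hσ ξ heq.le
    have hηle : v η ≤ 1 := by
      apply val_le_one_of_sq v
      rw [hcurve, map_mul, heq, one_mul]
      refine v.map_add_le (v.map_add_le ?_ ?_) hbe
      · rw [map_pow, heq, one_pow]
      · rw [map_mul, heq, mul_one]; exact hal
    have hηdiff : v (η' - η) < 1 := hση ▸ hσ η hηle
    by_cases hPP : ξ' = ξ ∧ η' = η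
    · exact hsame hPP.1 hPP.2
    · have hneg : IsPt W e (-(Point.some x y h)) ξ (-η) := hPt.neg h2
      have hne : ¬(ξ' = ξ ∧ η' = -(-η)) := by rw [neg_neg]; exact hPP
      obtain ⟨ξ₃, η₃, lam, hP₃, hrel⟩ := hPt'.add hS hneg hne
      have h1 : 1 < v ξ₃ :=
        hrel.unit_sub hv2 hal hbe hdisc hξ'1 heq hdiff (by rw [← sub_eq_add_neg]; exact hηdiff)
      rw [sub_eq_add_neg]
      exact Or.inr ⟨ξ₃, η₃, hP₃, h1⟩
  · -- `1 < v ξ`
    have hgt' : 1 < v ξ' := hσξ ▸ sigma_one_lt hσ hgt
    exact inE1_sub hS hv2 hal hbe (Or.inr ⟨ξ', η', hPt', hgt'⟩) (Or.inr ⟨ξ, η, hPt, hgt⟩)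

end Fermat.Agent.S13.helper1663
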