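import Mathlib

/-!
# Valuation bounds for roots of polynomials (helper1663, S13)

Mathlib-only lemmas about a valuation `v` on a field `K` (multiplicative notation):

* `val_leadingCoeff_mul_prod_le_one` (Newton polygon bound, "large roots"): if `f ∈ K[X]` has
  `v`-integral coefficients and `s` is a finite set of roots of `f` with `1 < v x`, then
  `v (leadingCoeff f) * ∏ x ∈ s, v x ≤ 1`.
* `exists_ne_val_eq_of_sum_eq_zero` (ultrametric principle): in a finite sum equal to `0` with a
  nonzero term, the maximal valuation is attained at least twice.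
* `inv_val_prime_le_of_one_lt`: a rational number with `1 < v q` has `(v p)⁻¹ ≤ v q`, when `v`
  is `p`-adic on `ℤ`.
* `inv_val_prime_le_pow`: if `x` with `1 < v x` is a root of a nonzero rational polynomial of
  degree `≤ m` then `(v p)⁻¹ ≤ v x ^ m`.
-/

set_option autoImplicit false

namespace Fermat.Agent.S13.helper1663

open Polynomial

variable {K : Type*} [Field K] {Γ₀ : Type*} [LinearOrderedCommGroupWithZero Γ₀]
  (v : Valuation K Γ₀)

/-- **Newton polygon bound for large roots.** -/
theorem val_leadingCoeff_mul_prod_le_one [DecidableEq K] (s : Finset K) :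
    ∀ f : K[X], f ≠ 0 → (∀ i, v (f.coeff i) ≤ 1) → (∀ x ∈ s, f.IsRoot x ∧ 1 < v x) →
      v f.leadingCoeff * ∏ x ∈ s, v x ≤ 1 := by
  induction s using Finset.induction_on with
  | empty =>
    intro f _ hf _
    rw [Finset.prod_empty, mul_one]
    exact hf _
  | insert a s ha ih =>
    intro f hf0 hf hroots
    obtain ⟨hra, hva⟩ := hroots a (Finset.mem_insert_self a s)
    obtain ⟨g, hg⟩ := dvd_iff_isRoot.mpr hra
    have hg0 : g ≠ 0 := by
      rintro rfl
      rw [mul_zero] at hg
      exact hf0 hg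
    have ha0 : a ≠ 0 := by
      rintro rfl
      rw [map_zero] at hva
      exact absurd hva (not_lt.mpr zero_le)
    have hva' : 1 ≤ v a := hva.le
    -- coefficients of `a • g` are integral
    have hfg : f = g * (X - C a) := by rw [hg, mul_comm]
    have hcoeff : ∀ i, v (a * g.coeff i) ≤ 1 := by
      intro i
      induction i with
      | zero =>
        have h0 : f.coeff 0 = -(a * g.coeff 0) := by
          rw [hfg, mul_coeff_zero]
          simp
          ring
        have : a * g.coeff 0 = -f.coeff 0 := by rw [h0, neg_neg]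
        rw [this, Valuation.map_neg]
        exact hf 0
      | succ k ihk =>
        have hk : f.coeff (k + 1) = g.coeff k - g.coeff (k + 1) * a := by
          rw [hfg, coeff_mul_X_sub_C]
        have : a * g.coeff (k + 1) = g.coeff k - f.coeff (k + 1) := by rw [hk]; ring
        rw [this]
        refine v.map_sub_le ?_ (hf _)
        calc v (g.coeff k) = 1 * v (g.coeff k) := (one_mul _).symm
          _ ≤ v a * v (g.coeff k) := mul_le_mul' hva' le_rfl
          _ = v (a * g.coeff k) := (map_mul v _ _).symm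
          _ ≤ 1 := ihk
    have hg'0 : C a * g ≠ 0 := mul_ne_zero (C_ne_zero.mpr ha0) hg0
    have hg'coeff : ∀ i, v ((C a * g).coeff i) ≤ 1 := fun i => by
      rw [coeff_C_mul]; exact hcoeff i
    have hg'roots : ∀ x ∈ s, (C a * g).IsRoot x ∧ 1 < v x := by
      intro x hx
      obtain ⟨hrx, hvx⟩ := hroots x (Finset.mem_insert_of_mem hx)
      refine ⟨?_, hvx⟩
      have hxa : x ≠ a := fun h => ha (h ▸ hx)
      have h1 : (x - a) * g.eval x = 0 := by
        have := hrx
        rw [IsRoot, hg, eval_mul, eval_sub, eval_X, eval_C] at this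
        exact this
      have h2 : g.eval x = 0 := (mul_eq_zero.mp h1).resolve_left (sub_ne_zero.mpr hxa)
      rw [IsRoot, eval_mul, h2, mul_zero]
    have key := ih (C a * g) hg'0 hg'coeff hg'roots
    have hlc : f.leadingCoeff = g.leadingCoeff := by
      rw [hg, leadingCoeff_mul, leadingCoeff_X_sub_C, one_mul]
    rw [leadingCoeff_mul, leadingCoeff_C, map_mul] at key
    rw [Finset.prod_insert ha, hlc]
    calc v g.leadingCoeff * (v a * ∏ x ∈ s, v x)
        = v a * v g.leadingCoeff * ∏ x ∈ s, v x := by ac_rfl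
      _ ≤ 1 := key

/-- **Ultrametric principle**: a vanishing finite sum with a nonzero term has two distinct terms
of the same (maximal, nonzero) valuation. -/
theorem exists_ne_val_eq_of_sum_eq_zero {ι : Type*} [DecidableEq ι] (s : Finset ι) (t : ι → K)
    (hsum : ∑ i ∈ s, t i = 0) {i₀ : ι} (hi₀ : i₀ ∈ s) (ht₀ : t i₀ ≠ 0) :
    ∃ i ∈ s, ∃ j ∈ s, i ≠ j ∧ v (t i) = v (t j) ∧ t i ≠ 0 := by
  obtain ⟨i, hi, hmax⟩ := Finset.exists_max_image s (fun i => v (t i)) ⟨i₀, hi₀⟩
  have hti : t i ≠ 0 := by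
    intro h0
    have h1 := hmax i₀ hi₀
    simp only [h0, map_zero] at h1
    exact ht₀ ((Valuation.zero_iff v).mp (le_antisymm h1 zero_le))
  have hvi : v (t i) ≠ 0 := (Valuation.ne_zero_iff v).mpr hti
  by_contra hcon
  push Not at hcon
  have hlt : ∀ j ∈ s.erase i, v (t j) < v (t i) := by
    intro j hj
    have hj' := Finset.mem_erase.mp hj
    have hne : v (t i) ≠ v (t j) := fun h => hti (hcon i hi j hj'.2 (Ne.symm hj'.1) h)
    exact lt_of_le_of_ne (hmax j hj'.2) (Ne.symm hne)
  have h1 : v (∑ j ∈ s.erase i, t j) < v (t i) := Valuation.map_sum_lt v hvi hlt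
  have h2 : ∑ j ∈ s.erase i, t j = -t i := by
    have := Finset.add_sum_erase s t hi
    rw [hsum] at this
    linear_combination this
  rw [h2, Valuation.map_neg] at h1
  exact lt_irrefl _ h1

/-- A rational number of valuation `> 1` has valuation at least `(v p)⁻¹`, when `v` is
`p`-adic on the integers. -/
theorem inv_val_prime_le_of_one_lt {p : ℕ} (hint : ∀ n : ℤ, v (n : K) ≤ 1)
    (hdvd : ∀ n : ℤ, v (n : K) < 1 → (p : ℤ) ∣ n) (hp1 : ¬ IsUnit (p : ℤ)) (q : ℚ)
    (hq : 1 < v (q : K)) :
    (v (p : K))⁻¹ ≤ v (q : K) := by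
  rw [Rat.cast_def, map_div₀] at hq ⊢
  have hden0 : v ((q.den : ℕ) : K) ≠ 0 := by
    intro h0
    rw [h0, div_zero] at hq
    exact absurd hq (not_lt.mpr zero_le)
  have hdenpos : 0 < v ((q.den : ℕ) : K) := zero_lt_iff.mpr hden0
  have hnum : v ((q.num : ℤ) : K) ≤ 1 := hint _
  have hdenlt : v ((q.den : ℕ) : K) < v ((q.num : ℤ) : K) := by
    have := (one_lt_div₀ hdenpos).mp hq
    exact this
  have hdenlt1 : v (((q.den : ℤ)) : K) < 1 := by
    rw [Int.cast_natCast]; exact lt_of_lt_of_le hdenlt hnum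
  obtain ⟨d, hd⟩ := hdvd _ hdenlt1
  have hnum1 : v ((q.num : ℤ) : K) = 1 := by
    refine le_antisymm hnum (not_lt.mp ?_)
    intro hlt
    have h1 := hdvd _ hlt
    have h2 : (p : ℤ) ∣ (q.den : ℤ) := ⟨d, hd⟩
    have hcop : IsCoprime q.num (q.den : ℤ) := by
      rw [Int.isCoprime_iff_gcd_eq_one]
      have := q.reduced
      rw [Nat.Coprime] at this
      rw [Int.gcd_def, Int.natAbs_natCast]; exact this
    exact hp1 (hcop.isUnit_of_dvd' h1 h2)
  have hden_le : v ((q.den : ℕ) : K) ≤ v (p : K) := by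
    have : ((q.den : ℕ) : K) = (p : K) * (d : K) := by
      have := congrArg (fun z : ℤ => (z : K)) hd
      push_cast at this
      exact this
    rw [this, map_mul]
    exact mul_le_of_le_one_right zero_le (hint d)
  have hppos : 0 < v (p : K) := lt_of_lt_of_le hdenpos hden_le
  rw [hnum1, one_div]
  exact (inv_le_inv₀ hppos hdenpos).mpr hden_le

/-- If `x` with `1 < v x` is a root of a nonzero rational polynomial of degree `≤ m`, then
`(v p)⁻¹ ≤ v x ^ m`, when `v` is `p`-adic on the integers. -/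
theorem inv_val_prime_le_pow [Algebra ℚ K] {p : ℕ} (hint : ∀ n : ℤ, v (n : K) ≤ 1)
    (hdvd : ∀ n : ℤ, v (n : K) < 1 → (p : ℤ) ∣ n) (hp1 : ¬ IsUnit (p : ℤ))
    {x : K} (hx : 1 < v x) (g : ℚ[X]) (hg0 : g ≠ 0) (hgx : aeval x g = 0) {m : ℕ}
    (hdeg : g.natDegree ≤ m) : (v (p : K))⁻¹ ≤ v x ^ m := by
  classical
  have hx0 : x ≠ 0 := by
    rintro rfl
    rw [map_zero] at hx
    exact absurd hx (not_lt.mpr zero_le)
  have hvx0 : v x ≠ 0 := (Valuation.ne_zero_iff v).mpr hx0
  rw [aeval_eq_sum_range] at hgx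
  set t : ℕ → K := fun i => g.coeff i • x ^ i with ht
  have hlc : t g.natDegree ≠ 0 := by
    simp only [ht]
    rw [Algebra.smul_def]
    refine mul_ne_zero ?_ (pow_ne_zero _ hx0)
    rw [Ne, map_eq_zero]
    exact leadingCoeff_ne_zero.mpr hg0
  obtain ⟨i, hi, j, hj, hij, hval, hti⟩ :=
    exists_ne_val_eq_of_sum_eq_zero v (Finset.range (g.natDegree + 1)) t hgx
      (Finset.self_mem_range_succ _) hlc
  have htj : t j ≠ 0 := by
    rw [← Valuation.ne_zero_iff v, ← hval]; exact (Valuation.ne_zero_iff v).mpr hti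
  -- symmetric core
  have core : ∀ i j : ℕ, i < j → j ≤ g.natDegree → v (t i) = v (t j) → t i ≠ 0 → t j ≠ 0 →
      (v (p : K))⁻¹ ≤ v x ^ m := by
    intro i j hlt hjle hval hti htj
    simp only [ht, Algebra.smul_def, map_mul, map_pow] at hval
    have hci : g.coeff i ≠ 0 := by
      intro h0; apply hti; simp only [ht, h0, zero_smul]
    have hcj : g.coeff j ≠ 0 := by
      intro h0; apply htj; simp only [ht, h0, zero_smul]
    have hcj' : v (algebraMap ℚ K (g.coeff j)) ≠ 0 := by
      rw [Valuation.ne_zero_iff, Ne, map_eq_zero]; exact hcj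
    have hpow : v x ^ (j - i) = v (((g.coeff i / g.coeff j : ℚ)) : K) := by
      rw [← eq_ratCast (algebraMap ℚ K), map_div₀, map_div₀]
      rw [eq_div_iff hcj']
      have hj' : j = (j - i) + i := (Nat.sub_add_cancel hlt.le).symm
      have h1 : v x ^ j = v x ^ (j - i) * v x ^ i := by rw [← pow_add, ← hj']
      rw [h1] at hval
      have hxi : v x ^ i ≠ 0 := pow_ne_zero _ hvx0
      apply mul_right_cancel₀ hxi
      rw [hval]; ac_rfl
    have h1lt : 1 < v x ^ (j - i) := one_lt_pow₀ hx (Nat.sub_ne_zero_of_lt hlt)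
    have h2 := inv_val_prime_le_of_one_lt v hint hdvd hp1 _ (hpow ▸ h1lt)
    rw [← hpow] at h2
    refine h2.trans (pow_le_pow_right₀ hx.le ?_)
    exact (Nat.sub_le j i).trans (hjle.trans hdeg)
  have hi' : i ≤ g.natDegree := Nat.lt_succ_iff.mp (Finset.mem_range.mp hi)
  have hj' : j ≤ g.natDegree := Nat.lt_succ_iff.mp (Finset.mem_range.mp hj)
  rcases lt_or_gt_of_ne hij with h | h
  · exact core i j h hj' hval hti htj
  · exact core j i h hi' hval.symm htj hti

end Fermat.Agent.S13.helper1663
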