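import Fermat.Agent.S05.helper305_Points
import Fermat.Agent.S05.helper1205_E1Add

/-!
# Regions `E₁ ⊆ E₀` of a Weierstrass curve in shape coordinates are subgroups (helper1663, S13)

Point-level closure lemmas for the kernel of reduction `InE1` and for `InE0`
(`helper305_Points`), in shape coordinates `η² = ξ(ξ² + al ξ + be)` over a valued field with
`v 2 = 1`.  No assumption on the residue characteristic besides `v 2 = 1`.

* `inE1_add`, `inE1_neg`, `inE1_sub`, `inE1_nsmul` (`v al ≤ 1`, `v be ≤ 1`);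
* `e0_add_rel`, `inE0_add`, `inE0_nsmul` (`v al ≤ 1`, `v be < 1`);
* `not_inE0_T`: the 2-torsion point `T = (0, 0)` is not in `E₀`;
* `odd_nsmul_of_add_self`: odd multiples of a 2-torsion element.
-/

set_option autoImplicit false
set_option linter.unusedSectionVars false

namespace Fermat.Agent.S13.helper1663

open WeierstrassCurve WeierstrassCurve.Affine
open Fermat.Agent.S05.helper305

variable {K : Type*} [Field K] [DecidableEq K]
variable {Γ₀ : Type*} [LinearOrderedCommGroupWithZero Γ₀]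
variable {v : Valuation K Γ₀} {W : WeierstrassCurve K} {e al be : K}

theorem inE1_zero : InE1 v W e (0 : W.toAffine.Point) := Or.inl rfl

theorem inE0_zero : InE0 v W e (0 : W.toAffine.Point) := Or.inl rfl

theorem inE1_neg (h2 : (2 : K) ≠ 0) {P : W.toAffine.Point} (h : InE1 v W e P) :
    InE1 v W e (-P) := by
  rcases h with rfl | ⟨ξ, η, hP, hv⟩
  · left; exact neg_zero
  · exact Or.inr ⟨ξ, -η, hP.neg h2, hv⟩

theorem inE1_add (hS : Shape W e al be) (hv2 : v 2 = 1) (hal : v al ≤ 1) (hbe : v be ≤ 1)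
    {P Q : W.toAffine.Point} (hP : InE1 v W e P) (hQ : InE1 v W e Q) : InE1 v W e (P + Q) := by
  rcases hP with rfl | ⟨ξ₁, η₁, hP, hv₁⟩
  · rw [zero_add]; exact hQ
  rcases hQ with rfl | ⟨ξ₂, η₂, hQ, hv₂⟩
  · rw [add_zero]; exact Or.inr ⟨ξ₁, η₁, hP, hv₁⟩
  by_cases hne : ξ₁ = ξ₂ ∧ η₁ = -η₂
  · obtain ⟨rfl, rfl⟩ := hne
    left
    exact hP.add_eq_zero hS.two_ne (by rw [neg_neg]; exact hQ)
  · obtain ⟨ξ₃, η₃, lam, hP₃, hrel⟩ := hP.add hS hQ hne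
    exact Or.inr ⟨ξ₃, η₃, hP₃,
      (Fermat.Agent.S05.helper1205.e1_add v hrel hv2 hal hbe hv₁ hv₂).1⟩

theorem inE1_sub (hS : Shape W e al be) (hv2 : v 2 = 1) (hal : v al ≤ 1) (hbe : v be ≤ 1)
    {P Q : W.toAffine.Point} (hP : InE1 v W e P) (hQ : InE1 v W e Q) : InE1 v W e (P - Q) := by
  rw [sub_eq_add_neg]
  exact inE1_add hS hv2 hal hbe hP (inE1_neg hS.two_ne hQ)

theorem inE1_nsmul (hS : Shape W e al be) (hv2 : v 2 = 1) (hal : v al ≤ 1) (hbe : v be ≤ 1)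
    {P : W.toAffine.Point} (hP : InE1 v W e P) (n : ℕ) : InE1 v W e (n • P) := by
  induction n with
  | zero => rw [zero_smul]; exact inE1_zero
  | succ n ih => rw [succ_nsmul]; exact inE1_add hS hv2 hal hbe ih hP

/-- `E₀` is closed under the chord–tangent law when `be` is a nonunit. -/
theorem e0_add_rel {ξ₁ η₁ ξ₂ η₂ ξ₃ η₃ lam : K} (h : AddRel al be ξ₁ η₁ ξ₂ η₂ ξ₃ η₃ lam)
    (hv2 : v 2 = 1) (hal : v al ≤ 1) (hbe : v be < 1) (h₁ : 1 ≤ v ξ₁) (h₂ : 1 ≤ v ξ₂) :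
    1 ≤ v ξ₃ := by
  have h2 : (2 : K) ≠ 0 := two_ne_zero_of_val v hv2
  have hF2 := h.F2 h2
  have c₁ := h.c₁
  have c₂ := h.c₂
  set a := v ξ₁ with ha
  set b := v ξ₂ with hb
  have ha0 : 0 < a := lt_of_lt_of_le zero_lt_one h₁
  have hb0 : 0 < b := lt_of_lt_of_le zero_lt_one h₂
  have hab : 1 ≤ a * b := one_le_mul_of_one_le_of_one_le h₁ h₂
  have hD : v (ξ₁ * ξ₂ - be) = a * b := by
    rw [Valuation.map_sub_eq_of_lt_left, map_mul]
    rw [map_mul]; exact lt_of_lt_of_le hbe hab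
  -- bound on `v η ^ 2`
  have hq : ∀ ξ : K, 1 ≤ v ξ → v (ξ ^ 2 + al * ξ + be) ≤ v ξ ^ 2 := by
    intro ξ hξ
    have hξ0 : 0 < v ξ := lt_of_lt_of_le zero_lt_one hξ
    have h1 : v (al * ξ) ≤ v ξ ^ 2 := by
      rw [map_mul, sq]
      calc v al * v ξ ≤ 1 * v ξ := mul_le_mul' hal le_rfl
        _ ≤ v ξ * v ξ := mul_le_mul' hξ le_rfl
    have h3 : v be ≤ v ξ ^ 2 := hbe.le.trans (one_le_pow₀ hξ)
    refine v.map_add_le (v.map_add_le ?_ h1) h3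
    rw [map_pow]
  have hη₁ : v η₁ ^ 2 ≤ a ^ 3 := by
    rw [← map_pow, c₁, map_mul, pow_succ' a 2]
    exact mul_le_mul' le_rfl (hq ξ₁ h₁)
  have hη₂ : v η₂ ^ 2 ≤ b ^ 3 := by
    rw [← map_pow, c₂, map_mul, pow_succ' b 2]
    exact mul_le_mul' le_rfl (hq ξ₂ h₂)
  have hN : v (η₁ * ξ₂ + η₂ * ξ₁) ^ 2 ≤ (a * b) ^ 3 := by
    have h1 : (v (η₁ * ξ₂)) ^ 2 ≤ (a * b) ^ 3 := by
      rw [map_mul, mul_pow, mul_pow]
      calc v η₁ ^ 2 * b ^ 2 ≤ a ^ 3 * b ^ 2 := mul_le_mul' hη₁ le_rfl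
        _ ≤ a ^ 3 * b ^ 3 := by
          refine mul_le_mul' le_rfl ?_
          exact pow_le_pow_right₀ h₂ (by norm_num)
    have h3 : (v (η₂ * ξ₁)) ^ 2 ≤ (a * b) ^ 3 := by
      rw [map_mul, mul_pow, mul_pow]
      calc v η₂ ^ 2 * a ^ 2 ≤ b ^ 3 * a ^ 2 := mul_le_mul' hη₂ le_rfl
        _ ≤ b ^ 3 * a ^ 3 := by
          refine mul_le_mul' le_rfl ?_
          exact pow_le_pow_right₀ h₁ (by norm_num)
        _ = a ^ 3 * b ^ 3 := mul_comm _ _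
    rcases le_total (v (η₁ * ξ₂)) (v (η₂ * ξ₁)) with hle | hle
    · exact (pow_le_pow_left₀ zero_le (v.map_add_le hle le_rfl) 2).trans h3
    · exact (pow_le_pow_left₀ zero_le (v.map_add_le le_rfl hle) 2).trans h1
  have hv := congrArg v hF2
  rw [map_mul, map_pow, map_mul, map_mul, map_pow, hD] at hv
  have hv' : v ξ₃ * v (η₁ * ξ₂ + η₂ * ξ₁) ^ 2 = (a * b) ^ 3 := by
    rw [hv, pow_succ' (a * b) 2]
  by_contra hcon
  have hlt : v ξ₃ < 1 := not_le.mp hcon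
  have hpos : 0 < (a * b) ^ 3 := pow_pos (mul_pos ha0 hb0) 3
  have hNpos : 0 < v (η₁ * ξ₂ + η₂ * ξ₁) ^ 2 := by
    rcases eq_or_lt_of_le (zero_le (a := v (η₁ * ξ₂ + η₂ * ξ₁) ^ 2)) with h0 | h0
    · rw [← h0, mul_zero] at hv'
      exact absurd hv' hpos.ne
    · exact h0
  have : v ξ₃ * v (η₁ * ξ₂ + η₂ * ξ₁) ^ 2 < (a * b) ^ 3 :=
    calc v ξ₃ * v (η₁ * ξ₂ + η₂ * ξ₁) ^ 2 < 1 * v (η₁ * ξ₂ + η₂ * ξ₁) ^ 2 :=
          mul_lt_mul_of_pos_right hlt hNpos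
      _ = v (η₁ * ξ₂ + η₂ * ξ₁) ^ 2 := one_mul _
      _ ≤ (a * b) ^ 3 := hN
  exact absurd hv' this.ne

theorem inE0_add (hS : Shape W e al be) (hv2 : v 2 = 1) (hal : v al ≤ 1) (hbe : v be < 1)
    {P Q : W.toAffine.Point} (hP : InE0 v W e P) (hQ : InE0 v W e Q) : InE0 v W e (P + Q) := by
  rcases hP with rfl | ⟨ξ₁, η₁, hP, hv₁⟩
  · rw [zero_add]; exact hQ
  rcases hQ with rfl | ⟨ξ₂, η₂, hQ, hv₂⟩
  · rw [add_zero]; exact Or.inr ⟨ξ₁, η₁, hP, hv₁⟩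
  by_cases hne : ξ₁ = ξ₂ ∧ η₁ = -η₂
  · obtain ⟨rfl, rfl⟩ := hne
    left
    exact hP.add_eq_zero hS.two_ne (by rw [neg_neg]; exact hQ)
  · obtain ⟨ξ₃, η₃, lam, hP₃, hrel⟩ := hP.add hS hQ hne
    exact Or.inr ⟨ξ₃, η₃, hP₃, e0_add_rel hrel hv2 hal hbe hv₁ hv₂⟩

theorem inE0_nsmul (hS : Shape W e al be) (hv2 : v 2 = 1) (hal : v al ≤ 1) (hbe : v be < 1)
    {P : W.toAffine.Point} (hP : InE0 v W e P) (n : ℕ) : InE0 v W e (n • P) := by
  induction n with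
  | zero => rw [zero_smul]; exact inE0_zero
  | succ n ih => rw [succ_nsmul]; exact inE0_add hS hv2 hal hbe ih hP

/-- The 2-torsion point `T = (0, 0)` does not lie in `E₀`. -/
theorem not_inE0_T {T : W.toAffine.Point} (hT : IsPt W e T 0 0) : ¬ InE0 v W e T := by
  rintro (h | ⟨ξ, η, hP, hv⟩)
  · exact hT.ne_zero h
  · obtain ⟨h0, -⟩ := hP.unique hT
    rw [h0, map_zero] at hv
    exact absurd hv (not_le.mpr zero_lt_one)

/-- Odd multiples of a 2-torsion point. -/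
theorem odd_nsmul_of_add_self {G : Type*} [AddCommGroup G] {T : G} (hTT : T + T = 0) {n : ℕ}
    (hn : Odd n) : n • T = T := by
  obtain ⟨k, rfl⟩ := hn
  rw [add_smul, one_smul, mul_comm, mul_smul, two_smul, hTT, smul_zero, zero_add]

end Fermat.Agent.S13.helper1663
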