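import Fermat.Agent.S13.helper1864_LegAtP
import Fermat.Agent.S05.helper245_Vieta
import Fermat.Agent.S05.helper305_Points
import Fermat.Agent.S05.helper3034_FreyShape
import Fermat.Prelude.Def_FLTPrelim_Ramification
import Fermat.Prelude.Def_FLTPrelim_GaloisRep

set_option autoImplicit false
set_option linter.unusedSectionVars false

/-!
# Local input at `p` for the Frey curve (helper1864, S13)

For a valuation subring `A` of `AlgebraicClosure ℚ` lying over an odd prime `q`
(`q = P.p` allowed) and the frozen Frey model `E = P.freyCurve⁄Qbar`: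

* `freyE1 P A hq hq2 hA : AddSubgroup E.Point` is the kernel of reduction
  `{0} ∪ {(x, y) | x ∉ A}` (`mem_freyE1`);
* `inertia_sub_mem_freyE1`: for `σ ∈ A.inertiaSubgroupIn ℚ` and `T` with `P.p • T = 0`,
  `σ • T - T ∈ freyE1 P A hq hq2 hA`.

The proofs instantiate the abstract Legendre-coordinate library of helper245 (S05) directly on
the Frey model through the shape coordinates `ξ = x - e`, `η = y + (a₁ x + a₃)/2` of helper305
(`isLegCoord_of_shape`), so no change of Weierstrass model is needed.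
-/

namespace Fermat.Agent.S13.helper1864

open WeierstrassCurve WeierstrassCurve.Affine
open Fermat.Agent.S05.helper245 Fermat.Agent.S05.helper305

section ShapeCoord

variable {F : Type*} [Field F] [DecidableEq F]

/-- The shape coordinate `ξ = x - e` of a point (junk value `0` at infinity). -/
def shX (W : WeierstrassCurve F) (e : F) : W.toAffine.Point → F
  | .zero => 0
  | .some x _ _ => x - e

/-- The shape coordinate `η = y + (a₁ x + a₃)/2` of a point (junk value `0` at infinity). -/
def shY (W : WeierstrassCurve F) : W.toAffine.Point → F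
  | .zero => 0
  | .some x y _ => eta W x y

theorem shX_some (W : WeierstrassCurve F) (e : F) {x y : F} (h : W.toAffine.Nonsingular x y) :
    shX W e (Point.some x y h) = x - e := rfl

theorem shY_some (W : WeierstrassCurve F) {x y : F} (h : W.toAffine.Nonsingular x y) :
    shY W (Point.some x y h) = eta W x y := rfl

/-- The shape coordinates make the point group of a curve of shape `(e, al, be)` a
Legendre-coordinatised group in the sense of helper245, for `Y² = X³ + al X² + be X`. -/
theorem isLegCoord_of_shape {W : WeierstrassCurve F} {e al be : F} (hS : Shape W e al be) :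
    IsLegCoord al be (shX W e) (shY W) where
  eqn := by
    intro P hP
    cases P with
    | zero => exact absurd rfl hP
    | some x y h =>
      have := (hS.equation_iff x y).1 h.1
      simp only [shX, shY]
      linear_combination this
  inj := by
    intro P Q hP hQ hX hY
    cases P with
    | zero => exact absurd rfl hP
    | some x y h =>
      cases Q with
      | zero => exact absurd rfl hQ
      | some x' y' h' =>
        simp only [shX, shY] at hX hY
        have hx : x = x' := by linear_combination hX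
        subst hx
        have hy : y = y' := by
          simp only [eta] at hY
          exact add_right_cancel hY
        subst hy
        rfl
  negX := by
    intro P hP
    cases P with
    | zero => exact absurd rfl hP
    | some x y h => rw [Point.neg_some]; rfl
  negY := by
    intro P hP
    cases P with
    | zero => exact absurd rfl hP
    | some x y h =>
      rw [Point.neg_some]
      simp only [shY]
      exact eta_negY W hS.two_ne x y
  vieta := by
    intro P₁ P₂ P₃ hP₁ hP₂ hP₃ hs
    cases P₁ with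
    | zero => exact absurd rfl hP₁
    | some x₁ y₁ h₁' =>
      cases P₂ with
      | zero => exact absurd rfl hP₂
      | some x₂ y₂ h₂' =>
        cases P₃ with
        | zero => exact absurd rfl hP₃
        | some x₃ y₃ h₃' =>
          obtain ⟨l, m, hy₁, hy₂, hy₃, e₁, e₂, e₃⟩ := vieta_of_add_eq_zero h₁' h₂' h₃' hs
          have h2 := hS.two_ne
          have h4 : (4 : F) ≠ 0 := by
            have : (4 : F) = 2 * 2 := by norm_num
            rw [this]; exact mul_ne_zero h2 h2
          have hb2 := hS.hb2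
          have hb4 := hS.hb4
          have hb6 := hS.hb6
          simp only [WeierstrassCurve.b₂, WeierstrassCurve.b₄, WeierstrassCurve.b₆] at hb2 hb4 hb6
          obtain ⟨l', hl'⟩ : ∃ l' : F, 2 * l' = 2 * l + W.a₁ :=
            ⟨(2 * l + W.a₁) / 2, by field_simp⟩
          obtain ⟨m', hm'⟩ : ∃ m' : F, 2 * m' = 2 * m + W.a₃ + (2 * l + W.a₁) * e :=
            ⟨(2 * m + W.a₃ + (2 * l + W.a₁) * e) / 2, by field_simp⟩
          have hη₁ := two_mul_eta W h2 x₁ y₁
          have hη₂ := two_mul_eta W h2 x₂ y₂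
          have hη₃ := two_mul_eta W h2 x₃ y₃
          simp only [shX, shY]
          refine ⟨l', m', ?_, ?_, ?_, ?_, ?_, ?_⟩
          · apply mul_left_cancel₀ h2
            linear_combination hη₁ + 2 * hy₁ - (x₁ - e) * hl' - hm'
          · apply mul_left_cancel₀ h2
            linear_combination hη₂ + 2 * hy₂ - (x₂ - e) * hl' - hm'
          · apply mul_left_cancel₀ h2
            linear_combination hη₃ + 2 * hy₃ - (x₃ - e) * hl' - hm'
          · apply mul_left_cancel₀ h4
            linear_combination 4 * e₁ - hb2 - (2 * l' + 2 * l + W.a₁) * hl'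
          · apply mul_left_cancel₀ h2
            linear_combination 2 * e₂ - 4 * e * e₁ + 2 * m' * hl' + (2 * l + W.a₁) * hm' + hb4
              + e * hb2
          · apply mul_left_cancel₀ h4
            linear_combination 4 * e₃ - 4 * e * e₂ + 4 * e ^ 2 * e₁
              - (2 * m' + 2 * m + W.a₃ + (2 * l + W.a₁) * e) * hm' - hb6 - 2 * e * hb4
              - e ^ 2 * hb2

variable {Γ₀ : Type*} [LinearOrderedCommGroupWithZero Γ₀] (v : Valuation F Γ₀)

/-- The kernel of reduction in the original coordinates: `{0} ∪ {(x, y) | v x > 1}`. -/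
def kerRed (W : WeierstrassCurve F) : Set W.toAffine.Point :=
  {Q | Q = 0 ∨ ∃ (x y : F) (h : W.toAffine.Nonsingular x y), Q = Point.some x y h ∧ 1 < v x}

theorem one_lt_val_sub_iff {e x : F} (hve : v e ≤ 1) : 1 < v (x - e) ↔ 1 < v x := by
  constructor
  · intro hlt
    by_contra hx
    have hx' : v x ≤ 1 := le_of_not_gt hx
    exact absurd hlt (not_lt.mpr (v.map_sub_le hx' hve))
  · intro hlt
    rw [v.map_sub_eq_of_lt_left (lt_of_le_of_lt hve hlt)]; exact hlt

/-- In shape coordinates with integral `e`, the kernel of reduction is the subgroup `E1`. -/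
theorem mem_kerRed_iff_mem_E1 {W : WeierstrassCurve F} {e al be : F} (hS : Shape W e al be)
    (hve : v e ≤ 1) (hal : v al ≤ 1) (hbe : v be ≤ 1) (Q : W.toAffine.Point) :
    Q ∈ kerRed v W ↔ Q ∈ E1 v (isLegCoord_of_shape hS) hal hbe := by
  rw [mem_E1_iff]
  cases Q with
  | zero => exact ⟨fun _ => Or.inl rfl, fun _ => Or.inl rfl⟩
  | some x y h =>
    constructor
    · rintro (h0 | ⟨x', y', h', hQ, hx⟩)
      · exact absurd h0 (Point.some_ne_zero h)
      · right
        rw [Point.some.injEq] at hQ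
        obtain ⟨rfl, rfl⟩ := hQ
        rw [shX_some]
        exact (one_lt_val_sub_iff v hve).mpr hx
    · rintro (h0 | hx)
      · exact absurd h0 (Point.some_ne_zero h)
      · right
        rw [shX_some] at hx
        exact ⟨x, y, h, rfl, (one_lt_val_sub_iff v hve).mp hx⟩

end ShapeCoord

section Inertia

variable {F K : Type*} [Field F] [Field K] [Algebra F K]

/-- Pointwise description of inertia elements (as in helper1445's S05 top layer). -/
theorem inertia_facts' {A : ValuationSubring K} {σ : K ≃ₐ[F] K}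
    (hσ : σ ∈ A.inertiaSubgroupIn F) :
    (∀ x, x ∈ A → σ x ∈ A) ∧ (∀ x, x ∈ A → σ x - x ∈ A.nonunits) := by
  obtain ⟨τ, hτ, rfl⟩ := hσ
  have hmem : ∀ x, x ∈ A → (τ : K ≃ₐ[F] K) x ∈ A := fun x hx => (τ • (⟨x, hx⟩ : A)).2
  refine ⟨hmem, fun x hx => ?_⟩
  have h1 : MulSemiringAction.toRingAut (A.decompositionSubgroup F)
      (IsLocalRing.ResidueField A) τ = 1 := hτ
  have h2 : τ • (IsLocalRing.residue A ⟨x, hx⟩) = IsLocalRing.residue A ⟨x, hx⟩ := by
    have := congrArg (fun f => f (IsLocalRing.residue A ⟨x, hx⟩)) h1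
    simpa using this
  rw [← IsLocalRing.ResidueField.residue_smul] at h2
  have h3 : (τ • (⟨x, hx⟩ : A)) - ⟨x, hx⟩ ∈ IsLocalRing.maximalIdeal A := by
    rw [← Ideal.Quotient.eq]; exact h2
  rw [ValuationSubring.valuation_lt_one_iff] at h3
  rw [ValuationSubring.mem_nonunits_iff]
  exact h3

end Inertia

section Frey

local notation "Qbar" => AlgebraicClosure ℚ

open WeierstrassCurve.Affine.Point
open Fermat.Agent.S05.helper3034

/-- Membership in the kernel of reduction of the Frey model, in terms of `A`. -/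
theorem mem_kerRed_frey_iff (P : FreyPackage) (A : ValuationSubring Qbar)
    (Q : ((P.freyCurve : Affine ℚ)⁄Qbar).Point) :
    Q ∈ kerRed A.valuation ((P.freyCurve : Affine ℚ)⁄Qbar) ↔
      Q = 0 ∨ ∃ (x y : Qbar) (h : ((P.freyCurve : Affine ℚ)⁄Qbar).Nonsingular x y),
        Q = Point.some x y h ∧ x ∉ A := by
  have key : ∀ x : Qbar, 1 < A.valuation x ↔ x ∉ A := by
    intro x
    rw [← A.valuation_le_one_iff, not_le]
  constructor
  · rintro (h0 | ⟨x, y, h, hQ, hx⟩)
    · exact Or.inl h0
    · exact Or.inr ⟨x, y, h, hQ, (key x).mp hx⟩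
  · rintro (h0 | ⟨x, y, h, hQ, hx⟩)
    · exact Or.inl h0
    · exact Or.inr ⟨x, y, h, hQ, (key x).mpr hx⟩

/-- **(L1)** The kernel of reduction `{0} ∪ {(x, y) | x ∉ A}` of the frozen Frey model at a
valuation subring `A` of `Qbar` over an odd prime `q` (`q = P.p` allowed), as a subgroup. -/
noncomputable def freyE1 (P : FreyPackage) (A : ValuationSubring Qbar) {q : ℕ} (hq : q.Prime) (hq2 : q ≠ 2)
    (hA : A.LiesOverPrime q) : AddSubgroup ((P.freyCurve : Affine ℚ)⁄Qbar).Point where
  carrier := kerRed A.valuation ((P.freyCurve : Affine ℚ)⁄Qbar)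
  zero_mem' := Or.inl rfl
  add_mem' := by
    intro Q₁ Q₂ h₁ h₂
    obtain ⟨e, al, be, hS, hve, hval, hvbe, -⟩ := frey_shape_of_liesOver A P hq hq2 hA
    rw [mem_kerRed_iff_mem_E1 A.valuation hS hve hval hvbe] at h₁ h₂ ⊢
    exact add_mem h₁ h₂
  neg_mem' := by
    intro Q h
    obtain ⟨e, al, be, hS, hve, hval, hvbe, -⟩ := frey_shape_of_liesOver A P hq hq2 hA
    rw [mem_kerRed_iff_mem_E1 A.valuation hS hve hval hvbe] at h ⊢
    exact neg_mem h

theorem mem_freyE1 (P : FreyPackage) (A : ValuationSubring Qbar) {q : ℕ} (hq : q.Prime)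
    (hq2 : q ≠ 2) (hA : A.LiesOverPrime q) (Q : ((P.freyCurve : Affine ℚ)⁄Qbar).Point) :
    Q ∈ freyE1 P A hq hq2 hA ↔
      Q = 0 ∨ ∃ (x y : Qbar) (h : ((P.freyCurve : Affine ℚ)⁄Qbar).Nonsingular x y),
        Q = Point.some x y h ∧ x ∉ A :=
  mem_kerRed_frey_iff P A Q

theorem mem_freyE1_iff_mem_E1 (P : FreyPackage) (A : ValuationSubring Qbar) {q : ℕ}
    (hq : q.Prime) (hq2 : q ≠ 2) (hA : A.LiesOverPrime q) {e al be : Qbar}
    (hS : Shape ((P.freyCurve : Affine ℚ)⁄Qbar) e al be) (hve : A.valuation e ≤ 1)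
    (hal : A.valuation al ≤ 1) (hbe : A.valuation be ≤ 1)
    (Q : ((P.freyCurve : Affine ℚ)⁄Qbar).Point) :
    Q ∈ freyE1 P A hq hq2 hA ↔ Q ∈ E1 A.valuation (isLegCoord_of_shape hS) hal hbe :=
  mem_kerRed_iff_mem_E1 A.valuation hS hve hal hbe Q

/-- **(L2)** For a valuation subring `A` of `Qbar` over an odd prime `q` (`q = P.p` allowed),
an inertia element `σ` and a `p`-torsion point `T` of the Frey model, the difference
`σ • T - T` lies in the kernel of reduction. -/
theorem inertia_sub_mem_freyE1 (P : FreyPackage) (A : ValuationSubring Qbar) {q : ℕ}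
    (hq : q.Prime) (hq2 : q ≠ 2) (hA : A.LiesOverPrime q) (σ : Qbar ≃ₐ[ℚ] Qbar)
    (hσ : σ ∈ A.inertiaSubgroupIn ℚ) (T : ((P.freyCurve : Affine ℚ)⁄Qbar).Point)
    (hT : P.p • T = 0) : σ • T - T ∈ freyE1 P A hq hq2 hA := by
  obtain ⟨e, al, be, hS, hve, hval, hvbe, hbe0, hdisc, hcase⟩ :=
    frey_shape_of_liesOver A P hq hq2 hA
  rw [mem_freyE1_iff_mem_E1 P A hq hq2 hA hS hve hval hvbe]
  have hL := isLegCoord_of_shape hS
  have h2 : A.valuation (2 : Qbar) = 1 := valuation_two_of_liesOver A hq hq2 hA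
  have hp2 : P.p ≠ 2 := by have := P.hp5; omega
  have hodd : Odd P.p := P.pp.odd_of_ne_two hp2
  obtain ⟨-, hσ2⟩ := inertia_facts' hσ
  have hs : ∀ u : Qbar, A.valuation u ≤ 1 →
      A.valuation ((σ : Qbar →+* Qbar) u - u) < 1 := fun u hu =>
    (A.mem_nonunits_iff).mp (hσ2 u ((A.valuation_le_one_iff u).mp hu))
  have ha₁ : (σ : Qbar →+* Qbar) ((P.freyCurve : Affine ℚ)⁄Qbar).a₁ =
      ((P.freyCurve : Affine ℚ)⁄Qbar).a₁ := by
    have : ((P.freyCurve : Affine ℚ)⁄Qbar).a₁ = algebraMap ℚ Qbar P.freyCurve.a₁ := by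
      simp [WeierstrassCurve.baseChange]
    rw [this]; exact σ.commutes _
  have ha₃ : (σ : Qbar →+* Qbar) ((P.freyCurve : Affine ℚ)⁄Qbar).a₃ =
      ((P.freyCurve : Affine ℚ)⁄Qbar).a₃ := by
    have : ((P.freyCurve : Affine ℚ)⁄Qbar).a₃ = algebraMap ℚ Qbar P.freyCurve.a₃ := by
      simp [WeierstrassCurve.baseChange]
    rw [this]; exact σ.commutes _
  have hτ0 : ∀ Q : ((P.freyCurve : Affine ℚ)⁄Qbar).Point, Q ≠ 0 →
      Point.map (W' := (P.freyCurve : Affine ℚ)) σ.toAlgHom Q ≠ 0 := by
    intro Q hQ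
    cases Q with
    | zero => exact absurd rfl hQ
    | some x y h => rw [Point.map_some]; exact Point.some_ne_zero _
  have hτX : ∀ Q : ((P.freyCurve : Affine ℚ)⁄Qbar).Point, Q ≠ 0 →
      shX ((P.freyCurve : Affine ℚ)⁄Qbar) (algebraMap ℚ Qbar e)
        (Point.map (W' := (P.freyCurve : Affine ℚ)) σ.toAlgHom Q) =
      (σ : Qbar →+* Qbar) (shX ((P.freyCurve : Affine ℚ)⁄Qbar) (algebraMap ℚ Qbar e) Q) := by
    intro Q hQ
    cases Q with
    | zero => exact absurd rfl hQ
    | some x y h =>
      rw [Point.map_some, shX_some, shX_some, map_sub]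
      congr 1
      exact (σ.commutes e).symm
  have hτY : ∀ Q : ((P.freyCurve : Affine ℚ)⁄Qbar).Point, Q ≠ 0 →
      shY ((P.freyCurve : Affine ℚ)⁄Qbar)
        (Point.map (W' := (P.freyCurve : Affine ℚ)) σ.toAlgHom Q) =
      (σ : Qbar →+* Qbar) (shY ((P.freyCurve : Affine ℚ)⁄Qbar) Q) := by
    intro Q hQ
    cases Q with
    | zero => exact absurd rfl hQ
    | some x y h =>
      rw [Point.map_some, shY_some, shY_some]
      simp only [eta, map_add, map_div₀, map_mul, ha₁, ha₃, map_ofNat]
      rfl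
  rw [algEquiv_smul_def]
  have good : A.valuation (algebraMap ℚ Qbar be) = 1 →
      Point.map (W' := (P.freyCurve : Affine ℚ)) σ.toAlgHom T - T ∈
        E1 A.valuation hL hval hvbe := fun hb =>
    good_main' A.valuation hL hval hb hdisc h2 hodd
      (Point.map (W' := (P.freyCurve : Affine ℚ)) σ.toAlgHom) hτ0
      (σ : Qbar →+* Qbar) hτX hτY hs hT
  rcases hcase with hb | ⟨hal1, w, -, hw⟩
  · exact good hb
  · rcases hvbe.lt_or_eq with hlt | heq
    · obtain ⟨β, hβ⟩ := IsAlgClosed.exists_pow_nat_eq (algebraMap ℚ Qbar al) (n := 2)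
        (by norm_num)
      obtain ⟨T₀, hT₀⟩ := exists_T hS hbe0
      have hT₀0 : T₀ ≠ 0 := hT₀.ne_zero
      obtain ⟨x₀, y₀, h₀, rfl, hξ₀, hη₀⟩ := hT₀
      have hTX : shX ((P.freyCurve : Affine ℚ)⁄Qbar) (algebraMap ℚ Qbar e)
          (Point.some x₀ y₀ h₀) = 0 := by rw [shX_some]; exact hξ₀.symm
      have hTY : shY ((P.freyCurve : Affine ℚ)⁄Qbar) (Point.some x₀ y₀ h₀) = 0 := by
        rw [shY_some]; exact hη₀.symm
      have hd : (σ : Qbar →+* Qbar) ((w : ℤ) : Qbar) = ((w : ℤ) : Qbar) := map_intCast _ w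
      exact node_main' A.valuation hL hal1 hlt hbe0 h2 hβ hT₀0 hTX hTY P.pp hp2
        (Point.map (W' := (P.freyCurve : Affine ℚ)) σ.toAlgHom) hτ0
        (σ : Qbar →+* Qbar) hτX hτY hs hd hw hT
    · exact good heq

end Frey

end Fermat.Agent.S13.helper1864
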