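import Fermat.Agent.S05.helper245_LegE

set_option autoImplicit false

/-!
# Abstract Legendre-coordinatised groups without the hypothesis `v p = 1` (helper1864, S13)

The S05 development of helper245 shows that an endomorphism `τ` acting on coordinates through a
map `s` which is trivial modulo the maximal ideal fixes the `p`-torsion when `v p = 1`.
The hypothesis `v p = 1` is used there only through "`E₁` has no `p`-torsion".  Dropping it, the
same arguments give the statement needed at the residue characteristic `p`: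
for every `p`-torsion point `P`, the difference `τ P - P` lies in the kernel of reduction
`E₁ = {0} ∪ {v(X) > 1}`.

Main results: `E1` (the kernel of reduction as a subgroup), `good_main'`, `node_main'`.
-/

namespace Fermat.Agent.S13.helper1864

open Fermat.Agent.S05.helper245

section E1

variable {K : Type*} [Field K] {Γ₀ : Type*} [LinearOrderedCommGroupWithZero Γ₀]
  (v : Valuation K Γ₀) {G : Type*} [AddCommGroup G] {a b : K} {X Y : G → K}

/-- The kernel of reduction `E₁ = {0} ∪ {v(X) > 1}` as a subgroup. -/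
def E1 (hL : IsLegCoord a b X Y) (ha : v a ≤ 1) (hb : v b ≤ 1) : AddSubgroup G where
  carrier := {Q | Q = 0 ∨ 1 < v (X Q)}
  zero_mem' := Or.inl rfl
  add_mem' := by
    intro P Q hP hQ
    by_cases hP0 : P = 0
    · rw [hP0, zero_add]; exact hQ
    by_cases hQ0 : Q = 0
    · rw [hQ0, add_zero]; exact hP
    by_cases hPQ : P + Q = 0
    · exact Or.inl hPQ
    right
    have hxP : 1 < v (X P) := hP.resolve_left hP0
    have hxQ : 1 < v (X Q) := hQ.resolve_left hQ0
    have hR : -(P + Q) ≠ 0 := neg_ne_zero.mpr hPQ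
    have := (E1_triple v hL ha hb hP0 hQ0 hR (by abel) hxP hxQ).1
    rwa [hL.negX _ hPQ] at this
  neg_mem' := by
    intro P hP
    by_cases hP0 : P = 0
    · left; rw [hP0, neg_zero]
    right
    rw [hL.negX P hP0]; exact hP.resolve_left hP0

theorem mem_E1_iff (hL : IsLegCoord a b X Y) (ha : v a ≤ 1) (hb : v b ≤ 1) {P : G} :
    P ∈ E1 v hL ha hb ↔ P = 0 ∨ 1 < v (X P) := Iff.rfl

/-- A ring endomorphism which is trivial modulo the maximal ideal preserves `{v > 1}`. -/
theorem one_lt_val_map (s : K →+* K) (hs : ∀ u, v u ≤ 1 → v (s u - u) < 1) {u : K}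
    (hu : 1 < v u) : 1 < v (s u) := by
  have hu0 : u ≠ 0 := by
    intro h0
    rw [h0, v.map_zero] at hu
    exact absurd hu (not_lt.mpr zero_le_one)
  have hsu0 : s u ≠ 0 := (map_ne_zero s).mpr hu0
  have hinv : v u⁻¹ < 1 := by
    rw [map_inv₀]
    exact inv_lt_one_of_one_lt₀ hu
  have h1 := hs u⁻¹ hinv.le
  have h2 : v (s u⁻¹) < 1 := by
    have e : s u⁻¹ = (s u⁻¹ - u⁻¹) + u⁻¹ := by ring
    rw [e]
    exact v.map_add_lt h1 hinv
  rw [map_inv₀, map_inv₀] at h2
  have hpos : 0 < v (s u) := by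
    rw [v.pos_iff]; exact hsu0
  exact (inv_lt_one₀ hpos).mp h2

/-- Endgame without torsion-freeness of `E₁`: close points differ by a point of `E₁`. -/
theorem sub_mem_E1_of_close (hL : IsLegCoord a b X Y) (ha : v a ≤ 1) (hb : v b ≤ 1)
    (h2 : v 2 = 1) (τ : G →+ G) (hτ0 : ∀ P, P ≠ 0 → τ P ≠ 0)
    {P : G} (hP : P ≠ 0) (hXP : v (X P) ≤ 1) (hYP : v (Y P) ≤ 1)
    (hX : v (X P - X (τ P)) < v (Y P)) (hY : v (Y P - Y (τ P)) < v (Y P)) :
    τ P - P ∈ E1 v hL ha hb := by
  by_cases hne : τ P = P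
  · rw [hne, sub_self]; exact zero_mem _
  have h1 := close_sub_mem_E1 v hL ha h2 hP (hτ0 P hP) (Ne.symm hne) hXP hYP hX hY
  have hmem : P - τ P ∈ E1 v hL ha hb := Or.inr h1
  have h' := neg_mem hmem
  rwa [neg_sub] at h'

/-- A nonzero `p`-torsion point (`p` odd) with integral `X` and nonsingular reduction has unit
`Y`-coordinate.  No hypothesis on `v p`. -/
theorem val_Y_eq_one_of_torsion' (hL : IsLegCoord a b X Y) (ha : v a ≤ 1) (hb : v b ≤ 1)
    (h2 : v 2 = 1) {p : ℕ} (hodd : Odd p) {P : G} (hP : P ≠ 0)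
    (hpP : p • P = 0) (hXP : v (X P) ≤ 1)
    (hf' : v (Y P) < 1 → v (3 * X P ^ 2 + 2 * a * X P + b) = 1) : v (Y P) = 1 := by
  rcases (val_Y_le_one v hL ha hb hP hXP).lt_or_eq with hlt | heq
  · exfalso
    obtain ⟨k, hk⟩ := hodd
    by_cases h2P : 2 • P = 0
    · have : p • P = P := by
        rw [hk, add_nsmul, mul_nsmul, h2P, nsmul_zero, zero_add, one_nsmul]
      rw [this] at hpP
      exact hP hpP
    · have h1 := double_mem_E1 v hL ha h2 hP h2P hXP hlt (hf' hlt)
      have hmem : 2 • P ∈ E1 v hL ha hb := Or.inr h1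
      have hP' : (k + 1) • (2 • P) = P := by
        have e : (k + 1) • (2 • P) = p • P + P := by
          rw [← mul_nsmul, hk, ← succ_nsmul]
          congr 1
        rw [e, hpP, zero_add]
      have hPmem : P ∈ E1 v hL ha hb := by
        rw [← hP']; exact nsmul_mem hmem _
      rcases hPmem with h | h
      · exact hP h
      · exact absurd hXP (not_le.mpr h)
  · exact heq

/-- **Good reduction, any residue characteristic**: `τ P - P` lies in the kernel of
reduction for every `p`-torsion point `P` (`p` odd). -/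
theorem good_main' (hL : IsLegCoord a b X Y) (ha : v a ≤ 1) (hb : v b = 1)
    (hdisc : v (a ^ 2 - 4 * b) = 1) (h2 : v 2 = 1) {p : ℕ} (hodd : Odd p)
    (τ : G →+ G) (hτ0 : ∀ P, P ≠ 0 → τ P ≠ 0) (s : K →+* K)
    (hτX : ∀ P, P ≠ 0 → X (τ P) = s (X P)) (hτY : ∀ P, P ≠ 0 → Y (τ P) = s (Y P))
    (hs : ∀ u, v u ≤ 1 → v (s u - u) < 1) {P : G} (hpP : p • P = 0) :
    τ P - P ∈ E1 v hL ha hb.le := by
  by_cases hP : P = 0
  · rw [hP, map_zero, sub_self]; exact zero_mem _
  by_cases hx : 1 < v (X P)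
  · have h1 : P ∈ E1 v hL ha hb.le := Or.inr hx
    have h2' : τ P ∈ E1 v hL ha hb.le := by
      right
      rw [hτX P hP]
      exact one_lt_val_map v s hs hx
    exact sub_mem h2' h1
  have hXP : v (X P) ≤ 1 := le_of_not_gt hx
  have hf' : v (Y P) < 1 → v (3 * X P ^ 2 + 2 * a * X P + b) = 1 := by
    intro hY
    rcases hXP.lt_or_eq with hlt | heq
    · have : 3 * X P ^ 2 + 2 * a * X P + b = b + (3 * X P + 2 * a) * X P := by ring
      rw [this]
      have hsmall : v ((3 * X P + 2 * a) * X P) < v b := by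
        rw [hb, v.map_mul]
        have h3 : v (3 * X P + 2 * a) ≤ 1 := by
          apply v.map_add_le
          · rw [v.map_mul]
            calc v 3 * v (X P) ≤ 1 * 1 := mul_le_mul' (val_three_le_one v) hXP
              _ = 1 := one_mul 1
          · rw [v.map_mul, h2, one_mul]; exact ha
        calc v (3 * X P + 2 * a) * v (X P) ≤ 1 * v (X P) := by gcongr
          _ = v (X P) := one_mul _
          _ < 1 := hlt
      rw [v.map_add_eq_of_lt_left hsmall, hb]
    · exact val_deriv_eq_one v hL hdisc hP heq hY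
  have hYP : v (Y P) = 1 := val_Y_eq_one_of_torsion' v hL ha hb.le h2 hodd hP hpP hXP hf'
  apply sub_mem_E1_of_close v hL ha hb.le h2 τ hτ0 hP hXP hYP.le
  · rw [hYP, hτX P hP, v.map_sub_swap]; exact hs _ hXP
  · rw [hYP, hτY P hP, v.map_sub_swap]; exact hs _ hYP.le

/-- **Node case, any residue characteristic**: `τ P - P` lies in the kernel of reduction for
every `p`-torsion point `P` when `v b` is a `p`-th power of the valuation of an `s`-fixed
element. -/
theorem node_main' (hL : IsLegCoord a b X Y) (ha : v a = 1) (hb : v b < 1) (hb0 : b ≠ 0)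
    (h2 : v 2 = 1) {β : K} (hβ : β ^ 2 = a) {T : G} (hT : T ≠ 0) (hTX : X T = 0)
    (hTY : Y T = 0) {p : ℕ} (hpp : p.Prime) (hp2 : p ≠ 2)
    (τ : G →+ G) (hτ0 : ∀ P, P ≠ 0 → τ P ≠ 0) (s : K →+* K)
    (hτX : ∀ P, P ≠ 0 → X (τ P) = s (X P)) (hτY : ∀ P, P ≠ 0 → Y (τ P) = s (Y P))
    (hs : ∀ u, v u ≤ 1 → v (s u - u) < 1) {d : K} (hd : s d = d) (hbd : v b = v d ^ p)
    {P : G} (hpP : p • P = 0) : τ P - P ∈ E1 v hL ha.le hb.le := by
  by_cases hP : P = 0
  · rw [hP, map_zero, sub_self]; exact zero_mem _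
  have hodd : Odd p := hpp.odd_of_ne_two hp2
  have hp3 : 3 ≤ p := by
    have := hpp.two_le
    omega
  have hdisc : v (a ^ 2 - 4 * b) = 1 := by
    have h4b : v (4 * b) < v (a ^ 2) := by
      rw [v.map_pow, ha, one_pow, v.map_mul]
      calc v 4 * v b ≤ 1 * v b := by gcongr; exact val_four_le_one v
        _ = v b := one_mul _
        _ < 1 := hb
    rw [v.map_sub_eq_of_lt_left h4b, v.map_pow, ha, one_pow]
  by_cases hx : 1 < v (X P)
  · have h1 : P ∈ E1 v hL ha.le hb.le := Or.inr hx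
    have h2' : τ P ∈ E1 v hL ha.le hb.le := by
      right
      rw [hτX P hP]
      exact one_lt_val_map v s hs hx
    exact sub_mem h2' h1
  have hXP : v (X P) ≤ 1 := le_of_not_gt hx
  rcases hXP.lt_or_eq with hlt | heq
  · -- the node region
    have h1p : ¬ p ∣ 1 := Nat.not_dvd_of_pos_of_lt one_pos hpp.one_lt
    have hPb : v b < v (X P) := by
      have := node_region_of_multiple v hL ha.le hb hb0 h2 hT hTX hTY hpp hp2 hpP hP hlt h1p
      rw [one_nsmul] at this; exact this.2.1
    obtain ⟨j, hj⟩ := cc_multiples v hL ha hb hb0 h2 hβ hT hTX hTY hpp hp2 hpP hP hlt (p - 1)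
      (by omega) (by omega)
    have hneg : (p - 1) • P = -P := by
      have : (p - 1) • P + P = 0 := by
        rw [← succ_nsmul, Nat.sub_add_cancel hpp.one_le]; exact hpP
      exact eq_neg_of_add_eq_zero_left this
    rw [hneg] at hj
    have kneg := cc_neg_mul v hL ha h2 hβ hP hPb hlt
    have hc : cc v b X Y β P ^ p = (v d ^ (2 * (j + 1))) ^ p := by
      calc cc v b X Y β P ^ p = cc v b X Y β P ^ (p - 1) * cc v b X Y β P := by
            rw [← pow_succ, Nat.sub_add_cancel hpp.one_le]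
        _ = cc v b X Y β (-P) * v b ^ (2 * j) * cc v b X Y β P := by rw [hj]
        _ = (cc v b X Y β (-P) * cc v b X Y β P) * v b ^ (2 * j) := by ac_rfl
        _ = v b ^ 2 * v b ^ (2 * j) := by rw [kneg]
        _ = v b ^ (2 * (j + 1)) := by rw [← pow_add]; congr 1; ring
        _ = (v d ^ (2 * (j + 1))) ^ p := by rw [hbd, ← pow_mul, ← pow_mul, mul_comm]
    have hc' : cc v b X Y β P = v d ^ (2 * (j + 1)) :=
      (pow_left_inj₀ zero_le zero_le hpp.ne_zero).mp hc
    obtain ⟨ϖ, hϖs, hϖv⟩ : ∃ ϖ : K, s ϖ = ϖ ∧ v (X P) = v ϖ := by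
      rcases val_X_eq_cc_or v hb0 (β := β) (Y := Y) hPb with h | h
      · exact ⟨d ^ (2 * (j + 1)), by rw [map_pow, hd], by rw [h, hc', v.map_pow]⟩
      · refine ⟨d ^ (2 * p) / d ^ (2 * (j + 1)), by rw [map_div₀, map_pow, map_pow, hd], ?_⟩
        rw [h, hc', v.map_div, v.map_pow, v.map_pow, hbd, ← pow_mul, mul_comm p 2]
    have hx0 : (0 : Γ₀) < v (X P) := lt_of_le_of_lt zero_le hPb
    have hϖ0 : ϖ ≠ 0 := by rw [← v.ne_zero_iff, ← hϖv]; exact hx0.ne'
    have hYX : v (Y P) = v (X P) := by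
      apply eq_of_sq_eq_sq'
      rw [← v.map_pow, hL.eqn P hP]
      have e : X P ^ 3 + a * X P ^ 2 + b * X P = a * X P ^ 2 + (X P ^ 3 + b * X P) := by ring
      have hdom : v (a * X P ^ 2) = v (X P) ^ 2 := by rw [v.map_mul, ha, one_mul, v.map_pow]
      have hsmall : v (X P ^ 3 + b * X P) < v (a * X P ^ 2) := by
        rw [hdom, sq]
        apply v.map_add_lt
        · rw [v.map_pow, pow_succ, sq]
          calc v (X P) * v (X P) * v (X P) < v (X P) * v (X P) * 1 :=
                mul_lt_mul_of_pos_left hlt (mul_pos hx0 hx0)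
            _ = v (X P) * v (X P) := mul_one _
        · rw [v.map_mul]
          exact mul_lt_mul_of_pos_right hPb hx0
      rw [e, v.map_add_eq_of_lt_left hsmall, hdom]
    have scale : ∀ z : K, v z = v ϖ → v (z - s z) < v ϖ := by
      intro z hz
      have hϖ0' : v ϖ ≠ 0 := (v.ne_zero_iff).mpr hϖ0
      have hu : v (z / ϖ) ≤ 1 := by rw [v.map_div, hz, div_self hϖ0']
      have hsu := hs (z / ϖ) hu
      have e : z - s z = -(ϖ * (s (z / ϖ) - z / ϖ)) := by
        rw [map_div₀, hϖs]; field_simp; ring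
      rw [e, v.map_neg, v.map_mul]
      calc v ϖ * v (s (z / ϖ) - z / ϖ) < v ϖ * 1 :=
            mul_lt_mul_of_pos_left hsu (lt_of_le_of_ne zero_le hϖ0'.symm)
        _ = v ϖ := mul_one _
    have hYP : v (Y P) ≤ 1 := by rw [hYX]; exact hXP
    apply sub_mem_E1_of_close v hL ha.le hb.le h2 τ hτ0 hP hXP hYP
    · rw [hYX, hτX P hP, hϖv]; exact scale _ hϖv
    · rw [hτY P hP]
      have := scale (Y P) (hYX.trans hϖv)
      rwa [← hYX.trans hϖv] at this
  · -- unit `X`
    have hf' : v (Y P) < 1 → v (3 * X P ^ 2 + 2 * a * X P + b) = 1 :=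
      fun hY => val_deriv_eq_one v hL hdisc hP heq hY
    have hYP : v (Y P) = 1 :=
      val_Y_eq_one_of_torsion' v hL ha.le hb.le h2 hodd hP hpP hXP hf'
    apply sub_mem_E1_of_close v hL ha.le hb.le h2 τ hτ0 hP hXP hYP.le
    · rw [hYP, hτX P hP, v.map_sub_swap]; exact hs _ hXP
    · rw [hYP, hτY P hP, v.map_sub_swap]; exact hs _ hYP.le

end E1

end Fermat.Agent.S13.helper1864
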