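import Mathlib
import Fermat.Agent.Lib.helper54_Frobenius
import Fermat.Prelude.Def_FLTPrelim_Ramification

/-!
# Conjugacy of the valuation subrings of `ℚ̄` over a prime (helper1922)

All valuation subrings of `ℚ̄` lying over the same prime `ℓ` are conjugate under
`Gal(ℚ̄/ℚ)`.  Built on the `ℤ̄`-dictionary of `Lib/helper54_Frobenius`.
-/

set_option autoImplicit false

namespace Fermat.Agent.S13.helper1922

open scoped Pointwise
open Fermat.Agent.Lib.helper54

local notation "Qb" => AlgebraicClosure ℚ
local notation "GQ" => (AlgebraicClosure ℚ ≃ₐ[ℚ] AlgebraicClosure ℚ)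
local notation "Zb" => integralClosure ℤ (AlgebraicClosure ℚ)

attribute [local instance] isAlgebraic_Qbar isAlgClosure_Qbar isGalois_Qbar isIntegral_Qbar

/-- An automorphism carrying the prime cut out by `A` to the prime cut out by `A'` maps `A`
into `A'`. -/
theorem map_mem_of_smul_prime_eq_prime {ℓ : ℕ} (hℓ : ℓ.Prime) (A A' : ValuationSubring Qb)
    (hA : A.LiesOverPrime ℓ) (τ : GQ)
    (hτ : τ • primeOfValuationSubring A = primeOfValuationSubring A') (x : Qb) (hx : x ∈ A) :
    τ x ∈ A' := by
  obtain ⟨a, b, hb, hab⟩ := exists_frac_of_mem_valuationSubring hℓ A hA x hx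
  have hτb : τ • b ∉ primeOfValuationSubring A' := by
    intro h
    rw [← hτ, Ideal.smul_mem_pointwise_smul_iff] at h
    exact hb h
  have h1 : τ x * ((τ • b : Zb) : Qb) = ((τ • a : Zb) : Qb) := by
    have := congrArg τ hab
    rwa [map_mul] at this
  have hτaA : ((τ • a : Zb) : Qb) ∈ A' := mem_valuationSubring_of_isIntegral A' _ (τ • a).2
  rw [mem_primeOfValuationSubring, ValuationSubring.mem_nonunits_iff_or] at hτb
  push Not at hτb
  obtain ⟨hne, hunit⟩ := hτb
  have h2 : τ x = ((τ • a : Zb) : Qb) * (((τ • b : Zb) : Qb))⁻¹ := by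
    rw [← h1, mul_assoc, mul_inv_cancel₀ hne, mul_one]
  rw [h2]
  exact A'.mul_mem _ _ hτaA hunit

/-- The prime of `ℤ` under the prime cut out by a valuation subring over `ℓ` is `(ℓ)`. -/
theorem under_primeOfValuationSubring {ℓ : ℕ} (hℓ : ℓ.Prime) (A : ValuationSubring Qb)
    (hA : A.LiesOverPrime ℓ) :
    (primeOfValuationSubring A).under ℤ = Ideal.span {(ℓ : ℤ)} := by
  ext m
  rw [Ideal.mem_span_singleton, Ideal.under_def, Ideal.mem_comap]
  constructor
  · intro hm
    by_contra hdvd
    exact intCast_not_mem_primeOfValuationSubring hℓ A hA m hdvd (by simpa using hm)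
  · rintro ⟨k, rfl⟩
    have h1 := (primeOfValuationSubring A).mul_mem_right ((k : ℤ) : Zb)
      (natCast_mem_primeOfValuationSubring A hA)
    simpa using h1

/-- **Conjugacy of places**: any two valuation subrings of `ℚ̄` over the same prime are
conjugate under `Gal(ℚ̄/ℚ)`. -/
theorem exists_map_mem_iff {ℓ : ℕ} (hℓ : ℓ.Prime) (A A' : ValuationSubring Qb)
    (hA : A.LiesOverPrime ℓ) (hA' : A'.LiesOverPrime ℓ) :
    ∃ τ : GQ, ∀ x : Qb, τ x ∈ A' ↔ x ∈ A := by
  classical
  let : TopologicalSpace Zb := ⊥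
  have : DiscreteTopology Zb := ⟨rfl⟩
  have : ContinuousSMul GQ Zb := by
    rw [continuousSMul_iff_stabilizer_isOpen]
    intro z
    have : (MulAction.stabilizer GQ z : Set GQ) = MulAction.stabilizer GQ (z : Qb) := by
      ext g
      simp [Subtype.ext_iff]
    rw [this]
    exact stabilizer_isOpen_of_isIntegral _
  have := isInvariant_Zbar
  have hunder : (primeOfValuationSubring A).under ℤ = (primeOfValuationSubring A').under ℤ := by
    rw [under_primeOfValuationSubring hℓ A hA, under_primeOfValuationSubring hℓ A' hA']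
  obtain ⟨τ, hτ⟩ := Algebra.IsInvariant.exists_smul_of_under_eq_of_profinite (A := ℤ) (G := GQ)
    (primeOfValuationSubring A) (primeOfValuationSubring A') hunder
  refine ⟨τ, fun x => ⟨fun hx => ?_, fun hx => ?_⟩⟩
  · have hτ' : τ⁻¹ • primeOfValuationSubring A' = primeOfValuationSubring A := by
      rw [hτ, inv_smul_smul]
    have := map_mem_of_smul_prime_eq_prime hℓ A' A hA' τ⁻¹ hτ' (τ x) hx
    simpa using this
  · exact map_mem_of_smul_prime_eq_prime hℓ A A' hA τ hτ.symm x hx

end Fermat.Agent.S13.helper1922
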