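import Mathlib
import Fermat.Agent.S13.helper1922_Conj
import Fermat.Prelude.Def_FLTPrelim_FreyPackage
import Fermat.Prelude.Def_FLTPrelim_GaloisRep
import Fermat.Prelude.Def_FLTPrelim_Ramification

/-!
# S13, ingredient I5 (`at_p`): core assembly (helper1922)

For a Galois-stable line `N` in the `p`-torsion `V` of the Frey curve, inertia at `p` acts
trivially on `N` or on `V / N`.  Hypothesis-passing: the two inputs are

* `NewtonStmt P`  : the product of the `x⁻¹` over any finite set of `x`-coordinates of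
  `p`-torsion points in the kernel of reduction divides `p` (Newton polygon of the
  `p`-division polynomial);
* `LocalAtPStmt P`: the kernel of reduction is closed under subtraction on `V`, and an
  inertia element `σ` moves every `p`-torsion point by an element of the kernel of reduction.
-/

set_option autoImplicit false
open WeierstrassCurve WeierstrassCurve.Affine WeierstrassCurve.Affine.Point

namespace Fermat.Agent.S13.helper1922

noncomputable section

open Fermat.Agent.Lib.helper54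

local notation "Qb" => AlgebraicClosure ℚ
local notation "GQ" => (AlgebraicClosure ℚ ≃ₐ[ℚ] AlgebraicClosure ℚ)
local notation "Zb" => integralClosure ℤ (AlgebraicClosure ℚ)

attribute [local instance] isAlgebraic_Qbar isAlgClosure_Qbar isGalois_Qbar isIntegral_Qbar

/-- Points of the Frey curve over `ℚ̄`. -/
abbrev FreyPt (P : FreyPackage) : Type := ((P.freyCurve)⁄(AlgebraicClosure ℚ)).Point

/-- The `p`-torsion of the Frey curve over `ℚ̄`. -/
abbrev Vp (P : FreyPackage) : Type :=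
  Submodule.torsionBy ℤ ((P.freyCurve)⁄(AlgebraicClosure ℚ)).Point P.p

/-- The `x`-coordinate of a point (junk value `0` at the origin). -/
def xOf (P : FreyPackage) : FreyPt P → Qb
  | .zero => 0
  | .some x _ _ => x

/-- The kernel of reduction of the Frey model at a valuation subring `A`: the origin and the
points whose `x`-coordinate is not in `A`. -/
def InE1 (P : FreyPackage) (A : ValuationSubring Qb) (Q : FreyPt P) : Prop :=
  Q = 0 ∨ ∃ (x y : Qb) (h : ((P.freyCurve)⁄(AlgebraicClosure ℚ)).Nonsingular x y),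
    Q = Point.some x y h ∧ x ∉ A

/-- **Newton-polygon input** (from the `p`-division polynomial). -/
def NewtonStmt (P : FreyPackage) : Prop :=
  ∀ A : ValuationSubring Qb, A.LiesOverPrime P.p →
    ∀ X : Finset Qb,
      (∀ x ∈ X, x ∉ A ∧ ∃ (y : Qb) (h : ((P.freyCurve)⁄(AlgebraicClosure ℚ)).Nonsingular x y),
        P.p • (Point.some x y h : FreyPt P) = 0) →
      A.valuation ((P.p : ℕ) : Qb) ≤ A.valuation (∏ x ∈ X, x⁻¹)

/-- **Local input at `p`**: (i) the kernel of reduction is closed under subtraction on the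
`p`-torsion; (ii) inertia moves `p`-torsion points by elements of the kernel of reduction. -/
def LocalAtPStmt (P : FreyPackage) : Prop :=
  ∀ A : ValuationSubring Qb, A.LiesOverPrime P.p →
    (∀ Q₁ Q₂ : Vp P, InE1 P A (Q₁ : FreyPt P) → InE1 P A (Q₂ : FreyPt P) →
      InE1 P A ((Q₁ - Q₂ : Vp P) : FreyPt P)) ∧
    (∀ σ ∈ A.inertiaSubgroupIn ℚ, ∀ Q : Vp P, InE1 P A ((σ • Q - Q : Vp P) : FreyPt P))

/-- The statement of ingredient I5 (field `at_p` of `helper13.Ingredients`). -/
def AtPStmt (P : FreyPackage) : Prop :=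
  ∀ N : Submodule (ZMod P.p) (Vp P), IsGaloisStable ℚ N → N ≠ ⊥ → N ≠ ⊤ →
    (∀ A : ValuationSubring (AlgebraicClosure ℚ), A.LiesOverPrime P.p →
      ∀ σ ∈ A.inertiaSubgroupIn ℚ, ∀ x ∈ N, σ • x = x) ∨
    (∀ A : ValuationSubring (AlgebraicClosure ℚ), A.LiesOverPrime P.p →
      ∀ σ ∈ A.inertiaSubgroupIn ℚ, ∀ x : Vp P, σ • x - x ∈ N)

variable {P : FreyPackage}

/-! ### Basic facts on `xOf`, `InE1` and the Galois action -/

lemma xOf_some (x y : Qb) (h : ((P.freyCurve)⁄(AlgebraicClosure ℚ)).Nonsingular x y) :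
    xOf P (Point.some x y h) = x := rfl

lemma inE1_zero (A : ValuationSubring Qb) : InE1 P A 0 := Or.inl rfl

lemma inE1_some_iff (A : ValuationSubring Qb) (x y : Qb)
    (h : ((P.freyCurve)⁄(AlgebraicClosure ℚ)).Nonsingular x y) :
    InE1 P A (Point.some x y h) ↔ x ∉ A := by
  constructor
  · rintro (h0 | ⟨x', y', h', heq, hx'⟩)
    · exact absurd h0 (Point.some_ne_zero h)
    · have := (Point.some.inj heq).1
      rwa [this]
  · intro hx
    exact Or.inr ⟨x, y, h, rfl, hx⟩

lemma inE1_iff_of_ne_zero (A : ValuationSubring Qb) {Q : FreyPt P} (hQ : Q ≠ 0) :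
    InE1 P A Q ↔ xOf P Q ∉ A := by
  cases Q with
  | zero => exact absurd rfl hQ
  | some x y h => exact inE1_some_iff A x y h

lemma smul_some (σ : GQ) (x y : Qb) (h : ((P.freyCurve)⁄(AlgebraicClosure ℚ)).Nonsingular x y) :
    ∃ h' : ((P.freyCurve)⁄(AlgebraicClosure ℚ)).Nonsingular (σ x) (σ y),
      σ • (Point.some x y h : FreyPt P) = Point.some (σ x) (σ y) h' :=
  ⟨_, rfl⟩

lemma xOf_smul (σ : GQ) (Q : FreyPt P) : xOf P (σ • Q) = σ (xOf P Q) := by
  cases Q with
  | zero => exact (map_zero σ).symm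
  | some x y h => rfl

lemma smul_eq_zero_iff' (σ : GQ) (Q : FreyPt P) : σ • Q = 0 ↔ Q = 0 := by
  constructor
  · intro h
    have h0 : σ • (0 : FreyPt P) = 0 := rfl
    rw [← h0] at h
    exact Point.map_injective (W' := P.freyCurve) σ.toAlgHom h
  · rintro rfl
    rfl

/-- Transport of the kernel of reduction along a conjugation of valuation subrings. -/
lemma inE1_smul_iff (τ : GQ) (A A' : ValuationSubring Qb) (hτ : ∀ x : Qb, τ x ∈ A' ↔ x ∈ A)
    (Q : FreyPt P) : InE1 P A' (τ • Q) ↔ InE1 P A Q := by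
  cases Q with
  | zero =>
    exact ⟨fun _ => inE1_zero A, fun _ => inE1_zero A'⟩
  | some x y h =>
    obtain ⟨h', he⟩ := smul_some τ x y h
    rw [he, inE1_some_iff, inE1_some_iff, hτ]

/-! ### Valuations of rational numbers -/

lemma valuation_intCast_le_one (A : ValuationSubring Qb) (m : ℤ) :
    A.valuation ((m : ℤ) : Qb) ≤ 1 := by
  rw [ValuationSubring.valuation_le_one_iff]
  exact intCast_mem A m

lemma valuation_intCast_eq_one_of_not_dvd {ℓ : ℕ} (hℓ : ℓ.Prime) (A : ValuationSubring Qb)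
    (hA : A.LiesOverPrime ℓ) (m : ℤ) (hm : ¬ (ℓ : ℤ) ∣ m) : A.valuation ((m : ℤ) : Qb) = 1 := by
  have h1 := intCast_not_mem_primeOfValuationSubring hℓ A hA m hm
  rw [mem_primeOfValuationSubring] at h1
  have h2 : ¬ A.valuation ((m : ℤ) : Qb) < 1 := by
    rw [← A.mem_nonunits_iff]
    simpa using h1
  exact le_antisymm (valuation_intCast_le_one A m) (not_lt.mp h2)

lemma valuation_intCast_le_of_dvd {ℓ : ℕ} (A : ValuationSubring Qb) (m : ℤ)
    (hm : (ℓ : ℤ) ∣ m) : A.valuation ((m : ℤ) : Qb) ≤ A.valuation ((ℓ : ℕ) : Qb) := by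
  obtain ⟨k, rfl⟩ := hm
  have : (((ℓ : ℤ) * k : ℤ) : Qb) = ((ℓ : ℕ) : Qb) * ((k : ℤ) : Qb) := by push_cast; ring
  rw [this, map_mul]
  exact mul_le_of_le_one_right' (valuation_intCast_le_one A k)

/-- A rational number which is a nonunit at a place over `ℓ` is divisible by `ℓ` there. -/
lemma valuation_rat_le_of_lt_one {ℓ : ℕ} (hℓ : ℓ.Prime) (A : ValuationSubring Qb)
    (hA : A.LiesOverPrime ℓ) (r : ℚ) (hr : A.valuation (algebraMap ℚ Qb r) < 1) :
    A.valuation (algebraMap ℚ Qb r) ≤ A.valuation ((ℓ : ℕ) : Qb) := by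
  have hr' : algebraMap ℚ Qb r = ((r.num : ℤ) : Qb) / (((r.den : ℕ) : ℤ) : Qb) := by
    conv_lhs => rw [← Rat.num_div_den r]
    rw [map_div₀, map_intCast, map_natCast]
    push_cast
    rfl
  rw [hr'] at hr ⊢
  rw [map_div₀] at hr ⊢
  have hℓlt : A.valuation ((ℓ : ℕ) : Qb) < 1 := A.mem_nonunits_iff.mp hA
  by_cases hden : (ℓ : ℤ) ∣ ((r.den : ℕ) : ℤ)
  · -- then `ℓ ∤ num`, so the valuation is `> 1`: contradiction
    exfalso
    have hnum : ¬ (ℓ : ℤ) ∣ r.num := by
      intro hnum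
      have h1 : (ℓ : ℕ) ∣ r.num.natAbs := Int.natCast_dvd.mp hnum
      have h2 : (ℓ : ℕ) ∣ r.den := Int.natCast_dvd_natCast.mp hden
      have h3 := Nat.dvd_gcd h1 h2
      rw [r.reduced] at h3
      exact hℓ.one_lt.ne' (Nat.dvd_one.mp h3)
    rw [valuation_intCast_eq_one_of_not_dvd hℓ A hA _ hnum] at hr
    have hd := valuation_intCast_le_of_dvd A _ hden
    have hd1 : A.valuation ((((r.den : ℕ) : ℤ)) : Qb) < 1 := lt_of_le_of_lt hd hℓlt
    have hd0 : A.valuation ((((r.den : ℕ) : ℤ)) : Qb) ≠ 0 := by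
      rw [Ne, map_eq_zero]
      exact_mod_cast r.den_nz
    have : (1 : A.ValueGroup) ≤ 1 / A.valuation ((((r.den : ℕ) : ℤ)) : Qb) := by
      rw [le_div_iff₀ (zero_lt_iff.mpr hd0), one_mul]
      exact hd1.le
    exact absurd hr (not_lt.mpr this)
  · rw [valuation_intCast_eq_one_of_not_dvd hℓ A hA _ hden, div_one] at hr ⊢
    by_cases hnum : (ℓ : ℤ) ∣ r.num
    · exact valuation_intCast_le_of_dvd A _ hnum
    · rw [valuation_intCast_eq_one_of_not_dvd hℓ A hA _ hnum] at hr
      exact absurd hr (lt_irrefl _)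

/-- Galois-fixed elements of `ℚ̄` are rational. -/
lemma mem_range_of_fixed (c : Qb) (hc : ∀ σ : GQ, σ c = c) :
    c ∈ Set.range (algebraMap ℚ Qb) := by
  rw [InfiniteGalois.mem_range_algebraMap_iff_fixed]
  exact hc


/-! ### The line `N` -/

variable (P)

lemma finite_Vp (hcard : Nat.card (Vp P) = P.p ^ 2) : Finite (Vp P) :=
  Nat.finite_of_card_ne_zero (by rw [hcard]; exact pow_ne_zero _ P.hp0)

/-- A proper nonzero submodule of the `p`-torsion has exactly `p` elements. -/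
lemma natCard_line (hcard : Nat.card (Vp P) = P.p ^ 2) (N : Submodule (ZMod P.p) (Vp P))
    (h0 : N ≠ ⊥) (h1 : N ≠ ⊤) : Nat.card N = P.p := by
  haveI : Fact P.p.Prime := ⟨P.pp⟩
  haveI := finite_Vp P hcard
  have hV : Module.finrank (ZMod P.p) (Vp P) = 2 := by
    have h := Module.natCard_eq_pow_finrank (K := ZMod P.p) (V := Vp P)
    rw [hcard, Nat.card_zmod] at h
    exact (Nat.pow_right_injective P.pp.two_le h).symm
  have : Module.Finite (ZMod P.p) (Vp P) := Module.finite_of_finrank_pos (by omega)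
  have hlt : Module.finrank (ZMod P.p) N < 2 := hV ▸ Submodule.finrank_lt h1
  have hpos : 0 < Module.finrank (ZMod P.p) N := by
    rw [Nat.pos_iff_ne_zero]
    intro h
    exact h0 (Submodule.finrank_eq_zero.mp h)
  have h := Module.natCard_eq_pow_finrank (K := ZMod P.p) (V := N)
  rw [Nat.card_zmod] at h
  rw [h, show Module.finrank (ZMod P.p) N = 1 by omega, pow_one]

lemma coe_smul_Vp (σ : GQ) (Q : Vp P) : ((σ • Q : Vp P) : FreyPt P) = σ • (Q : FreyPt P) := rfl

/-- The condition "`N` lies in the kernel of reduction at `A`" does not depend on the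
valuation subring `A` over `p` (conjugacy of places). -/
lemma lineInE1_of_conj (N : Submodule (ZMod P.p) (Vp P)) (hN : IsGaloisStable ℚ N)
    (A A' : ValuationSubring Qb) (hA : A.LiesOverPrime P.p) (hA' : A'.LiesOverPrime P.p)
    (hC : ∀ Q ∈ N, InE1 P A (Q : FreyPt P)) : ∀ Q ∈ N, InE1 P A' (Q : FreyPt P) := by
  obtain ⟨τ, hτ⟩ := exists_map_mem_iff P.pp A A' hA hA'
  intro Q hQ
  have h1 : InE1 P A ((τ⁻¹ • Q : Vp P) : FreyPt P) := hC _ (hN τ⁻¹ Q hQ)
  have h2 := (inE1_smul_iff τ A A' hτ ((τ⁻¹ • Q : Vp P) : FreyPt P)).mpr h1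
  have e : τ • ((τ⁻¹ • Q : Vp P) : FreyPt P) = (Q : FreyPt P) :=
    congrArg Subtype.val (smul_inv_smul τ Q)
  rwa [e] at h2

/-- If the line `N` is not contained in the kernel of reduction at `A`, inertia at `A` fixes
`N` pointwise. -/
lemma fix_of_not_lineInE1 (hcard : Nat.card (Vp P) = P.p ^ 2) (hL : LocalAtPStmt P)
    (N : Submodule (ZMod P.p) (Vp P)) (hN : IsGaloisStable ℚ N) (h0 : N ≠ ⊥) (h1 : N ≠ ⊤)
    (A : ValuationSubring Qb) (hA : A.LiesOverPrime P.p)
    (hnot : ∃ Q₀ ∈ N, ¬ InE1 P A (Q₀ : FreyPt P)) :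
    ∀ σ ∈ A.inertiaSubgroupIn ℚ, ∀ x ∈ N, σ • x = x := by
  intro σ hσ x hx
  obtain ⟨hsub, hin⟩ := hL A hA
  obtain ⟨Q₀, hQ₀N, hQ₀⟩ := hnot
  have hneg : ∀ Q : Vp P, InE1 P A (Q : FreyPt P) → InE1 P A ((-Q : Vp P) : FreyPt P) := by
    intro Q hQ
    have := hsub 0 Q (inE1_zero A) hQ
    rwa [zero_sub] at this
  let E : AddSubgroup N :=
    { carrier := {Q | InE1 P A ((Q : Vp P) : FreyPt P)}
      zero_mem' := inE1_zero A
      add_mem' := by
        intro a b ha hb
        have h := hsub (a : Vp P) (-(b : Vp P)) ha (hneg _ hb)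
        rw [sub_neg_eq_add] at h
        exact h
      neg_mem' := by
        intro a ha
        exact hneg _ ha }
  haveI : Fact (Nat.card N).Prime := ⟨by rw [natCard_line P hcard N h0 h1]; exact P.pp⟩
  have hE : E = ⊥ := by
    rcases E.eq_bot_or_eq_top_of_prime_card with h | h
    · exact h
    · exfalso
      have : (⟨Q₀, hQ₀N⟩ : N) ∈ E := by rw [h]; exact AddSubgroup.mem_top _
      exact hQ₀ this
  have hR : σ • x - x ∈ N := N.sub_mem (hN σ x hx) hx
  have hRE : (⟨σ • x - x, hR⟩ : N) ∈ E := hin σ hσ x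
  rw [hE, AddSubgroup.mem_bot] at hRE
  have := congrArg Subtype.val hRE
  exact sub_eq_zero.mp this

/-- If the line `N` is contained in the kernel of reduction at `A`, then `N` is the whole
kernel of reduction on the `p`-torsion, and inertia at `A` acts trivially on `V / N`. -/
lemma sub_mem_of_lineInE1 (hcard : Nat.card (Vp P) = P.p ^ 2) (hNw : NewtonStmt P)
    (hL : LocalAtPStmt P) (N : Submodule (ZMod P.p) (Vp P)) (hN : IsGaloisStable ℚ N)
    (h0 : N ≠ ⊥) (A : ValuationSubring Qb) (hA : A.LiesOverPrime P.p)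
    (hC : ∀ Q ∈ N, InE1 P A (Q : FreyPt P)) :
    ∀ σ ∈ A.inertiaSubgroupIn ℚ, ∀ x : Vp P, σ • x - x ∈ N := by
  classical
  haveI := finite_Vp P hcard
  haveI : Fintype (Vp P) := Fintype.ofFinite _
  -- the `x`-coordinates of `N \ 0`
  set S : Finset (Vp P) := Finset.univ.filter (fun Q => Q ∈ N ∧ Q ≠ 0) with hS
  set X : Finset Qb := S.image (fun Q : Vp P => xOf P Q.1) with hX
  have hSmem : ∀ Q : Vp P, Q ∈ S ↔ Q ∈ N ∧ Q ≠ 0 := by
    intro Q
    simp [hS]
  -- structure of the points of `S`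
  have hSpt : ∀ Q ∈ S, ∃ (x y : Qb) (h : ((P.freyCurve)⁄(AlgebraicClosure ℚ)).Nonsingular x y),
      (Q : FreyPt P) = Point.some x y h ∧ x ∉ A ∧ P.p • (Point.some x y h : FreyPt P) = 0 := by
    intro Q hQ
    obtain ⟨hQN, hQ0⟩ := (hSmem Q).mp hQ
    rcases hC Q hQN with h | ⟨x, y, h, heq, hx⟩
    · exact absurd (Subtype.ext h) hQ0
    · refine ⟨x, y, h, heq, hx, ?_⟩
      have ht : ((P.p : ℕ) : ℤ) • (Q : FreyPt P) = 0 := (Submodule.mem_torsionBy_iff _ _).mp Q.2
      rw [natCast_zsmul, heq] at ht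
      exact ht
  have hXmem : ∀ x ∈ X, x ∉ A ∧
      ∃ (y : Qb) (h : ((P.freyCurve)⁄(AlgebraicClosure ℚ)).Nonsingular x y),
        P.p • (Point.some x y h : FreyPt P) = 0 := by
    intro x hx
    obtain ⟨Q, hQ, rfl⟩ := Finset.mem_image.mp hx
    obtain ⟨x', y', h', heq, hx', ht⟩ := hSpt Q hQ
    have : xOf P (Q : FreyPt P) = x' := by rw [heq]; rfl
    rw [this]
    exact ⟨hx', y', h', ht⟩
  set c : Qb := ∏ x ∈ X, x⁻¹ with hc
  -- `c` is Galois-fixed
  have himage : ∀ σ : GQ, X.image σ = X := by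
    intro σ
    apply Finset.eq_of_subset_of_card_le
    · intro y hy
      obtain ⟨x, hx, rfl⟩ := Finset.mem_image.mp hy
      obtain ⟨Q, hQ, rfl⟩ := Finset.mem_image.mp hx
      obtain ⟨hQN, hQ0⟩ := (hSmem Q).mp hQ
      refine Finset.mem_image.mpr ⟨σ • Q, (hSmem _).mpr ⟨hN σ Q hQN, ?_⟩, ?_⟩
      · intro h
        exact hQ0 ((smul_eq_zero_iff_eq σ).mp h)
      · rw [coe_smul_Vp, xOf_smul]
    · rw [Finset.card_image_of_injective _ σ.injective]
  have hfix : ∀ σ : GQ, σ c = c := by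
    intro σ
    have h1 : σ c = ∏ x ∈ X, (σ x)⁻¹ := by
      rw [hc, map_prod]
      exact Finset.prod_congr rfl (fun x _ => map_inv₀ σ x)
    have h2 : ∏ y ∈ X.image σ, y⁻¹ = ∏ x ∈ X, (σ x)⁻¹ :=
      Finset.prod_image (fun a _ b _ h => σ.injective h)
    rw [h1, ← h2, himage σ]
  obtain ⟨r, hr⟩ := mem_range_of_fixed c hfix
  have hXne : X.Nonempty := by
    obtain ⟨Q, hQN, hQ0⟩ := (Submodule.ne_bot_iff N).mp h0
    exact ⟨_, Finset.mem_image.mpr ⟨Q, (hSmem Q).mpr ⟨hQN, hQ0⟩, rfl⟩⟩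
  have hinv_lt : ∀ x : Qb, x ∉ A → A.valuation x⁻¹ < 1 := by
    intro x hx
    rw [← A.mem_nonunits_iff, A.inv_mem_nonunits_iff]
    exact Or.inr hx
  have hcval : A.valuation c < 1 := by
    obtain ⟨x₀, hx₀⟩ := hXne
    have h1 : c = x₀⁻¹ * ∏ x ∈ X.erase x₀, x⁻¹ := by
      rw [hc, Finset.mul_prod_erase X (fun x => x⁻¹) hx₀]
    have h2 : A.valuation (∏ x ∈ X.erase x₀, x⁻¹) ≤ 1 := by
      rw [A.valuation_le_one_iff]
      refine prod_mem (fun x hx => ?_)
      have hxX : x ∈ X := Finset.mem_of_mem_erase hx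
      rw [← A.valuation_le_one_iff]
      exact (hinv_lt x (hXmem x hxX).1).le
    rw [h1, map_mul]
    exact lt_of_le_of_lt (mul_le_of_le_one_right' h2) (hinv_lt x₀ (hXmem x₀ hx₀).1)
  have hc0 : c ≠ 0 := by
    rw [hc, Finset.prod_ne_zero_iff]
    intro x hx
    have hxA := (hXmem x hx).1
    have : x ≠ 0 := fun h => hxA (h ▸ A.zero_mem)
    exact inv_ne_zero this
  have hcp : A.valuation c ≤ A.valuation ((P.p : ℕ) : Qb) := by
    rw [← hr] at hcval ⊢
    exact valuation_rat_le_of_lt_one P.pp A hA r hcval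
  -- every `p`-torsion point in the kernel of reduction lies in `N`
  have key : ∀ Q : Vp P, InE1 P A (Q : FreyPt P) → Q ∈ N := by
    intro Q hQ
    by_contra hQN
    have hQ0 : Q ≠ 0 := fun h => hQN (h ▸ N.zero_mem)
    rcases hQ with h | ⟨x, y, h, heq, hx⟩
    · exact hQ0 (Subtype.ext h)
    · have hxX : x ∉ X := by
        intro hxX
        obtain ⟨Q', hQ', hxQ'⟩ := Finset.mem_image.mp hxX
        obtain ⟨hQ'N, -⟩ := (hSmem Q').mp hQ'
        obtain ⟨x', y', h', heq', -, -⟩ := hSpt Q' hQ'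
        have hxx' : x' = x := by
          rw [heq'] at hxQ'
          exact hxQ'
        subst hxx'
        rcases Y_eq_of_X_eq h.1 h'.1 rfl with hy | hy
        · subst hy
          have : Q = Q' := Subtype.ext (heq.trans heq'.symm)
          exact hQN (this ▸ hQ'N)
        · have hneg : (Q : FreyPt P) = -(Q' : FreyPt P) := by
            rw [heq, heq', Point.neg_some]
            congr 1
          have : Q = -Q' := Subtype.ext hneg
          exact hQN (this ▸ N.neg_mem hQ'N)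
      have ht : P.p • (Point.some x y h : FreyPt P) = 0 := by
        have ht : ((P.p : ℕ) : ℤ) • (Q : FreyPt P) = 0 := (Submodule.mem_torsionBy_iff _ _).mp Q.2
        rw [natCast_zsmul, heq] at ht
        exact ht
      have hN1 := hNw A hA (insert x X) (by
        intro z hz
        rcases Finset.mem_insert.mp hz with rfl | hz
        · exact ⟨hx, y, h, ht⟩
        · exact hXmem z hz)
      rw [Finset.prod_insert hxX, map_mul] at hN1
      have hlt : A.valuation x⁻¹ * A.valuation c < A.valuation c :=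
        mul_lt_of_lt_one_left (zero_lt_iff.mpr ((map_ne_zero _).mpr hc0)) (hinv_lt x hx)
      exact absurd (lt_of_le_of_lt hN1 (lt_of_lt_of_le hlt hcp)) (lt_irrefl _)
  intro σ hσ x
  exact key _ ((hL A hA).2 σ hσ x)

/-- **Ingredient I5 of S13** (`at_p`), from the Newton-polygon input and the local input. -/
theorem at_p_of (hcard : Nat.card (Vp P) = P.p ^ 2) (hNw : NewtonStmt P)
    (hL : LocalAtPStmt P) : AtPStmt P := by
  intro N hN h0 h1
  by_cases hC : ∃ A : ValuationSubring Qb, A.LiesOverPrime P.p ∧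
      ∀ Q ∈ N, InE1 P A (Q : FreyPt P)
  · right
    obtain ⟨A₀, hA₀, hC₀⟩ := hC
    intro A hA
    exact sub_mem_of_lineInE1 P hcard hNw hL N hN h0 A hA
      (lineInE1_of_conj P N hN A₀ A hA₀ hA hC₀)
  · left
    intro A hA
    have hex : ∃ Q₀ ∈ N, ¬ InE1 P A (Q₀ : FreyPt P) := by
      by_contra h
      push Not at h
      exact hC ⟨A, hA, h⟩
    exact fix_of_not_lineInE1 P hcard hL N hN h0 h1 A hA hex

end

end Fermat.Agent.S13.helper1922
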