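import Fermat.Agent.S13.helper1922_AtP
import Fermat.Agent.S13.helper1864_FreyLocal

/-!
# S13, ingredient I5 (`at_p`): the local input is discharged (helper1922)

`LocalAtPStmt P` (kernel of reduction closed under subtraction; inertia at `p` moves
`p`-torsion points inside the kernel of reduction) follows from helper1864's
`freyE1` / `inertia_sub_mem_freyE1`.  Hence `at_p` only depends on the Newton-polygon input.
-/

set_option autoImplicit false
open WeierstrassCurve WeierstrassCurve.Affine WeierstrassCurve.Affine.Point

namespace Fermat.Agent.S13.helper1922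

noncomputable section

local notation "Qb" => AlgebraicClosure ℚ

open Fermat.Agent.S13.helper1864 in
/-- The local input at `p` holds for every Frey package. -/
theorem localAtPStmt (P : FreyPackage) : LocalAtPStmt P := by
  intro A hA
  have hp2 : P.p ≠ 2 := by have := P.hp5; omega
  refine ⟨fun Q₁ Q₂ h1 h2 => ?_, fun σ hσ Q => ?_⟩
  · have m1 := (mem_freyE1 P A P.pp hp2 hA _).mpr h1
    have m2 := (mem_freyE1 P A P.pp hp2 hA _).mpr h2
    exact (mem_freyE1 P A P.pp hp2 hA _).mp (AddSubgroup.sub_mem _ m1 m2)
  · have hT : P.p • (Q : FreyPt P) = 0 := by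
      have ht : ((P.p : ℕ) : ℤ) • (Q : FreyPt P) = 0 := (Submodule.mem_torsionBy_iff _ _).mp Q.2
      rwa [natCast_zsmul] at ht
    exact (mem_freyE1 P A P.pp hp2 hA _).mp (inertia_sub_mem_freyE1 P A P.pp hp2 hA σ hσ Q hT)

/-- **Ingredient I5 of S13** (`at_p`) from the cardinality of `E[p]` and the Newton-polygon
input alone. -/
theorem at_p_of_newton (P : FreyPackage) (hcard : Nat.card (Vp P) = P.p ^ 2)
    (hNw : NewtonStmt P) : AtPStmt P :=
  at_p_of P hcard hNw (localAtPStmt P)

end

end Fermat.Agent.S13.helper1922
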