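import Fermat.Agent.S13.helper1922_AtPLocal
import Fermat.Agent.S13.helper3034_FreyAtTwo
import Fermat.Agent.Lib.helper1080_Ladder
import Fermat.Agent.Lib.helper4453_NewtonBound

/-!
# S13, ingredient I5 (`at_p`): the Newton-polygon input is discharged (helper1922)

The odd division polynomial `psiOdd W m` (`p = 2 m + 1`) of helper1080's ladder has integer
coefficients (the Frey curve is defined over `ℤ`), top coefficient `-p`, and vanishes at the
`x`-coordinate of every nonzero `p`-torsion point.  helper4453's Newton bound then gives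
`NewtonStmt P`, hence the field `at_p` of the S13 skeleton without further hypotheses
(apart from the exact count, which the skeleton provides).
-/

set_option autoImplicit false
open WeierstrassCurve WeierstrassCurve.Affine WeierstrassCurve.Affine.Point

namespace Fermat.Agent.S13.helper1922

noncomputable section

local notation "Qb" => AlgebraicClosure ℚ

open Polynomial

/-- The Frey curve over `ℤ` (with the integer coefficients of helper3034). -/
def freyZ (P : FreyPackage) : WeierstrassCurve ℤ where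
  a₁ := 1
  a₂ := Fermat.Agent.S13.helper3034.A2 P
  a₃ := 0
  a₄ := Fermat.Agent.S13.helper3034.A4 P
  a₆ := 0

lemma freyCurve_eq_map_freyZ (P : FreyPackage) :
    P.freyCurve = (freyZ P).map (Int.castRingHom ℚ) := by
  ext
  · simp [freyZ, Fermat.Agent.S13.helper3034.frey_a₁]
  · simp [freyZ, Fermat.Agent.S13.helper3034.frey_a₂]
  · simp [freyZ, Fermat.Agent.S13.helper3034.frey_a₃]
  · simp [freyZ, Fermat.Agent.S13.helper3034.frey_a₄]
  · simp [freyZ, Fermat.Agent.S13.helper3034.frey_a₆]

/-- The base change of the Frey curve to `ℚ̄` is the base change of the integral model. -/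
lemma freyQb_eq_map_freyZ (P : FreyPackage) :
    ((P.freyCurve)⁄(AlgebraicClosure ℚ)) =
      (freyZ P).map ((algebraMap ℚ Qb).comp (Int.castRingHom ℚ)) := by
  rw [freyCurve_eq_map_freyZ]
  exact WeierstrassCurve.map_map _ _ _

/-- The `p`-division polynomial of the Frey curve over `ℚ̄` (`p = 2 m + 1`). -/
def divPol (P : FreyPackage) (m : ℕ) : Qb[X] :=
  Fermat.Agent.Lib.helper1080.psiOdd ((P.freyCurve)⁄(AlgebraicClosure ℚ)) m

lemma divPol_eq_map (P : FreyPackage) (m : ℕ) :
    divPol P m = (Fermat.Agent.Lib.helper1080.psiOdd (freyZ P) m).map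
      ((algebraMap ℚ Qb).comp (Int.castRingHom ℚ)) := by
  rw [Fermat.Agent.Lib.helper1080.psiOdd_map, divPol, freyQb_eq_map_freyZ]

/-- The coefficients of the division polynomial are integers, hence lie in every valuation
subring. -/
lemma divPol_coeff_mem (P : FreyPackage) (m : ℕ) (A : ValuationSubring Qb) (i : ℕ) :
    A.valuation ((divPol P m).coeff i) ≤ 1 := by
  rw [divPol_eq_map, coeff_map, A.valuation_le_one_iff]
  have h : ((algebraMap ℚ Qb).comp (Int.castRingHom ℚ))
      ((Fermat.Agent.Lib.helper1080.psiOdd (freyZ P) m).coeff i)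
      = (((Fermat.Agent.Lib.helper1080.psiOdd (freyZ P) m).coeff i : ℤ) : Qb) := by
    simp
  rw [h]
  exact intCast_mem A _

lemma divPol_natDegree_le (P : FreyPackage) (m : ℕ) :
    (divPol P m).natDegree ≤ 2 * m ^ 2 + 2 * m :=
  Fermat.Agent.Lib.helper1080.natDegree_psiOdd_le _ m

lemma divPol_coeff_top (P : FreyPackage) (m : ℕ) :
    (divPol P m).coeff (2 * m ^ 2 + 2 * m) = -(((2 * m + 1 : ℕ) : Qb)) := by
  rw [divPol, Fermat.Agent.Lib.helper1080.coeff_psiOdd]
  push_cast
  ring

lemma divPol_leadingCoeff (P : FreyPackage) (m : ℕ) :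
    (divPol P m).leadingCoeff = -(((2 * m + 1 : ℕ) : Qb)) := by
  have hne : (((2 * m + 1 : ℕ) : Qb)) ≠ 0 := Nat.cast_ne_zero.mpr (by omega)
  have htop := divPol_coeff_top P m
  have hdeg : (divPol P m).natDegree = 2 * m ^ 2 + 2 * m := by
    refine le_antisymm (divPol_natDegree_le P m) ?_
    refine le_natDegree_of_ne_zero ?_
    rw [htop]
    exact neg_ne_zero.mpr hne
  rw [leadingCoeff, hdeg, htop]

/-- **The Newton-polygon input holds for every Frey package.** -/
theorem newtonStmt (P : FreyPackage) : NewtonStmt P := by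
  classical
  intro A _ X hX
  obtain ⟨m, hm⟩ := P.hp_odd
  -- the roots
  have hroots : ∀ t ∈ X, (divPol P m).eval t = 0 ∧ 1 < A.valuation t := by
    intro t ht
    obtain ⟨htA, y, h, hT⟩ := hX t ht
    refine ⟨?_, ?_⟩
    · rw [hm] at hT
      exact (Fermat.Agent.Lib.helper1080.odd_nsmul_eq_zero_iff
        ((P.freyCurve)⁄(AlgebraicClosure ℚ)) h m).mp hT
    · rw [← not_le, A.valuation_le_one_iff]
      exact htA
  have hb := Fermat.Agent.Lib.helper4453.newton_bound A.valuation X (divPol P m)
    (divPol_coeff_mem P m A) hroots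
  rw [divPol_leadingCoeff, Valuation.map_neg, ← hm] at hb
  -- conclude
  have hprod : A.valuation (∏ x ∈ X, x⁻¹) = (∏ x ∈ X, A.valuation x)⁻¹ := by
    rw [map_prod, ← Finset.prod_inv_distrib]
    exact Finset.prod_congr rfl (fun x _ => map_inv₀ _ _)
  rw [hprod]
  have hpos : (∏ x ∈ X, A.valuation x) ≠ 0 := by
    rw [Finset.prod_ne_zero_iff]
    intro x hx
    exact ne_of_gt (lt_trans zero_lt_one (hroots x hx).2)
  rw [← mul_inv_cancel_right₀ hpos (A.valuation ((P.p : ℕ) : Qb))]
  calc A.valuation ((P.p : ℕ) : Qb) * (∏ x ∈ X, A.valuation x) * (∏ x ∈ X, A.valuation x)⁻¹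
      ≤ 1 * (∏ x ∈ X, A.valuation x)⁻¹ := by gcongr
    _ = (∏ x ∈ X, A.valuation x)⁻¹ := one_mul _

/-- **Ingredient I5 of S13** (`at_p`), field of `helper613.WeakIngredients` verbatim. -/
theorem at_p (P : FreyPackage) : Nat.card (Vp P) = P.p ^ 2 →
    ∀ N : Submodule (ZMod P.p) (Vp P), IsGaloisStable ℚ N → N ≠ ⊥ → N ≠ ⊤ →
    (∀ A : ValuationSubring (AlgebraicClosure ℚ), A.LiesOverPrime P.p →
      ∀ σ ∈ A.inertiaSubgroupIn ℚ, ∀ x ∈ N, σ • x = x) ∨
    (∀ A : ValuationSubring (AlgebraicClosure ℚ), A.LiesOverPrime P.p →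
      ∀ σ ∈ A.inertiaSubgroupIn ℚ, ∀ x : Vp P, σ • x - x ∈ N) :=
  fun hcard => at_p_of_newton P hcard (newtonStmt P)

end

end Fermat.Agent.S13.helper1922
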