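import Mathlib

/-!
# Newton-polygon estimates without polygons (helper1979, S13 ingredient I5 "at p")

`K` is a field with a valuation `v` (multiplicative notation, as in the S05 library).

* `newton_bound`: a nonzero polynomial `F` with `v`-integral coefficients and a finite set `R`
  of roots with `1 < v x` satisfies `v (lc F) * ∏ x ∈ R, v x ≤ 1`.
* `exists_pow_eq_zpow`: if the nonzero coefficients of `g` have valuations in `w ^ ℤ` and
  `x₀ ≠ 0` is a root, then `v x₀ ^ k ∈ w ^ ℤ` for some `0 < k ≤ natDegree g`.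
* `one_le_mul_pow_of_root`: hence `1 ≤ w * v x₀ ^ natDegree g` when `1 < v x₀` and `w < 1`.
* `eq_of_newton`: if `RN ⊆ R` are sets of non-integral roots of `F`, `w ≤ v (lc F)` and every
  `x ∈ RN` satisfies `1 ≤ w * v x ^ #RN`, then `RN = R`.
-/

set_option autoImplicit false

namespace Fermat.Agent.S13.helper1979

open Polynomial

variable {K : Type*} [Field K] {Γ₀ : Type*} [LinearOrderedCommGroupWithZero Γ₀]
  (v : Valuation K Γ₀)

/-- If `F = G * (X - C x)` has integral coefficients and `1 < v x`, then `x • G` has integral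
coefficients. -/
theorem val_mul_coeff_le_one {F G : K[X]} {x : K} (hF : F = G * (X - C x))
    (hint : ∀ n, v (F.coeff n) ≤ 1) (hx : 1 < v x) : ∀ n, v (x * G.coeff n) ≤ 1 := by
  have hx0 : v x ≠ 0 := (zero_lt_one.trans hx).ne'
  have hc0 : F.coeff 0 = -(x * G.coeff 0) := by
    rw [hF, mul_sub, coeff_sub, mul_coeff_zero, coeff_X_zero, mul_zero, coeff_mul_C]
    ring
  have hcs : ∀ n, F.coeff (n + 1) = G.coeff n - x * G.coeff (n + 1) := by
    intro n
    rw [hF, mul_sub, coeff_sub, coeff_mul_X, coeff_mul_C]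
    ring
  intro n
  induction n with
  | zero =>
    have h := hint 0
    rwa [hc0, Valuation.map_neg] at h
  | succ n ih =>
    have h := hint (n + 1)
    rw [hcs] at h
    have hGn : v (G.coeff n) ≤ 1 := by
      rw [map_mul] at ih
      by_contra hcon
      have h1 : 1 < v (G.coeff n) := not_le.mp hcon
      have : 1 * 1 < v x * v (G.coeff n) := mul_lt_mul'' hx h1 zero_le_one zero_le_one
      rw [one_mul] at this
      exact absurd ih (not_le.mpr this)
    have e : x * G.coeff (n + 1) = G.coeff n - (G.coeff n - x * G.coeff (n + 1)) := by ring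
    rw [e]
    exact (v.map_sub _ _).trans (max_le hGn h)

/-- **Newton bound.** For a nonzero polynomial with integral coefficients, the product of the
valuations of any set of non-integral roots, times the valuation of the leading coefficient, is
at most `1`. -/
theorem newton_bound (R : Finset K) : ∀ (F : K[X]), F ≠ 0 → (∀ n, v (F.coeff n) ≤ 1) →
    (∀ x ∈ R, F.IsRoot x ∧ 1 < v x) → v F.leadingCoeff * ∏ x ∈ R, v x ≤ 1 := by
  classical
  induction R using Finset.induction_on with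
  | empty =>
    intro F _ hint _
    rw [Finset.prod_empty, mul_one]
    exact hint _
  | insert x R hxR ih =>
    intro F hF0 hint hR
    obtain ⟨hroot, hx⟩ := hR x (Finset.mem_insert_self x R)
    have hx0 : x ≠ 0 := by
      rintro rfl
      rw [map_zero] at hx
      exact absurd hx (not_lt.mpr zero_le_one)
    obtain ⟨G, hG⟩ := dvd_iff_isRoot.mpr hroot
    have hFG : F = G * (X - C x) := by rw [hG, mul_comm]
    have hG0 : G ≠ 0 := by
      rintro rfl
      rw [zero_mul] at hFG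
      exact hF0 hFG
    have hF1 : C x * G ≠ 0 := mul_ne_zero (C_ne_zero.mpr hx0) hG0
    have hint1 : ∀ n, v ((C x * G).coeff n) ≤ 1 := by
      intro n
      rw [coeff_C_mul]
      exact val_mul_coeff_le_one v hFG hint hx n
    have hR1 : ∀ y ∈ R, (C x * G).IsRoot y ∧ 1 < v y := by
      intro y hy
      obtain ⟨hyroot, hyv⟩ := hR y (Finset.mem_insert_of_mem hy)
      refine ⟨?_, hyv⟩
      have hyx : y ≠ x := fun h => hxR (h ▸ hy)
      have h1 : F.eval y = 0 := hyroot
      rw [hFG, eval_mul, eval_sub, eval_X, eval_C] at h1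
      have h2 : G.eval y = 0 := by
        rcases mul_eq_zero.mp h1 with h | h
        · exact h
        · exact absurd (sub_eq_zero.mp h) hyx
      change (C x * G).eval y = 0
      rw [eval_mul, h2, mul_zero]
    have hmain := ih (C x * G) hF1 hint1 hR1
    have hlc : F.leadingCoeff = G.leadingCoeff := by
      rw [hFG, leadingCoeff_mul, leadingCoeff_X_sub_C, mul_one]
    rw [leadingCoeff_mul, leadingCoeff_C, map_mul] at hmain
    rw [Finset.prod_insert hxR, hlc]
    calc v G.leadingCoeff * (v x * ∏ y ∈ R, v y)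
        = v x * v G.leadingCoeff * ∏ y ∈ R, v y := by ac_rfl
      _ ≤ 1 := hmain

/-- **Two terms of equal valuation.** If the nonzero coefficients of `g` have valuations in
`w ^ ℤ` and `x₀ ≠ 0` is a root of `g ≠ 0`, then `v x₀ ^ k ∈ w ^ ℤ` for some
`0 < k ≤ natDegree g`. -/
theorem exists_pow_eq_zpow {g : K[X]} (hg : g ≠ 0) {x₀ : K} (hx₀ : x₀ ≠ 0) (hroot : g.IsRoot x₀)
    {w : Γ₀} (hw : w ≠ 0) (hcoef : ∀ n, g.coeff n ≠ 0 → ∃ j : ℤ, v (g.coeff n) = w ^ j) :
    ∃ k : ℕ, 0 < k ∧ k ≤ g.natDegree ∧ ∃ j : ℤ, v x₀ ^ k = w ^ j := by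
  classical
  have hvx : v x₀ ≠ 0 := (v.ne_zero_iff).mpr hx₀
  -- the terms of `g(x₀)`
  set t : ℕ → K := fun n => g.coeff n * x₀ ^ n with ht
  have hsum : ∑ n ∈ g.support, t n = 0 := by
    have h := hroot
    unfold IsRoot at h
    rw [eval_eq_sum, Polynomial.sum] at h
    exact h
  have hne : g.support.Nonempty := by
    rw [Finset.nonempty_iff_ne_empty, Ne, support_eq_empty]
    exact hg
  obtain ⟨i, hi, hmax⟩ := Finset.exists_max_image g.support (fun n => v (t n)) hne
  have hti : t i ≠ 0 := mul_ne_zero (mem_support_iff.mp hi) (pow_ne_zero _ hx₀)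
  have hvti : v (t i) ≠ 0 := (v.ne_zero_iff).mpr hti
  -- some other term has the same valuation
  have hex : ∃ n ∈ g.support.erase i, v (t i) ≤ v (t n) := by
    by_contra hcon
    push Not at hcon
    have hlt := v.map_sum_lt hvti hcon
    have hsplit : t i + ∑ n ∈ g.support.erase i, t n = 0 := by
      rw [Finset.add_sum_erase _ _ hi]
      exact hsum
    have : ∑ n ∈ g.support.erase i, t n = -t i := by
      linear_combination hsplit
    rw [this, Valuation.map_neg] at hlt
    exact lt_irrefl _ hlt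
  obtain ⟨n, hn, hle⟩ := hex
  have hni : n ≠ i := Finset.ne_of_mem_erase hn
  have hn' : n ∈ g.support := Finset.mem_of_mem_erase hn
  have heq : v (t n) = v (t i) := le_antisymm (hmax n hn') hle
  obtain ⟨ji, hji⟩ := hcoef i (mem_support_iff.mp hi)
  obtain ⟨jn, hjn⟩ := hcoef n (mem_support_iff.mp hn')
  simp only [ht, map_mul, map_pow, hji, hjn] at heq
  have hwi : w ^ ji ≠ 0 := zpow_ne_zero _ hw
  have hwn : w ^ jn ≠ 0 := zpow_ne_zero _ hw
  rcases lt_or_gt_of_ne hni with hlt | hlt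
  · -- `n < i`
    refine ⟨i - n, Nat.sub_pos_of_lt hlt, (Nat.sub_le _ _).trans (le_natDegree_of_mem_supp i hi),
      jn - ji, ?_⟩
    have hin : i = (i - n) + n := (Nat.sub_add_cancel hlt.le).symm
    rw [hin, pow_add] at heq
    have hxn : v x₀ ^ n ≠ 0 := pow_ne_zero _ hvx
    rw [zpow_sub₀ hw]
    rw [eq_div_iff hwi]
    have : w ^ jn * v x₀ ^ n = w ^ ji * v x₀ ^ (i - n) * v x₀ ^ n := by
      rw [heq]; ac_rfl
    have h2 := mul_right_cancel₀ hxn this
    rw [h2, mul_comm]
  · -- `i < n`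
    refine ⟨n - i, Nat.sub_pos_of_lt hlt, (Nat.sub_le _ _).trans (le_natDegree_of_mem_supp n hn'),
      ji - jn, ?_⟩
    have hin : n = (n - i) + i := (Nat.sub_add_cancel hlt.le).symm
    rw [hin, pow_add] at heq
    have hxi : v x₀ ^ i ≠ 0 := pow_ne_zero _ hvx
    rw [zpow_sub₀ hw]
    rw [eq_div_iff hwn]
    have : w ^ ji * v x₀ ^ i = w ^ jn * v x₀ ^ (n - i) * v x₀ ^ i := by
      rw [← heq]; ac_rfl
    have h2 := mul_right_cancel₀ hxi this
    rw [h2, mul_comm]

/-- A non-integral root `x₀` of a polynomial of degree `m` whose coefficient valuations lie in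
`w ^ ℤ`, `0 < w < 1`, satisfies `1 ≤ w * v x₀ ^ m`. -/
theorem one_le_mul_pow_of_root {g : K[X]} (hg : g ≠ 0) {x₀ : K} (hx₀ : 1 < v x₀)
    (hroot : g.IsRoot x₀) {w : Γ₀} (hw : w ≠ 0) (hw1 : w < 1)
    (hcoef : ∀ n, g.coeff n ≠ 0 → ∃ j : ℤ, v (g.coeff n) = w ^ j) :
    1 ≤ w * v x₀ ^ g.natDegree := by
  have hx0 : x₀ ≠ 0 := by
    rintro rfl
    rw [map_zero] at hx₀
    exact absurd hx₀ (not_lt.mpr zero_le_one)
  obtain ⟨k, hk, hkm, j, hj⟩ := exists_pow_eq_zpow v hg hx0 hroot hw hcoef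
  have hwpos : 0 < w := zero_lt_iff.mpr hw
  have h1 : 1 < v x₀ ^ k := one_lt_pow₀ hx₀ hk.ne'
  -- `j < 0`
  have hjneg : j < 0 := by
    by_contra hcon
    have hj0 : 0 ≤ j := not_lt.mp hcon
    have : w ^ j ≤ 1 := zpow_le_one₀ hwpos hw1.le hj0
    rw [← hj] at this
    exact absurd this (not_le.mpr h1)
  -- `w⁻¹ ≤ w ^ j`
  have hge : w⁻¹ ≤ w ^ j := by
    have e : w ^ j = w⁻¹ * w ^ (j + 1) := by
      rw [zpow_add₀ hw, zpow_one]
      field_simp
    rw [e]
    have h2 : 1 ≤ w ^ (j + 1) := by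
      have hle : j + 1 ≤ 0 := by omega
      exact one_le_zpow_of_nonpos₀ hwpos hw1.le hle
    calc w⁻¹ = w⁻¹ * 1 := (mul_one _).symm
      _ ≤ w⁻¹ * w ^ (j + 1) := by gcongr
  have hk' : v x₀ ^ k ≤ v x₀ ^ g.natDegree := pow_le_pow_right₀ hx₀.le hkm
  calc (1 : Γ₀) = w * w⁻¹ := (mul_inv_cancel₀ hw).symm
    _ ≤ w * w ^ j := by gcongr
    _ = w * v x₀ ^ k := by rw [hj]
    _ ≤ w * v x₀ ^ g.natDegree := by gcongr

/-- **Saturation.** If `RN ⊆ R` are sets of non-integral roots of `F` (integral coefficients),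
`w ≤ v (lc F)`, `RN` is nonempty and every `x ∈ RN` satisfies `1 ≤ w * v x ^ #RN`, then
`RN = R`. -/
theorem eq_of_newton {F : K[X]} (hF0 : F ≠ 0) (hint : ∀ n, v (F.coeff n) ≤ 1) {w : Γ₀}
    (hw : w ≤ v F.leadingCoeff) {R RN : Finset K} (hsub : RN ⊆ R) (hne : RN.Nonempty)
    (hR : ∀ x ∈ R, F.IsRoot x ∧ 1 < v x) (hN : ∀ x ∈ RN, 1 ≤ w * v x ^ RN.card) : RN = R := by
  classical
  by_contra hcon
  obtain ⟨y, hyR, hyN⟩ : ∃ y ∈ R, y ∉ RN := by
    by_contra h
    push Not at h
    exact hcon (Finset.Subset.antisymm hsub h)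
  have hR' : ∀ x ∈ insert y RN, F.IsRoot x ∧ 1 < v x := by
    intro x hx
    rcases Finset.mem_insert.mp hx with rfl | hx
    · exact hR x hyR
    · exact hR x (hsub hx)
  have hb := newton_bound v (insert y RN) F hF0 hint hR'
  rw [Finset.prod_insert hyN] at hb
  set Pi : Γ₀ := ∏ x ∈ RN, v x with hPi
  have hm : RN.card ≠ 0 := Finset.card_ne_zero.mpr hne
  -- `1 ≤ (w * Pi) ^ m`
  have hpow : 1 ≤ (w * Pi) ^ RN.card := by
    have : (w * Pi) ^ RN.card = ∏ x ∈ RN, (w * v x ^ RN.card) := by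
      rw [Finset.prod_mul_distrib, Finset.prod_const, Finset.prod_pow, mul_pow]
    rw [this]
    exact Finset.one_le_prod' hN
  have hwPi : 1 ≤ w * Pi := by
    by_contra h
    have hlt : w * Pi < 1 := not_le.mp h
    have : (w * Pi) ^ RN.card < 1 := pow_lt_one₀ zero_le hlt hm
    exact absurd hpow (not_le.mpr this)
  have hy : 1 < v y := (hR y hyR).2
  have : 1 < v F.leadingCoeff * (v y * Pi) := by
    calc (1 : Γ₀) < v y := hy
      _ = v y * 1 := (mul_one _).symm
      _ ≤ v y * (w * Pi) := by gcongr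
      _ = w * (v y * Pi) := by ac_rfl
      _ ≤ v F.leadingCoeff * (v y * Pi) := by gcongr
  exact absurd hb (not_le.mpr this)

end Fermat.Agent.S13.helper1979
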