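import Mathlib
import Fermat.Agent.S05.helper305_Formulas
import Fermat.Agent.S05.helper1205_E1Add

/-!
# Same reduction ⇒ difference in the kernel of reduction (helper1979, S13 ingredient I5)

Shape coordinates of `helper305`: `η² = ξ (ξ² + al ξ + be)`, valuation `v` in multiplicative
notation, `E₁ = {1 < v ξ}`.  **No assumption on the residue characteristic** except `v 2 = 1`.

* `one_lt_diff_of_close`: two integral points that are congruent modulo the maximal ideal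
  and whose common reduction is nonsingular differ by a point of `E₁`.
* `one_lt_diff_of_node`: the same for two points in the node region (`v be < v ξ < 1`) that are
  congruent after scaling (`v (ξ' - ξ) < v ξ`, `v (η'/ξ' - η/ξ) < 1`).
* `sameRed_point`: point-level statement for an inertia-type endomorphism `σ`
  (`v x ≤ 1 → v (σ x - x) < 1`): `σ P = P` or `σ P - P ∈ E₁`.
-/

set_option autoImplicit false

namespace Fermat.Agent.S13.helper1979

open WeierstrassCurve WeierstrassCurve.Affine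
open Fermat.Agent.S05.helper305

section val

variable {K : Type*} [Field K] {Γ₀ : Type*} [LinearOrderedCommGroupWithZero Γ₀]
  (v : Valuation K Γ₀)

theorem vle_mul {a b : K} (ha : v a ≤ 1) (hb : v b ≤ 1) : v (a * b) ≤ 1 := by
  rw [v.map_mul]; exact mul_le_one' ha hb

theorem vlt_mul {a b : K} (ha : v a ≤ 1) (hb : v b < 1) : v (a * b) < 1 := by
  rw [v.map_mul]; exact lt_of_le_of_lt (mul_le_of_le_one_left' ha) hb

theorem vlt_mul' {a b : K} (ha : v a < 1) (hb : v b ≤ 1) : v (a * b) < 1 := by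
  rw [mul_comm]; exact vlt_mul v hb ha

theorem vle_pow {a : K} (ha : v a ≤ 1) (n : ℕ) : v (a ^ n) ≤ 1 := by
  rw [v.map_pow]; exact pow_le_one' ha n

theorem vlt_of_sq {a : K} (ha : v (a ^ 2) < 1) : v a < 1 := by
  by_contra hcon
  have h1 : 1 ≤ v a := not_lt.mp hcon
  have : 1 ≤ v (a ^ 2) := by
    rw [v.map_pow]; exact one_le_pow₀ h1
  exact absurd ha (not_lt.mpr this)

theorem vle_of_sq {a : K} (ha : v (a ^ 2) ≤ 1) : v a ≤ 1 := by
  by_contra hcon
  have h1 : 1 < v a := not_le.mp hcon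
  have : 1 < v (a ^ 2) := by
    rw [v.map_pow]; exact one_lt_pow₀ h1 two_ne_zero
  exact absurd ha (not_le.mpr this)

theorem veq_of_sq {a : K} (ha : v (a ^ 2) = 1) : v a = 1 := by
  rw [v.map_pow] at ha
  exact (pow_eq_one_iff_of_nonneg zero_le two_ne_zero).mp ha

/-- `unit + nonunit` is a unit. -/
theorem veq_add {a b : K} (ha : v a = 1) (hb : v b < 1) : v (a + b) = 1 := by
  rw [v.map_add_eq_of_lt_left (by rw [ha]; exact hb), ha]

/-- `nonunit + unit` is a unit. -/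
theorem veq_add' {a b : K} (ha : v a < 1) (hb : v b = 1) : v (a + b) = 1 := by
  rw [add_comm]; exact veq_add v hb ha

/-- If `a * b = c` with `c` a unit and `b` a nonunit then `1 < v a`. -/
theorem one_lt_of_mul_eq {a b c : K} (h : a * b = c) (hc : v c = 1) (hb : v b < 1) :
    1 < v a := by
  have h1 : v a * v b = 1 := by rw [← v.map_mul, h, hc]
  by_contra hcon
  have hle : v a ≤ 1 := not_lt.mp hcon
  have : v a * v b < 1 := lt_of_le_of_lt (mul_le_of_le_one_left' hle) hb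
  rw [h1] at this
  exact lt_irrefl _ this

variable {al be ξ₁ η₁ ξ₂ η₂ ξ₃ η₃ lam : K}

/-- A non-integral slope between integral points gives a sum in `E₁`. -/
theorem one_lt_xi3 (h : AddRel al be ξ₁ η₁ ξ₂ η₂ ξ₃ η₃ lam) (hal : v al ≤ 1) (h₁ : v ξ₁ ≤ 1)
    (h₂ : v ξ₂ ≤ 1) (hlam : 1 < v lam) : 1 < v ξ₃ := by
  have e : ξ₃ = lam ^ 2 - (al + ξ₁ + ξ₂) := by rw [h.hξ]; ring
  have h1 : v (al + ξ₁ + ξ₂) ≤ 1 := v.map_add_le (v.map_add_le hal h₁) h₂
  have h2 : 1 < v (lam ^ 2) := by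
    rw [v.map_pow]; exact one_lt_pow₀ hlam two_ne_zero
  rw [e, v.map_sub_eq_of_lt_left (lt_of_le_of_lt h1 h2)]
  exact h2

end val

section core

variable {K : Type*} [Field K] {Γ₀ : Type*} [LinearOrderedCommGroupWithZero Γ₀]
  (v : Valuation K Γ₀)

variable {al be ξ η ξ' η' ξ₃ η₃ lam : K}

/-- **Same nonsingular reduction ⇒ difference in `E₁`.**  `(ξ₃, η₃) = (ξ', η') - (ξ, η)`. -/
theorem one_lt_diff_of_close (h : AddRel al be ξ' η' ξ (-η) ξ₃ η₃ lam) (hv2 : v 2 = 1)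
    (hal : v al ≤ 1) (hbe : v be ≤ 1) (hξ : v ξ ≤ 1) (hξ' : v ξ' ≤ 1)
    (hδ : v (ξ' - ξ) < 1) (hδη : v (η' - η) < 1)
    (hns : v (ξ * (ξ ^ 2 + al * ξ + be)) < 1 → v (3 * ξ ^ 2 + 2 * al * ξ + be) = 1) :
    1 < v ξ₃ := by
  have c₁ := h.c₁
  have c₂ : η ^ 2 = ξ * (ξ ^ 2 + al * ξ + be) := by
    have := h.c₂
    rwa [neg_sq] at this
  have hv2' : v (2 : K) ≤ 1 := hv2.le
  have hfξ : v (ξ * (ξ ^ 2 + al * ξ + be)) ≤ 1 :=
    vle_mul v hξ (v.map_add_le (v.map_add_le (vle_pow v hξ 2) (vle_mul v hal hξ)) hbe)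
  have hη : v η ≤ 1 := vle_of_sq v (by rw [c₂]; exact hfξ)
  -- if `2η` is a nonunit then `f'(ξ)` is a unit
  have hder : v (2 * η) < 1 → v (3 * ξ ^ 2 + 2 * al * ξ + be) = 1 := by
    intro h2η
    have hη1 : v η < 1 := by rwa [v.map_mul, hv2, one_mul] at h2η
    apply hns
    rw [← c₂, pow_two]
    exact vlt_mul v hη hη1
  apply one_lt_xi3 v h hal hξ' hξ
  rcases h.hlam with ⟨hne, hl⟩ | ⟨he, he', hη'0, hl⟩
  · -- chord case
    have hl' : lam * (ξ' - ξ) = η' + η := by rw [hl]; ring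
    by_cases hs : v (η' + η) = 1
    · exact one_lt_of_mul_eq v hl' hs hδ
    · have hη' : v η' ≤ 1 := by
        have e : η' = (η' - η) + η := by ring
        rw [e]; exact v.map_add_le hδη.le hη
      have hs' : v (η' + η) < 1 := lt_of_le_of_ne (v.map_add_le hη' hη) hs
      have h2η : v (2 * η) < 1 := by
        have e : 2 * η = (η' + η) - (η' - η) := by ring
        rw [e]; exact v.map_sub_lt hs' hδη
      have hd := hder h2η
      -- `g = f'(ξ) + (ξ' - ξ)(ξ' + 2ξ + al)` is a unit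
      have hg : v (ξ' ^ 2 + ξ' * ξ + ξ ^ 2 + al * (ξ' + ξ) + be) = 1 := by
        have e : ξ' ^ 2 + ξ' * ξ + ξ ^ 2 + al * (ξ' + ξ) + be
            = (3 * ξ ^ 2 + 2 * al * ξ + be) + (ξ' - ξ) * (ξ' + 2 * ξ + al) := by ring
        rw [e]
        refine veq_add v hd (vlt_mul' v hδ ?_)
        exact v.map_add_le (v.map_add_le hξ' (vle_mul v hv2' hξ)) hal
      have hne' : ξ' - ξ ≠ 0 := sub_ne_zero.mpr hne
      have key : lam * (η' - η) = ξ' ^ 2 + ξ' * ξ + ξ ^ 2 + al * (ξ' + ξ) + be := by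
        apply mul_left_cancel₀ hne'
        linear_combination (η' - η) * hl' + c₁ - c₂
      exact one_lt_of_mul_eq v key hg hδη
  · -- tangent case: `ξ' = ξ`, `η' = -η`
    have h2η : v (2 * η) < 1 := by
      have e : 2 * η = -(η' - η) := by rw [he']; ring
      rw [e, v.map_neg]; exact hδη
    have hd := hder h2η
    have h2η' : v (2 * η') < 1 := by
      have e : 2 * η' = -(2 * η) := by rw [he']; ring
      rw [e, v.map_neg]; exact h2η
    have key : lam * (2 * η') = 3 * ξ ^ 2 + 2 * al * ξ + be := by rw [hl, he]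
    exact one_lt_of_mul_eq v key hd h2η'

/-- Good reduction: a point with `η² ≡ 0` has `f'(ξ)` a unit. -/
theorem hns_good (hv2 : v 2 = 1) (hal : v al ≤ 1) (hbe : v be = 1)
    (hdisc : v (al ^ 2 - 4 * be) = 1) (hξ : v ξ ≤ 1)
    (h : v (ξ * (ξ ^ 2 + al * ξ + be)) < 1) : v (3 * ξ ^ 2 + 2 * al * ξ + be) = 1 := by
  have hv2' : v (2 : K) ≤ 1 := hv2.le
  have hv3 : v (3 : K) ≤ 1 := by
    have e : (3 : K) = 2 + 1 := by norm_num
    rw [e]; exact v.map_add_le hv2' (by rw [v.map_one])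
  have hv4 : v (4 : K) ≤ 1 := by
    have e : (4 : K) = 2 * 2 := by norm_num
    rw [e]; exact vle_mul v hv2' hv2'
  by_cases hξ1 : v ξ < 1
  · have e : 3 * ξ ^ 2 + 2 * al * ξ + be = be + ξ * (3 * ξ + 2 * al) := by ring
    rw [e]
    refine veq_add v hbe (vlt_mul' v hξ1 ?_)
    exact v.map_add_le (vle_mul v hv3 hξ) (vle_mul v hv2' hal)
  · have hξeq : v ξ = 1 := le_antisymm hξ (not_lt.mp hξ1)
    have hq : v (ξ ^ 2 + al * ξ + be) < 1 := by
      rwa [v.map_mul, hξeq, one_mul] at h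
    have h2 : v (2 * ξ + al) = 1 := by
      apply veq_of_sq v
      have e : (2 * ξ + al) ^ 2 = (al ^ 2 - 4 * be) + 4 * (ξ ^ 2 + al * ξ + be) := by ring
      rw [e]
      exact veq_add v hdisc (vlt_mul v hv4 hq)
    have e : 3 * ξ ^ 2 + 2 * al * ξ + be = ξ * (2 * ξ + al) + (ξ ^ 2 + al * ξ + be) := by ring
    rw [e]
    exact veq_add v (by rw [v.map_mul, hξeq, h2, one_mul]) hq

/-- Multiplicative reduction, `ξ` a unit: a point with `η² ≡ 0` has `f'(ξ)` a unit. -/
theorem hns_mult (hv2 : v 2 = 1) (hal : v al = 1) (hbe : v be < 1) (hξ : v ξ = 1)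
    (h : v (ξ * (ξ ^ 2 + al * ξ + be)) < 1) : v (3 * ξ ^ 2 + 2 * al * ξ + be) = 1 := by
  have hv2' : v (2 : K) ≤ 1 := hv2.le
  have hq : v (ξ ^ 2 + al * ξ + be) < 1 := by
    rwa [v.map_mul, hξ, one_mul] at h
  -- `ξ + al` is a nonunit
  have h1 : v (ξ + al) < 1 := by
    have e : ξ * (ξ + al) = (ξ ^ 2 + al * ξ + be) - be := by ring
    have h2 : v (ξ * (ξ + al)) < 1 := by rw [e]; exact v.map_sub_lt hq hbe
    rwa [v.map_mul, hξ, one_mul] at h2
  have h2 : v (2 * ξ + al) = 1 := by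
    have e : 2 * ξ + al = 2 * (ξ + al) + (-al) := by ring
    rw [e]
    exact veq_add' v (vlt_mul v hv2' h1) (by rw [v.map_neg, hal])
  have e : 3 * ξ ^ 2 + 2 * al * ξ + be = ξ * (2 * ξ + al) + (ξ ^ 2 + al * ξ + be) := by ring
  rw [e]
  exact veq_add v (by rw [v.map_mul, hξ, h2, one_mul]) hq

/-- In the node region (`v be < v x < 1`, `al` a unit) the ratio `y / x` is a unit. -/
theorem val_eta_div_xi {x y : K} (c : y ^ 2 = x * (x ^ 2 + al * x + be)) (hal : v al = 1)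
    (hx1 : v x < 1) (hbx : v be < v x) : v (y / x) = 1 := by
  have hxpos : 0 < v x := lt_of_le_of_lt zero_le hbx
  have hx0 : x ≠ 0 := (v.pos_iff).mp hxpos
  apply veq_of_sq v
  have e : (y / x) ^ 2 = al + (x + be / x) := by
    field_simp
    linear_combination c
  rw [e]
  refine veq_add v hal (v.map_add_lt hx1 ?_)
  rw [map_div₀]
  exact (div_lt_one₀ hxpos).mpr hbx

/-- **Node region.**  Two points with `v be < v ξ < 1` that are congruent after scaling differ
by a point of `E₁`. -/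
theorem one_lt_diff_of_node (h : AddRel al be ξ' η' ξ (-η) ξ₃ η₃ lam) (hv2 : v 2 = 1)
    (hal : v al = 1) (hξ1 : v ξ < 1) (hbeξ : v be < v ξ) (hδ : v (ξ' - ξ) < v ξ)
    (hγ : v (η' / ξ' - η / ξ) < 1) : 1 < v ξ₃ := by
  have c₁ := h.c₁
  have c₂ : η ^ 2 = ξ * (ξ ^ 2 + al * ξ + be) := by
    have := h.c₂
    rwa [neg_sq] at this
  have hξpos : 0 < v ξ := lt_of_le_of_lt zero_le hbeξ
  have hξ0 : ξ ≠ 0 := (v.pos_iff).mp hξpos
  have hvξ' : v ξ' = v ξ := v.map_eq_of_sub_lt hδ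
  have hξ'0 : ξ' ≠ 0 := by
    apply (v.pos_iff).mp; rw [hvξ']; exact hξpos
  have hξ'1 : v ξ' < 1 := by rw [hvξ']; exact hξ1
  have hγu : v (η / ξ) = 1 := val_eta_div_xi v c₂ hal hξ1 hbeξ
  have hsum : v (η' / ξ' + η / ξ) = 1 := by
    have e : η' / ξ' + η / ξ = 2 * (η / ξ) + (η' / ξ' - η / ξ) := by ring
    rw [e]
    exact veq_add v (by rw [v.map_mul, hv2, hγu, one_mul]) hγ
  apply one_lt_xi3 v h hal.le hξ'1.le hξ1.le
  rcases h.hlam with ⟨hne, hl⟩ | ⟨he, he', -, -⟩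
  · -- chord case
    have hγ'u : v (η' / ξ') = 1 := val_eta_div_xi v c₁ hal hξ'1 (by rw [hvξ']; exact hbeξ)
    have hne' : ξ' - ξ ≠ 0 := sub_ne_zero.mpr hne
    have hδpos : 0 < v (ξ' - ξ) := (v.pos_iff).mpr hne'
    have e : lam * (ξ' - ξ) = (η' / ξ' + η / ξ) * ξ + η' / ξ' * (ξ' - ξ) := by
      rw [hl]; field_simp; ring
    have hval : v (lam * (ξ' - ξ)) = v ξ := by
      rw [e]
      have h1 : v ((η' / ξ' + η / ξ) * ξ) = v ξ := by rw [v.map_mul, hsum, one_mul]
      have h2 : v (η' / ξ' * (ξ' - ξ)) < v ((η' / ξ' + η / ξ) * ξ) := by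
        rw [h1, v.map_mul, hγ'u, one_mul]; exact hδ
      rw [v.map_add_eq_of_lt_left h2, h1]
    rw [v.map_mul] at hval
    by_contra hcon
    have hle : v lam ≤ 1 := not_lt.mp hcon
    have : v lam * v (ξ' - ξ) < v ξ := lt_of_le_of_lt (mul_le_of_le_one_left' hle) hδ
    rw [hval] at this
    exact lt_irrefl _ this
  · -- tangent case is impossible: `η'/ξ' = -(η/ξ)`
    exfalso
    have e : η' / ξ' + η / ξ = 0 := by rw [he, he']; ring
    rw [e, map_zero] at hsum
    exact zero_ne_one hsum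

end core

section point

variable {K : Type*} [Field K] [DecidableEq K] {Γ₀ : Type*} [LinearOrderedCommGroupWithZero Γ₀]
  (v : Valuation K Γ₀) {W : WeierstrassCurve K} {e al be : K}

omit [DecidableEq K] in
/-- An inertia-type endomorphism preserves non-integrality. -/
theorem one_lt_map_of_one_lt (σ : K →+* K) (hσ : ∀ x : K, v x ≤ 1 → v (σ x - x) < 1) {x : K}
    (hx : 1 < v x) : 1 < v (σ x) := by
  have hx0 : x ≠ 0 := by
    rintro rfl
    rw [map_zero] at hx
    exact absurd hx (not_lt.mpr zero_le_one)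
  have hσx0 : σ x ≠ 0 := (map_ne_zero σ).mpr hx0
  have h1 : v x⁻¹ < 1 := (v.one_lt_val_iff hx0).mp hx
  have h2 : v (σ x⁻¹ - x⁻¹) < 1 := hσ _ h1.le
  have h3 : v (σ x)⁻¹ < 1 := by
    have e : (σ x)⁻¹ = (σ x⁻¹ - x⁻¹) + x⁻¹ := by rw [map_inv₀]; ring
    rw [e]; exact v.map_add_lt h2 h1
  exact (v.one_lt_val_iff hσx0).mpr h3

/-- **Same reduction, point level.**  `σ` is an inertia-type endomorphism.  If the point
`P = (x, y)` is in `E₁`, or is integral with nonsingular reduction (in the weak form `hns`), or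
lies in the node region at a depth `v (x - e) = v w` realised by a `σ`-fixed element `w`, then
`σ P = P` or `σ P - P ∈ E₁`. -/
theorem sameRed_point (hS : Shape W e al be) (hv2 : v 2 = 1) (hal : v al ≤ 1) (hbe : v be ≤ 1)
    (σ : K →+* K) (hσ : ∀ x : K, v x ≤ 1 → v (σ x - x) < 1) (hσe : σ e = e)
    (hσa1 : σ W.a₁ = W.a₁) (hσa3 : σ W.a₃ = W.a₃)
    (x y : K) (h : W.toAffine.Nonsingular x y) (h' : W.toAffine.Nonsingular (σ x) (σ y))
    (hcase : 1 < v (x - e) ∨
      (v (x - e) ≤ 1 ∧ (v ((x - e) * ((x - e) ^ 2 + al * (x - e) + be)) < 1 →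
        v (3 * (x - e) ^ 2 + 2 * al * (x - e) + be) = 1)) ∨
      (v al = 1 ∧ v (x - e) < 1 ∧ v be < v (x - e) ∧ ∃ w : K, σ w = w ∧ v w = v (x - e))) :
    (σ x = x ∧ σ y = y) ∨ ∃ (X Y : K) (hXY : W.toAffine.Nonsingular X Y),
      Point.some (σ x) (σ y) h' - Point.some x y h = Point.some X Y hXY ∧ 1 < v (X - e) := by
  by_cases heq : σ x = x ∧ σ y = y
  · exact Or.inl heq
  right
  have two_ne := hS.two_ne
  have hneg : W.toAffine.Nonsingular x (W.toAffine.negY x y) := (nonsingular_neg ..).mpr h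
  have hne : ¬(σ x = x ∧ σ y = W.toAffine.negY x (W.toAffine.negY x y)) := by
    rw [negY_negY]; exact heq
  obtain ⟨x₃, y₃, h₃, lam, hadd, hrel⟩ := hS.add_some_rel h' hneg hne
  rw [eta_negY W two_ne] at hrel
  refine ⟨x₃, y₃, h₃, ?_, ?_⟩
  · rw [sub_eq_add_neg, Point.neg_some, hadd]
  have hσξ : σ (x - e) = σ x - e := by rw [map_sub, hσe]
  have hσ2 : σ 2 = 2 := map_ofNat σ 2
  have hση : σ (eta W x y) = eta W (σ x) (σ y) := by
    simp only [eta, map_add, map_mul, map_div₀, hσa1, hσa3, hσ2]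
  have hcurve : eta W x y ^ 2 = (x - e) * ((x - e) ^ 2 + al * (x - e) + be) :=
    (hS.equation_iff x y).1 h.1
  rcases hcase with h1 | ⟨hξ, hns⟩ | ⟨hal1, hξ1, hbeξ, w, hσw, hvw⟩
  · -- `P ∈ E₁`
    have h1' : 1 < v (σ x - e) := by
      rw [← hσξ]; exact one_lt_map_of_one_lt v σ hσ h1
    exact (Fermat.Agent.S05.helper1205.e1_add v hrel hv2 hal hbe h1' h1).1
  · -- integral, nonsingular reduction
    have hδ : v (σ x - e - (x - e)) < 1 := by
      have := hσ (x - e) hξ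
      rwa [hσξ] at this
    have hξ' : v (σ x - e) ≤ 1 := by
      have e1 : σ x - e = (σ x - e - (x - e)) + (x - e) := by ring
      rw [e1]; exact v.map_add_le hδ.le hξ
    have hηO : v (eta W x y) ≤ 1 := by
      apply vle_of_sq v
      rw [hcurve]
      exact vle_mul v hξ (v.map_add_le (v.map_add_le (vle_pow v hξ 2) (vle_mul v hal hξ)) hbe)
    have hδη : v (eta W (σ x) (σ y) - eta W x y) < 1 := by
      rw [← hση]; exact hσ _ hηO
    exact one_lt_diff_of_close v hrel hv2 hal hbe hξ hξ' hδ hδη hns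
  · -- node region
    have hξpos : 0 < v (x - e) := lt_of_le_of_lt zero_le hbeξ
    have hξ0 : x - e ≠ 0 := (v.pos_iff).mp hξpos
    have hw0 : w ≠ 0 := by
      apply (v.pos_iff).mp; rw [hvw]; exact hξpos
    have hu : v ((x - e) / w) ≤ 1 := by
      rw [map_div₀, hvw, div_self hξpos.ne']
    have hδ : v (σ x - e - (x - e)) < v (x - e) := by
      have h1 := hσ _ hu
      rw [map_div₀, hσw, hσξ] at h1
      have e1 : (σ x - e) / w - (x - e) / w = (σ x - e - (x - e)) / w := by ring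
      rw [e1, map_div₀, hvw] at h1
      exact (div_lt_one₀ hξpos).mp h1
    have hγu : v (eta W x y / (x - e)) = 1 := val_eta_div_xi v hcurve hal1 hξ1 hbeξ
    have hγ : v (eta W (σ x) (σ y) / (σ x - e) - eta W x y / (x - e)) < 1 := by
      have h1 := hσ _ hγu.le
      rwa [map_div₀, hση, hσξ] at h1
    exact one_lt_diff_of_node v hrel hv2 hal1 hξ1 hbeξ hδ hγ

end point

end Fermat.Agent.S13.helper1979
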