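import Mathlib
import Fermat.Agent.S05.helper2284_Top
import Fermat.Agent.S13.helper1979_Newton
import Fermat.Agent.S13.helper1979_SameRed

/-!
# S13 ingredient I5: inertia at `p` on the `p`-torsion of the Frey curve (helper1979)

For a Galois-stable line `N ⊆ E[p]`: either every inertia group above `p` fixes `N` pointwise,
or every inertia group above `p` acts trivially on `E[p]/N`.

Inputs (hypothesis-passing):
* `NodeValStmt'`: the S05 statement `NodeValStmt` without the hypothesis `v p = 1`;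
* a nonzero integer polynomial `F` with `¬ p² ∣ lc F` vanishing at the `x`-coordinates of all
  nonzero `p`-torsion points (e.g. the `p`-th division polynomial).
-/

set_option autoImplicit false

namespace Fermat.Agent.S13.helper1979

open WeierstrassCurve WeierstrassCurve.Affine
open Fermat.Agent.S05.helper305 (Shape)
open Fermat.Agent.S05.helper4205
open Fermat.Agent.S05.helper2284

/-- The S05 statement `NodeValStmt` of `helper5_Spec` **without** the hypothesis `v p = 1`:
a `p`-torsion point near the node (`v (x - e) < 1`) satisfies `v be < v (x - e)` and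
`v (x - e) ^ p ∈ (v be ^ 2) ^ ℤ`. -/
def NodeValStmt' : Prop :=
  ∀ (K : Type) [Field K] [DecidableEq K] (Γ₀ : Type) [LinearOrderedCommGroupWithZero Γ₀]
    (v : Valuation K Γ₀) (W : WeierstrassCurve K) (e al be : K),
    Shape W e al be → v 2 = 1 → v al = 1 → v be < 1 → be ≠ 0 →
    ∀ (p : ℕ), p.Prime → p ≠ 2 →
    ∀ (x y : K) (h : W.toAffine.Nonsingular x y), v (x - e) < 1 →
      p • (Point.some x y h : W.toAffine.Point) = 0 →
      v be < v (x - e) ∧ ∃ j : ℤ, v (x - e) ^ p = v be ^ (2 * j)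

local notation "Qb" => AlgebraicClosure ℚ

/-- Multiplicative case of the local step, in shape coordinates: the hypothesis of
`sameRed_point` holds for every `p`-torsion point. -/
theorem hcase_mult (hNV : NodeValStmt') {Γ₀ : Type} [LinearOrderedCommGroupWithZero Γ₀]
    (v : Valuation Qb Γ₀) (W : WeierstrassCurve Qb) (e al be : Qb) (hS : Shape W e al be)
    (hv2 : v 2 = 1) (hal : v al = 1) (hbe : v be < 1) (hbe0 : be ≠ 0)
    (σ : Qb →+* Qb) (d : Qb) (hσd : σ d = d) (p : ℕ) (hp : p.Prime) (hp2 : p ≠ 2)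
    (hbed : v be = v d ^ p)
    (x y : Qb) (h : W.toAffine.Nonsingular x y)
    (hT : p • (Point.some x y h : W.toAffine.Point) = 0) :
    1 < v (x - e) ∨
      (v (x - e) ≤ 1 ∧ (v ((x - e) * ((x - e) ^ 2 + al * (x - e) + be)) < 1 →
        v (3 * (x - e) ^ 2 + 2 * al * (x - e) + be) = 1)) ∨
      (v al = 1 ∧ v (x - e) < 1 ∧ v be < v (x - e) ∧ ∃ w : Qb, σ w = w ∧ v w = v (x - e)) := by
  rcases lt_trichotomy (v (x - e)) 1 with hlt | heq | hgt
  · right; right
    obtain ⟨hbeξ, j, hj⟩ := hNV Qb Γ₀ v W e al be hS hv2 hal hbe hbe0 p hp hp2 x y h hlt hT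
    refine ⟨hal, hlt, hbeξ, d ^ (2 * j), ?_, ?_⟩
    · rw [map_zpow₀, hσd]
    · rw [map_zpow₀]
      have hpow : (v d ^ (2 * j)) ^ p = v (x - e) ^ p := by
        rw [hj, hbed, ← zpow_natCast (v d ^ (2 * j)) p, ← zpow_mul, ← zpow_natCast (v d) p,
          ← zpow_mul, mul_comm]
      exact (pow_left_inj₀ zero_le zero_le hp.ne_zero).mp hpow
  · right; left
    exact ⟨heq.le, hns_mult v hv2 hal hbe heq⟩
  · left; exact hgt

/-- Good case of the local step, in shape coordinates. -/
theorem hcase_good {Γ₀ : Type} [LinearOrderedCommGroupWithZero Γ₀]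
    (v : Valuation Qb Γ₀) (e al be : Qb)
    (hv2 : v 2 = 1) (hal : v al ≤ 1) (hbe : v be = 1) (hdisc : v (al ^ 2 - 4 * be) = 1)
    (σ : Qb →+* Qb) (x : Qb) :
    1 < v (x - e) ∨
      (v (x - e) ≤ 1 ∧ (v ((x - e) * ((x - e) ^ 2 + al * (x - e) + be)) < 1 →
        v (3 * (x - e) ^ 2 + 2 * al * (x - e) + be) = 1)) ∨
      (v al = 1 ∧ v (x - e) < 1 ∧ v be < v (x - e) ∧ ∃ w : Qb, σ w = w ∧ v w = v (x - e)) := by
  rcases lt_or_ge 1 (v (x - e)) with hgt | hle
  · left; exact hgt
  · right; left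
    exact ⟨hle, hns_good v hv2 hal hbe hdisc hle⟩

/-- **Local step at `p`.**  For `σ` in an inertia group above `p` and a `p`-torsion point
`T = (x, y)` of the Frey curve: `σ T = T` or `σ T - T` lies in the kernel of reduction. -/
theorem frey_diff_mem_E1 (hNV : NodeValStmt') (P : FreyPackage)
    (A : ValuationSubring Qb) (hA : A.LiesOverPrime P.p) (σ : Qb ≃ₐ[ℚ] Qb)
    (hσ : σ ∈ A.inertiaSubgroupIn ℚ) (x y : Qb)
    (h : (freyBar P).toAffine.Nonsingular x y)
    (h' : (freyBar P).toAffine.Nonsingular (σ x) (σ y))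
    (hT : P.p • (Point.some x y h : (freyBar P).toAffine.Point) = 0) :
    (σ x = x ∧ σ y = y) ∨ ∃ (X Y : Qb) (hXY : (freyBar P).toAffine.Nonsingular X Y),
      Point.some (σ x) (σ y) h' - Point.some x y h = Point.some X Y hXY ∧
        1 < A.valuation X := by
  have hq : P.p.Prime := P.pp
  have hq2 : P.p ≠ 2 := by have := P.hp5; omega
  let τ : Qb →+* Qb := σ.toAlgHom.toRingHom
  have hτ : ∀ z : Qb, A.valuation z ≤ 1 → A.valuation (τ z - z) < 1 := by
    intro z hz
    have hzA : z ∈ A := (ValuationSubring.valuation_le_one_iff A z).1 hz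
    exact (ValuationSubring.mem_nonunits_iff (A := A)).1 (apply_sub_mem_nonunits hσ hzA)
  have hτint : ∀ n : ℤ, τ (n : Qb) = n := fun n => map_intCast σ n
  have hτ4 : τ (4 : Qb) = 4 := map_ofNat σ 4
  have hτa1 : τ (freyBar P).a₁ = (freyBar P).a₁ := by
    rw [freyBar_a₁]; exact map_one τ
  have hτa3 : τ (freyBar P).a₃ = (freyBar P).a₃ := by
    rw [freyBar_a₃]; exact map_zero τ
  have hv2 : A.valuation (2 : Qb) = 1 := val_two hq hq2 hA
  have hv4 : A.valuation (4 : Qb) = 1 := val_four hq hq2 hA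
  have hv16 : A.valuation (16 : Qb) = 1 := val_sixteen hq hq2 hA
  have hqZ : Prime (P.p : ℤ) := Nat.prime_iff_prime_int.1 hq
  have hpow : ∀ {n : ℤ}, (P.p : ℤ) ∣ n ^ P.p → (P.p : ℤ) ∣ n := fun hn => Int.Prime.dvd_pow' hq hn
  have h16 : (16 : Qb) ≠ 0 := by norm_num
  -- conclusion transfer: `1 < v (X - e)` with `e` integral gives `1 < v X`
  have transfer : ∀ (e : Qb), A.valuation e ≤ 1 →
      ((τ x = x ∧ τ y = y) ∨ ∃ (X Y : Qb) (hXY : (freyBar P).toAffine.Nonsingular X Y),
        Point.some (τ x) (τ y) h' - Point.some x y h = Point.some X Y hXY ∧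
          1 < A.valuation (X - e)) →
      ((σ x = x ∧ σ y = y) ∨ ∃ (X Y : Qb) (hXY : (freyBar P).toAffine.Nonsingular X Y),
        Point.some (σ x) (σ y) h' - Point.some x y h = Point.some X Y hXY ∧
          1 < A.valuation X) := by
    intro e he hres
    rcases hres with hfix | ⟨X, Y, hXY, hsub, hX⟩
    · exact Or.inl hfix
    · refine Or.inr ⟨X, Y, hXY, hsub, ?_⟩
      have e1 : X = (X - e) + e := by ring
      rw [e1, (A.valuation).map_add_eq_of_lt_left (lt_of_le_of_lt he hX)]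
      exact hX
  by_cases hab : (P.p : ℤ) ∣ P.a * P.b
  · -- multiplicative reduction, node at `x = 0`
    have hal : ¬ (P.p : ℤ) ∣ P.b ^ P.p - P.a ^ P.p := by
      intro hdvd
      rcases hqZ.dvd_or_dvd hab with ha | hb
      · have hb : (P.p : ℤ) ∣ P.b ^ P.p := by
          have := dvd_add hdvd (dvd_pow ha P.hp0)
          simpa using this
        exact not_dvd_both hq P.hgcdab ha (hpow hb)
      · have ha : (P.p : ℤ) ∣ P.a ^ P.p := by
          have := dvd_sub (dvd_pow hb P.hp0) hdvd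
          simpa using this
        exact not_dvd_both hq P.hgcdab (hpow ha) hb
    have hd0 : ((P.a * P.b : ℤ) : Qb) ≠ 0 :=
      Int.cast_ne_zero.2 (mul_ne_zero P.ha0 P.hb0)
    have hvd : A.valuation ((P.a * P.b : ℤ) : Qb) < 1 := val_int_lt_one hq hA hab
    have hval : A.valuation ((((P.b : ℤ) ^ P.p - (P.a : ℤ) ^ P.p : ℤ) : Qb) / 4) = 1 := by
      rw [map_div₀, hv4, div_one]
      exact valuation_intCast_eq_one hq hA hal
    have hbed : A.valuation (((-((P.a : ℤ) * P.b) ^ P.p : ℤ) : Qb) / 16)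
        = A.valuation ((P.a * P.b : ℤ) : Qb) ^ P.p := by
      rw [map_div₀, hv16, div_one]
      push_cast
      rw [Valuation.map_neg, map_pow]
    have hbe1 : A.valuation (((-((P.a : ℤ) * P.b) ^ P.p : ℤ) : Qb) / 16) < 1 := by
      rw [hbed]; exact pow_lt_one₀ zero_le hvd P.hp0
    have hbe0 : (((-((P.a : ℤ) * P.b) ^ P.p : ℤ) : Qb) / 16) ≠ 0 := by
      apply div_ne_zero _ h16
      exact Int.cast_ne_zero.2 (neg_ne_zero.2 (pow_ne_zero _ (mul_ne_zero P.ha0 P.hb0)))
    have hc := hcase_mult hNV A.valuation (freyBar P) 0 _ _ (freyBar_shape_zero P) hv2 hval hbe1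
      hbe0 τ ((P.a * P.b : ℤ) : Qb) (hτint _) P.p hq hq2 hbed x y h hT
    apply transfer 0 (by rw [map_zero]; exact zero_le_one)
    exact sameRed_point A.valuation (freyBar_shape_zero P) hv2 hval.le hbe1.le τ hτ (map_zero τ)
      hτa1 hτa3 x y h h' hc
  · by_cases hc : (P.p : ℤ) ∣ P.c
    · -- multiplicative reduction, node at `x = a^p/4`
      have ha : ¬ (P.p : ℤ) ∣ P.a := fun ha => hab (dvd_mul_of_dvd_left ha _)
      have hal : ¬ (P.p : ℤ) ∣ P.a ^ P.p + P.c ^ P.p := by
        intro hdvd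
        have : (P.p : ℤ) ∣ P.a ^ P.p := by
          have := dvd_sub hdvd (dvd_pow hc P.hp0)
          simpa using this
        exact ha (hpow this)
      have hac : (P.p : ℤ) ∣ P.a * P.c := dvd_mul_of_dvd_right hc _
      have hvd : A.valuation ((P.a * P.c : ℤ) : Qb) < 1 := val_int_lt_one hq hA hac
      have hτe : τ ((((P.a : ℤ) ^ P.p : ℤ) : Qb) / 4) = (((P.a : ℤ) ^ P.p : ℤ) : Qb) / 4 := by
        rw [map_div₀, hτint, hτ4]
      have hve : A.valuation ((((P.a : ℤ) ^ P.p : ℤ) : Qb) / 4) ≤ 1 := by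
        rw [map_div₀, hv4, div_one]
        exact val_int_le_one A _
      have hval : A.valuation ((((P.a : ℤ) ^ P.p + (P.c : ℤ) ^ P.p : ℤ) : Qb) / 4) = 1 := by
        rw [map_div₀, hv4, div_one]
        exact valuation_intCast_eq_one hq hA hal
      have hbed : A.valuation (((((P.a : ℤ) * P.c) ^ P.p : ℤ) : Qb) / 16)
          = A.valuation ((P.a * P.c : ℤ) : Qb) ^ P.p := by
        rw [map_div₀, hv16, div_one]
        push_cast
        rw [map_pow]
      have hbe1 : A.valuation (((((P.a : ℤ) * P.c) ^ P.p : ℤ) : Qb) / 16) < 1 := by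
        rw [hbed]; exact pow_lt_one₀ zero_le hvd P.hp0
      have hbe0 : (((((P.a : ℤ) * P.c) ^ P.p : ℤ) : Qb) / 16) ≠ 0 := by
        apply div_ne_zero _ h16
        exact Int.cast_ne_zero.2 (pow_ne_zero _ (mul_ne_zero P.ha0 P.hc0))
      have hcs := hcase_mult hNV A.valuation (freyBar P) _ _ _ (freyBar_shape_shift P) hv2 hval
        hbe1 hbe0 τ ((P.a * P.c : ℤ) : Qb) (hτint _) P.p hq hq2 hbed x y h hT
      apply transfer _ hve
      exact sameRed_point A.valuation (freyBar_shape_shift P) hv2 hval.le hbe1.le τ hτ hτe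
        hτa1 hτa3 x y h h' hcs
    · -- good reduction
      have hab' : ¬ (P.p : ℤ) ∣ -(P.a * P.b) ^ P.p := by
        intro hdvd
        exact hab (hpow ((dvd_neg).1 hdvd))
      have hc' : ¬ (P.p : ℤ) ∣ (P.c ^ P.p) ^ 2 := by
        intro hdvd
        exact hc (hpow (hqZ.dvd_of_dvd_pow hdvd))
      have hdisc : ((((P.b : ℤ) ^ P.p - (P.a : ℤ) ^ P.p : ℤ) : Qb) / 4) ^ 2
          - 4 * ((((-((P.a : ℤ) * P.b) ^ P.p : ℤ) : Qb) / 16))
          = ((((P.c : ℤ) ^ P.p) ^ 2 : ℤ) : Qb) / 16 := by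
        have hF : ((P.a : Qb)) ^ P.p + (P.b : Qb) ^ P.p = (P.c : Qb) ^ P.p := by
          have := congrArg (fun z : ℤ => (z : Qb)) P.hFLT
          push_cast at this
          exact this
        push_cast
        rw [← hF]
        ring
      have hval : A.valuation ((((P.b : ℤ) ^ P.p - (P.a : ℤ) ^ P.p : ℤ) : Qb) / 4) ≤ 1 := by
        rw [map_div₀, hv4, div_one]
        exact val_int_le_one A _
      have hbe : A.valuation (((-((P.a : ℤ) * P.b) ^ P.p : ℤ) : Qb) / 16) = 1 := by
        rw [map_div₀, hv16, div_one]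
        exact valuation_intCast_eq_one hq hA hab'
      have hdv : A.valuation (((((P.b : ℤ) ^ P.p - (P.a : ℤ) ^ P.p : ℤ) : Qb) / 4) ^ 2
          - 4 * ((((-((P.a : ℤ) * P.b) ^ P.p : ℤ) : Qb) / 16))) = 1 := by
        rw [hdisc, map_div₀, hv16, div_one]
        exact valuation_intCast_eq_one hq hA hc'
      have hcg := hcase_good A.valuation 0 _ _ hv2 hval hbe hdv τ x
      apply transfer 0 (by rw [map_zero]; exact zero_le_one)
      exact sameRed_point A.valuation (freyBar_shape_zero P) hv2 hval hbe.le τ hτ (map_zero τ)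
        hτa1 hτa3 x y h h' hcg

/-! ### Rational numbers in valuation subrings of `ℚ̄` -/

/-- `ℚ̄/ℚ` is Galois. -/
theorem isGalois_Qb : IsGalois ℚ Qb :=
  have : IsAlgClosure ℚ Qb := ⟨inferInstance, AlgebraicClosure.isAlgebraic ℚ⟩
  inferInstance

/-- The valuation of a natural number at a valuation subring over `q` is a power of `v q`
with an exponent independent of the subring. -/
theorem exists_pow_val_nat {q : ℕ} (hq : q.Prime) {n : ℕ} (hn : n ≠ 0) :
    ∃ k : ℕ, ∀ A : ValuationSubring Qb, A.LiesOverPrime q →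
      A.valuation (n : Qb) = A.valuation (q : Qb) ^ k := by
  obtain ⟨k, m, hm, rfl⟩ := Nat.exists_eq_pow_mul_and_not_dvd hn q hq.ne_one
  refine ⟨k, fun A hA => ?_⟩
  push_cast
  rw [map_mul, map_pow, valuation_natCast_eq_one hq hA hm, mul_one]

/-- The valuation of a nonzero rational number at a valuation subring over `q` is an integral
power of `v q`, with an exponent independent of the subring. -/
theorem exists_zpow_val_rat {q : ℕ} (hq : q.Prime) {r : ℚ} (hr : r ≠ 0) :
    ∃ j : ℤ, ∀ A : ValuationSubring Qb, A.LiesOverPrime q →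
      A.valuation (algebraMap ℚ Qb r) = A.valuation (q : Qb) ^ j := by
  have hnum : r.num.natAbs ≠ 0 := Int.natAbs_ne_zero.mpr (Rat.num_ne_zero.mpr hr)
  obtain ⟨k₁, h₁⟩ := exists_pow_val_nat hq hnum
  obtain ⟨k₂, h₂⟩ := exists_pow_val_nat hq r.den_nz
  refine ⟨(k₁ : ℤ) - k₂, fun A hA => ?_⟩
  have hq0 : A.valuation (q : Qb) ≠ 0 :=
    (Valuation.ne_zero_iff _).mpr (Nat.cast_ne_zero.mpr hq.ne_zero)
  have hnumv : A.valuation ((r.num : ℤ) : Qb) = A.valuation ((r.num.natAbs : ℕ) : Qb) := by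
    rcases Int.natAbs_eq r.num with h | h
    · conv_lhs => rw [h]
      simp
    · conv_lhs => rw [h]
      simp
  rw [eq_ratCast, Rat.cast_def, map_div₀, hnumv, h₁ A hA, h₂ A hA, zpow_sub₀ hq0, zpow_natCast,
    zpow_natCast]

/-! ### The kernel of reduction on the Frey curve -/

/-- Kernel of reduction at `A`: the origin and the points with non-integral `x`-coordinate. -/
def InE1 (P : FreyPackage) (A : ValuationSubring Qb) : (freyBar P).toAffine.Point → Prop
  | .zero => True
  | .some x _ _ => 1 < A.valuation x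

theorem inE1_zero (P : FreyPackage) (A : ValuationSubring Qb) :
    InE1 P A (0 : (freyBar P).toAffine.Point) := trivial

theorem inE1_some (P : FreyPackage) (A : ValuationSubring Qb) {x y : Qb}
    (h : (freyBar P).toAffine.Nonsingular x y) :
    InE1 P A (Point.some x y h) ↔ 1 < A.valuation x := Iff.rfl

theorem inE1_neg (P : FreyPackage) (A : ValuationSubring Qb) {Q : (freyBar P).toAffine.Point}
    (hQ : InE1 P A Q) : InE1 P A (-Q) := by
  cases Q with
  | zero => exact hQ
  | some x y h => exact hQ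

theorem inE1_add (P : FreyPackage) (A : ValuationSubring Qb) (hA : A.LiesOverPrime P.p)
    {Q₁ Q₂ : (freyBar P).toAffine.Point} (h₁ : InE1 P A Q₁) (h₂ : InE1 P A Q₂) :
    InE1 P A (Q₁ + Q₂) := by
  have hq : P.p.Prime := P.pp
  have hq2 : P.p ≠ 2 := by have := P.hp5; omega
  cases Q₁ with
  | zero => rw [← Point.zero_def, zero_add]; exact h₂
  | some x₁ y₁ hn₁ =>
    cases Q₂ with
    | zero => rw [← Point.zero_def, add_zero]; exact h₁
    | some x₂ y₂ hn₂ =>
      by_cases hxy : x₁ = x₂ ∧ y₁ = (freyBar P).toAffine.negY x₂ y₂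
      · rw [Point.add_of_Y_eq hxy.1 hxy.2]
        exact inE1_zero P A
      · obtain ⟨x₃, y₃, hn₃, lam, hadd, hrel⟩ :=
          (freyBar_shape_zero P).add_some_rel hn₁ hn₂ hxy
        rw [hadd]
        have hv2 : A.valuation (2 : Qb) = 1 := val_two hq hq2 hA
        have hv4 : A.valuation (4 : Qb) = 1 := val_four hq hq2 hA
        have hv16 : A.valuation (16 : Qb) = 1 := val_sixteen hq hq2 hA
        have hal : A.valuation ((((P.b : ℤ) ^ P.p - (P.a : ℤ) ^ P.p : ℤ) : Qb) / 4) ≤ 1 := by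
          rw [map_div₀, hv4, div_one]
          exact val_int_le_one A _
        have hbe : A.valuation (((-((P.a : ℤ) * P.b) ^ P.p : ℤ) : Qb) / 16) ≤ 1 := by
          rw [map_div₀, hv16, div_one]
          exact val_int_le_one A _
        have h₁' : 1 < A.valuation (x₁ - 0) := by rw [sub_zero]; exact h₁
        have h₂' : 1 < A.valuation (x₂ - 0) := by rw [sub_zero]; exact h₂
        have := (Fermat.Agent.S05.helper1205.e1_add A.valuation hrel hv2 hal hbe h₁' h₂').1
        rw [sub_zero] at this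
        exact this

theorem inE1_nsmul (P : FreyPackage) (A : ValuationSubring Qb) (hA : A.LiesOverPrime P.p)
    {Q : (freyBar P).toAffine.Point} (hQ : InE1 P A Q) (k : ℕ) : InE1 P A (k • Q) := by
  induction k with
  | zero => rw [zero_nsmul]; exact inE1_zero P A
  | succ k ih => rw [succ_nsmul]; exact inE1_add P A hA ih hQ

theorem inE1_sub (P : FreyPackage) (A : ValuationSubring Qb) (hA : A.LiesOverPrime P.p)
    {Q₁ Q₂ : (freyBar P).toAffine.Point} (h₁ : InE1 P A Q₁) (h₂ : InE1 P A Q₂) :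
    InE1 P A (Q₁ - Q₂) := by
  rw [sub_eq_add_neg]
  exact inE1_add P A hA h₁ (inE1_neg P A h₂)

/-! ### Generic lemmas -/

/-- In a group killed by a prime `p` on `a`, a nonzero multiple of `a` generates `a`. -/
theorem exists_nsmul_inverse {G : Type*} [AddCommGroup G] {p : ℕ} (hp : p.Prime) {a : G}
    (ha : p • a = 0) {k : ℕ} (hk : k • a ≠ 0) : ∃ k' : ℕ, k' • (k • a) = a := by
  have hndvd : ¬ p ∣ k := by
    rintro ⟨m, rfl⟩
    apply hk
    rw [mul_nsmul, ha, nsmul_zero]
  have hcop : Nat.Coprime k p := ((Nat.Prime.coprime_iff_not_dvd hp).mpr hndvd).symm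
  obtain ⟨m, -, hm⟩ := Nat.exists_mul_mod_eq_one_of_coprime hcop hp.one_lt
  refine ⟨m, ?_⟩
  have h1 : k * m = p * (k * m / p) + 1 := by
    have := Nat.div_add_mod (k * m) p
    rw [hm] at this
    exact this.symm
  rw [← mul_nsmul, h1, add_nsmul, mul_nsmul, ha, nsmul_zero, zero_add, one_nsmul]

/-- A monic product of linear factors over a finite set stable under an injective ring
endomorphism is fixed by that endomorphism. -/
theorem prod_X_sub_C_map_eq {L : Type*} [Field L] (τ : L →+* L) (S : Finset L)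
    (hS : ∀ x ∈ S, τ x ∈ S) :
    (∏ x ∈ S, (Polynomial.X - Polynomial.C x)).map τ
      = ∏ x ∈ S, (Polynomial.X - Polynomial.C x) := by
  classical
  have hinj : Function.Injective τ := τ.injective
  have himg : S.image τ = S := by
    apply Finset.eq_of_subset_of_card_le
    · intro y hy
      obtain ⟨x, hx, rfl⟩ := Finset.mem_image.mp hy
      exact hS x hx
    · rw [Finset.card_image_of_injective S hinj]
  rw [Polynomial.map_prod]
  conv_rhs => rw [← himg]
  rw [Finset.prod_image (fun x _ y _ h => hinj h)]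
  refine Finset.prod_congr rfl fun x _ => ?_
  rw [Polynomial.map_sub, Polynomial.map_X, Polynomial.map_C]

/-- Coefficients of a Galois-stable product of linear factors over `ℚ̄` are rational. -/
theorem coeff_prod_X_sub_C_rational (S : Finset Qb)
    (hS : ∀ τ : Qb ≃ₐ[ℚ] Qb, ∀ x ∈ S, τ x ∈ S) (k : ℕ) :
    ∃ r : ℚ, algebraMap ℚ Qb r = (∏ x ∈ S, (Polynomial.X - Polynomial.C x)).coeff k := by
  have := isGalois_Qb
  apply (InfiniteGalois.mem_range_algebraMap_iff_fixed (k := ℚ) (K := Qb) _).mpr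
  intro τ
  have h := prod_X_sub_C_map_eq (τ : Qb →+* Qb) S (fun x hx => hS τ x hx)
  have h2 := congrArg (fun q : Polynomial Qb => q.coeff k) h
  simp only [Polynomial.coeff_map] at h2
  exact h2

/-! ### The `p`-torsion module and the local step on it -/

/-- The `p`-torsion of the Frey curve over `ℚ̄` (same type as `helper13`'s `Vp`). -/
abbrev Vp (P : FreyPackage) : Type :=
  Submodule.torsionBy ℤ ((P.freyCurve)⁄(AlgebraicClosure ℚ)).Point P.p

theorem torsion_nsmul (P : FreyPackage) (n : Vp P) :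
    P.p • (n : ((P.freyCurve)⁄(AlgebraicClosure ℚ)).Point) = 0 := by
  have h := (Submodule.mem_torsionBy_iff _ _).mp n.2
  rw [← h]
  exact (natCast_zsmul _ _).symm

/-- **Local step on `E[p]`.**  For `σ` in an inertia group above `p`, `σ T - T` lies in the
kernel of reduction. -/
theorem inE1_smul_sub (hNV : NodeValStmt') (P : FreyPackage) (A : ValuationSubring Qb)
    (hA : A.LiesOverPrime P.p) (σ : Qb ≃ₐ[ℚ] Qb) (hσ : σ ∈ A.inertiaSubgroupIn ℚ) (T : Vp P) :
    InE1 P A ((σ • T - T : Vp P) : ((P.freyCurve)⁄(AlgebraicClosure ℚ)).Point) := by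
  have hT1 := torsion_nsmul P T
  obtain ⟨T, hT⟩ := T
  change InE1 P A (Point.map σ.toAlgHom T - T)
  change P.p • T = 0 at hT1
  cases T with
  | zero => exact inE1_zero P A
  | some x y h =>
    have h' : (freyBar P).toAffine.Nonsingular (σ x) (σ y) :=
      (WeierstrassCurve.Affine.baseChange_nonsingular (W := P.freyCurve)
        (f := σ.toAlgHom) σ.toAlgHom.injective x y).mpr h
    change InE1 P A (Point.some (σ x) (σ y) h' - Point.some x y h)
    rcases frey_diff_mem_E1 hNV P A hA σ hσ x y h h' hT1 with ⟨hx, hy⟩ | ⟨X, Y, hXY, hsub, hX⟩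
    · have aux : ∀ (x' y' : Qb) (h'' : (freyBar P).toAffine.Nonsingular x' y'),
          x' = x → y' = y →
          (Point.some x' y' h'' : (freyBar P).toAffine.Point) = Point.some x y h := by
        intro x' y' h'' hx' hy'
        subst hx' hy'
        rfl
      rw [aux _ _ h' hx hy, sub_self]
      exact inE1_zero P A
    · rw [hsub]
      exact hX

/-- **S13, ingredient I5 (core form).**  `N` is a Galois-stable cyclic subgroup of `E[p]`
generated by `n₀ ≠ 0`.  Then either all inertia groups above `p` fix `N` pointwise, or all of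
them act trivially on `E[p]/N`. -/
theorem at_p_core (hNV : NodeValStmt') (P : FreyPackage)
    (hF : ∃ F : Polynomial ℤ, F ≠ 0 ∧ ¬ ((P.p : ℤ) ^ 2 ∣ F.leadingCoeff) ∧
      ∀ (x y : Qb) (h : (freyBar P).toAffine.Nonsingular x y),
        P.p • (Point.some x y h : (freyBar P).toAffine.Point) = 0 → Polynomial.aeval x F = 0)
    (N : Submodule (ZMod P.p) (Vp P)) (hNst : WeierstrassCurve.Affine.Point.IsGaloisStable ℚ N)
    (hline : ∃ n₀ ∈ N, n₀ ≠ 0 ∧ ∀ w ∈ N, ∃ k : ℕ, w = k • n₀) :
    (∀ A : ValuationSubring Qb, A.LiesOverPrime P.p →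
      ∀ σ ∈ A.inertiaSubgroupIn ℚ, ∀ x ∈ N, σ • x = x) ∨
    (∀ A : ValuationSubring Qb, A.LiesOverPrime P.p →
      ∀ σ ∈ A.inertiaSubgroupIn ℚ, ∀ x : Vp P, σ • x - x ∈ N) := by
  classical
  obtain ⟨F, hF0, hlc, hFroot⟩ := hF
  obtain ⟨n₀, hn₀N, hn₀0, hgen⟩ := hline
  have hq : P.p.Prime := P.pp
  -- the polynomial over `ℚ̄`
  have hinj : Function.Injective (Int.castRingHom Qb) := RingHom.injective_int _
  set F' : Polynomial Qb := F.map (Int.castRingHom Qb) with hF'
  have hF'0 : F' ≠ 0 := fun h => hF0 ((Polynomial.map_eq_zero_iff hinj).mp h)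
  have hrootmem : ∀ (x y : Qb) (h : (freyBar P).toAffine.Nonsingular x y),
      P.p • (Point.some x y h : (freyBar P).toAffine.Point) = 0 → F'.IsRoot x := by
    intro x y h ht
    have h1 := hFroot x y h ht
    rw [Polynomial.IsRoot, hF', Polynomial.eval_map]
    rw [Polynomial.aeval_def] at h1
    rw [← h1]
    rfl
  -- `x`-coordinates of the nonzero points of `N`
  let xs : Set Qb := {x | ∃ n ∈ N, ∃ (y : Qb) (h : (freyBar P).toAffine.Nonsingular x y),
    (n : ((P.freyCurve)⁄(AlgebraicClosure ℚ)).Point) = Point.some x y h}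
  set S : Finset Qb := F'.roots.toFinset.filter (fun x => x ∈ xs) with hS
  have hmemS : ∀ x, x ∈ S ↔ x ∈ xs := by
    intro x
    rw [hS, Finset.mem_filter]
    refine ⟨fun h => h.2, fun h => ⟨?_, h⟩⟩
    obtain ⟨n, -, y, hns, hn1⟩ := h
    rw [Multiset.mem_toFinset, Polynomial.mem_roots hF'0]
    apply hrootmem x y hns
    have := torsion_nsmul P n
    rw [hn1] at this
    exact this
  -- Galois stability
  have hxs : ∀ τ : Qb ≃ₐ[ℚ] Qb, ∀ x ∈ S, τ x ∈ S := by
    intro τ x hx
    rw [hmemS] at hx ⊢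
    obtain ⟨n, hn, y, hns, hn1⟩ := hx
    refine ⟨τ • n, hNst τ n hn, τ y,
      (WeierstrassCurve.Affine.baseChange_nonsingular (W := P.freyCurve)
        (f := τ.toAlgHom) τ.toAlgHom.injective x y).mpr hns, ?_⟩
    change Point.map τ.toAlgHom (n : ((P.freyCurve)⁄(AlgebraicClosure ℚ)).Point) = _
    rw [hn1]
    rfl
  set g : Polynomial Qb := ∏ x ∈ S, (Polynomial.X - Polynomial.C x) with hg
  have hrat : ∀ k, ∃ r : ℚ, algebraMap ℚ Qb r = g.coeff k :=
    fun k => coeff_prod_X_sub_C_rational S hxs k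
  -- the generator as a point
  have hn₀pt : (n₀ : ((P.freyCurve)⁄(AlgebraicClosure ℚ)).Point) ≠ 0 := by
    intro h
    exact hn₀0 (Subtype.ext h)
  -- all or nothing
  have hall : ∀ A : ValuationSubring Qb, A.LiesOverPrime P.p →
      InE1 P A (n₀ : ((P.freyCurve)⁄(AlgebraicClosure ℚ)).Point) →
      ∀ n ∈ N, InE1 P A (n : ((P.freyCurve)⁄(AlgebraicClosure ℚ)).Point) := by
    intro A hA hE n hn
    obtain ⟨k, rfl⟩ := hgen n hn
    exact inE1_nsmul P A hA hE k
  have hnone : ∀ A : ValuationSubring Qb, A.LiesOverPrime P.p →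
      ¬ InE1 P A (n₀ : ((P.freyCurve)⁄(AlgebraicClosure ℚ)).Point) →
      ∀ n ∈ N, InE1 P A (n : ((P.freyCurve)⁄(AlgebraicClosure ℚ)).Point) → n = 0 := by
    intro A hA hE n hn hnE
    by_contra hn0
    obtain ⟨k, rfl⟩ := hgen n hn
    have hp0 : P.p • n₀ = 0 := Subtype.ext (torsion_nsmul P n₀)
    obtain ⟨k', hk'⟩ := exists_nsmul_inverse hq hp0 hn0
    apply hE
    have h2 := inE1_nsmul P A hA hnE k'
    have h3 : (n₀ : ((P.freyCurve)⁄(AlgebraicClosure ℚ)).Point)
        = k' • ((k • n₀ : Vp P) : ((P.freyCurve)⁄(AlgebraicClosure ℚ)).Point) := by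
      conv_lhs => rw [← hk']
      rfl
    rw [h3]
    exact h2
  -- valuations of the `x`-coordinates
  have hS_gt : ∀ A : ValuationSubring Qb, A.LiesOverPrime P.p →
      InE1 P A (n₀ : ((P.freyCurve)⁄(AlgebraicClosure ℚ)).Point) →
      ∀ x ∈ S, 1 < A.valuation x := by
    intro A hA hE x hx
    obtain ⟨n, hn, y, hns, hn1⟩ := (hmemS x).mp hx
    have := hall A hA hE n hn
    rw [hn1] at this
    exact this
  have hS_le : ∀ A : ValuationSubring Qb, A.LiesOverPrime P.p →
      ¬ InE1 P A (n₀ : ((P.freyCurve)⁄(AlgebraicClosure ℚ)).Point) →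
      ∀ x ∈ S, A.valuation x ≤ 1 := by
    intro A hA hE x hx
    obtain ⟨n, hn, y, hns, hn1⟩ := (hmemS x).mp hx
    by_contra hcon
    have hgt : 1 < A.valuation x := not_le.mp hcon
    have hnE : InE1 P A (n : ((P.freyCurve)⁄(AlgebraicClosure ℚ)).Point) := by
      rw [hn1]; exact hgt
    have hn0 := hnone A hA hE n hn hnE
    rw [hn0] at hn1
    exact Point.some_ne_zero hns hn1.symm
  -- `S` is nonempty
  have hSne : S.Nonempty := by
    rcases hpt : (n₀ : ((P.freyCurve)⁄(AlgebraicClosure ℚ)).Point) with _ | ⟨x₀, y₀, h₀⟩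
    · exact absurd hpt hn₀pt
    · exact ⟨x₀, (hmemS x₀).mpr ⟨n₀, hn₀N, y₀, h₀, hpt⟩⟩
  -- the constant term
  have hcoeff0 : ∀ A : ValuationSubring Qb, A.valuation (g.coeff 0) = ∏ x ∈ S, A.valuation x := by
    intro A
    rw [Polynomial.coeff_zero_eq_eval_zero, hg, Polynomial.eval_prod, map_prod]
    refine Finset.prod_congr rfl fun x _ => ?_
    rw [Polynomial.eval_sub, Polynomial.eval_X, Polynomial.eval_C, zero_sub, Valuation.map_neg]
  have hE_iff : ∀ A : ValuationSubring Qb, A.LiesOverPrime P.p →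
      (InE1 P A (n₀ : ((P.freyCurve)⁄(AlgebraicClosure ℚ)).Point) ↔
        1 < A.valuation (g.coeff 0)) := by
    intro A hA
    rw [hcoeff0 A]
    constructor
    · intro hE
      obtain ⟨x₁, hx₁⟩ := hSne
      rw [← Finset.mul_prod_erase S _ hx₁]
      have h1 : 1 < A.valuation x₁ := hS_gt A hA hE x₁ hx₁
      have h2 : 1 ≤ ∏ x ∈ S.erase x₁, A.valuation x :=
        Finset.one_le_prod' fun x hx => (hS_gt A hA hE x (Finset.mem_of_mem_erase hx)).le
      calc (1 : A.ValueGroup) < A.valuation x₁ := h1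
        _ = A.valuation x₁ * 1 := (mul_one _).symm
        _ ≤ A.valuation x₁ * ∏ x ∈ S.erase x₁, A.valuation x := by gcongr
    · intro hgt
      by_contra hE
      have : ∏ x ∈ S, A.valuation x ≤ 1 := Finset.prod_le_one' (hS_le A hA hE)
      exact absurd hgt (not_lt.mpr this)
  -- uniformity over the places above `p`
  have hvp : ∀ A : ValuationSubring Qb, A.LiesOverPrime P.p →
      A.valuation (P.p : Qb) < 1 ∧ 0 < A.valuation (P.p : Qb) := by
    intro A hA
    refine ⟨(ValuationSubring.mem_nonunits_iff (A := A)).mp hA, ?_⟩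
    exact (Valuation.pos_iff _).mpr (Nat.cast_ne_zero.mpr hq.ne_zero)
  have huniform : (∃ A : ValuationSubring Qb, A.LiesOverPrime P.p ∧
      InE1 P A (n₀ : ((P.freyCurve)⁄(AlgebraicClosure ℚ)).Point)) →
      ∀ A : ValuationSubring Qb, A.LiesOverPrime P.p →
        InE1 P A (n₀ : ((P.freyCurve)⁄(AlgebraicClosure ℚ)).Point) := by
    rintro ⟨A₁, hA₁, hE₁⟩ A hA
    obtain ⟨r, hr⟩ := hrat 0
    have h1 : 1 < A₁.valuation (g.coeff 0) := (hE_iff A₁ hA₁).mp hE₁
    have hr0 : r ≠ 0 := by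
      rintro rfl
      rw [map_zero] at hr
      rw [← hr, map_zero] at h1
      exact absurd h1 (not_lt.mpr zero_le_one)
    obtain ⟨j, hj⟩ := exists_zpow_val_rat hq hr0
    have hjneg : j < 0 := by
      by_contra hcon
      have hj0 : 0 ≤ j := not_lt.mp hcon
      have h2 := hj A₁ hA₁
      rw [hr] at h2
      rw [h2] at h1
      have := zpow_le_one₀ (hvp A₁ hA₁).2 (hvp A₁ hA₁).1.le hj0
      exact absurd h1 (not_lt.mpr this)
    rw [hE_iff A hA, ← hr, hj A hA]
    exact one_lt_zpow_of_neg₀ (hvp A hA).2 (hvp A hA).1 hjneg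
  -- the Newton polygon argument
  have hNewton : ∀ A : ValuationSubring Qb, A.LiesOverPrime P.p →
      InE1 P A (n₀ : ((P.freyCurve)⁄(AlgebraicClosure ℚ)).Point) →
      ∀ T : Vp P, InE1 P A (T : ((P.freyCurve)⁄(AlgebraicClosure ℚ)).Point) → T ∈ N := by
    intro A hA hE T hT
    set w := A.valuation (P.p : Qb) with hw
    have hw1 : w < 1 := (hvp A hA).1
    have hw0 : w ≠ 0 := (hvp A hA).2.ne'
    have hint : ∀ k, A.valuation (F'.coeff k) ≤ 1 := by
      intro k
      rw [hF', Polynomial.coeff_map]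
      exact val_int_le_one A _
    have hwlc : w ≤ A.valuation F'.leadingCoeff := by
      rw [hF', Polynomial.leadingCoeff_map_of_injective hinj]
      change w ≤ A.valuation ((F.leadingCoeff : ℤ) : Qb)
      by_cases hdvd : (P.p : ℤ) ∣ F.leadingCoeff
      · obtain ⟨c', hc'⟩ := hdvd
        have hc'n : ¬ (P.p : ℤ) ∣ c' := by
          rintro ⟨c'', rfl⟩
          apply hlc
          rw [hc']
          exact ⟨c'', by ring⟩
        rw [hc']
        push_cast
        rw [map_mul, valuation_intCast_eq_one hq hA hc'n, mul_one]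
      · rw [valuation_intCast_eq_one hq hA hdvd]
        exact hw1.le
    set R : Finset Qb := F'.roots.toFinset.filter (fun x => 1 < A.valuation x) with hR
    have hsub : S ⊆ R := by
      intro x hx
      rw [hR, Finset.mem_filter]
      exact ⟨(Finset.mem_filter.mp hx).1, hS_gt A hA hE x hx⟩
    have hRroot : ∀ x ∈ R, F'.IsRoot x ∧ 1 < A.valuation x := by
      intro x hx
      rw [hR, Finset.mem_filter, Multiset.mem_toFinset, Polynomial.mem_roots hF'0] at hx
      exact hx
    have hg0 : g ≠ 0 := (Polynomial.monic_prod_X_sub_C (fun x : Qb => x) S).ne_zero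
    have hgdeg : g.natDegree = S.card :=
      Polynomial.natDegree_finsetProd_X_sub_C_eq_card S (fun x : Qb => x)
    have hcoef : ∀ k, g.coeff k ≠ 0 → ∃ j : ℤ, A.valuation (g.coeff k) = w ^ j := by
      intro k hk
      obtain ⟨r, hr⟩ := hrat k
      have hr0 : r ≠ 0 := by
        rintro rfl
        rw [map_zero] at hr
        exact hk hr.symm
      obtain ⟨j, hj⟩ := exists_zpow_val_rat hq hr0
      exact ⟨j, by rw [← hr, hj A hA]⟩
    have hN' : ∀ x ∈ S, 1 ≤ w * A.valuation x ^ S.card := by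
      intro x hx
      have hroot : g.IsRoot x := by
        rw [Polynomial.IsRoot, hg, Polynomial.eval_prod]
        exact Finset.prod_eq_zero hx (by simp)
      have := one_le_mul_pow_of_root A.valuation hg0 (hS_gt A hA hE x hx) hroot hw0 hw1 hcoef
      rwa [hgdeg] at this
    have hSR : S = R := eq_of_newton A.valuation hF'0 hint hwlc hsub hSne hRroot hN'
    -- conclude
    obtain ⟨T, hTmem⟩ := T
    have hTt : P.p • T = 0 := torsion_nsmul P ⟨T, hTmem⟩
    change InE1 P A T at hT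
    cases T with
    | zero =>
      have : (⟨Point.zero, hTmem⟩ : Vp P) = 0 := Subtype.ext rfl
      rw [this]
      exact N.zero_mem
    | some x y h =>
      have hxR : x ∈ R := by
        rw [hR, Finset.mem_filter, Multiset.mem_toFinset, Polynomial.mem_roots hF'0]
        exact ⟨hrootmem x y h hTt, hT⟩
      rw [← hSR, hmemS] at hxR
      obtain ⟨n, hn, y', hns, hn1⟩ := hxR
      rcases Y_eq_of_X_eq h.1 hns.1 rfl with hy | hy
      · have : (⟨Point.some x y h, hTmem⟩ : Vp P) = n := by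
          apply Subtype.ext
          rw [hn1]
          subst hy
          rfl
        rw [this]
        exact hn
      · have : (⟨Point.some x y h, hTmem⟩ : Vp P) = -n := by
          apply Subtype.ext
          change Point.some x y h = -(n : ((P.freyCurve)⁄(AlgebraicClosure ℚ)).Point)
          rw [hn1, Point.neg_some]
          subst hy
          rfl
        rw [this]
        exact N.neg_mem hn
  -- final case distinction
  by_cases hex : ∃ A : ValuationSubring Qb, A.LiesOverPrime P.p ∧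
      InE1 P A (n₀ : ((P.freyCurve)⁄(AlgebraicClosure ℚ)).Point)
  · right
    intro A hA σ hσ x
    exact hNewton A hA (huniform hex A hA) (σ • x - x) (inE1_smul_sub hNV P A hA σ hσ x)
  · left
    intro A hA σ hσ x hx
    have hE : ¬ InE1 P A (n₀ : ((P.freyCurve)⁄(AlgebraicClosure ℚ)).Point) :=
      fun h => hex ⟨A, hA, h⟩
    have hmem : σ • x - x ∈ N := N.sub_mem (hNst σ x hx) hx
    have h0 := hnone A hA hE (σ • x - x) hmem (inE1_smul_sub hNV P A hA σ hσ x)
    exact sub_eq_zero.mp h0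

/-- A proper nonzero submodule of `E[p]` is cyclic when `#E[p] ≤ p²`. -/
theorem exists_generator_of_card_le (P : FreyPackage) (hfin : Finite (Vp P))
    (hcard : Nat.card (Vp P) ≤ P.p ^ 2) (N : Submodule (ZMod P.p) (Vp P)) (h0 : N ≠ ⊥)
    (h1 : N ≠ ⊤) : ∃ n₀ ∈ N, n₀ ≠ 0 ∧ ∀ w ∈ N, ∃ k : ℕ, w = k • n₀ := by
  have : Fact P.p.Prime := ⟨P.pp⟩
  have : Module.Finite (ZMod P.p) (Vp P) := Module.Finite.of_finite
  have hV : Module.finrank (ZMod P.p) (Vp P) ≤ 2 := by
    have h := Module.natCard_eq_pow_finrank (K := ZMod P.p) (V := Vp P)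
    rw [h, Nat.card_zmod] at hcard
    exact (Nat.pow_le_pow_iff_right P.pp.one_lt).mp hcard
  have hlt : Module.finrank (ZMod P.p) N < Module.finrank (ZMod P.p) (Vp P) :=
    Submodule.finrank_lt h1
  have hpos : 0 < Module.finrank (ZMod P.p) N := by
    rw [Nat.pos_iff_ne_zero]
    intro h
    exact h0 (Submodule.finrank_eq_zero.mp h)
  have hN1 : Module.finrank (ZMod P.p) N = 1 := by omega
  obtain ⟨n₀, hn₀, hn₀0⟩ := Submodule.exists_mem_ne_zero_of_ne_bot h0
  refine ⟨n₀, hn₀, hn₀0, fun w hw => ?_⟩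
  have hn0' : (⟨n₀, hn₀⟩ : N) ≠ 0 := fun h => hn₀0 (congrArg Subtype.val h)
  obtain ⟨c, hc⟩ := (finrank_eq_one_iff_of_nonzero' (⟨n₀, hn₀⟩ : N) hn0').mp hN1 ⟨w, hw⟩
  refine ⟨c.val, ?_⟩
  have hc' : c • n₀ = w := congrArg Subtype.val hc
  rw [← hc', ← Nat.cast_smul_eq_nsmul (ZMod P.p) c.val n₀, ZMod.natCast_zmod_val]

/-- **S13, ingredient I5**, in the shape of `Ingredients.at_p` of `helper13`'s skeleton, with
`#E[p] ≤ p²`. -/
theorem at_p_of_card_le (hNV : NodeValStmt') (P : FreyPackage)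
    (hF : ∃ F : Polynomial ℤ, F ≠ 0 ∧ ¬ ((P.p : ℤ) ^ 2 ∣ F.leadingCoeff) ∧
      ∀ (x y : Qb) (h : (freyBar P).toAffine.Nonsingular x y),
        P.p • (Point.some x y h : (freyBar P).toAffine.Point) = 0 → Polynomial.aeval x F = 0)
    (hfin : Finite (Vp P)) (hcard : Nat.card (Vp P) ≤ P.p ^ 2) :
    ∀ N : Submodule (ZMod P.p) (Vp P), WeierstrassCurve.Affine.Point.IsGaloisStable ℚ N →
      N ≠ ⊥ → N ≠ ⊤ →
      (∀ A : ValuationSubring (AlgebraicClosure ℚ), A.LiesOverPrime P.p →
        ∀ σ ∈ A.inertiaSubgroupIn ℚ, ∀ x ∈ N, σ • x = x) ∨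
      (∀ A : ValuationSubring (AlgebraicClosure ℚ), A.LiesOverPrime P.p →
        ∀ σ ∈ A.inertiaSubgroupIn ℚ, ∀ x : Vp P, σ • x - x ∈ N) :=
  fun N hN h0 h1 =>
    at_p_core hNV P hF N hN (exists_generator_of_card_le P hfin hcard N h0 h1)

/-- **S13, ingredient I5**, exactly `Ingredients.at_p` of `helper13`'s skeleton, from
`#E[p] = p²`. -/
theorem at_p (hNV : NodeValStmt') (P : FreyPackage)
    (hF : ∃ F : Polynomial ℤ, F ≠ 0 ∧ ¬ ((P.p : ℤ) ^ 2 ∣ F.leadingCoeff) ∧
      ∀ (x y : Qb) (h : (freyBar P).toAffine.Nonsingular x y),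
        P.p • (Point.some x y h : (freyBar P).toAffine.Point) = 0 → Polynomial.aeval x F = 0)
    (hcard : Nat.card (Vp P) = P.p ^ 2) :
    ∀ N : Submodule (ZMod P.p) (Vp P), WeierstrassCurve.Affine.Point.IsGaloisStable ℚ N →
      N ≠ ⊥ → N ≠ ⊤ →
      (∀ A : ValuationSubring (AlgebraicClosure ℚ), A.LiesOverPrime P.p →
        ∀ σ ∈ A.inertiaSubgroupIn ℚ, ∀ x ∈ N, σ • x = x) ∨
      (∀ A : ValuationSubring (AlgebraicClosure ℚ), A.LiesOverPrime P.p →
        ∀ σ ∈ A.inertiaSubgroupIn ℚ, ∀ x : Vp P, σ • x - x ∈ N) := by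
  have hfin : Finite (Vp P) := Nat.finite_of_card_ne_zero (by
    rw [hcard]; exact pow_ne_zero _ P.pp.ne_zero)
  exact at_p_of_card_le hNV P hF hfin hcard.le

end Fermat.Agent.S13.helper1979
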