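import Mathlib
import Fermat.Prelude.Def_FLTPrelim_Ramification
import Fermat.Agent.Lib.helper54_Frobenius

set_option autoImplicit false

/-!
# S13, ingredient I5: places of `ℚ̄` over a prime (helper2105)

* `exists_smul_prime_eq`: the primes of `ℤ̄` cut out by two valuation subrings of `ℚ̄` over the
  same prime `ℓ` are Galois-conjugate;
* `map_inv_mem_of_smul_prime_eq`: transport of membership along such a conjugation;
* `prod_mem_range_of_stable`: the product of a Galois-stable finite subset of `ℚ̄` is rational;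
* `valuation_rat_eq_zpow`: the valuation of a nonzero rational is an integral power of the
  valuation of `ℓ`.
-/

namespace Fermat.Agent.S13.helper2105

open Fermat.Agent.Lib.helper54
open scoped Pointwise

attribute [local instance] isAlgebraic_Qbar isAlgClosure_Qbar isGalois_Qbar isIntegral_Qbar

local notation "Qb" => AlgebraicClosure ℚ
local notation "GQ" => (AlgebraicClosure ℚ ≃ₐ[ℚ] AlgebraicClosure ℚ)
local notation "Zb" => integralClosure ℤ (AlgebraicClosure ℚ)

/-- The rational integers in the prime cut out by a valuation subring over `ℓ` are the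
multiples of `ℓ`. -/
theorem intCast_mem_primeOfValuationSubring_iff {ℓ : ℕ} (hℓ : ℓ.Prime)
    (A : ValuationSubring Qb) (hA : A.LiesOverPrime ℓ) (m : ℤ) :
    ((m : ℤ) : Zb) ∈ primeOfValuationSubring A ↔ (ℓ : ℤ) ∣ m := by
  constructor
  · intro h
    by_contra hm
    exact intCast_not_mem_primeOfValuationSubring hℓ A hA m hm h
  · rintro ⟨k, rfl⟩
    have h := (primeOfValuationSubring A).mul_mem_right ((k : ℤ) : Zb)
      (natCast_mem_primeOfValuationSubring A hA)
    have e : (((ℓ : ℤ) * k : ℤ) : Zb) = ((ℓ : ℕ) : Zb) * ((k : ℤ) : Zb) := by push_cast; ring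
    rw [e]; exact h

/-- The primes cut out by two valuation subrings over the same prime are conjugate. -/
theorem exists_smul_prime_eq {ℓ : ℕ} (hℓ : ℓ.Prime) (A A' : ValuationSubring Qb)
    (hA : A.LiesOverPrime ℓ) (hA' : A'.LiesOverPrime ℓ) :
    ∃ τ : GQ, primeOfValuationSubring A' = τ • primeOfValuationSubring A := by
  classical
  let : TopologicalSpace Zb := ⊥
  have : DiscreteTopology Zb := ⟨rfl⟩
  have : ContinuousSMul GQ Zb := by
    rw [continuousSMul_iff_stabilizer_isOpen]
    intro z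
    have : (MulAction.stabilizer GQ z : Set GQ) = MulAction.stabilizer GQ (z : Qb) := by
      ext g
      simp [Subtype.ext_iff]
    rw [this]
    exact stabilizer_isOpen_of_isIntegral _
  have := isInvariant_Zbar
  apply Algebra.IsInvariant.exists_smul_of_under_eq_of_profinite (A := ℤ) (G := GQ)
  ext m
  rw [Ideal.under_def, Ideal.mem_comap, Ideal.mem_comap]
  have e : algebraMap ℤ Zb m = ((m : ℤ) : Zb) := by simp
  rw [e, intCast_mem_primeOfValuationSubring_iff hℓ A hA,
    intCast_mem_primeOfValuationSubring_iff hℓ A' hA']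

/-- Transport of membership along a conjugation of primes. -/
theorem map_inv_mem_of_smul_prime_eq {ℓ : ℕ} (hℓ : ℓ.Prime) (A A' : ValuationSubring Qb)
    (hA' : A'.LiesOverPrime ℓ) (τ : GQ)
    (hτ : primeOfValuationSubring A' = τ • primeOfValuationSubring A) (x : Qb) (hx : x ∈ A') :
    τ⁻¹ x ∈ A := by
  obtain ⟨a, b, hb, hab⟩ := exists_frac_of_mem_valuationSubring hℓ A' hA' x hx
  have hτb : τ⁻¹ • b ∉ primeOfValuationSubring A := by
    intro h
    apply hb
    rw [hτ]
    have := (Ideal.smul_mem_pointwise_smul_iff (a := τ) (S := primeOfValuationSubring A)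
      (x := τ⁻¹ • b)).mpr h
    rwa [smul_inv_smul] at this
  have h1 : τ⁻¹ x * ((τ⁻¹ • b : Zb) : Qb) = ((τ⁻¹ • a : Zb) : Qb) := by
    have := congrArg (⇑(τ⁻¹ : GQ)) hab
    rwa [map_mul] at this
  have hτaA : ((τ⁻¹ • a : Zb) : Qb) ∈ A := mem_valuationSubring_of_isIntegral A _ (τ⁻¹ • a).2
  rw [mem_primeOfValuationSubring, ValuationSubring.mem_nonunits_iff_or] at hτb
  push Not at hτb
  obtain ⟨hne, hunit⟩ := hτb
  have h2 : τ⁻¹ x = ((τ⁻¹ • a : Zb) : Qb) * (((τ⁻¹ • b : Zb) : Qb))⁻¹ := by
    rw [← h1, mul_assoc, mul_inv_cancel₀ hne, mul_one]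
  rw [h2]
  exact A.mul_mem _ _ hτaA hunit

/-- The product of a Galois-stable finite subset of `ℚ̄` is rational. -/
theorem prod_mem_range_of_stable (S : Finset Qb) (hS : ∀ σ : GQ, ∀ s ∈ S, σ s ∈ S) :
    ∏ s ∈ S, s ∈ Set.range (algebraMap ℚ Qb) := by
  classical
  rw [InfiniteGalois.mem_range_algebraMap_iff_fixed]
  intro σ
  rw [map_prod]
  have himg : S.image σ = S := by
    apply Finset.eq_of_subset_of_card_le
    · intro t ht
      obtain ⟨s, hs, rfl⟩ := Finset.mem_image.mp ht
      exact hS σ s hs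
    · rw [Finset.card_image_of_injective _ σ.injective]
  calc ∏ s ∈ S, σ s = ∏ t ∈ S.image σ, t :=
        (Finset.prod_image (f := fun t : Qb => t) (g := σ) (s := S)
          (fun _ _ _ _ h => σ.injective h)).symm
    _ = ∏ s ∈ S, s := by rw [himg]

/-- The valuation of a nonzero natural number is a power of the valuation of `ℓ`. -/
theorem valuation_natCast_eq_pow {ℓ : ℕ} (hℓ : ℓ.Prime) (A : ValuationSubring Qb)
    (hA : A.LiesOverPrime ℓ) (m : ℕ) (hm : m ≠ 0) :
    ∃ k : ℕ, A.valuation (m : Qb) = A.valuation (ℓ : Qb) ^ k := by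
  obtain ⟨e, n', hn', rfl⟩ := Nat.exists_eq_pow_mul_and_not_dvd hm ℓ hℓ.ne_one
  refine ⟨e, ?_⟩
  have h1 : A.valuation ((n' : ℤ) : Qb) = 1 := by
    by_contra hne
    have hle : A.valuation ((n' : ℤ) : Qb) ≤ 1 :=
      (A.valuation_le_one_iff _).2 (intCast_mem A _)
    have hlt : A.valuation ((n' : ℤ) : Qb) < 1 := lt_of_le_of_ne hle hne
    have hmem : (((n' : ℤ) : Zb)) ∈ primeOfValuationSubring A := by
      rw [mem_primeOfValuationSubring, ValuationSubring.mem_nonunits_iff]
      have : ((((n' : ℤ) : Zb)) : Qb) = ((n' : ℤ) : Qb) := by simp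
      rw [this]; exact hlt
    have := (intCast_mem_primeOfValuationSubring_iff hℓ A hA _).mp hmem
    exact hn' (by exact_mod_cast this)
  have h1' : A.valuation (n' : Qb) = 1 := by
    have : ((n' : ℤ) : Qb) = (n' : Qb) := by simp
    rw [← this]; exact h1
  rw [Nat.cast_mul, Nat.cast_pow, map_mul, map_pow, h1', mul_one]

/-- The valuation of a nonzero rational is an integral power of the valuation of `ℓ`. -/
theorem valuation_rat_eq_zpow {ℓ : ℕ} (hℓ : ℓ.Prime) (A : ValuationSubring Qb)
    (hA : A.LiesOverPrime ℓ) (w : ℚ) (hw : w ≠ 0) :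
    ∃ n : ℤ, A.valuation (algebraMap ℚ Qb w) = A.valuation (ℓ : Qb) ^ n := by
  have hnum : w.num.natAbs ≠ 0 := by
    rw [Ne, Int.natAbs_eq_zero, Rat.num_eq_zero]; exact hw
  obtain ⟨k₁, hk₁⟩ := valuation_natCast_eq_pow hℓ A hA w.num.natAbs hnum
  obtain ⟨k₂, hk₂⟩ := valuation_natCast_eq_pow hℓ A hA w.den w.den_ne_zero
  refine ⟨(k₁ : ℤ) - k₂, ?_⟩
  have hℓ0 : A.valuation (ℓ : Qb) ≠ 0 := by
    rw [Ne, map_eq_zero]
    exact_mod_cast hℓ.ne_zero
  have e : algebraMap ℚ Qb w = ((w.num : ℤ) : Qb) / ((w.den : ℕ) : Qb) := by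
    conv_lhs => rw [← Rat.num_div_den w]
    rw [map_div₀, map_intCast, map_natCast]
  have hnumv : A.valuation ((w.num : ℤ) : Qb) = A.valuation ((w.num.natAbs : ℕ) : Qb) := by
    rcases Int.natAbs_eq w.num with h | h
    · conv_lhs => rw [h]
      simp
    · conv_lhs => rw [h]
      simp
  rw [e, map_div₀, hnumv, hk₁, hk₂, zpow_sub₀ hℓ0, zpow_natCast, zpow_natCast]

end Fermat.Agent.S13.helper2105
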