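import Fermat.Agent.S13.helper2105_AtPCoord
import Fermat.Agent.S13.helper2105_Places

set_option autoImplicit false

/-!
# S13, ingredient I5 (inertia at `p`) for curves with a Legendre-type model (helper2105)

`atP_legendre`: let `W/ℚ` have a change of variables `(2, r, 1, 0)` to a Legendre-type model
`Y² = X³ + a₂ X² + e w^p X` with `a₂² - 4 e w^p = d²`, `p ∤ d`, and let `F ∈ ℤ[X]` with leading
coefficient `± p` kill the `x`-coordinates of all nonzero `p`-torsion points.  Then for every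
Galois-stable cyclic subgroup `N` of `W[p](ℚ̄)`: either all inertia groups at places over `p`
fix `N` pointwise, or all of them act trivially on `W[p]/N`.
-/

namespace Fermat.Agent.S13.helper2105

open WeierstrassCurve WeierstrassCurve.Affine WeierstrassCurve.Affine.Point
open Fermat.Agent.S05.helper245 Fermat.Agent.S05.helper725 Fermat.Agent.S05
open Fermat.Agent.Lib.helper54

local notation "Qb" => AlgebraicClosure ℚ
local notation "GQ" => (AlgebraicClosure ℚ ≃ₐ[ℚ] AlgebraicClosure ℚ)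

section ValueGroup

variable {Γ₀ : Type*} [LinearOrderedCommGroupWithZero Γ₀]

theorem inv_le_zpow_of_one_lt {c : Γ₀} (hc0 : c ≠ 0) (hc : c < 1) {n : ℤ} (h : 1 < c ^ n) :
    c⁻¹ ≤ c ^ n := by
  have hcpos : 0 < c := lt_of_le_of_ne zero_le (Ne.symm hc0)
  rcases lt_or_ge n 0 with hn | hn
  · obtain ⟨m, rfl⟩ : ∃ m : ℕ, n = -((m : ℤ) + 1) := ⟨(-n - 1).toNat, by omega⟩
    have e : c ^ (-((m : ℤ) + 1)) = (c ^ (m + 1))⁻¹ := by
      rw [zpow_neg]; congr 1
      exact_mod_cast zpow_natCast c (m + 1)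
    rw [e, inv_le_inv₀ hcpos (pow_pos hcpos _)]
    exact pow_le_of_le_one zero_le hc.le (by omega)
  · exfalso
    obtain ⟨m, rfl⟩ : ∃ m : ℕ, n = (m : ℤ) := ⟨n.toNat, by omega⟩
    rw [zpow_natCast] at h
    exact absurd (pow_le_one₀ zero_le hc.le) (not_le.mpr h)

end ValueGroup

section Local

variable {W : WeierstrassCurve ℚ} {p : ℕ} {a₂ w d e r : ℤ}

/-- `p`-torsion of an element of the torsion submodule. -/
theorem nsmul_coe_torsion (x : Submodule.torsionBy ℤ (W⁄Qb).Point p) :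
    p • (x : (W⁄Qb).Point) = 0 := by
  have := (Submodule.mem_torsionBy_iff _ _).1 x.2
  rwa [natCast_zsmul] at this

/-- **(L)** An inertia element at a place over `p` moves every `p`-torsion point by a point of
the kernel of reduction. -/
theorem sub_mem_E1 (hp : p.Prime) (hp2 : p ≠ 2) (hw : w ≠ 0) (he : e = 1 ∨ e = -1)
    (hd : ¬ (p : ℤ) ∣ d) (hdisc : a₂ ^ 2 - 4 * (e * w ^ p) = d ^ 2)
    (hvc : IsVarChange W (legendreModel (a₂ : ℚ) ((e : ℚ) * (w : ℚ) ^ p)) 2 (r : ℚ) 1 0)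
    (A : ValuationSubring Qb) (hA : A.LiesOverPrime p) {σ : GQ}
    (hσ : σ ∈ A.inertiaSubgroupIn ℚ) (Q : (W⁄Qb).Point) (hpQ : p • Q = 0) :
    σ • Q = Q ∨ 1 < A.valuation (XL hvc (Q - σ • Q)) := by
  have hL := isLegCoord_XL hvc
  have h2 : A.valuation (2 : Qb) = 1 := helper2200.valuation_two_eq_one A hp hp2 hA
  have hva : A.valuation (algebraMap ℚ Qb (a₂ : ℚ)) ≤ 1 := by
    rw [map_intCast]; exact helper2200.valuation_intCast_le_one A a₂
  have hve : A.valuation ((e : ℤ) : Qb) = 1 := by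
    rcases he with rfl | rfl <;> simp
  have hb_eq : algebraMap ℚ Qb ((e : ℚ) * (w : ℚ) ^ p) = ((e : ℤ) : Qb) * ((w : ℤ) : Qb) ^ p := by
    simp
  have hvb : A.valuation (algebraMap ℚ Qb ((e : ℚ) * (w : ℚ) ^ p))
      = A.valuation ((w : ℤ) : Qb) ^ p := by
    rw [hb_eq, map_mul, map_pow, hve, one_mul]
  have hdisc' : A.valuation ((algebraMap ℚ Qb (a₂ : ℚ)) ^ 2
      - 4 * algebraMap ℚ Qb ((e : ℚ) * (w : ℚ) ^ p)) = 1 := by
    have e1 : (algebraMap ℚ Qb (a₂ : ℚ)) ^ 2 - 4 * algebraMap ℚ Qb ((e : ℚ) * (w : ℚ) ^ p)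
        = ((d : ℤ) : Qb) ^ 2 := by
      have h : (((a₂ ^ 2 - 4 * (e * w ^ p) : ℤ)) : Qb) = ((d ^ 2 : ℤ) : Qb) := by rw [hdisc]
      push_cast at h
      rw [map_mul, map_pow, map_intCast, map_intCast, map_intCast]
      exact h
    rw [e1, map_pow, helper2200.valuation_intCast_eq_one A hp hA hd, one_pow]
  have hs : ∀ u : Qb, A.valuation u ≤ 1 → A.valuation ((σ : Qb →+* Qb) u - u) < 1 :=
    fun u hu => helper2200.valuation_apply_sub_lt_one A hσ u hu
  have hsv : ∀ u : Qb, A.valuation ((σ : Qb →+* Qb) u) = A.valuation u :=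
    fun u => helper2200.valuation_apply A hσ u
  have hτ0 : ∀ Q : (W⁄Qb).Point, Q ≠ 0 → Point.map (W' := W) σ.toAlgHom Q ≠ 0 :=
    fun Q hQ => smul_ne_zero' σ Q hQ
  have hτX : ∀ Q : (W⁄Qb).Point, Q ≠ 0 →
      XL hvc (Point.map (W' := W) σ.toAlgHom Q) = (σ : Qb →+* Qb) (XL hvc Q) :=
    fun Q hQ => XL_smul hvc σ Q hQ
  have hτY : ∀ Q : (W⁄Qb).Point, Q ≠ 0 →
      YL hvc (Point.map (W' := W) σ.toAlgHom Q) = (σ : Qb →+* Qb) (YL hvc Q) :=
    fun Q hQ => YL_smul hvc σ Q hQ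
  have hodd : Odd p := hp.odd_of_ne_two hp2
  rw [algEquiv_smul_def]
  by_cases hpw : (p : ℤ) ∣ w
  · -- node case
    have hvw : A.valuation ((w : ℤ) : Qb) < 1 :=
      (helper2200.valuation_intCast_lt_one_iff A hp hA w).mpr hpw
    have hlt : A.valuation (algebraMap ℚ Qb ((e : ℚ) * (w : ℚ) ^ p)) < 1 := by
      rw [hvb]; exact pow_lt_one₀ zero_le hvw hp.ne_zero
    have he0 : (e : ℚ) ≠ 0 := by
      rcases he with rfl | rfl <;> norm_num
    have ha₄ : (e : ℚ) * (w : ℚ) ^ p ≠ 0 :=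
      mul_ne_zero he0 (pow_ne_zero _ (by exact_mod_cast hw))
    have hb0 : algebraMap ℚ Qb ((e : ℚ) * (w : ℚ) ^ p) ≠ 0 := by
      rw [Ne, map_eq_zero]; exact ha₄
    have hva1 : A.valuation (algebraMap ℚ Qb (a₂ : ℚ)) = 1 := by
      apply eq_of_sq_eq_sq'
      have h4b : A.valuation (4 * algebraMap ℚ Qb ((e : ℚ) * (w : ℚ) ^ p)) <
          A.valuation ((algebraMap ℚ Qb (a₂ : ℚ)) ^ 2
            - 4 * algebraMap ℚ Qb ((e : ℚ) * (w : ℚ) ^ p)) := by
        rw [hdisc', (A.valuation).map_mul]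
        calc A.valuation 4 * A.valuation (algebraMap ℚ Qb ((e : ℚ) * (w : ℚ) ^ p))
            ≤ 1 * A.valuation (algebraMap ℚ Qb ((e : ℚ) * (w : ℚ) ^ p)) := by
              gcongr; exact val_four_le_one _
          _ = A.valuation (algebraMap ℚ Qb ((e : ℚ) * (w : ℚ) ^ p)) := one_mul _
          _ < 1 := hlt
      have e' : (algebraMap ℚ Qb (a₂ : ℚ)) ^ 2 =
          ((algebraMap ℚ Qb (a₂ : ℚ)) ^ 2 - 4 * algebraMap ℚ Qb ((e : ℚ) * (w : ℚ) ^ p)) +
            4 * algebraMap ℚ Qb ((e : ℚ) * (w : ℚ) ^ p) := by ring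
      rw [← (A.valuation).map_pow, e', (A.valuation).map_add_eq_of_lt_left h4b, hdisc', one_pow]
    obtain ⟨β, hβ⟩ := IsAlgClosed.exists_pow_nat_eq (algebraMap ℚ Qb (a₂ : ℚ)) (n := 2)
      (by norm_num)
    obtain ⟨T, hT0, hTX, hTY⟩ := exists_T hvc ha₄
    exact node_sub A.valuation hL hva1 hlt hb0 h2 hβ hT0 hTX hTY hp hp2
      (Point.map (W' := W) σ.toAlgHom) hτ0 (σ : Qb →+* Qb) hτX hτY hs hsv
      (d := ((w : ℤ) : Qb)) (map_intCast σ w) hvb hpQ
  · -- good case
    have hvw : A.valuation ((w : ℤ) : Qb) = 1 :=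
      helper2200.valuation_intCast_eq_one A hp hA hpw
    have hb1 : A.valuation (algebraMap ℚ Qb ((e : ℚ) * (w : ℚ) ^ p)) = 1 := by
      rw [hvb, hvw, one_pow]
    exact good_sub A.valuation hL hva hb1 hdisc' h2 hodd
      (Point.map (W' := W) σ.toAlgHom) hτ0 (fun u => (σ : Qb →+* Qb) u) hτX hτY hs hsv hpQ

end Local

section Main

variable {W : WeierstrassCurve ℚ} {p : ℕ} {a₂ w d e r : ℤ}

/-- The coercion of the Galois action on torsion points. -/
theorem coe_smul_torsion (σ : GQ) (x : Submodule.torsionBy ℤ (W⁄Qb).Point p) :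
    ((σ • x : Submodule.torsionBy ℤ (W⁄Qb).Point p) : (W⁄Qb).Point) = σ • (x : (W⁄Qb).Point) :=
  rfl

theorem smul_nsmul_point (σ : GQ) (k : ℕ) (Q : (W⁄Qb).Point) : σ • (k • Q) = k • (σ • Q) := by
  rw [algEquiv_smul_def, algEquiv_smul_def, map_nsmul]

/-- In a cyclic group of prime order every nonzero element is a generator. -/
theorem line_gen (hp : p.Prime) {N : Submodule (ZMod p) (Submodule.torsionBy ℤ (W⁄Qb).Point p)}
    (hline : ∃ Q₀ ∈ N, Q₀ ≠ 0 ∧ ∀ R ∈ N, ∃ k : ℕ, R = k • Q₀)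
    {Q : Submodule.torsionBy ℤ (W⁄Qb).Point p} (hQ : Q ∈ N) (hQ0 : Q ≠ 0) :
    ∀ R ∈ N, ∃ k : ℕ, R = k • Q := by
  obtain ⟨Q₀, hQ₀N, hQ₀0, hgen⟩ := hline
  obtain ⟨k, hk⟩ := hgen Q hQ
  have hpQ₀ : p • Q₀ = 0 := Subtype.ext (by
    rw [Submodule.coe_smul_of_tower]; exact nsmul_coe_torsion Q₀)
  have hkp : ¬ p ∣ k := by
    rintro ⟨m, rfl⟩
    apply hQ0
    rw [hk, mul_nsmul, hpQ₀, nsmul_zero]
  have hcop : Nat.Coprime k p := ((Nat.Prime.coprime_iff_not_dvd hp).mpr hkp).symm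
  obtain ⟨m, -, hm⟩ := Nat.exists_mul_mod_eq_one_of_coprime hcop hp.one_lt
  have hback : m • Q = Q₀ := by
    have h1' : k * m = p * (k * m / p) + 1 := by
      have := Nat.div_add_mod (k * m) p
      rw [hm] at this
      exact this.symm
    rw [hk, ← mul_nsmul, h1', add_nsmul, one_nsmul, mul_nsmul, hpQ₀, nsmul_zero, zero_add]
  intro R hR
  obtain ⟨j, hj⟩ := hgen R hR
  exact ⟨m * j, by rw [hj, ← hback, ← mul_nsmul]⟩

/-- **I5 for curves with a Legendre-type model.** -/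
theorem atP_legendre (hp : p.Prime) (hp2 : p ≠ 2) (hw : w ≠ 0) (he : e = 1 ∨ e = -1)
    (hd : ¬ (p : ℤ) ∣ d) (hdisc : a₂ ^ 2 - 4 * (e * w ^ p) = d ^ 2)
    (hvc : IsVarChange W (legendreModel (a₂ : ℚ) ((e : ℚ) * (w : ℚ) ^ p)) 2 (r : ℚ) 1 0)
    (F : Polynomial ℤ) (hlead : F.leadingCoeff.natAbs = p)
    (hroot : ∀ (x y : Qb) (h : (W⁄Qb).Nonsingular x y),
      p • (Point.some x y h : (W⁄Qb).Point) = 0 → Polynomial.aeval x F = 0)
    (N : Submodule (ZMod p) (Submodule.torsionBy ℤ (W⁄Qb).Point p)) (hN : IsGaloisStable ℚ N)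
    (hline : ∃ Q₀ ∈ N, Q₀ ≠ 0 ∧ ∀ R ∈ N, ∃ k : ℕ, R = k • Q₀) :
    (∀ A : ValuationSubring Qb, A.LiesOverPrime p →
      ∀ σ ∈ A.inertiaSubgroupIn ℚ, ∀ x ∈ N, σ • x = x) ∨
    (∀ A : ValuationSubring Qb, A.LiesOverPrime p →
      ∀ σ ∈ A.inertiaSubgroupIn ℚ, ∀ x : Submodule.torsionBy ℤ (W⁄Qb).Point p,
        σ • x - x ∈ N) := by
  classical
  have hL := isLegCoord_XL hvc
  have hvr : ∀ A : ValuationSubring Qb, A.valuation (algebraMap ℚ Qb (r : ℚ)) ≤ 1 := by
    intro A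
    rw [map_intCast]; exact helper2200.valuation_intCast_le_one A r
  have hxx : ∀ Q : (W⁄Qb).Point, Q ≠ 0 →
      XL hvc Q = 4 * ptX Q + algebraMap ℚ Qb (r : ℚ) := fun Q hQ => XL_eq hvc Q hQ
  -- the case distinction
  let CaseA : ValuationSubring Qb → Prop := fun A =>
    ∃ Q ∈ N, Q ≠ 0 ∧ 1 < A.valuation (ptX (Q : (W⁄Qb).Point))
  -- uniformity of the case in `A`
  have hU : ∀ A A' : ValuationSubring Qb, A.LiesOverPrime p → A'.LiesOverPrime p →
      CaseA A → CaseA A' := by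
    rintro A A' hA hA' ⟨Q, hQN, hQ0, hQv⟩
    obtain ⟨τ, hτ⟩ := exists_smul_prime_eq hp A A' hA hA'
    have hQ0' : (Q : (W⁄Qb).Point) ≠ 0 := fun h => hQ0 (Subtype.ext h)
    refine ⟨τ • Q, hN τ Q hQN, ?_, ?_⟩
    · intro h
      have h' : τ • (Q : (W⁄Qb).Point) = 0 := congrArg Subtype.val h
      exact smul_ne_zero' τ _ hQ0' h'
    · rw [coe_smul_torsion, ptX_smul τ _ hQ0']
      by_contra hle
      have hmem : τ (ptX (Q : (W⁄Qb).Point)) ∈ A' :=
        (A'.valuation_le_one_iff _).mp (le_of_not_gt hle)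
      have := map_inv_mem_of_smul_prime_eq hp A A' hA' τ hτ _ hmem
      have e1 : τ⁻¹ (τ (ptX (Q : (W⁄Qb).Point))) = ptX (Q : (W⁄Qb).Point) := by
        show (τ⁻¹ * τ) (ptX (Q : (W⁄Qb).Point)) = _
        rw [inv_mul_cancel]; rfl
      rw [e1] at this
      exact absurd ((A.valuation_le_one_iff _).mpr this) (not_le.mpr hQv)
  -- Case B: inertia fixes `N` pointwise
  have hNA : ∀ A : ValuationSubring Qb, A.LiesOverPrime p → ¬ CaseA A →
      ∀ σ ∈ A.inertiaSubgroupIn ℚ, ∀ x ∈ N, σ • x = x := by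
    intro A hA hcase σ hσ x hx
    have h2 : A.valuation (2 : Qb) = 1 := helper2200.valuation_two_eq_one A hp hp2 hA
    rcases sub_mem_E1 hp hp2 hw he hd hdisc hvc A hA hσ (x : (W⁄Qb).Point)
      (nsmul_coe_torsion x) with h | h
    · exact Subtype.ext h
    · exfalso
      apply hcase
      have hD0 : (x : (W⁄Qb).Point) - σ • (x : (W⁄Qb).Point) ≠ 0 := by
        intro h0
        rw [h0, XL_zero, _root_.map_zero] at h
        exact absurd h (not_lt.mpr zero_le)
      refine ⟨x - σ • x, N.sub_mem hx (hN σ x hx), ?_, ?_⟩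
      · intro h0
        exact hD0 (congrArg Subtype.val h0)
      · have hcoe : ((x - σ • x : Submodule.torsionBy ℤ (W⁄Qb).Point p) : (W⁄Qb).Point)
            = (x : (W⁄Qb).Point) - σ • (x : (W⁄Qb).Point) := rfl
        rw [hcoe, val_eq_of_affine A.valuation h2 (hvr A) (hxx _ hD0) h]
        exact h
  -- Case A: inertia is trivial modulo `N`
  have hCA : ∀ A : ValuationSubring Qb, A.LiesOverPrime p → CaseA A →
      ∀ σ ∈ A.inertiaSubgroupIn ℚ, ∀ x : Submodule.torsionBy ℤ (W⁄Qb).Point p,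
        σ • x - x ∈ N := by
    rintro A hA ⟨Q, hQN, hQ0, hQv⟩ σ hσ x
    have h2 : A.valuation (2 : Qb) = 1 := helper2200.valuation_two_eq_one A hp hp2 hA
    have hgen := line_gen hp hline hQN hQ0
    set Qg : (W⁄Qb).Point := (Q : (W⁄Qb).Point) with hQg
    have hQg0 : Qg ≠ 0 := fun h => hQ0 (Subtype.ext h)
    have hpQg : p • Qg = 0 := nsmul_coe_torsion Q
    have hva : A.valuation (algebraMap ℚ Qb (a₂ : ℚ)) ≤ 1 := by
      rw [map_intCast]; exact helper2200.valuation_intCast_le_one A a₂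
    have hvb : A.valuation (algebraMap ℚ Qb ((e : ℚ) * (w : ℚ) ^ p)) ≤ 1 := by
      have : algebraMap ℚ Qb ((e : ℚ) * (w : ℚ) ^ p) = (((e * w ^ p : ℤ)) : Qb) := by
        push_cast; simp
      rw [this]; exact helper2200.valuation_intCast_le_one A _
    have hE : 1 < A.valuation (XL hvc Qg) := by
      rw [← val_eq_of_affine' A.valuation h2 (hvr A) (hxx _ hQg0) hQv]; exact hQv
    -- the set of `x`-coordinates of `N \ 0`
    set S : Finset Qb := (Finset.Icc 1 (p - 1)).image (fun k => ptX (k • Qg)) with hSdef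
    have hmodsmul : ∀ k : ℕ, (k % p) • Qg = k • Qg := by
      intro k
      conv_rhs => rw [← Nat.div_add_mod k p]
      rw [add_nsmul, mul_nsmul, hpQg, nsmul_zero, zero_add]
    have hS : ∀ s, s ∈ S ↔ ∃ k : ℕ, ¬ p ∣ k ∧ s = ptX (k • Qg) := by
      intro s
      rw [hSdef, Finset.mem_image]
      constructor
      · rintro ⟨k, hk, rfl⟩
        rw [Finset.mem_Icc] at hk
        exact ⟨k, Nat.not_dvd_of_pos_of_lt (by omega) (by have := hp.one_lt; omega), rfl⟩
      · rintro ⟨k, hk, rfl⟩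
        refine ⟨k % p, ?_, by rw [hmodsmul]⟩
        rw [Finset.mem_Icc]
        have h1 : k % p ≠ 0 := fun h => hk (Nat.dvd_of_mod_eq_zero h)
        have h2' : k % p < p := Nat.mod_lt _ hp.pos
        omega
    -- multiples of `Qg`
    have hmul : ∀ k : ℕ, ¬ p ∣ k → k • Qg ≠ 0 ∧ 1 < A.valuation (XL hvc (k • Qg)) ∧
        A.valuation (ptX (k • Qg)) = A.valuation (ptX Qg) := by
      intro k hk
      obtain ⟨hk0, hk1, hk2⟩ := E1_val_X_nsmul A.valuation hL hva hvb hp hQg0 hpQg hE hk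
      refine ⟨hk0, hk1, ?_⟩
      rw [val_eq_of_affine A.valuation h2 (hvr A) (hxx _ hk0) hk1, hk2,
        ← val_eq_of_affine' A.valuation h2 (hvr A) (hxx _ hQg0) hQv]
    -- Galois stability of `S`
    have hSstab : ∀ τ : GQ, ∀ s ∈ S, τ s ∈ S := by
      intro τ s hs
      obtain ⟨k, hk, rfl⟩ := (hS s).mp hs
      obtain ⟨hk0, -, -⟩ := hmul k hk
      obtain ⟨j, hj⟩ := hgen (τ • Q) (hN τ Q hQN)
      have hj' : τ • Qg = j • Qg := by
        have := congrArg Subtype.val hj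
        rw [coe_smul_torsion, Submodule.coe_smul_of_tower] at this
        exact this
      have hjp : ¬ p ∣ j := by
        rintro ⟨m, rfl⟩
        have : τ • Qg = 0 := by rw [hj', mul_nsmul, hpQg, nsmul_zero]
        exact smul_ne_zero' τ _ hQg0 this
      rw [hS]
      refine ⟨j * k, ?_, ?_⟩
      · intro h
        rcases (Nat.Prime.dvd_mul hp).mp h with h | h
        · exact hjp h
        · exact hk h
      · rw [← ptX_smul τ _ hk0, smul_nsmul_point, hj', ← mul_nsmul]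
    obtain ⟨w₀, hw₀⟩ := prod_mem_range_of_stable S hSstab
    -- valuations on `S`
    have hSval : ∀ s ∈ S, A.valuation s = A.valuation (ptX Qg) := by
      intro s hs
      obtain ⟨k, hk, rfl⟩ := (hS s).mp hs
      exact (hmul k hk).2.2
    have hprodval : ∏ s ∈ S, A.valuation s = A.valuation (ptX Qg) ^ S.card :=
      Finset.prod_eq_pow_card hSval
    have hcard : S.card ≠ 0 := by
      rw [Finset.card_ne_zero]
      refine ⟨ptX (1 • Qg), (hS _).mpr ⟨1, Nat.not_dvd_of_pos_of_lt one_pos hp.one_lt, rfl⟩⟩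
    have hprod1 : 1 < ∏ s ∈ S, A.valuation s := by
      rw [hprodval]; exact one_lt_pow₀ hQv hcard
    have hvw₀ : A.valuation (algebraMap ℚ Qb w₀) = ∏ s ∈ S, A.valuation s := by
      rw [hw₀, map_prod]
    have hw₀0 : w₀ ≠ 0 := by
      rintro rfl
      rw [_root_.map_zero, _root_.map_zero] at hvw₀
      rw [← hvw₀] at hprod1
      exact absurd hprod1 (not_lt.mpr zero_le)
    obtain ⟨n, hn⟩ := valuation_rat_eq_zpow hp A hA w₀ hw₀0
    have hvp : A.valuation (p : Qb) < 1 := helper2200.valuation_natCast_prime_lt_one A hA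
    have hvp0 : A.valuation (p : Qb) ≠ 0 := by
      rw [Ne, map_eq_zero]; exact_mod_cast hp.ne_zero
    have hge : (A.valuation (p : Qb))⁻¹ ≤ ∏ s ∈ S, A.valuation s := by
      rw [← hvw₀, hn]
      apply inv_le_zpow_of_one_lt hvp0 hvp
      rw [← hn, hvw₀]; exact hprod1
    -- the polynomial
    set FK : Polynomial Qb := F.map (algebraMap ℤ Qb) with hFK
    have hinj : Function.Injective (algebraMap ℤ Qb) := (algebraMap ℤ Qb).injective_int
    have hF0 : F ≠ 0 := by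
      rintro rfl
      rw [Polynomial.leadingCoeff_zero, Int.natAbs_zero] at hlead
      exact hp.ne_zero hlead.symm
    have hFK0 : FK ≠ 0 := (Polynomial.map_ne_zero_iff hinj).mpr hF0
    have hFKint : ∀ i, A.valuation (FK.coeff i) ≤ 1 := by
      intro i
      rw [hFK, Polynomial.coeff_map]
      have : algebraMap ℤ Qb (F.coeff i) = ((F.coeff i : ℤ) : Qb) := by simp
      rw [this]; exact helper2200.valuation_intCast_le_one A _
    have hFKlead : A.valuation FK.leadingCoeff = A.valuation (p : Qb) := by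
      rw [hFK, Polynomial.leadingCoeff_map_of_injective hinj]
      have e1 : algebraMap ℤ Qb F.leadingCoeff = ((F.leadingCoeff : ℤ) : Qb) := by simp
      rw [e1]
      rcases Int.natAbs_eq F.leadingCoeff with h | h
      · rw [h, hlead]; simp
      · rw [h, hlead]; simp
    have hFKroot : ∀ D : (W⁄Qb).Point, D ≠ 0 → p • D = 0 → FK.IsRoot (ptX D) := by
      intro D hD hpD
      cases D with
      | zero => exact absurd rfl hD
      | some x y h =>
        show Polynomial.eval x FK = 0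
        rw [hFK, Polynomial.eval_map_algebraMap]
        exact hroot x y h hpD
    have hprod : 1 ≤ A.valuation FK.leadingCoeff * ∏ s ∈ S, A.valuation s := by
      rw [hFKlead]
      calc (1 : A.ValueGroup) = A.valuation (p : Qb) * (A.valuation (p : Qb))⁻¹ :=
            (mul_inv_cancel₀ hvp0).symm
        _ ≤ A.valuation (p : Qb) * ∏ s ∈ S, A.valuation s := by gcongr
    have hsub : ∀ D : (W⁄Qb).Point, D ≠ 0 → p • D = 0 → 1 < A.valuation (XL hvc D) →
        ∃ k : ℕ, D = k • Qg := fun D hD hpD hDE =>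
      torsion_E1_subset A.valuation hL hva hvb h2 ptX (hvr A) hxx hp FK hFK0 hFKint hFKroot
        hQg0 hpQg hE S hS hprod hD hpD hDE
    -- conclusion
    rcases sub_mem_E1 hp hp2 hw he hd hdisc hvc A hA hσ (x : (W⁄Qb).Point)
      (nsmul_coe_torsion x) with h | h
    · have : σ • x = x := Subtype.ext h
      rw [this, sub_self]; exact N.zero_mem
    · have hD0 : (x : (W⁄Qb).Point) - σ • (x : (W⁄Qb).Point) ≠ 0 := by
        intro h0
        rw [h0, XL_zero, _root_.map_zero] at h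
        exact absurd h (not_lt.mpr zero_le)
      have hpD : p • ((x : (W⁄Qb).Point) - σ • (x : (W⁄Qb).Point)) = 0 := by
        rw [nsmul_sub, nsmul_coe_torsion x, ← smul_nsmul_point, nsmul_coe_torsion x,
          algEquiv_smul_def, _root_.map_zero, sub_zero]
      obtain ⟨k, hk⟩ := hsub _ hD0 hpD h
      have hmem : x - σ • x ∈ N := by
        have : x - σ • x = k • Q := Subtype.ext (by
          rw [Submodule.coe_smul_of_tower]; exact hk)
        rw [this]; exact N.smul_of_tower_mem k hQN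
      have : σ • x - x = -(x - σ • x) := by abel
      rw [this]; exact N.neg_mem hmem
  by_cases hex : ∃ A₀ : ValuationSubring Qb, A₀.LiesOverPrime p ∧ CaseA A₀
  · obtain ⟨A₀, hA₀, hcase⟩ := hex
    right
    intro A hA σ hσ x
    exact hCA A hA (hU A₀ A hA₀ hA hcase) σ hσ x
  · left
    intro A hA σ hσ x hx
    exact hNA A hA (fun h => hex ⟨A, hA, h⟩) σ hσ x hx

end Main

end Fermat.Agent.S13.helper2105
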