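import Fermat.Agent.S13.helper2105_AtPCore
import Fermat.Agent.S05.helper245_Local
import Fermat.Agent.S05.helper725_Transfer
import Fermat.Agent.S05.helper2200_Inertia

set_option autoImplicit false

/-!
# S13, ingredient I5: Legendre coordinates on a curve with a Legendre-type model (helper2105)

`W` is a Weierstrass curve over `ℚ` with a change of variables `(u, r, s, t) = (2, r, 1, 0)` to a
Legendre-type model `Y² = X³ + a₂ X² + a₄ X`.  We put Legendre coordinates `XL = 4 x + r`,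
`YL` on the points of `W` over `ℚ̄` and record their behaviour under the Galois action.
-/

namespace Fermat.Agent.S13.helper2105

open WeierstrassCurve WeierstrassCurve.Affine WeierstrassCurve.Affine.Point
open Fermat.Agent.S05.helper245 Fermat.Agent.S05.helper725

local notation "Qb" => AlgebraicClosure ℚ
local notation "GQ" => (AlgebraicClosure ℚ ≃ₐ[ℚ] AlgebraicClosure ℚ)

section Coord

variable {W : WeierstrassCurve ℚ} {a₂ a₄ r : ℚ}

/-- The base-changed change of variables. -/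
theorem isVarChange_Qb (hvc : IsVarChange W (legendreModel a₂ a₄) 2 r 1 0) :
    IsVarChange (W⁄Qb) ((legendreModel a₂ a₄)⁄Qb) (algebraMap ℚ Qb 2) (algebraMap ℚ Qb r)
      (algebraMap ℚ Qb 1) (algebraMap ℚ Qb 0) :=
  hvc.map (algebraMap ℚ Qb)

/-- The transfer homomorphism to the Legendre model. -/
noncomputable def toLeg (hvc : IsVarChange W (legendreModel a₂ a₄) 2 r 1 0) :
    (W⁄Qb).Point →+ ((legendreModel a₂ a₄)⁄Qb).Point :=
  vcHom (isVarChange_Qb hvc)

theorem toLeg_injective (hvc : IsVarChange W (legendreModel a₂ a₄) 2 r 1 0) :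
    Function.Injective (toLeg hvc) :=
  vcHom_injective (isVarChange_Qb hvc)

theorem toLeg_smul (hvc : IsVarChange W (legendreModel a₂ a₄) 2 r 1 0) (σ : GQ)
    (Q : (W⁄Qb).Point) : toLeg hvc (σ • Q) = σ • toLeg hvc Q :=
  vcHom_smul (isVarChange_Qb hvc) σ Q

/-- The Legendre `X`-coordinate on the points of `W`. -/
noncomputable def XL (hvc : IsVarChange W (legendreModel a₂ a₄) 2 r 1 0) :
    (W⁄Qb).Point → Qb := fun Q => ptX (toLeg hvc Q)

/-- The Legendre `Y`-coordinate on the points of `W`. -/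
noncomputable def YL (hvc : IsVarChange W (legendreModel a₂ a₄) 2 r 1 0) :
    (W⁄Qb).Point → Qb := fun Q => ptY (toLeg hvc Q)

theorem isLegCoord_XL (hvc : IsVarChange W (legendreModel a₂ a₄) 2 r 1 0) :
    IsLegCoord (algebraMap ℚ Qb a₂) (algebraMap ℚ Qb a₄) (XL hvc) (YL hvc) := by
  have e₁ : ((legendreModel a₂ a₄)⁄Qb).a₁ = 0 := by simp [WeierstrassCurve.baseChange]
  have e₃ : ((legendreModel a₂ a₄)⁄Qb).a₃ = 0 := by simp [WeierstrassCurve.baseChange]
  have e₆ : ((legendreModel a₂ a₄)⁄Qb).a₆ = 0 := by simp [WeierstrassCurve.baseChange]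
  have e₂ : ((legendreModel a₂ a₄)⁄Qb).a₂ = algebraMap ℚ Qb a₂ := by
    simp [WeierstrassCurve.baseChange]
  have e₄ : ((legendreModel a₂ a₄)⁄Qb).a₄ = algebraMap ℚ Qb a₄ := by
    simp [WeierstrassCurve.baseChange]
  have hL := isLegCoord_of_short (W := ((legendreModel a₂ a₄)⁄Qb)) e₁ e₃ e₆
  rw [e₂, e₄] at hL
  exact isLegCoord_comap hL (toLeg hvc) (toLeg_injective hvc)

theorem XL_some (hvc : IsVarChange W (legendreModel a₂ a₄) 2 r 1 0) {x y : Qb}
    (h : (W⁄Qb).Nonsingular x y) :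
    XL hvc (Point.some x y h) = 4 * x + algebraMap ℚ Qb r := by
  show ptX (vcHom (isVarChange_Qb hvc) (Point.some x y h)) = _
  rw [vcHom_some]
  show (algebraMap ℚ Qb 2) ^ 2 * x + algebraMap ℚ Qb r = _
  rw [map_ofNat]; norm_num

/-- `XL Q = 4 * ptX Q + r` for nonzero `Q`. -/
theorem XL_eq (hvc : IsVarChange W (legendreModel a₂ a₄) 2 r 1 0) (Q : (W⁄Qb).Point)
    (hQ : Q ≠ 0) : XL hvc Q = 4 * ptX Q + algebraMap ℚ Qb r := by
  cases Q with
  | zero => exact absurd rfl hQ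
  | some x y h => rw [XL_some]; rfl

theorem ptX_smul {W' : WeierstrassCurve ℚ} (σ : GQ) (Q : (W'⁄Qb).Point) (hQ : Q ≠ 0) :
    ptX (σ • Q) = σ (ptX Q) := by
  cases Q with
  | zero => exact absurd rfl hQ
  | some x y h => rw [algEquiv_smul_def, Point.map_some]; rfl

theorem ptY_smul {W' : WeierstrassCurve ℚ} (σ : GQ) (Q : (W'⁄Qb).Point) (hQ : Q ≠ 0) :
    ptY (σ • Q) = σ (ptY Q) := by
  cases Q with
  | zero => exact absurd rfl hQ
  | some x y h => rw [algEquiv_smul_def, Point.map_some]; rfl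

theorem smul_ne_zero' {W' : WeierstrassCurve ℚ} (σ : GQ) (Q : (W'⁄Qb).Point) (hQ : Q ≠ 0) :
    σ • Q ≠ 0 := by
  cases Q with
  | zero => exact absurd rfl hQ
  | some x y h => rw [algEquiv_smul_def, Point.map_some]; exact Point.some_ne_zero _

theorem toLeg_ne_zero (hvc : IsVarChange W (legendreModel a₂ a₄) 2 r 1 0) {Q : (W⁄Qb).Point}
    (hQ : Q ≠ 0) : toLeg hvc Q ≠ 0 := fun h =>
  hQ (toLeg_injective hvc (by rw [h, _root_.map_zero]))

theorem XL_smul (hvc : IsVarChange W (legendreModel a₂ a₄) 2 r 1 0) (σ : GQ)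
    (Q : (W⁄Qb).Point) (hQ : Q ≠ 0) : XL hvc (σ • Q) = σ (XL hvc Q) := by
  show ptX (toLeg hvc (σ • Q)) = σ (ptX (toLeg hvc Q))
  rw [toLeg_smul, ptX_smul σ _ (toLeg_ne_zero hvc hQ)]

theorem YL_smul (hvc : IsVarChange W (legendreModel a₂ a₄) 2 r 1 0) (σ : GQ)
    (Q : (W⁄Qb).Point) (hQ : Q ≠ 0) : YL hvc (σ • Q) = σ (YL hvc Q) := by
  show ptY (toLeg hvc (σ • Q)) = σ (ptY (toLeg hvc Q))
  rw [toLeg_smul, ptY_smul σ _ (toLeg_ne_zero hvc hQ)]

theorem XL_zero (hvc : IsVarChange W (legendreModel a₂ a₄) 2 r 1 0) : XL hvc 0 = 0 := by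
  show ptX (toLeg hvc 0) = 0
  rw [_root_.map_zero]; rfl

/-- The point of `W` lying over the `2`-torsion point `(0, 0)` of the Legendre model. -/
theorem exists_T (hvc : IsVarChange W (legendreModel a₂ a₄) 2 r 1 0) (ha₄ : a₄ ≠ 0) :
    ∃ T : (W⁄Qb).Point, T ≠ 0 ∧ XL hvc T = 0 ∧ YL hvc T = 0 := by
  have hK := isVarChange_Qb hvc
  have e₆ : ((legendreModel a₂ a₄)⁄Qb).a₆ = 0 := by simp [WeierstrassCurve.baseChange]
  have e₄ : ((legendreModel a₂ a₄)⁄Qb).a₄ = algebraMap ℚ Qb a₄ := by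
    simp [WeierstrassCurve.baseChange]
  have hT : ((legendreModel a₂ a₄)⁄Qb).Nonsingular 0 0 := by
    rw [nonsingular_zero]
    exact ⟨e₆, Or.inr (by rw [e₄, Ne, map_eq_zero]; exact ha₄)⟩
  set x₀ : Qb := -(algebraMap ℚ Qb r) / 4 with hx₀
  set y₀ : Qb := (algebraMap ℚ Qb r) / 8 with hy₀
  have ex : (algebraMap ℚ Qb 2) ^ 2 * x₀ + algebraMap ℚ Qb r = 0 := by
    rw [hx₀, map_ofNat]; ring
  have ey : (algebraMap ℚ Qb 2) ^ 3 * y₀ + (algebraMap ℚ Qb 2) ^ 2 * (algebraMap ℚ Qb 1) * x₀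
      + algebraMap ℚ Qb 0 = 0 := by
    rw [hx₀, hy₀, map_ofNat, map_one, _root_.map_zero]; ring
  have hT' : (W⁄Qb).Nonsingular x₀ y₀ := by
    rw [← hK.nonsingular_iff, ex, ey]; exact hT
  refine ⟨Point.some x₀ y₀ hT', Point.some_ne_zero _, ?_, ?_⟩
  · show ptX (vcHom hK (Point.some x₀ y₀ hT')) = 0
    rw [vcHom_some]
    exact ex
  · show ptY (vcHom hK (Point.some x₀ y₀ hT')) = 0
    rw [vcHom_some]
    exact ey

end Coord

end Fermat.Agent.S13.helper2105
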