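import Mathlib

set_option autoImplicit false

/-!
# S13, ingredient I5: a Newton-polygon bound (helper2105)

If a polynomial `F` with integral coefficients (`v ≤ 1`) has distinct roots `r ∈ S` with
`1 < v r`, then `v (leadingCoeff F) * ∏_{r ∈ S} v r ≤ 1`.
-/

namespace Fermat.Agent.S13.helper2105

open Polynomial

section Newton

variable {K : Type*} [Field K] {Γ₀ : Type*} [LinearOrderedCommGroupWithZero Γ₀]
  (v : Valuation K Γ₀)

/-- Dividing an integral polynomial by `X - r` with `1 < v r`: `r • quotient` is integral. -/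
theorem coeff_quot_bound {F G : K[X]} {r : K} (hr : 1 < v r) (hF : ∀ i, v (F.coeff i) ≤ 1)
    (hFG : F = G * (X - C r)) : ∀ i, v (r * G.coeff i) ≤ 1 := by
  intro i
  induction i with
  | zero =>
    have e : F.coeff 0 = -(r * G.coeff 0) := by
      rw [hFG]; simp [mul_coeff_zero]; ring
    have h := hF 0
    rwa [e, v.map_neg] at h
  | succ i ih =>
    have e0 : F.coeff (i + 1) = G.coeff i - G.coeff (i + 1) * r := by
      rw [hFG, coeff_mul_X_sub_C]
    have e : r * G.coeff (i + 1) = G.coeff i - F.coeff (i + 1) := by rw [e0]; ring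
    rw [e]
    refine v.map_sub_le ?_ (hF (i + 1))
    rw [v.map_mul] at ih
    calc v (G.coeff i) = 1 * v (G.coeff i) := (one_mul _).symm
      _ ≤ v r * v (G.coeff i) := by gcongr
      _ ≤ 1 := ih

/-- **Newton bound.** -/
theorem newton_bound (S : Finset K) : ∀ (F : K[X]), F ≠ 0 → (∀ i, v (F.coeff i) ≤ 1) →
    (∀ r ∈ S, F.IsRoot r ∧ 1 < v r) → v F.leadingCoeff * ∏ r ∈ S, v r ≤ 1 := by
  classical
  induction S using Finset.induction_on with
  | empty =>
    intro F _ hF _
    rw [Finset.prod_empty, mul_one]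
    exact hF _
  | insert r S hrS ih =>
    intro F hF0 hF hS
    obtain ⟨hroot, hr⟩ := hS r (Finset.mem_insert_self r S)
    obtain ⟨G, hG⟩ := (dvd_iff_isRoot.mpr hroot)
    have hFG : F = G * (X - C r) := by rw [hG, mul_comm]
    have hG0 : G ≠ 0 := by
      rintro rfl
      rw [zero_mul] at hFG
      exact hF0 hFG
    have hr0 : r ≠ 0 := by
      rintro rfl
      rw [v.map_zero] at hr
      exact absurd hr (not_lt.mpr zero_le)
    have hG' : C r * G ≠ 0 := mul_ne_zero (C_ne_zero.mpr hr0) hG0
    have hint : ∀ i, v ((C r * G).coeff i) ≤ 1 := by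
      intro i
      rw [coeff_C_mul]
      exact coeff_quot_bound v hr hF hFG i
    have hroots : ∀ r' ∈ S, (C r * G).IsRoot r' ∧ 1 < v r' := by
      intro r' hr'
      obtain ⟨h1, h2⟩ := hS r' (Finset.mem_insert_of_mem hr')
      refine ⟨?_, h2⟩
      have hne : r' ≠ r := fun h => hrS (h ▸ hr')
      rw [IsRoot.def, hFG, eval_mul, eval_sub, eval_X, eval_C] at h1
      have hGr : G.eval r' = 0 := by
        rcases mul_eq_zero.mp h1 with h | h
        · exact h
        · exact absurd (sub_eq_zero.mp h) hne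
      rw [IsRoot.def, eval_mul, eval_C, hGr, mul_zero]
    have key := ih (C r * G) hG' hint hroots
    have hlc : F.leadingCoeff = G.leadingCoeff := by
      rw [hFG, leadingCoeff_mul, leadingCoeff_X_sub_C, mul_one]
    have hlc' : (C r * G).leadingCoeff = r * G.leadingCoeff := by
      rw [leadingCoeff_mul, leadingCoeff_C]
    rw [Finset.prod_insert hrS, hlc]
    rw [hlc', v.map_mul] at key
    calc v G.leadingCoeff * (v r * ∏ x ∈ S, v x)
        = v r * v G.leadingCoeff * ∏ x ∈ S, v x := by
          rw [← mul_assoc, mul_comm (v G.leadingCoeff) (v r)]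
      _ ≤ 1 := key

end Newton

end Fermat.Agent.S13.helper2105
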