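import Fermat.Agent.S13.helper2105_LegP
import Fermat.Agent.S13.helper2105_Newton

set_option autoImplicit false

/-!
# S13, ingredient I5: abstract core (helper2105)

* `IsLegCoord.comap`: Legendre coordinates pull back along injective homomorphisms.
* `torsion_E1_subset`: if the `x`-coordinates of the nonzero multiples of a `p`-torsion point
  `Q₀` of the kernel of reduction already exhaust the Newton bound of a polynomial `F` killing the
  `x`-coordinates of all `p`-torsion points, then every `p`-torsion point of the kernel of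
  reduction is a multiple of `Q₀`.
-/

namespace Fermat.Agent.S13.helper2105

open Fermat.Agent.S05.helper245 Polynomial

section Comap

variable {K : Type*} [Field K] {G H : Type*} [AddCommGroup G] [AddCommGroup H] {a b : K}
  {X Y : H → K}

/-- Legendre coordinates pull back along an injective homomorphism. -/
theorem isLegCoord_comap (hL : IsLegCoord a b X Y) (Φ : G →+ H) (hΦ : Function.Injective Φ) :
    IsLegCoord a b (fun P => X (Φ P)) (fun P => Y (Φ P)) where
  eqn := fun P hP => hL.eqn (Φ P) (fun h => hP (hΦ (by rw [h, map_zero])))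
  inj := fun P Q hP hQ hX hY =>
    hΦ (hL.inj (Φ P) (Φ Q) (fun h => hP (hΦ (by rw [h, map_zero])))
      (fun h => hQ (hΦ (by rw [h, map_zero]))) hX hY)
  negX := fun P hP => by
    show X (Φ (-P)) = X (Φ P)
    rw [map_neg]
    exact hL.negX (Φ P) (fun h => hP (hΦ (by rw [h, map_zero])))
  negY := fun P hP => by
    show Y (Φ (-P)) = -Y (Φ P)
    rw [map_neg]
    exact hL.negY (Φ P) (fun h => hP (hΦ (by rw [h, map_zero])))
  vieta := fun P₁ P₂ P₃ h₁ h₂ h₃ hs =>
    hL.vieta (Φ P₁) (Φ P₂) (Φ P₃) (fun h => h₁ (hΦ (by rw [h, map_zero])))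
      (fun h => h₂ (hΦ (by rw [h, map_zero]))) (fun h => h₃ (hΦ (by rw [h, map_zero])))
      (by rw [← map_add, ← map_add, hs, map_zero])

end Comap

section Core

variable {K : Type*} [Field K] {Γ₀ : Type*} [LinearOrderedCommGroupWithZero Γ₀]
  (v : Valuation K Γ₀) {G : Type*} [AddCommGroup G] {a b : K} {X Y : G → K}

/-- Points with the same `X`-coordinate are equal or opposite. -/
theorem eq_or_eq_neg_of_X_eq (hL : IsLegCoord a b X Y) {P Q : G} (hP : P ≠ 0) (hQ : Q ≠ 0)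
    (h : X P = X Q) : P = Q ∨ P = -Q := by
  have hy : Y P ^ 2 = Y Q ^ 2 := by rw [hL.eqn P hP, hL.eqn Q hQ, h]
  rcases sq_eq_sq_iff_eq_or_eq_neg.mp hy with h1 | h1
  · left; exact hL.inj P Q hP hQ h h1
  · right
    exact hL.inj P (-Q) hP (neg_ne_zero.mpr hQ) (by rw [hL.negX Q hQ]; exact h)
      (by rw [hL.negY Q hQ]; exact h1)

/-- Comparison of the valuations of `X = 4 x + r` and `x` outside the valuation ring. -/
theorem val_eq_of_affine (h2 : v 2 = 1) {r x Xv : K} (hr : v r ≤ 1) (hX : Xv = 4 * x + r)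
    (h : 1 < v Xv) : v x = v Xv := by
  have h4 : v (4 : K) = 1 := by
    have : (4 : K) = 2 * 2 := by norm_num
    rw [this, v.map_mul, h2, one_mul]
  have e : 4 * x = Xv - r := by rw [hX]; ring
  have h1 : v (Xv - r) = v Xv := v.map_sub_eq_of_lt_left (lt_of_le_of_lt hr h)
  have h3 : v (4 * x) = v x := by rw [v.map_mul, h4, one_mul]
  rw [← h3, e, h1]

theorem val_eq_of_affine' (h2 : v 2 = 1) {r x Xv : K} (hr : v r ≤ 1) (hX : Xv = 4 * x + r)
    (h : 1 < v x) : v x = v Xv := by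
  have h4 : v (4 : K) = 1 := by
    have : (4 : K) = 2 * 2 := by norm_num
    rw [this, v.map_mul, h2, one_mul]
  have h3 : v (4 * x) = v x := by rw [v.map_mul, h4, one_mul]
  rw [hX, v.map_add_eq_of_lt_left (by rw [h3]; exact lt_of_le_of_lt hr h), h3]

/-- **Core**: the `p`-torsion of the kernel of reduction is contained in the line spanned by
`Q₀`, when the Newton bound is exhausted by the multiples of `Q₀`. -/
theorem torsion_E1_subset (hL : IsLegCoord a b X Y) (ha : v a ≤ 1) (hb : v b ≤ 1) (h2 : v 2 = 1)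
    (xx : G → K) {r : K} (hr : v r ≤ 1) (hxx : ∀ Q, Q ≠ 0 → X Q = 4 * xx Q + r)
    {p : ℕ} (hpp : p.Prime) (F : K[X]) (hF0 : F ≠ 0) (hFint : ∀ i, v (F.coeff i) ≤ 1)
    (hroot : ∀ Q, Q ≠ 0 → p • Q = 0 → F.IsRoot (xx Q))
    {Q₀ : G} (hQ₀ : Q₀ ≠ 0) (hpQ₀ : p • Q₀ = 0) (hE : 1 < v (X Q₀))
    (S : Finset K) (hS : ∀ s, s ∈ S ↔ ∃ k : ℕ, ¬ p ∣ k ∧ s = xx (k • Q₀))
    (hprod : 1 ≤ v F.leadingCoeff * ∏ s ∈ S, v s)
    {Q : G} (hQ : Q ≠ 0) (hpQ : p • Q = 0) (hQE : 1 < v (X Q)) :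
    ∃ k : ℕ, Q = k • Q₀ := by
  classical
  by_cases hmem : xx Q ∈ S
  · obtain ⟨k, hk, hxk⟩ := (hS _).mp hmem
    have hk0 : k • Q₀ ≠ 0 := nsmul_ne_zero_of_not_dvd hpp hk hpQ₀ hQ₀
    have hX : X Q = X (k • Q₀) := by rw [hxx Q hQ, hxx _ hk0, hxk]
    rcases eq_or_eq_neg_of_X_eq hL hQ hk0 hX with h | h
    · exact ⟨k, h⟩
    · refine ⟨(p - 1) * k, ?_⟩
      have hneg : (p - 1) • Q₀ = -Q₀ := by
        have : (p - 1) • Q₀ + Q₀ = 0 := by
          rw [← succ_nsmul, Nat.sub_add_cancel hpp.one_le]; exact hpQ₀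
        exact eq_neg_of_add_eq_zero_left this
      rw [h, mul_nsmul, hneg, smul_neg]
  · exfalso
    have hall : ∀ s ∈ insert (xx Q) S, F.IsRoot s ∧ 1 < v s := by
      intro s hs
      rcases Finset.mem_insert.mp hs with rfl | hs
      · refine ⟨hroot Q hQ hpQ, ?_⟩
        rw [val_eq_of_affine v h2 hr (hxx Q hQ) hQE]; exact hQE
      · obtain ⟨k, hk, rfl⟩ := (hS _).mp hs
        obtain ⟨hk0, hk1, -⟩ := E1_val_X_nsmul v hL ha hb hpp hQ₀ hpQ₀ hE hk
        refine ⟨hroot _ hk0 (by rw [smul_comm, hpQ₀, nsmul_zero]), ?_⟩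
        rw [val_eq_of_affine v h2 hr (hxx _ hk0) hk1]; exact hk1
    have key := newton_bound v (insert (xx Q) S) F hF0 hFint hall
    rw [Finset.prod_insert hmem] at key
    have hxQ : 1 < v (xx Q) := by
      rw [val_eq_of_affine v h2 hr (hxx Q hQ) hQE]; exact hQE
    set t := v F.leadingCoeff * ∏ s ∈ S, v s with ht
    have ht0 : 0 < t := lt_of_lt_of_le zero_lt_one hprod
    have h1 : t < v (xx Q) * t := lt_mul_of_one_lt_left ht0 hxQ
    have h3 : v F.leadingCoeff * (v (xx Q) * ∏ s ∈ S, v s) = v (xx Q) * t := by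
      rw [ht, ← mul_assoc, ← mul_assoc, mul_comm (v F.leadingCoeff) (v (xx Q))]
    rw [h3] at key
    exact absurd (lt_of_le_of_lt hprod h1) (not_lt.mpr key)

end Core

end Fermat.Agent.S13.helper2105
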