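import Fermat.Agent.S13.helper2105_AtP
import Fermat.Prelude.Def_FLTPrelim_CofixedLine

set_option autoImplicit false

/-!
# S13, ingredient I5 (inertia at `p`) for the Frey curve (helper2105)

`frey_at_p`: for a Frey package `P`, given a polynomial `F ∈ ℤ[X]` with leading coefficient
`± p` killing the `x`-coordinates of all nonzero `p`-torsion points of the Frey curve over `ℚ̄`
(the `p`-division polynomial), every Galois-stable line `N` of the `p`-torsion satisfies: either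
all inertia groups at places over `p` fix `N` pointwise, or all of them act trivially modulo `N`.
This is the field `at_p` of the S13 skeleton of helper13 (`Ingredients P`).
-/

namespace Fermat.Agent.S13.helper2105

open WeierstrassCurve WeierstrassCurve.Affine WeierstrassCurve.Affine.Point
open Fermat.Agent.S05.helper725

local notation "Qb" => AlgebraicClosure ℚ
local notation "GQ" => (AlgebraicClosure ℚ ≃ₐ[ℚ] AlgebraicClosure ℚ)

/-- The division-polynomial interface consumed by `frey_at_p`. -/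
def DivPoly (P : FreyPackage) : Prop :=
  ∃ F : Polynomial ℤ, F.leadingCoeff.natAbs = P.p ∧
    ∀ (x y : Qb) (h : (P.freyCurve⁄Qb).Nonsingular x y),
      P.p • (Point.some x y h : (P.freyCurve⁄Qb).Point) = 0 → Polynomial.aeval x F = 0

section Line

variable {p : ℕ} [Fact p.Prime] {V : Type*} [AddCommGroup V] [Module (ZMod p) V]

/-- A one-dimensional subspace over `ZMod p` is generated, as a set of `ℕ`-multiples, by any
nonzero element. -/
theorem exists_gen_of_finrank_eq_one (N : Submodule (ZMod p) V)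
    (h : Module.finrank (ZMod p) N = 1) :
    ∃ Q₀ ∈ N, Q₀ ≠ 0 ∧ ∀ R ∈ N, ∃ k : ℕ, R = k • Q₀ := by
  have hne : N ≠ ⊥ := by
    rintro rfl
    rw [finrank_bot] at h
    exact zero_ne_one h
  obtain ⟨Q₀, hQ₀, hQ₀0⟩ := Submodule.exists_mem_ne_zero_of_ne_bot hne
  refine ⟨Q₀, hQ₀, hQ₀0, fun R hR => ?_⟩
  have hQ₀0' : (⟨Q₀, hQ₀⟩ : N) ≠ 0 := fun h' => hQ₀0 (congrArg Subtype.val h')
  obtain ⟨c, hc⟩ := (finrank_eq_one_iff_of_nonzero' (⟨Q₀, hQ₀⟩ : N) hQ₀0').mp h ⟨R, hR⟩
  have hc' : c • Q₀ = R := congrArg Subtype.val hc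
  refine ⟨c.val, ?_⟩
  rw [← hc', ← Nat.cast_smul_eq_nsmul (ZMod p) c.val Q₀, ZMod.natCast_zmod_val]

/-- In a space of dimension at most two, a proper nonzero subspace is a line. -/
theorem finrank_eq_one_of_le_two [Module.Finite (ZMod p) V]
    (hV : Module.finrank (ZMod p) V ≤ 2) (N : Submodule (ZMod p) V) (h0 : N ≠ ⊥) (h1 : N ≠ ⊤) :
    Module.finrank (ZMod p) N = 1 := by
  have hlt : Module.finrank (ZMod p) N < Module.finrank (ZMod p) V := Submodule.finrank_lt h1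
  have hpos : 0 < Module.finrank (ZMod p) N := by
    rw [Nat.pos_iff_ne_zero]
    intro h
    exact h0 (Submodule.finrank_eq_zero.mp h)
  omega

end Line

/-- **I5 for the Frey curve**, cyclic form. -/
theorem frey_atP_of_gen (P : FreyPackage) (hD : DivPoly P)
    (N : Submodule (ZMod P.p) (Submodule.torsionBy ℤ (P.freyCurve⁄Qb).Point P.p))
    (hN : IsGaloisStable ℚ N)
    (hline : ∃ Q₀ ∈ N, Q₀ ≠ 0 ∧ ∀ R ∈ N, ∃ k : ℕ, R = k • Q₀) :
    (∀ A : ValuationSubring Qb, A.LiesOverPrime P.p →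
      ∀ σ ∈ A.inertiaSubgroupIn ℚ, ∀ x ∈ N, σ • x = x) ∨
    (∀ A : ValuationSubring Qb, A.LiesOverPrime P.p →
      ∀ σ ∈ A.inertiaSubgroupIn ℚ,
        ∀ x : Submodule.torsionBy ℤ (P.freyCurve⁄Qb).Point P.p, σ • x - x ∈ N) := by
  obtain ⟨F, hlead, hroot⟩ := hD
  have hp2 : P.p ≠ 2 := by have := P.hp5; omega
  have hFLT := P.hFLT
  have hpZ : Prime (P.p : ℤ) := Nat.prime_iff_prime_int.mp P.pp
  by_cases hc : (P.p : ℤ) ∣ P.c
  · -- shifted model `Y² = X (X + a^p) (X + c^p)`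
    have hb : ¬ (P.p : ℤ) ∣ P.b := by
      intro hb
      have h1 := dvd_gcd hb hc
      rw [P.hgcdbc] at h1
      exact hpZ.not_isUnit (isUnit_of_dvd_one h1)
    have hvc : IsVarChange P.freyCurve
        (legendreModel (((P.a ^ P.p + P.c ^ P.p : ℤ)) : ℚ)
          (((1 : ℤ) : ℚ) * ((P.a * P.c : ℤ) : ℚ) ^ P.p)) 2 (((-(P.a ^ P.p) : ℤ)) : ℚ) 1 0 := by
      have h := frey_isVarChange_shift P
      have e1 : (((P.a ^ P.p + P.c ^ P.p : ℤ)) : ℚ) = (P.a : ℚ) ^ P.p + (P.c : ℚ) ^ P.p := by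
        push_cast; ring
      have e2 : ((1 : ℤ) : ℚ) * ((P.a * P.c : ℤ) : ℚ) ^ P.p
          = (P.a : ℚ) ^ P.p * (P.c : ℚ) ^ P.p := by
        push_cast; ring
      have e3 : (((-(P.a ^ P.p) : ℤ)) : ℚ) = -((P.a : ℚ) ^ P.p) := by push_cast; ring
      rw [e1, e2, e3]
      exact h
    exact atP_legendre P.pp hp2 (mul_ne_zero P.ha0 P.hc0) (Or.inl rfl)
      (fun h => hb (hpZ.dvd_of_dvd_pow h))
      (by rw [mul_pow, ← hFLT]; ring) hvc F hlead hroot N hN hline
  · -- model `Y² = X (X - a^p) (X + b^p)`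
    have hvc : IsVarChange P.freyCurve
        (legendreModel (((P.b ^ P.p - P.a ^ P.p : ℤ)) : ℚ)
          (((-1 : ℤ) : ℚ) * ((P.a * P.b : ℤ) : ℚ) ^ P.p)) 2 (((0 : ℤ)) : ℚ) 1 0 := by
      have h := frey_isVarChange P
      have e1 : (((P.b ^ P.p - P.a ^ P.p : ℤ)) : ℚ) = (P.b : ℚ) ^ P.p - (P.a : ℚ) ^ P.p := by
        push_cast; ring
      have e2 : ((-1 : ℤ) : ℚ) * ((P.a * P.b : ℤ) : ℚ) ^ P.p
          = -((P.a : ℚ) ^ P.p * (P.b : ℚ) ^ P.p) := by
        push_cast; ring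
      have e3 : (((0 : ℤ)) : ℚ) = 0 := by push_cast; ring
      rw [e1, e2, e3]
      exact h
    exact atP_legendre P.pp hp2 (mul_ne_zero P.ha0 P.hb0) (Or.inr rfl)
      (fun h => hc (hpZ.dvd_of_dvd_pow h))
      (by rw [mul_pow, ← hFLT]; ring) hvc F hlead hroot N hN hline

/-- **I5 for the Frey curve**, in the exact shape of the field `at_p` of helper13's skeleton,
assuming that the `p`-torsion has dimension at most two. -/
theorem frey_at_p_of_finrank_le (P : FreyPackage) (hD : DivPoly P)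
    [Fact P.p.Prime]
    [Module.Finite (ZMod P.p) (Submodule.torsionBy ℤ (P.freyCurve⁄Qb).Point P.p)]
    (hV : Module.finrank (ZMod P.p) (Submodule.torsionBy ℤ (P.freyCurve⁄Qb).Point P.p) ≤ 2) :
    ∀ N : Submodule (ZMod P.p) (Submodule.torsionBy ℤ (P.freyCurve⁄Qb).Point P.p),
      IsGaloisStable ℚ N → N ≠ ⊥ → N ≠ ⊤ →
      (∀ A : ValuationSubring Qb, A.LiesOverPrime P.p →
        ∀ σ ∈ A.inertiaSubgroupIn ℚ, ∀ x ∈ N, σ • x = x) ∨
      (∀ A : ValuationSubring Qb, A.LiesOverPrime P.p →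
        ∀ σ ∈ A.inertiaSubgroupIn ℚ,
          ∀ x : Submodule.torsionBy ℤ (P.freyCurve⁄Qb).Point P.p, σ • x - x ∈ N) :=
  fun N hN h0 h1 => frey_atP_of_gen P hD N hN
    (exists_gen_of_finrank_eq_one N (finrank_eq_one_of_le_two hV N h0 h1))

/-- **I5 for the Frey curve**, in the exact shape of the field `at_p` of helper13's skeleton,
assuming `#E[p] = p²` (the field `card` of the skeleton). -/
theorem frey_at_p (P : FreyPackage) (hD : DivPoly P)
    (hcard : Nat.card (Submodule.torsionBy ℤ (P.freyCurve⁄Qb).Point P.p) = P.p ^ 2) :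
    ∀ N : Submodule (ZMod P.p) (Submodule.torsionBy ℤ (P.freyCurve⁄Qb).Point P.p),
      IsGaloisStable ℚ N → N ≠ ⊥ → N ≠ ⊤ →
      (∀ A : ValuationSubring Qb, A.LiesOverPrime P.p →
        ∀ σ ∈ A.inertiaSubgroupIn ℚ, ∀ x ∈ N, σ • x = x) ∨
      (∀ A : ValuationSubring Qb, A.LiesOverPrime P.p →
        ∀ σ ∈ A.inertiaSubgroupIn ℚ,
          ∀ x : Submodule.torsionBy ℤ (P.freyCurve⁄Qb).Point P.p, σ • x - x ∈ N) := by
  have : Fact P.p.Prime := ⟨P.pp⟩
  have hp0 : P.p ^ 2 ≠ 0 := pow_ne_zero _ P.pp.ne_zero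
  have hfin : Finite (Submodule.torsionBy ℤ (P.freyCurve⁄Qb).Point P.p) :=
    Nat.finite_of_card_ne_zero (by rw [hcard]; exact hp0)
  have h := Module.natCard_eq_pow_finrank (K := ZMod P.p)
    (V := Submodule.torsionBy ℤ (P.freyCurve⁄Qb).Point P.p)
  rw [hcard, Nat.card_zmod] at h
  have hV : Module.finrank (ZMod P.p) (Submodule.torsionBy ℤ (P.freyCurve⁄Qb).Point P.p) = 2 :=
    (Nat.pow_right_injective P.pp.two_le h).symm
  exact frey_at_p_of_finrank_le P hD hV.le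

end Fermat.Agent.S13.helper2105
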