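import Fermat.Agent.S05.helper245_LegE

set_option autoImplicit false

/-!
# S13, ingredient I5 (inertia at `p`), local part (helper2105)

Abstract Legendre-coordinatised groups (`IsLegCoord` of helper245, S05) in *arbitrary residue
characteristic different from `2`*: an additive endomorphism `τ` acting on coordinates through a
map `s` which is trivial modulo the maximal ideal moves every `p`-torsion point (`p` odd) by a
point of the kernel of reduction `E₁ = {1 < v X}`.  No hypothesis `v p = 1` is used.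
-/

namespace Fermat.Agent.S13.helper2105

open Fermat.Agent.S05.helper245

section LegP

variable {K : Type*} [Field K] {Γ₀ : Type*} [LinearOrderedCommGroupWithZero Γ₀]
  (v : Valuation K Γ₀) {G : Type*} [AddCommGroup G] {a b : K} {X Y : G → K}

/-- Nonzero multiples of a point of `E₁` stay in `E₁`, and `v (X / Y)` does not increase. -/
theorem E1_nsmul (hL : IsLegCoord a b X Y) (ha : v a ≤ 1) (hb : v b ≤ 1) {P : G}
    (hP : P ≠ 0) (hx : 1 < v (X P)) (n : ℕ) (hn : n • P ≠ 0) :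
    1 < v (X (n • P)) ∧ v (X (n • P) / Y (n • P)) ≤ v (X P / Y P) := by
  rcases E1_multiples v hL ha hb hP hx n with ⟨h0, -⟩ | ⟨-, h1, h2⟩
  · exact absurd h0 hn
  · refine ⟨h1, ?_⟩
    have hnz : v ((n : K) * (X P / Y P)) ≤ v (X P / Y P) := by
      rw [v.map_mul]
      calc v (n : K) * v (X P / Y P) ≤ 1 * v (X P / Y P) := by
            gcongr; exact val_natCast_le_one v n
        _ = v (X P / Y P) := one_mul _
    have e : X (n • P) / Y (n • P) =
        (X (n • P) / Y (n • P) - (n : K) * (X P / Y P)) + (n : K) * (X P / Y P) := by ring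
    rw [e]
    exact v.map_add_le h2.le hnz

/-- A nonzero multiple `k • P` (`p ∤ k`) of a point of order `p` is nonzero. -/
theorem nsmul_ne_zero_of_not_dvd {p k : ℕ} (hpp : p.Prime) (hk : ¬ p ∣ k) {P : G}
    (hpP : p • P = 0) (hP : P ≠ 0) : k • P ≠ 0 := by
  intro h
  have : P ∈ (⊥ : AddSubgroup G) :=
    mem_of_nsmul_mem hpp hk hpP (by rw [h]; exact zero_mem _)
  exact hP ((AddSubgroup.mem_bot).mp this)

/-- **(M)** On the `p`-torsion of `E₁` the valuation of `X` is constant along nonzero multiples. -/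
theorem E1_val_X_nsmul (hL : IsLegCoord a b X Y) (ha : v a ≤ 1) (hb : v b ≤ 1) {p : ℕ}
    (hpp : p.Prime) {P : G} (hP : P ≠ 0) (hpP : p • P = 0) (hx : 1 < v (X P)) {k : ℕ}
    (hk : ¬ p ∣ k) :
    k • P ≠ 0 ∧ 1 < v (X (k • P)) ∧ v (X (k • P)) = v (X P) := by
  have hk0 : k • P ≠ 0 := nsmul_ne_zero_of_not_dvd hpp hk hpP hP
  obtain ⟨h1, hle⟩ := E1_nsmul v hL ha hb hP hx k hk0
  refine ⟨hk0, h1, ?_⟩
  -- an inverse of `k` modulo `p`
  have hcop : Nat.Coprime k p := ((Nat.Prime.coprime_iff_not_dvd hpp).mpr hk).symm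
  obtain ⟨m, -, hm⟩ := Nat.exists_mul_mod_eq_one_of_coprime hcop hpp.one_lt
  have hback : m • (k • P) = P := by
    have h1' : k * m = p * (k * m / p) + 1 := by
      have := Nat.div_add_mod (k * m) p
      rw [hm] at this
      exact this.symm
    rw [← mul_nsmul, h1', add_nsmul, one_nsmul, mul_nsmul, hpP, nsmul_zero, zero_add]
  have hge : v (X P / Y P) ≤ v (X (k • P) / Y (k • P)) := by
    have := (E1_nsmul v hL ha hb hk0 h1 m (by rw [hback]; exact hP)).2
    rwa [hback] at this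
  have hz : v (X (k • P) / Y (k • P)) = v (X P / Y P) := le_antisymm hle hge
  have e1 := val_z_sq_of_E1 v hL ha hb hP hx
  have e2 := val_z_sq_of_E1 v hL ha hb hk0 h1
  rw [hz] at e2
  have hz0 : v (X P / Y P) ^ 2 ≠ 0 := by
    intro h0
    rw [h0, zero_mul] at e1
    exact zero_ne_one e1
  exact mul_left_cancel₀ hz0 (e2.trans e1.symm)

/-- A nonzero `p`-torsion point (`p` odd) with integral `X` and nonsingular reduction has unit
`Y`-coordinate, in any residue characteristic different from `2`. -/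
theorem val_Y_eq_one_of_torsion' (hL : IsLegCoord a b X Y) (ha : v a ≤ 1) (hb : v b ≤ 1)
    (h2 : v 2 = 1) {p : ℕ} (hodd : Odd p) {P : G} (hP : P ≠ 0)
    (hpP : p • P = 0) (hXP : v (X P) ≤ 1)
    (hf' : v (Y P) < 1 → v (3 * X P ^ 2 + 2 * a * X P + b) = 1) : v (Y P) = 1 := by
  rcases (val_Y_le_one v hL ha hb hP hXP).lt_or_eq with hlt | heq
  · exfalso
    obtain ⟨k, hk⟩ := hodd
    by_cases h2P : 2 • P = 0
    · have : p • P = P := by
        rw [hk, add_nsmul, mul_nsmul, h2P, nsmul_zero, zero_add, one_nsmul]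
      rw [this] at hpP
      exact hP hpP
    · have h1 := double_mem_E1 v hL ha h2 hP h2P hXP hlt (hf' hlt)
      have hkP : (k + 1) • (2 • P) = P := by
        have e : (k + 1) • (2 • P) = p • P + P := by
          have h2k : 2 * (k + 1) = p + 1 := by omega
          rw [← mul_nsmul, h2k, add_nsmul, one_nsmul]
        rw [e, hpP, zero_add]
      have := E1_nsmul v hL ha hb h2P h1 (k + 1) (by rw [hkP]; exact hP)
      rw [hkP] at this
      exact absurd this.1 (not_lt.mpr hXP)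
  · exact heq

/-- Two points of `E₁` differ by a point of `E₁`. -/
theorem E1_sub (hL : IsLegCoord a b X Y) (ha : v a ≤ 1) (hb : v b ≤ 1) {P Q : G}
    (hP : P ≠ 0) (hQ : Q ≠ 0) (hPQ : P ≠ Q) (hxP : 1 < v (X P)) (hxQ : 1 < v (X Q)) :
    1 < v (X (P - Q)) := by
  have hQ' : -Q ≠ 0 := neg_ne_zero.mpr hQ
  have hR : Q - P ≠ 0 := sub_ne_zero.mpr (Ne.symm hPQ)
  have hsum : P + -Q + (Q - P) = 0 := by abel
  have hxQ' : 1 < v (X (-Q)) := by rw [hL.negX Q hQ]; exact hxQ
  have h := (E1_triple v hL ha hb hP hQ' hR hsum hxP hxQ').1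
  have hneg : X (P - Q) = X (Q - P) := by rw [← neg_sub Q P, hL.negX _ hR]
  rw [hneg]; exact h

/-- **(L), good reduction**: `τ` moves every `p`-torsion point by a point of `E₁`. -/
theorem good_sub (hL : IsLegCoord a b X Y) (ha : v a ≤ 1) (hb : v b = 1)
    (hdisc : v (a ^ 2 - 4 * b) = 1) (h2 : v 2 = 1) {p : ℕ} (hodd : Odd p)
    (τ : G →+ G) (hτ0 : ∀ P, P ≠ 0 → τ P ≠ 0) (s : K → K)
    (hτX : ∀ P, P ≠ 0 → X (τ P) = s (X P)) (hτY : ∀ P, P ≠ 0 → Y (τ P) = s (Y P))
    (hs : ∀ u, v u ≤ 1 → v (s u - u) < 1) (hsv : ∀ u, v (s u) = v u)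
    {P : G} (hpP : p • P = 0) : τ P = P ∨ 1 < v (X (P - τ P)) := by
  by_cases hP : P = 0
  · left; rw [hP, map_zero]
  by_cases hne : τ P = P
  · exact Or.inl hne
  right
  by_cases hx : 1 < v (X P)
  · have hx' : 1 < v (X (τ P)) := by rw [hτX P hP, hsv]; exact hx
    exact E1_sub v hL ha hb.le hP (hτ0 P hP) (Ne.symm hne) hx hx'
  have hXP : v (X P) ≤ 1 := le_of_not_gt hx
  have hf' : v (Y P) < 1 → v (3 * X P ^ 2 + 2 * a * X P + b) = 1 := by
    intro hY
    rcases hXP.lt_or_eq with hlt | heq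
    · have : 3 * X P ^ 2 + 2 * a * X P + b = b + (3 * X P + 2 * a) * X P := by ring
      rw [this]
      have hsmall : v ((3 * X P + 2 * a) * X P) < v b := by
        rw [hb, v.map_mul]
        have h3 : v (3 * X P + 2 * a) ≤ 1 := by
          apply v.map_add_le
          · rw [v.map_mul]
            calc v 3 * v (X P) ≤ 1 * 1 := mul_le_mul' (val_three_le_one v) hXP
              _ = 1 := one_mul 1
          · rw [v.map_mul, h2, one_mul]; exact ha
        calc v (3 * X P + 2 * a) * v (X P) ≤ 1 * v (X P) := by gcongr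
          _ = v (X P) := one_mul _
          _ < 1 := hlt
      rw [v.map_add_eq_of_lt_left hsmall, hb]
    · exact val_deriv_eq_one v hL hdisc hP heq hY
  have hYP : v (Y P) = 1 := val_Y_eq_one_of_torsion' v hL ha hb.le h2 hodd hP hpP hXP hf'
  apply close_sub_mem_E1 v hL ha h2 hP (hτ0 P hP) (Ne.symm hne) hXP hYP.le
  · rw [hYP, hτX P hP, v.map_sub_swap]; exact hs _ hXP
  · rw [hYP, hτY P hP, v.map_sub_swap]; exact hs _ hYP.le

/-- **(L), node case**: `τ` moves every `p`-torsion point by a point of `E₁`, when `v b` is a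
`p`-th power of the valuation of an `s`-fixed element. -/
theorem node_sub (hL : IsLegCoord a b X Y) (ha : v a = 1) (hb : v b < 1) (hb0 : b ≠ 0)
    (h2 : v 2 = 1) {β : K} (hβ : β ^ 2 = a) {T : G} (hT : T ≠ 0) (hTX : X T = 0)
    (hTY : Y T = 0) {p : ℕ} (hpp : p.Prime) (hp2 : p ≠ 2)
    (τ : G →+ G) (hτ0 : ∀ P, P ≠ 0 → τ P ≠ 0) (s : K →+* K)
    (hτX : ∀ P, P ≠ 0 → X (τ P) = s (X P)) (hτY : ∀ P, P ≠ 0 → Y (τ P) = s (Y P))
    (hs : ∀ u, v u ≤ 1 → v (s u - u) < 1) (hsv : ∀ u, v (s u) = v u)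
    {d : K} (hd : s d = d) (hbd : v b = v d ^ p)
    {P : G} (hpP : p • P = 0) : τ P = P ∨ 1 < v (X (P - τ P)) := by
  by_cases hP : P = 0
  · left; rw [hP, map_zero]
  by_cases hne : τ P = P
  · exact Or.inl hne
  right
  have hodd : Odd p := hpp.odd_of_ne_two hp2
  have hp3 : 3 ≤ p := by
    have := hpp.two_le
    omega
  have hdisc : v (a ^ 2 - 4 * b) = 1 := by
    have h4b : v (4 * b) < v (a ^ 2) := by
      rw [v.map_pow, ha, one_pow, v.map_mul]
      calc v 4 * v b ≤ 1 * v b := by gcongr; exact val_four_le_one v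
        _ = v b := one_mul _
        _ < 1 := hb
    rw [v.map_sub_eq_of_lt_left h4b, v.map_pow, ha, one_pow]
  by_cases hx : 1 < v (X P)
  · have hx' : 1 < v (X (τ P)) := by rw [hτX P hP, hsv]; exact hx
    exact E1_sub v hL ha.le hb.le hP (hτ0 P hP) (Ne.symm hne) hx hx'
  have hXP : v (X P) ≤ 1 := le_of_not_gt hx
  rcases hXP.lt_or_eq with hlt | heq
  · -- the node region
    have h1p : ¬ p ∣ 1 := Nat.not_dvd_of_pos_of_lt one_pos hpp.one_lt
    have hPb : v b < v (X P) := by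
      have := node_region_of_multiple v hL ha.le hb hb0 h2 hT hTX hTY hpp hp2 hpP hP hlt h1p
      rw [one_nsmul] at this; exact this.2.1
    obtain ⟨j, hj⟩ := cc_multiples v hL ha hb hb0 h2 hβ hT hTX hTY hpp hp2 hpP hP hlt (p - 1)
      (by omega) (by omega)
    have hneg : (p - 1) • P = -P := by
      have : (p - 1) • P + P = 0 := by
        rw [← succ_nsmul, Nat.sub_add_cancel hpp.one_le]; exact hpP
      exact eq_neg_of_add_eq_zero_left this
    rw [hneg] at hj
    have kneg := cc_neg_mul v hL ha h2 hβ hP hPb hlt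
    have hc : cc v b X Y β P ^ p = (v d ^ (2 * (j + 1))) ^ p := by
      calc cc v b X Y β P ^ p = cc v b X Y β P ^ (p - 1) * cc v b X Y β P := by
            rw [← pow_succ, Nat.sub_add_cancel hpp.one_le]
        _ = cc v b X Y β (-P) * v b ^ (2 * j) * cc v b X Y β P := by rw [hj]
        _ = (cc v b X Y β (-P) * cc v b X Y β P) * v b ^ (2 * j) := by ac_rfl
        _ = v b ^ 2 * v b ^ (2 * j) := by rw [kneg]
        _ = v b ^ (2 * (j + 1)) := by rw [← pow_add]; congr 1; ring
        _ = (v d ^ (2 * (j + 1))) ^ p := by rw [hbd, ← pow_mul, ← pow_mul, mul_comm]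
    have hc' : cc v b X Y β P = v d ^ (2 * (j + 1)) :=
      (pow_left_inj₀ zero_le zero_le hpp.ne_zero).mp hc
    obtain ⟨ϖ, hϖs, hϖv⟩ : ∃ ϖ : K, s ϖ = ϖ ∧ v (X P) = v ϖ := by
      rcases val_X_eq_cc_or v hb0 (β := β) (Y := Y) hPb with h | h
      · exact ⟨d ^ (2 * (j + 1)), by rw [map_pow, hd], by rw [h, hc', v.map_pow]⟩
      · refine ⟨d ^ (2 * p) / d ^ (2 * (j + 1)), by rw [map_div₀, map_pow, map_pow, hd], ?_⟩
        rw [h, hc', v.map_div, v.map_pow, v.map_pow, hbd, ← pow_mul, mul_comm p 2]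
    have hx0 : (0 : Γ₀) < v (X P) := lt_of_le_of_lt zero_le hPb
    have hϖ0 : ϖ ≠ 0 := by rw [← v.ne_zero_iff, ← hϖv]; exact hx0.ne'
    have hYX : v (Y P) = v (X P) := by
      apply eq_of_sq_eq_sq'
      rw [← v.map_pow, hL.eqn P hP]
      have e : X P ^ 3 + a * X P ^ 2 + b * X P = a * X P ^ 2 + (X P ^ 3 + b * X P) := by ring
      have hdom : v (a * X P ^ 2) = v (X P) ^ 2 := by rw [v.map_mul, ha, one_mul, v.map_pow]
      have hsmall : v (X P ^ 3 + b * X P) < v (a * X P ^ 2) := by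
        rw [hdom, sq]
        apply v.map_add_lt
        · rw [v.map_pow, pow_succ, sq]
          calc v (X P) * v (X P) * v (X P) < v (X P) * v (X P) * 1 :=
                mul_lt_mul_of_pos_left hlt (mul_pos hx0 hx0)
            _ = v (X P) * v (X P) := mul_one _
        · rw [v.map_mul]
          exact mul_lt_mul_of_pos_right hPb hx0
      rw [e, v.map_add_eq_of_lt_left hsmall, hdom]
    have scale : ∀ z : K, v z = v ϖ → v (z - s z) < v ϖ := by
      intro z hz
      have hϖ0' : v ϖ ≠ 0 := (v.ne_zero_iff).mpr hϖ0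
      have hu : v (z / ϖ) ≤ 1 := by rw [v.map_div, hz, div_self hϖ0']
      have hsu := hs (z / ϖ) hu
      have e : z - s z = -(ϖ * (s (z / ϖ) - z / ϖ)) := by
        rw [map_div₀, hϖs]; field_simp; ring
      rw [e, v.map_neg, v.map_mul]
      calc v ϖ * v (s (z / ϖ) - z / ϖ) < v ϖ * 1 :=
            mul_lt_mul_of_pos_left hsu (lt_of_le_of_ne zero_le hϖ0'.symm)
        _ = v ϖ := mul_one _
    have hYP : v (Y P) ≤ 1 := by rw [hYX]; exact hXP
    apply close_sub_mem_E1 v hL ha.le h2 hP (hτ0 P hP) (Ne.symm hne) hXP hYP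
    · rw [hYX, hτX P hP, hϖv]; exact scale _ hϖv
    · rw [hτY P hP]
      have := scale (Y P) (hYX.trans hϖv)
      rwa [← hYX.trans hϖv] at this
  · -- unit `X`
    have hf' : v (Y P) < 1 → v (3 * X P ^ 2 + 2 * a * X P + b) = 1 :=
      fun hY => val_deriv_eq_one v hL hdisc hP heq hY
    have hYP : v (Y P) = 1 :=
      val_Y_eq_one_of_torsion' v hL ha.le hb.le h2 hodd hP hpP hXP hf'
    apply close_sub_mem_E1 v hL ha.le h2 hP (hτ0 P hP) (Ne.symm hne) hXP hYP.le
    · rw [hYP, hτX P hP, v.map_sub_swap]; exact hs _ hXP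
    · rw [hYP, hτY P hP, v.map_sub_swap]; exact hs _ hYP.le

end LegP

end Fermat.Agent.S13.helper2105
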