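import Mathlib
import Fermat.Agent.Lib.helper54_Frobenius
import Fermat.Agent.S05.helper4205_Inertia

set_option autoImplicit false

/-!
# S13, ingredient I5 (`at_p`): three generic tools (helper2138)

* `val_prod_roots_le`: a "Newton polygon" estimate in divisibility form.  If `f ∈ ℤ[X]` has
  `natDegree ≤ D` and `S` is a finite set of roots of `f` lying outside a valuation subring `A`,
  then `v (coeff D f) * ∏_{ξ ∈ S} v ξ ≤ 1`.
* `val_rat_le`: a rational number in the maximal ideal of a valuation subring over `p` has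
  valuation at most `v p`.
* `exists_conj`: valuation subrings of `ℚ̄` over the same prime are Galois-conjugate.
-/

namespace Fermat.Agent.S13.helper2138

open Polynomial
open scoped Pointwise

section Roots

variable {K : Type*} [Field K]

/-- If `f ∈ ℤ[X]` has `natDegree ≤ D` and `S` is a finite set of roots of `f` outside the
valuation subring `A`, then `v (coeff D f) * ∏_{ξ ∈ S} v ξ ≤ 1`. -/
theorem val_prod_roots_le (A : ValuationSubring K) (f : Polynomial ℤ) (D : ℕ)
    (hdeg : f.natDegree ≤ D) (hc : ((f.coeff D : ℤ) : K) ≠ 0)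
    (S : Finset K) (hS : ∀ ξ ∈ S, 1 < A.valuation ξ ∧ Polynomial.aeval ξ f = 0) :
    A.valuation ((f.coeff D : ℤ) : K) * ∏ ξ ∈ S, A.valuation ξ ≤ 1 := by
  classical
  set g : Polynomial A := (f.reflect D).map (Int.castRingHom A) with hg
  have hcomp : (A.subtype).comp (Int.castRingHom A) = Int.castRingHom K := RingHom.ext_int _ _
  have hg0 : g.coeff 0 = ((f.coeff D : ℤ) : A) := by
    rw [hg, Polynomial.coeff_map, Polynomial.coeff_reflect, Polynomial.revAt_zero]
    rfl
  have hgne : g ≠ 0 := by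
    intro h
    rw [h, Polynomial.coeff_zero] at hg0
    apply hc
    have h1 := congrArg A.subtype hg0
    rw [map_zero, map_intCast] at h1
    exact h1.symm
  have hξ0 : ∀ ξ ∈ S, ξ ≠ 0 := by
    intro ξ hξ h
    have := (hS ξ hξ).1
    rw [h, map_zero] at this
    exact absurd this (not_lt.mpr zero_le)
  have hinv : ∀ ξ ∈ S, ξ⁻¹ ∈ A := fun ξ hξ => by
    rw [← A.valuation_le_one_iff, map_inv₀]
    exact (inv_lt_one_of_one_lt₀ (hS ξ hξ).1).le
  let r : {x // x ∈ S} → A := fun ξ => ⟨(ξ : K)⁻¹, hinv ξ ξ.2⟩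
  have hr_inj : Function.Injective r := by
    intro x y hxy
    have : (x : K)⁻¹ = (y : K)⁻¹ := congrArg Subtype.val hxy
    exact Subtype.ext (inv_injective this)
  have hroot : ∀ ξ : {x // x ∈ S}, g.IsRoot (r ξ) := by
    intro ξ
    have hK : Polynomial.eval₂ (Int.castRingHom K) (ξ : K)⁻¹ (f.reflect D) = 0 := by
      let _ := invertibleOfNonzero (hξ0 ξ ξ.2)
      have h1 : Polynomial.eval₂ (Int.castRingHom K) (ξ : K) f = 0 := by
        have := (hS ξ ξ.2).2
        rwa [Polynomial.aeval_def, algebraMap_int_eq] at this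
      have := (Polynomial.eval₂_reflect_eq_zero_iff (Int.castRingHom K) (ξ : K) D f hdeg).mpr h1
      rwa [invOf_eq_inv] at this
    rw [Polynomial.IsRoot.def, hg, Polynomial.eval_map]
    apply Subtype.ext
    have h2 := Polynomial.hom_eval₂ (f.reflect D) (Int.castRingHom A) A.subtype (r ξ)
    rw [hcomp] at h2
    change A.subtype _ = 0
    rw [h2]
    exact hK
  let T : Finset A := S.attach.image r
  have hle : T.val ≤ g.roots := by
    rw [Multiset.le_iff_subset T.nodup]
    intro a ha
    have ha' : a ∈ T := ha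
    obtain ⟨ξ, -, rfl⟩ := Finset.mem_image.mp ha'
    exact (Polynomial.mem_roots hgne).mpr (hroot ξ)
  obtain ⟨q, hq⟩ := (Multiset.prod_X_sub_C_dvd_iff_le_roots hgne T.val).mpr hle
  have heval : ((f.coeff D : ℤ) : A) = (∏ a ∈ T, (-a)) * q.eval 0 := by
    rw [← hg0, Polynomial.coeff_zero_eq_eval_zero, hq, Polynomial.eval_mul]
    congr 1
    rw [← Finset.prod_eq_multiset_prod, Polynomial.eval_prod]
    apply Finset.prod_congr rfl
    intro a _
    simp
  have hval : A.valuation ((f.coeff D : ℤ) : K) =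
      (∏ ξ ∈ S, (A.valuation ξ)⁻¹) * A.valuation ((q.eval 0 : A) : K) := by
    have h1 := congrArg A.subtype heval
    rw [map_intCast, map_mul, map_prod] at h1
    rw [h1, map_mul, map_prod]
    congr 1
    rw [Finset.prod_image (fun x _ y _ h => hr_inj h)]
    rw [← Finset.prod_attach S (fun ξ => (A.valuation ξ)⁻¹)]
    apply Finset.prod_congr rfl
    intro ξ _
    rw [map_neg, Valuation.map_neg]
    change A.valuation ((ξ : K)⁻¹) = _
    rw [map_inv₀]
  have hq1 : A.valuation ((q.eval 0 : A) : K) ≤ 1 := (A.valuation_le_one_iff _).mpr (q.eval 0).2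
  have hP0 : (∏ ξ ∈ S, A.valuation ξ) ≠ 0 := by
    rw [Finset.prod_ne_zero_iff]
    intro ξ hξ
    exact (A.valuation.ne_zero_iff).mpr (hξ0 ξ hξ)
  rw [hval, Finset.prod_inv_distrib]
  calc (∏ ξ ∈ S, A.valuation ξ)⁻¹ * A.valuation ((q.eval 0 : A) : K) * ∏ ξ ∈ S, A.valuation ξ
      = A.valuation ((q.eval 0 : A) : K) * ((∏ ξ ∈ S, A.valuation ξ)⁻¹ * ∏ ξ ∈ S, A.valuation ξ) := by
        ac_rfl
    _ = A.valuation ((q.eval 0 : A) : K) := by rw [inv_mul_cancel₀ hP0, mul_one]
    _ ≤ 1 := hq1

/-- A nonempty product of elements `> 1` is `> 1`. -/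
theorem one_lt_prod_val {Γ₀ : Type*} [LinearOrderedCommGroupWithZero Γ₀] {ι : Type*}
    (S : Finset ι) (F : ι → Γ₀) (hS : S.Nonempty) (h : ∀ i ∈ S, 1 < F i) : 1 < ∏ i ∈ S, F i := by
  classical
  induction S using Finset.induction_on with
  | empty => exact absurd hS (by simp)
  | insert i S hi ih =>
    rw [Finset.prod_insert hi]
    have h1 : 1 < F i := h i (Finset.mem_insert_self i S)
    by_cases hS' : S.Nonempty
    · have h2 := ih hS' (fun j hj => h j (Finset.mem_insert_of_mem hj))
      calc (1 : Γ₀) = 1 * 1 := (one_mul 1).symm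
        _ < F i * ∏ j ∈ S, F j :=
          mul_lt_mul_of_le_of_lt_of_nonneg_of_pos h1.le h2 zero_le (lt_trans zero_lt_one h1)
    · rw [Finset.not_nonempty_iff_eq_empty.mp hS', Finset.prod_empty, mul_one]
      exact h1

end Roots

section Rat

variable {K : Type*} [Field K] [CharZero K]

/-- A rational number in the maximal ideal of a valuation subring over `p` has valuation at most
`v p`. -/
theorem val_rat_le (A : ValuationSubring K) {p : ℕ} (hp : p.Prime) (hA : (p : K) ∈ A.nonunits)
    (r : ℚ) (hr : A.valuation ((r : ℚ) : K) < 1) :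
    A.valuation ((r : ℚ) : K) ≤ A.valuation (p : K) := by
  have hden0 : ((r.den : ℤ) : K) ≠ 0 := by
    exact_mod_cast r.den_ne_zero
  have hr_eq : ((r : ℚ) : K) = ((r.num : ℤ) : K) / ((r.den : ℤ) : K) := by
    have h := Rat.num_div_den r
    conv_lhs => rw [← h]
    push_cast
    rfl
  have hnum_le : A.valuation ((r.num : ℤ) : K) ≤ 1 :=
    (A.valuation_le_one_iff _).mpr (Fermat.Agent.S05.helper4205.vs_intCast_mem A r.num)
  have hden_le : A.valuation ((r.den : ℤ) : K) ≤ 1 :=
    (A.valuation_le_one_iff _).mpr (Fermat.Agent.S05.helper4205.vs_intCast_mem A r.den)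
  by_cases hpd : (p : ℤ) ∣ (r.den : ℤ)
  · exfalso
    have hpn : ¬ (p : ℤ) ∣ r.num := by
      intro hn
      have hcop := r.reduced
      have h1 : p ∣ r.num.natAbs := Int.natCast_dvd.mp hn
      have h2 : p ∣ r.den := Int.natCast_dvd_natCast.mp hpd
      have h3 := Nat.dvd_gcd h1 h2
      rw [hcop] at h3
      exact hp.one_lt.ne' (Nat.dvd_one.mp h3)
    have hnum1 : A.valuation ((r.num : ℤ) : K) = 1 :=
      Fermat.Agent.S05.helper4205.valuation_intCast_eq_one hp hA hpn
    rw [hr_eq, map_div₀, hnum1] at hr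
    have hdpos : (0 : _) < A.valuation ((r.den : ℤ) : K) := by
      rw [A.valuation.pos_iff]; exact hden0
    have : (1 : _) ≤ 1 / A.valuation ((r.den : ℤ) : K) := by
      rw [one_div]; exact (one_le_inv₀ hdpos).mpr hden_le
    exact absurd hr (not_lt.mpr this)
  · have hden1 : A.valuation ((r.den : ℤ) : K) = 1 :=
      Fermat.Agent.S05.helper4205.valuation_intCast_eq_one hp hA hpd
    rw [hr_eq, map_div₀, hden1, div_one] at hr ⊢
    have hpn : (p : ℤ) ∣ r.num := by
      by_contra hn
      have := Fermat.Agent.S05.helper4205.valuation_intCast_eq_one hp hA hn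
      rw [this] at hr
      exact lt_irrefl _ hr
    obtain ⟨m, hm⟩ := hpn
    rw [hm]
    push_cast
    rw [map_mul]
    have hm_le : A.valuation ((m : ℤ) : K) ≤ 1 :=
      (A.valuation_le_one_iff _).mpr (Fermat.Agent.S05.helper4205.vs_intCast_mem A m)
    calc A.valuation (p : K) * A.valuation ((m : ℤ) : K) ≤ A.valuation (p : K) * 1 := by gcongr
      _ = A.valuation (p : K) := mul_one _

end Rat

section Conj

open Fermat.Agent.Lib.helper54

attribute [local instance] isAlgebraic_Qbar isAlgClosure_Qbar isGalois_Qbar isIntegral_Qbar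

local notation "Qb" => AlgebraicClosure ℚ
local notation "GQ" => (AlgebraicClosure ℚ ≃ₐ[ℚ] AlgebraicClosure ℚ)
local notation "Zb" => integralClosure ℤ (AlgebraicClosure ℚ)

/-- The prime of `ℤ̄` cut out by a valuation subring over `ℓ` lies over `ℓ ℤ`. -/
theorem under_primeOfValuationSubring {ℓ : ℕ} (hℓ : ℓ.Prime) (A : ValuationSubring Qb)
    (hA : A.LiesOverPrime ℓ) :
    (primeOfValuationSubring A).under ℤ = Ideal.span {(ℓ : ℤ)} := by
  ext m
  rw [Ideal.mem_span_singleton, Ideal.under_def, Ideal.mem_comap]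
  have hcast : algebraMap ℤ Zb m = ((m : ℤ) : Zb) := by simp
  rw [hcast]
  constructor
  · intro h
    by_contra hm
    exact intCast_not_mem_primeOfValuationSubring hℓ A hA m hm h
  · rintro ⟨k, rfl⟩
    have h1 := natCast_mem_primeOfValuationSubring A hA
    have h2 : (((ℓ : ℤ) * k : ℤ) : Zb) = ((ℓ : ℕ) : Zb) * ((k : ℤ) : Zb) := by push_cast; rfl
    rw [h2]
    exact Ideal.mul_mem_right _ _ h1

/-- **Valuation subrings of `ℚ̄` over the same prime are conjugate.** -/
theorem exists_conj {ℓ : ℕ} (hℓ : ℓ.Prime) (A A' : ValuationSubring Qb)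
    (hA : A.LiesOverPrime ℓ) (hA' : A'.LiesOverPrime ℓ) :
    ∃ g : GQ, ∀ x : Qb, x ∈ A → g x ∈ A' := by
  classical
  let : TopologicalSpace Zb := ⊥
  have : DiscreteTopology Zb := ⟨rfl⟩
  have : ContinuousSMul GQ Zb := by
    rw [continuousSMul_iff_stabilizer_isOpen]
    intro z
    have : (MulAction.stabilizer GQ z : Set GQ) = MulAction.stabilizer GQ (z : Qb) := by
      ext g
      simp [Subtype.ext_iff]
    rw [this]
    exact stabilizer_isOpen_of_isIntegral _
  have := isInvariant_Zbar
  have hunder : (primeOfValuationSubring A).under ℤ = (primeOfValuationSubring A').under ℤ := by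
    rw [under_primeOfValuationSubring hℓ A hA, under_primeOfValuationSubring hℓ A' hA']
  obtain ⟨g, hg⟩ := Algebra.IsInvariant.exists_smul_of_under_eq_of_profinite (A := ℤ) (B := Zb)
    (G := GQ) (primeOfValuationSubring A) (primeOfValuationSubring A') hunder
  refine ⟨g, fun x hx => ?_⟩
  obtain ⟨a, b, hb, hab⟩ := exists_frac_of_mem_valuationSubring hℓ A hA x hx
  have hgb : g • b ∉ primeOfValuationSubring A' := by
    intro h
    rw [hg, Ideal.smul_mem_pointwise_smul_iff] at h
    exact hb h
  have h1 : g x * ((g • b : Zb) : Qb) = ((g • a : Zb) : Qb) := by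
    have := congrArg g hab
    rwa [map_mul] at this
  have hgaA : ((g • a : Zb) : Qb) ∈ A' := mem_valuationSubring_of_isIntegral A' _ (g • a).2
  rw [mem_primeOfValuationSubring, ValuationSubring.mem_nonunits_iff_or] at hgb
  push Not at hgb
  obtain ⟨hne, hunit⟩ := hgb
  have h2 : g x = ((g • a : Zb) : Qb) * (((g • b : Zb) : Qb))⁻¹ := by
    rw [← h1, mul_assoc, mul_inv_cancel₀ hne, mul_one]
  rw [h2]
  exact A'.mul_mem _ _ hgaA hunit

/-- An element of `ℚ̄` fixed by the whole Galois group is rational. -/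
theorem exists_rat_of_fixed (x : Qb) (hx : ∀ σ : GQ, σ x = x) : ∃ r : ℚ, algebraMap ℚ Qb r = x :=
  (InfiniteGalois.mem_range_algebraMap_iff_fixed x).mpr hx

end Conj

end Fermat.Agent.S13.helper2138
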