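import Fermat.Agent.S13.helper2138_LocalP
import Fermat.Agent.S13.helper2138_Div
import Fermat.Agent.S05.helper245_Local
import Fermat.Agent.S05.helper1445_Top

set_option autoImplicit false

/-!
# S13, ingredient I5 (`at_p`) (helper2138)

For a Galois-stable line `N` in the `p`-torsion of the Frey curve, the inertia groups at `p`
either all act trivially on `N` or all act trivially on the quotient by `N`.

Route (findings #1182): work on a Legendre model `Y² = X³ + a X² + b X` with integral `a, b`.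
For a valuation subring `A` of `ℚ̄` over `p` let `E₁(A) = {0} ∪ {x ∉ A}` (kernel of reduction).

* `inE1_inertia`: `σ T - T ∈ E₁(A)` for `σ` in the inertia group of `A` and every `p`-torsion
  point `T` (helper245's chain without `v p = 1`).
* `mem_of_inE1`: if a nonzero Galois-stable group `𝒩` of `p`-torsion points lies in `E₁(A)`, then
  *every* `p`-torsion point of `E₁(A)` lies in `𝒩` (division polynomial + rationality of the
  product of the `x`-coordinates of `𝒩`).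
* `inE1_conj`: `𝒩 ⊆ E₁(A)` does not depend on the valuation subring `A` over `p`.
-/

namespace Fermat.Agent.S13.helper2138

open WeierstrassCurve WeierstrassCurve.Affine WeierstrassCurve.Affine.Point
open Fermat.Agent.S05.helper245

local notation "Qb" => AlgebraicClosure ℚ
local notation "GQ" => (AlgebraicClosure ℚ ≃ₐ[ℚ] AlgebraicClosure ℚ)

section Legendre

variable {W : WeierstrassCurve ℚ}

/-- Membership in the kernel of reduction at `A` (for a model whose `x`-coordinate is `ptX`). -/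
def InE1 (A : ValuationSubring Qb) (T : (W⁄Qb).Point) : Prop :=
  T = 0 ∨ 1 < A.valuation (ptX T)

theorem legCoord (h₁ : W.a₁ = 0) (h₃ : W.a₃ = 0) (h₆ : W.a₆ = 0) :
    IsLegCoord (algebraMap ℚ Qb W.a₂) (algebraMap ℚ Qb W.a₄)
      (ptX (W := (W⁄Qb))) (ptY (W := (W⁄Qb))) := by
  have e₁ : (W⁄Qb).a₁ = 0 := by simp [WeierstrassCurve.baseChange, h₁]
  have e₃ : (W⁄Qb).a₃ = 0 := by simp [WeierstrassCurve.baseChange, h₃]
  have e₆ : (W⁄Qb).a₆ = 0 := by simp [WeierstrassCurve.baseChange, h₆]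
  have e₂ : (W⁄Qb).a₂ = algebraMap ℚ Qb W.a₂ := by simp [WeierstrassCurve.baseChange]
  have e₄ : (W⁄Qb).a₄ = algebraMap ℚ Qb W.a₄ := by simp [WeierstrassCurve.baseChange]
  have hL := isLegCoord_of_short (W := (W⁄Qb)) e₁ e₃ e₆
  rw [e₂, e₄] at hL
  exact hL

theorem smul_ne_zero' (σ : GQ) {Q : (W⁄Qb).Point} (hQ : Q ≠ 0) : σ • Q ≠ 0 := by
  rw [algEquiv_smul_def]
  cases Q with
  | zero => exact absurd rfl hQ
  | some x y h => rw [Point.map_some]; exact Point.some_ne_zero _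

theorem ptX_smul (σ : GQ) {Q : (W⁄Qb).Point} (hQ : Q ≠ 0) : ptX (σ • Q) = σ (ptX Q) := by
  rw [algEquiv_smul_def]
  cases Q with
  | zero => exact absurd rfl hQ
  | some x y h => rw [Point.map_some]; rfl

theorem ptY_smul (σ : GQ) {Q : (W⁄Qb).Point} (hQ : Q ≠ 0) : ptY (σ • Q) = σ (ptY Q) := by
  rw [algEquiv_smul_def]
  cases Q with
  | zero => exact absurd rfl hQ
  | some x y h => rw [Point.map_some]; rfl

theorem InE1.sub (h₁ : W.a₁ = 0) (h₃ : W.a₃ = 0) (h₆ : W.a₆ = 0) {A : ValuationSubring Qb}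
    (ha₂ : algebraMap ℚ Qb W.a₂ ∈ A) (ha₄ : algebraMap ℚ Qb W.a₄ ∈ A)
    {S T : (W⁄Qb).Point} (hS : InE1 A S) (hT : InE1 A T) : InE1 A (S - T) := by
  have hva : A.valuation (algebraMap ℚ Qb W.a₂) ≤ 1 := (A.valuation_le_one_iff _).mpr ha₂
  have hvb : A.valuation (algebraMap ℚ Qb W.a₄) ≤ 1 := (A.valuation_le_one_iff _).mpr ha₄
  have hS' : S ∈ E1 A.valuation (legCoord h₁ h₃ h₆) hva hvb := hS
  have hT' : T ∈ E1 A.valuation (legCoord h₁ h₃ h₆) hva hvb := hT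
  exact sub_mem hS' hT'

/-- **F1**: inertia moves `p`-torsion points inside the kernel of reduction. -/
theorem inE1_inertia (h₁ : W.a₁ = 0) (h₃ : W.a₃ = 0) (h₆ : W.a₆ = 0) (h₄ : W.a₄ ≠ 0)
    {p : ℕ} (hp : p.Prime) (hp2 : p ≠ 2) (A : ValuationSubring Qb)
    (ha₂ : algebraMap ℚ Qb W.a₂ ∈ A) (ha₄ : algebraMap ℚ Qb W.a₄ ∈ A)
    (h2 : A.valuation (2 : Qb) = 1)
    (hdisc : A.valuation (algebraMap ℚ Qb (W.a₂ ^ 2 - 4 * W.a₄)) = 1)
    (hcase : ∃ w : ℚ, A.valuation (algebraMap ℚ Qb W.a₄) = A.valuation (algebraMap ℚ Qb w) ^ p)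
    (σ : GQ) (hσ : ∀ x, x ∈ A → σ x - x ∈ A.nonunits)
    (T : (W⁄Qb).Point) (hT : p • T = 0) : InE1 A (σ • T - T) := by
  have hL := legCoord (W := W) h₁ h₃ h₆
  have hva : A.valuation (algebraMap ℚ Qb W.a₂) ≤ 1 := (A.valuation_le_one_iff _).mpr ha₂
  have hvb : A.valuation (algebraMap ℚ Qb W.a₄) ≤ 1 := (A.valuation_le_one_iff _).mpr ha₄
  have hdisc' : A.valuation ((algebraMap ℚ Qb W.a₂) ^ 2 - 4 * algebraMap ℚ Qb W.a₄) = 1 := by
    rw [← hdisc]; congr 1; simp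
  have hs : ∀ u : Qb, A.valuation u ≤ 1 → A.valuation (σ u - u) < 1 := fun u hu =>
    (A.mem_nonunits_iff).mp (hσ u ((A.valuation_le_one_iff u).mp hu))
  have hτ0 : ∀ Q : (W⁄Qb).Point, Q ≠ 0 → Point.map (W' := W) σ.toAlgHom Q ≠ 0 :=
    fun Q hQ => smul_ne_zero' σ hQ
  have hτX : ∀ Q : (W⁄Qb).Point, Q ≠ 0 →
      ptX (Point.map (W' := W) σ.toAlgHom Q) = (σ : Qb →+* Qb) (ptX Q) :=
    fun Q hQ => ptX_smul σ hQ
  have hτY : ∀ Q : (W⁄Qb).Point, Q ≠ 0 →
      ptY (Point.map (W' := W) σ.toAlgHom Q) = (σ : Qb →+* Qb) (ptY Q) :=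
    fun Q hQ => ptY_smul σ hQ
  have hodd : Odd p := hp.odd_of_ne_two hp2
  rw [algEquiv_smul_def]
  have good : A.valuation (algebraMap ℚ Qb W.a₄) = 1 →
      InE1 A (Point.map (W' := W) σ.toAlgHom T - T) := fun hb =>
    good_sub_mem_E1 A.valuation hL hva hb hdisc' h2 hodd (Point.map (W' := W) σ.toAlgHom) hτ0
      (σ : Qb →+* Qb) hτX hτY hs hT
  obtain ⟨w, hw⟩ := hcase
  rcases hvb.lt_or_eq with hlt | heq
  · have hb0 : algebraMap ℚ Qb W.a₄ ≠ 0 := by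
      rw [Ne, map_eq_zero]; exact h₄
    have hva1 : A.valuation (algebraMap ℚ Qb W.a₂) = 1 := by
      apply eq_of_sq_eq_sq'
      have h4b : A.valuation (4 * algebraMap ℚ Qb W.a₄) <
          A.valuation ((algebraMap ℚ Qb W.a₂) ^ 2 - 4 * algebraMap ℚ Qb W.a₄) := by
        rw [hdisc', (A.valuation).map_mul]
        calc A.valuation 4 * A.valuation (algebraMap ℚ Qb W.a₄)
            ≤ 1 * A.valuation (algebraMap ℚ Qb W.a₄) := by
              gcongr; exact val_four_le_one _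
          _ = A.valuation (algebraMap ℚ Qb W.a₄) := one_mul _
          _ < 1 := hlt
      have e : (algebraMap ℚ Qb W.a₂) ^ 2 =
          ((algebraMap ℚ Qb W.a₂) ^ 2 - 4 * algebraMap ℚ Qb W.a₄) +
            4 * algebraMap ℚ Qb W.a₄ := by ring
      rw [← (A.valuation).map_pow, e, (A.valuation).map_add_eq_of_lt_left h4b, hdisc', one_pow]
    obtain ⟨β, hβ⟩ := IsAlgClosed.exists_pow_nat_eq (algebraMap ℚ Qb W.a₂) (n := 2)
      (by norm_num)
    have e₆ : (W⁄Qb).a₆ = 0 := by simp [WeierstrassCurve.baseChange, h₆]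
    have e₄ : (W⁄Qb).a₄ = algebraMap ℚ Qb W.a₄ := by simp [WeierstrassCurve.baseChange]
    have hT0 : (W⁄Qb).Nonsingular 0 0 := by
      rw [nonsingular_zero]
      exact ⟨e₆, Or.inr (by rw [e₄]; exact hb0)⟩
    have hT00 : Point.some 0 0 hT0 ≠ 0 := Point.some_ne_zero _
    exact node_sub_mem_E1 A.valuation hL hva1 hlt hb0 h2 hβ hT00 rfl rfl hp hp2
      (Point.map (W' := W) σ.toAlgHom) hτ0 (σ : Qb →+* Qb) hτX hτY hs
      (d := algebraMap ℚ Qb w) (σ.commutes w) hw hT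
  · exact good heq

/-- Two nonzero points with the same `x`-coordinate are equal or opposite. -/
theorem eq_or_eq_neg_of_ptX_eq (h₁ : W.a₁ = 0) (h₃ : W.a₃ = 0) (h₆ : W.a₆ = 0)
    {S T : (W⁄Qb).Point} (hS : S ≠ 0) (hT : T ≠ 0) (h : ptX S = ptX T) : S = T ∨ S = -T := by
  have hL := legCoord (W := W) h₁ h₃ h₆
  have e1 := hL.eqn S hS
  have e2 := hL.eqn T hT
  rw [h] at e1
  have hsq : ptY S ^ 2 = ptY T ^ 2 := e1.trans e2.symm
  rcases sq_eq_sq_iff_eq_or_eq_neg.mp hsq with h' | h'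
  · left; exact hL.inj S T hS hT h h'
  · right
    have hT' : -T ≠ 0 := neg_ne_zero.mpr hT
    exact hL.inj S (-T) hS hT' (by rw [hL.negX T hT]; exact h) (by rw [hL.negY T hT]; exact h')

/-- **F2**: if a nonzero Galois-stable group `𝒩` of `p`-torsion points lies in the kernel of
reduction at `A` (over `p`), then every `p`-torsion point in the kernel of reduction at `A` lies
in `𝒩`.  `Ψ` is (any integral multiple-free form of) the `p`-th division polynomial. -/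
theorem mem_of_inE1 (h₁ : W.a₁ = 0) (h₃ : W.a₃ = 0) (h₆ : W.a₆ = 0)
    {p : ℕ} (hp : p.Prime) (A : ValuationSubring Qb) (hA : A.LiesOverPrime p)
    (Ψ : Polynomial ℤ) (D : ℕ) (hΨdeg : Ψ.natDegree ≤ D)
    (hΨc : Ψ.coeff D = p ∨ Ψ.coeff D = -p)
    (hΨ : ∀ T : (W⁄Qb).Point, T ≠ 0 → p • T = 0 → Polynomial.aeval (ptX T) Ψ = 0)
    (𝒩 : AddSubgroup (W⁄Qb).Point) (h𝒩p : ∀ n ∈ 𝒩, p • n = 0)
    (h𝒩G : ∀ σ : GQ, ∀ n ∈ 𝒩, σ • n ∈ 𝒩) (h𝒩0 : ∃ n ∈ 𝒩, n ≠ 0)
    (h𝒩E : ∀ n ∈ 𝒩, InE1 A n) (T : (W⁄Qb).Point) (hT : p • T = 0) (hTE : InE1 A T) :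
    T ∈ 𝒩 := by
  classical
  by_contra hTN
  have hT0 : T ≠ 0 := fun h => hTN (h ▸ 𝒩.zero_mem)
  have hTx : 1 < A.valuation (ptX T) := hTE.resolve_left hT0
  set ΨK : Polynomial Qb := Ψ.map (Int.castRingHom Qb) with hΨK
  have hcK : ((Ψ.coeff D : ℤ) : Qb) ≠ 0 := by
    rcases hΨc with h | h <;> rw [h] <;> simp [hp.ne_zero]
  have hΨK0 : ΨK ≠ 0 := by
    intro h
    have h1 := congrArg (fun q => q.coeff D) h
    simp only [hΨK, Polynomial.coeff_map, Polynomial.coeff_zero, eq_intCast] at h1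
    exact hcK h1
  have hroot : ∀ n : (W⁄Qb).Point, n ≠ 0 → p • n = 0 → ptX n ∈ ΨK.roots := by
    intro n hn hpn
    rw [Polynomial.mem_roots hΨK0, Polynomial.IsRoot.def, hΨK, Polynomial.eval_map,
      ← algebraMap_int_eq, ← Polynomial.aeval_def]
    exact hΨ n hn hpn
  let S : Finset Qb := ΨK.roots.toFinset.filter (fun ξ => ∃ n ∈ 𝒩, n ≠ 0 ∧ ptX n = ξ)
  have hS_mem : ∀ n ∈ 𝒩, n ≠ 0 → ptX n ∈ S := by
    intro n hn hn0
    rw [Finset.mem_filter, Multiset.mem_toFinset]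
    exact ⟨hroot n hn0 (h𝒩p n hn), n, hn, hn0, rfl⟩
  have hS_spec : ∀ ξ ∈ S, ∃ n ∈ 𝒩, n ≠ 0 ∧ ptX n = ξ := fun ξ hξ => (Finset.mem_filter.mp hξ).2
  have hS_val : ∀ ξ ∈ S, 1 < A.valuation ξ ∧ Polynomial.aeval ξ Ψ = 0 := by
    intro ξ hξ
    obtain ⟨n, hn, hn0, rfl⟩ := hS_spec ξ hξ
    exact ⟨(h𝒩E n hn).resolve_left hn0, hΨ n hn0 (h𝒩p n hn)⟩
  have hS_ne : S.Nonempty := by
    obtain ⟨n, hn, hn0⟩ := h𝒩0
    exact ⟨ptX n, hS_mem n hn hn0⟩
  have hTS : ptX T ∉ S := by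
    intro h
    obtain ⟨n, hn, hn0, hx⟩ := hS_spec _ h
    rcases eq_or_eq_neg_of_ptX_eq h₁ h₃ h₆ hT0 hn0 hx.symm with h' | h'
    · exact hTN (h' ▸ hn)
    · exact hTN (h' ▸ 𝒩.neg_mem hn)
  -- the product of the `x`-coordinates of `𝒩` is rational
  set w : Qb := ∏ ξ ∈ S, ξ with hw
  have hfix : ∀ σ : GQ, σ w = w := by
    intro σ
    have himg : S.image σ = S := by
      apply Finset.eq_of_subset_of_card_le
      · intro η hη
        obtain ⟨ξ, hξ, rfl⟩ := Finset.mem_image.mp hη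
        obtain ⟨n, hn, hn0, rfl⟩ := hS_spec ξ hξ
        rw [← ptX_smul σ hn0]
        exact hS_mem _ (h𝒩G σ n hn) (smul_ne_zero' σ hn0)
      · rw [Finset.card_image_of_injective _ σ.injective]
    rw [hw, map_prod]
    conv_rhs => rw [← himg]
    rw [Finset.prod_image (fun x _ y _ h => σ.injective h)]
  obtain ⟨r, hr⟩ := exists_rat_of_fixed w hfix
  have hwval : 1 < A.valuation w := by
    rw [hw, map_prod]
    exact one_lt_prod_val S _ hS_ne (fun ξ hξ => (hS_val ξ hξ).1)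
  have hwpos : 0 < A.valuation w := lt_trans zero_lt_one hwval
  have hinv : (A.valuation w)⁻¹ ≤ A.valuation (p : Qb) := by
    have e : ((r⁻¹ : ℚ) : Qb) = w⁻¹ := by
      rw [← hr, eq_ratCast]; push_cast; rfl
    have h1 : A.valuation ((r⁻¹ : ℚ) : Qb) < 1 := by
      rw [e, map_inv₀]; exact inv_lt_one_of_one_lt₀ hwval
    have h2 := val_rat_le A hp hA r⁻¹ h1
    rwa [e, map_inv₀] at h2
  -- the division polynomial bound
  have hdiv := val_prod_roots_le A Ψ D hΨdeg hcK (insert (ptX T) S) (by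
    intro ξ hξ
    rcases Finset.mem_insert.mp hξ with rfl | h
    · exact ⟨hTx, hΨ T hT0 hT⟩
    · exact hS_val ξ h)
  rw [Finset.prod_insert hTS] at hdiv
  have hcv : A.valuation ((Ψ.coeff D : ℤ) : Qb) = A.valuation (p : Qb) := by
    rcases hΨc with h | h <;> rw [h] <;> simp
  rw [hcv, ← map_prod, ← hw] at hdiv
  have h1 : 1 ≤ A.valuation (p : Qb) * A.valuation w := by
    calc 1 = (A.valuation w)⁻¹ * A.valuation w := (inv_mul_cancel₀ hwpos.ne').symm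
      _ ≤ A.valuation (p : Qb) * A.valuation w := by gcongr
  have h2 : A.valuation (p : Qb) * A.valuation w <
      A.valuation (p : Qb) * (A.valuation (ptX T) * A.valuation w) := by
    have hpos : 0 < A.valuation (p : Qb) * A.valuation w := lt_of_lt_of_le zero_lt_one h1
    calc A.valuation (p : Qb) * A.valuation w
        = 1 * (A.valuation (p : Qb) * A.valuation w) := (one_mul _).symm
      _ < A.valuation (ptX T) * (A.valuation (p : Qb) * A.valuation w) :=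
          mul_lt_mul_of_pos_right hTx hpos
      _ = A.valuation (p : Qb) * (A.valuation (ptX T) * A.valuation w) := by ac_rfl
  exact absurd (lt_of_le_of_lt h1 h2) (not_lt.mpr hdiv)

/-- **F3**: for a Galois-stable set of points, lying in the kernel of reduction does not depend
on the valuation subring over `p`. -/
theorem inE1_conj {p : ℕ} (hp : p.Prime) (A A' : ValuationSubring Qb)
    (hA : A.LiesOverPrime p) (hA' : A'.LiesOverPrime p)
    (𝒩 : AddSubgroup (W⁄Qb).Point) (h𝒩G : ∀ σ : GQ, ∀ n ∈ 𝒩, σ • n ∈ 𝒩)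
    (h𝒩E : ∀ n ∈ 𝒩, InE1 A n) : ∀ n ∈ 𝒩, InE1 A' n := by
  obtain ⟨g, hg⟩ := exists_conj hp A' A hA' hA
  intro n hn
  by_cases hn0 : n = 0
  · exact Or.inl hn0
  right
  by_contra hle
  have hle' : A'.valuation (ptX n) ≤ 1 := le_of_not_gt hle
  have hmem : ptX n ∈ A' := (A'.valuation_le_one_iff _).mp hle'
  have h1 : g (ptX n) ∈ A := hg _ hmem
  rw [← ptX_smul g hn0] at h1
  have h2 : A.valuation (ptX (g • n)) ≤ 1 := (A.valuation_le_one_iff _).mpr h1
  have h3 := (h𝒩E (g • n) (h𝒩G g n hn)).resolve_left (smul_ne_zero' g hn0)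
  exact absurd h3 (not_lt.mpr h2)

end Legendre

section Transfer

open Fermat.Agent.S05.helper725

variable {E W : WeierstrassCurve ℚ} {u r s t : ℚ}

/-- **The dichotomy at `p`** for a curve `E` related by a rational change of variables to a
Legendre-type model `W : Y² = X³ + a₂ X² + a₄ X` which is integral at `p`, with `a₂² - 4 a₄` a
`p`-adic unit and `v(a₄)` a `p`-th power of the valuation of a rational, given a
"division polynomial" `Ψ` for `W`, and a Galois-stable *line* `N` in `E[p]`. -/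
theorem atp_of_isVarChange
    (hK : IsVarChange (E⁄Qb) (W⁄Qb) (algebraMap ℚ Qb u) (algebraMap ℚ Qb r) (algebraMap ℚ Qb s)
      (algebraMap ℚ Qb t))
    (h₁ : W.a₁ = 0) (h₃ : W.a₃ = 0) (h₆ : W.a₆ = 0) (h₄ : W.a₄ ≠ 0)
    {p : ℕ} (hp : p.Prime) (hp2 : p ≠ 2)
    (hint₂ : ∀ A : ValuationSubring Qb, A.LiesOverPrime p → algebraMap ℚ Qb W.a₂ ∈ A)
    (hint₄ : ∀ A : ValuationSubring Qb, A.LiesOverPrime p → algebraMap ℚ Qb W.a₄ ∈ A)
    (hdisc : ∀ A : ValuationSubring Qb, A.LiesOverPrime p →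
      A.valuation (algebraMap ℚ Qb (W.a₂ ^ 2 - 4 * W.a₄)) = 1)
    (hcase : ∀ A : ValuationSubring Qb, A.LiesOverPrime p →
      ∃ w : ℚ, A.valuation (algebraMap ℚ Qb W.a₄) = A.valuation (algebraMap ℚ Qb w) ^ p)
    (Ψ : Polynomial ℤ) (D : ℕ) (hΨdeg : Ψ.natDegree ≤ D)
    (hΨc : Ψ.coeff D = p ∨ Ψ.coeff D = -p)
    (hΨ : ∀ T : (W⁄Qb).Point, T ≠ 0 → p • T = 0 → Polynomial.aeval (ptX T) Ψ = 0)
    (N : Submodule (ZMod p) (Submodule.torsionBy ℤ (E⁄Qb).Point p))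
    (hN : IsGaloisStable ℚ N) (hN0 : N ≠ ⊥)
    (hline : ∀ M : Submodule (ZMod p) (Submodule.torsionBy ℤ (E⁄Qb).Point p),
      M ≤ N → M = ⊥ ∨ M = N) :
    (∀ A : ValuationSubring Qb, A.LiesOverPrime p →
      ∀ σ ∈ A.inertiaSubgroupIn ℚ, ∀ x ∈ N, σ • x = x) ∨
    (∀ A : ValuationSubring Qb, A.LiesOverPrime p →
      ∀ σ ∈ A.inertiaSubgroupIn ℚ,
        ∀ x : Submodule.torsionBy ℤ (E⁄Qb).Point p, σ • x - x ∈ N) := by
  classical
  have hφp : ∀ x : Submodule.torsionBy ℤ (E⁄Qb).Point p,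
      p • vcHom hK (x : (E⁄Qb).Point) = 0 := by
    intro x
    have hx : ((p : ℕ) : ℤ) • (x : (E⁄Qb).Point) = 0 := by
      have := x.2
      rwa [Submodule.mem_torsionBy_iff] at this
    rw [← map_nsmul, ← natCast_zsmul, hx, _root_.map_zero]
  have hφσ : ∀ (σ : GQ) (x : Submodule.torsionBy ℤ (E⁄Qb).Point p),
      vcHom hK ((σ • x - x : Submodule.torsionBy ℤ (E⁄Qb).Point p) : (E⁄Qb).Point) =
        σ • vcHom hK (x : (E⁄Qb).Point) - vcHom hK (x : (E⁄Qb).Point) := by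
    intro σ x
    have e : ((σ • x - x : Submodule.torsionBy ℤ (E⁄Qb).Point p) : (E⁄Qb).Point) =
        σ • (x : (E⁄Qb).Point) - (x : (E⁄Qb).Point) := rfl
    rw [e, map_sub, vcHom_smul]
  let 𝒩 : AddSubgroup (W⁄Qb).Point :=
    { carrier := {y | ∃ x ∈ N, vcHom hK (x : (E⁄Qb).Point) = y}
      zero_mem' := ⟨0, N.zero_mem, by simp⟩
      add_mem' := by
        rintro _ _ ⟨x, hx, rfl⟩ ⟨y, hy, rfl⟩
        exact ⟨x + y, N.add_mem hx hy, by simp [map_add]⟩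
      neg_mem' := by
        rintro _ ⟨x, hx, rfl⟩
        exact ⟨-x, N.neg_mem hx, by simp [map_neg]⟩ }
  have h𝒩p : ∀ n ∈ 𝒩, p • n = 0 := by
    rintro _ ⟨x, -, rfl⟩
    exact hφp x
  have h𝒩G : ∀ σ : GQ, ∀ n ∈ 𝒩, σ • n ∈ 𝒩 := by
    rintro σ _ ⟨x, hx, rfl⟩
    refine ⟨σ • x, hN σ x hx, ?_⟩
    have e : ((σ • x : Submodule.torsionBy ℤ (E⁄Qb).Point p) : (E⁄Qb).Point) =
        σ • (x : (E⁄Qb).Point) := rfl
    rw [e, vcHom_smul]
  have h𝒩0 : ∃ n ∈ 𝒩, n ≠ 0 := by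
    obtain ⟨x0, hx0, hx0ne⟩ := (Submodule.ne_bot_iff N).mp hN0
    refine ⟨vcHom hK (x0 : (E⁄Qb).Point), ⟨x0, hx0, rfl⟩, fun h => hx0ne ?_⟩
    apply Subtype.ext
    apply vcHom_injective hK
    rw [h]
    exact (_root_.map_zero (vcHom hK)).symm
  by_cases h : ∃ A : ValuationSubring Qb, A.LiesOverPrime p ∧ ∀ n ∈ 𝒩, InE1 A n
  · right
    intro A' hA' σ hσ x
    obtain ⟨A, hA, hE⟩ := h
    have hE' := inE1_conj hp A A' hA hA' 𝒩 h𝒩G hE
    obtain ⟨-, hσ2⟩ := Fermat.Agent.S05.helper1445.inertia_facts hσ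
    have h2 := Fermat.Agent.S05.helper1445.valuation_two_eq_one A' hp hA' hp2
    have hF1 := inE1_inertia h₁ h₃ h₆ h₄ hp hp2 A' (hint₂ A' hA') (hint₄ A' hA') h2
      (hdisc A' hA') (hcase A' hA') σ hσ2 (vcHom hK (x : (E⁄Qb).Point)) (hφp x)
    rw [← hφσ σ x] at hF1
    have hmem := mem_of_inE1 h₁ h₃ h₆ hp A' hA' Ψ D hΨdeg hΨc hΨ 𝒩 h𝒩p h𝒩G h𝒩0 hE' _
      (hφp (σ • x - x)) hF1
    obtain ⟨z, hz, hzeq⟩ := hmem
    have hzy : z = σ • x - x := Subtype.ext (vcHom_injective hK hzeq)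
    rw [← hzy]
    exact hz
  · left
    intro A hA σ hσ x hx
    have hnot : ¬ ∀ n ∈ 𝒩, InE1 A n := fun hall => h ⟨A, hA, hall⟩
    obtain ⟨-, hσ2⟩ := Fermat.Agent.S05.helper1445.inertia_facts hσ
    have h2 := Fermat.Agent.S05.helper1445.valuation_two_eq_one A hp hA hp2
    have hva : A.valuation (algebraMap ℚ Qb W.a₂) ≤ 1 :=
      (A.valuation_le_one_iff _).mpr (hint₂ A hA)
    have hvb : A.valuation (algebraMap ℚ Qb W.a₄) ≤ 1 :=
      (A.valuation_le_one_iff _).mpr (hint₄ A hA)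
    let M0 : AddSubgroup (Submodule.torsionBy ℤ (E⁄Qb).Point p) :=
      N.toAddSubgroup ⊓ (E1 A.valuation (legCoord (W := W) h₁ h₃ h₆) hva hvb).comap
        ((vcHom hK).comp (Submodule.torsionBy ℤ (E⁄Qb).Point p).subtype.toAddMonoidHom)
    let M : Submodule (ZMod p) (Submodule.torsionBy ℤ (E⁄Qb).Point p) :=
      AddSubgroup.toZModSubmodule p M0
    have hM_iff : ∀ y : Submodule.torsionBy ℤ (E⁄Qb).Point p,
        y ∈ M ↔ y ∈ N ∧ InE1 A (vcHom hK (y : (E⁄Qb).Point)) := fun y => Iff.rfl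
    have hMN : M ≤ N := fun y hy => ((hM_iff y).mp hy).1
    rcases hline M hMN with hM | hM
    · have hF1 := inE1_inertia h₁ h₃ h₆ h₄ hp hp2 A (hint₂ A hA) (hint₄ A hA) h2
        (hdisc A hA) (hcase A hA) σ hσ2 (vcHom hK (x : (E⁄Qb).Point)) (hφp x)
      rw [← hφσ σ x] at hF1
      have hy : σ • x - x ∈ M := (hM_iff _).mpr ⟨N.sub_mem (hN σ x hx) hx, hF1⟩
      rw [hM, Submodule.mem_bot] at hy
      exact sub_eq_zero.mp hy
    · exfalso
      apply hnot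
      rintro _ ⟨x', hx', rfl⟩
      have hx'M : x' ∈ M := by rw [hM]; exact hx'
      exact ((hM_iff x').mp hx'M).2

end Transfer

section Frey

open Fermat.Agent.S05.helper725

/-- The only input still taken as a hypothesis: a "`p`-th division polynomial" for Legendre
models `Y² = X³ + a X² + b X` with integer coefficients: an integer polynomial of degree at most
`D` with coefficient `± p` in degree `D`, vanishing at the `x`-coordinates of all nonzero
`p`-torsion points over `ℚ̄`.  (For the true division polynomial `D = (p² - 1)/2`.) -/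
def PsiStmt : Prop :=
  ∀ (a b : ℤ) (p : ℕ), p.Prime → p ≠ 2 →
    ∃ (Ψ : Polynomial ℤ) (D : ℕ), Ψ.natDegree ≤ D ∧ (Ψ.coeff D = p ∨ Ψ.coeff D = -p) ∧
      ∀ T : ((legendreModel (a : ℚ) (b : ℚ))⁄Qb).Point, T ≠ 0 → p • T = 0 →
        Polynomial.aeval (ptX T) Ψ = 0

/-- In a two-dimensional `𝔽_p`-vector space, a submodule of a proper nonzero submodule `N` is
`⊥` or `N`. -/
theorem line_of_card {p : ℕ} [Fact p.Prime] {V : Type*} [AddCommGroup V] [Module (ZMod p) V]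
    (hcard : Nat.card V = p ^ 2) (N : Submodule (ZMod p) V) (h1 : N ≠ ⊤) :
    ∀ M : Submodule (ZMod p) V, M ≤ N → M = ⊥ ∨ M = N := by
  have hV : Module.finrank (ZMod p) V = 2 := by
    have : Finite V := Nat.finite_of_card_ne_zero (by
      rw [hcard]; exact pow_ne_zero _ (Fact.out : p.Prime).ne_zero)
    have h := Module.natCard_eq_pow_finrank (K := ZMod p) (V := V)
    rw [hcard, Nat.card_zmod] at h
    exact (Nat.pow_right_injective (Fact.out : p.Prime).two_le h).symm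
  have : Module.Finite (ZMod p) V := Module.finite_of_finrank_pos (by omega)
  have hNlt : Module.finrank (ZMod p) N < 2 := hV ▸ Submodule.finrank_lt h1
  intro M hMN
  by_cases hM : M = ⊥
  · exact Or.inl hM
  right
  have hMpos : 0 < Module.finrank (ZMod p) M := by
    rw [Nat.pos_iff_ne_zero]
    intro h
    exact hM (Submodule.finrank_eq_zero.mp h)
  exact Submodule.eq_of_le_of_finrank_le hMN (by omega)

/-- The dichotomy at `p` for any curve related by a rational change of variables to a Legendre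
model with integer data `(a₂, b = e w^p)`, `a₂² - 4 b = d²`, `p ∤ d`. -/
theorem legendre_atp (hΨ : PsiStmt) {E : WeierstrassCurve ℚ} {u r s t : ℚ} {p : ℕ}
    (hp : p.Prime) (hp2 : p ≠ 2) (a₂ b w d : ℤ) (hw : w ≠ 0) (e : ℤ) (he : e = 1 ∨ e = -1)
    (hb : b = e * w ^ p) (hd : ¬ (p : ℤ) ∣ d) (hdisc : a₂ ^ 2 - 4 * b = d ^ 2)
    (hK : IsVarChange (E⁄Qb) ((legendreModel (a₂ : ℚ) (b : ℚ))⁄Qb) (algebraMap ℚ Qb u)
      (algebraMap ℚ Qb r) (algebraMap ℚ Qb s) (algebraMap ℚ Qb t))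
    (N : Submodule (ZMod p) (Submodule.torsionBy ℤ (E⁄Qb).Point p))
    (hN : IsGaloisStable ℚ N) (hN0 : N ≠ ⊥)
    (hline : ∀ M : Submodule (ZMod p) (Submodule.torsionBy ℤ (E⁄Qb).Point p),
      M ≤ N → M = ⊥ ∨ M = N) :
    (∀ A : ValuationSubring Qb, A.LiesOverPrime p →
      ∀ σ ∈ A.inertiaSubgroupIn ℚ, ∀ x ∈ N, σ • x = x) ∨
    (∀ A : ValuationSubring Qb, A.LiesOverPrime p →
      ∀ σ ∈ A.inertiaSubgroupIn ℚ,
        ∀ x : Submodule.torsionBy ℤ (E⁄Qb).Point p, σ • x - x ∈ N) := by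
  obtain ⟨Ψ, D, hdeg, hc, hroot⟩ := hΨ a₂ b p hp hp2
  have he0 : e ≠ 0 := by rcases he with rfl | rfl <;> norm_num
  have hb0 : (b : ℚ) ≠ 0 := by
    rw [hb]
    exact_mod_cast mul_ne_zero he0 (pow_ne_zero _ hw)
  refine atp_of_isVarChange hK rfl rfl rfl hb0 hp hp2 ?_ ?_ ?_ ?_ Ψ D hdeg hc hroot N hN hN0
    hline
  · intro A _
    simp only [legendreModel_a₂, map_intCast]
    exact Fermat.Agent.S05.helper1445.intCast_mem' A a₂
  · intro A _
    simp only [legendreModel_a₄, map_intCast]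
    exact Fermat.Agent.S05.helper1445.intCast_mem' A b
  · intro A hA
    have h1 : algebraMap ℚ Qb ((legendreModel (a₂ : ℚ) (b : ℚ)).a₂ ^ 2
        - 4 * (legendreModel (a₂ : ℚ) (b : ℚ)).a₄) = ((d : ℤ) : Qb) ^ 2 := by
      simp only [legendreModel_a₂, legendreModel_a₄]
      have h2 : ((a₂ : ℚ) ^ 2 - 4 * (b : ℚ)) = ((d ^ 2 : ℤ) : ℚ) := by
        rw [← hdisc]; push_cast; ring
      rw [h2]
      simp
    rw [h1, map_pow, Fermat.Agent.S05.helper1445.valuation_intCast_eq_one A hp hA hd, one_pow]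
  · intro A _
    refine ⟨(w : ℚ), ?_⟩
    have hve : A.valuation ((e : ℤ) : Qb) = 1 := by
      rcases he with rfl | rfl <;> simp
    simp only [legendreModel_a₄, map_intCast]
    rw [hb]
    push_cast
    rw [map_mul, map_pow, hve, one_mul]

/-- **S13, ingredient I5** (exact shape of the field `at_p` of helper13's `Ingredients`), from
the division-polynomial statement `PsiStmt` and `#E[p] = p²`. -/
theorem at_p (hΨ : PsiStmt) (P : FreyPackage)
    (hcard : Nat.card (Submodule.torsionBy ℤ ((P.freyCurve)⁄Qb).Point P.p) = P.p ^ 2) :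
    ∀ N : Submodule (ZMod P.p) (Submodule.torsionBy ℤ ((P.freyCurve)⁄Qb).Point P.p),
      IsGaloisStable ℚ N → N ≠ ⊥ → N ≠ ⊤ →
      (∀ A : ValuationSubring Qb, A.LiesOverPrime P.p →
        ∀ σ ∈ A.inertiaSubgroupIn ℚ, ∀ x ∈ N, σ • x = x) ∨
      (∀ A : ValuationSubring Qb, A.LiesOverPrime P.p →
        ∀ σ ∈ A.inertiaSubgroupIn ℚ,
          ∀ x : Submodule.torsionBy ℤ ((P.freyCurve)⁄Qb).Point P.p, σ • x - x ∈ N) := by
  intro N hN hN0 hN1
  haveI : Fact P.p.Prime := ⟨P.pp⟩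
  have hp2 : P.p ≠ 2 := by have := P.hp5; omega
  have hline := line_of_card hcard N hN1
  have hFLT := P.hFLT
  by_cases hc : (P.p : ℤ) ∣ P.c
  · -- `p ∣ c`: shifted model `Y² = X (X + a^p) (X + c^p)`
    have hbnd : ¬ (P.p : ℤ) ∣ P.b :=
      Fermat.Agent.S05.helper1445.not_dvd_of_gcd_eq_one P.pp
        (by rw [gcd_comm]; exact P.hgcdbc) hc
    have hK := (frey_isVarChange_shift P).map (algebraMap ℚ Qb)
    have e1 : ((P.a : ℚ) ^ P.p + (P.c : ℚ) ^ P.p) = ((P.a ^ P.p + P.c ^ P.p : ℤ) : ℚ) := by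
      push_cast; ring
    have e2 : (P.a : ℚ) ^ P.p * (P.c : ℚ) ^ P.p = (((P.a * P.c) ^ P.p : ℤ) : ℚ) := by
      push_cast; ring
    rw [e1, e2] at hK
    exact legendre_atp hΨ P.pp hp2 (P.a ^ P.p + P.c ^ P.p) ((P.a * P.c) ^ P.p) (P.a * P.c)
      (P.b ^ P.p) (mul_ne_zero P.ha0 P.hc0) 1 (Or.inl rfl) (by ring)
      (fun h => hbnd ((Nat.prime_iff_prime_int.mp P.pp).dvd_of_dvd_pow h))
      (by rw [mul_pow, ← hFLT]; ring) hK N hN hN0 hline
  · -- `p ∤ c`: model `Y² = X (X - a^p) (X + b^p)`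
    have hK := (frey_isVarChange P).map (algebraMap ℚ Qb)
    have e1 : ((P.b : ℚ) ^ P.p - (P.a : ℚ) ^ P.p) = ((P.b ^ P.p - P.a ^ P.p : ℤ) : ℚ) := by
      push_cast; ring
    have e2 : -((P.a : ℚ) ^ P.p * (P.b : ℚ) ^ P.p) = ((-(P.a * P.b) ^ P.p : ℤ) : ℚ) := by
      push_cast; ring
    rw [e1, e2] at hK
    exact legendre_atp hΨ P.pp hp2 (P.b ^ P.p - P.a ^ P.p) (-(P.a * P.b) ^ P.p) (P.a * P.b)
      (P.c ^ P.p) (mul_ne_zero P.ha0 P.hb0) (-1) (Or.inr rfl) (by ring)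
      (fun h => hc ((Nat.prime_iff_prime_int.mp P.pp).dvd_of_dvd_pow h))
      (by rw [mul_pow, ← hFLT]; ring) hK N hN hN0 hline

end Frey

end Fermat.Agent.S13.helper2138
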