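import Mathlib
import Fermat.Prelude.Def_FLTPrelim_Ramification
import Fermat.Agent.S05.helper2200_Inertia
import Fermat.Agent.S05.helper1745_XOnly

/-!
# S13, ingredient I3: inertia at `2` acts unipotently on the `p`-torsion of the Frey curve

Short `x`-only route on the model `y² + xy = x³ + a₂x² + a₄x` (`a₁ = 1`, `a₃ = a₆ = 0`)
over a valued field with `v 2 < 1`, `v a₂ ≤ 1`, `v a₄ < 1`.
-/

set_option autoImplicit false

namespace Fermat.Agent.S13.helper253

open WeierstrassCurve WeierstrassCurve.Affine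

section Generic

variable {K : Type*} [Field K] {Γ₀ : Type*} [LinearOrderedCommGroupWithZero Γ₀]
  (v : Valuation K Γ₀) {W : Affine K}

/-- The `b`-invariants of the `a₁`-form. -/
theorem b_of_form (h1 : W.a₁ = 1) (h3 : W.a₃ = 0) (h6 : W.a₆ = 0) :
    W.b₂ = 1 + 4 * W.a₂ ∧ W.b₄ = 2 * W.a₄ ∧ W.b₆ = 0 ∧ W.b₈ = -W.a₄ ^ 2 := by
  refine ⟨?_, ?_, ?_, ?_⟩
  · simp only [WeierstrassCurve.b₂, h1]; ring
  · simp only [WeierstrassCurve.b₄, h1, h3]; ring
  · simp only [WeierstrassCurve.b₆, h3, h6]; ring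
  · simp only [WeierstrassCurve.b₈, h1, h3, h6]; ring

/-- Duplication formula on the `a₁`-form: `X (4x³ + (1+4a₂)x² + 4a₄x) = (x² - a₄)²`. -/
theorem dup_form [DecidableEq K] (h1 : W.a₁ = 1) (h3 : W.a₃ = 0) (h6 : W.a₆ = 0) {x y : K}
    (h : W.Nonsingular x y) (hy : y ≠ W.negY x y) :
    ∃ (X Y : K) (h' : W.Nonsingular X Y),
      Point.some x y h + Point.some x y h = Point.some X Y h' ∧
      X * (4 * x ^ 3 + (1 + 4 * W.a₂) * x ^ 2 + 4 * W.a₄ * x) = (x ^ 2 - W.a₄) ^ 2 ∧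
      4 * x ^ 3 + (1 + 4 * W.a₂) * x ^ 2 + 4 * W.a₄ * x ≠ 0 := by
  obtain ⟨X, Y, h', hadd, hX, hne⟩ := Fermat.Agent.S05.helper1745.exists_add_self_some h hy
  obtain ⟨hb2, hb4, hb6, hb8⟩ := b_of_form (W := W) h1 h3 h6
  rw [hb2, hb4, hb6, hb8] at hX
  rw [hb2, hb4, hb6] at hne
  refine ⟨X, Y, h', hadd, ?_, ?_⟩
  · linear_combination hX
  · intro h0
    apply hne
    linear_combination h0

/-- Branch identity: for `x₁ ≠ x₂` on a curve with `a₃ = a₆ = 0`,
`x(P₁ - P₂) x₁ x₂ (x₁ - x₂)² = (y₁x₂ + y₂x₁ + a₁x₁x₂)²`. -/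
theorem branch_identity [DecidableEq K] (h3 : W.a₃ = 0) (h6 : W.a₆ = 0) {x₁ y₁ x₂ y₂ : K}
    (h₁ : W.Nonsingular x₁ y₁) (h₂ : W.Nonsingular x₂ y₂) (hx : x₁ ≠ x₂) :
    ∃ (X Y : K) (h' : W.Nonsingular X Y),
      Point.some x₁ y₁ h₁ - Point.some x₂ y₂ h₂ = Point.some X Y h' ∧
      X * x₁ * x₂ * (x₁ - x₂) ^ 2 = (y₁ * x₂ + y₂ * x₁ + W.a₁ * x₁ * x₂) ^ 2 := by
  have h₂' : W.Nonsingular x₂ (W.negY x₂ y₂) := (nonsingular_neg ..).mpr h₂
  refine ⟨_, _, nonsingular_add h₁ h₂' fun hxy => hx hxy.left, ?_, ?_⟩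
  · rw [sub_eq_add_neg, Point.neg_some, Point.add_of_X_ne hx]
  · have e₁ := (equation_iff ..).mp h₁.left
    have e₂ := (equation_iff ..).mp h₂.left
    rw [h3, h6] at e₁ e₂
    have hd : x₁ - x₂ ≠ 0 := sub_ne_zero.mpr hx
    rw [slope_of_X_ne hx]
    simp only [addX, negY, h3]
    field_simp
    linear_combination (x₂ * (x₁ - x₂)) * e₁ - (x₁ * (x₁ - x₂)) * e₂

/-! ### Valuation estimates -/

theorem v_four_lt (h2 : v (2 : K) < 1) : v (4 : K) < 1 := by
  have h : (4 : K) = 2 * 2 := by norm_num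
  rw [h, map_mul]
  calc v 2 * v 2 ≤ 1 * v 2 := by gcongr
    _ = v 2 := one_mul _
    _ < 1 := h2

theorem v_one_add_four_mul_le (h2 : v (2 : K) < 1) {a : K} (ha : v a ≤ 1) :
    v (1 + 4 * a) ≤ 1 := by
  refine (v.map_add _ _).trans (max_le (by simp) ?_)
  rw [map_mul]
  calc v 4 * v a ≤ 1 * 1 := by
        gcongr
        exact (v_four_lt v h2).le
    _ = 1 := one_mul _

/-- `1 + 4a` is a unit. -/
theorem v_one_add_four_mul (h2 : v (2 : K) < 1) {a : K} (ha : v a ≤ 1) :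
    v (1 + 4 * a) = 1 := by
  have h4a : v (4 * a) < 1 := by
    rw [map_mul]
    calc v 4 * v a ≤ v 4 * 1 := by gcongr
      _ = v 4 := mul_one _
      _ < 1 := v_four_lt v h2
  have := Valuation.map_add_eq_of_lt_left (v := v) (x := (1 : K)) (y := 4 * a) (by simpa using h4a)
  simpa using this

/-- On the `a₁`-form, an integral `x` has an integral `y`. -/
theorem v_y_le_one (h1 : W.a₁ = 1) (h3 : W.a₃ = 0) (h6 : W.a₆ = 0)
    (ha2 : v W.a₂ ≤ 1) (ha4 : v W.a₄ ≤ 1) {x y : K} (h : W.Equation x y) (hx : v x ≤ 1) :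
    v y ≤ 1 := by
  by_contra hcon
  rw [not_le] at hcon
  have e := (equation_iff ..).mp h
  rw [h1, h3, h6] at e
  have e' : y ^ 2 = (x ^ 3 + W.a₂ * x ^ 2 + W.a₄ * x) - x * y := by linear_combination e
  have hR : v (x ^ 3 + W.a₂ * x ^ 2 + W.a₄ * x) ≤ 1 := by
    refine (v.map_add _ _).trans (max_le ((v.map_add _ _).trans (max_le ?_ ?_)) ?_)
    · rw [map_pow]; exact pow_le_one₀ zero_le hx
    · rw [map_mul, map_pow]
      calc v W.a₂ * v x ^ 2 ≤ 1 * 1 := by
            gcongr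
            exact pow_le_one₀ zero_le hx
        _ = 1 := one_mul _
    · rw [map_mul]
      calc v W.a₄ * v x ≤ 1 * 1 := by gcongr
        _ = 1 := one_mul _
  have hxy : v (x * y) ≤ v y := by
    rw [map_mul]
    calc v x * v y ≤ 1 * v y := by gcongr
      _ = v y := one_mul _
  have h1' : v (y ^ 2) ≤ v y := by
    rw [e']
    exact (v.map_sub _ _).trans (max_le (hR.trans hcon.le) hxy)
  rw [map_pow] at h1'
  exact absurd h1' (not_le.mpr (lt_self_pow₀ hcon (by norm_num)))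

/-- **Doubling strictly increases `v x` on the kernel of reduction** (residue characteristic 2). -/
theorem dup_gt [DecidableEq K] (h1 : W.a₁ = 1) (h3 : W.a₃ = 0) (h6 : W.a₆ = 0)
    (ha2 : v W.a₂ ≤ 1) (ha4 : v W.a₄ < 1) (h2 : v (2 : K) < 1) {x y : K}
    (h : W.Nonsingular x y) (hy : y ≠ W.negY x y) (hx : 1 < v x) :
    ∃ (X Y : K) (h' : W.Nonsingular X Y),
      Point.some x y h + Point.some x y h = Point.some X Y h' ∧ v x < v X := by
  obtain ⟨X, Y, h', hadd, hX, hD⟩ := dup_form h1 h3 h6 h hy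
  refine ⟨X, Y, h', hadd, ?_⟩
  have hx0 : v x ≠ 0 := (zero_lt_one.trans hx).ne'
  have h4 := v_four_lt v h2
  have hN : v ((x ^ 2 - W.a₄) ^ 2) = v x ^ 4 := by
    have : v (x ^ 2 - W.a₄) = v (x ^ 2) := by
      apply Valuation.map_sub_eq_of_lt_left
      rw [map_pow]
      exact ha4.trans (one_lt_pow₀ hx two_ne_zero)
    rw [map_pow, this, map_pow, ← pow_mul]
  have hDlt : v (4 * x ^ 3 + (1 + 4 * W.a₂) * x ^ 2 + 4 * W.a₄ * x) < v x ^ 3 := by
    refine Valuation.map_add_lt _ (Valuation.map_add_lt _ ?_ ?_) ?_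
    · rw [map_mul, map_pow]
      exact mul_lt_of_lt_one_left (zero_lt_iff.mpr (pow_ne_zero 3 hx0)) h4
    · rw [map_mul, map_pow]
      calc v (1 + 4 * W.a₂) * v x ^ 2 ≤ 1 * v x ^ 2 := by
            gcongr
            exact v_one_add_four_mul_le v h2 ha2
        _ = v x ^ 2 := one_mul _
        _ < v x ^ 3 := pow_lt_pow_right₀ hx (by norm_num)
    · rw [map_mul, map_mul]
      calc v 4 * v W.a₄ * v x ≤ 1 * 1 * v x := by gcongr
        _ = v x := by rw [one_mul, one_mul]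
        _ < v x ^ 3 := lt_self_pow₀ hx (by norm_num)
  have hmul : v X * v (4 * x ^ 3 + (1 + 4 * W.a₂) * x ^ 2 + 4 * W.a₄ * x) = v x ^ 4 := by
    rw [← map_mul, hX, hN]
  by_contra hcon
  rw [not_lt] at hcon
  have hlt := mul_lt_mul_of_le_of_lt_of_nonneg_of_pos hcon hDlt zero_le (zero_lt_iff.mpr hx0)
  rw [hmul, ← pow_succ'] at hlt
  exact lt_irrefl _ hlt

/-! ### The kernel of reduction has no odd torsion in residue characteristic 2 -/

theorem eq_zero_of_two_pow_nsmul_of_odd_nsmul {G : Type*} [AddCommGroup G] (g : G) {p k : ℕ}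
    (hp : Odd p) (h1 : 2 ^ k • g = 0) (h2 : p • g = 0) : g = 0 := by
  have hd1 : addOrderOf g ∣ 2 ^ k := addOrderOf_dvd_of_nsmul_eq_zero h1
  have hd2 : addOrderOf g ∣ p := addOrderOf_dvd_of_nsmul_eq_zero h2
  have hc : Nat.Coprime (2 ^ k) p := Nat.Coprime.pow_left k (Nat.coprime_two_left.mpr hp)
  have hc' : Nat.Coprime (addOrderOf g) p := Nat.Coprime.coprime_dvd_left hd1 hc
  exact AddMonoid.addOrderOf_eq_one_iff.mp (Nat.Coprime.eq_one_of_dvd hc' hd2)

theorem two_pow_nsmul_gt [DecidableEq K] (h1 : W.a₁ = 1) (h3 : W.a₃ = 0) (h6 : W.a₆ = 0)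
    (ha2 : v W.a₂ ≤ 1) (ha4 : v W.a₄ < 1) (h2 : v (2 : K) < 1) {x y : K}
    (h : W.Nonsingular x y) (hx : 1 < v x) {p : ℕ} (hp : Odd p)
    (hP : p • (Point.some x y h : W.Point) = 0) :
    ∀ k : ℕ, ∃ (X Y : K) (h' : W.Nonsingular X Y),
      2 ^ k • (Point.some x y h : W.Point) = Point.some X Y h' ∧ v x ≤ v X ∧
        (0 < k → v x < v X) := by
  intro k
  induction k with
  | zero => exact ⟨x, y, h, by simp, le_rfl, fun h0 => absurd h0 (lt_irrefl _)⟩
  | succ k ih =>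
    obtain ⟨X, Y, h', hk, hle, -⟩ := ih
    have hstep : 2 ^ (k + 1) • (Point.some x y h : W.Point)
        = Point.some X Y h' + Point.some X Y h' := by
      rw [pow_succ, mul_nsmul, hk, two_nsmul]
    by_cases hY : Y = W.negY X Y
    · exfalso
      rw [Point.add_self_of_Y_eq hY] at hstep
      exact Point.some_ne_zero h (eq_zero_of_two_pow_nsmul_of_odd_nsmul _ hp hstep hP)
    · obtain ⟨X', Y', h'', hadd, hlt⟩ :=
        dup_gt v h1 h3 h6 ha2 ha4 h2 h' hY (lt_of_lt_of_le hx hle)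
      exact ⟨X', Y', h'', by rw [hstep, hadd], (hle.trans hlt.le), fun _ => lt_of_le_of_lt hle hlt⟩

/-- **The kernel of reduction `{1 < v x}` contains no point of odd order.** -/
theorem not_one_lt_of_odd_nsmul [DecidableEq K] (h1 : W.a₁ = 1) (h3 : W.a₃ = 0) (h6 : W.a₆ = 0)
    (ha2 : v W.a₂ ≤ 1) (ha4 : v W.a₄ < 1) (h2 : v (2 : K) < 1) {x y : K}
    (h : W.Nonsingular x y) {p : ℕ} (hp : Odd p)
    (hP : p • (Point.some x y h : W.Point) = 0) : ¬ 1 < v x := by
  intro hx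
  have hp0 : 0 < p := hp.pos
  have hm : 0 < Nat.totient p := Nat.totient_pos.mpr hp0
  have hmod : 2 ^ Nat.totient p ≡ 1 [MOD p] :=
    Nat.ModEq.pow_totient (Nat.coprime_two_left.mpr hp)
  have h1le : 1 ≤ 2 ^ Nat.totient p := Nat.one_le_two_pow
  obtain ⟨t, ht⟩ := (Nat.modEq_iff_dvd' h1le).mp hmod.symm
  have h2m : 2 ^ Nat.totient p = p * t + 1 := by
    rw [← ht, Nat.sub_add_cancel h1le]
  obtain ⟨X, Y, h', hk, -, hlt⟩ :=
    two_pow_nsmul_gt v h1 h3 h6 ha2 ha4 h2 h hx hp hP (Nat.totient p)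
  have hself : 2 ^ Nat.totient p • (Point.some x y h : W.Point) = Point.some x y h := by
    rw [h2m, add_nsmul, one_nsmul, mul_nsmul, hP, nsmul_zero, zero_add]
  rw [hself, Point.some.injEq] at hk
  have := hlt hm
  rw [← hk.1] at this
  exact lt_irrefl _ this

/-! ### Conjugate points: unit region, node region, deep region -/

/-- Unit region (`v x = 1`): a conjugate point `(x', y')` congruent to `(x, y)` modulo the
maximal ideal is equal to it, or the difference lies in the kernel of reduction. -/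
theorem unit_region [DecidableEq K] (h1 : W.a₁ = 1) (h3 : W.a₃ = 0) (h6 : W.a₆ = 0)
    (ha2 : v W.a₂ ≤ 1) (ha4 : v W.a₄ < 1) (h2 : v (2 : K) < 1) {x y x' y' : K}
    (h : W.Nonsingular x y) (h' : W.Nonsingular x' y')
    (hx : v x = 1) (hxx : v (x' - x) < 1) (hyy : v (y' - y) < 1) :
    (x' = x ∧ y' = y) ∨ ∃ (X Y : K) (hU : W.Nonsingular X Y),
      Point.some x y h - Point.some x' y' h' = Point.some X Y hU ∧ 1 < v X := by
  have hy1 : v y ≤ 1 := v_y_le_one v h1 h3 h6 ha2 ha4.le h.left hx.le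
  have h2y : v (2 * y) < 1 := by
    rw [map_mul]
    calc v 2 * v y ≤ v 2 * 1 := by gcongr
      _ = v 2 := mul_one _
      _ < 1 := h2
  have hu : v (2 * y + x) = 1 := by
    rw [Valuation.map_add_eq_of_lt_right v (by rw [hx]; exact h2y), hx]
  by_cases hxe : x' = x
  · left
    subst hxe
    refine ⟨rfl, ?_⟩
    rcases Y_eq_of_X_eq h'.left h.left rfl with hyy' | hyy'
    · exact hyy'
    · exfalso
      have e : y' - y = -(2 * y + x') := by
        rw [hyy']; simp only [negY, h1, h3]; ring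
      rw [e, Valuation.map_neg, hu] at hyy
      exact lt_irrefl _ hyy
  · right
    obtain ⟨X, Y, hU, hsub, hid⟩ := branch_identity h3 h6 h h' (Ne.symm hxe)
    refine ⟨X, Y, hU, hsub, ?_⟩
    rw [h1] at hid
    have hx' : v x' = 1 := by
      have e : x' = (x' - x) + x := by ring
      rw [e, Valuation.map_add_eq_of_lt_right v (by rw [hx]; exact hxx), hx]
    have hbase : v (y * x' + y' * x + 1 * x * x') = 1 := by
      have e : y * x' + y' * x + 1 * x * x'
          = x * (2 * y + x) + (y * (x' - x) + (y' - y) * x + x * (x' - x)) := by ring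
      have hsmall : v (y * (x' - x) + (y' - y) * x + x * (x' - x)) < 1 := by
        refine Valuation.map_add_lt _ (Valuation.map_add_lt _ ?_ ?_) ?_
        · rw [map_mul]
          calc v y * v (x' - x) ≤ 1 * v (x' - x) := by gcongr
            _ = v (x' - x) := one_mul _
            _ < 1 := hxx
        · rw [map_mul, hx, mul_one]; exact hyy
        · rw [map_mul, hx, one_mul]; exact hxx
      have hbig : v (x * (2 * y + x)) = 1 := by rw [map_mul, hx, hu, one_mul]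
      rw [e, Valuation.map_add_eq_of_lt_left v (by rw [hbig]; exact hsmall), hbig]
    have hval := congrArg v hid
    rw [map_mul, map_mul, map_mul, map_pow, map_pow, hbase, hx, hx', mul_one, mul_one,
      one_pow] at hval
    have hd : v (x - x') < 1 := by rw [Valuation.map_sub_swap]; exact hxx
    by_contra hcon
    rw [not_lt] at hcon
    have : v X * v (x - x') ^ 2 < 1 := by
      calc v X * v (x - x') ^ 2 ≤ 1 * v (x - x') ^ 2 := by gcongr
        _ = v (x - x') ^ 2 := one_mul _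
        _ < 1 := pow_lt_one₀ zero_le hd two_ne_zero
    rw [hval] at this
    exact lt_irrefl _ this

/-- Node region (`v a₄ ≤ v x < 1`): a conjugate point of the same depth and the same branch
(`y'/x' ≡ y/x`) is equal, or the difference has nonsingular reduction. -/
theorem node_region [DecidableEq K] (h1 : W.a₁ = 1) (h3 : W.a₃ = 0) (h6 : W.a₆ = 0)
    (ha2 : v W.a₂ ≤ 1) (h2 : v (2 : K) < 1) {x y x' y' : K}
    (h : W.Nonsingular x y) (h' : W.Nonsingular x' y')
    (hx0 : x ≠ 0) (hx1 : v x < 1) (hx4 : v W.a₄ ≤ v x) (hvx : v x' = v x)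
    (hγ : v (y' / x' - y / x) < 1) :
    (x' = x ∧ y' = y) ∨ ∃ (X Y : K) (hU : W.Nonsingular X Y),
      Point.some x y h - Point.some x' y' h' = Point.some X Y hU ∧ 1 ≤ v X := by
  have hvx0 : v x ≠ 0 := (Valuation.ne_zero_iff v).mpr hx0
  have hx0' : x' ≠ 0 := (Valuation.ne_zero_iff v).mp (by rw [hvx]; exact hvx0)
  -- `γ = y / x` is integral
  have e := (equation_iff ..).mp h.left
  rw [h1, h3, h6] at e
  have eγ : (y / x) ^ 2 + y / x = x + W.a₂ + W.a₄ / x := by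
    field_simp
    linear_combination e
  have hγ1 : v (y / x) ≤ 1 := by
    by_contra hcon
    rw [not_le] at hcon
    have hR : v (x + W.a₂ + W.a₄ / x) ≤ 1 := by
      refine (v.map_add _ _).trans (max_le ((v.map_add _ _).trans (max_le hx1.le ha2)) ?_)
      rw [map_div₀]
      exact (div_le_one₀ (zero_lt_iff.mpr hvx0)).mpr hx4
    have hL : v ((y / x) ^ 2 + y / x) = v (y / x) ^ 2 := by
      rw [Valuation.map_add_eq_of_lt_left v (by rw [map_pow]; exact lt_self_pow₀ hcon (by norm_num)),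
        map_pow]
    rw [eγ] at hL
    rw [hL] at hR
    exact absurd hR (not_le.mpr (one_lt_pow₀ hcon two_ne_zero))
  have h2γ : v (2 * (y / x)) < 1 := by
    rw [map_mul]
    calc v 2 * v (y / x) ≤ v 2 * 1 := by gcongr
      _ = v 2 := mul_one _
      _ < 1 := h2
  have hu : v (2 * (y / x) + 1) = 1 := by
    rw [Valuation.map_add_eq_of_lt_right v (by rw [map_one]; exact h2γ), map_one]
  by_cases hxe : x' = x
  · left
    subst hxe
    refine ⟨rfl, ?_⟩
    rcases Y_eq_of_X_eq h'.left h.left rfl with hyy' | hyy'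
    · exact hyy'
    · exfalso
      have e2 : y' / x' - y / x' = -(2 * (y / x') + 1) := by
        rw [hyy']; simp only [negY, h1, h3]; field_simp; ring
      rw [e2, Valuation.map_neg, hu] at hγ
      exact lt_irrefl _ hγ
  · right
    obtain ⟨X, Y, hU, hsub, hid⟩ := branch_identity h3 h6 h h' (Ne.symm hxe)
    refine ⟨X, Y, hU, hsub, ?_⟩
    rw [h1] at hid
    have ebase : y * x' + y' * x + 1 * x * x'
        = (x * x') * ((2 * (y / x) + 1) + (y' / x' - y / x)) := by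
      field_simp; ring
    have hbase : v (y * x' + y' * x + 1 * x * x') = v x * v x := by
      rw [ebase, map_mul, map_mul, hvx,
        Valuation.map_add_eq_of_lt_left v (by rw [hu]; exact hγ), hu, mul_one]
    have hval := congrArg v hid
    rw [map_mul, map_mul, map_mul, map_pow, map_pow, hbase, hvx] at hval
    have hd : v (x - x') ≤ v x := (v.map_sub _ _).trans (max_le le_rfl hvx.le)
    have hd0 : v (x - x') ≠ 0 := (Valuation.ne_zero_iff v).mpr (sub_ne_zero.mpr (Ne.symm hxe))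
    by_contra hcon
    rw [not_le] at hcon
    have hlt : v X * v (x - x') ^ 2 < v x ^ 2 := by
      calc v X * v (x - x') ^ 2 < 1 * v (x - x') ^ 2 :=
            mul_lt_mul_of_pos_right hcon (zero_lt_iff.mpr (pow_ne_zero 2 hd0))
        _ = v (x - x') ^ 2 := one_mul _
        _ ≤ v x ^ 2 := by gcongr
    have hval' : v X * v (x - x') ^ 2 * (v x * v x) = v x ^ 2 * (v x * v x) := by
      have e1 : v X * v (x - x') ^ 2 * (v x * v x) = v X * v x * v x * v (x - x') ^ 2 := by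
        ac_rfl
      rw [e1, hval, sq (v x * v x), sq (v x)]
    have hcancel : v X * v (x - x') ^ 2 = v x ^ 2 :=
      mul_right_cancel₀ (mul_ne_zero hvx0 hvx0) hval'
    rw [hcancel] at hlt
    exact lt_irrefl _ hlt

/-- Deep region (`v x ≤ v a₄`): the double of the point has nonsingular reduction. -/
theorem deep_dup [DecidableEq K] (h1 : W.a₁ = 1) (h3 : W.a₃ = 0) (h6 : W.a₆ = 0)
    (ha2 : v W.a₂ ≤ 1) (ha4 : v W.a₄ < 1) (ha40 : W.a₄ ≠ 0) (h2 : v (2 : K) < 1) {x y : K}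
    (h : W.Nonsingular x y) (hy : y ≠ W.negY x y) (hx4 : v x ≤ v W.a₄) :
    ∃ (X Y : K) (h' : W.Nonsingular X Y),
      Point.some x y h + Point.some x y h = Point.some X Y h' ∧ 1 ≤ v X := by
  obtain ⟨X, Y, h', hadd, hX, hD⟩ := dup_form h1 h3 h6 h hy
  refine ⟨X, Y, h', hadd, ?_⟩
  have h4 := v_four_lt v h2
  have ha0 : v W.a₄ ≠ 0 := (Valuation.ne_zero_iff v).mpr ha40
  have hx1 : v x ≤ 1 := hx4.trans ha4.le
  have hsq : v x ^ 2 ≤ v W.a₄ ^ 2 := by gcongr
  have hN : v ((x ^ 2 - W.a₄) ^ 2) = v W.a₄ ^ 2 := by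
    have : v (x ^ 2 - W.a₄) = v W.a₄ := by
      apply Valuation.map_sub_eq_of_lt_right
      rw [map_pow]
      exact lt_of_le_of_lt hsq (pow_lt_self_of_lt_one₀ (zero_lt_iff.mpr ha0) ha4 (by norm_num))
    rw [map_pow, this]
  have hDle : v (4 * x ^ 3 + (1 + 4 * W.a₂) * x ^ 2 + 4 * W.a₄ * x) ≤ v W.a₄ ^ 2 := by
    refine (v.map_add _ _).trans (max_le ((v.map_add _ _).trans (max_le ?_ ?_)) ?_)
    · rw [map_mul, map_pow]
      calc v 4 * v x ^ 3 ≤ 1 * v x ^ 3 := by gcongr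
        _ = v x ^ 3 := one_mul _
        _ ≤ v x ^ 2 := pow_le_pow_of_le_one zero_le hx1 (by norm_num)
        _ ≤ v W.a₄ ^ 2 := hsq
    · rw [map_mul, map_pow]
      calc v (1 + 4 * W.a₂) * v x ^ 2 ≤ 1 * v x ^ 2 := by
            gcongr
            exact v_one_add_four_mul_le v h2 ha2
        _ = v x ^ 2 := one_mul _
        _ ≤ v W.a₄ ^ 2 := hsq
    · rw [map_mul, map_mul]
      calc v 4 * v W.a₄ * v x ≤ 1 * v W.a₄ * v W.a₄ := by gcongr
        _ = v W.a₄ ^ 2 := by rw [one_mul, sq]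
  have hD0 : v (4 * x ^ 3 + (1 + 4 * W.a₂) * x ^ 2 + 4 * W.a₄ * x) ≠ 0 :=
    (Valuation.ne_zero_iff v).mpr hD
  have hmul : v X * v (4 * x ^ 3 + (1 + 4 * W.a₂) * x ^ 2 + 4 * W.a₄ * x) = v W.a₄ ^ 2 := by
    rw [← map_mul, hX, hN]
  by_contra hcon
  rw [not_le] at hcon
  have hlt : v X * v (4 * x ^ 3 + (1 + 4 * W.a₂) * x ^ 2 + 4 * W.a₄ * x) < v W.a₄ ^ 2 := by
    calc v X * v (4 * x ^ 3 + (1 + 4 * W.a₂) * x ^ 2 + 4 * W.a₄ * x)
        < 1 * v (4 * x ^ 3 + (1 + 4 * W.a₂) * x ^ 2 + 4 * W.a₄ * x) :=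
          mul_lt_mul_of_pos_right hcon (zero_lt_iff.mpr hD0)
      _ = v (4 * x ^ 3 + (1 + 4 * W.a₂) * x ^ 2 + 4 * W.a₄ * x) := one_mul _
      _ ≤ v W.a₄ ^ 2 := hDle
  rw [hmul] at hlt
  exact lt_irrefl _ hlt

/-! ### Assembly: a congruence-trivial automorphism acts unipotently on odd torsion -/

/-- `γ = y / x` is integral in the node region. -/
theorem v_gamma_le_one (h1 : W.a₁ = 1) (h3 : W.a₃ = 0) (h6 : W.a₆ = 0)
    (ha2 : v W.a₂ ≤ 1) {x y : K} (h : W.Equation x y)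
    (hx0 : x ≠ 0) (hx1 : v x ≤ 1) (hx4 : v W.a₄ ≤ v x) : v (y / x) ≤ 1 := by
  have hvx0 : v x ≠ 0 := (Valuation.ne_zero_iff v).mpr hx0
  have e := (equation_iff ..).mp h
  rw [h1, h3, h6] at e
  have eγ : (y / x) ^ 2 + y / x = x + W.a₂ + W.a₄ / x := by
    field_simp
    linear_combination e
  by_contra hcon
  rw [not_le] at hcon
  have hR : v (x + W.a₂ + W.a₄ / x) ≤ 1 := by
    refine (v.map_add _ _).trans (max_le ((v.map_add _ _).trans (max_le hx1 ha2)) ?_)
    rw [map_div₀]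
    exact (div_le_one₀ (zero_lt_iff.mpr hvx0)).mpr hx4
  have hL : v ((y / x) ^ 2 + y / x) = v (y / x) ^ 2 := by
    rw [Valuation.map_add_eq_of_lt_left v (by rw [map_pow]; exact lt_self_pow₀ hcon (by norm_num)),
      map_pow]
  rw [eγ] at hL
  rw [hL] at hR
  exact absurd hR (not_le.mpr (one_lt_pow₀ hcon two_ne_zero))

/-- A point of odd order is not a `2`-torsion point. -/
theorem y_ne_negY_of_odd_nsmul [DecidableEq K] {x y : K} (h : W.Nonsingular x y) {p : ℕ}
    (hp : Odd p) (hP : p • (Point.some x y h : W.Point) = 0) : y ≠ W.negY x y := by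
  intro hY
  have h2 : 2 ^ 1 • (Point.some x y h : W.Point) = 0 := by
    rw [pow_one, two_nsmul, Point.add_self_of_Y_eq hY]
  exact Point.some_ne_zero h (eq_zero_of_two_pow_nsmul_of_odd_nsmul _ hp h2 hP)

/-- A point of odd order on the `a₁`-form has `x ≠ 0`. -/
theorem x_ne_zero_of_odd_nsmul [DecidableEq K] (h1 : W.a₁ = 1) (h3 : W.a₃ = 0) (h6 : W.a₆ = 0)
    {x y : K} (h : W.Nonsingular x y) {p : ℕ}
    (hp : Odd p) (hP : p • (Point.some x y h : W.Point) = 0) : x ≠ 0 := by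
  intro hx0
  apply y_ne_negY_of_odd_nsmul h hp hP
  have e := (equation_iff ..).mp h.left
  rw [h1, h3, h6, hx0] at e
  have hy0 : y = 0 := by
    have : y ^ 2 = 0 := by linear_combination e
    exact pow_eq_zero_iff (two_ne_zero) |>.mp this
  simp only [negY, h1, h3, hx0, hy0]
  ring

variable [DecidableEq K] (σ : K →+* K) (τ : W.Point →+ W.Point)

/-- Step 0: a point of odd order with integral (hence unit) `x`-coordinate is fixed. -/
theorem fixed_of_one_le (h1 : W.a₁ = 1) (h3 : W.a₃ = 0) (h6 : W.a₆ = 0)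
    (ha2 : v W.a₂ ≤ 1) (ha4 : v W.a₄ < 1) (h2 : v (2 : K) < 1)
    (hσm : ∀ u : K, v u ≤ 1 → v (σ u - u) < 1)
    (hτ : ∀ (x y : K) (h : W.Nonsingular x y), ∃ h' : W.Nonsingular (σ x) (σ y),
      τ (Point.some x y h) = Point.some (σ x) (σ y) h')
    {p : ℕ} (hp : Odd p) {X Y : K} (hU : W.Nonsingular X Y)
    (hP : p • (Point.some X Y hU : W.Point) = 0) (hX : 1 ≤ v X) :
    τ (Point.some X Y hU) = Point.some X Y hU := by
  have hX1 : v X = 1 :=
    le_antisymm (not_lt.mp (not_one_lt_of_odd_nsmul v h1 h3 h6 ha2 ha4 h2 hU hp hP)) hX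
  have hY1 : v Y ≤ 1 := v_y_le_one v h1 h3 h6 ha2 ha4.le hU.left hX1.le
  obtain ⟨h', hτU⟩ := hτ X Y hU
  rcases unit_region v h1 h3 h6 ha2 ha4 h2 hU h' hX1 (hσm X hX1.le) (hσm Y hY1) with
    ⟨hx, hy⟩ | ⟨X', Y', hU', hsub, hlt⟩
  · rw [hτU, Point.some.injEq]
    exact ⟨hx, hy⟩
  · exfalso
    have hP' : p • (Point.some X' Y' hU' : W.Point) = 0 := by
      rw [← hsub, ← hτU, nsmul_sub, ← map_nsmul, hP, map_zero, sub_zero]
    exact not_one_lt_of_odd_nsmul v h1 h3 h6 ha2 ha4 h2 hU' hp hP' hlt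

/-- **Unipotence.** Let `σ` be a field automorphism preserving `v` and acting trivially on the
residue field, and `τ` the induced map on points. Then `(τ - 1)² = 0` on points of odd order. -/
theorem unipotent_of_odd_nsmul (h1 : W.a₁ = 1) (h3 : W.a₃ = 0) (h6 : W.a₆ = 0)
    (ha2 : v W.a₂ ≤ 1) (ha4 : v W.a₄ < 1) (ha40 : W.a₄ ≠ 0) (h2 : v (2 : K) < 1)
    (hσv : ∀ u : K, v (σ u) = v u)
    (hσm : ∀ u : K, v u ≤ 1 → v (σ u - u) < 1)
    (hτ : ∀ (x y : K) (h : W.Nonsingular x y), ∃ h' : W.Nonsingular (σ x) (σ y),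
      τ (Point.some x y h) = Point.some (σ x) (σ y) h')
    {p : ℕ} (hp : Odd p) (T : W.Point) (hT : p • T = 0) :
    τ (τ T - T) = τ T - T := by
  have hU : p • (τ T - T) = 0 := by
    rw [nsmul_sub, ← map_nsmul, hT, map_zero, sub_zero]
  rcases T with _ | ⟨x, y, h⟩
  · have h0 : (Point.zero : W.Point) = 0 := rfl
    rw [h0, map_zero, sub_zero, map_zero]
  · have hfix : τ (Point.some x y h) = Point.some x y h →
        τ (τ (Point.some x y h) - Point.some x y h) = τ (Point.some x y h) - Point.some x y h := by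
      intro hfx
      rw [hfx, sub_self, map_zero]
    have hx0 : x ≠ 0 := x_ne_zero_of_odd_nsmul h1 h3 h6 h hp hT
    have hyn : y ≠ W.negY x y := y_ne_negY_of_odd_nsmul h hp hT
    obtain ⟨h', hτT⟩ := hτ x y h
    rcases le_or_gt 1 (v x) with hx1 | hx1
    · -- good reduction region
      exact hfix (fixed_of_one_le v σ τ h1 h3 h6 ha2 ha4 h2 hσm hτ hp h hT hx1)
    · rcases le_or_gt (v W.a₄) (v x) with hx4 | hx4
      · -- node region
        have hγ1 : v (y / x) ≤ 1 := v_gamma_le_one v h1 h3 h6 ha2 h.left hx0 hx1.le hx4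
        have hγ : v (σ y / σ x - y / x) < 1 := by
          rw [← map_div₀]
          exact hσm _ hγ1
        rcases node_region v h1 h3 h6 ha2 h2 h h' hx0 hx1 hx4 (hσv x) hγ with
          ⟨hx, hy⟩ | ⟨X, Y, hXY, hsub, hle⟩
        · apply hfix
          rw [hτT, Point.some.injEq]
          exact ⟨hx, hy⟩
        · have hneg : τ (Point.some x y h) - Point.some x y h
              = Point.some X (W.negY X Y) ((nonsingular_neg ..).mpr hXY) := by
            rw [← neg_sub, hτT, hsub, Point.neg_some]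
          rw [hneg] at hU ⊢
          exact fixed_of_one_le v σ τ h1 h3 h6 ha2 ha4 h2 hσm hτ hp _ hU hle
      · -- deep region
        obtain ⟨X, Y, hXY, hadd, hle⟩ :=
          deep_dup v h1 h3 h6 ha2 ha4 ha40 h2 h hyn hx4.le
        have hT2 : p • (Point.some X Y hXY : W.Point) = 0 := by
          rw [← hadd, nsmul_add, hT, add_zero]
        have hfix2 := fixed_of_one_le v σ τ h1 h3 h6 ha2 ha4 h2 hσm hτ hp hXY hT2 hle
        have h2U : 2 ^ 1 • (τ (Point.some x y h) - Point.some x y h) = 0 := by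
          rw [pow_one, two_nsmul, sub_add_sub_comm, ← map_add, hadd, hfix2, sub_self]
        rw [eq_zero_of_two_pow_nsmul_of_odd_nsmul _ hp h2U hU, map_zero]

end Generic

/-! ### The Frey curve at `2` -/

section Frey

local notation "Qbar" => AlgebraicClosure ℚ

theorem frey_thirtytwo_dvd (P : FreyPackage) : (32 : ℤ) ∣ P.b ^ P.p := by
  have h2 : (2 : ℤ) ∣ P.b := (ZMod.intCast_zmod_eq_zero_iff_dvd P.b 2).1 P.hb2
  calc (32 : ℤ) = 2 ^ 5 := by norm_num
    _ ∣ 2 ^ P.p := pow_dvd_pow 2 P.hp5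
    _ ∣ P.b ^ P.p := pow_dvd_pow_of_dvd h2 _

theorem frey_four_dvd (P : FreyPackage) : (4 : ℤ) ∣ P.b ^ P.p - 1 - P.a ^ P.p := by
  have hb : (4 : ℤ) ∣ P.b ^ P.p := Dvd.dvd.trans (by norm_num) (frey_thirtytwo_dvd P)
  have hb' : ((P.b : ZMod 4)) ^ P.p = 0 := by
    have := (ZMod.intCast_zmod_eq_zero_iff_dvd (P.b ^ P.p) 4).2 hb
    simpa using this
  have h3 : (3 : ZMod 4) = -1 := by decide
  have : (((P.b ^ P.p - 1 - P.a ^ P.p : ℤ)) : ZMod 4) = 0 := by
    push_cast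
    rw [hb', P.ha4, h3, P.hp_odd.neg_one_pow]
    ring
  exact (ZMod.intCast_zmod_eq_zero_iff_dvd _ 4).1 this

theorem frey_a₂_int (P : FreyPackage) : ∃ m : ℤ, P.freyCurve.a₂ = (m : ℚ) := by
  obtain ⟨m, hm⟩ := frey_four_dvd P
  refine ⟨m, ?_⟩
  have h : ((P.b : ℚ) ^ P.p - 1 - (P.a : ℚ) ^ P.p) = 4 * m := by exact_mod_cast hm
  show ((P.b : ℚ) ^ P.p - 1 - (P.a : ℚ) ^ P.p) / 4 = m
  rw [h]
  ring

theorem frey_a₄_int (P : FreyPackage) : ∃ m : ℤ, P.freyCurve.a₄ = ((2 * m : ℤ) : ℚ) := by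
  obtain ⟨k, hk⟩ := frey_thirtytwo_dvd P
  refine ⟨-(P.a ^ P.p) * k, ?_⟩
  have h : ((P.b : ℚ) ^ P.p) = 32 * k := by exact_mod_cast hk
  show -((P.a : ℚ) ^ P.p) * ((P.b : ℚ) ^ P.p) / 16 = _
  rw [h]
  push_cast
  ring

theorem frey_a₄_ne_zero (P : FreyPackage) : P.freyCurve.a₄ ≠ 0 := by
  have ha : (P.a : ℚ) ≠ 0 := by exact_mod_cast P.ha0
  have hb : (P.b : ℚ) ≠ 0 := by exact_mod_cast P.hb0
  show -((P.a : ℚ) ^ P.p) * ((P.b : ℚ) ^ P.p) / 16 ≠ 0
  exact div_ne_zero (mul_ne_zero (neg_ne_zero.mpr (pow_ne_zero _ ha)) (pow_ne_zero _ hb))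
    (by norm_num)

/-- **S13, ingredient I3.** Inertia at `2` acts unipotently on the `p`-torsion of the Frey
curve: `(σ - 1)² = 0`. -/
theorem unip_two (P : FreyPackage) :
    ∀ A : ValuationSubring (AlgebraicClosure ℚ), A.LiesOverPrime 2 →
      ∀ σ ∈ A.inertiaSubgroupIn ℚ,
      ∀ x : Submodule.torsionBy ℤ ((P.freyCurve)⁄(AlgebraicClosure ℚ)).Point P.p,
        σ • (σ • x - x) = σ • x - x := by
  intro A hA σ hσ x
  apply Subtype.ext
  have hT : P.p • (x : ((P.freyCurve)⁄Qbar).Point) = 0 := by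
    have := x.property
    rw [Submodule.mem_torsionBy_iff] at this
    exact_mod_cast this
  obtain ⟨m₂, hm₂⟩ := frey_a₂_int P
  obtain ⟨m₄, hm₄⟩ := frey_a₄_int P
  have h1 : ((P.freyCurve)⁄Qbar).a₁ = 1 := by
    show (P.freyCurve.map (algebraMap ℚ Qbar)).a₁ = 1
    rw [WeierstrassCurve.map_a₁]
    show algebraMap ℚ Qbar 1 = 1
    exact map_one _
  have h3 : ((P.freyCurve)⁄Qbar).a₃ = 0 := by
    show (P.freyCurve.map (algebraMap ℚ Qbar)).a₃ = 0
    rw [WeierstrassCurve.map_a₃]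
    show algebraMap ℚ Qbar 0 = 0
    exact map_zero _
  have h6 : ((P.freyCurve)⁄Qbar).a₆ = 0 := by
    show (P.freyCurve.map (algebraMap ℚ Qbar)).a₆ = 0
    rw [WeierstrassCurve.map_a₆]
    show algebraMap ℚ Qbar 0 = 0
    exact map_zero _
  have e2 : ((P.freyCurve)⁄Qbar).a₂ = ((m₂ : ℤ) : Qbar) := by
    show (P.freyCurve.map (algebraMap ℚ Qbar)).a₂ = _
    rw [WeierstrassCurve.map_a₂, hm₂]
    exact map_intCast _ _
  have e4 : ((P.freyCurve)⁄Qbar).a₄ = ((2 * m₄ : ℤ) : Qbar) := by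
    show (P.freyCurve.map (algebraMap ℚ Qbar)).a₄ = _
    rw [WeierstrassCurve.map_a₄, hm₄]
    exact map_intCast _ _
  have ha2 : A.valuation ((P.freyCurve)⁄Qbar).a₂ ≤ 1 := by
    rw [e2]
    exact Fermat.Agent.S05.helper2200.valuation_intCast_le_one A m₂
  have ha4 : A.valuation ((P.freyCurve)⁄Qbar).a₄ < 1 := by
    rw [e4]
    exact (Fermat.Agent.S05.helper2200.valuation_intCast_lt_one_iff A Nat.prime_two hA _).2
      (by exact_mod_cast dvd_mul_right (2 : ℤ) m₄)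
  have ha40 : ((P.freyCurve)⁄Qbar).a₄ ≠ 0 := by
    show (P.freyCurve.map (algebraMap ℚ Qbar)).a₄ ≠ 0
    rw [WeierstrassCurve.map_a₄]
    exact fun h => frey_a₄_ne_zero P ((map_eq_zero _).1 h)
  have h2 : A.valuation (2 : Qbar) < 1 := by
    have := Fermat.Agent.S05.helper2200.valuation_natCast_prime_lt_one A hA
    simpa using this
  exact unipotent_of_odd_nsmul A.valuation (σ : Qbar →+* Qbar) (Point.map σ.toAlgHom)
    h1 h3 h6 ha2 ha4 ha40 h2
    (fun u => Fermat.Agent.S05.helper2200.valuation_apply A hσ u)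
    (fun u hu => Fermat.Agent.S05.helper2200.valuation_apply_sub_lt_one A hσ u hu)
    (fun x y h => ⟨(WeierstrassCurve.Affine.baseChange_nonsingular P.freyCurve
        σ.toAlgHom.injective x y).mpr h, Point.map_some σ.toAlgHom h⟩)
    P.hp_odd (x : ((P.freyCurve)⁄Qbar).Point) hT

end Frey

end Fermat.Agent.S13.helper253
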