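import Mathlib
import Fermat.Prelude.Def_FLTPrelim_Ramification
import Fermat.Agent.S05.helper1445_Top

set_option autoImplicit false

/-!
# S13, ingredient `at_p`, global core (helper3042)

Abstract form of the "Newton polygon + rationality" argument.  `G` is a group with an action of
`G_ℚ` and an `X`-coordinate, `N` a finite `G_ℚ`-stable "line" of `p`-torsion points.  For a
valuation subring `A` of `ℚ̄` over `p` write `E₁(A) = {0} ∪ {1 < v_A (X Q)}`.

* `core_uniform`: if `N ⊆ E₁(A)` for one `A` over `p`, then `N ⊆ E₁(A')` for every `A'` over `p`.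
* `core_mem`: if `N ⊆ E₁(A)`, then every `p`-torsion point of `E₁(A)` lies in `N`.

Inputs: the product `w` of the inverses of the `X`-coordinates of `N \ {0}` is `G_ℚ`-fixed, hence
rational, hence `v_A (w) < 1` forces `v_{A'} (w) ≤ v_{A'} (p)` for all `A'` over `p`; and the
Newton polygon bound `v_A (p) * ∏_{x ∈ S} v_A (x) ≤ 1` for every finite set `S` of `X`-coordinates
of nonzero `p`-torsion points in `E₁(A)` (a consequence of the `p`-division polynomial having
leading coefficient `± p`).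
-/

namespace Fermat.Agent.S13.helper3042

open Fermat.Agent.S05.helper1445

local notation "Qbar" => AlgebraicClosure ℚ
local notation "GQ" => (AlgebraicClosure ℚ ≃ₐ[ℚ] AlgebraicClosure ℚ)

section ValueGroup

variable {Γ₀ : Type*} [LinearOrderedCommGroupWithZero Γ₀]

theorem prod_lt_one_of_forall_lt {ι : Type*} (s : Finset ι) (f : ι → Γ₀) (hs : s.Nonempty)
    (h : ∀ i ∈ s, f i < 1) : ∏ i ∈ s, f i < 1 := by
  induction hs using Finset.Nonempty.cons_induction with
  | singleton a => simpa using h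
  | cons a s ha hs ih =>
    rw [Finset.prod_cons]
    have h1 : f a < 1 := h a (Finset.mem_cons_self a s)
    have h2 : ∏ i ∈ s, f i < 1 := ih (fun i hi => h i (Finset.mem_cons_of_mem hi))
    calc f a * ∏ i ∈ s, f i ≤ f a * 1 := mul_le_mul' le_rfl h2.le
      _ = f a := mul_one _
      _ < 1 := h1

theorem exists_lt_one_of_prod_lt_one {ι : Type*} (s : Finset ι) (f : ι → Γ₀)
    (h : ∏ i ∈ s, f i < 1) : ∃ i ∈ s, f i < 1 := by
  by_contra hcon
  have hcon' : ∀ i ∈ s, 1 ≤ f i := fun i hi => le_of_not_gt (fun h => hcon ⟨i, hi, h⟩)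
  have : (1 : Γ₀) ≤ ∏ i ∈ s, f i := Finset.one_le_prod' hcon'
  exact absurd h (not_lt.mpr this)

end ValueGroup

section Rat

/-- A rational number which is a nonunit at one valuation subring of `ℚ̄` over `p` is divisible
by `p` at every valuation subring over `p`. -/
theorem val_rat_le_val_prime {p : ℕ} (hp : p.Prime) (A A' : ValuationSubring Qbar)
    (hA : A.LiesOverPrime p) (hA' : A'.LiesOverPrime p) (r : ℚ)
    (hr : A.valuation (algebraMap ℚ Qbar r) < 1) :
    A'.valuation (algebraMap ℚ Qbar r) ≤ A'.valuation (p : Qbar) := by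
  have hcast : algebraMap ℚ Qbar r = ((r.num : ℤ) : Qbar) / ((r.den : ℤ) : Qbar) := by
    rw [eq_ratCast, Rat.cast_def]; push_cast; rfl
  by_cases hdvd : (p : ℤ) ∣ r.num
  · have hden : ¬ (p : ℤ) ∣ (r.den : ℤ) := by
      intro h
      have h1 : p ∣ r.num.natAbs := Int.natCast_dvd.mp hdvd
      have h2 : p ∣ r.den := Int.natCast_dvd_natCast.mp h
      have h3 : p ∣ Nat.gcd r.num.natAbs r.den := Nat.dvd_gcd h1 h2
      rw [r.reduced] at h3
      exact hp.one_lt.ne' (Nat.eq_one_of_dvd_one h3)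
    have hv : A'.valuation ((r.den : ℤ) : Qbar) = 1 := valuation_intCast_eq_one A' hp hA' hden
    obtain ⟨k, hk⟩ := hdvd
    rw [hcast, map_div₀, hv, div_one, hk]
    push_cast
    rw [map_mul]
    exact mul_le_of_le_one_right' ((A'.valuation_le_one_iff _).2 (intCast_mem' A' k))
  · exfalso
    have hv : A.valuation ((r.num : ℤ) : Qbar) = 1 := valuation_intCast_eq_one A hp hA hdvd
    have hd : A.valuation ((r.den : ℤ) : Qbar) ≤ 1 :=
      (A.valuation_le_one_iff _).2 (intCast_mem' A _)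
    have hd0 : A.valuation ((r.den : ℤ) : Qbar) ≠ 0 := by
      rw [(A.valuation).ne_zero_iff]
      exact_mod_cast r.den_nz
    rw [hcast, map_div₀, hv] at hr
    have : (1 : A.ValueGroup) ≤ 1 / A.valuation ((r.den : ℤ) : Qbar) := by
      rw [le_div_iff₀ (lt_of_le_of_ne zero_le hd0.symm), one_mul]
      exact hd
    exact absurd hr (not_lt.mpr this)

end Rat

section Core

variable {G : Type*} [AddCommGroup G] [DistribMulAction GQ G]

/-- `Q` lies in the kernel of reduction at `A` (with respect to the coordinate `X`). -/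
def InE1 (X : G → Qbar) (A : ValuationSubring Qbar) (Q : G) : Prop :=
  Q = 0 ∨ 1 < A.valuation (X Q)

/-- Hypotheses of the core argument. -/
structure CoreHyp (X : G → Qbar) (p : ℕ) (N : AddSubgroup G) : Prop where
  hp : p.Prime
  X_smul : ∀ (σ : GQ) (Q : G), Q ≠ 0 → X (σ • Q) = σ (X Q)
  X_inj : ∀ P Q : G, P ≠ 0 → Q ≠ 0 → X P = X Q → P = Q ∨ P = -Q
  nsmul_mem : ∀ A : ValuationSubring Qbar, A.LiesOverPrime p → ∀ Q : G, InE1 X A Q →
    ∀ k : ℕ, InE1 X A (k • Q)
  tors : ∀ n ∈ N, p • n = 0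
  stable : ∀ (σ : GQ), ∀ n ∈ N, σ • n ∈ N
  line : ∀ n ∈ N, n ≠ 0 → ∀ m ∈ N, ∃ k : ℕ, m = k • n
  ne_bot : ∃ n ∈ N, n ≠ 0
  fin : (N : Set G).Finite
  newton : ∀ A : ValuationSubring Qbar, A.LiesOverPrime p → ∀ S : Finset Qbar,
    (∀ x ∈ S, 1 < A.valuation x ∧ ∃ Q : G, Q ≠ 0 ∧ p • Q = 0 ∧ X Q = x) →
    A.valuation (p : Qbar) * ∏ x ∈ S, A.valuation x ≤ 1

variable {X : G → Qbar} {p : ℕ} {N : AddSubgroup G}

open Classical in
/-- The set of `X`-coordinates of the nonzero points of `N`. -/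
noncomputable def xSet (X : G → Qbar) (N : AddSubgroup G) (hfin : (N : Set G).Finite) :
    Finset Qbar :=
  (hfin.toFinset.filter (fun n => n ≠ 0)).image X

omit [DistribMulAction GQ G] in
theorem mem_xSet {hfin : (N : Set G).Finite} {x : Qbar} :
    x ∈ xSet X N hfin ↔ ∃ n ∈ N, n ≠ 0 ∧ X n = x := by
  classical
  unfold xSet
  rw [Finset.mem_image]
  constructor
  · rintro ⟨n, hn, rfl⟩
    rw [Finset.mem_filter, Set.Finite.mem_toFinset] at hn
    exact ⟨n, hn.1, hn.2, rfl⟩
  · rintro ⟨n, hn, hn0, rfl⟩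
    exact ⟨n, by rw [Finset.mem_filter, Set.Finite.mem_toFinset]; exact ⟨hn, hn0⟩, rfl⟩

/-- The product of the inverses of the `X`-coordinates of the nonzero points of `N`. -/
noncomputable def wN (X : G → Qbar) (N : AddSubgroup G) (hfin : (N : Set G).Finite) : Qbar :=
  ∏ x ∈ xSet X N hfin, x⁻¹

theorem wN_fixed (H : CoreHyp X p N) (σ : GQ) : σ (wN X N H.fin) = wN X N H.fin := by
  classical
  unfold wN
  rw [map_prod]
  have himg : (xSet X N H.fin).image σ = xSet X N H.fin := by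
    apply Finset.eq_of_subset_of_card_le
    · intro y hy
      rw [Finset.mem_image] at hy
      obtain ⟨x, hx, rfl⟩ := hy
      rw [mem_xSet] at hx ⊢
      obtain ⟨n, hn, hn0, rfl⟩ := hx
      exact ⟨σ • n, H.stable σ n hn, (smul_ne_zero_iff_ne σ).mpr hn0, H.X_smul σ n hn0⟩
    · rw [Finset.card_image_of_injective _ σ.injective]
  calc ∏ x ∈ xSet X N H.fin, σ x⁻¹ = ∏ x ∈ xSet X N H.fin, (σ x)⁻¹ := by
        simp only [map_inv₀]
    _ = ∏ y ∈ (xSet X N H.fin).image σ, y⁻¹ := by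
        rw [Finset.prod_image (fun a _ b _ h => σ.injective h)]
    _ = ∏ x ∈ xSet X N H.fin, x⁻¹ := by rw [himg]

theorem wN_rat (H : CoreHyp X p N) : ∃ r : ℚ, algebraMap ℚ Qbar r = wN X N H.fin := by
  have : IsAlgClosure ℚ Qbar := ⟨inferInstance, AlgebraicClosure.isAlgebraic ℚ⟩
  have : IsGalois ℚ Qbar := inferInstance
  exact (InfiniteGalois.mem_range_algebraMap_iff_fixed _).mpr (wN_fixed H)

theorem one_lt_val_of_mem_xSet (H : CoreHyp X p N) (A : ValuationSubring Qbar)
    (hN1 : ∀ n ∈ N, InE1 X A n) {x : Qbar} (hx : x ∈ xSet X N H.fin) : 1 < A.valuation x := by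
  obtain ⟨n, hn, hn0, rfl⟩ := mem_xSet.mp hx
  exact (hN1 n hn).resolve_left hn0

theorem val_wN (H : CoreHyp X p N) (A : ValuationSubring Qbar) :
    A.valuation (wN X N H.fin) = (∏ x ∈ xSet X N H.fin, A.valuation x)⁻¹ := by
  unfold wN
  rw [map_prod, ← Finset.prod_inv_distrib]
  exact Finset.prod_congr rfl (fun x _ => map_inv₀ _ _)

theorem val_wN_lt_one (H : CoreHyp X p N) (A : ValuationSubring Qbar)
    (hN1 : ∀ n ∈ N, InE1 X A n) : A.valuation (wN X N H.fin) < 1 := by
  unfold wN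
  rw [map_prod]
  apply prod_lt_one_of_forall_lt
  · obtain ⟨n, hn, hn0⟩ := H.ne_bot
    exact ⟨X n, mem_xSet.mpr ⟨n, hn, hn0, rfl⟩⟩
  · intro x hx
    rw [map_inv₀]
    exact inv_lt_one_of_one_lt₀ (one_lt_val_of_mem_xSet H A hN1 hx)

/-- **Uniformity**: if `N ⊆ E₁(A)` for one valuation subring `A` over `p`, then `N ⊆ E₁(A')`
for all valuation subrings `A'` over `p`. -/
theorem core_uniform (H : CoreHyp X p N) (A A' : ValuationSubring Qbar)
    (hA : A.LiesOverPrime p) (hA' : A'.LiesOverPrime p) (hN1 : ∀ n ∈ N, InE1 X A n) :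
    ∀ n ∈ N, InE1 X A' n := by
  obtain ⟨r, hr⟩ := wN_rat H
  have h1 : A.valuation (wN X N H.fin) < 1 := val_wN_lt_one H A hN1
  have h2 : A'.valuation (wN X N H.fin) ≤ A'.valuation (p : Qbar) := by
    rw [← hr]
    exact val_rat_le_val_prime H.hp A A' hA hA' r (by rw [hr]; exact h1)
  have hp' : A'.valuation (p : Qbar) < 1 := (A'.mem_nonunits_iff).mp hA'
  have h3 : A'.valuation (wN X N H.fin) < 1 := lt_of_le_of_lt h2 hp'
  unfold wN at h3
  rw [map_prod] at h3
  obtain ⟨x, hx, hx1⟩ := exists_lt_one_of_prod_lt_one _ _ h3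
  obtain ⟨n₀, hn₀, hn₀0, rfl⟩ := mem_xSet.mp hx
  have hXn0 : X n₀ ≠ 0 := by
    intro h0
    have := (hN1 n₀ hn₀).resolve_left hn₀0
    rw [h0, map_zero] at this
    exact absurd this (not_lt.mpr zero_le_one)
  have hpos : 0 < A'.valuation (X n₀) := by rw [(A'.valuation).pos_iff]; exact hXn0
  rw [map_inv₀] at hx1
  have hx2 : 1 < A'.valuation (X n₀) := (inv_lt_one₀ hpos).mp hx1
  intro m hm
  obtain ⟨k, rfl⟩ := H.line n₀ hn₀ hn₀0 m hm
  exact H.nsmul_mem A' hA' n₀ (Or.inr hx2) k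

/-- **Exhaustion**: if `N ⊆ E₁(A)`, then every `p`-torsion point in `E₁(A)` lies in `N`. -/
theorem core_mem (H : CoreHyp X p N) (A : ValuationSubring Qbar) (hA : A.LiesOverPrime p)
    (hN1 : ∀ n ∈ N, InE1 X A n) (R : G) (hR : p • R = 0) (hR1 : InE1 X A R) : R ∈ N := by
  classical
  by_cases hR0 : R = 0
  · rw [hR0]; exact N.zero_mem
  have hRx : 1 < A.valuation (X R) := hR1.resolve_left hR0
  by_cases hmem : X R ∈ xSet X N H.fin
  · obtain ⟨n, hn, hn0, hX⟩ := mem_xSet.mp hmem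
    rcases H.X_inj R n hR0 hn0 hX.symm with h | h
    · rw [h]; exact hn
    · rw [h]; exact N.neg_mem hn
  · exfalso
    have hnewton := H.newton A hA (insert (X R) (xSet X N H.fin)) (by
      intro x hx
      rw [Finset.mem_insert] at hx
      rcases hx with rfl | hx
      · exact ⟨hRx, R, hR0, hR, rfl⟩
      · refine ⟨one_lt_val_of_mem_xSet H A hN1 hx, ?_⟩
        obtain ⟨n, hn, hn0, hX⟩ := mem_xSet.mp hx
        exact ⟨n, hn0, H.tors n hn, hX⟩)
    rw [Finset.prod_insert hmem] at hnewton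
    set Pi0 := ∏ x ∈ xSet X N H.fin, A.valuation x with hPi0
    obtain ⟨r, hr⟩ := wN_rat H
    have h1 : A.valuation (wN X N H.fin) < 1 := val_wN_lt_one H A hN1
    have h2 : A.valuation (wN X N H.fin) ≤ A.valuation (p : Qbar) := by
      rw [← hr]
      exact val_rat_le_val_prime H.hp A A hA hA r (by rw [hr]; exact h1)
    rw [val_wN H A, ← hPi0] at h2
    have hPi00 : Pi0 ≠ 0 := by
      rw [hPi0, Finset.prod_ne_zero_iff]
      intro x hx
      exact (lt_trans zero_lt_one (one_lt_val_of_mem_xSet H A hN1 hx)).ne'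
    have hPi0pos : 0 < Pi0 := lt_of_le_of_ne zero_le hPi00.symm
    have h3 : 1 ≤ A.valuation (p : Qbar) * Pi0 := by
      calc (1 : A.ValueGroup) = Pi0⁻¹ * Pi0 := (inv_mul_cancel₀ hPi00).symm
        _ ≤ A.valuation (p : Qbar) * Pi0 := mul_le_mul' h2 le_rfl
    have hpos : 0 < A.valuation (p : Qbar) * Pi0 := lt_of_lt_of_le zero_lt_one h3
    have h4 : A.valuation (p : Qbar) * Pi0 < A.valuation (p : Qbar) * (A.valuation (X R) * Pi0) := by
      calc A.valuation (p : Qbar) * Pi0 = (A.valuation (p : Qbar) * Pi0) * 1 := (mul_one _).symm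
        _ < (A.valuation (p : Qbar) * Pi0) * A.valuation (X R) := mul_lt_mul_of_pos_left hRx hpos
        _ = A.valuation (p : Qbar) * (A.valuation (X R) * Pi0) := by
          rw [mul_assoc, mul_comm Pi0]
    exact absurd (lt_of_lt_of_le h4 hnewton) (not_lt.mpr h3)

end Core

end Fermat.Agent.S13.helper3042
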