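import Fermat.Agent.S13.helper3042_AtPLocal
import Fermat.Agent.S13.helper3042_AtPCore
import Fermat.Agent.S05.helper245_Local
import Fermat.Agent.S05.helper1445_Top

set_option autoImplicit false

/-!
# S13, ingredient `at_p` (helper3042)

For a `G_ℚ`-stable line `N` of the `p`-torsion of the Frey curve, inertia at `p` acts trivially
on `N` or on the quotient by `N`, uniformly over all valuation subrings of `ℚ̄` over `p`.

The theorem is conditional on
* `hcard`: the `p`-torsion has `p ^ 2` points (ingredient I1 of S13);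
* `NewtonStmt p`: the Newton polygon bound for the `p`-torsion of Legendre-type models
  `Y² = X³ + a X² + b X` (`a b : ℤ`): for every valuation subring `A` of `ℚ̄` over `p` and every
  finite set `S` of `X`-coordinates of nonzero `p`-torsion points with `1 < v_A (x)`,
  `v_A (p) * ∏_{x ∈ S} v_A (x) ≤ 1`  (a consequence of the `p`-division polynomial having
  integral coefficients and leading coefficient `± p`).
-/

namespace Fermat.Agent.S13.helper3042

open WeierstrassCurve WeierstrassCurve.Affine WeierstrassCurve.Affine.Point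
open Fermat.Agent.S05.helper245 Fermat.Agent.S05.helper725 Fermat.Agent.S05.helper1445

local notation "Qbar" => AlgebraicClosure ℚ
local notation "GQ" => (AlgebraicClosure ℚ ≃ₐ[ℚ] AlgebraicClosure ℚ)

/-- Newton polygon bound for the `p`-torsion of the Legendre-type model `Y² = X³ + a X² + b X`. -/
def NewtonBound (a b : ℚ) (p : ℕ) : Prop :=
  ∀ A : ValuationSubring Qbar, A.LiesOverPrime p → ∀ S : Finset Qbar,
    (∀ x ∈ S, 1 < A.valuation x ∧
      ∃ Q : ((legendreModel a b)⁄Qbar).Point, Q ≠ 0 ∧ p • Q = 0 ∧ ptX Q = x) →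
    A.valuation (p : Qbar) * ∏ x ∈ S, A.valuation x ≤ 1

/-- The Newton polygon bound for all (elliptic) Legendre-type models with integer coefficients. -/
def NewtonStmt (p : ℕ) : Prop :=
  ∀ a b : ℤ, b ≠ 0 → a ^ 2 - 4 * b ≠ 0 → NewtonBound (a : ℚ) (b : ℚ) p

section Model

variable (a₂ a₄ : ℤ)

/-- Legendre coordinates on the points of `Y² = X³ + a₂ X² + a₄ X` over `ℚ̄`. -/
theorem legCoord :
    IsLegCoord ((a₂ : ℤ) : Qbar) ((a₄ : ℤ) : Qbar)
      (ptX (W := (legendreModel (a₂ : ℚ) (a₄ : ℚ))⁄Qbar))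
      (ptY (W := (legendreModel (a₂ : ℚ) (a₄ : ℚ))⁄Qbar)) := by
  have e₁ : ((legendreModel (a₂ : ℚ) (a₄ : ℚ))⁄Qbar).a₁ = 0 := by
    simp [WeierstrassCurve.baseChange]
  have e₃ : ((legendreModel (a₂ : ℚ) (a₄ : ℚ))⁄Qbar).a₃ = 0 := by
    simp [WeierstrassCurve.baseChange]
  have e₆ : ((legendreModel (a₂ : ℚ) (a₄ : ℚ))⁄Qbar).a₆ = 0 := by
    simp [WeierstrassCurve.baseChange]
  have e₂ : ((legendreModel (a₂ : ℚ) (a₄ : ℚ))⁄Qbar).a₂ = ((a₂ : ℤ) : Qbar) := by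
    simp [WeierstrassCurve.baseChange]
  have e₄ : ((legendreModel (a₂ : ℚ) (a₄ : ℚ))⁄Qbar).a₄ = ((a₄ : ℤ) : Qbar) := by
    simp [WeierstrassCurve.baseChange]
  have hL := isLegCoord_of_short (W := ((legendreModel (a₂ : ℚ) (a₄ : ℚ))⁄Qbar)) e₁ e₃ e₆
  rw [e₂, e₄] at hL
  exact hL

theorem ptX_smul (σ : GQ) (Q : ((legendreModel (a₂ : ℚ) (a₄ : ℚ))⁄Qbar).Point) (hQ : Q ≠ 0) :
    ptX (σ • Q) = σ (ptX Q) := by
  cases Q with
  | zero => exact absurd rfl hQ
  | some x y h => rw [algEquiv_smul_def, Point.map_some]; rfl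

theorem ptY_smul (σ : GQ) (Q : ((legendreModel (a₂ : ℚ) (a₄ : ℚ))⁄Qbar).Point) (hQ : Q ≠ 0) :
    ptY (σ • Q) = σ (ptY Q) := by
  cases Q with
  | zero => exact absurd rfl hQ
  | some x y h => rw [algEquiv_smul_def, Point.map_some]; rfl

/-- The kernel of reduction of the model at a valuation subring `A` of `ℚ̄`. -/
noncomputable def E1A (A : ValuationSubring Qbar) :
    AddSubgroup ((legendreModel (a₂ : ℚ) (a₄ : ℚ))⁄Qbar).Point :=
  E1 A.valuation (legCoord a₂ a₄) ((A.valuation_le_one_iff _).2 (intCast_mem' A a₂))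
    ((A.valuation_le_one_iff _).2 (intCast_mem' A a₄))

theorem mem_E1A_iff (A : ValuationSubring Qbar)
    (Q : ((legendreModel (a₂ : ℚ) (a₄ : ℚ))⁄Qbar).Point) :
    Q ∈ E1A a₂ a₄ A ↔ InE1 ptX A Q := Iff.rfl

/-- **Local theorem at `p`**: for `σ` in an inertia group over `p` and `Q` a `p`-torsion point of
the Legendre-type model (good reduction, or a node with `a₄ = ± w ^ p`), the difference `σ Q - Q`
lies in the kernel of reduction. -/
theorem local_sub_mem (h4 : a₄ ≠ 0) {p : ℕ} (hp : p.Prime) (hp2 : p ≠ 2)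
    (hdisc : ¬ (p : ℤ) ∣ a₂ ^ 2 - 4 * a₄)
    (w e : ℤ) (he : e = 1 ∨ e = -1) (hw : a₄ = e * w ^ p)
    (A : ValuationSubring Qbar) (hA : A.LiesOverPrime p)
    (σ : GQ) (hσ : σ ∈ A.inertiaSubgroupIn ℚ)
    (Q : ((legendreModel (a₂ : ℚ) (a₄ : ℚ))⁄Qbar).Point) (hQ : p • Q = 0) :
    σ • Q - Q ∈ E1A a₂ a₄ A := by
  have hA' : (p : Qbar) ∈ A.nonunits := hA
  obtain ⟨hσ1, hσ2⟩ := inertia_facts hσ
  have hL := legCoord a₂ a₄
  have hva : A.valuation ((a₂ : ℤ) : Qbar) ≤ 1 :=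
    (A.valuation_le_one_iff _).2 (intCast_mem' A a₂)
  have hvb : A.valuation ((a₄ : ℤ) : Qbar) ≤ 1 :=
    (A.valuation_le_one_iff _).2 (intCast_mem' A a₄)
  have h2 : A.valuation (2 : Qbar) = 1 := valuation_two_eq_one A hp hA' hp2
  have hdisc' : A.valuation (((a₂ : ℤ) : Qbar) ^ 2 - 4 * ((a₄ : ℤ) : Qbar)) = 1 := by
    have := valuation_intCast_eq_one A hp hA' hdisc
    push_cast at this
    exact this
  have hs : ∀ u : Qbar, A.valuation u ≤ 1 → A.valuation ((σ : Qbar →+* Qbar) u - u) < 1 :=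
    fun u hu => (A.mem_nonunits_iff).mp (hσ2 u ((A.valuation_le_one_iff u).mp hu))
  have hτ0 : ∀ R : ((legendreModel (a₂ : ℚ) (a₄ : ℚ))⁄Qbar).Point, R ≠ 0 →
      Point.map (W' := legendreModel (a₂ : ℚ) (a₄ : ℚ)) σ.toAlgHom R ≠ 0 := by
    intro R hR
    cases R with
    | zero => exact absurd rfl hR
    | some x y h => rw [Point.map_some]; exact Point.some_ne_zero _
  have hτX : ∀ R : ((legendreModel (a₂ : ℚ) (a₄ : ℚ))⁄Qbar).Point, R ≠ 0 →
      ptX (Point.map (W' := legendreModel (a₂ : ℚ) (a₄ : ℚ)) σ.toAlgHom R) =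
        (σ : Qbar →+* Qbar) (ptX R) := fun R hR => ptX_smul a₂ a₄ σ R hR
  have hτY : ∀ R : ((legendreModel (a₂ : ℚ) (a₄ : ℚ))⁄Qbar).Point, R ≠ 0 →
      ptY (Point.map (W' := legendreModel (a₂ : ℚ) (a₄ : ℚ)) σ.toAlgHom R) =
        (σ : Qbar →+* Qbar) (ptY R) := fun R hR => ptY_smul a₂ a₄ σ R hR
  have hodd : Odd p := hp.odd_of_ne_two hp2
  have key : Q - Point.map (W' := legendreModel (a₂ : ℚ) (a₄ : ℚ)) σ.toAlgHom Q ∈
      E1A a₂ a₄ A := by
    by_cases hdvd : (p : ℤ) ∣ a₄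
    · -- node case
      obtain ⟨k, hk⟩ := hdvd
      have hlt : A.valuation ((a₄ : ℤ) : Qbar) < 1 := by
        rw [hk]
        push_cast
        rw [map_mul]
        calc A.valuation (p : Qbar) * A.valuation ((k : ℤ) : Qbar)
            ≤ A.valuation (p : Qbar) * 1 :=
              mul_le_mul' le_rfl ((A.valuation_le_one_iff _).2 (intCast_mem' A k))
          _ = A.valuation (p : Qbar) := mul_one _
          _ < 1 := (A.mem_nonunits_iff).mp hA'
      have hb0 : ((a₄ : ℤ) : Qbar) ≠ 0 := Int.cast_ne_zero.mpr h4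
      have hva1 : A.valuation ((a₂ : ℤ) : Qbar) = 1 := by
        apply eq_of_sq_eq_sq'
        have h4b : A.valuation (4 * ((a₄ : ℤ) : Qbar)) <
            A.valuation (((a₂ : ℤ) : Qbar) ^ 2 - 4 * ((a₄ : ℤ) : Qbar)) := by
          rw [hdisc', (A.valuation).map_mul]
          calc A.valuation 4 * A.valuation ((a₄ : ℤ) : Qbar)
              ≤ 1 * A.valuation ((a₄ : ℤ) : Qbar) :=
                mul_le_mul' (val_four_le_one _) le_rfl
            _ = A.valuation ((a₄ : ℤ) : Qbar) := one_mul _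
            _ < 1 := hlt
        have e' : ((a₂ : ℤ) : Qbar) ^ 2 =
            (((a₂ : ℤ) : Qbar) ^ 2 - 4 * ((a₄ : ℤ) : Qbar)) + 4 * ((a₄ : ℤ) : Qbar) := by ring
        rw [← (A.valuation).map_pow, e', (A.valuation).map_add_eq_of_lt_left h4b, hdisc',
          one_pow]
      obtain ⟨β, hβ⟩ := IsAlgClosed.exists_pow_nat_eq (((a₂ : ℤ) : Qbar)) (n := 2)
        (by norm_num)
      have e₆ : ((legendreModel (a₂ : ℚ) (a₄ : ℚ))⁄Qbar).a₆ = 0 := by
        simp [WeierstrassCurve.baseChange]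
      have e₄ : ((legendreModel (a₂ : ℚ) (a₄ : ℚ))⁄Qbar).a₄ = ((a₄ : ℤ) : Qbar) := by
        simp [WeierstrassCurve.baseChange]
      have hT : ((legendreModel (a₂ : ℚ) (a₄ : ℚ))⁄Qbar).Nonsingular 0 0 := by
        rw [nonsingular_zero]
        exact ⟨e₆, Or.inr (by rw [e₄]; exact hb0)⟩
      have hT0 : Point.some 0 0 hT ≠ 0 := Point.some_ne_zero _
      have hd : (σ : Qbar →+* Qbar) ((w : ℤ) : Qbar) = ((w : ℤ) : Qbar) := map_intCast _ w
      have hbd : A.valuation ((a₄ : ℤ) : Qbar) = A.valuation ((w : ℤ) : Qbar) ^ p := by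
        rw [hw]
        push_cast
        rw [map_mul, map_pow]
        rcases he with rfl | rfl <;> simp
      exact node_sub_mem_E1 A.valuation hL hva1 hlt hb0 h2 hβ hT0 rfl rfl hp hp2
        (Point.map (W' := legendreModel (a₂ : ℚ) (a₄ : ℚ)) σ.toAlgHom) hτ0
        (σ : Qbar →+* Qbar) hτX hτY hs hd hbd hQ
    · -- good reduction
      have hb1 : A.valuation ((a₄ : ℤ) : Qbar) = 1 := valuation_intCast_eq_one A hp hA' hdvd
      exact good_sub_mem_E1 A.valuation hL hva hb1 hdisc' h2 hodd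
        (Point.map (W' := legendreModel (a₂ : ℚ) (a₄ : ℚ)) σ.toAlgHom) hτ0
        (σ : Qbar →+* Qbar) hτX hτY hs hQ
  have hrw : σ • Q - Q =
      -(Q - Point.map (W' := legendreModel (a₂ : ℚ) (a₄ : ℚ)) σ.toAlgHom Q) := by
    rw [algEquiv_smul_def]; abel
  rw [hrw]
  exact neg_mem key

end Model

section ModelThm

variable {W : WeierstrassCurve ℚ} (a₂ a₄ : ℤ) {u r s t : ℚ}

/-- **`at_p` for a curve with a Legendre-type model**: `W` is related by a rational change of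
variables to `Y² = X³ + a₂ X² + a₄ X` (`a₂ a₄ : ℤ`, `p ∤ a₂² - 4 a₄`, `a₄ = ± w ^ p`). -/
theorem atP_model (hV : IsVarChange W (legendreModel (a₂ : ℚ) (a₄ : ℚ)) u r s t)
    {p : ℕ} (hp : p.Prime) (hp2 : p ≠ 2) (h4 : a₄ ≠ 0)
    (hdisc : ¬ (p : ℤ) ∣ a₂ ^ 2 - 4 * a₄)
    (w e : ℤ) (he : e = 1 ∨ e = -1) (hw : a₄ = e * w ^ p)
    (hNewton : NewtonBound (a₂ : ℚ) (a₄ : ℚ) p)
    [Finite (Submodule.torsionBy ℤ (W⁄Qbar).Point p)]
    (N : Submodule (ZMod p) (Submodule.torsionBy ℤ (W⁄Qbar).Point p))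
    (hN : IsGaloisStable ℚ N) (h0 : N ≠ ⊥)
    (hline : ∀ n ∈ N, n ≠ 0 → ∀ m ∈ N, ∃ k : ℕ, m = k • n) :
    (∀ A : ValuationSubring Qbar, A.LiesOverPrime p →
      ∀ σ ∈ A.inertiaSubgroupIn ℚ, ∀ x ∈ N, σ • x = x) ∨
    (∀ A : ValuationSubring Qbar, A.LiesOverPrime p →
      ∀ σ ∈ A.inertiaSubgroupIn ℚ,
        ∀ x : Submodule.torsionBy ℤ (W⁄Qbar).Point p, σ • x - x ∈ N) := by
  have hK := hV.map (algebraMap ℚ Qbar)
  -- the map from the `p`-torsion of `W` to the points of the model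
  let ψ : Submodule.torsionBy ℤ (W⁄Qbar).Point p →+
      ((legendreModel (a₂ : ℚ) (a₄ : ℚ))⁄Qbar).Point :=
    (vcHom hK).comp (Submodule.torsionBy ℤ (W⁄Qbar).Point p).subtype.toAddMonoidHom
  have hψ_inj : Function.Injective ψ := (vcHom_injective hK).comp Subtype.val_injective
  have hψ_smul : ∀ (σ : GQ) (x : Submodule.torsionBy ℤ (W⁄Qbar).Point p),
      ψ (σ • x) = σ • ψ x := fun σ x => vcHom_smul hK σ (x : (W⁄Qbar).Point)
  have hψ_tors : ∀ x : Submodule.torsionBy ℤ (W⁄Qbar).Point p, p • ψ x = 0 := by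
    intro x
    have hx0 : p • x = 0 := by
      have h1 : (p : ℤ) • x = 0 := Subtype.ext ((Submodule.mem_torsionBy_iff _ _).1 x.2)
      rwa [natCast_zsmul] at h1
    rw [← map_nsmul, hx0, _root_.map_zero]
  let N' : AddSubgroup ((legendreModel (a₂ : ℚ) (a₄ : ℚ))⁄Qbar).Point :=
    N.toAddSubgroup.map ψ
  have hmemN' : ∀ x ∈ N, ψ x ∈ N' := fun x hx => ⟨x, hx, rfl⟩
  have H : CoreHyp (ptX (W := (legendreModel (a₂ : ℚ) (a₄ : ℚ))⁄Qbar)) p N' :=
    { hp := hp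
      X_smul := fun σ Q hQ => ptX_smul a₂ a₄ σ Q hQ
      X_inj := fun P Q hP hQ h => eq_or_eq_neg_of_X_eq (legCoord a₂ a₄) hP hQ h
      nsmul_mem := fun A _ Q hQ k => (E1A a₂ a₄ A).nsmul_mem hQ k
      tors := by
        rintro n ⟨x, _, rfl⟩
        exact hψ_tors x
      stable := by
        rintro σ n ⟨x, hx, rfl⟩
        exact ⟨σ • x, hN σ x hx, hψ_smul σ x⟩
      line := by
        rintro n ⟨x, hx, rfl⟩ hn0 m ⟨y, hy, rfl⟩
        have hx0 : x ≠ 0 := by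
          rintro rfl
          exact hn0 (_root_.map_zero ψ)
        obtain ⟨k, hk⟩ := hline x hx hx0 y hy
        exact ⟨k, by rw [hk, map_nsmul]⟩
      ne_bot := by
        obtain ⟨x, hx, hx0⟩ := (Submodule.ne_bot_iff N).mp h0
        exact ⟨ψ x, hmemN' x hx, fun h => hx0 (hψ_inj (h.trans (_root_.map_zero ψ).symm))⟩
      fin := (Set.finite_range ψ).subset (by
        rintro _ ⟨x, _, rfl⟩
        exact ⟨x, rfl⟩)
      newton := hNewton }
  have hloc : ∀ (A : ValuationSubring Qbar), A.LiesOverPrime p →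
      ∀ σ ∈ A.inertiaSubgroupIn ℚ, ∀ x : Submodule.torsionBy ℤ (W⁄Qbar).Point p,
        ψ (σ • x - x) ∈ E1A a₂ a₄ A := by
    intro A hA σ hσ x
    have := local_sub_mem a₂ a₄ h4 hp hp2 hdisc w e he hw A hA σ hσ (ψ x) (hψ_tors x)
    rwa [← hψ_smul, ← map_sub] at this
  by_cases h : ∃ A : ValuationSubring Qbar, A.LiesOverPrime p ∧
      ∀ n ∈ N', InE1 (ptX (W := (legendreModel (a₂ : ℚ) (a₄ : ℚ))⁄Qbar)) A n
  · right
    obtain ⟨A, hA, hN1⟩ := h
    intro A' hA' σ hσ x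
    have hN1' := core_uniform H A A' hA hA' hN1
    have hmem : ψ (σ • x - x) ∈ N' :=
      core_mem H A' hA' hN1' _ (hψ_tors _) (hloc A' hA' σ hσ x)
    obtain ⟨y, hy, hyx⟩ := hmem
    rw [← hψ_inj hyx]
    exact hy
  · left
    intro A hA σ hσ x hx
    by_contra hne
    apply h
    refine ⟨A, hA, ?_⟩
    have hy : σ • x - x ∈ N := N.sub_mem (hN σ x hx) hx
    have hy0 : σ • x - x ≠ 0 := sub_ne_zero.mpr hne
    rintro m ⟨z, hz, rfl⟩
    obtain ⟨k, hk⟩ := hline _ hy hy0 z hz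
    rw [hk, map_nsmul]
    exact (E1A a₂ a₄ A).nsmul_mem (hloc A hA σ hσ x) k

end ModelThm

section Frey

/-- A proper nonzero submodule of a `ZMod p`-module with `p ^ 2` elements is a line. -/
theorem line_of_card {p : ℕ} [Fact p.Prime] {V : Type*} [AddCommGroup V] [Module (ZMod p) V]
    (hcard : Nat.card V = p ^ 2) (N : Submodule (ZMod p) V) (h0 : N ≠ ⊥) (h1 : N ≠ ⊤) :
    ∀ n ∈ N, n ≠ 0 → ∀ m ∈ N, ∃ k : ℕ, m = k • n := by
  have hp := (Fact.out : p.Prime)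
  have hfin : Finite V :=
    Nat.finite_of_card_ne_zero (by rw [hcard]; exact pow_ne_zero _ hp.ne_zero)
  have hV : Module.finrank (ZMod p) V = 2 := by
    have h := Module.natCard_eq_pow_finrank (K := ZMod p) (V := V)
    rw [hcard, Nat.card_zmod] at h
    exact (Nat.pow_right_injective hp.two_le h).symm
  have : Module.Finite (ZMod p) V := Module.finite_of_finrank_pos (by omega)
  have hlt : Module.finrank (ZMod p) N < 2 := hV ▸ Submodule.finrank_lt h1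
  have hpos : 0 < Module.finrank (ZMod p) N := by
    rw [Nat.pos_iff_ne_zero]
    intro h
    exact h0 (Submodule.finrank_eq_zero.mp h)
  have hN1 : Module.finrank (ZMod p) N = 1 := by omega
  intro n hn hn0 m hm
  have hn0' : (⟨n, hn⟩ : N) ≠ 0 := fun h => hn0 (congrArg Subtype.val h)
  obtain ⟨c, hc⟩ := (finrank_eq_one_iff_of_nonzero' (⟨n, hn⟩ : N) hn0').mp hN1 ⟨m, hm⟩
  refine ⟨c.val, ?_⟩
  have hc' : c • n = m := congrArg Subtype.val hc
  rw [← hc', ← Nat.cast_smul_eq_nsmul (ZMod p), ZMod.natCast_zmod_val]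

/-- **Ingredient `at_p` of S13** (verbatim the field `at_p` of `helper13.Ingredients`), assuming
`card E[p] = p ^ 2` and the Newton polygon bound: for a `G_ℚ`-stable line `N` of the `p`-torsion
of the Frey curve, inertia at `p` is trivial on `N`, or trivial on the quotient by `N`. -/
theorem at_p_of (P : FreyPackage)
    (hcard : Nat.card (Submodule.torsionBy ℤ ((P.freyCurve)⁄Qbar).Point P.p) = P.p ^ 2)
    (hNewton : NewtonStmt P.p) :
    ∀ N : Submodule (ZMod P.p) (Submodule.torsionBy ℤ ((P.freyCurve)⁄Qbar).Point P.p),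
      IsGaloisStable ℚ N → N ≠ ⊥ → N ≠ ⊤ →
      (∀ A : ValuationSubring Qbar, A.LiesOverPrime P.p →
        ∀ σ ∈ A.inertiaSubgroupIn ℚ, ∀ x ∈ N, σ • x = x) ∨
      (∀ A : ValuationSubring Qbar, A.LiesOverPrime P.p →
        ∀ σ ∈ A.inertiaSubgroupIn ℚ,
          ∀ x : Submodule.torsionBy ℤ ((P.freyCurve)⁄Qbar).Point P.p, σ • x - x ∈ N) := by
  intro N hN h0 h1
  have : Fact P.p.Prime := ⟨P.pp⟩
  have hp2 : P.p ≠ 2 := by have := P.hp5; omega
  have hfin : Finite (Submodule.torsionBy ℤ ((P.freyCurve)⁄Qbar).Point P.p) :=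
    Nat.finite_of_card_ne_zero (by rw [hcard]; exact pow_ne_zero _ P.pp.ne_zero)
  have hline := line_of_card hcard N h0 h1
  have hFLT := P.hFLT
  have hpZ : Prime (P.p : ℤ) := Nat.prime_iff_prime_int.mp P.pp
  by_cases hc : (P.p : ℤ) ∣ P.c
  · -- `p ∣ c`: shifted model `Y² = X (X + a^p) (X + c^p)`
    have hb : ¬ (P.p : ℤ) ∣ P.b :=
      not_dvd_of_gcd_eq_one P.pp (by rw [gcd_comm]; exact P.hgcdbc) hc
    have hV : IsVarChange P.freyCurve
        (legendreModel ((P.a ^ P.p + P.c ^ P.p : ℤ) : ℚ) ((P.a ^ P.p * P.c ^ P.p : ℤ) : ℚ))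
        2 (-((P.a : ℚ) ^ P.p)) 1 0 := by
      have := frey_isVarChange_shift P
      push_cast
      exact this
    have hd : (P.a ^ P.p + P.c ^ P.p) ^ 2 - 4 * (P.a ^ P.p * P.c ^ P.p) = (P.b ^ P.p) ^ 2 := by
      rw [← hFLT]; ring
    have h4 : P.a ^ P.p * P.c ^ P.p ≠ 0 :=
      mul_ne_zero (pow_ne_zero _ P.ha0) (pow_ne_zero _ P.hc0)
    have hdisc : ¬ (P.p : ℤ) ∣ (P.a ^ P.p + P.c ^ P.p) ^ 2 - 4 * (P.a ^ P.p * P.c ^ P.p) := by
      rw [hd]
      intro h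
      exact hb (hpZ.dvd_of_dvd_pow (hpZ.dvd_of_dvd_pow h))
    have hdisc0 : (P.a ^ P.p + P.c ^ P.p) ^ 2 - 4 * (P.a ^ P.p * P.c ^ P.p) ≠ 0 := by
      rw [hd]
      exact pow_ne_zero _ (pow_ne_zero _ P.hb0)
    exact atP_model (P.a ^ P.p + P.c ^ P.p) (P.a ^ P.p * P.c ^ P.p) hV P.pp hp2 h4 hdisc
      (P.a * P.c) 1 (Or.inl rfl) (by ring) (hNewton _ _ h4 hdisc0) N hN h0 hline
  · -- `p ∤ c`: model `Y² = X (X - a^p) (X + b^p)`
    have hV : IsVarChange P.freyCurve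
        (legendreModel ((P.b ^ P.p - P.a ^ P.p : ℤ) : ℚ) ((-(P.a ^ P.p * P.b ^ P.p) : ℤ) : ℚ))
        2 0 1 0 := by
      have := frey_isVarChange P
      push_cast
      exact this
    have hd : (P.b ^ P.p - P.a ^ P.p) ^ 2 - 4 * (-(P.a ^ P.p * P.b ^ P.p)) = (P.c ^ P.p) ^ 2 := by
      rw [← hFLT]; ring
    have h4 : -(P.a ^ P.p * P.b ^ P.p) ≠ 0 :=
      neg_ne_zero.mpr (mul_ne_zero (pow_ne_zero _ P.ha0) (pow_ne_zero _ P.hb0))
    have hdisc : ¬ (P.p : ℤ) ∣ (P.b ^ P.p - P.a ^ P.p) ^ 2 - 4 * (-(P.a ^ P.p * P.b ^ P.p)) := by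
      rw [hd]
      intro h
      exact hc (hpZ.dvd_of_dvd_pow (hpZ.dvd_of_dvd_pow h))
    have hdisc0 : (P.b ^ P.p - P.a ^ P.p) ^ 2 - 4 * (-(P.a ^ P.p * P.b ^ P.p)) ≠ 0 := by
      rw [hd]
      exact pow_ne_zero _ (pow_ne_zero _ P.hc0)
    exact atP_model (P.b ^ P.p - P.a ^ P.p) (-(P.a ^ P.p * P.b ^ P.p)) hV P.pp hp2 h4 hdisc
      (P.a * P.b) (-1) (Or.inr rfl) (by ring) (hNewton _ _ h4 hdisc0) N hN h0 hline

end Frey

end Fermat.Agent.S13.helper3042
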