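import Fermat.Agent.S05.helper305_NodeVal
import Fermat.Agent.S05.helper1205_E1Add

/-!
# Local theorem at an odd residue characteristic, *including* the residue characteristic of
the torsion order (helper305, S13)

Shape coordinates of `helper305_Shape`: `ξ = x - e`, `η = y + (a₁ x + a₃)/2`,
`η² = ξ (ξ² + al ξ + be)`; `v` an arbitrary valuation with `v 2 = 1`; **no hypothesis on `v n`**.

* `InE1.neg`, `InE1.add`, `InE1.sub`: the kernel of reduction `E₁ = {O} ∪ {1 < v ξ}` is a subgroup.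
* `nodeVal_odd`: NODEVAL for any odd `n`, without any hypothesis on `v n`.
* `locP`: for an inertia-like ring endomorphism `σ` (`v x ≤ 1 → v (σ x - x) < 1`) fixing
  `e, a₁, a₃`, and a point `T = (x, y)` with `n • T = 0`, `n` odd, in the good case
  (`v be = 1`) or the node case (`v al = 1`, `v be = v d ^ n` with `σ d = d`):
  `σ T - T ∈ E₁`.
-/

set_option linter.unusedSectionVars false
set_option linter.unusedVariables false

namespace Fermat.Agent.S13.helper305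

open WeierstrassCurve WeierstrassCurve.Affine
open Fermat.Agent.S05.helper305

variable {K : Type*} [Field K]
variable {Γ₀ : Type*} [LinearOrderedCommGroupWithZero Γ₀]

section field

variable {v : Valuation K Γ₀} {al be ξ₁ η₁ ξ₂ η₂ ξ₃ η₃ lam : K}

/-- Good reduction, both points reduce to the 2-torsion point `(0,0)`: the sum is in `E₁`. -/
theorem good_small_add (h : AddRel al be ξ₁ η₁ ξ₂ η₂ ξ₃ η₃ lam) (hv2 : v 2 = 1)
    (hal : v al ≤ 1) (hbe : v be = 1) (h₁ : v ξ₁ < 1) (h₂ : v ξ₂ < 1)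
    (h₁0 : ξ₁ ≠ 0) (h₂0 : ξ₂ ≠ 0) : 1 < v ξ₃ := by
  have h2 := two_ne_zero_of_val v hv2
  have hF2 := h.F2 h2
  have hp₁ : 0 < v ξ₁ := (Valuation.pos_iff v).mpr h₁0
  have hp₂ : 0 < v ξ₂ := (Valuation.pos_iff v).mpr h₂0
  have hD : v (ξ₁ * ξ₂ - be) = 1 := by
    have e : ξ₁ * ξ₂ - be = -(be - ξ₁ * ξ₂) := by ring
    rw [e, Valuation.map_neg]
    apply val_sub_eq_one v hbe
    rw [map_mul]
    calc v ξ₁ * v ξ₂ ≤ 1 * v ξ₂ := mul_le_mul' h₁.le le_rfl
      _ = v ξ₂ := one_mul _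
      _ < 1 := h₂
  have hq : ∀ ξ : K, v ξ < 1 → v (ξ ^ 2 + al * ξ + be) = 1 := by
    intro ξ hξ
    have e : ξ ^ 2 + al * ξ + be = be + (ξ ^ 2 + al * ξ) := by ring
    rw [e]
    apply val_add_eq_one v hbe
    apply v.map_add_lt
    · rw [map_pow]; exact pow_lt_one₀ zero_le hξ two_ne_zero
    · rw [map_mul]
      calc v al * v ξ ≤ 1 * v ξ := mul_le_mul' hal le_rfl
        _ = v ξ := one_mul _
        _ < 1 := hξ
  have hη₁ : v η₁ ^ 2 = v ξ₁ := by
    rw [← map_pow, h.c₁, map_mul, hq ξ₁ h₁, mul_one]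
  have hη₂ : v η₂ ^ 2 = v ξ₂ := by
    rw [← map_pow, h.c₂, map_mul, hq ξ₂ h₂, mul_one]
  have hv := congrArg v hF2
  simp only [map_mul, map_pow, hD, one_pow, mul_one] at hv
  have hN : v (η₁ * ξ₂ + η₂ * ξ₁) ^ 2 < v ξ₁ * v ξ₂ := by
    rcases le_total (v (η₁ * ξ₂)) (v (η₂ * ξ₁)) with hle | hle
    · have h1 : v (η₁ * ξ₂ + η₂ * ξ₁) ≤ v (η₂ * ξ₁) :=
        (v.map_add _ _).trans (max_le hle le_rfl)
      calc v (η₁ * ξ₂ + η₂ * ξ₁) ^ 2 ≤ v (η₂ * ξ₁) ^ 2 := pow_le_pow_left₀ zero_le h1 2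
        _ = v ξ₂ * v ξ₁ ^ 2 := by rw [map_mul, mul_pow, hη₂]
        _ = (v ξ₁ * v ξ₂) * v ξ₁ := by rw [pow_two]; ac_rfl
        _ < (v ξ₁ * v ξ₂) * 1 := mul_lt_mul_of_pos_left h₁ (mul_pos hp₁ hp₂)
        _ = v ξ₁ * v ξ₂ := mul_one _
    · have h1 : v (η₁ * ξ₂ + η₂ * ξ₁) ≤ v (η₁ * ξ₂) :=
        (v.map_add _ _).trans (max_le le_rfl hle)
      calc v (η₁ * ξ₂ + η₂ * ξ₁) ^ 2 ≤ v (η₁ * ξ₂) ^ 2 := pow_le_pow_left₀ zero_le h1 2
        _ = v ξ₁ * v ξ₂ ^ 2 := by rw [map_mul, mul_pow, hη₁]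
        _ = (v ξ₁ * v ξ₂) * v ξ₂ := by rw [pow_two]; ac_rfl
        _ < (v ξ₁ * v ξ₂) * 1 := mul_lt_mul_of_pos_left h₂ (mul_pos hp₁ hp₂)
        _ = v ξ₁ * v ξ₂ := mul_one _
  by_contra hle
  push Not at hle
  have : v ξ₃ * v (η₁ * ξ₂ + η₂ * ξ₁) ^ 2 < v ξ₁ * v ξ₂ := by
    calc v ξ₃ * v (η₁ * ξ₂ + η₂ * ξ₁) ^ 2 ≤ 1 * v (η₁ * ξ₂ + η₂ * ξ₁) ^ 2 :=
          mul_le_mul' hle le_rfl
      _ = v (η₁ * ξ₂ + η₂ * ξ₁) ^ 2 := one_mul _
      _ < v ξ₁ * v ξ₂ := hN
  exact absurd hv this.ne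

end field

section sigma

variable {v : Valuation K Γ₀} {σ : K →+* K}

theorem sigma_val_lt_one (hσ : ∀ x : K, v x ≤ 1 → v (σ x - x) < 1) {x : K} (hx : v x < 1) :
    v (σ x) < 1 := by
  have e : σ x = x + (σ x - x) := by ring
  rw [e]; exact v.map_add_lt hx (hσ x hx.le)

theorem sigma_val_eq_one (hσ : ∀ x : K, v x ≤ 1 → v (σ x - x) < 1) {x : K} (hx : v x = 1) :
    v (σ x) = 1 := by
  have e : σ x = x + (σ x - x) := by ring
  rw [e]; exact val_add_eq_one v hx (hσ x hx.le)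

theorem sigma_val_gt_one (hσ : ∀ x : K, v x ≤ 1 → v (σ x - x) < 1) {x : K} (hx : 1 < v x) :
    1 < v (σ x) := by
  have hx0 : x ≠ 0 := by
    rintro rfl; rw [map_zero] at hx; exact not_lt_zero hx
  have hpos : 0 < v x := (Valuation.pos_iff v).mpr hx0
  have hinv : v x⁻¹ < 1 := by
    rw [map_inv₀]; exact inv_lt_one_of_one_lt₀ hx
  have h1 := sigma_val_lt_one hσ hinv
  rw [map_inv₀, map_inv₀] at h1
  have hσx0 : σ x ≠ 0 := (map_ne_zero σ).mpr hx0
  have hpos' : 0 < v (σ x) := (Valuation.pos_iff v).mpr hσx0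
  exact (inv_lt_one₀ hpos').mp h1

/-- Scaled inertia estimate: if `v x = v c` with `c ≠ 0` fixed by `σ`, then
`v (σ x - x) < v x`. -/
theorem sigma_scaled (hσ : ∀ x : K, v x ≤ 1 → v (σ x - x) < 1) {x c : K} (hc : σ c = c)
    (hc0 : c ≠ 0) (hx : v x = v c) : v (σ x - x) < v x := by
  have hcpos : 0 < v c := (Valuation.pos_iff v).mpr hc0
  have hu : v (x / c) = 1 := by rw [map_div₀, hx, div_self hcpos.ne']
  have h1 := hσ (x / c) hu.le
  have e : σ x - x = c * (σ (x / c) - x / c) := by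
    rw [map_div₀, hc]; field_simp
  rw [e, map_mul, hx]
  calc v c * v (σ (x / c) - x / c) < v c * 1 := mul_lt_mul_of_pos_left h1 hcpos
    _ = v c := mul_one _

end sigma

section points

variable [DecidableEq K]
variable {v : Valuation K Γ₀} {W : WeierstrassCurve K} {e al be : K}

/-- `E₁` is closed under negation. -/
theorem InE1.neg (hS : Shape W e al be) {P : W.toAffine.Point} (hP : InE1 v W e P) :
    InE1 v W e (-P) := by
  rcases hP with rfl | ⟨ξ, η, hP, hv⟩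
  · left; exact neg_zero
  · exact Or.inr ⟨ξ, -η, hP.neg hS.two_ne, hv⟩

/-- `E₁` is closed under addition. -/
theorem InE1.add (hS : Shape W e al be) (hv2 : v 2 = 1) (hal : v al ≤ 1) (hbe : v be ≤ 1)
    {P Q : W.toAffine.Point} (hP : InE1 v W e P) (hQ : InE1 v W e Q) :
    InE1 v W e (P + Q) := by
  rcases hP with rfl | ⟨ξ₁, η₁, hP, hv₁⟩
  · rw [zero_add]; exact hQ
  rcases hQ with rfl | ⟨ξ₂, η₂, hQ, hv₂⟩
  · rw [add_zero]; exact Or.inr ⟨ξ₁, η₁, hP, hv₁⟩
  by_cases hne : ξ₁ = ξ₂ ∧ η₁ = -η₂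
  · obtain ⟨rfl, rfl⟩ := hne
    left
    have hQ' : IsPt W e Q ξ₁ (-(-η₂)) := by rw [neg_neg]; exact hQ
    exact hP.add_eq_zero hS.two_ne hQ'
  · obtain ⟨ξ₃, η₃, lam, hP₃, hrel⟩ := hP.add hS hQ hne
    exact Or.inr ⟨ξ₃, η₃, hP₃,
      (Fermat.Agent.S05.helper1205.e1_add v hrel hv2 hal hbe hv₁ hv₂).1⟩

/-- `E₁` is closed under subtraction. -/
theorem InE1.sub (hS : Shape W e al be) (hv2 : v 2 = 1) (hal : v al ≤ 1) (hbe : v be ≤ 1)
    {P Q : W.toAffine.Point} (hP : InE1 v W e P) (hQ : InE1 v W e Q) :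
    InE1 v W e (P - Q) := by
  rw [sub_eq_add_neg]; exact InE1.add hS hv2 hal hbe hP (InE1.neg hS hQ)

/-- `E₁` is closed under natural multiples. -/
theorem InE1.nsmul (hS : Shape W e al be) (hv2 : v 2 = 1) (hal : v al ≤ 1) (hbe : v be ≤ 1)
    {P : W.toAffine.Point} (hP : InE1 v W e P) (n : ℕ) : InE1 v W e (n • P) := by
  induction n with
  | zero => rw [zero_nsmul]; exact Or.inl rfl
  | succ n ih => rw [succ_nsmul]; exact InE1.add hS hv2 hal hbe ih hP

/-- **NODEVAL for odd `n`, no hypothesis on `v n`** (valid at the residue characteristic). -/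
theorem nodeVal_odd (v : Valuation K Γ₀) (hS : Shape W e al be) (hv2 : v 2 = 1)
    (hal : v al = 1) (hbe : v be < 1) (hbe0 : be ≠ 0) {n : ℕ} (hn : Odd n)
    {P : W.toAffine.Point} {ξ η : K} (hP : IsPt W e P ξ η) (hξ : v ξ < 1)
    (hnP : n • P = 0) :
    v be < v ξ ∧ v (η / ξ) = 1 ∧ ∃ m : ℕ, v ξ ^ n = v be ^ (2 * m) := by
  obtain ⟨T, hT⟩ := exists_T hS hbe0
  have hTT := T_add_T hS hT
  have hcurve := hP.curve hS
  have hβpos : 0 < v be := (Valuation.pos_iff v).mpr hbe0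
  have hT0 : ¬ InE0 v W e T := by
    rintro (h0 | ⟨ξ', η', hTpt, hv⟩)
    · exact hT.ne_zero h0
    · obtain ⟨hξ0, -⟩ := hTpt.unique hT
      rw [hξ0, map_zero] at hv
      exact absurd hv (not_le.mpr zero_lt_one)
  have hnT : n • T = T := by
    obtain ⟨m, rfl⟩ := hn
    exact (nsmul_two_torsion hTT m).2
  have hA : v be < v ξ := by
    by_contra hle
    push Not at hle
    by_cases h0 : ξ = 0
    · have hη0 : η = 0 := by
        rw [h0] at hcurve
        simpa using hcurve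
      have hP' : IsPt W e P 0 0 := by
        rw [h0, hη0] at hP; exact hP
      have hPT : P = T := hP'.ext hT
      rw [hPT, hnT] at hnP
      exact hT.ne_zero hnP
    · have hne : ¬(ξ = 0 ∧ η = -0) := fun hh => h0 hh.1
      obtain ⟨ξ₃, η₃, lam, hP₃, hrel⟩ := hP.add hS hT hne
      obtain ⟨h1, -⟩ := hrel.add_T h0
      have hξpos : 0 < v ξ := (Valuation.pos_iff v).mpr h0
      have hE0 : InE0 v W e (P + T) :=
        Or.inr ⟨ξ₃, η₃, hP₃, by rw [h1, map_div₀]; exact (one_le_div₀ hξpos).mpr hle⟩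
      have hE := InE0.nsmul hS hv2 hal.le hbe hE0 n
      rw [nsmul_add, hnP, zero_add, hnT] at hE
      exact hT0 hE
  have hξpos : 0 < v ξ := hβpos.trans hA
  have hξ0 : ξ ≠ 0 := (Valuation.pos_iff v).mp hξpos
  have hr2 : (η / ξ) ^ 2 - al = ξ + be / ξ := by
    rw [div_pow, hcurve]
    field_simp
    ring
  have hbeξ : v (be / ξ) < 1 := by
    rw [map_div₀]; exact (div_lt_one₀ hξpos).mpr hA
  have hr : v ((η / ξ) ^ 2 - al) < 1 := by
    rw [hr2]; exact v.map_add_lt hξ hbeξ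
  have hvr : v (η / ξ) = 1 := by
    apply val_eq_one_of_sq v
    have e1 : (η / ξ) ^ 2 = al + ((η / ξ) ^ 2 - al) := by ring
    rw [e1]; exact val_add_eq_one v hal hr
  have hMid : InMid v W e (η / ξ) (v ξ) P :=
    ⟨ξ, η, hP, rfl, by rw [sub_self, map_zero]; exact zero_lt_one⟩
  exact ⟨hA, hvr, mid_torsion' hS hv2 hr hvr hbe0 hT hMid hξ hA n hnP⟩

/-- Injectivity of `n`-th powers in the value group. -/
theorem pow_inj_val {a b : Γ₀} {n : ℕ} (hn : n ≠ 0) (h : a ^ n = b ^ n) : a = b := by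
  rcases lt_trichotomy a b with hlt | heq | hgt
  · exact absurd h (pow_lt_pow_left₀ hlt zero_le hn).ne
  · exact heq
  · exact absurd h (pow_lt_pow_left₀ hgt zero_le hn).ne'

/-- **Local theorem, point form.**  `P` has shape coordinates `(ξ, η)`, `P'` has shape
coordinates `(σ ξ, σ η)` (the conjugate point), `n • P = 0` with `n` odd; good or node case.
Then `P' - P ∈ E₁`.  No hypothesis on `v n`. -/
theorem locP_pt (hS : Shape W e al be) (hv2 : v 2 = 1) (hal : v al ≤ 1) (hbe : v be ≤ 1)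
    (hbe0 : be ≠ 0) (hdisc : v (al ^ 2 - 4 * be) = 1)
    (σ : K →+* K) (hσ : ∀ x : K, v x ≤ 1 → v (σ x - x) < 1)
    {n : ℕ} (hn : Odd n)
    (hcase : v be = 1 ∨ (v al = 1 ∧ ∃ d : K, σ d = d ∧ d ≠ 0 ∧ v be = v d ^ n))
    {P P' : W.toAffine.Point} {ξ η : K} (hP : IsPt W e P ξ η) (hP' : IsPt W e P' (σ ξ) (σ η))
    (hnP : n • P = 0) : InE1 v W e (P' - P) := by
  have h2 := hS.two_ne
  have hcurve := hP.curve hS
  have hnegP : IsPt W e (-P) ξ (-η) := hP.neg h2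
  rw [sub_eq_add_neg]
  by_cases hne : σ ξ = ξ ∧ σ η = -(-η)
  · left
    obtain ⟨h1, h2'⟩ := hne
    rw [h1] at hP'
    have h3 : IsPt W e (-P) ξ (-(σ η)) := by rw [h2', neg_neg]; exact hnegP
    exact hP'.add_eq_zero h2 h3
  obtain ⟨ξ₃, η₃, lam, hP₃, hrel⟩ := hP'.add hS hnegP hne
  refine Or.inr ⟨ξ₃, η₃, hP₃, ?_⟩
  rcases lt_trichotomy (v ξ) 1 with hlt | heq | hgt
  · -- near the 2-torsion point / the node
    have hξ0 : ξ ≠ 0 := by
      rintro rfl
      apply hne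
      have hη0 : η = 0 := by simpa using hcurve
      refine ⟨map_zero σ, ?_⟩
      rw [hη0, map_zero, neg_zero, neg_zero]
    have hσξ0 : σ ξ ≠ 0 := (map_ne_zero σ).mpr hξ0
    rcases hcase with hgood | ⟨hal1, d, hσd, hd0, hvd⟩
    · exact good_small_add hrel hv2 hal hgood (sigma_val_lt_one hσ hlt) hlt hσξ0 hξ0
    · rcases lt_or_eq_of_le hbe with hbe1 | hbe1'
      swap
      · exact good_small_add hrel hv2 hal hbe1' (sigma_val_lt_one hσ hlt) hlt hσξ0 hξ0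
      obtain ⟨hA, hvr, m, hm⟩ := nodeVal_odd v hS hv2 hal1 hbe1 hbe0 hn hP hlt hnP
      have hn0 : n ≠ 0 := by
        rintro rfl; exact absurd hn (by decide)
      have hvc : v ξ = v (d ^ (2 * m)) := by
        apply pow_inj_val hn0
        rw [hm, hvd, map_pow, ← pow_mul, ← pow_mul]
        congr 1
        ring
      have hc0 : d ^ (2 * m) ≠ 0 := pow_ne_zero _ hd0
      have hσc : σ (d ^ (2 * m)) = d ^ (2 * m) := by rw [map_pow, hσd]
      have hξs : v (σ ξ - ξ) < v ξ := sigma_scaled hσ hσc hc0 hvc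
      have hξpos : 0 < v ξ := (Valuation.pos_iff v).mpr hξ0
      have hvη : v η = v ξ := by
        have := hvr
        rw [map_div₀, div_eq_one_iff_eq hξpos.ne'] at this
        exact this
      have hρ := hσ (η / ξ) hvr.le
      have hσρ : v (σ (η / ξ)) = 1 := sigma_val_eq_one hσ hvr
      have hηs : v (σ η - η) < v ξ := by
        have e : σ η - η = σ (η / ξ) * (σ ξ - ξ) + (σ (η / ξ) - η / ξ) * ξ := by
          rw [map_div₀]; field_simp; ring
        rw [e]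
        apply v.map_add_lt
        · rw [map_mul, hσρ, one_mul]; exact hξs
        · rw [map_mul]
          calc v (σ (η / ξ) - η / ξ) * v ξ < 1 * v ξ := mul_lt_mul_of_pos_right hρ hξpos
            _ = v ξ := one_mul _
      refine hrel.node_cong hv2 hal hlt.le ?_ hξs ?_
      · rw [Valuation.map_neg]; exact hvη
      · rw [Valuation.map_neg, hvη, ← sub_eq_add_neg]; exact hηs
  · -- unit `ξ`
    have hg1 : v (ξ ^ 2 + al * ξ + be) ≤ 1 := by
      refine v.map_add_le (v.map_add_le ?_ ?_) hbe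
      · rw [map_pow, heq, one_pow]
      · rw [map_mul, heq, mul_one]; exact hal
    have hη1 : v η ≤ 1 := by
      apply val_le_one_of_sq v
      rw [hcurve, map_mul, heq, one_mul]
      exact hg1
    refine hrel.unit_sub hv2 hal hbe hdisc (sigma_val_eq_one hσ heq) heq (hσ ξ heq.le) ?_
    rw [← sub_eq_add_neg]; exact hσ η hη1
  · -- kernel of reduction
    exact (Fermat.Agent.S05.helper1205.e1_add v hrel hv2 hal hbe (sigma_val_gt_one hσ hgt) hgt).1

/-- The conjugate point has conjugate shape coordinates. -/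
theorem isPt_conj (σ : K →+* K) (hσe : σ e = e) (hσ1 : σ W.a₁ = W.a₁) (hσ3 : σ W.a₃ = W.a₃)
    {x y : K} (h' : W.toAffine.Nonsingular (σ x) (σ y)) :
    IsPt W e (Point.some (σ x) (σ y) h') (σ (x - e)) (σ (eta W x y)) := by
  refine ⟨σ x, σ y, h', rfl, ?_, ?_⟩
  · rw [map_sub, hσe]
  · simp only [eta, map_add, map_div₀, map_mul, hσ1, hσ3, map_ofNat]

/-- Membership of an affine point in `E₁`. -/
theorem inE1_some_iff {x y : K} (h : W.toAffine.Nonsingular x y) :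
    InE1 v W e (Point.some x y h) ↔ 1 < v (x - e) := by
  constructor
  · rintro (h0 | ⟨ξ, η, hP, hv⟩)
    · exact absurd h0 (Point.some_ne_zero h)
    · have hP0 : IsPt W e (Point.some x y h) (x - e) (eta W x y) := ⟨x, y, h, rfl, rfl, rfl⟩
      rw [(hP.unique hP0).1] at hv
      exact hv
  · intro hv
    exact Or.inr ⟨x - e, eta W x y, ⟨x, y, h, rfl, rfl, rfl⟩, hv⟩

/-- **Local theorem at an odd residue characteristic (no hypothesis on `v n`).**
`σ` is an inertia-like ring endomorphism fixing `e`, `a₁`, `a₃`; `T = (x, y)` is a point with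
`n • T = 0`, `n` odd; the reduction is good (`v be = 1`) or a node with `v be = v d ^ n`,
`σ d = d`.  Then `σ T - T` lies in the kernel of reduction `E₁ = {O} ∪ {1 < v (x - e)}`. -/
theorem locP (hS : Shape W e al be) (hv2 : v 2 = 1) (hal : v al ≤ 1) (hbe : v be ≤ 1)
    (hbe0 : be ≠ 0) (hdisc : v (al ^ 2 - 4 * be) = 1)
    (σ : K →+* K) (hσ : ∀ x : K, v x ≤ 1 → v (σ x - x) < 1)
    (hσe : σ e = e) (hσ1 : σ W.a₁ = W.a₁) (hσ3 : σ W.a₃ = W.a₃)
    {n : ℕ} (hn : Odd n)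
    (hcase : v be = 1 ∨ (v al = 1 ∧ ∃ d : K, σ d = d ∧ d ≠ 0 ∧ v be = v d ^ n))
    (x y : K) (h : W.toAffine.Nonsingular x y) (h' : W.toAffine.Nonsingular (σ x) (σ y))
    (hT : n • (Point.some x y h : W.toAffine.Point) = 0) :
    InE1 v W e (Point.some (σ x) (σ y) h' - Point.some x y h) :=
  locP_pt hS hv2 hal hbe hbe0 hdisc σ hσ hn hcase ⟨x, y, h, rfl, rfl, rfl⟩
    (isPt_conj σ hσe hσ1 hσ3 h') hT

end points

end Fermat.Agent.S13.helper305
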