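import Mathlib
import Fermat.Prelude.Def_FLTPrelim_FreyPackage
import Fermat.Prelude.Def_FLTPrelim_GaloisRep
import Fermat.Prelude.Def_FLTPrelim_Ramification
import Fermat.Prelude.Def_FLTPrelim_CofixedLine
import Fermat.Agent.S05.helper4205_Inertia
import Fermat.Agent.S51.helper2811_GaloisDescent

/-!
# S13, ingredient I5 (`at_p`): assembly (helper3073)

For a curve `W` over `ℚ` and a prime `p`, let `V` be the `p`-torsion of `W` over `ℚ̄` and let
`N` be a Galois-stable line of `V`.  We prove the dichotomy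

* inertia at every place over `p` acts trivially on `N`, or
* inertia at every place over `p` acts trivially on `V / N`,

from four explicit inputs (all stated as `Prop`s below, no `sorry` anywhere):

* `hcard` : `V` has `p ^ 2` points;
* `KerAdd` : for every place `A` over `p`, the points of `V` in the kernel of reduction
  (`x ∉ A`, or the origin) are closed under addition;
* `InertiaKer` : for `σ` in the inertia group of `A`, `σ Q - Q` lies in the kernel of reduction;
* `DivBound` : (Newton polygon of the `p`-division polynomial) for a finite set `X` of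
  `x`-coordinates of nonzero points of `V`, none of them in `A`, `p * ∏ X ∈ A`.

The proof uses NO conjugacy of places over `p`: the product of the `x`-coordinates of the
nonzero points of `N` is a rational number, and a rational number is in one place over `p`
iff it is in all of them.
-/

set_option autoImplicit false
open WeierstrassCurve WeierstrassCurve.Affine WeierstrassCurve.Affine.Point

namespace Fermat.Agent.S13.helper3073

noncomputable section

/-! ### Rational numbers in a valuation subring over a prime -/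

section Rat

variable {L : Type*} [Field L]

theorem ratCast_mem_of_not_dvd {A : ValuationSubring L} {q : ℕ} (hq : q.Prime)
    (hA : A.LiesOverPrime q) (r : ℚ) (h : ¬ q ∣ r.den) : (r : L) ∈ A := by
  rw [← ValuationSubring.valuation_le_one_iff, Rat.cast_def, map_div₀,
    Fermat.Agent.S05.helper4205.valuation_natCast_eq_one hq hA h, div_one]
  exact (ValuationSubring.valuation_le_one_iff A _).2 (intCast_mem A r.num)

variable [CharZero L]

theorem not_dvd_num_of_dvd_den {q : ℕ} (hq : q.Prime) (r : ℚ) (h : q ∣ r.den) :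
    ¬ (q : ℤ) ∣ r.num := by
  intro h2
  have h3 : q ∣ r.num.natAbs := Int.natCast_dvd.mp h2
  have h4 : q ∣ Nat.gcd r.num.natAbs r.den := Nat.dvd_gcd h3 h
  rw [r.reduced] at h4
  exact hq.one_lt.ne' (Nat.dvd_one.mp h4)

theorem ratCast_not_mem_of_dvd {A : ValuationSubring L} {q : ℕ} (hq : q.Prime)
    (hA : A.LiesOverPrime q) (r : ℚ) (h : q ∣ r.den) : (r : L) ∉ A := by
  rw [← ValuationSubring.valuation_le_one_iff, Rat.cast_def, map_div₀,
    Fermat.Agent.S05.helper4205.valuation_intCast_eq_one hq hA (not_dvd_num_of_dvd_den hq r h),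
    not_le]
  have h1 : A.valuation (r.den : L) < 1 := by
    rw [← ValuationSubring.mem_nonunits_iff]
    exact (Fermat.Agent.S05.helper4205.natCast_mem_nonunits_iff hq hA _).2 h
  have h0 : A.valuation (r.den : L) ≠ 0 := by
    rw [Valuation.ne_zero_iff]
    exact_mod_cast r.den_ne_zero
  rw [one_div]
  exact (one_lt_inv₀ (zero_lt_iff.mpr h0)).mpr h1

/-- A rational number lies in one valuation subring over `q` iff it lies in any other. -/
theorem ratCast_mem_iff {A A' : ValuationSubring L} {q : ℕ} (hq : q.Prime)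
    (hA : A.LiesOverPrime q) (hA' : A'.LiesOverPrime q) (r : ℚ) : (r : L) ∈ A ↔ (r : L) ∈ A' := by
  by_cases h : q ∣ r.den
  · exact iff_of_false (ratCast_not_mem_of_dvd hq hA r h) (ratCast_not_mem_of_dvd hq hA' r h)
  · exact iff_of_true (ratCast_mem_of_not_dvd hq hA r h) (ratCast_mem_of_not_dvd hq hA' r h)

/-- If a rational `r` is not in `A` (over `q`), then `1 / (q r) ∈ A`. -/
theorem inv_natCast_mul_ratCast_mem {A : ValuationSubring L} {q : ℕ} (hq : q.Prime)
    (hA : A.LiesOverPrime q) (r : ℚ) (h : (r : L) ∉ A) : ((q : L) * (r : L))⁻¹ ∈ A := by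
  have hden : q ∣ r.den := by
    by_contra h2
    exact h (ratCast_mem_of_not_dvd hq hA r h2)
  obtain ⟨d, hd⟩ := hden
  have hnum : A.valuation (r.num : L) = 1 :=
    Fermat.Agent.S05.helper4205.valuation_intCast_eq_one hq hA (not_dvd_num_of_dvd_den hq r ⟨d, hd⟩)
  have hq0 : (q : L) ≠ 0 := by exact_mod_cast hq.ne_zero
  have hnum0 : (r.num : L) ≠ 0 := by
    intro h0
    rw [h0, _root_.map_zero] at hnum
    exact zero_ne_one hnum
  have hd0 : (d : L) ≠ 0 := by
    intro h0
    have : (r.den : L) = 0 := by rw [hd]; push_cast; rw [h0, mul_zero]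
    exact (by exact_mod_cast r.den_ne_zero : (r.den : L) ≠ 0) this
  have key : ((q : L) * (r : L))⁻¹ = (d : L) / (r.num : L) := by
    rw [Rat.cast_def, hd]
    push_cast
    field_simp
  rw [key, ← ValuationSubring.valuation_le_one_iff, map_div₀, hnum, div_one]
  exact (ValuationSubring.valuation_le_one_iff A _).2 (natCast_mem A d)

end Rat

/-! ### Products of non-integral elements -/

section Prod

variable {L : Type*} [Field L]

theorem prod_not_mem (A : ValuationSubring L) (X : Finset L) (hX : ∀ ξ ∈ X, ξ ∉ A)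
    (hne : X.Nonempty) : ∏ ξ ∈ X, ξ ∉ A := by
  classical
  have key : ∀ Y : Finset L, (∀ ξ ∈ Y, ξ ∉ A) →
      1 ≤ A.valuation (∏ ξ ∈ Y, ξ) ∧ (Y.Nonempty → 1 < A.valuation (∏ ξ ∈ Y, ξ)) := by
    intro Y
    induction Y using Finset.induction_on with
    | empty =>
      intro _
      simp
    | insert a s ha ih =>
      intro hY
      have h1 := (ih (fun ξ hξ => hY ξ (Finset.mem_insert_of_mem hξ))).1
      have h2 : 1 < A.valuation a := by
        have := hY a (Finset.mem_insert_self a s)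
        rw [← ValuationSubring.valuation_le_one_iff, not_le] at this
        exact this
      have h3 : 1 < A.valuation (∏ ξ ∈ insert a s, ξ) := by
        rw [Finset.prod_insert ha, map_mul]
        calc (1 : _) < A.valuation a := h2
          _ = A.valuation a * 1 := (mul_one _).symm
          _ ≤ A.valuation a * A.valuation (∏ ξ ∈ s, ξ) := mul_le_mul_right h1 _
      exact ⟨h3.le, fun _ => h3⟩
  have h := (key X hX).2 hne
  rw [← ValuationSubring.valuation_le_one_iff, not_le]
  exact h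

end Prod

/-! ### The `x`-coordinate and the kernel of reduction -/

/-- The `x`-coordinate of a point (`0` at the origin). -/
def xc {F : Type*} [Field F] {W : Affine F} : W.Point → F
  | .zero => 0
  | .some x _ _ => x

section XC

variable {F : Type*} [Field F] {W : Affine F}

@[simp] theorem xc_zero : xc (0 : W.Point) = 0 := rfl

@[simp] theorem xc_some {x y : F} (h : W.Nonsingular x y) : xc (Point.some x y h) = x := rfl

theorem xc_neg (Q : W.Point) : xc (-Q) = xc Q := by
  cases Q with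
  | zero => rfl
  | some x y h => rw [Point.neg_some]; rfl

theorem eq_or_eq_neg_of_xc_eq {Q R : W.Point} (hQ : Q ≠ 0) (hR : R ≠ 0) (h : xc Q = xc R) :
    Q = R ∨ Q = -R := by
  cases Q with
  | zero => exact absurd rfl hQ
  | some x₁ y₁ h₁ =>
    cases R with
    | zero => exact absurd rfl hR
    | some x₂ y₂ h₂ =>
      have hx : x₁ = x₂ := h
      subst hx
      rcases Y_eq_of_X_eq h₁.1 h₂.1 rfl with hy | hy
      · left; subst hy; rfl
      · right; subst hy; rw [Point.neg_some]

end XC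

/-- The geometric points of `W`. -/
abbrev Pt (W : WeierstrassCurve ℚ) : Type := (W⁄(AlgebraicClosure ℚ)).Point

/-- The `p`-torsion of `W` over `ℚ̄`. -/
abbrev Tors (W : WeierstrassCurve ℚ) (p : ℕ) : Type :=
  Submodule.torsionBy ℤ (W⁄(AlgebraicClosure ℚ)).Point p

/-- `Q` lies in the kernel of reduction at `A` (on the given model): `Q = 0` or `x(Q) ∉ A`. -/
def InKer {W : WeierstrassCurve ℚ} (A : ValuationSubring (AlgebraicClosure ℚ)) (Q : Pt W) : Prop :=
  Q = 0 ∨ xc Q ∉ A

theorem inKer_zero {W : WeierstrassCurve ℚ} (A : ValuationSubring (AlgebraicClosure ℚ)) :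
    InKer A (0 : Pt W) := Or.inl rfl

theorem xc_smul {W : WeierstrassCurve ℚ} (σ : AlgebraicClosure ℚ ≃ₐ[ℚ] AlgebraicClosure ℚ)
    (Q : Pt W) : xc (σ • Q) = σ (xc Q) := by
  cases Q with
  | zero => exact (_root_.map_zero σ).symm
  | some x y h => rfl

/-! ### The three local inputs, as `Prop`s -/

/-- The kernel of reduction (inside `V`) is closed under addition, at every place over `p`. -/
def KerAdd (W : WeierstrassCurve ℚ) (p : ℕ) : Prop :=
  ∀ A : ValuationSubring (AlgebraicClosure ℚ), A.LiesOverPrime p →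
    ∀ Q R : Tors W p, InKer A (Q : Pt W) → InKer A (R : Pt W) → InKer A ((Q + R : Tors W p) : Pt W)

/-- Inertia at a place over `p` moves every point of `V` by an element of the kernel of
reduction. -/
def InertiaKer (W : WeierstrassCurve ℚ) (p : ℕ) : Prop :=
  ∀ A : ValuationSubring (AlgebraicClosure ℚ), A.LiesOverPrime p →
    ∀ σ ∈ A.inertiaSubgroupIn ℚ, ∀ Q : Tors W p, InKer A ((σ • Q - Q : Tors W p) : Pt W)

/-- Newton polygon bound for the `p`-division polynomial: a finite set of distinct non-integral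
`x`-coordinates of nonzero `p`-torsion points has product dividing `p`. -/
def DivBound (W : WeierstrassCurve ℚ) (p : ℕ) : Prop :=
  ∀ A : ValuationSubring (AlgebraicClosure ℚ), A.LiesOverPrime p →
    ∀ X : Finset (AlgebraicClosure ℚ),
      (∀ ξ ∈ X, ξ ∉ A ∧ ∃ Q : Tors W p, Q ≠ 0 ∧ xc (Q : Pt W) = ξ) →
      (p : AlgebraicClosure ℚ) * ∏ ξ ∈ X, ξ ∈ A

/-! ### Assembly -/

section Assembly

variable {W : WeierstrassCurve ℚ} {p : ℕ}

theorem inKer_nsmul (hK : KerAdd W p) {A : ValuationSubring (AlgebraicClosure ℚ)}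
    (hA : A.LiesOverPrime p) (Q : Tors W p) (hQ : InKer A (Q : Pt W)) (k : ℕ) :
    InKer A ((k • Q : Tors W p) : Pt W) := by
  induction k with
  | zero => rw [zero_smul]; exact inKer_zero A
  | succ k ih => rw [succ_nsmul]; exact hK A hA _ _ ih hQ

theorem zmod_smul_eq_nsmul [NeZero p] (c : ZMod p) (Q : Tors W p) : c • Q = c.val • Q := by
  conv_lhs => rw [← ZMod.natCast_zmod_val c]
  exact Nat.cast_smul_eq_nsmul _ _ _

theorem inKer_zmod_smul [NeZero p] (hK : KerAdd W p) {A : ValuationSubring (AlgebraicClosure ℚ)}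
    (hA : A.LiesOverPrime p) (Q : Tors W p) (hQ : InKer A (Q : Pt W)) (c : ZMod p) :
    InKer A ((c • Q : Tors W p) : Pt W) := by
  rw [zmod_smul_eq_nsmul]
  exact inKer_nsmul hK hA Q hQ _

/-- On a line, every element is a multiple of any given nonzero element. -/
theorem exists_smul_eq_of_gen [Fact p.Prime] {N : Submodule (ZMod p) (Tors W p)} {n : Tors W p}
    (hgen : ∀ Q ∈ N, ∃ k : ZMod p, Q = k • n) {Q₀ : Tors W p} (hQ₀N : Q₀ ∈ N) (hQ₀0 : Q₀ ≠ 0)
    {Q : Tors W p} (hQ : Q ∈ N) : ∃ c : ZMod p, Q = c • Q₀ := by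
  obtain ⟨k₀, hk₀⟩ := hgen Q₀ hQ₀N
  have hk₀0 : k₀ ≠ 0 := by
    rintro rfl
    rw [zero_smul] at hk₀
    exact hQ₀0 hk₀
  obtain ⟨k, hk⟩ := hgen Q hQ
  refine ⟨k * k₀⁻¹, ?_⟩
  rw [hk, hk₀, smul_smul, mul_assoc, inv_mul_cancel₀ hk₀0, mul_one]

/-- If one nonzero point of the line `N` is in the kernel of reduction, all of `N` is. -/
theorem inKer_of_line [Fact p.Prime] (hK : KerAdd W p)
    {N : Submodule (ZMod p) (Tors W p)} {n : Tors W p}
    (hgen : ∀ Q ∈ N, ∃ k : ZMod p, Q = k • n)
    {A : ValuationSubring (AlgebraicClosure ℚ)} (hA : A.LiesOverPrime p)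
    {Q₀ : Tors W p} (hQ₀N : Q₀ ∈ N) (hQ₀0 : Q₀ ≠ 0) (hQ₀k : InKer A (Q₀ : Pt W))
    {Q : Tors W p} (hQ : Q ∈ N) : InKer A (Q : Pt W) := by
  have : NeZero p := ⟨(Fact.out : p.Prime).ne_zero⟩
  obtain ⟨c, rfl⟩ := exists_smul_eq_of_gen hgen hQ₀N hQ₀0 hQ
  exact inKer_zmod_smul hK hA Q₀ hQ₀k c

/-- **I5 (`at_p`), assembly.** -/
theorem at_p_core (W : WeierstrassCurve ℚ) (p : ℕ) [Fact p.Prime]
    (hcard : Nat.card (Tors W p) = p ^ 2)
    (hK : KerAdd W p) (hI : InertiaKer W p) (hD : DivBound W p)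
    (N : Submodule (ZMod p) (Tors W p)) (hN : IsGaloisStable ℚ N) (h0 : N ≠ ⊥) (h1 : N ≠ ⊤) :
    (∀ A : ValuationSubring (AlgebraicClosure ℚ), A.LiesOverPrime p →
      ∀ σ ∈ A.inertiaSubgroupIn ℚ, ∀ x ∈ N, σ • x = x) ∨
    (∀ A : ValuationSubring (AlgebraicClosure ℚ), A.LiesOverPrime p →
      ∀ σ ∈ A.inertiaSubgroupIn ℚ, ∀ x : Tors W p, σ • x - x ∈ N) := by
  classical
  have hp : p.Prime := Fact.out
  have : Finite (Tors W p) :=
    Nat.finite_of_card_ne_zero (by rw [hcard]; exact pow_ne_zero _ hp.ne_zero)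
  have : Fintype (Tors W p) := Fintype.ofFinite _
  obtain ⟨n, hnN, hn0, hgen⟩ := Fermat.Agent.S51.helper2811.exists_generator_of_proper
    (by rw [hcard]; exact Nat.pow_lt_pow_right hp.one_lt (by norm_num)) N h0 h1
  by_cases hcase : ∃ A₀ : ValuationSubring (AlgebraicClosure ℚ), A₀.LiesOverPrime p ∧
      ∃ Q₀ ∈ N, Q₀ ≠ 0 ∧ InKer A₀ (Q₀ : Pt W)
  · right
    obtain ⟨A₀, hA₀, Q₀, hQ₀N, hQ₀0, hQ₀k⟩ := hcase
    -- the nonzero points of `N` and their `x`-coordinates
    set S : Finset (Tors W p) := Finset.univ.filter (fun Q : Tors W p => Q ∈ N ∧ Q ≠ 0) with hS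
    set X : Finset (AlgebraicClosure ℚ) := S.image (fun Q : Tors W p => xc (Q : Pt W)) with hX
    have hmemX : ∀ ξ ∈ X, ∃ Q : Tors W p, Q ∈ N ∧ Q ≠ 0 ∧ xc (Q : Pt W) = ξ := by
      intro ξ hξ
      rw [hX, Finset.mem_image] at hξ
      obtain ⟨Q, hQ, rfl⟩ := hξ
      rw [hS, Finset.mem_filter] at hQ
      exact ⟨Q, hQ.2.1, hQ.2.2, rfl⟩
    have hXmem : ∀ Q : Tors W p, Q ∈ N → Q ≠ 0 → xc (Q : Pt W) ∈ X := by
      intro Q hQN hQ0
      rw [hX, Finset.mem_image]
      exact ⟨Q, by rw [hS, Finset.mem_filter]; exact ⟨Finset.mem_univ _, hQN, hQ0⟩, rfl⟩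
    have hXne : X.Nonempty := ⟨_, hXmem Q₀ hQ₀N hQ₀0⟩
    -- the product is Galois-invariant, hence rational
    have himage : ∀ σ : AlgebraicClosure ℚ ≃ₐ[ℚ] AlgebraicClosure ℚ, X.image σ = X := by
      intro σ
      apply Finset.eq_of_subset_of_card_le
      · intro ξ hξ
        rw [Finset.mem_image] at hξ
        obtain ⟨η, hη, rfl⟩ := hξ
        obtain ⟨Q, hQN, hQ0, rfl⟩ := hmemX η hη
        have h2 : σ (xc (Q : Pt W)) = xc ((σ • Q : Tors W p) : Pt W) := (xc_smul σ _).symm
        rw [h2]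
        exact hXmem _ (hN σ Q hQN) (fun h => hQ0 ((smul_eq_zero_iff_eq σ).mp h))
      · rw [Finset.card_image_of_injective _ σ.injective]
    have hfix : ∀ σ : AlgebraicClosure ℚ ≃ₐ[ℚ] AlgebraicClosure ℚ,
        σ (∏ ξ ∈ X, ξ) = ∏ ξ ∈ X, ξ := by
      intro σ
      rw [map_prod]
      conv_rhs => rw [← himage σ]
      rw [Finset.prod_image (fun a _ b _ hab => σ.injective hab)]
    obtain ⟨r, hr⟩ := Fermat.Agent.S51.helper2811.fixed_mem_range _ hfix
    rw [eq_ratCast] at hr
    -- if all of `N` is in the kernel at `A`, no `x`-coordinate is in `A`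
    have hXA : ∀ A : ValuationSubring (AlgebraicClosure ℚ),
        (∀ Q ∈ N, InKer A (Q : Pt W)) → ∀ ξ ∈ X, ξ ∉ A := by
      intro A hall ξ hξ
      obtain ⟨Q, hQN, hQ0, rfl⟩ := hmemX ξ hξ
      rcases hall Q hQN with h | h
      · exact absurd (Subtype.ext h) hQ0
      · exact h
    have hrA₀ : (r : AlgebraicClosure ℚ) ∉ A₀ := by
      rw [hr]
      exact prod_not_mem A₀ X
        (hXA A₀ (fun Q hQ => inKer_of_line hK hgen hA₀ hQ₀N hQ₀0 hQ₀k hQ)) hXne
    have hden : p ∣ r.den := by
      by_contra h2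
      exact hrA₀ (ratCast_mem_of_not_dvd hp hA₀ r h2)
    intro A hA
    have hrA : (r : AlgebraicClosure ℚ) ∉ A := ratCast_not_mem_of_dvd hp hA r hden
    -- some nonzero point of `N` is in the kernel at `A`
    have hex : ∃ ξ ∈ X, ξ ∉ A := by
      by_contra hcon
      push Not at hcon
      exact hrA (hr ▸ prod_mem hcon)
    obtain ⟨ξ, hξX, hξA⟩ := hex
    obtain ⟨Q₁, hQ₁N, hQ₁0, rfl⟩ := hmemX ξ hξX
    have hallA : ∀ Q ∈ N, InKer A (Q : Pt W) :=
      fun Q hQ => inKer_of_line hK hgen hA hQ₁N hQ₁0 (Or.inr hξA) hQ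
    have hXA' := hXA A hallA
    have hinv : ((p : AlgebraicClosure ℚ) * (r : AlgebraicClosure ℚ))⁻¹ ∈ A :=
      inv_natCast_mul_ratCast_mem hp hA r hrA
    -- every point of `V` in the kernel at `A` lies in `N`
    have hkerN : ∀ T : Tors W p, InKer A (T : Pt W) → T ∈ N := by
      intro T hT
      by_contra hTN
      have hT0 : T ≠ 0 := fun h => hTN (h ▸ N.zero_mem)
      have hTA : xc (T : Pt W) ∉ A := by
        rcases hT with h | h
        · exact absurd (Subtype.ext h) hT0
        · exact h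
      have hTX : xc (T : Pt W) ∉ X := by
        intro hmem
        obtain ⟨Q, hQN, hQ0, hQx⟩ := hmemX _ hmem
        have hT0' : (T : Pt W) ≠ 0 := fun h => hT0 (Subtype.ext h)
        have hQ0' : (Q : Pt W) ≠ 0 := fun h => hQ0 (Subtype.ext h)
        rcases eq_or_eq_neg_of_xc_eq hT0' hQ0' hQx.symm with h | h
        · exact hTN ((Subtype.ext h : T = Q) ▸ hQN)
        · exact hTN ((Subtype.ext h : T = -Q) ▸ N.neg_mem hQN)
      have hbound := hD A hA (insert (xc (T : Pt W)) X) (by
        intro ξ hξ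
        rw [Finset.mem_insert] at hξ
        rcases hξ with rfl | hξ
        · exact ⟨hTA, T, hT0, rfl⟩
        · obtain ⟨Q, _, hQ0, hQx⟩ := hmemX ξ hξ
          exact ⟨hXA' ξ hξ, Q, hQ0, hQx⟩)
      rw [Finset.prod_insert hTX, ← hr] at hbound
      have hp0 : (p : AlgebraicClosure ℚ) ≠ 0 := by exact_mod_cast hp.ne_zero
      have hr0 : (r : AlgebraicClosure ℚ) ≠ 0 := by
        intro h
        rw [h] at hrA
        exact hrA A.zero_mem
      have hkey : xc (T : Pt W) = ((p : AlgebraicClosure ℚ) * (xc (T : Pt W) * (r : AlgebraicClosure ℚ))) *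
          ((p : AlgebraicClosure ℚ) * (r : AlgebraicClosure ℚ))⁻¹ := by
        field_simp
      exact hTA (hkey ▸ A.mul_mem _ _ hbound hinv)
    intro σ hσ x
    exact hkerN _ (hI A hA σ hσ x)
  · left
    push Not at hcase
    intro A hA σ hσ x hx
    have h2 : σ • x - x ∈ N := N.sub_mem (hN σ x hx) hx
    have h3 := hI A hA σ hσ x
    by_contra hne
    exact hcase A hA (σ • x - x) h2 (sub_ne_zero.mpr hne) h3

end Assembly

/-! ### Adapters: other shapes of the inputs -/

section Adapters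

variable {W : WeierstrassCurve ℚ} {p : ℕ}

theorem inKer_iff_exists (A : ValuationSubring (AlgebraicClosure ℚ)) (Q : Pt W) :
    InKer A Q ↔ (Q = 0 ∨ ∃ (x y : AlgebraicClosure ℚ) (h : (W⁄(AlgebraicClosure ℚ)).Nonsingular x y),
      Q = Point.some x y h ∧ x ∉ A) := by
  constructor
  · rintro (h | h)
    · exact Or.inl h
    · cases Q with
      | zero => exact Or.inl rfl
      | some x y hxy => exact Or.inr ⟨x, y, hxy, rfl, h⟩
  · rintro (h | ⟨x, y, hxy, rfl, h⟩)
    · exact Or.inl h
    · exact Or.inr h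

theorem inKer_iff_valuation (A : ValuationSubring (AlgebraicClosure ℚ)) (Q : Pt W) :
    InKer A Q ↔ (Q = 0 ∨ 1 < A.valuation (xc Q)) := by
  unfold InKer
  rw [← ValuationSubring.valuation_le_one_iff, not_le]

/-- `KerAdd` from closure under addition for all points (not only torsion points). -/
theorem kerAdd_of_forall
    (h : ∀ A : ValuationSubring (AlgebraicClosure ℚ), A.LiesOverPrime p →
      ∀ Q R : Pt W, InKer A Q → InKer A R → InKer A (Q + R)) : KerAdd W p :=
  fun A hA _ _ hQ hR => h A hA _ _ hQ hR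

/-- `KerAdd` from closure under addition for `p`-torsion points. -/
theorem kerAdd_of_forall_torsion
    (h : ∀ A : ValuationSubring (AlgebraicClosure ℚ), A.LiesOverPrime p →
      ∀ Q R : Pt W, p • Q = 0 → p • R = 0 → InKer A Q → InKer A R → InKer A (Q + R)) :
    KerAdd W p := by
  intro A hA Q R hQ hR
  have hQ0 : p • (Q : Pt W) = 0 := by
    have := Q.2
    rw [Submodule.mem_torsionBy_iff, natCast_zsmul] at this
    exact this
  have hR0 : p • (R : Pt W) = 0 := by
    have := R.2
    rw [Submodule.mem_torsionBy_iff, natCast_zsmul] at this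
    exact this
  exact h A hA _ _ hQ0 hR0 hQ hR

/-- `InertiaKer` from the statement for points killed by `p`. -/
theorem inertiaKer_of_forall
    (h : ∀ A : ValuationSubring (AlgebraicClosure ℚ), A.LiesOverPrime p →
      ∀ σ ∈ A.inertiaSubgroupIn ℚ, ∀ Q : Pt W, p • Q = 0 → InKer A (σ • Q - Q)) :
    InertiaKer W p := by
  intro A hA σ hσ Q
  have hQ0 : p • (Q : Pt W) = 0 := by
    have := Q.2
    rw [Submodule.mem_torsionBy_iff, natCast_zsmul] at this
    exact this
  exact h A hA σ hσ _ hQ0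

/-- `DivBound` from the valuation form of the Newton polygon bound. -/
theorem divBound_of_valuation
    (h : ∀ A : ValuationSubring (AlgebraicClosure ℚ), A.LiesOverPrime p →
      ∀ X : Finset (AlgebraicClosure ℚ),
        (∀ x ∈ X, x ∉ A ∧ ∃ (y : AlgebraicClosure ℚ) (hxy : (W⁄(AlgebraicClosure ℚ)).Nonsingular x y),
          p • (Point.some x y hxy : Pt W) = 0) →
        A.valuation (p : AlgebraicClosure ℚ) ≤ A.valuation (∏ x ∈ X, x⁻¹)) : DivBound W p := by
  intro A hA X hX
  have h1 := h A hA X (by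
    intro x hx
    obtain ⟨hxA, Q, hQ0, hQx⟩ := hX x hx
    refine ⟨hxA, ?_⟩
    have hQp : p • (Q : Pt W) = 0 := by
      have := Q.2
      rw [Submodule.mem_torsionBy_iff, natCast_zsmul] at this
      exact this
    have hQ0' : (Q : Pt W) ≠ 0 := fun h => hQ0 (Subtype.ext h)
    generalize (Q : Pt W) = T at hQp hQ0' hQx
    cases T with
    | zero => exact absurd rfl hQ0'
    | some x' y' hxy =>
      have hx' : x' = x := hQx
      subst hx'
      exact ⟨y', hxy, hQp⟩)
  have hprod0 : ∏ x ∈ X, x ≠ 0 := by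
    rw [Finset.prod_ne_zero_iff]
    intro x hx h0
    exact (hX x hx).1 (h0 ▸ A.zero_mem)
  rw [Finset.prod_inv_distrib, map_inv₀] at h1
  rw [← ValuationSubring.valuation_le_one_iff, map_mul]
  have hv0 : A.valuation (∏ x ∈ X, x) ≠ 0 := by
    rw [Valuation.ne_zero_iff]; exact hprod0
  calc A.valuation (p : AlgebraicClosure ℚ) * A.valuation (∏ x ∈ X, x)
      ≤ (A.valuation (∏ x ∈ X, x))⁻¹ * A.valuation (∏ x ∈ X, x) := mul_le_mul_left h1 _
    _ = 1 := inv_mul_cancel₀ hv0

end Adapters

/-! ### The Frey curve: the field `at_p` of helper13's `Ingredients`, verbatim -/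

/-- **I5 for the Frey curve**, from the cardinality of `E[p]` and the three local inputs. -/
theorem at_p_of_frey (P : FreyPackage)
    (hcard : Nat.card (Submodule.torsionBy ℤ ((P.freyCurve)⁄(AlgebraicClosure ℚ)).Point P.p)
      = P.p ^ 2)
    (hK : KerAdd P.freyCurve P.p) (hI : InertiaKer P.freyCurve P.p)
    (hD : DivBound P.freyCurve P.p) :
    ∀ N : Submodule (ZMod P.p)
        (Submodule.torsionBy ℤ ((P.freyCurve)⁄(AlgebraicClosure ℚ)).Point P.p),
      IsGaloisStable ℚ N → N ≠ ⊥ → N ≠ ⊤ →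
      (∀ A : ValuationSubring (AlgebraicClosure ℚ), A.LiesOverPrime P.p →
        ∀ σ ∈ A.inertiaSubgroupIn ℚ, ∀ x ∈ N, σ • x = x) ∨
      (∀ A : ValuationSubring (AlgebraicClosure ℚ), A.LiesOverPrime P.p →
        ∀ σ ∈ A.inertiaSubgroupIn ℚ,
          ∀ x : Submodule.torsionBy ℤ ((P.freyCurve)⁄(AlgebraicClosure ℚ)).Point P.p,
            σ • x - x ∈ N) := by
  have : Fact P.p.Prime := ⟨P.pp⟩
  intro N hN h0 h1
  exact at_p_core P.freyCurve P.p hcard hK hI hD N hN h0 h1

end

end Fermat.Agent.S13.helper3073
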