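import Fermat.Agent.S13.helper3073_AtPFrey
import Fermat.Agent.Lib.helper853_TorsionLadder
import Fermat.Agent.S13.helper3034_FreyAtTwo

/-!
# S13, ingredient I5 (`at_p`) for the Frey curve: hypothesis-free (helper3073)

`at_p` below is the field `at_p` of `helper613.WeakIngredients` / `helper8682.Inputs`
(the exact count `Nat.card E[p] = p ^ 2` is a hypothesis of the field there), with NO other
hypothesis.  The division polynomial comes from `Lib/helper853_TorsionLadder` (`psiP`,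
`nsmul_eq_zero_iff_psiP`, `psiP_isLC`, `psiP_map`), the integrality of the Frey model from
`helper3034_FreyAtTwo`.
-/

set_option autoImplicit false
open WeierstrassCurve WeierstrassCurve.Affine WeierstrassCurve.Affine.Point

namespace Fermat.Agent.S13.helper3073

noncomputable section

open Fermat.Agent.Lib.helper853 in
/-- The `p`-th division polynomial of the Frey curve has integer coefficients, leading
coefficient `-p`, and vanishes at the `x`-coordinates of the points killed by `p`. -/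
theorem divPolyStmt_frey (P : FreyPackage) : DivPolyStmt P.freyCurve P.p := by
  intro A _
  obtain ⟨m, hm⟩ := P.hp_odd
  obtain ⟨f, hf⟩ : ∃ f : ℤ →+* AlgebraicClosure ℚ, f = Int.castRingHom (AlgebraicClosure ℚ) :=
    ⟨_, rfl⟩
  obtain ⟨B₂, hB₂⟩ : ∃ B₂ : ℤ, B₂ = 1 + 4 * Fermat.Agent.S13.helper3034.A2 P := ⟨_, rfl⟩
  obtain ⟨B₄, hB₄⟩ : ∃ B₄ : ℤ, B₄ = 2 * Fermat.Agent.S13.helper3034.A4 P := ⟨_, rfl⟩
  obtain ⟨B₈, hB₈⟩ : ∃ B₈ : ℤ, B₈ = -(Fermat.Agent.S13.helper3034.A4 P) ^ 2 := ⟨_, rfl⟩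
  have e₂ : ((P.freyCurve)⁄(AlgebraicClosure ℚ)).b₂ = f B₂ := by
    have h1 : f B₂ = 1 + 4 * ((Fermat.Agent.S13.helper3034.A2 P : ℤ) : AlgebraicClosure ℚ) := by
      rw [hf, hB₂, eq_intCast]; push_cast; rfl
    rw [h1]
    exact Fermat.Agent.S13.helper3034.map_b₂ (K := AlgebraicClosure ℚ) P
  have e₄ : ((P.freyCurve)⁄(AlgebraicClosure ℚ)).b₄ = f B₄ := by
    have h1 : f B₄ = 2 * ((Fermat.Agent.S13.helper3034.A4 P : ℤ) : AlgebraicClosure ℚ) := by
      rw [hf, hB₄, eq_intCast]; push_cast; rfl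
    rw [h1]
    exact Fermat.Agent.S13.helper3034.map_b₄ (K := AlgebraicClosure ℚ) P
  have e₆ : ((P.freyCurve)⁄(AlgebraicClosure ℚ)).b₆ = f 0 := by
    rw [_root_.map_zero]
    exact Fermat.Agent.S13.helper3034.map_b₆ (K := AlgebraicClosure ℚ) P
  have e₈ : ((P.freyCurve)⁄(AlgebraicClosure ℚ)).b₈ = f B₈ := by
    have h1 : f B₈ = -((Fermat.Agent.S13.helper3034.A4 P : ℤ) : AlgebraicClosure ℚ) ^ 2 := by
      rw [hf, hB₈, eq_intCast]; push_cast; rfl
    rw [h1]
    exact Fermat.Agent.S13.helper3034.map_b₈ (K := AlgebraicClosure ℚ) P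
  have hmap : (psiP B₂ B₄ 0 B₈ m).map f = psiP (f B₂) (f B₄) (f 0) (f B₈) m :=
    psiP_map B₂ B₄ 0 B₈ f m
  refine ⟨(psiP B₂ B₄ 0 B₈ m).map f, ?_, ?_, ?_⟩
  · intro i
    rw [Polynomial.coeff_map, hf, eq_intCast]
    exact (ValuationSubring.valuation_le_one_iff A _).2 (intCast_mem A _)
  · have hLC := psiP_isLC (f B₂) (f B₄) (f 0) (f B₈) m
    have hne : -(2 * (m : AlgebraicClosure ℚ) + 1) ≠ 0 := by
      have h1 : (2 * (m : AlgebraicClosure ℚ) + 1) = ((2 * m + 1 : ℕ) : AlgebraicClosure ℚ) := by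
        push_cast; ring
      rw [h1, neg_ne_zero]
      exact_mod_cast (by omega : 2 * m + 1 ≠ 0)
    have hnd := IsLC.natDegree_eq hLC hne
    have hlead : ((psiP B₂ B₄ 0 B₈ m).map f).leadingCoeff = -(2 * (m : AlgebraicClosure ℚ) + 1) := by
      rw [hmap, Polynomial.leadingCoeff, hnd]
      exact hLC.2
    rw [hlead, Valuation.map_neg]
    have h1 : (P.p : AlgebraicClosure ℚ) = 2 * (m : AlgebraicClosure ℚ) + 1 := by
      rw [hm]; push_cast; ring
    rw [h1]
  · intro x y h hx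
    have hx' : (2 * m + 1) • (Point.some x y h : Pt P.freyCurve) = 0 := by
      have h2 : 2 * m + 1 = P.p := by omega
      rw [h2]; exact hx
    have key := (nsmul_eq_zero_iff_psiP ((P.freyCurve)⁄(AlgebraicClosure ℚ)) h m).mp hx'
    rw [e₂, e₄, e₆, e₈] at key
    rw [hmap]
    exact key

/-- **Field `at_p`** of the S13 skeletons (`helper613.WeakIngredients.at_p`,
`helper8682.Inputs.at_p`), hypothesis-free. -/
theorem at_p (P : FreyPackage) :
    Nat.card (Submodule.torsionBy ℤ ((P.freyCurve)⁄(AlgebraicClosure ℚ)).Point P.p) = P.p ^ 2 →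
    ∀ N : Submodule (ZMod P.p)
        (Submodule.torsionBy ℤ ((P.freyCurve)⁄(AlgebraicClosure ℚ)).Point P.p),
      IsGaloisStable ℚ N → N ≠ ⊥ → N ≠ ⊤ →
      (∀ A : ValuationSubring (AlgebraicClosure ℚ), A.LiesOverPrime P.p →
        ∀ σ ∈ A.inertiaSubgroupIn ℚ, ∀ x ∈ N, σ • x = x) ∨
      (∀ A : ValuationSubring (AlgebraicClosure ℚ), A.LiesOverPrime P.p →
        ∀ σ ∈ A.inertiaSubgroupIn ℚ,
          ∀ x : Submodule.torsionBy ℤ ((P.freyCurve)⁄(AlgebraicClosure ℚ)).Point P.p,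
            σ • x - x ∈ N) :=
  at_p_of_divPoly P (divPolyStmt_frey P)

end

end Fermat.Agent.S13.helper3073
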