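import Fermat.Agent.S05.helper245_LegE
import Fermat.Agent.S05.helper245_Vieta

set_option autoImplicit false

/-!
Abstract "a₁-coordinatised" groups: an additive commutative group `G` with coordinate functions
`X Y : G → K` behaving like the affine coordinates of the curve
`Y² + a₁ X Y = X³ + a₂ X² + a₄ X`, where the group law is only accessed through Vieta's relations
for collinear triples. This is the port of the Legendre library of helper245 (`a₁ = 0`, `2` a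
unit) to residue characteristic `2`: no hypothesis on `v 2` is made.

Part A: the kernel of reduction `E₁ = {1 < v X}` and its torsion.
-/

namespace Fermat.Agent.S13.helper3407

open Fermat.Agent.S05

/-- Abstract coordinates on a group behaving like `Y² + a₁ X Y = X³ + a₂ X² + a₄ X`. -/
structure IsA1Coord {K : Type*} [Field K] {G : Type*} [AddCommGroup G] (a₁ a₂ a₄ : K)
    (X Y : G → K) : Prop where
  eqn : ∀ P, P ≠ 0 → Y P ^ 2 + a₁ * X P * Y P = X P ^ 3 + a₂ * X P ^ 2 + a₄ * X P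
  inj : ∀ P Q, P ≠ 0 → Q ≠ 0 → X P = X Q → Y P = Y Q → P = Q
  negX : ∀ P, P ≠ 0 → X (-P) = X P
  negY : ∀ P, P ≠ 0 → Y (-P) = -Y P - a₁ * X P
  vieta : ∀ P₁ P₂ P₃, P₁ ≠ 0 → P₂ ≠ 0 → P₃ ≠ 0 → P₁ + P₂ + P₃ = 0 →
    ∃ l m : K, Y P₁ = l * X P₁ + m ∧ Y P₂ = l * X P₂ + m ∧ Y P₃ = l * X P₃ + m ∧
      X P₁ + X P₂ + X P₃ = l ^ 2 + a₁ * l - a₂ ∧
      X P₁ * X P₂ + X P₁ * X P₃ + X P₂ * X P₃ = a₄ - 2 * l * m - a₁ * m ∧
      X P₁ * X P₂ * X P₃ = m ^ 2

section Quad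

variable {K : Type*} [Field K] {Γ₀ : Type*} [LinearOrderedCommGroupWithZero Γ₀]
  (v : Valuation K Γ₀)

theorem val_quad_of_one_lt {a₁ l : K} (ha₁ : v a₁ ≤ 1) (hl : 1 < v l) :
    v (l ^ 2 + a₁ * l) = v l ^ 2 := by
  have hl0 : (0 : Γ₀) < v l := lt_trans zero_lt_one hl
  have h1 : v (a₁ * l) < v (l ^ 2) := by
    rw [v.map_mul, v.map_pow, sq]
    calc v a₁ * v l ≤ 1 * v l := by gcongr
      _ < v l * v l := mul_lt_mul_of_pos_right hl hl0
  rw [v.map_add_eq_of_lt_left h1, v.map_pow]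

theorem val_le_one_of_quad {a₁ l : K} (ha₁ : v a₁ ≤ 1) (h : v (l ^ 2 + a₁ * l) ≤ 1) :
    v l ≤ 1 := by
  by_contra hl
  have hl' : 1 < v l := lt_of_not_ge hl
  rw [val_quad_of_one_lt v ha₁ hl'] at h
  exact absurd (one_lt_pow₀ hl' (by norm_num)) (not_lt.mpr h)

theorem val_sq_le_of_quad {a₁ l : K} (ha₁ : v a₁ ≤ 1) {M : Γ₀} (hM : 1 ≤ M)
    (h : v (l ^ 2 + a₁ * l) ≤ M) : v l ^ 2 ≤ M := by
  rcases le_or_gt (v l) 1 with hl | hl
  · exact le_trans (pow_le_one₀ zero_le hl) hM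
  · rw [← val_quad_of_one_lt v ha₁ hl]; exact h

theorem one_lt_val_of_quad {a₁ l : K} (ha₁ : v a₁ ≤ 1) (h : 1 < v (l ^ 2 + a₁ * l)) :
    1 < v l := by
  by_contra hl
  have hl' : v l ≤ 1 := le_of_not_gt hl
  have h1 : v (l ^ 2 + a₁ * l) ≤ 1 := by
    apply v.map_add_le
    · rw [v.map_pow]; exact pow_le_one₀ zero_le hl'
    · rw [v.map_mul]
      calc v a₁ * v l ≤ 1 * 1 := mul_le_mul' ha₁ hl'
        _ = 1 := one_mul 1
  exact absurd h (not_lt.mpr h1)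

end Quad

section E1

variable {K : Type*} [Field K] {Γ₀ : Type*} [LinearOrderedCommGroupWithZero Γ₀]
  (v : Valuation K Γ₀) {G : Type*} [AddCommGroup G] {a₁ a₂ a₄ : K} {X Y : G → K}

theorem val_rhs_of_one_lt (ha₂ : v a₂ ≤ 1) (ha₄ : v a₄ ≤ 1) {x : K} (hx : 1 < v x) :
    v (x ^ 3 + a₂ * x ^ 2 + a₄ * x) = v x ^ 3 := by
  rw [← v.map_pow, add_assoc]
  apply v.map_add_eq_of_lt_left
  have h1 : v (a₂ * x ^ 2) < v (x ^ 3) := by
    rw [v.map_mul, v.map_pow, v.map_pow]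
    calc v a₂ * v x ^ 2 ≤ 1 * v x ^ 2 := by gcongr
      _ = v x ^ 2 := one_mul _
      _ < v x ^ 3 := pow_lt_pow_right₀ hx (by norm_num)
  have h2 : v (a₄ * x) < v (x ^ 3) := by
    rw [v.map_mul, v.map_pow]
    calc v a₄ * v x ≤ 1 * v x := by gcongr
      _ = v x ^ 1 := by rw [one_mul, pow_one]
      _ < v x ^ 3 := pow_lt_pow_right₀ hx (by norm_num)
  exact v.map_add_lt h1 h2

/-- For a point with `1 < v (X P)`: `v (X P) < v (Y P)`. -/
theorem val_X_lt_val_Y_of_E1 (hL : IsA1Coord a₁ a₂ a₄ X Y) (ha₁ : v a₁ ≤ 1) (ha₂ : v a₂ ≤ 1)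
    (ha₄ : v a₄ ≤ 1) {P : G} (hP : P ≠ 0) (hx : 1 < v (X P)) : v (X P) < v (Y P) := by
  by_contra hle
  have hle' : v (Y P) ≤ v (X P) := le_of_not_gt hle
  have hr := val_rhs_of_one_lt v ha₂ ha₄ hx
  rw [← hL.eqn P hP] at hr
  have e : Y P ^ 2 + a₁ * X P * Y P = Y P * (Y P + a₁ * X P) := by ring
  rw [e, v.map_mul] at hr
  have h1 : v (Y P + a₁ * X P) ≤ v (X P) := by
    apply v.map_add_le hle'
    rw [v.map_mul]
    calc v a₁ * v (X P) ≤ 1 * v (X P) := by gcongr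
      _ = v (X P) := one_mul _
  have h2 : v (Y P) * v (Y P + a₁ * X P) ≤ v (X P) * v (X P) := mul_le_mul' hle' h1
  rw [hr] at h2
  have h3 : v (X P) * v (X P) < v (X P) ^ 3 := by
    rw [← sq]; exact pow_lt_pow_right₀ hx (by norm_num)
  exact absurd h2 (not_le.mpr h3)

/-- For a point with `1 < v (X P)`: `v (Y P) ^ 2 = v (X P) ^ 3`. -/
theorem val_Y_sq_of_E1 (hL : IsA1Coord a₁ a₂ a₄ X Y) (ha₁ : v a₁ ≤ 1) (ha₂ : v a₂ ≤ 1)
    (ha₄ : v a₄ ≤ 1) {P : G} (hP : P ≠ 0) (hx : 1 < v (X P)) : v (Y P) ^ 2 = v (X P) ^ 3 := by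
  have hxy := val_X_lt_val_Y_of_E1 v hL ha₁ ha₂ ha₄ hP hx
  have hr := val_rhs_of_one_lt v ha₂ ha₄ hx
  rw [← hL.eqn P hP] at hr
  have hy0 : (0 : Γ₀) < v (Y P) := lt_trans (lt_trans zero_lt_one hx) hxy
  have h1 : v (a₁ * X P * Y P) < v (Y P ^ 2) := by
    rw [v.map_mul, v.map_mul, v.map_pow, sq]
    calc v a₁ * v (X P) * v (Y P) ≤ 1 * v (X P) * v (Y P) := by gcongr
      _ = v (X P) * v (Y P) := by rw [one_mul]
      _ < v (Y P) * v (Y P) := mul_lt_mul_of_pos_right hxy hy0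
  rw [v.map_add_eq_of_lt_left h1, v.map_pow] at hr
  exact hr

theorem Y_ne_zero_of_E1 (hL : IsA1Coord a₁ a₂ a₄ X Y) (ha₁ : v a₁ ≤ 1) (ha₂ : v a₂ ≤ 1)
    (ha₄ : v a₄ ≤ 1) {P : G} (hP : P ≠ 0) (hx : 1 < v (X P)) : Y P ≠ 0 := by
  intro h0
  have h := val_X_lt_val_Y_of_E1 v hL ha₁ ha₂ ha₄ hP hx
  rw [h0, v.map_zero] at h
  exact absurd h (not_lt.mpr zero_le)

theorem val_Y_add_of_E1 (hL : IsA1Coord a₁ a₂ a₄ X Y) (ha₁ : v a₁ ≤ 1) (ha₂ : v a₂ ≤ 1)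
    (ha₄ : v a₄ ≤ 1) {P : G} (hP : P ≠ 0) (hx : 1 < v (X P)) :
    v (Y P + a₁ * X P) = v (Y P) := by
  have hxy := val_X_lt_val_Y_of_E1 v hL ha₁ ha₂ ha₄ hP hx
  apply v.map_add_eq_of_lt_left
  rw [v.map_mul]
  calc v a₁ * v (X P) ≤ 1 * v (X P) := by gcongr
    _ = v (X P) := one_mul _
    _ < v (Y P) := hxy

/-- `v (X/Y) ^ 2 * v X = 1` on `E₁`. -/
theorem val_z_sq_of_E1 (hL : IsA1Coord a₁ a₂ a₄ X Y) (ha₁ : v a₁ ≤ 1) (ha₂ : v a₂ ≤ 1)
    (ha₄ : v a₄ ≤ 1) {P : G} (hP : P ≠ 0) (hx : 1 < v (X P)) :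
    v (X P / Y P) ^ 2 * v (X P) = 1 := by
  have h := val_Y_sq_of_E1 v hL ha₁ ha₂ ha₄ hP hx
  have hx0 : v (X P) ≠ 0 := (lt_trans zero_lt_one hx).ne'
  have hy0 : v (Y P) ≠ 0 := by
    rw [v.ne_zero_iff]; exact Y_ne_zero_of_E1 v hL ha₁ ha₂ ha₄ hP hx
  rw [v.map_div, div_pow, h]
  field_simp

theorem val_z_lt_one_of_E1 (hL : IsA1Coord a₁ a₂ a₄ X Y) (ha₁ : v a₁ ≤ 1) (ha₂ : v a₂ ≤ 1)
    (ha₄ : v a₄ ≤ 1) {P : G} (hP : P ≠ 0) (hx : 1 < v (X P)) : v (X P / Y P) < 1 := by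
  have hxy := val_X_lt_val_Y_of_E1 v hL ha₁ ha₂ ha₄ hP hx
  have hy0 : (0 : Γ₀) < v (Y P) := lt_trans (lt_trans zero_lt_one hx) hxy
  rw [v.map_div]
  exact (div_lt_one₀ hy0).mpr hxy

theorem val_z_pos_of_E1 (hL : IsA1Coord a₁ a₂ a₄ X Y) (ha₁ : v a₁ ≤ 1) (ha₂ : v a₂ ≤ 1)
    (ha₄ : v a₄ ≤ 1) {P : G} (hP : P ≠ 0) (hx : 1 < v (X P)) : 0 < v (X P / Y P) := by
  rw [v.pos_iff]
  have hx0 : X P ≠ 0 := by
    intro h; rw [h, v.map_zero] at hx; exact absurd hx (not_lt.mpr zero_le)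
  exact div_ne_zero hx0 (Y_ne_zero_of_E1 v hL ha₁ ha₂ ha₄ hP hx)

/-- The parameter `z = X / Y` of the opposite point. -/
theorem z_neg_of_E1 (hL : IsA1Coord a₁ a₂ a₄ X Y) (ha₁ : v a₁ ≤ 1) (ha₂ : v a₂ ≤ 1)
    (ha₄ : v a₄ ≤ 1) {P : G} (hP : P ≠ 0) (hx : 1 < v (X P)) :
    v (X (-P) / Y (-P) + X P / Y P) ≤ v (X P / Y P) * v (X P / Y P) := by
  have hy0 := Y_ne_zero_of_E1 v hL ha₁ ha₂ ha₄ hP hx
  have hva := val_Y_add_of_E1 v hL ha₁ ha₂ ha₄ hP hx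
  have hy1 : Y P + a₁ * X P ≠ 0 := by
    rw [← v.ne_zero_iff, hva, v.ne_zero_iff]; exact hy0
  rw [hL.negX P hP, hL.negY P hP]
  have e0 : -Y P - a₁ * X P = -(Y P + a₁ * X P) := by ring
  have e : X P / (-Y P - a₁ * X P) + X P / Y P =
      a₁ * (X P / Y P) * (X P / (Y P + a₁ * X P)) := by
    rw [e0, div_neg]
    obtain ⟨w, hw0⟩ : ∃ w : K, w = Y P + a₁ * X P := ⟨_, rfl⟩
    rw [← hw0] at hy1 ⊢
    have hw : a₁ * X P = w - Y P := by rw [hw0]; ring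
    field_simp
    linear_combination (-X P) * hw
  rw [e, v.map_mul, v.map_mul, v.map_div, v.map_div, hva]
  calc v a₁ * (v (X P) / v (Y P)) * (v (X P) / v (Y P))
      ≤ 1 * (v (X P) / v (Y P)) * (v (X P) / v (Y P)) := by gcongr
    _ = v (X P) / v (Y P) * (v (X P) / v (Y P)) := by rw [one_mul]

/-- Closure of `E₁` under the group law, and the key estimate for `z = X / Y`. -/
theorem E1_triple (hL : IsA1Coord a₁ a₂ a₄ X Y) (ha₁ : v a₁ ≤ 1) (ha₂ : v a₂ ≤ 1)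
    (ha₄ : v a₄ ≤ 1) {P₁ P₂ P₃ : G} (h₁ : P₁ ≠ 0) (h₂ : P₂ ≠ 0) (h₃ : P₃ ≠ 0)
    (hs : P₁ + P₂ + P₃ = 0) (hx₁ : 1 < v (X P₁)) (hx₂ : 1 < v (X P₂)) :
    1 < v (X P₃) ∧ ∀ t : Γ₀, v (X P₁ / Y P₁) ≤ t → v (X P₂ / Y P₂) ≤ t →
      v (X P₃ / Y P₃) ≤ t → v (X P₁ / Y P₁ + X P₂ / Y P₂ + X P₃ / Y P₃) ≤ t * t := by
  obtain ⟨l, m, hy₁, hy₂, hy₃, e₁, e₂, e₃⟩ := hL.vieta P₁ P₂ P₃ h₁ h₂ h₃ hs
  have hx₁0 : (0 : Γ₀) < v (X P₁) := lt_trans zero_lt_one hx₁
  have hx₂0 : (0 : Γ₀) < v (X P₂) := lt_trans zero_lt_one hx₂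
  have hsum12 : v (X P₁ + X P₂) ≤ max (v (X P₁)) (v (X P₂)) := v.map_add _ _
  -- Step 1: the third point is in `E₁`
  have hx₃ : 1 < v (X P₃) := by
    by_contra hle
    have hle' : v (X P₃) ≤ 1 := le_of_not_gt hle
    have key : (X P₁ * X P₂ + X P₁ * X P₃ + X P₂ * X P₃ - a₄) ^ 2 =
        (4 * (X P₁ + X P₂ + X P₃ + a₂) + a₁ ^ 2) * (X P₁ * X P₂ * X P₃) := by
      rw [e₂, e₁, e₃]; ring
    have hM : max (v (X P₁)) (v (X P₂)) < v (X P₁) * v (X P₂) := by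
      rcases le_total (v (X P₁)) (v (X P₂)) with h | h
      · rw [max_eq_right h]
        calc v (X P₂) = 1 * v (X P₂) := (one_mul _).symm
          _ < v (X P₁) * v (X P₂) := mul_lt_mul_of_pos_right hx₁ hx₂0
      · rw [max_eq_left h]
        calc v (X P₁) = v (X P₁) * 1 := (mul_one _).symm
          _ < v (X P₁) * v (X P₂) := mul_lt_mul_of_pos_left hx₂ hx₁0
    have hL1 : v (X P₁ * X P₂ + X P₁ * X P₃ + X P₂ * X P₃ - a₄) = v (X P₁) * v (X P₂) := by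
      have : X P₁ * X P₂ + X P₁ * X P₃ + X P₂ * X P₃ - a₄ =
          X P₁ * X P₂ + ((X P₁ + X P₂) * X P₃ - a₄) := by ring
      rw [this, ← v.map_mul]
      apply v.map_add_eq_of_lt_left
      rw [v.map_mul]
      apply v.map_sub_lt
      · rw [v.map_mul]
        calc v (X P₁ + X P₂) * v (X P₃) ≤ max (v (X P₁)) (v (X P₂)) * 1 :=
              mul_le_mul' hsum12 hle'
          _ = max (v (X P₁)) (v (X P₂)) := mul_one _
          _ < v (X P₁) * v (X P₂) := hM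
      · exact lt_of_le_of_lt ha₄ (lt_of_lt_of_le (lt_max_of_lt_left hx₁) hM.le)
    have hR : v ((4 * (X P₁ + X P₂ + X P₃ + a₂) + a₁ ^ 2) * (X P₁ * X P₂ * X P₃)) ≤
        max (v (X P₁)) (v (X P₂)) * (v (X P₁) * v (X P₂)) := by
      rw [v.map_mul, v.map_mul, v.map_mul]
      have h4 := helper245.val_four_le_one v
      have hs' : v (X P₁ + X P₂ + X P₃ + a₂) ≤ max (v (X P₁)) (v (X P₂)) := by
        apply v.map_add_le (v.map_add_le hsum12 ?_) ?_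
        · exact le_trans hle' (le_trans hx₁.le (le_max_left _ _))
        · exact le_trans ha₂ (le_trans hx₁.le (le_max_left _ _))
      have hs'' : v (4 * (X P₁ + X P₂ + X P₃ + a₂) + a₁ ^ 2) ≤ max (v (X P₁)) (v (X P₂)) := by
        apply v.map_add_le
        · rw [v.map_mul]
          calc v 4 * v (X P₁ + X P₂ + X P₃ + a₂) ≤ 1 * max (v (X P₁)) (v (X P₂)) :=
                mul_le_mul' h4 hs'
            _ = max (v (X P₁)) (v (X P₂)) := one_mul _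
        · rw [v.map_pow]
          exact le_trans (pow_le_one₀ zero_le ha₁) (le_trans hx₁.le (le_max_left _ _))
      calc v (4 * (X P₁ + X P₂ + X P₃ + a₂) + a₁ ^ 2) * (v (X P₁) * v (X P₂) * v (X P₃))
          ≤ max (v (X P₁)) (v (X P₂)) * (v (X P₁) * v (X P₂) * 1) := by gcongr
        _ = max (v (X P₁)) (v (X P₂)) * (v (X P₁) * v (X P₂)) := by rw [mul_one]
    have hfin : (v (X P₁) * v (X P₂)) ^ 2 ≤ max (v (X P₁)) (v (X P₂)) * (v (X P₁) * v (X P₂)) := by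
      calc (v (X P₁) * v (X P₂)) ^ 2
          = v ((X P₁ * X P₂ + X P₁ * X P₃ + X P₂ * X P₃ - a₄) ^ 2) := by rw [v.map_pow, hL1]
        _ = v ((4 * (X P₁ + X P₂ + X P₃ + a₂) + a₁ ^ 2) * (X P₁ * X P₂ * X P₃)) := by rw [key]
        _ ≤ _ := hR
    have h12 : (0 : Γ₀) < v (X P₁) * v (X P₂) := mul_pos hx₁0 hx₂0
    rw [sq] at hfin
    have := le_of_mul_le_mul_right hfin h12
    exact absurd this (not_le.mpr hM)
  refine ⟨hx₃, ?_⟩
  intro t ht₁ ht₂ ht₃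
  have hx₃0 : (0 : Γ₀) < v (X P₃) := lt_trans zero_lt_one hx₃
  have hy₁0 := Y_ne_zero_of_E1 v hL ha₁ ha₂ ha₄ h₁ hx₁
  have hy₂0 := Y_ne_zero_of_E1 v hL ha₁ ha₂ ha₄ h₂ hx₂
  have hy₃0 := Y_ne_zero_of_E1 v hL ha₁ ha₂ ha₄ h₃ hx₃
  have hz₃1 : v (X P₃ / Y P₃) < 1 := val_z_lt_one_of_E1 v hL ha₁ ha₂ ha₄ h₃ hx₃
  -- Step 2: the estimate
  have hS : X P₁ * Y P₂ * Y P₃ + X P₂ * Y P₁ * Y P₃ + X P₃ * Y P₁ * Y P₂ =
      2 * a₄ * l * m - a₁ * l * m ^ 2 - a₂ * m ^ 2 := by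
    rw [hy₁, hy₂, hy₃]
    linear_combination (3 * l ^ 2) * e₃ + (2 * l * m) * e₂ + m ^ 2 * e₁
  have hD0 : Y P₁ * Y P₂ * Y P₃ ≠ 0 := mul_ne_zero (mul_ne_zero hy₁0 hy₂0) hy₃0
  have hvD0 : (0 : Γ₀) < v (Y P₁ * Y P₂ * Y P₃) := by rw [v.pos_iff]; exact hD0
  have hsum : X P₁ / Y P₁ + X P₂ / Y P₂ + X P₃ / Y P₃ =
      (2 * a₄ * l * m - a₁ * l * m ^ 2 - a₂ * m ^ 2) / (Y P₁ * Y P₂ * Y P₃) := by
    rw [← hS]; field_simp
  have hprod : X P₁ / Y P₁ * (X P₂ / Y P₂) * (X P₃ / Y P₃) = m ^ 2 / (Y P₁ * Y P₂ * Y P₃) := by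
    rw [← e₃]; field_simp
  have hm2 : v m ^ 2 = v (X P₁) * v (X P₂) * v (X P₃) := by
    rw [← v.map_pow, ← e₃, v.map_mul, v.map_mul]
  have hm2D : v m ^ 2 = v (X P₁ / Y P₁) * v (X P₂ / Y P₂) * v (X P₃ / Y P₃) *
      v (Y P₁ * Y P₂ * Y P₃) := by
    rw [← v.map_mul, ← v.map_mul, hprod, v.map_div, v.map_pow, div_mul_cancel₀ _ hvD0.ne']
  have hp1 : v (X P₁) ≤ v (X P₁) * v (X P₂) * v (X P₃) := by
    calc v (X P₁) = v (X P₁) * 1 * 1 := by rw [mul_one, mul_one]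
      _ ≤ v (X P₁) * v (X P₂) * v (X P₃) := by gcongr
  have hp2 : v (X P₂) ≤ v (X P₁) * v (X P₂) * v (X P₃) := by
    calc v (X P₂) = 1 * v (X P₂) * 1 := by rw [mul_one, one_mul]
      _ ≤ v (X P₁) * v (X P₂) * v (X P₃) := by gcongr
  have hp3 : v (X P₃) ≤ v (X P₁) * v (X P₂) * v (X P₃) := by
    calc v (X P₃) = 1 * 1 * v (X P₃) := by rw [one_mul, one_mul]
      _ ≤ v (X P₁) * v (X P₂) * v (X P₃) := by gcongr
  -- the slope
  have hquad : l ^ 2 + a₁ * l = X P₁ + X P₂ + X P₃ + a₂ := by rw [e₁]; ring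
  have hmax : v l ^ 2 ≤ max (v (X P₁)) (max (v (X P₂)) (v (X P₃))) := by
    apply val_sq_le_of_quad v ha₁ (le_trans hx₁.le (le_max_left _ _))
    rw [hquad]
    apply v.map_add_le (v.map_add_le (v.map_add_le (le_max_left _ _) ?_) ?_) ?_
    · exact le_trans (le_max_left _ _) (le_max_right _ _)
    · exact le_trans (le_max_right _ _) (le_max_right _ _)
    · exact le_trans ha₂ (le_trans hx₁.le (le_max_left _ _))
  have hlm : v l ≤ v m := by
    apply helper245.le_of_sq_le_sq'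
    rw [hm2]
    exact le_trans hmax (max_le hp1 (max_le hp2 hp3))
  have hlz : ∀ P : G, P ≠ 0 → 1 < v (X P) → v l ^ 2 ≤ v (X P) → v l * v (X P / Y P) ≤ 1 := by
    intro P hP hx hl
    apply helper245.le_of_sq_le_sq'
    rw [mul_pow, one_pow]
    calc v l ^ 2 * v (X P / Y P) ^ 2 ≤ v (X P) * v (X P / Y P) ^ 2 := by gcongr
      _ = 1 := by rw [mul_comm]; exact val_z_sq_of_E1 v hL ha₁ ha₂ ha₄ hP hx
  have ht0 : (0 : Γ₀) ≤ t := zero_le
  have hzzz : v (X P₁ / Y P₁) * v (X P₂ / Y P₂) * v (X P₃ / Y P₃) ≤ t * t := by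
    calc v (X P₁ / Y P₁) * v (X P₂ / Y P₂) * v (X P₃ / Y P₃) ≤ t * t * 1 := by gcongr
      _ = t * t := mul_one _
  have hlzzz : v l * (v (X P₁ / Y P₁) * v (X P₂ / Y P₂) * v (X P₃ / Y P₃)) ≤ t * t := by
    rcases le_max_iff.mp hmax with h | h
    · have := hlz P₁ h₁ hx₁ h
      calc v l * (v (X P₁ / Y P₁) * v (X P₂ / Y P₂) * v (X P₃ / Y P₃))
          = (v l * v (X P₁ / Y P₁)) * v (X P₂ / Y P₂) * v (X P₃ / Y P₃) := by
            simp only [mul_assoc]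
        _ ≤ 1 * t * t := by gcongr
        _ = t * t := by rw [one_mul]
    · rcases le_max_iff.mp h with h | h
      · have := hlz P₂ h₂ hx₂ h
        calc v l * (v (X P₁ / Y P₁) * v (X P₂ / Y P₂) * v (X P₃ / Y P₃))
            = (v l * v (X P₂ / Y P₂)) * v (X P₁ / Y P₁) * v (X P₃ / Y P₃) := by
              ac_rfl
          _ ≤ 1 * t * t := by gcongr
          _ = t * t := by rw [one_mul]
      · have := hlz P₃ h₃ hx₃ h
        calc v l * (v (X P₁ / Y P₁) * v (X P₂ / Y P₂) * v (X P₃ / Y P₃))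
            = (v l * v (X P₃ / Y P₃)) * v (X P₁ / Y P₁) * v (X P₂ / Y P₂) := by
              ac_rfl
          _ ≤ 1 * t * t := by gcongr
          _ = t * t := by rw [one_mul]
  rw [hsum, v.map_div, div_le_iff₀ hvD0]
  have hT3 : v m ^ 2 ≤ t * t * v (Y P₁ * Y P₂ * Y P₃) := by
    rw [hm2D]; gcongr
  apply v.map_sub_le (v.map_sub_le ?_ ?_) ?_
  · rw [v.map_mul, v.map_mul, v.map_mul]
    calc v 2 * v a₄ * v l * v m ≤ 1 * 1 * v m * v m := by
          gcongr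
          exact helper245.val_two_le_one v
      _ = v m ^ 2 := by rw [one_mul, one_mul, sq]
      _ ≤ _ := hT3
  · rw [v.map_mul, v.map_mul, v.map_pow, hm2D]
    calc v a₁ * v l * (v (X P₁ / Y P₁) * v (X P₂ / Y P₂) * v (X P₃ / Y P₃) *
          v (Y P₁ * Y P₂ * Y P₃))
        = v a₁ * (v l * (v (X P₁ / Y P₁) * v (X P₂ / Y P₂) * v (X P₃ / Y P₃))) *
          v (Y P₁ * Y P₂ * Y P₃) := by simp only [mul_assoc]
      _ ≤ 1 * (t * t) * v (Y P₁ * Y P₂ * Y P₃) := by gcongr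
      _ = t * t * v (Y P₁ * Y P₂ * Y P₃) := by rw [one_mul]
  · rw [v.map_mul, v.map_pow]
    calc v a₂ * v m ^ 2 ≤ 1 * v m ^ 2 := by gcongr
      _ = v m ^ 2 := one_mul _
      _ ≤ _ := hT3

theorem E1_multiples (hL : IsA1Coord a₁ a₂ a₄ X Y) (ha₁ : v a₁ ≤ 1) (ha₂ : v a₂ ≤ 1)
    (ha₄ : v a₄ ≤ 1) {P : G} (hP : P ≠ 0) (hx : 1 < v (X P)) (n : ℕ) :
    (n • P = 0 ∧ v ((n : K) * (X P / Y P)) < v (X P / Y P)) ∨
      (n • P ≠ 0 ∧ 1 < v (X (n • P)) ∧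
        v (X (n • P) / Y (n • P) - (n : K) * (X P / Y P)) < v (X P / Y P)) := by
  have hk0 : (0 : Γ₀) < v (X P / Y P) := val_z_pos_of_E1 v hL ha₁ ha₂ ha₄ hP hx
  have hk1 : v (X P / Y P) < 1 := val_z_lt_one_of_E1 v hL ha₁ ha₂ ha₄ hP hx
  have hkk : v (X P / Y P) * v (X P / Y P) < v (X P / Y P) := by
    calc v (X P / Y P) * v (X P / Y P) < v (X P / Y P) * 1 := mul_lt_mul_of_pos_left hk1 hk0
      _ = v (X P / Y P) := mul_one _
  induction n with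
  | zero =>
    left
    exact ⟨zero_nsmul P, by rw [Nat.cast_zero, zero_mul, v.map_zero]; exact hk0⟩
  | succ n ih =>
    rcases ih with ⟨hn0, hnv⟩ | ⟨hn0, hnx, hnv⟩
    · right
      have hP' : (n + 1) • P = P := by rw [succ_nsmul, hn0, zero_add]
      rw [hP']
      refine ⟨hP, hx, ?_⟩
      have : X P / Y P - ((n + 1 : ℕ) : K) * (X P / Y P) = -((n : K) * (X P / Y P)) := by
        push_cast; ring
      rw [this, v.map_neg]; exact hnv
    · by_cases hR : (n + 1) • P = 0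
      · left
        refine ⟨hR, ?_⟩
        have hQ : n • P = -P := by
          rw [succ_nsmul] at hR; exact eq_neg_of_add_eq_zero_left hR
        rw [hQ] at hnv
        have hneg := z_neg_of_E1 v hL ha₁ ha₂ ha₄ hP hx
        have : ((n + 1 : ℕ) : K) * (X P / Y P) =
            (X (-P) / Y (-P) + X P / Y P) - (X (-P) / Y (-P) - (n : K) * (X P / Y P)) := by
          push_cast; ring
        rw [this]
        exact v.map_sub_lt (lt_of_le_of_lt hneg hkk) hnv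
      · right
        have hR' : -((n + 1) • P) ≠ 0 := neg_ne_zero.mpr hR
        have hsum : n • P + P + -((n + 1) • P) = 0 := by rw [succ_nsmul]; abel
        obtain ⟨hxR', hest⟩ := E1_triple v hL ha₁ ha₂ ha₄ hn0 hP hR' hsum hnx hx
        have hxR : 1 < v (X ((n + 1) • P)) := by rw [hL.negX _ hR] at hxR'; exact hxR'
        refine ⟨hR, hxR, ?_⟩
        have hzQ : v (X (n • P) / Y (n • P)) ≤ v (X P / Y P) := by
          have : X (n • P) / Y (n • P) =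
              (X (n • P) / Y (n • P) - (n : K) * (X P / Y P)) + (n : K) * (X P / Y P) := by ring
          rw [this]
          apply v.map_add_le hnv.le
          rw [v.map_mul]
          calc v (n : K) * v (X P / Y P) ≤ 1 * v (X P / Y P) := by
                gcongr; exact helper245.val_natCast_le_one v n
            _ = v (X P / Y P) := one_mul _
        have hzR'1 : v (X (-((n + 1) • P)) / Y (-((n + 1) • P))) < 1 :=
          val_z_lt_one_of_E1 v hL ha₁ ha₂ ha₄ hR' hxR'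
        have hzR'0 : 0 < v (X (-((n + 1) • P)) / Y (-((n + 1) • P))) :=
          val_z_pos_of_E1 v hL ha₁ ha₂ ha₄ hR' hxR'
        -- the third parameter is at most `v z`
        have hzR' : v (X (-((n + 1) • P)) / Y (-((n + 1) • P))) ≤ v (X P / Y P) := by
          by_contra hgt
          have hgt' : v (X P / Y P) < v (X (-((n + 1) • P)) / Y (-((n + 1) • P))) :=
            lt_of_not_ge hgt
          have h1 := hest _ (le_trans hzQ hgt'.le) hgt'.le le_rfl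
          have h2 : v (X (n • P) / Y (n • P) + X P / Y P) <
              v (X (-((n + 1) • P)) / Y (-((n + 1) • P))) :=
            lt_of_le_of_lt (v.map_add_le hzQ le_rfl) hgt'
          rw [v.map_add_eq_of_lt_right h2] at h1
          have h3 : v (X (-((n + 1) • P)) / Y (-((n + 1) • P))) *
              v (X (-((n + 1) • P)) / Y (-((n + 1) • P))) <
              v (X (-((n + 1) • P)) / Y (-((n + 1) • P))) := by
            calc v (X (-((n + 1) • P)) / Y (-((n + 1) • P))) *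
                  v (X (-((n + 1) • P)) / Y (-((n + 1) • P)))
                < v (X (-((n + 1) • P)) / Y (-((n + 1) • P))) * 1 :=
                  mul_lt_mul_of_pos_left hzR'1 hzR'0
              _ = _ := mul_one _
          exact absurd h1 (not_le.mpr h3)
        have hest' : v (X (n • P) / Y (n • P) + X P / Y P +
            X (-((n + 1) • P)) / Y (-((n + 1) • P))) < v (X P / Y P) :=
          lt_of_le_of_lt (hest _ hzQ le_rfl hzR') hkk
        -- compare the parameters of `±(n+1)P`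
        have hneg := z_neg_of_E1 v hL ha₁ ha₂ ha₄ hR hxR
        have hzR1 : v (X ((n + 1) • P) / Y ((n + 1) • P)) < 1 :=
          val_z_lt_one_of_E1 v hL ha₁ ha₂ ha₄ hR hxR
        have hzR0 : 0 < v (X ((n + 1) • P) / Y ((n + 1) • P)) :=
          val_z_pos_of_E1 v hL ha₁ ha₂ ha₄ hR hxR
        have hzRR : v (X ((n + 1) • P) / Y ((n + 1) • P)) *
            v (X ((n + 1) • P) / Y ((n + 1) • P)) < v (X ((n + 1) • P) / Y ((n + 1) • P)) := by
          calc v (X ((n + 1) • P) / Y ((n + 1) • P)) * v (X ((n + 1) • P) / Y ((n + 1) • P))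
              < v (X ((n + 1) • P) / Y ((n + 1) • P)) * 1 := mul_lt_mul_of_pos_left hzR1 hzR0
            _ = _ := mul_one _
        have hnegsum : v (X (-((n + 1) • P)) / Y (-((n + 1) • P)) +
            X ((n + 1) • P) / Y ((n + 1) • P)) < v (X ((n + 1) • P) / Y ((n + 1) • P)) :=
          lt_of_le_of_lt hneg hzRR
        have hzReq : v (X ((n + 1) • P) / Y ((n + 1) • P)) =
            v (X (-((n + 1) • P)) / Y (-((n + 1) • P))) := by
          have e : X (-((n + 1) • P)) / Y (-((n + 1) • P)) =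
              (X (-((n + 1) • P)) / Y (-((n + 1) • P)) + X ((n + 1) • P) / Y ((n + 1) • P)) -
                X ((n + 1) • P) / Y ((n + 1) • P) := by ring
          rw [e, v.map_sub_eq_of_lt_right hnegsum]
        have hnegsum' : v (X (-((n + 1) • P)) / Y (-((n + 1) • P)) +
            X ((n + 1) • P) / Y ((n + 1) • P)) < v (X P / Y P) :=
          lt_of_lt_of_le hnegsum (hzReq ▸ hzR')
        have : X ((n + 1) • P) / Y ((n + 1) • P) - ((n + 1 : ℕ) : K) * (X P / Y P) =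
            (X (n • P) / Y (n • P) - (n : K) * (X P / Y P)) -
              (X (n • P) / Y (n • P) + X P / Y P +
                X (-((n + 1) • P)) / Y (-((n + 1) • P))) +
              (X (-((n + 1) • P)) / Y (-((n + 1) • P)) +
                X ((n + 1) • P) / Y ((n + 1) • P)) := by
          push_cast; ring
        rw [this]
        exact v.map_add_lt (v.map_sub_lt hnv hest') hnegsum'

/-- **The kernel of reduction has no `p`-torsion** when `p` is a unit. -/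
theorem E1_torsion_free (hL : IsA1Coord a₁ a₂ a₄ X Y) (ha₁ : v a₁ ≤ 1) (ha₂ : v a₂ ≤ 1)
    (ha₄ : v a₄ ≤ 1) {p : ℕ} (hp : v (p : K) = 1) {P : G} (hP : P ≠ 0) (hx : 1 < v (X P)) :
    p • P ≠ 0 := by
  intro h0
  rcases E1_multiples v hL ha₁ ha₂ ha₄ hP hx p with ⟨-, hv⟩ | ⟨hne, -, -⟩
  · rw [v.map_mul, hp, one_mul] at hv
    exact lt_irrefl _ hv
  · exact hne h0

end E1

end Fermat.Agent.S13.helper3407
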