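import Fermat.Agent.S13.helper3407_A1CoordA

set_option autoImplicit false

/-!
Abstract `a₁`-coordinatised groups, part B: congruent points differ by a point of `E₁`, the
subgroup `E₀`, translation by the `2`-torsion point at the node, the node region and the
additivity of the component function on collinear triples (port of helper245 `LegB`-`LegE`
without any hypothesis on `v 2`).
-/

namespace Fermat.Agent.S13.helper3407

open Fermat.Agent.S05

section PartB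

variable {K : Type*} [Field K] {Γ₀ : Type*} [LinearOrderedCommGroupWithZero Γ₀]
  (v : Valuation K Γ₀) {G : Type*} [AddCommGroup G] {a₁ a₂ a₄ : K} {X Y : G → K}

/-- Two distinct points that are congruent at the scale `v (2 Y P + a₁ X P)` differ by a point
of `E₁`. -/
theorem close_sub_mem_E1 (hL : IsA1Coord a₁ a₂ a₄ X Y) (ha₁ : v a₁ ≤ 1) (ha₂ : v a₂ ≤ 1)
    {P Q : G} (hP : P ≠ 0) (hQ : Q ≠ 0) (hPQ : P ≠ Q)
    (hXP : v (X P) ≤ 1) (hYP : v (Y P) ≤ 1)
    (hX : v (X P - X Q) < v (2 * Y P + a₁ * X P))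
    (hY : v (Y P - Y Q) < v (2 * Y P + a₁ * X P)) :
    1 < v (X (P - Q)) := by
  have hR : Q - P ≠ 0 := sub_ne_zero.mpr (Ne.symm hPQ)
  have hQ' : -Q ≠ 0 := neg_ne_zero.mpr hQ
  have hsum : P + -Q + (Q - P) = 0 := by abel
  obtain ⟨l, m, hy₁, hy₂, -, e₁, -, -⟩ := hL.vieta P (-Q) (Q - P) hP hQ' hR hsum
  rw [hL.negX Q hQ] at hy₂ e₁
  rw [hL.negY Q hQ] at hy₂
  have hψ1 : v (2 * Y P + a₁ * X P) ≤ 1 := by
    apply v.map_add_le
    · rw [v.map_mul]
      calc v 2 * v (Y P) ≤ 1 * 1 := mul_le_mul' (helper245.val_two_le_one v) hYP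
        _ = 1 := one_mul 1
    · rw [v.map_mul]
      calc v a₁ * v (X P) ≤ 1 * 1 := mul_le_mul' ha₁ hXP
        _ = 1 := one_mul 1
  have hl : (2 * Y P + a₁ * X P - (Y P - Y Q)) - a₁ * (X P - X Q) = l * (X P - X Q) := by
    linear_combination hy₁ - hy₂
  have hv1 : v (2 * Y P + a₁ * X P - (Y P - Y Q)) = v (2 * Y P + a₁ * X P) :=
    v.map_sub_eq_of_lt_left hY
  have hv2 : v (a₁ * (X P - X Q)) < v (2 * Y P + a₁ * X P - (Y P - Y Q)) := by
    rw [hv1, v.map_mul]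
    calc v a₁ * v (X P - X Q) ≤ 1 * v (X P - X Q) := by gcongr
      _ = v (X P - X Q) := one_mul _
      _ < _ := hX
  have hv : v (l * (X P - X Q)) = v (2 * Y P + a₁ * X P) := by
    rw [← hl, v.map_sub_eq_of_lt_left hv2, hv1]
  rw [v.map_mul] at hv
  have hvl : 1 < v l := by
    by_contra hle
    have hle' : v l ≤ 1 := le_of_not_gt hle
    have : v (2 * Y P + a₁ * X P) ≤ v (X P - X Q) := by
      calc v (2 * Y P + a₁ * X P) = v l * v (X P - X Q) := hv.symm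
        _ ≤ 1 * v (X P - X Q) := by gcongr
        _ = v (X P - X Q) := one_mul _
    exact absurd hX (not_lt.mpr this)
  have hXQ : v (X Q) ≤ 1 := by
    have : X Q = X P - (X P - X Q) := by ring
    rw [this]
    exact v.map_sub_le hXP (le_trans hX.le hψ1)
  have hXR : X (Q - P) = (l ^ 2 + a₁ * l) - (a₂ + X P + X Q) := by linear_combination e₁
  have hneg : X (P - Q) = X (Q - P) := by
    rw [← neg_sub Q P, hL.negX _ hR]
  rw [hneg, hXR]
  have hl2 : 1 < v (l ^ 2 + a₁ * l) := by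
    rw [val_quad_of_one_lt v ha₁ hvl]; exact one_lt_pow₀ hvl (by norm_num)
  have hrest : v (a₂ + X P + X Q) ≤ 1 := v.map_add_le (v.map_add_le ha₂ hXP) hXQ
  rw [v.map_sub_eq_of_lt_left (lt_of_le_of_lt hrest hl2)]
  exact hl2

/-- `E₀ = {1 ≤ v X}` is stable under the group law (node case). -/
theorem E0_triple (hL : IsA1Coord a₁ a₂ a₄ X Y) (ha₁ : v a₁ ≤ 1) (ha₂ : v a₂ ≤ 1)
    (ha₄ : v a₄ < 1) {P₁ P₂ P₃ : G} (h₁ : P₁ ≠ 0) (h₂ : P₂ ≠ 0) (h₃ : P₃ ≠ 0)
    (hs : P₁ + P₂ + P₃ = 0) (hx₁ : 1 ≤ v (X P₁)) (hx₂ : 1 ≤ v (X P₂)) : 1 ≤ v (X P₃) := by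
  wlog hle : v (X P₂) ≤ v (X P₁) generalizing P₁ P₂
  · have hs' : P₂ + P₁ + P₃ = 0 := by rw [add_comm P₂ P₁]; exact hs
    exact this h₂ h₁ hs' hx₂ hx₁ (le_of_not_ge hle)
  rcases hx₂.lt_or_eq with hx₂' | hx₂'
  · -- both in `E₁`
    have hx₁' : 1 < v (X P₁) := lt_of_lt_of_le hx₂' hle
    exact (E1_triple v hL ha₁ ha₂ ha₄.le h₁ h₂ h₃ hs hx₁' hx₂').1.le
  · by_contra hlt
    have hlt' : v (X P₃) < 1 := lt_of_not_ge hlt
    obtain ⟨l, m, -, -, -, e₁, e₂, e₃⟩ := hL.vieta P₁ P₂ P₃ h₁ h₂ h₃ hs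
    have hm2 : v m ^ 2 = v (X P₁) * v (X P₃) := by
      rw [← v.map_pow, ← e₃, v.map_mul, v.map_mul, ← hx₂', mul_one]
    have h23 : v (X P₂ + X P₃) = 1 := by
      rw [hx₂'] at hlt'
      rw [v.map_add_eq_of_lt_left hlt', ← hx₂']
    have hquad : l ^ 2 + a₁ * l = X P₁ + (X P₂ + X P₃ + a₂) := by linear_combination -e₁
    rcases hx₁.lt_or_eq with hx₁' | hx₁'
    · -- `1 < v (X P₁)`, `v (X P₂) = 1`
      have hx₁0 : (0 : Γ₀) < v (X P₁) := lt_trans zero_lt_one hx₁'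
      have hE : X P₁ * (X P₂ + X P₃) = (a₄ - X P₂ * X P₃) - (2 * l + a₁) * m := by
        linear_combination e₂
      have hsmall : v (a₄ - X P₂ * X P₃) < 1 := by
        apply v.map_sub_lt ha₄
        rw [v.map_mul, ← hx₂', one_mul]; exact hlt'
      have hlm : v ((2 * l + a₁) * m) = v (X P₁) := by
        have hL' : v (X P₁ * (X P₂ + X P₃)) = v (X P₁) := by rw [v.map_mul, h23, mul_one]
        rw [hE] at hL'
        by_cases hc : v ((2 * l + a₁) * m) ≤ 1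
        · have : v ((a₄ - X P₂ * X P₃) - (2 * l + a₁) * m) ≤ 1 := v.map_sub_le hsmall.le hc
          rw [hL'] at this
          exact absurd hx₁' (not_lt.mpr this)
        · have hc' : 1 < v ((2 * l + a₁) * m) := lt_of_not_ge hc
          rw [v.map_sub_eq_of_lt_right (lt_trans hsmall hc')] at hL'
          exact hL'
      have hvq : v (l ^ 2 + a₁ * l) = v (X P₁) := by
        rw [hquad]
        apply v.map_add_eq_of_lt_left
        exact lt_of_le_of_lt (v.map_add_le h23.le ha₂) hx₁'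
      have hvl : 1 < v l := one_lt_val_of_quad v ha₁ (by rw [hvq]; exact hx₁')
      have hl2 : v l ^ 2 = v (X P₁) := by rw [← val_quad_of_one_lt v ha₁ hvl, hvq]
      have h2l : v (2 * l + a₁) ≤ v l := by
        apply v.map_add_le
        · rw [v.map_mul]
          calc v 2 * v l ≤ 1 * v l := by gcongr; exact helper245.val_two_le_one v
            _ = v l := one_mul _
        · exact le_trans ha₁ hvl.le
      have h5 : v (X P₁) ≤ v l * v m := by
        rw [← hlm, v.map_mul]; gcongr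
      have h6 : v (X P₁) * v (X P₁) ≤ v (X P₁) * (v (X P₁) * v (X P₃)) := by
        calc v (X P₁) * v (X P₁) ≤ (v l * v m) * (v l * v m) := mul_le_mul' h5 h5
          _ = v l ^ 2 * v m ^ 2 := by rw [sq, sq]; ac_rfl
          _ = v (X P₁) * (v (X P₁) * v (X P₃)) := by rw [hl2, hm2]
      have h7 : v (X P₁) ≤ v (X P₁) * v (X P₃) := le_of_mul_le_mul_left h6 hx₁0
      have h8 : v (X P₁) * 1 ≤ v (X P₁) * v (X P₃) := by rwa [mul_one]
      have h9 : 1 ≤ v (X P₃) := le_of_mul_le_mul_left h8 hx₁0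
      exact absurd hlt' (not_lt.mpr h9)
    · -- both units
      rw [← hx₁', one_mul] at hm2
      have hvm : v m < 1 := by
        apply helper245.lt_of_sq_lt_sq'
        rw [hm2, one_pow]; exact hlt'
      have hvl : v l ≤ 1 := by
        apply val_le_one_of_quad v ha₁
        rw [hquad]
        exact v.map_add_le hx₁'.symm.le (v.map_add_le h23.le ha₂)
      have hE : X P₁ * X P₂ = a₄ - (2 * l + a₁) * m - X P₁ * X P₃ - X P₂ * X P₃ := by
        linear_combination e₂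
      have hprod : v (X P₁ * X P₂) = 1 := by rw [v.map_mul, ← hx₁', ← hx₂', one_mul]
      have h2l : v (2 * l + a₁) ≤ 1 := by
        apply v.map_add_le _ ha₁
        rw [v.map_mul]
        calc v 2 * v l ≤ 1 * 1 := mul_le_mul' (helper245.val_two_le_one v) hvl
          _ = 1 := one_mul 1
      have hsmall : v (a₄ - (2 * l + a₁) * m - X P₁ * X P₃ - X P₂ * X P₃) < 1 := by
        apply v.map_sub_lt (v.map_sub_lt (v.map_sub_lt ha₄ ?_) ?_) ?_
        · rw [v.map_mul]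
          calc v (2 * l + a₁) * v m ≤ 1 * v m := by gcongr
            _ = v m := one_mul _
            _ < 1 := hvm
        · rw [v.map_mul, ← hx₁', one_mul]; exact hlt'
        · rw [v.map_mul, ← hx₂', one_mul]; exact hlt'
      rw [hE] at hprod
      exact absurd hprod hsmall.ne

/-- Translation by the `2`-torsion point `T = (0, 0)`: `X (Q + T) * X Q = a₄`. -/
theorem X_add_T_mul (hL : IsA1Coord a₁ a₂ a₄ X Y) {T : G} (hT : T ≠ 0) (hTX : X T = 0)
    (hTY : Y T = 0) {Q : G} (hQ : Q ≠ 0) (hQT : Q + T ≠ 0) : X (Q + T) * X Q = a₄ := by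
  have hR : -(Q + T) ≠ 0 := neg_ne_zero.mpr hQT
  have hsum : Q + T + -(Q + T) = 0 := by abel
  obtain ⟨l, m, -, hy₂, -, -, e₂, -⟩ := hL.vieta Q T (-(Q + T)) hQ hT hR hsum
  rw [hL.negX _ hQT, hTX] at e₂
  rw [hTX, hTY] at hy₂
  have hm : m = 0 := by linear_combination -hy₂
  rw [hm] at e₂
  linear_combination e₂

theorem two_nsmul_T (hL : IsA1Coord a₁ a₂ a₄ X Y) {T : G} (hT : T ≠ 0) (hTX : X T = 0)
    (hTY : Y T = 0) : 2 • T = 0 := by
  have h : -T = T :=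
    hL.inj (-T) T (neg_ne_zero.mpr hT) hT (hL.negX T hT)
      (by rw [hL.negY T hT, hTY, hTX, neg_zero, mul_zero, sub_zero])
  rw [two_nsmul]
  nth_rewrite 1 [← h]
  exact neg_add_cancel T

end PartB

section Node

variable {K : Type*} [Field K] {Γ₀ : Type*} [LinearOrderedCommGroupWithZero Γ₀]
  (v : Valuation K Γ₀) {G : Type*} [AddCommGroup G] {a₁ a₂ a₄ : K} {X Y : G → K}

/-- A root of the tangent cone polynomial is integral. -/
theorem val_beta_le_one (ha₁ : v a₁ ≤ 1) (ha₂ : v a₂ ≤ 1) {β : K}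
    (hβ : β ^ 2 + a₁ * β - a₂ = 0) : v β ≤ 1 := by
  apply val_le_one_of_quad v ha₁
  have : β ^ 2 + a₁ * β = a₂ := by linear_combination hβ
  rw [this]; exact ha₂

/-- In the node region a point lies on exactly one of the two branches. -/
theorem branch_iff (hL : IsA1Coord a₁ a₂ a₄ X Y) {β : K} (hβ : β ^ 2 + a₁ * β - a₂ = 0)
    (hδ : v (2 * β + a₁) = 1) {P : G} (hP : P ≠ 0) (hG : v a₄ < v (X P))
    (hG' : v (X P) < 1) :
    v (Y P - β * X P) < v (X P) ↔ ¬ v (Y P + (a₁ + β) * X P) < v (X P) := by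
  have hx0 : (0 : Γ₀) < v (X P) := lt_of_le_of_lt zero_le hG
  have hprod : (Y P - β * X P) * (Y P + (a₁ + β) * X P) = X P ^ 3 + a₄ * X P := by
    linear_combination hL.eqn P hP - X P ^ 2 * hβ
  have hlt : v (X P ^ 3 + a₄ * X P) < v (X P) * v (X P) := by
    apply v.map_add_lt
    · rw [v.map_pow, pow_succ, sq]
      calc v (X P) * v (X P) * v (X P) < v (X P) * v (X P) * 1 :=
            mul_lt_mul_of_pos_left hG' (mul_pos hx0 hx0)
        _ = v (X P) * v (X P) := mul_one _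
    · rw [v.map_mul]
      exact mul_lt_mul_of_pos_right hG hx0
  constructor
  · intro h₁ h₂
    have h3 : v ((2 * β + a₁) * X P) < v (X P) := by
      have : (2 * β + a₁) * X P = (Y P + (a₁ + β) * X P) - (Y P - β * X P) := by ring
      rw [this]; exact v.map_sub_lt h₂ h₁
    rw [v.map_mul, hδ, one_mul] at h3
    exact lt_irrefl _ h3
  · intro h₂
    by_contra h₁
    have h₁' : v (X P) ≤ v (Y P - β * X P) := le_of_not_gt h₁
    have h₂' : v (X P) ≤ v (Y P + (a₁ + β) * X P) := le_of_not_gt h₂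
    have : v (X P) * v (X P) ≤ v (X P ^ 3 + a₄ * X P) := by
      rw [← hprod, v.map_mul]; exact mul_le_mul' h₁' h₂'
    exact absurd hlt (not_lt.mpr this)

theorem cc_neg_mul (hL : IsA1Coord a₁ a₂ a₄ X Y) {β : K} (hβ : β ^ 2 + a₁ * β - a₂ = 0)
    (hδ : v (2 * β + a₁) = 1) {P : G} (hP : P ≠ 0) (hG : v a₄ < v (X P))
    (hG' : v (X P) < 1) :
    helper245.cc v a₄ X Y β (-P) * helper245.cc v a₄ X Y β P = v a₄ ^ 2 := by
  have hx0 : v (X P) ≠ 0 := (lt_of_le_of_lt zero_le hG).ne'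
  have hbr := branch_iff v hL hβ hδ hP hG hG'
  unfold helper245.cc
  rw [hL.negX P hP, hL.negY P hP]
  have : -Y P - a₁ * X P - β * X P = -(Y P + (a₁ + β) * X P) := by ring
  rw [this, v.map_neg]
  by_cases h : v (Y P - β * X P) < v (X P)
  · rw [if_pos h, if_neg (hbr.mp h)]
    exact div_mul_cancel₀ _ hx0
  · have h' : v (Y P + (a₁ + β) * X P) < v (X P) := by
      by_contra hc; exact h (hbr.mpr hc)
    rw [if_neg h, if_pos h']
    exact mul_div_cancel₀ _ hx0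

theorem cc_neg_beta (hL : IsA1Coord a₁ a₂ a₄ X Y) {β : K} {P : G} (hP : P ≠ 0) :
    helper245.cc v a₄ X Y (-a₁ - β) P = helper245.cc v a₄ X Y β (-P) := by
  unfold helper245.cc
  rw [hL.negX P hP, hL.negY P hP]
  have h1 : Y P - (-a₁ - β) * X P = Y P + (a₁ + β) * X P := by ring
  have h2 : -Y P - a₁ * X P - β * X P = -(Y P + (a₁ + β) * X P) := by ring
  rw [h1, h2, v.map_neg]

omit [AddCommGroup G] in
/-- The component function of a point of the node region lies strictly between `v a₄ ^ 2` and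
`1`. -/
theorem cc_bounds (ha₄0 : a₄ ≠ 0) (ha₄ : v a₄ < 1) {β : K} {P : G} (hG : v a₄ < v (X P))
    (hG' : v (X P) < 1) :
    v a₄ ^ 2 < helper245.cc v a₄ X Y β P ∧ helper245.cc v a₄ X Y β P < 1 := by
  have hx0 : (0 : Γ₀) < v (X P) := lt_of_le_of_lt zero_le hG
  have hb0 : (0 : Γ₀) < v a₄ := by rw [v.pos_iff]; exact ha₄0
  have hb2 : v a₄ ^ 2 < v a₄ := by
    rw [sq]
    calc v a₄ * v a₄ < v a₄ * 1 := mul_lt_mul_of_pos_left ha₄ hb0
      _ = v a₄ := mul_one _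
  unfold helper245.cc
  split_ifs
  · exact ⟨lt_trans hb2 hG, hG'⟩
  · constructor
    · rw [lt_div_iff₀ hx0]
      calc v a₄ ^ 2 * v (X P) < v a₄ ^ 2 * 1 := mul_lt_mul_of_pos_left hG' (pow_pos hb0 2)
        _ = v a₄ ^ 2 := mul_one _
    · rw [div_lt_one₀ hx0]
      exact lt_trans hb2 hG

/-- The node triple lemma when the slope is congruent to `β`. -/
theorem node_triple_aux (hL : IsA1Coord a₁ a₂ a₄ X Y) {β : K}
    (hβ : β ^ 2 + a₁ * β - a₂ = 0) (hδ : v (2 * β + a₁) = 1) {P₁ P₂ P₃ : G}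
    (h₁ : P₁ ≠ 0) (h₂ : P₂ ≠ 0) (h₃ : P₃ ≠ 0)
    (hG₁ : v a₄ < v (X P₁)) (hG₁' : v (X P₁) < 1)
    (hG₂ : v a₄ < v (X P₂)) (hG₂' : v (X P₂) < 1)
    (hG₃ : v a₄ < v (X P₃)) (hG₃' : v (X P₃) < 1) {l m : K}
    (hy₁ : Y P₁ = l * X P₁ + m) (hy₂ : Y P₂ = l * X P₂ + m) (hy₃ : Y P₃ = l * X P₃ + m)
    (e₂ : X P₁ * X P₂ + X P₁ * X P₃ + X P₂ * X P₃ = a₄ - 2 * l * m - a₁ * m)
    (e₃ : X P₁ * X P₂ * X P₃ = m ^ 2) (hl : v (l - β) < 1) :
    helper245.cc v a₄ X Y β P₁ * helper245.cc v a₄ X Y β P₂ * helper245.cc v a₄ X Y β P₃ =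
      v a₄ ^ 2 := by
  have hx₁0 : (0 : Γ₀) < v (X P₁) := lt_of_le_of_lt zero_le hG₁
  have hx₂0 : (0 : Γ₀) < v (X P₂) := lt_of_le_of_lt zero_le hG₂
  have hx₃0 : (0 : Γ₀) < v (X P₃) := lt_of_le_of_lt zero_le hG₃
  have hm2 : v m ^ 2 = v (X P₁) * v (X P₂) * v (X P₃) := by
    rw [← v.map_pow, ← e₃, v.map_mul, v.map_mul]
  have hvl2 : v (2 * l + a₁) = 1 := by
    have : 2 * l + a₁ = (2 * β + a₁) + 2 * (l - β) := by ring
    rw [this]
    have hsm : v (2 * (l - β)) < v (2 * β + a₁) := by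
      rw [hδ, v.map_mul]
      calc v 2 * v (l - β) ≤ 1 * v (l - β) := by gcongr; exact helper245.val_two_le_one v
        _ = v (l - β) := one_mul _
        _ < 1 := hl
    rw [v.map_add_eq_of_lt_left hsm, hδ]
  -- the two branch facts, for a general point on the line
  have plus : ∀ P : G, Y P = l * X P + m → 0 < v (X P) →
      v (Y P - β * X P) < v (X P) → v m < v (X P) := by
    intro P hy hx0 hc
    have : m = (Y P - β * X P) - (l - β) * X P := by rw [hy]; ring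
    rw [this]
    apply v.map_sub_lt hc
    rw [v.map_mul]
    calc v (l - β) * v (X P) < 1 * v (X P) := mul_lt_mul_of_pos_right hl hx0
      _ = v (X P) := one_mul _
  have minus : ∀ P : G, P ≠ 0 → Y P = l * X P + m → v a₄ < v (X P) → v (X P) < 1 →
      ¬ v (Y P - β * X P) < v (X P) → v m = v (X P) := by
    intro P hP hy hG hG' hc
    have hx0 : (0 : Γ₀) < v (X P) := lt_of_le_of_lt zero_le hG
    have hc' : v (Y P + (a₁ + β) * X P) < v (X P) := by
      by_contra h; exact hc ((branch_iff v hL hβ hδ hP hG hG').mpr h)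
    have : m = ((Y P + (a₁ + β) * X P) - (l - β) * X P) - (2 * β + a₁) * X P := by
      rw [hy]; ring
    rw [this]
    have h2β : v ((2 * β + a₁) * X P) = v (X P) := by
      rw [v.map_mul, hδ, one_mul]
    have hsmall : v ((Y P + (a₁ + β) * X P) - (l - β) * X P) < v ((2 * β + a₁) * X P) := by
      rw [h2β]
      apply v.map_sub_lt hc'
      rw [v.map_mul]
      calc v (l - β) * v (X P) < 1 * v (X P) := mul_lt_mul_of_pos_right hl hx0
        _ = v (X P) := one_mul _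
    rw [v.map_sub_eq_of_lt_right hsmall, h2β]
  unfold helper245.cc
  refine helper245.node_aux hG₁' hG₂' hG₃' hx₁0.ne' hx₂0.ne' hx₃0.ne' hm2
    (minus P₁ h₁ hy₁ hG₁ hG₁') (minus P₂ h₂ hy₂ hG₂ hG₂') (minus P₃ h₃ hy₃ hG₃ hG₃') ?_
  intro hc₁ hc₂ hc₃
  have hm₁ := plus P₁ hy₁ hx₁0 hc₁
  have hm₂ := plus P₂ hy₂ hx₂0 hc₂
  have hm₃ := plus P₃ hy₃ hx₃0 hc₃
  have hm0 : (0 : Γ₀) < v m := by
    rcases (zero_le (a := v m)).lt_or_eq with h | h
    · exact h
    · rw [← h, zero_pow (by norm_num)] at hm2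
      exact absurd hm2.symm (mul_pos (mul_pos hx₁0 hx₂0) hx₃0).ne'
  -- each pairwise product is smaller than `m`
  have pair : ∀ x y z : Γ₀, v m ^ 2 = x * y * z → v m < z → x * y < v m := by
    intro x y z hxyz hz
    by_contra hge
    have hge' : v m ≤ x * y := le_of_not_gt hge
    have h1 : v m * z ≤ v m * v m := by
      calc v m * z ≤ x * y * z := by gcongr
        _ = v m * v m := by rw [← hxyz, sq]
    have h3 : z ≤ v m := le_of_mul_le_mul_left h1 hm0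
    exact absurd hz (not_lt.mpr h3)
  have p12 : v (X P₁ * X P₂) < v m := by
    rw [v.map_mul]; exact pair _ _ _ hm2 hm₃
  have p13 : v (X P₁ * X P₃) < v m := by
    rw [v.map_mul]; exact pair _ _ _ (by rw [hm2]; ac_rfl) hm₂
  have p23 : v (X P₂ * X P₃) < v m := by
    rw [v.map_mul]; exact pair _ _ _ (by rw [hm2]; ac_rfl) hm₁
  have hb' : a₄ = (2 * l + a₁) * m + (X P₁ * X P₂ + X P₁ * X P₃ + X P₂ * X P₃) := by
    linear_combination -e₂
  have h2lm : v ((2 * l + a₁) * m) = v m := by rw [v.map_mul, hvl2, one_mul]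
  have : v a₄ = v m := by
    rw [hb', v.map_add_eq_of_lt_left, h2lm]
    rw [h2lm]
    exact v.map_add_lt (v.map_add_lt p12 p13) p23
  exact this.symm

/-- **Additivity of the component function on collinear triples in the node region.** -/
theorem node_triple (hL : IsA1Coord a₁ a₂ a₄ X Y) (ha₄0 : a₄ ≠ 0) {β : K}
    (hβ : β ^ 2 + a₁ * β - a₂ = 0) (hδ : v (2 * β + a₁) = 1) {P₁ P₂ P₃ : G}
    (h₁ : P₁ ≠ 0) (h₂ : P₂ ≠ 0) (h₃ : P₃ ≠ 0) (hs : P₁ + P₂ + P₃ = 0)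
    (hG₁ : v a₄ < v (X P₁)) (hG₁' : v (X P₁) < 1)
    (hG₂ : v a₄ < v (X P₂)) (hG₂' : v (X P₂) < 1)
    (hG₃ : v a₄ < v (X P₃)) (hG₃' : v (X P₃) < 1) :
    helper245.cc v a₄ X Y β P₁ * helper245.cc v a₄ X Y β P₂ * helper245.cc v a₄ X Y β P₃ =
        v a₄ ^ 2 ∨
      helper245.cc v a₄ X Y β P₁ * helper245.cc v a₄ X Y β P₂ * helper245.cc v a₄ X Y β P₃ =
        v a₄ ^ 4 := by
  obtain ⟨l, m, hy₁, hy₂, hy₃, e₁, e₂, e₃⟩ := hL.vieta P₁ P₂ P₃ h₁ h₂ h₃ hs
  have hb0' : v a₄ ≠ 0 := (v.ne_zero_iff).mpr ha₄0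
  have hfac : v ((l - β) * (l + (a₁ + β))) < 1 := by
    have : (l - β) * (l + (a₁ + β)) = X P₁ + X P₂ + X P₃ := by linear_combination -e₁ - hβ
    rw [this]
    exact v.map_add_lt (v.map_add_lt hG₁' hG₂') hG₃'
  have hor : v (l - β) < 1 ∨ v (l + (a₁ + β)) < 1 := by
    by_contra hcon
    have h1 : 1 ≤ v (l - β) := le_of_not_gt (fun h => hcon (Or.inl h))
    have h2' : 1 ≤ v (l + (a₁ + β)) := le_of_not_gt (fun h => hcon (Or.inr h))
    rw [v.map_mul] at hfac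
    have : (1 : Γ₀) ≤ v (l - β) * v (l + (a₁ + β)) := by
      calc (1 : Γ₀) = 1 * 1 := (one_mul 1).symm
        _ ≤ v (l - β) * v (l + (a₁ + β)) := mul_le_mul' h1 h2'
    exact absurd hfac (not_lt.mpr this)
  rcases hor with hl | hl
  · left
    exact node_triple_aux v hL hβ hδ h₁ h₂ h₃ hG₁ hG₁' hG₂ hG₂' hG₃ hG₃' hy₁ hy₂ hy₃ e₂ e₃ hl
  · right
    have hβ' : (-a₁ - β) ^ 2 + a₁ * (-a₁ - β) - a₂ = 0 := by linear_combination hβ
    have hδ' : v (2 * (-a₁ - β) + a₁) = 1 := by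
      have : 2 * (-a₁ - β) + a₁ = -(2 * β + a₁) := by ring
      rw [this, v.map_neg, hδ]
    have hl' : v (l - (-a₁ - β)) < 1 := by
      have : l - (-a₁ - β) = l + (a₁ + β) := by ring
      rw [this]; exact hl
    have key := node_triple_aux v hL hβ' hδ' h₁ h₂ h₃ hG₁ hG₁' hG₂ hG₂' hG₃ hG₃'
      hy₁ hy₂ hy₃ e₂ e₃ hl'
    rw [cc_neg_beta v hL h₁, cc_neg_beta v hL h₂, cc_neg_beta v hL h₃] at key
    have k₁ := cc_neg_mul v hL hβ hδ h₁ hG₁ hG₁'
    have k₂ := cc_neg_mul v hL hβ hδ h₂ hG₂ hG₂'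
    have k₃ := cc_neg_mul v hL hβ hδ h₃ hG₃ hG₃'
    have hmul : v a₄ ^ 2 * (helper245.cc v a₄ X Y β P₁ * helper245.cc v a₄ X Y β P₂ *
        helper245.cc v a₄ X Y β P₃) = v a₄ ^ 2 * v a₄ ^ 4 := by
      calc v a₄ ^ 2 * (helper245.cc v a₄ X Y β P₁ * helper245.cc v a₄ X Y β P₂ *
            helper245.cc v a₄ X Y β P₃)
          = (helper245.cc v a₄ X Y β (-P₁) * helper245.cc v a₄ X Y β (-P₂) *
              helper245.cc v a₄ X Y β (-P₃)) *
              (helper245.cc v a₄ X Y β P₁ * helper245.cc v a₄ X Y β P₂ *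
                helper245.cc v a₄ X Y β P₃) := by rw [key]
        _ = (helper245.cc v a₄ X Y β (-P₁) * helper245.cc v a₄ X Y β P₁) *
              (helper245.cc v a₄ X Y β (-P₂) * helper245.cc v a₄ X Y β P₂) *
              (helper245.cc v a₄ X Y β (-P₃) * helper245.cc v a₄ X Y β P₃) := by ac_rfl
        _ = v a₄ ^ 2 * v a₄ ^ 2 * v a₄ ^ 2 := by rw [k₁, k₂, k₃]
        _ = v a₄ ^ 2 * v a₄ ^ 4 := by rw [mul_assoc, ← pow_add]
    exact mul_left_cancel₀ (pow_ne_zero 2 hb0') hmul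

end Node

section NodeMain

variable {K : Type*} [Field K] {Γ₀ : Type*} [LinearOrderedCommGroupWithZero Γ₀]
  (v : Valuation K Γ₀) {G : Type*} [AddCommGroup G] {a₁ a₂ a₄ : K} {X Y : G → K}

/-- `E₀ = {0} ∪ {1 ≤ v X}` as a subgroup (node case). -/
def E0 (hL : IsA1Coord a₁ a₂ a₄ X Y) (ha₁ : v a₁ ≤ 1) (ha₂ : v a₂ ≤ 1) (ha₄ : v a₄ < 1) :
    AddSubgroup G where
  carrier := {Q | Q = 0 ∨ 1 ≤ v (X Q)}
  zero_mem' := Or.inl rfl
  add_mem' := by
    intro P Q hP hQ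
    by_cases hP0 : P = 0
    · rw [hP0, zero_add]; exact hQ
    by_cases hQ0 : Q = 0
    · rw [hQ0, add_zero]; exact hP
    by_cases hPQ : P + Q = 0
    · exact Or.inl hPQ
    right
    have hxP : 1 ≤ v (X P) := hP.resolve_left hP0
    have hxQ : 1 ≤ v (X Q) := hQ.resolve_left hQ0
    have hR : -(P + Q) ≠ 0 := neg_ne_zero.mpr hPQ
    have := E0_triple v hL ha₁ ha₂ ha₄ hP0 hQ0 hR (by abel) hxP hxQ
    rwa [hL.negX _ hPQ] at this
  neg_mem' := by
    intro P hP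
    by_cases hP0 : P = 0
    · left; rw [hP0, neg_zero]
    right
    rw [hL.negX P hP0]; exact hP.resolve_left hP0

theorem mem_E0_iff (hL : IsA1Coord a₁ a₂ a₄ X Y) (ha₁ : v a₁ ≤ 1) (ha₂ : v a₂ ≤ 1)
    (ha₄ : v a₄ < 1) {P : G} : P ∈ E0 v hL ha₁ ha₂ ha₄ ↔ P = 0 ∨ 1 ≤ v (X P) := Iff.rfl

/-- Multiples (prime to `p`) of a `p`-torsion point outside `E₀` lie in the node region. -/
theorem node_region_of_multiple (hL : IsA1Coord a₁ a₂ a₄ X Y) (ha₁ : v a₁ ≤ 1)
    (ha₂ : v a₂ ≤ 1) (ha₄ : v a₄ < 1) (ha₄0 : a₄ ≠ 0) {T : G} (hT : T ≠ 0) (hTX : X T = 0)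
    (hTY : Y T = 0) {p : ℕ} (hpp : p.Prime) (hp2 : p ≠ 2) {P : G} (hpP : p • P = 0)
    (hP : P ≠ 0) (hxP : v (X P) < 1) {k : ℕ} (hk : ¬ p ∣ k) :
    k • P ≠ 0 ∧ v a₄ < v (X (k • P)) ∧ v (X (k • P)) < 1 := by
  have hPE : P ∉ E0 v hL ha₁ ha₂ ha₄ := by
    rintro (h | h)
    · exact hP h
    · exact absurd hxP (not_lt.mpr h)
  have hkE : k • P ∉ E0 v hL ha₁ ha₂ ha₄ :=
    fun h => hPE (helper245.mem_of_nsmul_mem hpp hk hpP h)
  have hk0 : k • P ≠ 0 := fun h => hkE (Or.inl h)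
  have hkx : v (X (k • P)) < 1 := lt_of_not_ge (fun h => hkE (Or.inr h))
  refine ⟨hk0, ?_, hkx⟩
  by_contra hle
  have hle' : v (X (k • P)) ≤ v a₄ := le_of_not_gt hle
  have h2k : ¬ p ∣ 2 * k := by
    intro h
    rcases (Nat.Prime.dvd_mul hpp).mp h with h | h
    · exact hp2 ((Nat.prime_dvd_prime_iff_eq hpp Nat.prime_two).mp h)
    · exact hk h
  apply hPE
  apply helper245.mem_of_nsmul_mem hpp h2k hpP
  have h2T := two_nsmul_T hL hT hTX hTY
  by_cases hQT : k • P + T = 0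
  · have hQ : k • P = -T := eq_neg_of_add_eq_zero_left hQT
    have : (2 * k) • P = 0 := by
      rw [mul_nsmul', hQ, smul_neg, h2T, neg_zero]
    rw [this]; exact zero_mem _
  · have hmul := X_add_T_mul hL hT hTX hTY hk0 hQT
    have hge : 1 ≤ v (X (k • P + T)) := by
      by_contra hlt
      have hlt' : v (X (k • P + T)) < 1 := lt_of_not_ge hlt
      have hXQ0 : (0 : Γ₀) < v (X (k • P)) := by
        rw [v.pos_iff]; intro h0; rw [h0, mul_zero] at hmul; exact ha₄0 hmul.symm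
      have : v a₄ < v (X (k • P)) := by
        rw [← hmul, v.map_mul]
        calc v (X (k • P + T)) * v (X (k • P)) < 1 * v (X (k • P)) :=
              mul_lt_mul_of_pos_right hlt' hXQ0
          _ = v (X (k • P)) := one_mul _
      exact absurd this (not_lt.mpr hle')
    have hmem : k • P + T ∈ E0 v hL ha₁ ha₂ ha₄ := Or.inr hge
    have : (2 * k) • P = 2 • (k • P + T) := by
      rw [smul_add, h2T, add_zero, mul_nsmul']
    rw [this]; exact nsmul_mem hmem 2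

/-- The component function is "multiplicative" along multiples of a `p`-torsion point in the
node region. -/
theorem cc_multiples (hL : IsA1Coord a₁ a₂ a₄ X Y) (ha₁ : v a₁ ≤ 1) (ha₂ : v a₂ ≤ 1)
    (ha₄ : v a₄ < 1) (ha₄0 : a₄ ≠ 0) {β : K} (hβ : β ^ 2 + a₁ * β - a₂ = 0)
    (hδ : v (2 * β + a₁) = 1) {T : G} (hT : T ≠ 0) (hTX : X T = 0)
    (hTY : Y T = 0) {p : ℕ} (hpp : p.Prime) (hp2 : p ≠ 2) {P : G} (hpP : p • P = 0)
    (hP : P ≠ 0) (hxP : v (X P) < 1) (k : ℕ) (hk1 : 1 ≤ k) :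
    k < p → ∃ j : ℕ, helper245.cc v a₄ X Y β (k • P) * v a₄ ^ (2 * j) =
      helper245.cc v a₄ X Y β P ^ k := by
  have h1p : ¬ p ∣ 1 := Nat.not_dvd_of_pos_of_lt one_pos hpp.one_lt
  have hPb : v a₄ < v (X P) := by
    have := node_region_of_multiple v hL ha₁ ha₂ ha₄ ha₄0 hT hTX hTY hpp hp2 hpP hP hxP h1p
    rw [one_nsmul] at this; exact this.2.1
  induction k, hk1 using Nat.le_induction with
  | base => intro _; exact ⟨0, by simp⟩
  | succ k hk1 ih =>
    intro hk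
    obtain ⟨j, hj⟩ := ih (by omega)
    have hkp : ¬ p ∣ k := Nat.not_dvd_of_pos_of_lt (by omega) (by omega)
    have hk1p : ¬ p ∣ k + 1 := Nat.not_dvd_of_pos_of_lt (by omega) hk
    obtain ⟨hQ0, hQb, hQ1⟩ :=
      node_region_of_multiple v hL ha₁ ha₂ ha₄ ha₄0 hT hTX hTY hpp hp2 hpP hP hxP hkp
    obtain ⟨hR0, hRb, hR1⟩ :=
      node_region_of_multiple v hL ha₁ ha₂ ha₄ ha₄0 hT hTX hTY hpp hp2 hpP hP hxP hk1p
    have hR0' : -((k + 1) • P) ≠ 0 := neg_ne_zero.mpr hR0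
    have hsum : k • P + P + -((k + 1) • P) = 0 := by rw [succ_nsmul]; abel
    have hRb' : v a₄ < v (X (-((k + 1) • P))) := by rw [hL.negX _ hR0]; exact hRb
    have hR1' : v (X (-((k + 1) • P))) < 1 := by rw [hL.negX _ hR0]; exact hR1
    have tri := node_triple v hL ha₄0 hβ hδ hQ0 hP hR0' hsum hQb hQ1 hPb hxP hRb' hR1'
    have kneg := cc_neg_mul v hL hβ hδ hR0 hRb hR1
    have hn0 : helper245.cc v a₄ X Y β (-((k + 1) • P)) ≠ 0 :=
      helper245.cc_ne_zero v ha₄0 hRb'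
    rcases tri with tri | tri
    · refine ⟨j, ?_⟩
      have e : helper245.cc v a₄ X Y β (k • P) * helper245.cc v a₄ X Y β P =
          helper245.cc v a₄ X Y β ((k + 1) • P) := by
        have : helper245.cc v a₄ X Y β (-((k + 1) • P)) *
            (helper245.cc v a₄ X Y β (k • P) * helper245.cc v a₄ X Y β P) =
            helper245.cc v a₄ X Y β (-((k + 1) • P)) *
              helper245.cc v a₄ X Y β ((k + 1) • P) := by
          rw [kneg, ← tri]; ac_rfl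
        exact mul_left_cancel₀ hn0 this
      calc helper245.cc v a₄ X Y β ((k + 1) • P) * v a₄ ^ (2 * j)
          = helper245.cc v a₄ X Y β (k • P) * helper245.cc v a₄ X Y β P * v a₄ ^ (2 * j) := by
            rw [e]
        _ = (helper245.cc v a₄ X Y β (k • P) * v a₄ ^ (2 * j)) *
              helper245.cc v a₄ X Y β P := by ac_rfl
        _ = helper245.cc v a₄ X Y β P ^ k * helper245.cc v a₄ X Y β P := by rw [hj]
        _ = helper245.cc v a₄ X Y β P ^ (k + 1) := (pow_succ _ _).symm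
    · refine ⟨j + 1, ?_⟩
      have e : helper245.cc v a₄ X Y β (k • P) * helper245.cc v a₄ X Y β P =
          v a₄ ^ 2 * helper245.cc v a₄ X Y β ((k + 1) • P) := by
        have : helper245.cc v a₄ X Y β (-((k + 1) • P)) *
            (helper245.cc v a₄ X Y β (k • P) * helper245.cc v a₄ X Y β P) =
            helper245.cc v a₄ X Y β (-((k + 1) • P)) *
              (v a₄ ^ 2 * helper245.cc v a₄ X Y β ((k + 1) • P)) := by
          calc helper245.cc v a₄ X Y β (-((k + 1) • P)) *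
                (helper245.cc v a₄ X Y β (k • P) * helper245.cc v a₄ X Y β P)
              = helper245.cc v a₄ X Y β (k • P) * helper245.cc v a₄ X Y β P *
                  helper245.cc v a₄ X Y β (-((k + 1) • P)) := by ac_rfl
            _ = v a₄ ^ 4 := tri
            _ = v a₄ ^ 2 * v a₄ ^ 2 := by rw [← pow_add]
            _ = v a₄ ^ 2 * (helper245.cc v a₄ X Y β (-((k + 1) • P)) *
                  helper245.cc v a₄ X Y β ((k + 1) • P)) := by rw [kneg]
            _ = helper245.cc v a₄ X Y β (-((k + 1) • P)) *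
                  (v a₄ ^ 2 * helper245.cc v a₄ X Y β ((k + 1) • P)) := by ac_rfl
        exact mul_left_cancel₀ hn0 this
      calc helper245.cc v a₄ X Y β ((k + 1) • P) * v a₄ ^ (2 * (j + 1))
          = (v a₄ ^ 2 * helper245.cc v a₄ X Y β ((k + 1) • P)) * v a₄ ^ (2 * j) := by
            rw [mul_add, pow_add, mul_one]; ac_rfl
        _ = helper245.cc v a₄ X Y β (k • P) * helper245.cc v a₄ X Y β P * v a₄ ^ (2 * j) := by
            rw [e]
        _ = (helper245.cc v a₄ X Y β (k • P) * v a₄ ^ (2 * j)) *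
              helper245.cc v a₄ X Y β P := by ac_rfl
        _ = helper245.cc v a₄ X Y β P ^ (k + 1) := by rw [hj, pow_succ]

/-- For a `p`-torsion point of the node region: `cc P ^ p = v a₄ ^ (2 * (j + 1))`. -/
theorem cc_pow_prime (hL : IsA1Coord a₁ a₂ a₄ X Y) (ha₁ : v a₁ ≤ 1) (ha₂ : v a₂ ≤ 1)
    (ha₄ : v a₄ < 1) (ha₄0 : a₄ ≠ 0) {β : K} (hβ : β ^ 2 + a₁ * β - a₂ = 0)
    (hδ : v (2 * β + a₁) = 1) {T : G} (hT : T ≠ 0) (hTX : X T = 0)
    (hTY : Y T = 0) {p : ℕ} (hpp : p.Prime) (hp2 : p ≠ 2) {P : G} (hpP : p • P = 0)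
    (hP : P ≠ 0) (hxP : v (X P) < 1) :
    v a₄ < v (X P) ∧ ∃ j : ℕ, helper245.cc v a₄ X Y β P ^ p = v a₄ ^ (2 * (j + 1)) := by
  have hp3 : 3 ≤ p := by
    have := hpp.two_le
    omega
  have h1p : ¬ p ∣ 1 := Nat.not_dvd_of_pos_of_lt one_pos hpp.one_lt
  have hPb : v a₄ < v (X P) := by
    have := node_region_of_multiple v hL ha₁ ha₂ ha₄ ha₄0 hT hTX hTY hpp hp2 hpP hP hxP h1p
    rw [one_nsmul] at this; exact this.2.1
  refine ⟨hPb, ?_⟩
  obtain ⟨j, hj⟩ := cc_multiples v hL ha₁ ha₂ ha₄ ha₄0 hβ hδ hT hTX hTY hpp hp2 hpP hP hxP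
    (p - 1) (by omega) (by omega)
  have hneg : (p - 1) • P = -P := by
    have : (p - 1) • P + P = 0 := by
      rw [← succ_nsmul, Nat.sub_add_cancel hpp.one_le]; exact hpP
    exact eq_neg_of_add_eq_zero_left this
  rw [hneg] at hj
  have kneg := cc_neg_mul v hL hβ hδ hP hPb hxP
  refine ⟨j, ?_⟩
  calc helper245.cc v a₄ X Y β P ^ p
      = helper245.cc v a₄ X Y β P ^ (p - 1) * helper245.cc v a₄ X Y β P := by
        rw [← pow_succ, Nat.sub_add_cancel hpp.one_le]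
    _ = helper245.cc v a₄ X Y β (-P) * v a₄ ^ (2 * j) * helper245.cc v a₄ X Y β P := by
        rw [hj]
    _ = (helper245.cc v a₄ X Y β (-P) * helper245.cc v a₄ X Y β P) * v a₄ ^ (2 * j) := by
        ac_rfl
    _ = v a₄ ^ 2 * v a₄ ^ (2 * j) := by rw [kneg]
    _ = v a₄ ^ (2 * (j + 1)) := by rw [← pow_add]; congr 1; ring

end NodeMain

end Fermat.Agent.S13.helper3407
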