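import Fermat.Agent.S13.helper3407_A1CoordB
import Fermat.Agent.S05.helper245_Local

set_option autoImplicit false

/-!
Abstract `a₁`-coordinatised groups, part C: the two local theorems in residue characteristic `2`.

* `unipotent_main`: an additive map `τ` acting on coordinates through a ring map `s` which
  preserves the valuation and is trivial modulo the maximal ideal satisfies `(τ - 1)² = 0` on the
  `p`-torsion (`p` an odd prime, a unit).
* `torsion_free_of_discrete`: there is no point of prime order `p ≥ 5` whose multiples have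
  coordinates with residues in `{0, 1}` and whose `X`-coordinate has valuation in `g ^ ℤ`, when
  `v a₄ = g ^ h` with `p` prime to `2 * h`.

Also: the coordinates of Mathlib points of `Y² + a₁ X Y = X³ + a₂ X² + a₄ X` form an
`IsA1Coord`.
-/

namespace Fermat.Agent.S13.helper3407

open Fermat.Agent.S05

section Coord

open WeierstrassCurve WeierstrassCurve.Affine

variable {F : Type*} [Field F] [DecidableEq F] {W : Affine F}

theorem isA1Coord_of_shape (h₃ : W.a₃ = 0) (h₆ : W.a₆ = 0) :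
    IsA1Coord W.a₁ W.a₂ W.a₄ (helper245.ptX (W := W)) (helper245.ptY (W := W)) where
  eqn := by
    intro P hP
    cases P with
    | zero => exact absurd rfl hP
    | some x y h =>
      have := (W.equation_iff x y).mp h.1
      rw [h₃, h₆] at this
      simp only [helper245.ptX, helper245.ptY]
      linear_combination this
  inj := by
    intro P Q hP hQ hX hY
    cases P with
    | zero => exact absurd rfl hP
    | some x y h =>
      cases Q with
      | zero => exact absurd rfl hQ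
      | some x' y' h' =>
        simp only [helper245.ptX, helper245.ptY] at hX hY
        subst hX hY
        rfl
  negX := by
    intro P hP
    cases P with
    | zero => exact absurd rfl hP
    | some x y h => rw [Point.neg_some]; rfl
  negY := by
    intro P hP
    cases P with
    | zero => exact absurd rfl hP
    | some x y h =>
      rw [Point.neg_some]
      simp only [helper245.ptX, helper245.ptY, negY, h₃]
      ring
  vieta := by
    intro P₁ P₂ P₃ hP₁ hP₂ hP₃ hs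
    cases P₁ with
    | zero => exact absurd rfl hP₁
    | some x₁ y₁ h₁' =>
      cases P₂ with
      | zero => exact absurd rfl hP₂
      | some x₂ y₂ h₂' =>
        cases P₃ with
        | zero => exact absurd rfl hP₃
        | some x₃ y₃ h₃' =>
          obtain ⟨l, m, hy₁, hy₂, hy₃, e₁, e₂, e₃⟩ :=
            helper245.vieta_of_add_eq_zero h₁' h₂' h₃' hs
          rw [h₃] at e₂ e₃
          rw [h₆] at e₃
          refine ⟨l, m, hy₁, hy₂, hy₃, ?_, ?_, ?_⟩
          · simp only [helper245.ptX]; linear_combination e₁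
          · simp only [helper245.ptX]; linear_combination e₂
          · simp only [helper245.ptX]; linear_combination e₃

end Coord

section Main

variable {K : Type*} [Field K] {Γ₀ : Type*} [LinearOrderedCommGroupWithZero Γ₀]
  (v : Valuation K Γ₀) {G : Type*} [AddCommGroup G] {a₁ a₂ a₄ : K} {X Y : G → K}

theorem val_Y_le_one (hL : IsA1Coord a₁ a₂ a₄ X Y) (ha₁ : v a₁ ≤ 1) (ha₂ : v a₂ ≤ 1)
    (ha₄ : v a₄ ≤ 1) {P : G} (hP : P ≠ 0) (hXP : v (X P) ≤ 1) : v (Y P) ≤ 1 := by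
  have hc : v (a₁ * X P) ≤ 1 := by
    rw [v.map_mul]
    calc v a₁ * v (X P) ≤ 1 * 1 := mul_le_mul' ha₁ hXP
      _ = 1 := one_mul 1
  apply val_le_one_of_quad v hc
  have e : Y P ^ 2 + a₁ * X P * Y P = X P ^ 3 + a₂ * X P ^ 2 + a₄ * X P := hL.eqn P hP
  rw [e]
  apply v.map_add_le (v.map_add_le ?_ ?_) ?_
  · rw [v.map_pow]; exact pow_le_one₀ zero_le hXP
  · rw [v.map_mul, v.map_pow]
    calc v a₂ * v (X P) ^ 2 ≤ 1 * 1 := mul_le_mul' ha₂ (pow_le_one₀ zero_le hXP)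
      _ = 1 := one_mul 1
  · rw [v.map_mul]
    calc v a₄ * v (X P) ≤ 1 * 1 := mul_le_mul' ha₄ hXP
      _ = 1 := one_mul 1

/-- In residue characteristic `2` with `a₁` a unit, `2 Y + a₁ X` is a unit at points with unit
`X`. -/
theorem val_psi_eq_one (hL : IsA1Coord a₁ a₂ a₄ X Y) (ha₁ : v a₁ = 1) (ha₂ : v a₂ ≤ 1)
    (ha₄ : v a₄ ≤ 1) (h2 : v 2 < 1) {P : G} (hP : P ≠ 0) (hXP : v (X P) = 1) :
    v (2 * Y P + a₁ * X P) = 1 := by
  have hYP := val_Y_le_one v hL ha₁.le ha₂ ha₄ hP hXP.le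
  have h1 : v (2 * Y P) < v (a₁ * X P) := by
    rw [v.map_mul, v.map_mul, ha₁, one_mul, hXP]
    calc v 2 * v (Y P) ≤ v 2 * 1 := by gcongr
      _ = v 2 := mul_one _
      _ < 1 := h2
  rw [v.map_add_eq_of_lt_right h1, v.map_mul, ha₁, one_mul, hXP]

theorem val_delta_eq_one (ha₁ : v a₁ = 1) (ha₂ : v a₂ ≤ 1) (h2 : v 2 < 1) {β : K}
    (hβ : β ^ 2 + a₁ * β - a₂ = 0) : v (2 * β + a₁) = 1 := by
  have hβ1 := val_beta_le_one v ha₁.le ha₂ hβ
  have h1 : v (2 * β) < v a₁ := by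
    rw [ha₁, v.map_mul]
    calc v 2 * v β ≤ v 2 * 1 := by gcongr
      _ = v 2 := mul_one _
      _ < 1 := h2
  rw [v.map_add_eq_of_lt_right h1, ha₁]

/-- A `p`-torsion point with nonsingular reduction is fixed by `τ`. -/
theorem fixed_of_mem_E0 (hL : IsA1Coord a₁ a₂ a₄ X Y) (ha₁ : v a₁ = 1) (ha₂ : v a₂ ≤ 1)
    (ha₄ : v a₄ ≤ 1) (h2 : v 2 < 1) {p : ℕ} (hp : v (p : K) = 1)
    (τ : G →+ G) (hτ0 : ∀ P, P ≠ 0 → τ P ≠ 0) (s : K → K)
    (hτX : ∀ P, P ≠ 0 → X (τ P) = s (X P)) (hτY : ∀ P, P ≠ 0 → Y (τ P) = s (Y P))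
    (hs : ∀ u, v u ≤ 1 → v (s u - u) < 1) {Q : G} (hpQ : p • Q = 0) (hQ : Q ≠ 0)
    (hx : 1 ≤ v (X Q)) : τ Q = Q := by
  rcases hx.lt_or_eq with hlt | heq
  · exact absurd hpQ (E1_torsion_free v hL ha₁.le ha₂ ha₄ hp hQ hlt)
  · have hXQ : v (X Q) ≤ 1 := heq.symm.le
    have hYQ := val_Y_le_one v hL ha₁.le ha₂ ha₄ hQ hXQ
    have hψ := val_psi_eq_one v hL ha₁ ha₂ ha₄ h2 hQ heq.symm
    by_contra hne
    have h1 := close_sub_mem_E1 v hL ha₁.le ha₂ hQ (hτ0 Q hQ) (Ne.symm hne) hXQ hYQ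
      (by rw [hψ, hτX Q hQ, v.map_sub_swap]; exact hs _ hXQ)
      (by rw [hψ, hτY Q hQ, v.map_sub_swap]; exact hs _ hYQ)
    have hD : Q - τ Q ≠ 0 := sub_ne_zero.mpr (Ne.symm hne)
    have hpD : p • (Q - τ Q) = 0 := by rw [smul_sub, ← map_nsmul, hpQ, map_zero, sub_zero]
    exact E1_torsion_free v hL ha₁.le ha₂ ha₄ hp hD h1 hpD

/-- **Unipotence in residue characteristic `2`** (node case): `(τ - 1)² = 0` on the `p`-torsion,
for `τ` acting through a valuation-preserving ring map `s` which is trivial modulo the maximal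
ideal and fixes a root `β` of the tangent cone. -/
theorem unipotent_main (hL : IsA1Coord a₁ a₂ a₄ X Y) (ha₁ : v a₁ = 1) (ha₂ : v a₂ ≤ 1)
    (ha₄ : v a₄ < 1) (ha₄0 : a₄ ≠ 0) (h2 : v 2 < 1)
    {β : K} (hβ : β ^ 2 + a₁ * β - a₂ = 0)
    {T : G} (hT : T ≠ 0) (hTX : X T = 0) (hTY : Y T = 0)
    {p : ℕ} (hpp : p.Prime) (hp2 : p ≠ 2) (hp : v (p : K) = 1)
    (τ : G →+ G) (hτ0 : ∀ P, P ≠ 0 → τ P ≠ 0) (s : K →+* K)
    (hτX : ∀ P, P ≠ 0 → X (τ P) = s (X P)) (hτY : ∀ P, P ≠ 0 → Y (τ P) = s (Y P))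
    (hs : ∀ u, v u ≤ 1 → v (s u - u) < 1) (hsv : ∀ u, v (s u) = v u) (hsβ : s β = β)
    {P : G} (hpP : p • P = 0) : τ (τ P - P) = τ P - P := by
  have hδ : v (2 * β + a₁) = 1 := val_delta_eq_one v ha₁ ha₂ h2 hβ
  have fixE0 : ∀ Q : G, p • Q = 0 → Q ≠ 0 → 1 ≤ v (X Q) → τ Q = Q := fun Q hpQ hQ hx =>
    fixed_of_mem_E0 v hL ha₁ ha₂ ha₄.le h2 hp τ hτ0 s hτX hτY hs hpQ hQ hx
  by_cases hP : P = 0
  · rw [hP, map_zero, sub_zero, map_zero]
  by_cases hx : 1 ≤ v (X P)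
  · rw [fixE0 P hpP hP hx, sub_self, map_zero]
  have hxP : v (X P) < 1 := lt_of_not_ge hx
  have hpR : p • (τ P - P) = 0 := by rw [smul_sub, ← map_nsmul, hpP, map_zero, sub_zero]
  by_cases hR : τ P - P = 0
  · rw [hR, map_zero]
  apply fixE0 _ hpR hR
  by_contra hRx
  have hRx' : v (X (τ P - P)) < 1 := lt_of_not_ge hRx
  have h1p : ¬ p ∣ 1 := Nat.not_dvd_of_pos_of_lt one_pos hpp.one_lt
  have nodeP := node_region_of_multiple v hL ha₁.le ha₂ ha₄ ha₄0 hT hTX hTY hpp hp2 hpP hP hxP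
    h1p
  rw [one_nsmul] at nodeP
  have nodeR := node_region_of_multiple v hL ha₁.le ha₂ ha₄ ha₄0 hT hTX hTY hpp hp2 hpR hR hRx'
    h1p
  rw [one_nsmul] at nodeR
  have hτP : τ P ≠ 0 := hτ0 P hP
  have hτP' : -τ P ≠ 0 := neg_ne_zero.mpr hτP
  have hXτ : v (X (τ P)) = v (X P) := by rw [hτX P hP, hsv]
  have hGτ : v a₄ < v (X (-τ P)) := by rw [hL.negX _ hτP, hXτ]; exact nodeP.2.1
  have hGτ' : v (X (-τ P)) < 1 := by rw [hL.negX _ hτP, hXτ]; exact hxP
  have hsum : P + -τ P + (τ P - P) = 0 := by abel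
  have tri := node_triple v hL ha₄0 hβ hδ hP hτP' hR hsum nodeP.2.1 hxP hGτ hGτ' nodeR.2.1 hRx'
  have hccτ : helper245.cc v a₄ X Y β (τ P) = helper245.cc v a₄ X Y β P := by
    unfold helper245.cc
    rw [hτX P hP, hτY P hP]
    have : s (Y P) - β * s (X P) = s (Y P - β * X P) := by rw [map_sub, map_mul, hsβ]
    rw [this, hsv, hsv]
  have kneg := cc_neg_mul v hL hβ hδ hτP (by rw [hXτ]; exact nodeP.2.1) (by rw [hXτ]; exact hxP)
  rw [hccτ] at kneg
  have hb := cc_bounds v ha₄0 ha₄ (β := β) (Y := Y) nodeR.2.1 hRx'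
  have hb0' : v a₄ ^ 2 ≠ 0 := pow_ne_zero 2 ((v.ne_zero_iff).mpr ha₄0)
  have e : helper245.cc v a₄ X Y β P * helper245.cc v a₄ X Y β (-τ P) *
      helper245.cc v a₄ X Y β (τ P - P) = v a₄ ^ 2 * helper245.cc v a₄ X Y β (τ P - P) := by
    rw [mul_comm (helper245.cc v a₄ X Y β P), kneg]
  rw [e] at tri
  rcases tri with tri | tri
  · have h1 : helper245.cc v a₄ X Y β (τ P - P) = 1 := by
      have : v a₄ ^ 2 * helper245.cc v a₄ X Y β (τ P - P) = v a₄ ^ 2 * 1 := by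
        rw [tri, mul_one]
      exact mul_left_cancel₀ hb0' this
    exact absurd h1 hb.2.ne
  · have h1 : helper245.cc v a₄ X Y β (τ P - P) = v a₄ ^ 2 := by
      have : v a₄ ^ 2 * helper245.cc v a₄ X Y β (τ P - P) = v a₄ ^ 2 * v a₄ ^ 2 := by
        rw [tri, ← pow_add]
      exact mul_left_cancel₀ hb0' this
    exact absurd h1 hb.1.ne'

/-- **No torsion with discrete valuations**: there is no point of prime order `p ≥ 5` whose
multiples have residues in `{0, 1}` and whose `X`-coordinate has valuation in `g ^ ℤ`, when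
`v a₄ = g ^ h` with `p` prime to `2 * h`. -/
theorem torsion_free_of_discrete (hL : IsA1Coord a₁ a₂ a₄ X Y) (ha₁ : v a₁ = 1)
    (ha₂ : v a₂ ≤ 1) (ha₄ : v a₄ < 1) (ha₄0 : a₄ ≠ 0) (h2 : v 2 < 1)
    {β : K} (hβ : β ^ 2 + a₁ * β - a₂ = 0)
    {T : G} (hT : T ≠ 0) (hTX : X T = 0) (hTY : Y T = 0)
    {p : ℕ} (hpp : p.Prime) (hp5 : 5 ≤ p) (hp : v (p : K) = 1)
    {g : Γ₀} (hg0 : 0 < g) (hg1 : g < 1) {h : ℕ} (hh : v a₄ = g ^ h)
    (hcop : Nat.Coprime p (2 * h))
    {P : G} (hpP : p • P = 0)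
    (hdisc : P ≠ 0 → ∃ d : ℤ, v (X P) = g ^ d)
    (hres : ∀ k : ℕ, k • P ≠ 0 → v (X (k • P)) = 1 →
      v (X (k • P) - 1) < 1 ∧ (v (Y (k • P)) < 1 ∨ v (Y (k • P) - 1) < 1)) : P = 0 := by
  by_contra hP
  have hδ : v (2 * β + a₁) = 1 := val_delta_eq_one v ha₁ ha₂ h2 hβ
  have hp2 : p ≠ 2 := by omega
  by_cases hx : 1 ≤ v (X P)
  · -- nonsingular reduction: pigeonhole on `P`, `2P`, `3P`
    have hmemE0 : P ∈ E0 v hL ha₁.le ha₂ ha₄ := Or.inr hx
    have unit : ∀ k : ℕ, ¬ p ∣ k → k • P ≠ 0 ∧ v (X (k • P)) = 1 := by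
      intro k hk
      have hk0 : k • P ≠ 0 := by
        intro h0
        have := helper245.mem_of_nsmul_mem (H := (⊥ : AddSubgroup G)) hpp hk hpP
          (by rw [h0]; exact zero_mem _)
        exact hP (AddSubgroup.mem_bot.mp this)
      have hmem : k • P ∈ E0 v hL ha₁.le ha₂ ha₄ := nsmul_mem hmemE0 k
      rcases hmem with h | h
      · exact absurd h hk0
      · rcases h.lt_or_eq with hlt | heq
        · have hpk : p • (k • P) = 0 := by rw [smul_comm, hpP, smul_zero]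
          exact absurd hpk (E1_torsion_free v hL ha₁.le ha₂ ha₄.le hp hk0 hlt)
        · exact ⟨hk0, heq.symm⟩
    have diff : ∀ i j : ℕ, ¬ p ∣ i → ¬ p ∣ j → i ≤ j → ¬ p ∣ (j - i) →
        v (Y (i • P) - Y (j • P)) < 1 → False := by
      intro i j hi hj hij hji hY
      obtain ⟨hi0, hiX⟩ := unit i hi
      obtain ⟨hj0, hjX⟩ := unit j hj
      obtain ⟨hd0, -⟩ := unit (j - i) hji
      have hne : i • P ≠ j • P := by
        intro h
        apply hd0
        rw [sub_nsmul P hij, h, add_neg_cancel]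
      have hYi := val_Y_le_one v hL ha₁.le ha₂ ha₄.le hi0 hiX.le
      have hψ := val_psi_eq_one v hL ha₁ ha₂ ha₄.le h2 hi0 hiX
      have hXd : v (X (i • P) - X (j • P)) < 1 := by
        have e : X (i • P) - X (j • P) = (X (i • P) - 1) - (X (j • P) - 1) := by ring
        rw [e]
        exact v.map_sub_lt (hres i hi0 hiX).1 (hres j hj0 hjX).1
      have h1 := close_sub_mem_E1 v hL ha₁.le ha₂ hi0 hj0 hne hiX.le hYi
        (by rw [hψ]; exact hXd) (by rw [hψ]; exact hY)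
      have hD : i • P - j • P ≠ 0 := sub_ne_zero.mpr hne
      have hpD : p • (i • P - j • P) = 0 := by
        rw [smul_sub, smul_comm p i, smul_comm p j, hpP, smul_zero, smul_zero, sub_zero]
      exact E1_torsion_free v hL ha₁.le ha₂ ha₄.le hp hD h1 hpD
    have n1 : ¬ p ∣ 1 := Nat.not_dvd_of_pos_of_lt (by norm_num) (by omega)
    have n2 : ¬ p ∣ 2 := Nat.not_dvd_of_pos_of_lt (by norm_num) (by omega)
    have n3 : ¬ p ∣ 3 := Nat.not_dvd_of_pos_of_lt (by norm_num) (by omega)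
    have r1 := (hres 1 (unit 1 n1).1 (unit 1 n1).2).2
    have r2 := (hres 2 (unit 2 n2).1 (unit 2 n2).2).2
    have r3 := (hres 3 (unit 3 n3).1 (unit 3 n3).2).2
    have y0 : ∀ i j : ℕ, v (Y (i • P)) < 1 → v (Y (j • P)) < 1 →
        v (Y (i • P) - Y (j • P)) < 1 := fun i j hi hj => v.map_sub_lt hi hj
    have y1 : ∀ i j : ℕ, v (Y (i • P) - 1) < 1 → v (Y (j • P) - 1) < 1 →
        v (Y (i • P) - Y (j • P)) < 1 := by
      intro i j hi hj
      have e : Y (i • P) - Y (j • P) = (Y (i • P) - 1) - (Y (j • P) - 1) := by ring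
      rw [e]; exact v.map_sub_lt hi hj
    rcases r1 with a | a <;> rcases r2 with b | b <;> rcases r3 with c | c
    · exact diff 1 2 n1 n2 (by norm_num) n1 (y0 1 2 a b)
    · exact diff 1 2 n1 n2 (by norm_num) n1 (y0 1 2 a b)
    · exact diff 1 3 n1 n3 (by norm_num) n2 (y0 1 3 a c)
    · exact diff 2 3 n2 n3 (by norm_num) n1 (y1 2 3 b c)
    · exact diff 2 3 n2 n3 (by norm_num) n1 (y0 2 3 b c)
    · exact diff 1 3 n1 n3 (by norm_num) n2 (y1 1 3 a c)
    · exact diff 1 2 n1 n2 (by norm_num) n1 (y1 1 2 a b)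
    · exact diff 1 2 n1 n2 (by norm_num) n1 (y1 1 2 a b)
  · -- the node region
    have hxP : v (X P) < 1 := lt_of_not_ge hx
    obtain ⟨hPb, j, hj⟩ :=
      cc_pow_prime v hL ha₁.le ha₂ ha₄ ha₄0 hβ hδ hT hTX hTY hpp hp2 hpP hP hxP
    obtain ⟨d, hd⟩ := hdisc hP
    have hd0 : 0 < d := by
      rw [hd] at hxP; exact (zpow_lt_one_iff_right_of_lt_one₀ hg0 hg1).mp hxP
    have hdh : d < (h : ℤ) := by
      rw [hd, hh, ← zpow_natCast] at hPb
      exact (zpow_lt_zpow_iff_right_of_lt_one₀ hg0 hg1).mp hPb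
    have hp0 : (p : ℤ) ≠ 0 := by exact_mod_cast hpp.ne_zero
    have hg0' : g ≠ 0 := hg0.ne'
    -- in both cases `cc P = g ^ c` for an integer `c` with `0 < c < 2 * h`
    obtain ⟨c, hc, hc0, hc2⟩ : ∃ c : ℤ, helper245.cc v a₄ X Y β P = g ^ c ∧ 0 < c ∧
        c < 2 * (h : ℤ) := by
      rcases helper245.val_X_eq_cc_or v ha₄0 (β := β) (Y := Y) hPb with hc | hc
      · exact ⟨d, by rw [← hc, hd], hd0, by omega⟩
      · refine ⟨2 * (h : ℤ) - d, ?_, by omega, by omega⟩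
        have hcc0 : helper245.cc v a₄ X Y β P ≠ 0 := helper245.cc_ne_zero v ha₄0 hPb
        have hx0 : v (X P) ≠ 0 := (lt_of_le_of_lt zero_le hPb).ne'
        have e1 : helper245.cc v a₄ X Y β P = v a₄ ^ 2 / v (X P) := by
          rw [hc, div_div_cancel₀ (pow_ne_zero 2 ((v.ne_zero_iff).mpr ha₄0))]
        rw [e1, hd, hh, zpow_sub₀ hg0', ← pow_mul, mul_comm h 2]
        congr 1
        rw [← zpow_natCast]; congr 1
    have e : g ^ (c * (p : ℤ)) = g ^ (((2 * h * (j + 1) : ℕ)) : ℤ) := by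
      rw [zpow_mul, ← hc, zpow_natCast, hj, hh, ← pow_mul, zpow_natCast]
      congr 1; ring
    have e' : c * (p : ℤ) = ((2 * h * (j + 1) : ℕ) : ℤ) := (zpow_right_inj₀ hg0 hg1.ne).mp e
    have hdvd : (p : ℤ) ∣ ((2 * h * (j + 1) : ℕ) : ℤ) := ⟨c, by rw [← e']; ring⟩
    have hdvd' : p ∣ 2 * h * (j + 1) := by exact_mod_cast hdvd
    have hpj : p ∣ j + 1 := (Nat.Coprime.dvd_mul_left hcop).mp hdvd'
    obtain ⟨t, ht⟩ := hpj
    have ht1 : 1 ≤ t := by
      rcases Nat.eq_zero_or_pos t with h0 | h0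
      · rw [h0, mul_zero] at ht; omega
      · exact h0
    have hct : c = 2 * (h : ℤ) * (t : ℤ) := by
      apply mul_right_cancel₀ hp0
      rw [e', ht]; push_cast; ring
    have ht1' : (1 : ℤ) ≤ (t : ℤ) := by exact_mod_cast ht1
    have hh0 : (0 : ℤ) ≤ (h : ℤ) := Int.natCast_nonneg h
    nlinarith [mul_nonneg hh0 (sub_nonneg.mpr ht1')]

end Main

end Fermat.Agent.S13.helper3407
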