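import Fermat.Agent.S13.helper3414_LegP
import Fermat.Agent.S05.helper245_Local
import Fermat.Agent.S05.helper1445_Top

set_option autoImplicit false

/-!
# S13, local theory at `p` (helper3414): the Frey curve

For a valuation subring `A` of `ℚ̄` in which `2` is a unit, the kernel of reduction
`E₁(A) = {0} ∪ {(x, y) : x ∉ A}` of the Frey curve is a subgroup (`freyE1`), and for `A` above an
odd prime `q` (in particular `q = p`!) every element `σ` of the inertia group of `A` moves the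
`p`-torsion points inside `E₁(A)`: `σ • Q - Q ∈ freyE1 P A _` (`frey_inertia_sub_mem`).

This is the local input of the `at_p` ingredient of S13.
-/

namespace Fermat.Agent.S13.helper3414

open WeierstrassCurve WeierstrassCurve.Affine WeierstrassCurve.Affine.Point
open Fermat.Agent.S05.helper245 Fermat.Agent.S05.helper725 Fermat.Agent.S05.helper1445

local notation "Qbar" => AlgebraicClosure ℚ

section Legendre

/-- The kernel of reduction on a Legendre-type model `Y² = X³ + a₂ X² + a₄ X` over `ℚ` with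
coefficients integral at `A`. -/
noncomputable def legE1 (A : ValuationSubring Qbar) (W : WeierstrassCurve ℚ)
    (h₁ : W.a₁ = 0) (h₃ : W.a₃ = 0) (h₆ : W.a₆ = 0)
    (ha₂ : algebraMap ℚ Qbar W.a₂ ∈ A) (ha₄ : algebraMap ℚ Qbar W.a₄ ∈ A) :
    AddSubgroup (W⁄Qbar).Point :=
  E1 A.valuation
    (show IsLegCoord (algebraMap ℚ Qbar W.a₂) (algebraMap ℚ Qbar W.a₄)
        (ptX (W := (W⁄Qbar))) (ptY (W := (W⁄Qbar))) by
      have e₁ : (W⁄Qbar).a₁ = 0 := by simp [WeierstrassCurve.baseChange, h₁]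
      have e₃ : (W⁄Qbar).a₃ = 0 := by simp [WeierstrassCurve.baseChange, h₃]
      have e₆ : (W⁄Qbar).a₆ = 0 := by simp [WeierstrassCurve.baseChange, h₆]
      have e₂ : (W⁄Qbar).a₂ = algebraMap ℚ Qbar W.a₂ := by simp [WeierstrassCurve.baseChange]
      have e₄ : (W⁄Qbar).a₄ = algebraMap ℚ Qbar W.a₄ := by simp [WeierstrassCurve.baseChange]
      have hL := isLegCoord_of_short (W := (W⁄Qbar)) e₁ e₃ e₆
      rw [e₂, e₄] at hL
      exact hL)
    ((A.valuation_le_one_iff _).mpr ha₂) ((A.valuation_le_one_iff _).mpr ha₄)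

theorem mem_legE1_iff (A : ValuationSubring Qbar) (W : WeierstrassCurve ℚ)
    (h₁ : W.a₁ = 0) (h₃ : W.a₃ = 0) (h₆ : W.a₆ = 0)
    (ha₂ : algebraMap ℚ Qbar W.a₂ ∈ A) (ha₄ : algebraMap ℚ Qbar W.a₄ ∈ A)
    {Q : (W⁄Qbar).Point} :
    Q ∈ legE1 A W h₁ h₃ h₆ ha₂ ha₄ ↔ Q = 0 ∨ 1 < A.valuation (ptX Q) := Iff.rfl

/-- **The local theorem without `v n = 1`**: for a curve `Y² = X³ + a₂ X² + a₄ X` over `ℚ` with
coefficients integral at a valuation subring `A` of `ℚ̄` with `2` a unit and `a₂² - 4 a₄` a unit,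
and `a₄` either a unit or of valuation an `n`-th power of the valuation of a rational, every
automorphism acting trivially modulo the maximal ideal of `A` moves the `n`-torsion points
(`n` an odd prime, possibly the residue characteristic) inside the kernel of reduction. -/
theorem local_statement_p (A : ValuationSubring Qbar) (W : WeierstrassCurve ℚ)
    (h₁ : W.a₁ = 0) (h₃ : W.a₃ = 0) (h₆ : W.a₆ = 0) (h₄ : W.a₄ ≠ 0)
    (ha₂ : algebraMap ℚ Qbar W.a₂ ∈ A) (ha₄ : algebraMap ℚ Qbar W.a₄ ∈ A)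
    (h2 : A.valuation (2 : Qbar) = 1)
    (hdisc : A.valuation (algebraMap ℚ Qbar (W.a₂ ^ 2 - 4 * W.a₄)) = 1)
    (σ : Qbar ≃ₐ[ℚ] Qbar) (hσ : ∀ x, x ∈ A → σ x - x ∈ A.nonunits)
    (n : ℕ) (hn : n.Prime) (hn2 : n ≠ 2)
    (hcase : A.valuation (algebraMap ℚ Qbar W.a₄) = 1 ∨
      ∃ w : ℚ, A.valuation (algebraMap ℚ Qbar W.a₄) = A.valuation (algebraMap ℚ Qbar w) ^ n)
    (P : (W⁄Qbar).Point) (hP : n • P = 0) :
    P - σ • P ∈ legE1 A W h₁ h₃ h₆ ha₂ ha₄ := by
  have e₁ : (W⁄Qbar).a₁ = 0 := by simp [WeierstrassCurve.baseChange, h₁]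
  have e₃ : (W⁄Qbar).a₃ = 0 := by simp [WeierstrassCurve.baseChange, h₃]
  have e₆ : (W⁄Qbar).a₆ = 0 := by simp [WeierstrassCurve.baseChange, h₆]
  have e₂ : (W⁄Qbar).a₂ = algebraMap ℚ Qbar W.a₂ := by simp [WeierstrassCurve.baseChange]
  have e₄ : (W⁄Qbar).a₄ = algebraMap ℚ Qbar W.a₄ := by simp [WeierstrassCurve.baseChange]
  have hL := isLegCoord_of_short (W := (W⁄Qbar)) e₁ e₃ e₆
  rw [e₂, e₄] at hL
  have hva : A.valuation (algebraMap ℚ Qbar W.a₂) ≤ 1 := (A.valuation_le_one_iff _).mpr ha₂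
  have hvb : A.valuation (algebraMap ℚ Qbar W.a₄) ≤ 1 := (A.valuation_le_one_iff _).mpr ha₄
  have hdisc' : A.valuation ((algebraMap ℚ Qbar W.a₂) ^ 2 - 4 * algebraMap ℚ Qbar W.a₄) = 1 := by
    rw [← hdisc]; congr 1; simp
  have hs : ∀ u : Qbar, A.valuation u ≤ 1 →
      A.valuation ((σ : Qbar →+* Qbar) u - u) < 1 := fun u hu =>
    (A.mem_nonunits_iff).mp (hσ u ((A.valuation_le_one_iff u).mp hu))
  have hτ0 : ∀ Q : (W⁄Qbar).Point, Q ≠ 0 → Point.map (W' := W) σ.toAlgHom Q ≠ 0 := by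
    intro Q hQ
    cases Q with
    | zero => exact absurd rfl hQ
    | some x y h => rw [Point.map_some]; exact Point.some_ne_zero _
  have hτX : ∀ Q : (W⁄Qbar).Point, Q ≠ 0 →
      ptX (Point.map (W' := W) σ.toAlgHom Q) = (σ : Qbar →+* Qbar) (ptX Q) := by
    intro Q hQ
    cases Q with
    | zero => exact absurd rfl hQ
    | some x y h => rw [Point.map_some]; rfl
  have hτY : ∀ Q : (W⁄Qbar).Point, Q ≠ 0 →
      ptY (Point.map (W' := W) σ.toAlgHom Q) = (σ : Qbar →+* Qbar) (ptY Q) := by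
    intro Q hQ
    cases Q with
    | zero => exact absurd rfl hQ
    | some x y h => rw [Point.map_some]; rfl
  rw [algEquiv_smul_def]
  have good : A.valuation (algebraMap ℚ Qbar W.a₄) = 1 →
      P - Point.map (W' := W) σ.toAlgHom P ∈ legE1 A W h₁ h₃ h₆ ha₂ ha₄ := fun hb =>
    good_main_p A.valuation hL hva hb hdisc' h2 hn hn2 (Point.map (W' := W) σ.toAlgHom) hτ0
      (σ : Qbar →+* Qbar) hτX hτY hs hP
  rcases hcase with hb | ⟨w, hw⟩
  · exact good hb
  · rcases hvb.lt_or_eq with hlt | heq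
    · have hb0 : algebraMap ℚ Qbar W.a₄ ≠ 0 := by
        rw [Ne, map_eq_zero]; exact h₄
      have hva1 : A.valuation (algebraMap ℚ Qbar W.a₂) = 1 := by
        apply eq_of_sq_eq_sq'
        have h4b : A.valuation (4 * algebraMap ℚ Qbar W.a₄) <
            A.valuation ((algebraMap ℚ Qbar W.a₂) ^ 2 - 4 * algebraMap ℚ Qbar W.a₄) := by
          rw [hdisc', (A.valuation).map_mul]
          calc A.valuation 4 * A.valuation (algebraMap ℚ Qbar W.a₄)
              ≤ 1 * A.valuation (algebraMap ℚ Qbar W.a₄) := by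
                gcongr; exact val_four_le_one _
            _ = A.valuation (algebraMap ℚ Qbar W.a₄) := one_mul _
            _ < 1 := hlt
        have e : (algebraMap ℚ Qbar W.a₂) ^ 2 =
            ((algebraMap ℚ Qbar W.a₂) ^ 2 - 4 * algebraMap ℚ Qbar W.a₄) +
              4 * algebraMap ℚ Qbar W.a₄ := by ring
        rw [← (A.valuation).map_pow, e, (A.valuation).map_add_eq_of_lt_left h4b, hdisc', one_pow]
      obtain ⟨β, hβ⟩ := IsAlgClosed.exists_pow_nat_eq (algebraMap ℚ Qbar W.a₂) (n := 2)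
        (by norm_num)
      have hT : (W⁄Qbar).Nonsingular 0 0 := by
        rw [nonsingular_zero]
        exact ⟨e₆, Or.inr (by rw [e₄]; exact hb0)⟩
      have hT0 : Point.some 0 0 hT ≠ 0 := Point.some_ne_zero _
      exact node_main_p A.valuation hL hva1 hlt hb0 h2 hβ hT0 rfl rfl hn hn2
        (Point.map (W' := W) σ.toAlgHom) hτ0 (σ : Qbar →+* Qbar) hτX hτY hs
        (d := algebraMap ℚ Qbar w) (σ.commutes w) hw hP
    · exact good heq

end Legendre

section VarChange

/-- An integral change of the `x`-coordinate with unit scaling preserves `x ∉ A`. -/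
theorem one_lt_val_vc {A : ValuationSubring Qbar} {u r x : Qbar} (hu : A.valuation u = 1)
    (hr : A.valuation r ≤ 1) : 1 < A.valuation (u ^ 2 * x + r) ↔ 1 < A.valuation x := by
  have hux : A.valuation (u ^ 2 * x) = A.valuation x := by
    rw [map_mul, map_pow, hu, one_pow, one_mul]
  constructor
  · intro h
    by_contra hle
    have hle' : A.valuation x ≤ 1 := le_of_not_gt hle
    have : A.valuation (u ^ 2 * x + r) ≤ 1 :=
      (A.valuation).map_add_le (by rw [hux]; exact hle') hr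
    exact absurd h (not_lt.mpr this)
  · intro h
    have hlt : A.valuation r < A.valuation (u ^ 2 * x) := by
      rw [hux]; exact lt_of_le_of_lt hr h
    rw [(A.valuation).map_add_eq_of_lt_left hlt, hux]
    exact h

/-- Membership in the kernel of reduction is invariant under a rational change of variables
with unit scaling and integral translation. -/
theorem vc_mem_iff {W₁ W₂ : WeierstrassCurve ℚ} {u r s t : ℚ}
    (hK : IsVarChange (W₁⁄Qbar) (W₂⁄Qbar) (algebraMap ℚ Qbar u) (algebraMap ℚ Qbar r)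
      (algebraMap ℚ Qbar s) (algebraMap ℚ Qbar t))
    (A : ValuationSubring Qbar) (hu : A.valuation (algebraMap ℚ Qbar u) = 1)
    (hr : algebraMap ℚ Qbar r ∈ A) (Q : (W₁⁄Qbar).Point) :
    (vcHom hK Q = 0 ∨ 1 < A.valuation (ptX (vcHom hK Q))) ↔
      (Q = 0 ∨ 1 < A.valuation (ptX Q)) := by
  have hr' : A.valuation (algebraMap ℚ Qbar r) ≤ 1 := (A.valuation_le_one_iff _).mpr hr
  rcases Q with _ | ⟨x, y, h⟩
  · exact ⟨fun _ => Or.inl rfl, fun _ => Or.inl rfl⟩
  · rw [vcHom_some]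
    constructor
    · rintro (h0 | h1)
      · exact absurd h0 (Point.some_ne_zero _)
      · exact Or.inr ((one_lt_val_vc hu hr').mp h1)
    · rintro (h0 | h1)
      · exact absurd h0 (Point.some_ne_zero _)
      · exact Or.inr ((one_lt_val_vc hu hr').mpr h1)

end VarChange

section Frey

theorem algebraMap_intCast_mem (A : ValuationSubring Qbar) (z : ℤ) :
    algebraMap ℚ Qbar (z : ℚ) ∈ A := by
  rw [map_intCast]; exact intCast_mem' A z

/-- The change of variables from the Frey curve to `Y² = X (X - a^p) (X + b^p)`, over `ℚ̄`. -/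
theorem frey_vc (P : FreyPackage) :
    IsVarChange (P.freyCurve⁄Qbar)
      ((legendreModel ((P.b : ℚ) ^ P.p - (P.a : ℚ) ^ P.p)
        (-((P.a : ℚ) ^ P.p * (P.b : ℚ) ^ P.p)))⁄Qbar)
      (algebraMap ℚ Qbar 2) (algebraMap ℚ Qbar 0) (algebraMap ℚ Qbar 1) (algebraMap ℚ Qbar 0) :=
  (frey_isVarChange P).map (algebraMap ℚ Qbar)

/-- The change of variables from the Frey curve to `Y² = X (X + a^p) (X + c^p)`, over `ℚ̄`. -/
theorem frey_vc_shift (P : FreyPackage) :
    IsVarChange (P.freyCurve⁄Qbar)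
      ((legendreModel ((P.a : ℚ) ^ P.p + (P.c : ℚ) ^ P.p)
        ((P.a : ℚ) ^ P.p * (P.c : ℚ) ^ P.p))⁄Qbar)
      (algebraMap ℚ Qbar 2) (algebraMap ℚ Qbar (-((P.a : ℚ) ^ P.p))) (algebraMap ℚ Qbar 1)
      (algebraMap ℚ Qbar 0) :=
  (frey_isVarChange_shift P).map (algebraMap ℚ Qbar)

/-- The kernel of reduction `E₁(A) = {0} ∪ {(x, y) : x ∉ A}` of the Frey curve, as a subgroup
of its points over `ℚ̄` (meaningful when `2` is a unit of `A`, see `mem_freyE1_iff`). -/
noncomputable def freyE1 (P : FreyPackage) (A : ValuationSubring Qbar) :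
    AddSubgroup (P.freyCurve⁄Qbar).Point :=
  (legE1 A (legendreModel ((P.b : ℚ) ^ P.p - (P.a : ℚ) ^ P.p)
      (-((P.a : ℚ) ^ P.p * (P.b : ℚ) ^ P.p))) (legendreModel_a₁ _ _) (legendreModel_a₃ _ _)
      (legendreModel_a₆ _ _)
    (by
      simp only [legendreModel_a₂, map_sub, map_pow]
      exact sub_mem (A.pow_mem (algebraMap_intCast_mem A _) _)
        (A.pow_mem (algebraMap_intCast_mem A _) _))
    (by
      simp only [legendreModel_a₄, map_neg, map_mul, map_pow]
      exact A.neg_mem _ (A.mul_mem _ _ (A.pow_mem (algebraMap_intCast_mem A _) _)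
        (A.pow_mem (algebraMap_intCast_mem A _) _)))).comap
    (vcHom (frey_vc P))

/-- Membership in `freyE1`, in terms of the `x`-coordinate on the Frey model itself. -/
theorem mem_freyE1_iff (P : FreyPackage) (A : ValuationSubring Qbar)
    (h2 : A.valuation (2 : Qbar) = 1) {Q : (P.freyCurve⁄Qbar).Point} :
    Q ∈ freyE1 P A ↔ Q = 0 ∨ 1 < A.valuation (ptX Q) := by
  unfold freyE1
  rw [AddSubgroup.mem_comap, mem_legE1_iff]
  exact vc_mem_iff (frey_vc P) A
    (by rw [map_ofNat]; exact h2) (by rw [_root_.map_zero]; exact A.zero_mem) Q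

/-- Membership in `freyE1`: a nonzero point lies in it iff its `x`-coordinate is not in `A`. -/
theorem mem_freyE1_iff' (P : FreyPackage) (A : ValuationSubring Qbar)
    (h2 : A.valuation (2 : Qbar) = 1) {Q : (P.freyCurve⁄Qbar).Point} :
    Q ∈ freyE1 P A ↔
      Q = 0 ∨ ∃ (x y : Qbar) (h : (P.freyCurve⁄Qbar).Nonsingular x y),
        Q = Point.some x y h ∧ x ∉ A := by
  rw [mem_freyE1_iff P A h2]
  rcases Q with _ | ⟨x, y, h⟩
  · exact ⟨fun _ => Or.inl rfl, fun _ => Or.inl rfl⟩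
  · constructor
    · rintro (h0 | h1)
      · exact absurd h0 (Point.some_ne_zero _)
      · refine Or.inr ⟨x, y, h, rfl, fun hx => ?_⟩
        exact absurd ((A.valuation_le_one_iff x).mpr hx) (not_le.mpr h1)
    · rintro (h0 | ⟨x', y', h', he, hx⟩)
      · exact absurd h0 (Point.some_ne_zero _)
      · right
        rw [Point.some.injEq] at he
        obtain ⟨rfl, rfl⟩ := he
        exact lt_of_not_ge fun hle => hx ((A.valuation_le_one_iff x).mp hle)

theorem some_mem_freyE1_iff (P : FreyPackage) (A : ValuationSubring Qbar)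
    (h2 : A.valuation (2 : Qbar) = 1) {x y : Qbar} (h : (P.freyCurve⁄Qbar).Nonsingular x y) :
    Point.some x y h ∈ freyE1 P A ↔ x ∉ A := by
  rw [mem_freyE1_iff P A h2]
  constructor
  · rintro (h0 | h1)
    · exact absurd h0 (Point.some_ne_zero _)
    · exact fun hx => absurd ((A.valuation_le_one_iff x).mpr hx) (not_le.mpr h1)
  · intro hx
    exact Or.inr (lt_of_not_ge fun hle => hx ((A.valuation_le_one_iff x).mp hle))

/-- The local theorem at an odd prime `q` (possibly `q = p`) for the Legendre models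
`Y² = X³ + a₂ X² + e w^p X` with `a₂² - 4 e w^p = d²`, `q ∤ d`. -/
theorem legendre_local_p {q p : ℕ} (hq : q.Prime) (hq2 : q ≠ 2) (hp : p.Prime) (hp2 : p ≠ 2)
    (a₂ w d : ℤ) (hw : w ≠ 0) (e : ℤ) (he : e = 1 ∨ e = -1)
    (hd : ¬ (q : ℤ) ∣ d) (hdisc : a₂ ^ 2 - 4 * (e * w ^ p) = d ^ 2)
    (α β : ℚ) (hα : α = (a₂ : ℚ)) (hβ : β = (e : ℚ) * (w : ℚ) ^ p)
    (A : ValuationSubring Qbar) (hA : A.LiesOverPrime q) (σ : Qbar ≃ₐ[ℚ] Qbar)
    (hσ : σ ∈ A.inertiaSubgroupIn ℚ)
    (Q : ((legendreModel α β)⁄Qbar).Point) (hQ : p • Q = 0) :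
    Q - σ • Q = 0 ∨ 1 < A.valuation (ptX (Q - σ • Q)) := by
  subst hα hβ
  have hA' : (q : Qbar) ∈ A.nonunits := hA
  obtain ⟨-, hσ2⟩ := inertia_facts hσ
  have he0 : (e : ℚ) ≠ 0 := by
    rcases he with rfl | rfl <;> norm_num
  have hve : A.valuation ((e : ℤ) : Qbar) = 1 := by
    rcases he with rfl | rfl <;> simp
  have ha₂ : algebraMap ℚ Qbar (legendreModel (a₂ : ℚ) ((e : ℚ) * (w : ℚ) ^ p)).a₂ ∈ A := by
    simp only [legendreModel_a₂, map_intCast]
    exact intCast_mem' A a₂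
  have ha₄ : algebraMap ℚ Qbar (legendreModel (a₂ : ℚ) ((e : ℚ) * (w : ℚ) ^ p)).a₄ ∈ A := by
    simp only [legendreModel_a₄, map_mul, map_pow, map_intCast]
    exact A.mul_mem _ _ (intCast_mem' A e) (A.pow_mem (intCast_mem' A w) _)
  refine (mem_legE1_iff A _ (legendreModel_a₁ _ _) (legendreModel_a₃ _ _)
      (legendreModel_a₆ _ _) ha₂ ha₄).mp
    (local_statement_p A (legendreModel (a₂ : ℚ) ((e : ℚ) * (w : ℚ) ^ p)) (legendreModel_a₁ _ _)
      (legendreModel_a₃ _ _) (legendreModel_a₆ _ _) ?_ ha₂ ha₄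
      (valuation_two_eq_one A hq hA' hq2) ?_ σ hσ2 p hp hp2 (Or.inr ⟨(w : ℚ), ?_⟩) Q hQ)
  · simp only [legendreModel_a₄]
    exact mul_ne_zero he0 (pow_ne_zero _ (by exact_mod_cast hw))
  · have h1 : algebraMap ℚ Qbar ((legendreModel (a₂ : ℚ) ((e : ℚ) * (w : ℚ) ^ p)).a₂ ^ 2
        - 4 * (legendreModel (a₂ : ℚ) ((e : ℚ) * (w : ℚ) ^ p)).a₄) = ((d : ℤ) : Qbar) ^ 2 := by
      simp only [legendreModel_a₂, legendreModel_a₄]
      have h2 : ((a₂ : ℚ) ^ 2 - 4 * ((e : ℚ) * (w : ℚ) ^ p)) = ((d ^ 2 : ℤ) : ℚ) := by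
        rw [← hdisc]; push_cast; ring
      rw [h2]
      simp
    rw [h1, map_pow, valuation_intCast_eq_one A hq hA' hd, one_pow]
  · simp only [legendreModel_a₄, map_mul, map_pow, map_intCast]
    rw [hve, one_mul]

/-- **The local theorem at `p` for the Frey curve** (valid at every odd prime `q`, including
`q = p`): an element `σ` of the inertia group of a valuation subring `A` of `ℚ̄` above `q` moves
every `p`-torsion point of the Frey curve inside the kernel of reduction `E₁(A)`. -/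
theorem frey_inertia_sub_mem (P : FreyPackage) {q : ℕ} (hq : q.Prime) (hq2 : q ≠ 2)
    (A : ValuationSubring Qbar) (hA : A.LiesOverPrime q) (σ : Qbar ≃ₐ[ℚ] Qbar)
    (hσ : σ ∈ A.inertiaSubgroupIn ℚ) (Q : (P.freyCurve⁄Qbar).Point) (hQ : P.p • Q = 0) :
    σ • Q - Q ∈ freyE1 P A := by
  have hA' : (q : Qbar) ∈ A.nonunits := hA
  have h2 : A.valuation (2 : Qbar) = 1 := valuation_two_eq_one A hq hA' hq2
  have hp2 : P.p ≠ 2 := by have := P.hp5; omega
  have hFLT := P.hFLT
  have hu : A.valuation (algebraMap ℚ Qbar 2) = 1 := by rw [map_ofNat]; exact h2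
  suffices hmain : Q - σ • Q ∈ freyE1 P A by
    have := (freyE1 P A).neg_mem hmain
    rwa [neg_sub] at this
  rw [mem_freyE1_iff P A h2]
  by_cases hc : (q : ℤ) ∣ P.c
  · -- `q ∣ c`: shifted model `Y² = X (X + a^p) (X + c^p)`
    have hb : ¬ (q : ℤ) ∣ P.b :=
      not_dvd_of_gcd_eq_one hq (by rw [gcd_comm]; exact P.hgcdbc) hc
    have hK := frey_vc_shift P
    have hQ' : P.p • vcHom hK Q = 0 := by rw [← map_nsmul, hQ, _root_.map_zero]
    have key := legendre_local_p hq hq2 P.pp hp2 (P.a ^ P.p + P.c ^ P.p) (P.a * P.c)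
      (P.b ^ P.p) (mul_ne_zero P.ha0 P.hc0) 1 (Or.inl rfl)
      (fun h => hb ((Nat.prime_iff_prime_int.mp hq).dvd_of_dvd_pow h))
      (by rw [mul_pow, ← hFLT]; ring)
      ((P.a : ℚ) ^ P.p + (P.c : ℚ) ^ P.p) ((P.a : ℚ) ^ P.p * (P.c : ℚ) ^ P.p)
      (by push_cast; ring) (by push_cast; ring) A hA σ hσ (vcHom hK Q) hQ'
    rw [← vcHom_smul hK σ Q, ← map_sub] at key
    exact (vc_mem_iff hK A hu
      (by
        rw [map_neg, map_pow]
        exact A.neg_mem _ (A.pow_mem (algebraMap_intCast_mem A _) _)) _).mp key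
  · -- `q ∤ c`: model `Y² = X (X - a^p) (X + b^p)`
    have hK := frey_vc P
    have hQ' : P.p • vcHom hK Q = 0 := by rw [← map_nsmul, hQ, _root_.map_zero]
    have key := legendre_local_p hq hq2 P.pp hp2 (P.b ^ P.p - P.a ^ P.p) (P.a * P.b)
      (P.c ^ P.p) (mul_ne_zero P.ha0 P.hb0) (-1) (Or.inr rfl)
      (fun h => hc ((Nat.prime_iff_prime_int.mp hq).dvd_of_dvd_pow h))
      (by rw [mul_pow, ← hFLT]; ring)
      ((P.b : ℚ) ^ P.p - (P.a : ℚ) ^ P.p) (-((P.a : ℚ) ^ P.p * (P.b : ℚ) ^ P.p))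
      (by push_cast; ring) (by push_cast; ring) A hA σ hσ (vcHom hK Q) hQ'
    rw [← vcHom_smul hK σ Q, ← map_sub] at key
    exact (vc_mem_iff hK A hu (by rw [_root_.map_zero]; exact A.zero_mem) _).mp key

end Frey

section AtP

/-- In a valuation subring of `ℚ̄` above the prime `p` of a Frey package, `2` is a unit. -/
theorem valuation_two_of_liesOver (P : FreyPackage) (A : ValuationSubring Qbar)
    (hA : A.LiesOverPrime P.p) : A.valuation (2 : Qbar) = 1 :=
  valuation_two_eq_one A P.pp hA (by have := P.hp5; omega)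

/-- The `p`-torsion points of the Frey curve in the kernel of reduction at `A`, as a
`ZMod p`-submodule of the `p`-torsion. -/
noncomputable def freyL (P : FreyPackage) (A : ValuationSubring Qbar) :
    Submodule (ZMod P.p) (Submodule.torsionBy ℤ (P.freyCurve⁄Qbar).Point P.p) :=
  AddSubgroup.toZModSubmodule P.p
    ((freyE1 P A).comap (Submodule.torsionBy ℤ (P.freyCurve⁄Qbar).Point P.p).subtype.toAddMonoidHom)

theorem mem_freyL_iff (P : FreyPackage) (A : ValuationSubring Qbar)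
    {x : Submodule.torsionBy ℤ (P.freyCurve⁄Qbar).Point P.p} :
    x ∈ freyL P A ↔ (x : (P.freyCurve⁄Qbar).Point) ∈ freyE1 P A := Iff.rfl

/-- **At `p`**: inertia at any valuation subring `A` of `ℚ̄` above `p` moves the `p`-torsion
of the Frey curve inside the kernel of reduction `freyL P A`. -/
theorem frey_inertia_sub_mem_freyL (P : FreyPackage) (A : ValuationSubring Qbar)
    (hA : A.LiesOverPrime P.p) (σ : Qbar ≃ₐ[ℚ] Qbar) (hσ : σ ∈ A.inertiaSubgroupIn ℚ)
    (x : Submodule.torsionBy ℤ (P.freyCurve⁄Qbar).Point P.p) : σ • x - x ∈ freyL P A := by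
  rw [mem_freyL_iff]
  have hx : P.p • (x : (P.freyCurve⁄Qbar).Point) = 0 := by
    have := (Submodule.mem_torsionBy_iff _ _).1 x.2
    rwa [natCast_zsmul] at this
  exact frey_inertia_sub_mem P P.pp (by have := P.hp5; omega) A hA σ hσ _ hx

end AtP

end Fermat.Agent.S13.helper3414
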