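import Fermat.Agent.S05.helper245_LegE

set_option autoImplicit false

/-!
# S13, local theory at `p` (helper3414), abstract part

In the abstract "Legendre-coordinatised" setting of helper245 (`IsLegCoord a b X Y`: a group with
coordinates behaving like those of `Y² = X³ + a X² + b X`, valuation `v` with `v 2 = 1`), we
redo the main theorems of the S05 local theory WITHOUT the hypothesis `v p = 1`:
an additive endomorphism `τ` acting on coordinates through a ring endomorphism `s` which is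
trivial modulo the maximal ideal moves every `p`-torsion point inside the kernel of reduction:
`P - τ P ∈ E₁`, where `E₁ = {0} ∪ {1 < v (X ·)}`.

* `E1` : the kernel of reduction as an `AddSubgroup`;
* `good_main_p` : good reduction;
* `node_main_p` : node at the origin, with `v b = v d ^ p` for an `s`-fixed `d`.
-/

namespace Fermat.Agent.S13.helper3414

open Fermat.Agent.S05.helper245

section LegP

variable {K : Type*} [Field K] {Γ₀ : Type*} [LinearOrderedCommGroupWithZero Γ₀]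
  (v : Valuation K Γ₀) {G : Type*} [AddCommGroup G] {a b : K} {X Y : G → K}

/-- The kernel of reduction `E₁ = {0} ∪ {v(X) > 1}` as a subgroup. -/
def E1 (hL : IsLegCoord a b X Y) (ha : v a ≤ 1) (hb : v b ≤ 1) : AddSubgroup G where
  carrier := {Q | Q = 0 ∨ 1 < v (X Q)}
  zero_mem' := Or.inl rfl
  add_mem' := by
    intro P Q hP hQ
    by_cases hP0 : P = 0
    · rw [hP0, zero_add]; exact hQ
    by_cases hQ0 : Q = 0
    · rw [hQ0, add_zero]; exact hP
    by_cases hPQ : P + Q = 0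
    · exact Or.inl hPQ
    right
    have hxP : 1 < v (X P) := hP.resolve_left hP0
    have hxQ : 1 < v (X Q) := hQ.resolve_left hQ0
    have hR : -(P + Q) ≠ 0 := neg_ne_zero.mpr hPQ
    have := (E1_triple v hL ha hb hP0 hQ0 hR (by abel) hxP hxQ).1
    rwa [hL.negX _ hPQ] at this
  neg_mem' := by
    intro P hP
    by_cases hP0 : P = 0
    · left; rw [hP0, neg_zero]
    right
    rw [hL.negX P hP0]; exact hP.resolve_left hP0

theorem mem_E1_iff (hL : IsLegCoord a b X Y) (ha : v a ≤ 1) (hb : v b ≤ 1) {P : G} :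
    P ∈ E1 v hL ha hb ↔ P = 0 ∨ 1 < v (X P) := Iff.rfl

/-- A ring endomorphism that is trivial modulo the maximal ideal preserves `1 < v`. -/
theorem one_lt_val_map (s : K →+* K) (hs : ∀ u, v u ≤ 1 → v (s u - u) < 1) {u : K}
    (hu : 1 < v u) : 1 < v (s u) := by
  have hu0 : u ≠ 0 := by
    intro h
    rw [h, v.map_zero] at hu
    exact absurd hu (not_lt.mpr zero_le_one)
  have hvu0 : v u ≠ 0 := (v.ne_zero_iff).mpr hu0
  have hinv : v u⁻¹ < 1 := by
    rw [map_inv₀]
    exact inv_lt_one_of_one_lt₀ hu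
  have h1 := hs u⁻¹ hinv.le
  have h2 : v (s u⁻¹) < 1 := by
    have : s u⁻¹ = (s u⁻¹ - u⁻¹) + u⁻¹ := by ring
    rw [this]
    exact v.map_add_lt h1 hinv
  rw [map_inv₀, map_inv₀] at h2
  have hsu0 : v (s u) ≠ 0 := (v.ne_zero_iff).mpr ((map_ne_zero s).mpr hu0)
  by_contra hle
  have hle' : v (s u) ≤ 1 := le_of_not_gt hle
  have h3 : 1 ≤ (v (s u))⁻¹ := (one_le_inv₀ (pos_iff_ne_zero.mpr hsu0)).mpr hle'
  exact absurd h2 (not_lt.mpr h3)

/-- `τ` maps `E₁` into itself. -/
theorem map_mem_E1 (hL : IsLegCoord a b X Y) (ha : v a ≤ 1) (hb : v b ≤ 1)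
    (τ : G →+ G) (s : K →+* K)
    (hτX : ∀ P, P ≠ 0 → X (τ P) = s (X P))
    (hs : ∀ u, v u ≤ 1 → v (s u - u) < 1) {P : G} (hP : P ∈ E1 v hL ha hb) :
    τ P ∈ E1 v hL ha hb := by
  by_cases hP0 : P = 0
  · left; rw [hP0, map_zero]
  · right
    rw [hτX P hP0]
    exact one_lt_val_map v s hs (hP.resolve_left hP0)

/-- Congruent points differ by an element of `E₁`. -/
theorem sub_mem_E1_of_close (hL : IsLegCoord a b X Y) (ha : v a ≤ 1) (hb : v b ≤ 1)
    (h2 : v 2 = 1) (τ : G →+ G) (hτ0 : ∀ P, P ≠ 0 → τ P ≠ 0)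
    {P : G} (hP : P ≠ 0) (hXP : v (X P) ≤ 1) (hYP : v (Y P) ≤ 1)
    (hX : v (X P - X (τ P)) < v (Y P)) (hY : v (Y P - Y (τ P)) < v (Y P)) :
    P - τ P ∈ E1 v hL ha hb := by
  by_cases hne : τ P = P
  · left; rw [hne, sub_self]
  · right
    exact close_sub_mem_E1 v hL ha h2 hP (hτ0 P hP) (Ne.symm hne) hXP hYP hX hY

/-- A `p`-torsion point (`p` odd) with integral `X` and nonsingular reduction is moved by `τ`
inside `E₁`. -/
theorem sub_mem_E1_of_integral (hL : IsLegCoord a b X Y) (ha : v a ≤ 1) (hb : v b ≤ 1)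
    (h2 : v 2 = 1) {p : ℕ} (hpp : p.Prime) (hp2 : p ≠ 2)
    (τ : G →+ G) (hτ0 : ∀ P, P ≠ 0 → τ P ≠ 0) (s : K →+* K)
    (hτX : ∀ P, P ≠ 0 → X (τ P) = s (X P)) (hτY : ∀ P, P ≠ 0 → Y (τ P) = s (Y P))
    (hs : ∀ u, v u ≤ 1 → v (s u - u) < 1)
    {P : G} (hP : P ≠ 0) (hpP : p • P = 0) (hXP : v (X P) ≤ 1)
    (hf' : v (Y P) < 1 → v (3 * X P ^ 2 + 2 * a * X P + b) = 1) :
    P - τ P ∈ E1 v hL ha hb := by
  rcases (val_Y_le_one v hL ha hb hP hXP).lt_or_eq with hlt | heq
  · -- `Y` in the maximal ideal: the double lies in `E₁`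
    have h2P : 2 • P ≠ 0 := by
      intro h2P
      obtain ⟨k, hk⟩ := hpp.odd_of_ne_two hp2
      have : p • P = P := by
        rw [hk, add_nsmul, mul_nsmul, h2P, nsmul_zero, zero_add, one_nsmul]
      rw [this] at hpP
      exact hP hpP
    have h1 := double_mem_E1 v hL ha h2 hP h2P hXP hlt (hf' hlt)
    have hm : 2 • P ∈ E1 v hL ha hb := Or.inr h1
    have hm' : τ (2 • P) ∈ E1 v hL ha hb := map_mem_E1 v hL ha hb τ s hτX hs hm
    have hd : 2 • (P - τ P) ∈ E1 v hL ha hb := by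
      rw [smul_sub, ← map_nsmul]
      exact sub_mem hm hm'
    have hpD : p • (P - τ P) = 0 := by
      rw [smul_sub, ← map_nsmul, hpP, map_zero, sub_zero]
    have h2p : ¬ p ∣ 2 := fun h =>
      hp2 ((Nat.prime_dvd_prime_iff_eq hpp Nat.prime_two).mp h)
    exact mem_of_nsmul_mem hpp h2p hpD hd
  · apply sub_mem_E1_of_close v hL ha hb h2 τ hτ0 hP hXP heq.le
    · rw [heq, hτX P hP, v.map_sub_swap]; exact hs _ hXP
    · rw [heq, hτY P hP, v.map_sub_swap]; exact hs _ heq.le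

/-- **Good reduction, no assumption on `v p`**: `τ` moves the `p`-torsion inside `E₁`. -/
theorem good_main_p (hL : IsLegCoord a b X Y) (ha : v a ≤ 1) (hb : v b = 1)
    (hdisc : v (a ^ 2 - 4 * b) = 1) (h2 : v 2 = 1) {p : ℕ} (hpp : p.Prime) (hp2 : p ≠ 2)
    (τ : G →+ G) (hτ0 : ∀ P, P ≠ 0 → τ P ≠ 0) (s : K →+* K)
    (hτX : ∀ P, P ≠ 0 → X (τ P) = s (X P)) (hτY : ∀ P, P ≠ 0 → Y (τ P) = s (Y P))
    (hs : ∀ u, v u ≤ 1 → v (s u - u) < 1) {P : G} (hpP : p • P = 0) :
    P - τ P ∈ E1 v hL ha hb.le := by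
  by_cases hP : P = 0
  · rw [hP, map_zero, sub_zero]; exact zero_mem _
  by_cases hx : 1 < v (X P)
  · have hm : P ∈ E1 v hL ha hb.le := Or.inr hx
    exact sub_mem hm (map_mem_E1 v hL ha hb.le τ s hτX hs hm)
  have hXP : v (X P) ≤ 1 := le_of_not_gt hx
  have hf' : v (Y P) < 1 → v (3 * X P ^ 2 + 2 * a * X P + b) = 1 := by
    intro hY
    rcases hXP.lt_or_eq with hlt | heq
    · have : 3 * X P ^ 2 + 2 * a * X P + b = b + (3 * X P + 2 * a) * X P := by ring
      rw [this]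
      have hsmall : v ((3 * X P + 2 * a) * X P) < v b := by
        rw [hb, v.map_mul]
        have h3 : v (3 * X P + 2 * a) ≤ 1 := by
          apply v.map_add_le
          · rw [v.map_mul]
            calc v 3 * v (X P) ≤ 1 * 1 := mul_le_mul' (val_three_le_one v) hXP
              _ = 1 := one_mul 1
          · rw [v.map_mul, h2, one_mul]; exact ha
        calc v (3 * X P + 2 * a) * v (X P) ≤ 1 * v (X P) := by gcongr
          _ = v (X P) := one_mul _
          _ < 1 := hlt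
      rw [v.map_add_eq_of_lt_left hsmall, hb]
    · exact val_deriv_eq_one v hL hdisc hP heq hY
  exact sub_mem_E1_of_integral v hL ha hb.le h2 hpp hp2 τ hτ0 s hτX hτY hs hP hpP hXP hf'

/-- **Node case, no assumption on `v p`**: `τ` moves the `p`-torsion inside `E₁` when `v b` is
a `p`-th power of the valuation of an `s`-fixed element. -/
theorem node_main_p (hL : IsLegCoord a b X Y) (ha : v a = 1) (hb : v b < 1) (hb0 : b ≠ 0)
    (h2 : v 2 = 1) {β : K} (hβ : β ^ 2 = a) {T : G} (hT : T ≠ 0) (hTX : X T = 0)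
    (hTY : Y T = 0) {p : ℕ} (hpp : p.Prime) (hp2 : p ≠ 2)
    (τ : G →+ G) (hτ0 : ∀ P, P ≠ 0 → τ P ≠ 0) (s : K →+* K)
    (hτX : ∀ P, P ≠ 0 → X (τ P) = s (X P)) (hτY : ∀ P, P ≠ 0 → Y (τ P) = s (Y P))
    (hs : ∀ u, v u ≤ 1 → v (s u - u) < 1) {d : K} (hd : s d = d) (hbd : v b = v d ^ p)
    {P : G} (hpP : p • P = 0) : P - τ P ∈ E1 v hL ha.le hb.le := by
  by_cases hP : P = 0
  · rw [hP, map_zero, sub_zero]; exact zero_mem _
  have hdisc : v (a ^ 2 - 4 * b) = 1 := by
    have h4b : v (4 * b) < v (a ^ 2) := by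
      rw [v.map_pow, ha, one_pow, v.map_mul]
      calc v 4 * v b ≤ 1 * v b := by gcongr; exact val_four_le_one v
        _ = v b := one_mul _
        _ < 1 := hb
    rw [v.map_sub_eq_of_lt_left h4b, v.map_pow, ha, one_pow]
  by_cases hx : 1 < v (X P)
  · have hm : P ∈ E1 v hL ha.le hb.le := Or.inr hx
    exact sub_mem hm (map_mem_E1 v hL ha.le hb.le τ s hτX hs hm)
  have hXP : v (X P) ≤ 1 := le_of_not_gt hx
  rcases hXP.lt_or_eq with hlt | heq
  · -- the node region
    have h1p : ¬ p ∣ 1 := Nat.not_dvd_of_pos_of_lt one_pos hpp.one_lt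
    have hPb : v b < v (X P) := by
      have := node_region_of_multiple v hL ha.le hb hb0 h2 hT hTX hTY hpp hp2 hpP hP hlt h1p
      rw [one_nsmul] at this; exact this.2.1
    have hp3 : 3 ≤ p := by
      have := hpp.two_le
      omega
    obtain ⟨j, hj⟩ := cc_multiples v hL ha hb hb0 h2 hβ hT hTX hTY hpp hp2 hpP hP hlt (p - 1)
      (by omega) (by omega)
    have hneg : (p - 1) • P = -P := by
      have : (p - 1) • P + P = 0 := by
        rw [← succ_nsmul, Nat.sub_add_cancel hpp.one_le]; exact hpP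
      exact eq_neg_of_add_eq_zero_left this
    rw [hneg] at hj
    have kneg := cc_neg_mul v hL ha h2 hβ hP hPb hlt
    have hc : cc v b X Y β P ^ p = (v d ^ (2 * (j + 1))) ^ p := by
      calc cc v b X Y β P ^ p = cc v b X Y β P ^ (p - 1) * cc v b X Y β P := by
            rw [← pow_succ, Nat.sub_add_cancel hpp.one_le]
        _ = cc v b X Y β (-P) * v b ^ (2 * j) * cc v b X Y β P := by rw [hj]
        _ = (cc v b X Y β (-P) * cc v b X Y β P) * v b ^ (2 * j) := by ac_rfl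
        _ = v b ^ 2 * v b ^ (2 * j) := by rw [kneg]
        _ = v b ^ (2 * (j + 1)) := by rw [← pow_add]; congr 1; ring
        _ = (v d ^ (2 * (j + 1))) ^ p := by rw [hbd, ← pow_mul, ← pow_mul, mul_comm]
    have hc' : cc v b X Y β P = v d ^ (2 * (j + 1)) :=
      (pow_left_inj₀ zero_le zero_le hpp.ne_zero).mp hc
    obtain ⟨ϖ, hϖs, hϖv⟩ : ∃ ϖ : K, s ϖ = ϖ ∧ v (X P) = v ϖ := by
      rcases val_X_eq_cc_or v hb0 (β := β) (Y := Y) hPb with h | h
      · exact ⟨d ^ (2 * (j + 1)), by rw [map_pow, hd], by rw [h, hc', v.map_pow]⟩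
      · refine ⟨d ^ (2 * p) / d ^ (2 * (j + 1)), by rw [map_div₀, map_pow, map_pow, hd], ?_⟩
        rw [h, hc', v.map_div, v.map_pow, v.map_pow, hbd, ← pow_mul, mul_comm p 2]
    have hx0 : (0 : Γ₀) < v (X P) := lt_of_le_of_lt zero_le hPb
    have hϖ0 : ϖ ≠ 0 := by rw [← v.ne_zero_iff, ← hϖv]; exact hx0.ne'
    have hYX : v (Y P) = v (X P) := by
      apply eq_of_sq_eq_sq'
      rw [← v.map_pow, hL.eqn P hP]
      have e : X P ^ 3 + a * X P ^ 2 + b * X P = a * X P ^ 2 + (X P ^ 3 + b * X P) := by ring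
      have hdom : v (a * X P ^ 2) = v (X P) ^ 2 := by rw [v.map_mul, ha, one_mul, v.map_pow]
      have hsmall : v (X P ^ 3 + b * X P) < v (a * X P ^ 2) := by
        rw [hdom, sq]
        apply v.map_add_lt
        · rw [v.map_pow, pow_succ, sq]
          calc v (X P) * v (X P) * v (X P) < v (X P) * v (X P) * 1 :=
                mul_lt_mul_of_pos_left hlt (mul_pos hx0 hx0)
            _ = v (X P) * v (X P) := mul_one _
        · rw [v.map_mul]
          exact mul_lt_mul_of_pos_right hPb hx0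
      rw [e, v.map_add_eq_of_lt_left hsmall, hdom]
    have scale : ∀ z : K, v z = v ϖ → v (z - s z) < v ϖ := by
      intro z hz
      have hϖ0' : v ϖ ≠ 0 := (v.ne_zero_iff).mpr hϖ0
      have hu : v (z / ϖ) ≤ 1 := by rw [v.map_div, hz, div_self hϖ0']
      have hsu := hs (z / ϖ) hu
      have e : z - s z = -(ϖ * (s (z / ϖ) - z / ϖ)) := by
        rw [map_div₀, hϖs]; field_simp; ring
      rw [e, v.map_neg, v.map_mul]
      calc v ϖ * v (s (z / ϖ) - z / ϖ) < v ϖ * 1 :=
            mul_lt_mul_of_pos_left hsu (lt_of_le_of_ne zero_le hϖ0'.symm)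
        _ = v ϖ := mul_one _
    have hYP : v (Y P) ≤ 1 := by rw [hYX]; exact hXP
    apply sub_mem_E1_of_close v hL ha.le hb.le h2 τ hτ0 hP hXP hYP
    · rw [hYX, hτX P hP, hϖv]; exact scale _ hϖv
    · rw [hτY P hP]
      have := scale (Y P) (hYX.trans hϖv)
      rwa [← hYX.trans hϖv] at this
  · -- unit `X`
    have hf' : v (Y P) < 1 → v (3 * X P ^ 2 + 2 * a * X P + b) = 1 :=
      fun hY => val_deriv_eq_one v hL hdisc hP heq hY
    exact sub_mem_E1_of_integral v hL ha.le hb.le h2 hpp hp2 τ hτ0 s hτX hτY hs hP hpP hXP hf'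

end LegP

end Fermat.Agent.S13.helper3414
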