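import Mathlib
import Fermat.Prelude.Def_FLTPrelim_GaloisRep

/-!
# S13 brick: a reducible mod-`p` representation has exactly `p ^ 2` points

If the `p`-torsion `V` of a Weierstrass curve is finite, nontrivial, has at most `p ^ 2` points
and is *not* Galois-irreducible, then it has exactly `p ^ 2` points.  Hence ingredient `I1`
(`card`) of the S13 skeleton only needs: finite, nontrivial, and the upper bound `≤ p ^ 2`
(no separability of the division polynomial, no exact count).
-/

set_option autoImplicit false

open WeierstrassCurve WeierstrassCurve.Affine WeierstrassCurve.Affine.Point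

namespace Fermat.Agent.S13.helper373

universe r s v

variable {R : Type r} {S : Type s} {K : Type v} [CommRing R] [CommRing S] [Field K]
  [DecidableEq K] [Algebra R S] [Algebra R K] [Algebra S K] [IsScalarTower R S K]

/-- A nontrivial, non-irreducible representation has a stable submodule different from
`⊥` and `⊤`. -/
theorem exists_stable_of_not_irreducible (W' : Affine R) (n : ℕ)
    (hnt : Nontrivial (Submodule.torsionBy ℤ (W'⁄K).Point n))
    (hred : ¬ GaloisRepIsIrreducible (K := K) S W' n) :
    ∃ N : Submodule (ZMod n) (Submodule.torsionBy ℤ (W'⁄K).Point n),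
      IsGaloisStable S N ∧ N ≠ ⊥ ∧ N ≠ ⊤ := by
  by_contra hcon
  apply hred
  refine ⟨hnt, fun N hN => ?_⟩
  by_contra h
  push Not at h
  exact hcon ⟨N, hN, h.1, h.2⟩

/-- A finite `ZMod p`-module with a submodule different from `⊥` and `⊤` has at least
`p ^ 2` elements. -/
theorem sq_le_card_of_submodule {p : ℕ} [Fact p.Prime] {V : Type*} [AddCommGroup V]
    [Module (ZMod p) V] [Finite V] (N : Submodule (ZMod p) V) (h0 : N ≠ ⊥) (h1 : N ≠ ⊤) :
    p ^ 2 ≤ Nat.card V := by
  have hp : p.Prime := Fact.out
  have hV := Module.natCard_eq_pow_finrank (K := ZMod p) (V := V)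
  rw [Nat.card_zmod] at hV
  have hpos : 0 < Module.finrank (ZMod p) N := by
    rw [Nat.pos_iff_ne_zero]
    intro h
    exact h0 (Submodule.finrank_eq_zero.mp h)
  have hlt : Module.finrank (ZMod p) N < Module.finrank (ZMod p) V := Submodule.finrank_lt h1
  rw [hV]
  exact Nat.pow_le_pow_right hp.pos (by omega)

/-- **Exact count from the upper bound.** If the `p`-torsion is finite, nontrivial, has at most
`p ^ 2` points and the Galois representation on it is not irreducible, then it has exactly
`p ^ 2` points. -/
theorem card_torsion_eq_sq_of_not_irreducible (W' : Affine R) (p : ℕ) [Fact p.Prime]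
    [Finite (Submodule.torsionBy ℤ (W'⁄K).Point p)]
    (hnt : Nontrivial (Submodule.torsionBy ℤ (W'⁄K).Point p))
    (hle : Nat.card (Submodule.torsionBy ℤ (W'⁄K).Point p) ≤ p ^ 2)
    (hred : ¬ GaloisRepIsIrreducible (K := K) S W' p) :
    Nat.card (Submodule.torsionBy ℤ (W'⁄K).Point p) = p ^ 2 := by
  obtain ⟨N, -, h0, h1⟩ := exists_stable_of_not_irreducible (S := S) W' p hnt hred
  exact le_antisymm hle (sq_le_card_of_submodule N h0 h1)

end Fermat.Agent.S13.helper373
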