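import Mathlib
import Fermat.Prelude.Def_FLTPrelim_FreyPackage
import Fermat.Prelude.Def_FLTPrelim_GaloisRep
import Fermat.Prelude.Def_FLTPrelim_Ramification
import Fermat.Prelude.Def_FLTPrelim_CofixedLine

/-!
# S13 spec (helper432): hypothesis-passing interfaces and the top-level reduction

`S13`: if the mod-`p` representation of the Frey curve is reducible, it has a Galois-stable
cofixed line.  This file fixes the Prop-valued interfaces (`*Stmt`) of the ingredients and proves
`result_of_ingredients`, the purely linear-algebraic reduction of S13 to them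
(adapted from the skeleton of helper13, with `card = p ^ 2` weakened to
`Nontrivial` + `card ≤ p ^ 2`).
-/

set_option autoImplicit false
open WeierstrassCurve WeierstrassCurve.Affine WeierstrassCurve.Affine.Point

namespace Fermat.Agent.S13.helper432

noncomputable section

/-- `ℚ̄`. -/
abbrev Qbar : Type := AlgebraicClosure ℚ

/-- The absolute Galois group of `ℚ`. -/
abbrev GQ : Type := Qbar ≃ₐ[ℚ] Qbar

/-- The points of the Frey curve over `ℚ̄`. -/
abbrev EPt (P : FreyPackage) : Type := ((P.freyCurve)⁄Qbar).Point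

/-- The `p`-torsion of the Frey curve over `ℚ̄`. -/
abbrev Vp (P : FreyPackage) : Type := Submodule.torsionBy ℤ (EPt P) P.p

/-- **T** (torsion structure): the `p`-torsion is finite, nontrivial, of cardinality `≤ p²`. -/
def TorsionStmt : Prop :=
  ∀ P : FreyPackage, Finite (Vp P) ∧ Nontrivial (Vp P) ∧ Nat.card (Vp P) ≤ P.p ^ 2

/-- **S05**: unramified at odd primes `q ≠ p`. -/
def S05Stmt : Prop :=
  ∀ (P : FreyPackage) (q : ℕ), q.Prime → q ≠ 2 → q ≠ P.p → P.GaloisRepUnramifiedAt q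

/-- **U2**: inertia at `2` acts unipotently on the `p`-torsion. -/
def UnipTwoStmt : Prop :=
  ∀ (P : FreyPackage) (A : ValuationSubring Qbar), A.LiesOverPrime 2 →
    ∀ σ ∈ A.inertiaSubgroupIn ℚ, ∀ x : Vp P, σ • (σ • x - x) = σ • x - x

/-- **U**: inertia at every prime `q ≠ p` acts unipotently on the `p`-torsion. -/
def UnipStmt : Prop :=
  ∀ (P : FreyPackage) (q : ℕ), q.Prime → q ≠ P.p →
    ∀ A : ValuationSubring Qbar, A.LiesOverPrime q →
    ∀ σ ∈ A.inertiaSubgroupIn ℚ, ∀ x : Vp P, σ • (σ • x - x) = σ • x - x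

/-- **F**: the Frey curve has no rational point of order `p`. -/
def NoFixedStmt : Prop :=
  ∀ (P : FreyPackage) (x : Vp P), (∀ σ : GQ, σ • x = x) → x = 0

/-- **AP**: for a stable line, inertia at `p` is trivial on the line or on the quotient. -/
def AtPStmt : Prop :=
  ∀ (P : FreyPackage) (N : Submodule (ZMod P.p) (Vp P)), IsGaloisStable ℚ N → N ≠ ⊥ → N ≠ ⊤ →
    (∀ A : ValuationSubring Qbar, A.LiesOverPrime P.p →
      ∀ σ ∈ A.inertiaSubgroupIn ℚ, ∀ x ∈ N, σ • x = x) ∨
    (∀ A : ValuationSubring Qbar, A.LiesOverPrime P.p →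
      ∀ σ ∈ A.inertiaSubgroupIn ℚ, ∀ x : Vp P, σ • x - x ∈ N)

/-- **M** (Minkowski, inertia form): an open subgroup of `G_ℚ` containing all inertia groups
is everything. -/
def MinkowskiStmt : Prop :=
  ∀ H : Subgroup GQ, IsOpen (H : Set GQ) →
    (∀ q : ℕ, q.Prime → ∀ A : ValuationSubring Qbar, A.LiesOverPrime q →
      A.inertiaSubgroupIn ℚ ≤ H) → H = ⊤

/-- **O**: point stabilisers are open. -/
def OpenStabStmt : Prop :=
  ∀ (P : FreyPackage) (x : Vp P), IsOpen {σ : GQ | σ • x = x}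

/-- The frozen statement S13, as a Prop. -/
def TargetStmt : Prop :=
  ∀ P : FreyPackage, ¬ GaloisRepIsIrreducible (K := AlgebraicClosure ℚ) ℚ P.freyCurve P.p →
    HasGaloisStableCofixedLine (K := AlgebraicClosure ℚ) ℚ P.freyCurve P.p

/-! ### Second-level interfaces (local analysis) -/

/-- `S` lies in the kernel of reduction with respect to `A`: `S = 0`, or the `x`-coordinate of `S`
(in the Frey model) is not in `A`. -/
def InE1 (P : FreyPackage) (A : ValuationSubring Qbar) (S : EPt P) : Prop :=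
  S = 0 ∨ ∃ (x y : Qbar) (h : ((P.freyCurve)⁄Qbar).Nonsingular x y),
    S = Point.some x y h ∧ x ∉ A

/-- **LOC(q)** (local filtration at `q`, x-only/slope provable): there is a set `E0 ⊇ E1`
("points with nonsingular reduction") such that `E1` is a subgroup, `E1 + E0 ⊆ E0`, multiples of
points of `E0` stay in `E0`, an inertia element moves a torsion point of `E0` by an element of
`E1`, and for a torsion point `x ∉ E0` either `σ x - x ∈ E0` or `2 x ∈ E0`. -/
def LocalStmtAt (q : ℕ) : Prop :=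
  ∀ (P : FreyPackage) (A : ValuationSubring Qbar), A.LiesOverPrime q →
    ∃ E0 : Set (EPt P),
      (∀ S, InE1 P A S → S ∈ E0) ∧
      (∀ S T, InE1 P A S → InE1 P A T → InE1 P A (S - T)) ∧
      (∀ R Q, InE1 P A R → Q ∈ E0 → R + Q ∈ E0) ∧
      (∀ Q, Q ∈ E0 → ∀ m : ℤ, m • Q ∈ E0) ∧
      (∀ σ ∈ A.inertiaSubgroupIn ℚ, ∀ x : Vp P, (x : EPt P) ∈ E0 →
        InE1 P A ((σ • x - x : Vp P) : EPt P)) ∧
      (∀ σ ∈ A.inertiaSubgroupIn ℚ, ∀ x : Vp P, (x : EPt P) ∉ E0 →
        ((σ • x - x : Vp P) : EPt P) ∈ E0 ∨ (2 : ℤ) • (x : EPt P) ∈ E0)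

/-- **LOC**: `LocalStmtAt q` for all primes `q`. -/
def LocalStmt : Prop := ∀ q : ℕ, q.Prime → LocalStmtAt q

/-- **KER**: for `q ≠ p` the kernel of reduction at `q` contains no nonzero `p`-torsion point. -/
def KerStmt : Prop :=
  ∀ (P : FreyPackage) (q : ℕ), q.Prime → q ≠ P.p →
    ∀ A : ValuationSubring Qbar, A.LiesOverPrime q →
    ∀ x : Vp P, InE1 P A (x : EPt P) → x = 0

/-- **DIV** (from the x-only ladder): an integral "`p`-division polynomial" of degree
`(p² - 1)/2` with leading coefficient `p`, whose roots are exactly the `x`-coordinates of the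
nonzero `p`-torsion points. -/
def DivPolyStmt : Prop :=
  ∀ P : FreyPackage, ∃ G : Polynomial ℤ,
    G.leadingCoeff = (P.p : ℤ) ∧ 2 * G.natDegree + 1 = P.p ^ 2 ∧
    ∀ (x y : Qbar) (h : ((P.freyCurve)⁄Qbar).Nonsingular x y),
      (P.p • (Point.some x y h : EPt P) = 0 ↔ Polynomial.aeval x G = 0)

/-- **NEWTON**: if a stable line lies in the kernel of reduction at `p`, the whole `p`-torsion
does not. -/
def NewtonStmt : Prop :=
  ∀ (P : FreyPackage) (A : ValuationSubring Qbar), A.LiesOverPrime P.p →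
    ∀ N : Submodule (ZMod P.p) (Vp P), IsGaloisStable ℚ N → N ≠ ⊥ → N ≠ ⊤ →
    (∀ x ∈ N, InE1 P A (x : EPt P)) → ¬ ∀ x : Vp P, InE1 P A (x : EPt P)

/-- **INDEP**: whether a stable submodule meets the kernel of reduction at `p` does not depend on
the place above `p`. -/
def IndepStmt : Prop :=
  ∀ (P : FreyPackage) (N : Submodule (ZMod P.p) (Vp P)), IsGaloisStable ℚ N → N ≠ ⊥ →
    ∀ A A' : ValuationSubring Qbar, A.LiesOverPrime P.p → A'.LiesOverPrime P.p →
    (∀ x ∈ N, InE1 P A (x : EPt P)) → ∃ x ∈ N, x ≠ 0 ∧ InE1 P A' (x : EPt P)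

variable {P : FreyPackage}

lemma smul_zmod_smul (σ : GQ) (c : ZMod P.p) (x : Vp P) : σ • (c • x) = c • (σ • x) :=
  ZMod.map_smul (DistribSMul.toAddMonoidHom (Vp P) σ) c x

/-- The subgroup of `G_ℚ` acting trivially on a submodule `N`. -/
def fixSub (N : Submodule (ZMod P.p) (Vp P)) : Subgroup GQ where
  carrier := {σ | ∀ x ∈ N, σ • x = x}
  mul_mem' := by
    intro σ τ hσ hτ x hx
    rw [mul_smul, hτ x hx, hσ x hx]
  one_mem' := by intro x _; exact one_smul _ x
  inv_mem' := by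
    intro σ hσ x hx
    have h := hσ x hx
    calc σ⁻¹ • x = σ⁻¹ • (σ • x) := by rw [h]
      _ = x := inv_smul_smul σ x

/-- The subgroup of `G_ℚ` acting trivially on the quotient by a stable submodule `N`. -/
def cofixSub (N : Submodule (ZMod P.p) (Vp P)) (hN : IsGaloisStable ℚ N) : Subgroup GQ where
  carrier := {σ | ∀ x : Vp P, σ • x - x ∈ N}
  mul_mem' := by
    intro σ τ hσ hτ x
    have h1 : (σ * τ) • x - x = σ • (τ • x - x) + (σ • x - x) := by
      rw [mul_smul, smul_sub]; abel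
    rw [h1]
    exact N.add_mem (hN σ _ (hτ x)) (hσ x)
  one_mem' := by intro x; simp
  inv_mem' := by
    intro σ hσ x
    have h1 : σ⁻¹ • x - x = -(σ⁻¹ • (σ • x - x)) := by
      rw [smul_sub, inv_smul_smul]; abel
    rw [h1]
    exact N.neg_mem (hN σ⁻¹ _ (hσ x))

/-- The kernel of the action on `V`. -/
def kerSub (P : FreyPackage) : Subgroup GQ where
  carrier := {σ | ∀ x : Vp P, σ • x = x}
  mul_mem' := by
    intro σ τ hσ hτ x
    rw [mul_smul, hτ x, hσ x]
  one_mem' := by intro x; exact one_smul _ x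
  inv_mem' := by
    intro σ hσ x
    calc σ⁻¹ • x = σ⁻¹ • (σ • x) := by rw [hσ x]
      _ = x := inv_smul_smul σ x

lemma kerSub_le_fixSub (N : Submodule (ZMod P.p) (Vp P)) : kerSub P ≤ fixSub N :=
  fun _ hσ x _ => hσ x

lemma kerSub_le_cofixSub (N : Submodule (ZMod P.p) (Vp P)) (hN : IsGaloisStable ℚ N) :
    kerSub P ≤ cofixSub N hN := by
  intro σ hσ x
  change σ • x - x ∈ N
  rw [hσ x, sub_self]
  exact N.zero_mem

lemma isOpen_kerSub [Finite (Vp P)] (h : ∀ x : Vp P, IsOpen {σ : GQ | σ • x = x}) :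
    IsOpen (kerSub P : Set GQ) := by
  have : (kerSub P : Set GQ) = ⋂ x : Vp P, {σ : GQ | σ • x = x} := by
    ext σ
    simp only [Set.mem_iInter, Set.mem_ofPred_eq]
    rfl
  rw [this]
  exact isOpen_iInter_of_finite h

section LinearAlgebra

variable [Fact P.p.Prime]

lemma finrank_le_two [Finite (Vp P)] (hcard : Nat.card (Vp P) ≤ P.p ^ 2) :
    Module.finrank (ZMod P.p) (Vp P) ≤ 2 := by
  have h := Module.natCard_eq_pow_finrank (K := ZMod P.p) (V := Vp P)
  rw [h, Nat.card_zmod] at hcard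
  exact (Nat.pow_le_pow_iff_right (Fact.out : P.p.Prime).one_lt).mp hcard

lemma finrank_eq_two_of_line [Finite (Vp P)] (hcard : Nat.card (Vp P) ≤ P.p ^ 2)
    (N : Submodule (ZMod P.p) (Vp P)) (h0 : N ≠ ⊥) (h1 : N ≠ ⊤) :
    Module.finrank (ZMod P.p) (Vp P) = 2 := by
  have hle := finrank_le_two hcard
  have hlt : Module.finrank (ZMod P.p) N < Module.finrank (ZMod P.p) (Vp P) :=
    Submodule.finrank_lt h1
  have hpos : 0 < Module.finrank (ZMod P.p) N := by
    rw [Nat.pos_iff_ne_zero]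
    intro h
    exact h0 (Submodule.finrank_eq_zero.mp h)
  omega

lemma finrank_sub_eq_one (hV : Module.finrank (ZMod P.p) (Vp P) = 2)
    (N : Submodule (ZMod P.p) (Vp P)) (h0 : N ≠ ⊥) (h1 : N ≠ ⊤) :
    Module.finrank (ZMod P.p) N = 1 := by
  have : Module.Finite (ZMod P.p) (Vp P) := Module.finite_of_finrank_pos (by omega)
  have hlt : Module.finrank (ZMod P.p) N < 2 := hV ▸ Submodule.finrank_lt h1
  have hpos : 0 < Module.finrank (ZMod P.p) N := by
    rw [Nat.pos_iff_ne_zero]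
    intro h
    exact h0 (Submodule.finrank_eq_zero.mp h)
  omega

lemma exists_smul_eq_of_line (hV : Module.finrank (ZMod P.p) (Vp P) = 2)
    (N : Submodule (ZMod P.p) (Vp P)) (h0 : N ≠ ⊥) (h1 : N ≠ ⊤)
    {n : Vp P} (hn : n ∈ N) (hn0 : n ≠ 0) {w : Vp P} (hw : w ∈ N) :
    ∃ c : ZMod P.p, c • n = w := by
  have h := finrank_sub_eq_one hV N h0 h1
  have hn0' : (⟨n, hn⟩ : N) ≠ 0 := fun h => hn0 (congrArg Subtype.val h)
  obtain ⟨c, hc⟩ := (finrank_eq_one_iff_of_nonzero' (⟨n, hn⟩ : N) hn0').mp h ⟨w, hw⟩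
  exact ⟨c, congrArg Subtype.val hc⟩

lemma exists_decomp_of_notMem (hV : Module.finrank (ZMod P.p) (Vp P) = 2)
    (N : Submodule (ZMod P.p) (Vp P)) (h0 : N ≠ ⊥)
    {y : Vp P} (hy : y ∉ N) (v : Vp P) :
    ∃ n ∈ N, ∃ d : ZMod P.p, v = n + d • y := by
  have : Module.Finite (ZMod P.p) (Vp P) := Module.finite_of_finrank_pos (by omega)
  have hlt : N < N ⊔ Submodule.span (ZMod P.p) {y} := by
    refine lt_of_le_of_ne le_sup_left ?_
    intro h
    apply hy
    rw [h]
    exact Submodule.mem_sup_right (Submodule.mem_span_singleton_self y)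
  have hpos : 0 < Module.finrank (ZMod P.p) N := by
    rw [Nat.pos_iff_ne_zero]
    intro h
    exact h0 (Submodule.finrank_eq_zero.mp h)
  have h2 : Module.finrank (ZMod P.p) N <
      Module.finrank (ZMod P.p) ↥(N ⊔ Submodule.span (ZMod P.p) {y}) :=
    Submodule.finrank_lt_finrank_of_lt hlt
  have hle : Module.finrank (ZMod P.p) ↥(N ⊔ Submodule.span (ZMod P.p) {y}) ≤ 2 :=
    hV ▸ Submodule.finrank_le _
  have htop : N ⊔ Submodule.span (ZMod P.p) {y} = ⊤ :=
    Submodule.eq_top_of_finrank_eq (by omega)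
  have hv : v ∈ N ⊔ Submodule.span (ZMod P.p) {y} := htop ▸ Submodule.mem_top
  obtain ⟨n, hn, z, hz, rfl⟩ := Submodule.mem_sup.mp hv
  obtain ⟨d, rfl⟩ := Submodule.mem_span_singleton.mp hz
  exact ⟨n, hn, d, rfl⟩

/-- A unipotent element fixes a stable line pointwise. -/
lemma unipotent_fix_line (hV : Module.finrank (ZMod P.p) (Vp P) = 2)
    (N : Submodule (ZMod P.p) (Vp P)) (hN : IsGaloisStable ℚ N) (h0 : N ≠ ⊥) (h1 : N ≠ ⊤)
    (σ : GQ) (hσ : ∀ x : Vp P, σ • (σ • x - x) = σ • x - x) :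
    ∀ x ∈ N, σ • x = x := by
  intro n hn
  by_cases hn0 : n = 0
  · rw [hn0, smul_zero]
  obtain ⟨c, hc⟩ := exists_smul_eq_of_line hV N h0 h1 hn hn0 (hN σ n hn)
  have h := hσ n
  rw [← hc] at h
  have h' : σ • (c • n - n) = c • (c • n) - c • n := by
    rw [smul_sub, smul_zmod_smul, ← hc]
  rw [h'] at h
  have h3 : ((c - 1) * (c - 1)) • n = 0 := by
    have : ((c - 1) * (c - 1)) • n = c • (c • n) - c • n - (c • n - n) := by
      rw [mul_smul, sub_smul, sub_smul, one_smul, smul_sub, one_smul]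
    rw [this, h, sub_self]
  rcases smul_eq_zero.mp h3 with h4 | h4
  · have h5 : c - 1 = 0 := by
      rcases mul_eq_zero.mp h4 with h5 | h5 <;> exact h5
    have h6 : c = 1 := sub_eq_zero.mp h5
    rw [← hc, h6, one_smul]
  · exact absurd h4 hn0

/-- A unipotent element acts trivially modulo a stable line. -/
lemma unipotent_cofix_line (hV : Module.finrank (ZMod P.p) (Vp P) = 2)
    (N : Submodule (ZMod P.p) (Vp P)) (hN : IsGaloisStable ℚ N) (h0 : N ≠ ⊥) (h1 : N ≠ ⊤)
    (σ : GQ) (hσ : ∀ x : Vp P, σ • (σ • x - x) = σ • x - x) :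
    ∀ x : Vp P, σ • x - x ∈ N := by
  intro x
  by_contra hy
  have hfix := unipotent_fix_line hV N hN h0 h1 σ hσ
  have hall : ∀ v : Vp P, σ • v = v := by
    intro v
    obtain ⟨n, hn, d, rfl⟩ := exists_decomp_of_notMem hV N h0 hy v
    rw [smul_add, smul_zmod_smul, hfix n hn, hσ x]
  apply hy
  rw [hall x, sub_self]
  exact N.zero_mem

end LinearAlgebra

/-- `S05` and unipotency at `2` give unipotency at all `q ≠ p`. -/
theorem unip_of_s05_unipTwo (h05 : S05Stmt) (hU : UnipTwoStmt) : UnipStmt := by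
  intro P q hq hqp A hA σ hσ x
  by_cases hq2 : q = 2
  · subst hq2
    exact hU P A hA σ hσ x
  · have hk : ∀ y : Vp P, σ • y = y := fun y => h05 P q hq hq2 hqp A hA σ hσ y
    rw [hk x, sub_self, smul_zero]

/-- **S13 from the ingredients.** -/
theorem result_of_ingredients (hT : TorsionStmt) (hU : UnipStmt)
    (hF : NoFixedStmt) (hAP : AtPStmt) (hM : MinkowskiStmt) (hO : OpenStabStmt) :
    TargetStmt := by
  intro P hred
  have : Fact P.p.Prime := ⟨P.pp⟩
  obtain ⟨hfin, hnt, hcard⟩ := hT P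
  -- a stable line
  obtain ⟨N, hN, h0, h1⟩ : ∃ N : Submodule (ZMod P.p) (Vp P),
      IsGaloisStable ℚ N ∧ N ≠ ⊥ ∧ N ≠ ⊤ := by
    by_contra hcon
    apply hred
    refine ⟨hnt, fun N hN => ?_⟩
    by_contra h
    push Not at h
    exact hcon ⟨N, hN, h.1, h.2⟩
  have hV : Module.finrank (ZMod P.p) (Vp P) = 2 := finrank_eq_two_of_line hcard N h0 h1
  have hker : IsOpen (kerSub P : Set GQ) := isOpen_kerSub (hO P)
  have hopen1 : IsOpen (fixSub N : Set GQ) := Subgroup.isOpen_mono (kerSub_le_fixSub N) hker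
  have hopen2 : IsOpen (cofixSub N hN : Set GQ) :=
    Subgroup.isOpen_mono (kerSub_le_cofixSub N hN) hker
  -- inertia away from `p` lies in both subgroups
  have haway : ∀ q : ℕ, q.Prime → q ≠ P.p →
      ∀ A : ValuationSubring Qbar, A.LiesOverPrime q →
      ∀ σ ∈ A.inertiaSubgroupIn ℚ, σ ∈ fixSub N ∧ σ ∈ cofixSub N hN := by
    intro q hq hqp A hA σ hσ
    have hu := hU P q hq hqp A hA σ hσ
    exact ⟨unipotent_fix_line hV N hN h0 h1 σ hu, unipotent_cofix_line hV N hN h0 h1 σ hu⟩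
  rcases hAP P N hN h0 h1 with hp | hp
  · -- inertia everywhere fixes the line: contradiction with `NoFixedStmt`
    exfalso
    have htop : fixSub N = ⊤ := by
      refine hM _ hopen1 fun q hq A hA σ hσ => ?_
      by_cases hqp : q = P.p
      · subst hqp
        exact hp A hA σ hσ
      · exact (haway q hq hqp A hA σ hσ).1
    obtain ⟨n, hn, hn0⟩ := (Submodule.ne_bot_iff N).mp h0
    refine hn0 (hF P n fun σ => ?_)
    have hσ : σ ∈ fixSub N := htop ▸ Subgroup.mem_top σ
    exact hσ n hn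
  · -- inertia everywhere is trivial on the quotient: `N` is cofixed
    have htop : cofixSub N hN = ⊤ := by
      refine hM _ hopen2 fun q hq A hA σ hσ => ?_
      by_cases hqp : q = P.p
      · subst hqp
        exact hp A hA σ hσ
      · exact (haway q hq hqp A hA σ hσ).2
    refine ⟨N, hN, h0, h1, fun σ x => ?_⟩
    have hσ : σ ∈ cofixSub N hN := htop ▸ Subgroup.mem_top σ
    exact hσ x

end

end Fermat.Agent.S13.helper432
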