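import Mathlib
import Fermat.Agent.S13.helper432_Spec

/-!
# S13 assembly (helper432): local interfaces ⇒ `UnipStmt`, `AtPStmt`
-/

set_option autoImplicit false
open WeierstrassCurve WeierstrassCurve.Affine WeierstrassCurve.Affine.Point

namespace Fermat.Agent.S13.helper432

noncomputable section

variable {P : FreyPackage}

/-- The kernel of reduction as an additive subgroup, given closure under subtraction. -/
def e1Sub (P : FreyPackage) (A : ValuationSubring Qbar)
    (h : ∀ S T, InE1 P A S → InE1 P A T → InE1 P A (S - T)) : AddSubgroup (EPt P) where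
  carrier := {S | InE1 P A S}
  zero_mem' := Or.inl rfl
  add_mem' := by
    intro S T hS hT
    have h0 : InE1 P A (0 : EPt P) := Or.inl rfl
    have hT' : InE1 P A (0 - T) := h 0 T h0 hT
    have := h S (0 - T) hS hT'
    simpa using this
  neg_mem' := by
    intro S hS
    have h0 : InE1 P A (0 : EPt P) := Or.inl rfl
    have := h 0 S h0 hS
    simpa using this

lemma mem_e1Sub (A : ValuationSubring Qbar)
    (h : ∀ S T, InE1 P A S → InE1 P A T → InE1 P A (S - T)) (S : EPt P) :
    S ∈ e1Sub P A h ↔ InE1 P A S := Iff.rfl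

lemma coe_zmod_smul (c : ZMod P.p) (v : Vp P) :
    ((c • v : Vp P) : EPt P) = (c.val : ℤ) • (v : EPt P) := by
  have hp : NeZero P.p := ⟨P.hp0⟩
  have h1 : c • v = (c.val : ℕ) • v := by
    conv_lhs => rw [← ZMod.natCast_zmod_val c]
    exact Nat.cast_smul_eq_nsmul (ZMod P.p) c.val v
  rw [h1, natCast_zsmul]
  exact AddSubmonoidClass.coe_nsmul v c.val

lemma torsion_smul (x : Vp P) : (P.p : ℤ) • (x : EPt P) = 0 := by
  have := x.2
  rw [Submodule.mem_torsionBy_iff] at this
  exact this

/-- A `p`-torsion point is a multiple of its double. -/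
lemma eq_smul_two_smul (x : Vp P) :
    (x : EPt P) = (((P.p : ℤ) + 1) / 2) • ((2 : ℤ) • (x : EPt P)) := by
  obtain ⟨k, hk⟩ := P.hp_odd
  have h1 : ((P.p : ℤ) + 1) / 2 * 2 = (P.p : ℤ) + 1 := by
    rw [hk]; push_cast; omega
  rw [smul_smul, h1, add_zsmul, torsion_smul, zero_add, one_zsmul]

/-- **Unipotency of inertia at `q ≠ p`** from the local filtration and the triviality of
`p`-torsion in the kernel of reduction. -/
theorem unip_of_local (hL : LocalStmt) (hK : KerStmt) : UnipStmt := by
  intro P q hq hqp A hA σ hσ x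
  obtain ⟨E0, -, -, -, h4, h5, h6⟩ := hL q hq P A hA
  have key : ∀ y : Vp P, (y : EPt P) ∈ E0 → σ • y = y := by
    intro y hy
    have h := hK P q hq hqp A hA (σ • y - y) (h5 σ hσ y hy)
    exact sub_eq_zero.mp h
  by_cases hx : (x : EPt P) ∈ E0
  · rw [key x hx, sub_self, smul_zero]
  · rcases h6 σ hσ x hx with h | h
    · exact key (σ • x - x) h
    · exfalso
      apply hx
      rw [eq_smul_two_smul x]
      exact h4 _ h _

section AtP

variable [Fact P.p.Prime]

/-- **`AtPStmt`** from the torsion structure, the local filtration at `p`, the Newton bound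
and independence of the place. -/
theorem atP_of_local (hT : TorsionStmt) (hL : ∀ P : FreyPackage, LocalStmtAt P.p)
    (hNewton : NewtonStmt) (hInd : IndepStmt) : AtPStmt := by
  intro P N hN h0 h1
  have : Fact P.p.Prime := ⟨P.pp⟩
  obtain ⟨hfin, hnt, hcard⟩ := hT P
  have hV : Module.finrank (ZMod P.p) (Vp P) = 2 := finrank_eq_two_of_line hcard N h0 h1
  by_cases hI : ∃ A : ValuationSubring Qbar, A.LiesOverPrime P.p ∧ ∀ x ∈ N, InE1 P A (x : EPt P)
  · right
    intro A hA σ hσ x
    obtain ⟨A₀, hA₀, hN₀⟩ := hI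
    obtain ⟨E0, e1, e2, e3, e4, e5, e6⟩ := hL P P A hA
    -- all of `N` lies in `E1(A)`
    have hNA : ∀ y ∈ N, InE1 P A (y : EPt P) := by
      obtain ⟨y₀, hy₀N, hy₀0, hy₀E⟩ := hInd P N hN h0 A₀ A hA₀ hA hN₀
      intro y hy
      obtain ⟨c, rfl⟩ := exists_smul_eq_of_line hV N h0 h1 hy₀N hy₀0 hy
      rw [coe_zmod_smul]
      exact (e1Sub P A e2).zsmul_mem hy₀E _
    -- `E1(A) ∩ V = N`
    have hLN : ∀ y : Vp P, InE1 P A (y : EPt P) → y ∈ N := by
      intro y hy
      by_contra hyN
      apply hNewton P A hA N hN h0 h1 hNA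
      intro v
      obtain ⟨n, hn, d, rfl⟩ := exists_decomp_of_notMem hV N h0 hyN v
      have h1' : InE1 P A ((d • y : Vp P) : EPt P) := by
        rw [coe_zmod_smul]
        exact (e1Sub P A e2).zsmul_mem hy _
      exact (e1Sub P A e2).add_mem (hNA n hn) h1'
    by_cases hx : (x : EPt P) ∈ E0
    · exact hLN _ (e5 σ hσ x hx)
    · by_contra hgoal
      -- a point `y ∈ E0 ∩ V`, `y ∉ N` forces `V ⊆ E0`
      have hcontra : ∀ y : Vp P, (y : EPt P) ∈ E0 → y ∉ N → False := by
        intro y hyE hyN
        apply hx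
        obtain ⟨n, hn, d, hxd⟩ := exists_decomp_of_notMem hV N h0 hyN x
        rw [hxd]
        have h2' : ((d • y : Vp P) : EPt P) ∈ E0 := by
          rw [coe_zmod_smul]
          exact e4 _ hyE _
        exact e3 _ _ (hNA n hn) h2'
      rcases e6 σ hσ x hx with h | h
      · exact hcontra (σ • x - x) h hgoal
      · -- `2 x ∈ E0`
        have h2x : (((2 : ℤ) • x : Vp P) : EPt P) ∈ E0 := by simpa using h
        refine hcontra ((2 : ℤ) • x) h2x ?_
        intro h2N
        apply hx
        rw [eq_smul_two_smul x]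
        exact e4 _ h _
  · left
    push Not at hI
    intro A hA σ hσ x hxN
    obtain ⟨E0, e1, e2, e3, e4, e5, e6⟩ := hL P P A hA
    -- `N ∩ E1(A) = 0`
    have hNE : ∀ y ∈ N, InE1 P A (y : EPt P) → y = 0 := by
      intro y hy hyE
      by_contra hy0
      obtain ⟨z, hzN, hzE⟩ := hI A hA
      apply hzE
      obtain ⟨c, rfl⟩ := exists_smul_eq_of_line hV N h0 h1 hy hy0 hzN
      rw [coe_zmod_smul]
      exact (e1Sub P A e2).zsmul_mem hyE _
    by_cases hx : (x : EPt P) ∈ E0
    · have h := hNE (σ • x - x) (N.sub_mem (hN σ x hxN) hxN) (e5 σ hσ x hx)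
      exact sub_eq_zero.mp h
    · rcases e6 σ hσ x hx with h | h
      · by_cases hy0 : σ • x - x = 0
        · exact sub_eq_zero.mp hy0
        · exfalso
          apply hx
          obtain ⟨c, hc⟩ := exists_smul_eq_of_line hV N h0 h1
            (N.sub_mem (hN σ x hxN) hxN) hy0 hxN
          rw [← hc, coe_zmod_smul]
          exact e4 _ h _
      · exfalso
        apply hx
        rw [eq_smul_two_smul x]
        exact e4 _ h _

end AtP

/-- **S13 from the second-level interfaces.** -/
theorem result_of_local (hT : TorsionStmt) (hL : LocalStmt) (hK : KerStmt)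
    (hNewton : NewtonStmt) (hInd : IndepStmt)
    (hF : NoFixedStmt) (hM : MinkowskiStmt) (hO : OpenStabStmt) : TargetStmt :=
  result_of_ingredients hT (unip_of_local hL hK) hF
    (atP_of_local hT (fun P => hL P.p P.pp) hNewton hInd) hM hO

end

end Fermat.Agent.S13.helper432
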