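import Mathlib

/-!
# S13 x-only toolkit spec (helper432)

Interfaces for the "Kummer line" valuation lemmas used by the local analysis of S13.

`KShape W e B₂ β` says that in the coordinate `X = x - e` the `b`-invariants of `W` are
`(B₂, 2β, 0, -β²)`, i.e. `(e, ·)` is a 2-torsion point moved to the origin.  Then the x-only
identities of `Fermat/Agent/S05/helper1745_XOnly.lean` read
* `(Π)`  `X₊ X₋ (X₁ - X₂)² = (X₁ X₂ - β)²`
* `(Σ)`  `(X₊ + X₋) (X₁ - X₂)² = 2 (X₁ + X₂) (X₁ X₂ + β) + B₂ X₁ X₂`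
* `(Dbl)` `X(2P) · X (4 X² + B₂ X + 4 β) = (X² - β)²`.

Two instances: shape coordinates of helper305 (`B₂ = 4 al`, `β = be`) at odd primes, and the
Frey model itself at `2` (`e = 0`, `B₂ = b₂ = 1 + 4 a₂`, `β = a₄`).

`v` is an arbitrary valuation (`v x ≤ 1` iff integral).  `XE1` = kernel of reduction
(`1 < v X`), `XE0` = `XE1` together with the points with `v X = 1`.
-/

set_option autoImplicit false

namespace Fermat.Agent.S13.helper432

open WeierstrassCurve WeierstrassCurve.Affine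

/-- In `X = x - e` the curve has `b`-invariants `(B₂, 2β, 0, -β²)`. -/
structure KShape {K : Type*} [Field K] (W : WeierstrassCurve K) (e B₂ β : K) : Prop where
  hb2 : W.b₂ = B₂ - 12 * e
  hb4 : W.b₄ = 2 * β - B₂ * e + 6 * e ^ 2
  hb6 : W.b₆ = -4 * e ^ 3 + B₂ * e ^ 2 - 4 * β * e
  hb8 : W.b₈ = -β ^ 2 + 6 * β * e ^ 2 - B₂ * e ^ 3 + 3 * e ^ 4

section defs

variable {K : Type*} [Field K] {Γ₀ : Type*} [LinearOrderedCommGroupWithZero Γ₀]

/-- Kernel of reduction in the coordinate `X = x - e`. -/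
def XE1 (v : Valuation K Γ₀) (W : WeierstrassCurve K) (e : K) (S : W.toAffine.Point) : Prop :=
  S = 0 ∨ ∃ (x y : K) (h : W.toAffine.Nonsingular x y), S = Point.some x y h ∧ 1 < v (x - e)

/-- Points whose `X = x - e` is not in the maximal ideal (together with `0`). -/
def XE0 (v : Valuation K Γ₀) (W : WeierstrassCurve K) (e : K) (S : W.toAffine.Point) : Prop :=
  S = 0 ∨ ∃ (x y : K) (h : W.toAffine.Nonsingular x y), S = Point.some x y h ∧ 1 ≤ v (x - e)

end defs

/-- **X1**: the kernel of reduction is closed under subtraction. -/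
def XE1SubStmt : Prop :=
  ∀ (K : Type) [Field K] [DecidableEq K] (Γ₀ : Type) [LinearOrderedCommGroupWithZero Γ₀]
    (v : Valuation K Γ₀) (W : WeierstrassCurve K) (e B₂ β : K),
    KShape W e B₂ β → v B₂ ≤ 1 → v β ≤ 1 →
    ∀ S T : W.toAffine.Point, XE1 v W e S → XE1 v W e T → XE1 v W e (S - T)

/-- **X2**: `E1 + E0 ⊆ E0`. -/
def XE1AddE0Stmt : Prop :=
  ∀ (K : Type) [Field K] [DecidableEq K] (Γ₀ : Type) [LinearOrderedCommGroupWithZero Γ₀]
    (v : Valuation K Γ₀) (W : WeierstrassCurve K) (e B₂ β : K),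
    KShape W e B₂ β → v B₂ ≤ 1 → v β ≤ 1 →
    ∀ R Q : W.toAffine.Point, XE1 v W e R → XE0 v W e Q → XE0 v W e (R + Q)

/-- **X3**: if `β` is in the maximal ideal, multiples of points of `E0` stay in `E0`. -/
def XE0MulStmt : Prop :=
  ∀ (K : Type) [Field K] [DecidableEq K] (Γ₀ : Type) [LinearOrderedCommGroupWithZero Γ₀]
    (v : Valuation K Γ₀) (W : WeierstrassCurve K) (e B₂ β : K),
    KShape W e B₂ β → v B₂ ≤ 1 → v β < 1 →
    ∀ Q : W.toAffine.Point, XE0 v W e Q → ∀ m : ℤ, XE0 v W e (m • Q)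

/-- **X4** (A-step): if `β` is in the maximal ideal and `v X ≤ v β`, then `2 S ∈ E0`. -/
def XAStepStmt : Prop :=
  ∀ (K : Type) [Field K] [DecidableEq K] (Γ₀ : Type) [LinearOrderedCommGroupWithZero Γ₀]
    (v : Valuation K Γ₀) (W : WeierstrassCurve K) (e B₂ β : K),
    KShape W e B₂ β → v B₂ ≤ 1 → v β < 1 →
    ∀ (x y : K) (h : W.toAffine.Nonsingular x y), v (x - e) ≤ v β →
      XE0 v W e ((2 : ℤ) • (Point.some x y h : W.toAffine.Point))

/-- **X5** (KER): the kernel of reduction has no point of prime order `p ≥ 5` when `p` is a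
unit. -/
def XKerStmt : Prop :=
  ∀ (K : Type) [Field K] [DecidableEq K] (Γ₀ : Type) [LinearOrderedCommGroupWithZero Γ₀]
    (v : Valuation K Γ₀) (W : WeierstrassCurve K) (e B₂ β : K),
    KShape W e B₂ β → v B₂ ≤ 1 → v β ≤ 1 →
    ∀ (p : ℕ), p.Prime → 5 ≤ p → v (p : K) = 1 →
    ∀ S : W.toAffine.Point, p • S = 0 → XE1 v W e S → S = 0

end Fermat.Agent.S13.helper432
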