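import Mathlib
import Fermat.Agent.S05.helper1745_XOnly

/-!
# No odd-order rational torsion near a 2-adic node (helper5615, S13 ingredient I4)

Everything here lives over `ℚ` with the `ℤ`-valued `2`-adic valuation `padicValRat 2`.

* `IsVal x n` : `x ≠ 0` and `v₂(x) = n`;  `ValGe x n` : `x = 0` or `n ≤ v₂(x)`.
* a small valuation calculus, including the residue-field-`𝔽₂` fact
  (`IsVal x m → IsVal y m → ValGe (x + y) (m + 1)`).
-/

set_option autoImplicit false

namespace Fermat.Agent.S13.helper5615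

/-- `x` is a nonzero rational number of `2`-adic valuation `n`. -/
def IsVal (x : ℚ) (n : ℤ) : Prop := x ≠ 0 ∧ padicValRat 2 x = n

/-- `x = 0` or the `2`-adic valuation of `x` is at least `n`. -/
def ValGe (x : ℚ) (n : ℤ) : Prop := x = 0 ∨ n ≤ padicValRat 2 x

theorem IsVal.ne_zero {x : ℚ} {n : ℤ} (h : IsVal x n) : x ≠ 0 := h.1

theorem IsVal.unique {x : ℚ} {m n : ℤ} (h : IsVal x m) (h' : IsVal x n) : m = n := by
  rw [← h.2, ← h'.2]

theorem exists_isVal {x : ℚ} (hx : x ≠ 0) : ∃ n, IsVal x n := ⟨_, hx, rfl⟩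

theorem IsVal.mul {x y : ℚ} {m n : ℤ} (hx : IsVal x m) (hy : IsVal y n) : IsVal (x * y) (m + n) :=
  ⟨mul_ne_zero hx.1 hy.1, by rw [padicValRat.mul hx.1 hy.1, hx.2, hy.2]⟩

theorem IsVal.pow {x : ℚ} {m : ℤ} (hx : IsVal x m) (k : ℕ) : IsVal (x ^ k) (k * m) :=
  ⟨pow_ne_zero k hx.1, by rw [padicValRat.pow, hx.2]⟩

theorem IsVal.sq {x : ℚ} {m : ℤ} (hx : IsVal x m) : IsVal (x ^ 2) (2 * m) := by
  simpa using hx.pow 2

theorem IsVal.neg {x : ℚ} {m : ℤ} (hx : IsVal x m) : IsVal (-x) m :=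
  ⟨neg_ne_zero.mpr hx.1, by rw [padicValRat.neg, hx.2]⟩

theorem IsVal.valGe {x : ℚ} {m n : ℤ} (hx : IsVal x m) (h : n ≤ m) : ValGe x n :=
  Or.inr (hx.2 ▸ h)

theorem ValGe.mono {x : ℚ} {m n : ℤ} (hx : ValGe x m) (h : n ≤ m) : ValGe x n :=
  hx.imp id fun h' => h.trans h'

theorem valGe_zero (n : ℤ) : ValGe 0 n := Or.inl rfl

theorem ValGe.neg {x : ℚ} {n : ℤ} (hx : ValGe x n) : ValGe (-x) n := by
  rcases hx with rfl | h
  · simpa using valGe_zero n
  · exact Or.inr (by rwa [padicValRat.neg])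

theorem ValGe.add {x y : ℚ} {n : ℤ} (hx : ValGe x n) (hy : ValGe y n) : ValGe (x + y) n := by
  rcases hx with rfl | hx
  · simpa using hy
  rcases hy with rfl | hy
  · rw [add_zero]; exact Or.inr hx
  by_cases h0 : x + y = 0
  · exact Or.inl h0
  · exact Or.inr ((le_min hx hy).trans (padicValRat.min_le_padicValRat_add h0))

theorem ValGe.sub {x y : ℚ} {n : ℤ} (hx : ValGe x n) (hy : ValGe y n) : ValGe (x - y) n := by
  rw [sub_eq_add_neg]; exact hx.add hy.neg

theorem ValGe.mul {x y : ℚ} {m n : ℤ} (hx : ValGe x m) (hy : ValGe y n) :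
    ValGe (x * y) (m + n) := by
  rcases hx with rfl | hx
  · simpa using valGe_zero (m + n)
  rcases hy with rfl | hy
  · simpa using valGe_zero (m + n)
  by_cases hx0 : x = 0
  · subst hx0; simpa using valGe_zero (m + n)
  by_cases hy0 : y = 0
  · subst hy0; simpa using valGe_zero (m + n)
  · exact Or.inr (by rw [padicValRat.mul hx0 hy0]; omega)

/-- A summand of strictly larger valuation does not change the valuation. -/
theorem IsVal.add_valGe {x y : ℚ} {m : ℤ} (hx : IsVal x m) (hy : ValGe y (m + 1)) :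
    IsVal (x + y) m := by
  rcases hy with rfl | hy
  · simpa using hx
  by_cases hy0 : y = 0
  · subst hy0; simpa using hx
  have hlt : padicValRat 2 x < padicValRat 2 y := by rw [hx.2]; omega
  have hxy : x + y ≠ 0 := by
    intro h0
    have : y = -x := by linarith
    rw [this, padicValRat.neg] at hlt
    exact lt_irrefl _ hlt
  exact ⟨hxy, by rw [padicValRat.add_eq_of_lt hxy hx.1 hy0 hlt, hx.2]⟩

theorem IsVal.sub_valGe {x y : ℚ} {m : ℤ} (hx : IsVal x m) (hy : ValGe y (m + 1)) :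
    IsVal (x - y) m := by
  rw [sub_eq_add_neg]; exact hx.add_valGe hy.neg

theorem IsVal.valGe_add {x y : ℚ} {m : ℤ} (hx : IsVal x m) (hy : ValGe y (m + 1)) :
    IsVal (y + x) m := by
  rw [add_comm]; exact hx.add_valGe hy

theorem IsVal.valGe_sub {x y : ℚ} {m : ℤ} (hx : IsVal x m) (hy : ValGe y (m + 1)) :
    IsVal (y - x) m := by
  have := (hx.sub_valGe hy).neg
  rwa [neg_sub] at this

theorem ValGe.isVal {x : ℚ} {n : ℤ} (hx : ValGe x n) (h0 : x ≠ 0) : ∃ m, n ≤ m ∧ IsVal x m := by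
  rcases hx with rfl | hx
  · exact absurd rfl h0
  · exact ⟨_, hx, h0, rfl⟩

theorem IsVal.le_of_valGe {x : ℚ} {m n : ℤ} (hx : IsVal x m) (h : ValGe x n) : n ≤ m := by
  rcases h with rfl | h
  · exact absurd rfl hx.1
  · rw [← hx.2]; exact h

theorem isVal_of_mul_eq {x y z : ℚ} {m k : ℤ} (h : x * y = z) (hx : IsVal x m) (hz : IsVal z k) :
    IsVal y (k - m) := by
  have hy0 : y ≠ 0 := by
    rintro rfl
    rw [mul_zero] at h
    exact hz.1 h.symm
  refine ⟨hy0, ?_⟩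
  have := hz.2
  rw [← h, padicValRat.mul hx.1 hy0, hx.2] at this
  omega

theorem valGe_of_mul_eq {x y z : ℚ} {m k : ℤ} (h : x * y = z) (hx : IsVal x m) (hz : ValGe z k) :
    ValGe y (k - m) := by
  by_cases hy0 : y = 0
  · exact Or.inl hy0
  rcases hz with rfl | hz
  · rcases mul_eq_zero.mp h with h | h
    · exact absurd h hx.1
    · exact absurd h hy0
  · refine Or.inr ?_
    rw [← h, padicValRat.mul hx.1 hy0, hx.2] at hz
    omega

theorem IsVal.congr {x : ℚ} {m n : ℤ} (hx : IsVal x m) (h : m = n) : IsVal x n := h ▸ hx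

theorem IsVal.of_eq {x y : ℚ} {m : ℤ} (hx : IsVal x m) (h : x = y) : IsVal y m := h ▸ hx

theorem ValGe.of_eq {x y : ℚ} {m : ℤ} (hx : ValGe x m) (h : x = y) : ValGe y m := h ▸ hx

/-! ### Numerals -/

theorem isVal_two : IsVal 2 1 := by
  refine ⟨by norm_num, ?_⟩
  have := padicValRat.self (p := 2) (by norm_num)
  simpa using this

theorem isVal_four : IsVal 4 2 := by
  have := isVal_two.mul isVal_two
  norm_num at this
  exact this

theorem valGe_intCast (n : ℤ) : ValGe (n : ℚ) 0 := by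
  refine Or.inr ?_
  rw [padicValRat.of_int]
  exact Int.natCast_nonneg _

theorem isVal_intCast_odd {n : ℤ} (hn : ¬ (2 : ℤ) ∣ n) : IsVal (n : ℚ) 0 := by
  have hn0 : n ≠ 0 := by
    rintro rfl
    exact hn (dvd_zero _)
  refine ⟨by exact_mod_cast hn0, ?_⟩
  rw [padicValRat.of_int, padicValInt.eq_zero_of_not_dvd (by exact_mod_cast hn)]
  rfl

/-! ### The residue field is `𝔽₂` -/

theorem odd_num_den_of_isVal_zero {u : ℚ} (hu : IsVal u 0) :
    ¬ (2 : ℤ) ∣ u.num ∧ ¬ 2 ∣ u.den := by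
  have h := hu.2
  rw [padicValRat_def] at h
  have hnum0 : u.num ≠ 0 := Rat.num_ne_zero.mpr hu.1
  have hcop : Nat.Coprime u.num.natAbs u.den := u.reduced
  have key : ¬ (2 ∣ u.num.natAbs ∧ 2 ∣ u.den) := fun ⟨h1, h2⟩ =>
    Nat.not_coprime_of_dvd_of_dvd (by norm_num) h1 h2 hcop
  have hnum : (2 : ℤ) ∣ u.num ↔ 2 ∣ u.num.natAbs := by
    rw [← Int.natCast_dvd_natCast, Int.natCast_natAbs, dvd_abs]; rfl
  constructor
  · intro h2
    have h2' : 2 ∣ u.num.natAbs := hnum.mp h2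
    have h1 : 1 ≤ padicValNat 2 u.num.natAbs :=
      one_le_padicValNat_of_dvd (Int.natAbs_ne_zero.mpr hnum0) h2'
    have h3 : 1 ≤ padicValNat 2 u.den := by
      have : (padicValInt 2 u.num : ℤ) = padicValNat 2 u.num.natAbs := rfl
      omega
    exact key ⟨h2', dvd_of_one_le_padicValNat h3⟩
  · intro h2
    have h1 : 1 ≤ padicValNat 2 u.den := one_le_padicValNat_of_dvd u.den_ne_zero h2
    have h3 : 1 ≤ padicValNat 2 u.num.natAbs := by
      have : (padicValInt 2 u.num : ℤ) = padicValNat 2 u.num.natAbs := rfl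
      omega
    exact key ⟨dvd_of_one_le_padicValNat h3, h2⟩

theorem valGe_one_add_of_isVal_zero {u : ℚ} (hu : IsVal u 0) : ValGe (1 + u) 1 := by
  by_cases h0 : 1 + u = 0
  · exact Or.inl h0
  refine Or.inr ?_
  obtain ⟨hnum, hden⟩ := odd_num_den_of_isVal_zero hu
  have hden0 : (u.den : ℚ) ≠ 0 := by exact_mod_cast u.den_ne_zero
  have hu' : 1 + u = (((u.den : ℤ) + u.num : ℤ) : ℚ) / (u.den : ℚ) := by
    push_cast
    rw [add_div, div_self hden0, Rat.num_div_den]
  have hs0 : ((u.den : ℤ) + u.num : ℤ) ≠ 0 := by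
    intro hs
    apply h0
    rw [hu', hs]
    simp
  have hs0' : ((((u.den : ℤ) + u.num : ℤ)) : ℚ) ≠ 0 := by exact_mod_cast hs0
  rw [hu', padicValRat.div hs0' hden0, padicValRat.of_int, padicValRat.of_nat,
    padicValNat.eq_zero_of_not_dvd hden]
  have hdvd : ((2 : ℕ) : ℤ) ^ 1 ∣ ((u.den : ℤ) + u.num) := by
    have hden' : ¬ (2 : ℤ) ∣ (u.den : ℤ) := by
      intro h; exact hden (by exact_mod_cast h)
    norm_num
    omega
  rcases (padicValInt_dvd_iff 1 _).mp hdvd with h | h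
  · exact absurd h hs0
  · simp only [Nat.cast_zero, sub_zero]
    exact_mod_cast h

/-- Two rationals of the same `2`-adic valuation add up to something of larger valuation. -/
theorem IsVal.add_same {x y : ℚ} {m : ℤ} (hx : IsVal x m) (hy : IsVal y m) :
    ValGe (x + y) (m + 1) := by
  have hu : IsVal (y / x) 0 :=
    ⟨div_ne_zero hy.1 hx.1, by rw [padicValRat.div hy.1 hx.1, hx.2, hy.2, sub_self]⟩
  have h1 := (hx.valGe le_rfl).mul (valGe_one_add_of_isVal_zero hu)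
  have hx0 := hx.1
  refine h1.of_eq ?_
  field_simp

theorem IsVal.sub_same {x y : ℚ} {m : ℤ} (hx : IsVal x m) (hy : IsVal y m) :
    ValGe (x - y) (m + 1) := by
  rw [sub_eq_add_neg]; exact hx.add_same hy.neg

/-! ### Points: the `x`-coordinate function and the `x`-only formulas -/

open WeierstrassCurve WeierstrassCurve.Affine

section points

variable {W : Affine ℚ}

/-- The `x`-coordinate of a point (junk value `0` at the origin). -/
def xc : W.Point → ℚ
  | .zero => 0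
  | .some x _ _ => x

theorem xc_neg (P : W.Point) : xc (-P) = xc P := by
  cases P <;> rfl

theorem eq_or_eq_neg_of_xc_eq {P Q : W.Point} (hP : P ≠ 0) (hQ : Q ≠ 0) (h : xc P = xc Q) :
    P = Q ∨ P = -Q := by
  match P, Q, hP, hQ, h with
  | .some x₁ y₁ h₁, .some x₂ y₂ h₂, _, _, h => exact Point.X_eq_iff.mp h
  | .zero, _, hP, _, _ => exact absurd rfl hP
  | _, .zero, _, hQ, _ => exact absurd rfl hQ

theorem add_sub_formulas {P Q : W.Point} (hP : P ≠ 0) (hQ : Q ≠ 0) (hx : xc P ≠ xc Q) :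
    P + Q ≠ 0 ∧ P - Q ≠ 0 ∧
    xc (P + Q) * xc (P - Q) * (xc P - xc Q) ^ 2 =
      xc P ^ 2 * xc Q ^ 2 - W.b₄ * xc P * xc Q - W.b₆ * (xc P + xc Q) - W.b₈ ∧
    (xc (P + Q) + xc (P - Q)) * (xc P - xc Q) ^ 2 =
      2 * xc P * xc Q * (xc P + xc Q) + W.b₂ * xc P * xc Q + W.b₄ * (xc P + xc Q) + W.b₆ := by
  match P, Q, hP, hQ, hx with
  | .some x₁ y₁ h₁, .some x₂ y₂ h₂, _, _, hx =>
    obtain ⟨Xp, Yp, Xm, Ym, hp, hm, e1, e2, e3, e4⟩ :=
      Fermat.Agent.S05.helper1745.exists_add_sub_some h₁ h₂ hx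
    rw [e1, e2]
    exact ⟨Point.some_ne_zero _, Point.some_ne_zero _, e3, e4⟩
  | .zero, _, hP, _, _ => exact absurd rfl hP
  | _, .zero, _, hQ, _ => exact absurd rfl hQ

theorem dbl_formula {P : W.Point} (hP : P ≠ 0) (h2 : P + P ≠ 0) :
    xc (P + P) * (4 * xc P ^ 3 + W.b₂ * xc P ^ 2 + 2 * W.b₄ * xc P + W.b₆) =
      xc P ^ 4 - W.b₄ * xc P ^ 2 - 2 * W.b₆ * xc P - W.b₈ ∧
    4 * xc P ^ 3 + W.b₂ * xc P ^ 2 + 2 * W.b₄ * xc P + W.b₆ ≠ 0 := by
  match P, hP, h2 with
  | .some x y h, _, h2 =>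
    have hy : y ≠ W.negY x y := fun hy => h2 (Point.add_self_of_Y_eq hy)
    obtain ⟨X, Y, h', e1, e2, e3⟩ := Fermat.Agent.S05.helper1745.exists_add_self_some h hy
    rw [e1]
    exact ⟨e2, e3⟩
  | .zero, hP, _ => exact absurd rfl hP

theorem add_self_eq_zero_of_cubic {P : W.Point} (hP : P ≠ 0)
    (h0 : 4 * xc P ^ 3 + W.b₂ * xc P ^ 2 + 2 * W.b₄ * xc P + W.b₆ = 0) : P + P = 0 := by
  match P, hP, h0 with
  | .some x y h, _, h0 =>
    exact Fermat.Agent.S05.helper1745.add_self_eq_zero_of_cubic_eq_zero h h0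
  | .zero, hP, _ => exact absurd rfl hP

/-- The hypotheses on the curve: `b₆ = 0`, `b₄ = 2 a₄`, `b₈ = -a₄²` (a rational `2`-torsion
point at the origin), `b₂` a `2`-adic unit and `v₂(a₄) = h ≥ 1` (a node at the origin mod `2`). -/
structure NodeData (W : Affine ℚ) (a4 : ℚ) (h : ℤ) : Prop where
  hb6 : W.b₆ = 0
  hb4 : W.b₄ = 2 * a4
  hb8 : W.b₈ = -a4 ^ 2
  hb2 : IsVal W.b₂ 0
  ha4 : IsVal a4 h
  hh : 1 ≤ h

variable {a4 : ℚ} {h : ℤ}

theorem NodeData.add_sub (D : NodeData W a4 h) {P Q : W.Point} (hP : P ≠ 0) (hQ : Q ≠ 0)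
    (hx : xc P ≠ xc Q) :
    P + Q ≠ 0 ∧ P - Q ≠ 0 ∧
    xc (P + Q) * xc (P - Q) * (xc P - xc Q) ^ 2 = (xc P * xc Q - a4) ^ 2 ∧
    (xc (P + Q) + xc (P - Q)) * (xc P - xc Q) ^ 2 =
      W.b₂ * xc P * xc Q + 2 * (xc P + xc Q) * (xc P * xc Q + a4) := by
  obtain ⟨h1, h2, e1, e2⟩ := add_sub_formulas hP hQ hx
  refine ⟨h1, h2, ?_, ?_⟩
  · rw [e1, D.hb4, D.hb6, D.hb8]; ring
  · rw [e2, D.hb4, D.hb6]; ring

theorem NodeData.dbl (D : NodeData W a4 h) {P : W.Point} (hP : P ≠ 0) (h2 : P + P ≠ 0) :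
    xc (P + P) * (xc P * (W.b₂ * xc P + (4 * xc P ^ 2 + 4 * a4))) = (xc P ^ 2 - a4) ^ 2 ∧
    xc P * (W.b₂ * xc P + (4 * xc P ^ 2 + 4 * a4)) ≠ 0 := by
  obtain ⟨e1, e2⟩ := dbl_formula hP h2
  rw [D.hb4, D.hb6, D.hb8] at e1
  rw [D.hb4, D.hb6] at e2
  refine ⟨?_, ?_⟩
  · linear_combination e1
  · intro h0
    apply e2
    linear_combination h0

/-! ### The kernel of reduction has no odd torsion -/

theorem NodeData.dbl_kernel (D : NodeData W a4 h) {P : W.Point} {c : ℤ} (hP : P ≠ 0)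
    (hx : IsVal (xc P) (-c)) (hc : 1 ≤ c) :
    P + P = 0 ∨ ∃ k, k ≤ -c - 1 ∧ IsVal (xc (P + P)) k := by
  by_cases h2 : P + P = 0
  · exact Or.inl h2
  right
  obtain ⟨e, hne⟩ := D.dbl hP h2
  have hh := D.hh
  have hN : IsVal (xc P ^ 2 - a4) (-(2 * c)) :=
    (hx.sq.congr (by ring)).sub_valGe (D.ha4.valGe (by omega))
  have hE0 : W.b₂ * xc P + (4 * xc P ^ 2 + 4 * a4) ≠ 0 := right_ne_zero_of_mul hne
  have hEge : ValGe (W.b₂ * xc P + (4 * xc P ^ 2 + 4 * a4)) (min (2 - 2 * c) (-c)) :=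
    ((D.hb2.mul hx).valGe (by omega)).add
      (((isVal_four.mul hx.sq).valGe (by omega)).add ((isVal_four.mul D.ha4).valGe (by omega)))
  obtain ⟨d, hd, hEd⟩ := hEge.isVal hE0
  have hX := isVal_of_mul_eq (by rw [mul_comm]; exact e) (hx.mul hEd) hN.sq
  exact ⟨_, by omega, hX⟩

theorem NodeData.kernel_aux (D : NodeData W a4 h) {P : W.Point} {c : ℤ} (hP : P ≠ 0)
    (hx : IsVal (xc P) (-c)) (hc : 1 ≤ c) (n : ℕ) :
    ((Odd n → n • P ≠ 0 ∧ IsVal (xc (n • P)) (-c)) ∧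
      (Even n → n • P = 0 ∨ ∃ k, k ≤ -c - 1 ∧ IsVal (xc (n • P)) k)) ∧
    ((Odd (n + 1) → (n + 1) • P ≠ 0 ∧ IsVal (xc ((n + 1) • P)) (-c)) ∧
      (Even (n + 1) → (n + 1) • P = 0 ∨ ∃ k, k ≤ -c - 1 ∧ IsVal (xc ((n + 1) • P)) k)) := by
  have hh := D.hh
  induction n with
  | zero =>
    refine ⟨⟨fun h => absurd h (by decide), fun _ => Or.inl (zero_nsmul P)⟩,
      ⟨fun _ => ?_, fun h => absurd h (by decide)⟩⟩
    simpa using ⟨hP, hx⟩
  | succ n ih =>
    obtain ⟨ihn, ihn1⟩ := ih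
    refine ⟨ihn1, ?_⟩
    have hsucc : (n + 1 + 1) • P = (n + 1) • P + P := succ_nsmul P (n + 1)
    have hpred : (n + 1) • P - P = n • P := by rw [succ_nsmul]; abel
    rcases Nat.even_or_odd n with hn | hn
    · -- `n` even, `n + 1` odd, `n + 2` even
      have hodd : Odd (n + 1) := hn.add_one
      obtain ⟨hQ, hxQ⟩ := ihn1.1 hodd
      refine ⟨fun h => absurd hodd (Nat.odd_add_one.mp h), fun _ => ?_⟩
      by_cases hxx : xc ((n + 1) • P) = xc P
      · rcases eq_or_eq_neg_of_xc_eq hQ hP hxx with h1 | h1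
        · rw [hsucc, h1]
          exact D.dbl_kernel hP hx hc
        · left
          rw [hsucc, h1]
          exact neg_add_cancel P
      · obtain ⟨hp0, hm0, eP, eS⟩ := D.add_sub hQ hP hxx
        rw [hpred] at hm0 eP eS
        right
        rcases ihn.2 hn with h0 | ⟨k, hk, hxk⟩
        · exact absurd h0 hm0
        have hN : IsVal (xc ((n + 1) • P) * xc P - a4) (-(2 * c)) :=
          ((hxQ.mul hx).congr (by ring)).sub_valGe (D.ha4.valGe (by omega))
        have hd0 : xc ((n + 1) • P) - xc P ≠ 0 := sub_ne_zero.mpr hxx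
        obtain ⟨δ, hδ, hdδ⟩ := (hxQ.sub_same hx).isVal hd0
        have hXp : IsVal (xc ((n + 1) • P + P)) (2 * (-(2 * c)) - (k + 2 * δ)) :=
          isVal_of_mul_eq (by rw [← eP]; ring) (hxk.mul hdδ.sq) hN.sq
        rw [hsucc]
        refine ⟨_, ?_, hXp⟩
        by_contra hcon
        have hR : ValGe (W.b₂ * xc ((n + 1) • P) * xc P +
            2 * (xc ((n + 1) • P) + xc P) * (xc ((n + 1) • P) * xc P + a4))
            (min (2 - 3 * c) (-(2 * c))) :=
          (((D.hb2.mul hxQ).mul hx).valGe (by omega)).add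
            ((((isVal_two.valGe le_rfl).mul (hxQ.add_same hx)).mul
              (((hxQ.mul hx).valGe le_rfl).add (D.ha4.valGe (by omega)))).mono (by omega))
        have hsum_ge : ValGe (xc ((n + 1) • P + P) + xc (n • P))
            (min (2 - 3 * c) (-(2 * c)) - 2 * δ) :=
          valGe_of_mul_eq (by rw [← eS]; ring) hdδ.sq hR
        have hsum : IsVal (xc ((n + 1) • P + P) + xc (n • P)) k :=
          hxk.valGe_add (hXp.valGe (by omega))
        have := hsum.le_of_valGe hsum_ge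
        omega
    · -- `n` odd, `n + 1` even, `n + 2` odd
      have heven : Even (n + 1) := hn.add_one
      obtain ⟨hnP, hxn⟩ := ihn.1 hn
      refine ⟨fun _ => ?_, fun h => absurd heven (Nat.even_add_one.mp h)⟩
      rcases ihn1.2 heven with h0 | ⟨k, hk, hxk⟩
      · rw [hsucc, h0, zero_add]
        exact ⟨hP, hx⟩
      · have hQ : (n + 1) • P ≠ 0 := by
          intro h0
          apply hxk.1
          rw [h0]
          rfl
        have hxx : xc ((n + 1) • P) ≠ xc P := by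
          intro hxx
          have := (hxk.of_eq hxx).unique hx
          omega
        obtain ⟨hp0, hm0, eP, eS⟩ := D.add_sub hQ hP hxx
        rw [hpred] at hm0 eP eS
        have hd : IsVal (xc ((n + 1) • P) - xc P) k := hxk.sub_valGe (hx.valGe (by omega))
        have hN : IsVal (xc ((n + 1) • P) * xc P - a4) (k + -c) :=
          (hxk.mul hx).sub_valGe (D.ha4.valGe (by omega))
        have hXp : IsVal (xc ((n + 1) • P + P)) (2 * (k + -c) - (-c + 2 * k)) :=
          isVal_of_mul_eq (by rw [← eP]; ring) (hxn.mul hd.sq) hN.sq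
        rw [hsucc]
        exact ⟨hp0, hXp.congr (by ring)⟩

/-- **Kernel of reduction**: a rational point with `v₂(x) < 0` has no odd multiple equal to `0`. -/
theorem NodeData.kernel_odd (D : NodeData W a4 h) {P : W.Point} {c : ℤ} (hP : P ≠ 0)
    (hx : IsVal (xc P) (-c)) (hc : 1 ≤ c) {n : ℕ} (hn : Odd n) : n • P ≠ 0 :=
  ((D.kernel_aux hP hx hc n).1.1 hn).1

end points

/-! ### Rational torsion points of odd prime order -/

section torsion

variable {W : Affine ℚ} {a4 : ℚ} {h : ℤ}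

/-- `S` is a nonzero point killed by `p`. -/
structure Tor (p : ℕ) (S : W.Point) : Prop where
  ne : S ≠ 0
  tor : p • S = 0

variable {p : ℕ} {S S₁ S₂ : W.Point}

theorem Tor.nsmul_ne_zero (hS : Tor p S) (hp : p.Prime) {m : ℕ} (hm : ¬ p ∣ m) : m • S ≠ 0 := by
  have : Fact p.Prime := ⟨hp⟩
  have ho : addOrderOf S = p := addOrderOf_eq_prime hS.tor hS.ne
  intro h0
  exact hm (ho ▸ addOrderOf_dvd_of_nsmul_eq_zero h0)

theorem Tor.nsmul (hS : Tor p S) (hp : p.Prime) {m : ℕ} (hm : ¬ p ∣ m) : Tor p (m • S) :=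
  ⟨hS.nsmul_ne_zero hp hm, by rw [← mul_nsmul, mul_comm, mul_nsmul, hS.tor, nsmul_zero]⟩

theorem Tor.add (h₁ : Tor p S₁) (h₂ : Tor p S₂) (hne : S₁ + S₂ ≠ 0) : Tor p (S₁ + S₂) :=
  ⟨hne, by rw [nsmul_add, h₁.tor, h₂.tor, add_zero]⟩

theorem Tor.neg (hS : Tor p S) : Tor p (-S) :=
  ⟨neg_ne_zero.mpr hS.ne, by rw [neg_nsmul, hS.tor, neg_zero]⟩

theorem Tor.sub (h₁ : Tor p S₁) (h₂ : Tor p S₂) (hne : S₁ - S₂ ≠ 0) : Tor p (S₁ - S₂) := by
  rw [sub_eq_add_neg] at hne ⊢
  exact h₁.add h₂.neg hne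

theorem Tor.add_self (hS : Tor p S) (hp : p.Prime) (hp5 : 5 ≤ p) : Tor p (S + S) := by
  have := hS.nsmul hp (m := 2) (by
    intro hd
    have := Nat.le_of_dvd (by norm_num) hd
    omega)
  rwa [two_nsmul] at this

theorem NodeData.xc_ne_zero (D : NodeData W a4 h) (hp : p.Prime) (hp5 : 5 ≤ p) (hS : Tor p S) :
    xc S ≠ 0 := by
  intro h0
  apply (hS.add_self hp hp5).ne
  apply add_self_eq_zero_of_cubic hS.ne
  rw [h0, D.hb6]
  ring

/-- A torsion point of prime order `p ≥ 5` does not have a `2`-adic unit as `x`-coordinate. -/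
theorem NodeData.not_unit (D : NodeData W a4 h) (hp : p.Prime) (hp5 : 5 ≤ p) (hS : Tor p S)
    (hx : IsVal (xc S) 0) : False := by
  have hh := D.hh
  have hS2 := hS.add_self hp hp5
  obtain ⟨e, hne⟩ := D.dbl hS.ne hS2.ne
  have hN : IsVal (xc S ^ 2 - a4) 0 :=
    (hx.sq.congr (by ring)).sub_valGe (D.ha4.valGe (by omega))
  have hE : IsVal (W.b₂ * xc S + (4 * xc S ^ 2 + 4 * a4)) 0 :=
    ((D.hb2.mul hx).congr (by ring)).add_valGe
      (((isVal_four.mul hx.sq).valGe (by omega)).add ((isVal_four.mul D.ha4).valGe (by omega)))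
  have hX2 : IsVal (xc (S + S)) 0 :=
    (isVal_of_mul_eq (by rw [mul_comm]; exact e) (hx.mul hE) hN.sq).congr (by ring)
  have hxx : xc (S + S) ≠ xc S := by
    intro hxx
    rcases eq_or_eq_neg_of_xc_eq hS2.ne hS.ne hxx with h1 | h1
    · exact hS.ne (by simpa using h1)
    · have h3 : 3 • S = 0 := by
        have : S + S + S = 0 := by rw [h1]; exact neg_add_cancel S
        rw [← this]
        simp [succ_nsmul]
      exact hS.nsmul_ne_zero hp (m := 3) (by
        intro hd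
        have := Nat.le_of_dvd (by norm_num) hd
        omega) h3
  obtain ⟨hp0, hm0, eP, eS⟩ := D.add_sub hS2.ne hS.ne hxx
  have hsub : S + S - S = S := add_sub_cancel_right S S
  rw [hsub] at eP eS hm0
  have hN' : IsVal (xc (S + S) * xc S - a4) 0 :=
    ((hX2.mul hx).congr (by ring)).sub_valGe (D.ha4.valGe (by omega))
  obtain ⟨δ, hδ, hdδ⟩ := (hX2.sub_same hx).isVal (sub_ne_zero.mpr hxx)
  have hXp : IsVal (xc (S + S + S)) (2 * 0 - (0 + 2 * δ)) :=
    isVal_of_mul_eq (by rw [← eP]; ring) (hx.mul hdδ.sq) hN'.sq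
  have hodd : Odd p := hp.odd_of_ne_two (by omega)
  refine D.kernel_odd hp0 (hXp.congr (by ring : _ = -(2 * δ))) (by omega) hodd ?_
  rw [nsmul_add, nsmul_add, hS.tor]
  simp

/-- Every torsion point of prime order `p ≥ 5` reduces to the node: `v₂(x) ≥ 1`. -/
theorem NodeData.exists_depth (D : NodeData W a4 h) (hp : p.Prime) (hp5 : 5 ≤ p) (hS : Tor p S) :
    ∃ a, 1 ≤ a ∧ IsVal (xc S) a := by
  obtain ⟨a, ha⟩ := exists_isVal (D.xc_ne_zero hp hp5 hS)
  refine ⟨a, ?_, ha⟩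
  by_contra hcon
  have hodd : Odd p := hp.odd_of_ne_two (by omega)
  rcases lt_or_eq_of_le (show a ≤ 0 by omega) with hneg | h0
  · exact D.kernel_odd hS.ne (ha.congr (by ring : a = -(-a))) (by omega) hodd hS.tor
  · exact D.not_unit hp hp5 hS (ha.congr h0)

theorem NodeData.depth_pos (D : NodeData W a4 h) (hp : p.Prime) (hp5 : 5 ≤ p) (hS : Tor p S)
    {a : ℤ} (ha : IsVal (xc S) a) : 1 ≤ a := by
  obtain ⟨b, hb, hb'⟩ := D.exists_depth hp hp5 hS
  rw [← hb'.unique ha]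
  exact hb

theorem NodeData.depth_lt (D : NodeData W a4 h) (hp : p.Prime) (hp5 : 5 ≤ p) (hS : Tor p S)
    {a : ℤ} (ha : IsVal (xc S) a) : a < h := by
  by_contra hcon
  have hh := D.hh
  have hS2 := hS.add_self hp hp5
  obtain ⟨a', ha'1, ha'⟩ := D.exists_depth hp hp5 hS2
  obtain ⟨e, hne⟩ := D.dbl hS.ne hS2.ne
  have hN : IsVal (xc S ^ 2 - a4) h := D.ha4.valGe_sub (ha.sq.valGe (by omega))
  have hE0 := right_ne_zero_of_mul hne
  have hEge : ValGe (W.b₂ * xc S + (4 * xc S ^ 2 + 4 * a4)) h :=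
    ((D.hb2.mul ha).valGe (by omega)).add
      (((isVal_four.mul ha.sq).valGe (by omega)).add ((isVal_four.mul D.ha4).valGe (by omega)))
  obtain ⟨d, hd, hEd⟩ := hEge.isVal hE0
  have hX := isVal_of_mul_eq (by rw [mul_comm]; exact e) (ha.mul hEd) hN.sq
  have := hX.unique ha'
  omega

theorem NodeData.depth_dbl (D : NodeData W a4 h) (hp : p.Prime) (hp5 : 5 ≤ p) (hS : Tor p S)
    {a : ℤ} (ha : IsVal (xc S) a) :
    2 * a ≠ h ∧ IsVal (xc (S + S)) (min (2 * a) (2 * h - 2 * a)) := by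
  have hh := D.hh
  have hS2 := hS.add_self hp hp5
  have halt := D.depth_lt hp hp5 hS ha
  have hapos := D.depth_pos hp hp5 hS ha
  obtain ⟨a', ha'1, ha'⟩ := D.exists_depth hp hp5 hS2
  have ha'lt := D.depth_lt hp hp5 hS2 ha'
  obtain ⟨e, hne⟩ := D.dbl hS.ne hS2.ne
  have hE : IsVal (W.b₂ * xc S + (4 * xc S ^ 2 + 4 * a4)) a :=
    ((D.hb2.mul ha).congr (by ring)).add_valGe
      (((isVal_four.mul ha.sq).valGe (by omega)).add ((isVal_four.mul D.ha4).valGe (by omega)))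
  have hN0 : xc S ^ 2 - a4 ≠ 0 := by
    intro h0
    exact (mul_ne_zero ha'.1 hne) (by rw [e, h0]; ring)
  rcases lt_trichotomy (2 * a) h with hlt | heq | hgt
  · have hN : IsVal (xc S ^ 2 - a4) (2 * a) := ha.sq.sub_valGe (D.ha4.valGe (by omega))
    have hX := isVal_of_mul_eq (by rw [mul_comm]; exact e) (ha.mul hE) hN.sq
    have := hX.unique ha'
    exact ⟨by omega, ha'.congr (by omega)⟩
  · exfalso
    have hNge : ValGe (xc S ^ 2 - a4) h := (ha.sq.valGe (by omega)).sub (D.ha4.valGe le_rfl)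
    obtain ⟨w, hw, hNw⟩ := hNge.isVal hN0
    have hX := isVal_of_mul_eq (by rw [mul_comm]; exact e) (ha.mul hE) hNw.sq
    have := hX.unique ha'
    omega
  · have hN : IsVal (xc S ^ 2 - a4) h := D.ha4.valGe_sub (ha.sq.valGe (by omega))
    have hX := isVal_of_mul_eq (by rw [mul_comm]; exact e) (ha.mul hE) hN.sq
    have := hX.unique ha'
    exact ⟨by omega, ha'.congr (by omega)⟩

/-- The tropical Kummer law for two torsion points near the node. -/
theorem NodeData.depth_add_sub (D : NodeData W a4 h) (hp : p.Prime) (hp5 : 5 ≤ p)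
    (h₁ : Tor p S₁) (h₂ : Tor p S₂) (hne : S₁ ≠ S₂) (hne' : S₁ ≠ -S₂) {a₁ a₂ : ℤ}
    (ha₁ : IsVal (xc S₁) a₁) (ha₂ : IsVal (xc S₂) a₂) :
    a₁ ≠ a₂ ∧
    ((IsVal (xc (S₁ + S₂)) (max a₁ a₂ - min a₁ a₂) ∧
        IsVal (xc (S₁ - S₂)) (min (a₁ + a₂) (2 * h - a₁ - a₂))) ∨
      (IsVal (xc (S₁ - S₂)) (max a₁ a₂ - min a₁ a₂) ∧
        IsVal (xc (S₁ + S₂)) (min (a₁ + a₂) (2 * h - a₁ - a₂)))) := by
  have hh := D.hh
  have hxx : xc S₁ ≠ xc S₂ := fun hxx =>
    (eq_or_eq_neg_of_xc_eq h₁.ne h₂.ne hxx).elim hne hne'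
  obtain ⟨hp0, hm0, eP, eS⟩ := D.add_sub h₁.ne h₂.ne hxx
  have hTp := h₁.add h₂ hp0
  have hTm := h₁.sub h₂ hm0
  have ha₁lt := D.depth_lt hp hp5 h₁ ha₁
  have ha₂lt := D.depth_lt hp hp5 h₂ ha₂
  have ha₁pos := D.depth_pos hp hp5 h₁ ha₁
  have ha₂pos := D.depth_pos hp hp5 h₂ ha₂
  obtain ⟨ap, hap1, hap⟩ := D.exists_depth hp hp5 hTp
  obtain ⟨am, ham1, ham⟩ := D.exists_depth hp hp5 hTm
  have haplt := D.depth_lt hp hp5 hTp hap
  have hamlt := D.depth_lt hp hp5 hTm ham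
  have hR : IsVal (W.b₂ * xc S₁ * xc S₂ + 2 * (xc S₁ + xc S₂) * (xc S₁ * xc S₂ + a4))
      (a₁ + a₂) :=
    (((D.hb2.mul ha₁).mul ha₂).congr (by ring)).add_valGe
      ((((isVal_two.valGe le_rfl).mul
          ((ha₁.valGe (min_le_left a₁ a₂)).add (ha₂.valGe (min_le_right a₁ a₂)))).mul
        (((ha₁.mul ha₂).valGe (min_le_left _ h)).add (D.ha4.valGe (min_le_right _ h)))).mono
        (by omega))
  obtain ⟨δ, hδ, hdδ⟩ :=
    ((ha₁.valGe (min_le_left a₁ a₂)).sub (ha₂.valGe (min_le_right a₁ a₂))).isVal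
      (sub_ne_zero.mpr hxx)
  have hsum : IsVal (xc (S₁ + S₂) + xc (S₁ - S₂)) (a₁ + a₂ - 2 * δ) :=
    isVal_of_mul_eq (by rw [← eS]; ring) hdδ.sq hR
  have hsum1 := hsum.le_of_valGe ((hap.valGe hap1).add (ham.valGe ham1))
  have hne12 : a₁ ≠ a₂ := by omega
  have hδeq : δ = min a₁ a₂ := by
    rcases lt_or_gt_of_ne hne12 with hlt | hgt
    · have := (ha₁.sub_valGe (ha₂.valGe (by omega))).unique hdδ
      omega
    · have := (ha₂.valGe_sub (ha₁.valGe (by omega))).unique hdδ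
      omega
  have hN0 : xc S₁ * xc S₂ - a4 ≠ 0 := by
    intro h0
    have : xc (S₁ + S₂) * xc (S₁ - S₂) * (xc S₁ - xc S₂) ^ 2 ≠ 0 :=
      mul_ne_zero (mul_ne_zero hap.1 ham.1) (pow_ne_zero 2 hdδ.1)
    exact this (by rw [eP, h0]; ring)
  obtain ⟨w, hw, hNw⟩ :=
    (((ha₁.mul ha₂).valGe (min_le_left _ h)).sub (D.ha4.valGe (min_le_right _ h))).isVal hN0
  have hw1 : a₁ + a₂ < h → w = a₁ + a₂ := fun hlt =>
    (((ha₁.mul ha₂).sub_valGe (D.ha4.valGe (by omega))).unique hNw).symm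
  have hw2 : h < a₁ + a₂ → w = h := fun hgt =>
    ((D.ha4.valGe_sub ((ha₁.mul ha₂).valGe (by omega))).unique hNw).symm
  have hprod := ((hap.mul ham).mul hdδ.sq).unique (hNw.sq.of_eq eP.symm)
  have hc1 : ap < am → ap = a₁ + a₂ - 2 * δ := fun hlt =>
    (hap.add_valGe (ham.valGe (by omega))).unique hsum
  have hc2 : am < ap → am = a₁ + a₂ - 2 * δ := fun hlt =>
    (ham.valGe_add (hap.valGe (by omega))).unique hsum
  have hc3 : ap = am → ap ≤ a₁ + a₂ - 2 * δ := fun heq =>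
    hsum.le_of_valGe ((hap.valGe le_rfl).add (ham.valGe (by omega)))
  refine ⟨hne12, ?_⟩
  rcases lt_trichotomy ap am with hlt | heq | hgt
  · left
    have h1 := hc1 hlt
    rcases lt_trichotomy (a₁ + a₂) h with hs | hs | hs
    · have h2 := hw1 hs
      exact ⟨hap.congr (by omega), ham.congr (by omega)⟩
    · exfalso; omega
    · have h2 := hw2 hs
      exact ⟨hap.congr (by omega), ham.congr (by omega)⟩
  · exfalso
    have h1 := hc3 heq
    rcases lt_trichotomy (a₁ + a₂) h with hs | hs | hs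
    · have h2 := hw1 hs
      omega
    · omega
    · have h2 := hw2 hs
      omega
  · right
    have h1 := hc2 hgt
    rcases lt_trichotomy (a₁ + a₂) h with hs | hs | hs
    · have h2 := hw1 hs
      exact ⟨ham.congr (by omega), hap.congr (by omega)⟩
    · exfalso; omega
    · have h2 := hw2 hs
      exact ⟨ham.congr (by omega), hap.congr (by omega)⟩

end torsion

/-! ### Congruences modulo `2h` up to sign -/

/-- `a ≡ ± b (mod 2h)`. -/
def Rel (h a b : ℤ) : Prop := 2 * h ∣ a - b ∨ 2 * h ∣ a + b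

theorem Rel.of_eq {h a b : ℤ} (e : a = b) : Rel h a b :=
  Or.inl (by rw [e, sub_self]; exact dvd_zero _)

theorem Rel.symm {h a b : ℤ} (r : Rel h a b) : Rel h b a := by
  rcases r with r | r
  · left
    have := (dvd_neg (a := 2 * h)).mpr r
    rwa [neg_sub] at this
  · right
    rwa [add_comm]

theorem Rel.trans {h a b c : ℤ} (r : Rel h a b) (r' : Rel h b c) : Rel h a c := by
  rcases r with r | r <;> rcases r' with r' | r'
  · left
    have := dvd_add r r'
    rwa [sub_add_sub_cancel] at this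
  · right
    have := dvd_add r r'
    rwa [show a - b + (b + c) = a + c by ring] at this
  · right
    have := dvd_sub r r'
    rwa [show a + b - (b - c) = a + c by ring] at this
  · left
    have := dvd_sub r r'
    rwa [show a + b - (b + c) = a - c by ring] at this

theorem Rel.shift {h a A : ℤ} (r : Rel h a A) (a₁ : ℤ) :
    (Rel h (a - a₁) (A - a₁) ∧ Rel h (a + a₁) (A + a₁)) ∨
    (Rel h (a - a₁) (A + a₁) ∧ Rel h (a + a₁) (A - a₁)) := by
  rcases r with r | r
  · left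
    exact ⟨Or.inl (by convert r using 1; ring), Or.inl (by convert r using 1; ring)⟩
  · right
    exact ⟨Or.inr (by convert r using 1; ring), Or.inr (by convert r using 1; ring)⟩

theorem rel_max_sub_min (h x y : ℤ) : Rel h (max x y - min x y) (x - y) := by
  rcases le_total x y with hxy | hxy
  · right
    rw [max_eq_right hxy, min_eq_left hxy]
    simp
  · left
    rw [max_eq_left hxy, min_eq_right hxy]
    simp

theorem rel_fold (h s : ℤ) : Rel h (min s (2 * h - s)) s := by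
  rcases le_total s (2 * h - s) with hs | hs
  · rw [min_eq_left hs]
    exact Rel.of_eq rfl
  · rw [min_eq_right hs]
    right
    simp

theorem step_rel {h am a1 A ap apred : ℤ} (hm : Rel h am A)
    (hpair : (ap = max am a1 - min am a1 ∧ apred = min (am + a1) (2 * h - am - a1)) ∨
      (apred = max am a1 - min am a1 ∧ ap = min (am + a1) (2 * h - am - a1)))
    (hpred : Rel h apred (A - a1)) : Rel h ap (A + a1) := by
  have hu : Rel h (max am a1 - min am a1) (am - a1) := rel_max_sub_min h am a1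
  have hw : Rel h (min (am + a1) (2 * h - am - a1)) (am + a1) := by
    have := rel_fold h (am + a1)
    rwa [show 2 * h - (am + a1) = 2 * h - am - a1 by ring] at this
  rcases hm.shift a1 with ⟨s1, s2⟩ | ⟨s1, s2⟩
  · rcases hpair with ⟨e1, e2⟩ | ⟨e1, e2⟩
    · rw [e1]
      rw [e2] at hpred
      exact (hu.trans s1).trans (hpred.symm.trans (hw.trans s2))
    · rw [e2]
      exact hw.trans s2
  · rcases hpair with ⟨e1, e2⟩ | ⟨e1, e2⟩
    · rw [e1]
      exact hu.trans s1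
    · rw [e2]
      rw [e1] at hpred
      exact (hw.trans s2).trans (hpred.symm.trans (hu.trans s1))

/-! ### The main theorem -/

section main

variable {W : Affine ℚ} {a4 : ℚ} {h : ℤ}

/-- **No rational torsion of prime order `p ≥ 5`** on a curve over `ℚ` with a rational
`2`-torsion point at the origin reducing to a node modulo `2` (`b₆ = 0`, `b₄ = 2a₄`,
`b₈ = -a₄²`, `b₂` a `2`-adic unit, `v₂(a₄) = h ≥ 1`), provided `gcd(2h, p) = 1`. -/
theorem NodeData.no_torsion (D : NodeData W a4 h) {p : ℕ} (hp : p.Prime) (hp5 : 5 ≤ p)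
    (hcop : IsCoprime (2 * h) (p : ℤ)) (T : W.Point) (hT : p • T = 0) : T = 0 := by
  by_contra hT0
  have hTor : Tor p T := ⟨hT0, hT⟩
  have hh := D.hh
  obtain ⟨a₁, ha₁pos, ha₁⟩ := D.exists_depth hp hp5 hTor
  have ha₁lt := D.depth_lt hp hp5 hTor ha₁
  have hmul : ∀ m : ℕ, 1 ≤ m → m < p → Tor p (m • T) := fun m h1 h2 =>
    hTor.nsmul hp (fun hd => by
      have := Nat.le_of_dvd (by omega) hd
      omega)
  have key : ∀ m : ℕ, 1 ≤ m → m + 1 < p →
      (∃ a, IsVal (xc (m • T)) a ∧ Rel h a (m * a₁)) ∧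
      (∃ a, IsVal (xc ((m + 1) • T)) a ∧ Rel h a ((m + 1 : ℕ) * a₁)) := by
    intro m
    induction m with
    | zero => intro h1; omega
    | succ m ih =>
      intro _ hlt
      rcases Nat.eq_zero_or_pos m with rfl | hmpos
      · refine ⟨⟨a₁, by simpa using ha₁, Rel.of_eq (by simp)⟩, ?_⟩
        obtain ⟨_, h2⟩ := D.depth_dbl hp hp5 hTor ha₁
        refine ⟨_, by simpa [two_nsmul] using h2, ?_⟩
        have := rel_fold h (2 * a₁)
        convert this using 1
        push_cast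
        ring
      · obtain ⟨⟨am1, hxm1, hrm1⟩, ⟨am, hxm, hrm⟩⟩ := ih hmpos (by omega)
        refine ⟨⟨am, hxm, hrm⟩, ?_⟩
        have hS₁ := hmul (m + 1) (by omega) (by omega)
        have hne : (m + 1) • T ≠ T := by
          intro he
          have : m • T = 0 := by
            rw [succ_nsmul] at he
            simpa using he
          exact (hmul m hmpos (by omega)).ne this
        have hne' : (m + 1) • T ≠ -T := by
          intro he
          have : (m + 1 + 1) • T = 0 := by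
            rw [succ_nsmul, he]
            exact neg_add_cancel T
          exact (hmul (m + 1 + 1) (by omega) (by omega)).ne this
        obtain ⟨_, hpair⟩ := D.depth_add_sub hp hp5 hS₁ hTor hne hne' hxm ha₁
        have e1 : (m + 1) • T + T = (m + 1 + 1) • T := (succ_nsmul T (m + 1)).symm
        have e2 : (m + 1) • T - T = m • T := by rw [succ_nsmul]; abel
        rw [e1, e2] at hpair
        obtain ⟨ap, hap⟩ : ∃ ap, IsVal (xc ((m + 1 + 1) • T)) ap := by
          rcases hpair with ⟨h1, _⟩ | ⟨_, h1⟩ <;> exact ⟨_, h1⟩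
        refine ⟨ap, hap, ?_⟩
        have hpair' : (ap = max am a₁ - min am a₁ ∧ am1 = min (am + a₁) (2 * h - am - a₁)) ∨
            (am1 = max am a₁ - min am a₁ ∧ ap = min (am + a₁) (2 * h - am - a₁)) := by
          rcases hpair with ⟨h1, h2⟩ | ⟨h1, h2⟩
          · exact Or.inl ⟨hap.unique h1, hxm1.unique h2⟩
          · exact Or.inr ⟨hxm1.unique h1, hap.unique h2⟩
        have := step_rel (A := ((m + 1 : ℕ) : ℤ) * a₁) hrm hpair' (by
          convert hrm1 using 1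
          push_cast
          ring)
        convert this using 1
        push_cast
        ring
  obtain ⟨m₀, hm₀⟩ : ∃ m₀, p = 2 * m₀ + 1 := hp.odd_of_ne_two (by omega)
  obtain ⟨⟨a, hxa, hra⟩, ⟨a', hxa', hra'⟩⟩ := key m₀ (by omega) (by omega)
  have hneg : (m₀ + 1) • T = -(m₀ • T) := by
    rw [eq_neg_iff_add_eq_zero, ← add_nsmul, show m₀ + 1 + m₀ = p by omega]
    exact hT
  have haa' : a' = a := by
    rw [hneg, xc_neg] at hxa'
    exact hxa'.unique hxa
  subst haa'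
  have hrel : Rel h ((m₀ : ℤ) * a₁) (((m₀ + 1 : ℕ) : ℤ) * a₁) := hra.symm.trans hra'
  have hdvd : 2 * h ∣ a₁ := by
    rcases hrel with r | r
    · have : (m₀ : ℤ) * a₁ - ((m₀ + 1 : ℕ) : ℤ) * a₁ = -a₁ := by push_cast; ring
      rw [this] at r
      exact (dvd_neg.mp r)
    · have : (m₀ : ℤ) * a₁ + ((m₀ + 1 : ℕ) : ℤ) * a₁ = (p : ℤ) * a₁ := by
        rw [hm₀]; push_cast; ring
      rw [this] at r
      exact hcop.dvd_of_dvd_mul_left r
  have := Int.le_of_dvd (by omega) hdvd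
  omega

end main

end Fermat.Agent.S13.helper5615
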