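import Mathlib
import Fermat.Prelude.Def_FLTPrelim_FreyPackage
import Fermat.Prelude.Def_FLTPrelim_GaloisRep
import Fermat.Agent.S13.helper172_FreyAtTwo
import Fermat.Agent.S13.helper5615_TwoAdic

/-!
# S13, ingredient I4 (`no_fixed`): the Frey curve has no Galois-fixed point of order `p`

(helper5615.)  A point of `E[p]` over `ℚ̄` fixed by the whole Galois group has rational
coordinates, hence comes from a rational point of order dividing `p` of the Frey curve
`y² + xy = x³ + a₂x² + a₄x`.  By `NodeData.no_torsion` (2-adic analysis over `ℚ`, file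
`helper5615_TwoAdic`) such a point is the origin: the curve has a node at `2` of depth
`h = v₂(a₄) = p·v₂(b) - 4`, and `gcd(2h, p) = 1`.

Main result: `no_fixed`, verbatim the field `no_fixed` of the S13 skeletons
(`helper13.Ingredients`, `helper613.WeakIngredients`, `helper8682.Inputs`).
-/

set_option autoImplicit false

open WeierstrassCurve WeierstrassCurve.Affine WeierstrassCurve.Affine.Point

namespace Fermat.Agent.S13.helper5615

/-- The Frey curve has node data at `2`: `b₆ = 0`, `b₄ = 2a₄`, `b₈ = -a₄²`, `b₂` odd,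
`v₂(a₄) = h ≥ 1`, and `2h` is prime to `p`. -/
theorem frey_nodeData (P : FreyPackage) :
    ∃ h : ℤ, NodeData (P.freyCurve : Affine ℚ) P.freyCurve.a₄ h ∧
      IsCoprime (2 * h) (P.p : ℤ) := by
  obtain ⟨k, hk0, hpk, hcop, hval⟩ := Fermat.Agent.S13.helper172.padicValRat_a₄ P
  obtain ⟨n, hn, -, hb2⟩ := Fermat.Agent.S13.helper172.exists_b₂ P
  refine ⟨((P.p * k - 4 : ℕ) : ℤ), ⟨?_, ?_, ?_, ?_, ?_, ?_⟩, ?_⟩
  · simp [WeierstrassCurve.b₆, FreyPackage.freyCurve]
  · simp [WeierstrassCurve.b₄, FreyPackage.freyCurve]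
  · simp [WeierstrassCurve.b₈, FreyPackage.freyCurve]
  · rw [hb2]
    refine isVal_intCast_odd ?_
    rw [← even_iff_two_dvd, Int.not_even_iff_odd]
    exact hn
  · refine ⟨?_, hval⟩
    intro h0
    rw [h0] at hval
    have h1 : ((P.p * k - 4 : ℕ) : ℤ) = 0 := by
      rw [← hval]
      simp
    have h2 : P.p * k - 4 = 0 := by exact_mod_cast h1
    omega
  · have h1 : 1 ≤ P.p * k - 4 := by omega
    exact_mod_cast h1
  · have h2 : IsCoprime ((2 * (P.p * k - 4) : ℕ) : ℤ) (P.p : ℤ) :=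
      (Nat.isCoprime_iff_coprime.mpr hcop).symm
    rwa [Nat.cast_mul, Nat.cast_ofNat] at h2

/-- The base change of the Frey curve to `ℚ` is the Frey curve. -/
theorem frey_baseChange_self (P : FreyPackage) :
    ((P.freyCurve)⁄ℚ : Affine ℚ) = P.freyCurve := by
  show WeierstrassCurve.map P.freyCurve (algebraMap ℚ ℚ) = P.freyCurve
  rw [Algebra.algebraMap_self, WeierstrassCurve.map_id]

/-- **No rational `p`-torsion on the Frey curve** (in the base-change form used for descent). -/
theorem frey_no_rational_torsion (P : FreyPackage) (T : ((P.freyCurve)⁄ℚ).Point)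
    (hT : P.p • T = 0) : T = 0 := by
  obtain ⟨h, D, hcop⟩ := frey_nodeData P
  have D' : NodeData ((P.freyCurve)⁄ℚ : Affine ℚ) P.freyCurve.a₄ h := by
    rw [frey_baseChange_self]
    exact D
  exact D'.no_torsion P.pp P.hp5 hcop T hT

theorem isGalois_Qbar' : IsGalois ℚ (AlgebraicClosure ℚ) :=
  haveI : IsAlgClosure ℚ (AlgebraicClosure ℚ) := ⟨inferInstance, AlgebraicClosure.isAlgebraic ℚ⟩
  inferInstance

/-- Galois-fixed elements of `ℚ̄` are rational. -/
theorem mem_range_of_fixed' (c : AlgebraicClosure ℚ)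
    (hc : ∀ σ : (AlgebraicClosure ℚ ≃ₐ[ℚ] AlgebraicClosure ℚ), σ c = c) :
    c ∈ Set.range (algebraMap ℚ (AlgebraicClosure ℚ)) := by
  have := isGalois_Qbar'
  rw [InfiniteGalois.mem_range_algebraMap_iff_fixed]
  exact hc

/-- **Ingredient I4 of S13**: the `p`-torsion of the Frey curve has no nonzero point fixed by
the absolute Galois group of `ℚ`. -/
theorem no_fixed (P : FreyPackage) :
    ∀ x : Submodule.torsionBy ℤ ((P.freyCurve)⁄(AlgebraicClosure ℚ)).Point P.p,
      (∀ σ : (AlgebraicClosure ℚ ≃ₐ[ℚ] AlgebraicClosure ℚ), σ • x = x) → x = 0 := by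
  rintro ⟨Q, hQ⟩ hfix
  have hfix' : ∀ σ : (AlgebraicClosure ℚ ≃ₐ[ℚ] AlgebraicClosure ℚ), σ • Q = Q :=
    fun σ => congrArg Subtype.val (hfix σ)
  have hQ' : P.p • Q = 0 := by
    rw [Submodule.mem_torsionBy_iff] at hQ
    simpa using hQ
  suffices hQ0 : Q = 0 by
    subst hQ0
    rfl
  obtain ⟨T₀, hT₀⟩ : ∃ T₀ : ((P.freyCurve)⁄ℚ).Point,
      Point.map (W' := P.freyCurve) (Algebra.ofId ℚ (AlgebraicClosure ℚ)) T₀ = Q := by
    cases Q with
    | zero => exact ⟨0, rfl⟩
    | some X Y hXY =>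
      have hXY' : ∀ σ : (AlgebraicClosure ℚ ≃ₐ[ℚ] AlgebraicClosure ℚ), σ X = X ∧ σ Y = Y := by
        intro σ
        have h1 := hfix' σ
        have h2 : (Point.some (σ X) (σ Y)
            ((WeierstrassCurve.Affine.baseChange_nonsingular P.freyCurve
              σ.toAlgHom.injective X Y).mpr hXY) :
            ((P.freyCurve)⁄(AlgebraicClosure ℚ)).Point) = Point.some X Y hXY := h1
        exact Point.some.inj h2
      have hX := fun σ => (hXY' σ).1
      have hY := fun σ => (hXY' σ).2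
      obtain ⟨x₀, rfl⟩ := mem_range_of_fixed' X hX
      obtain ⟨y₀, rfl⟩ := mem_range_of_fixed' Y hY
      have h₀ : ((P.freyCurve)⁄ℚ).Nonsingular x₀ y₀ :=
        (WeierstrassCurve.Affine.baseChange_nonsingular P.freyCurve
          (f := Algebra.ofId ℚ (AlgebraicClosure ℚ))
          (Algebra.ofId ℚ (AlgebraicClosure ℚ)).injective x₀ y₀).mp hXY
      exact ⟨Point.some x₀ y₀ h₀, rfl⟩
  have hT : P.p • T₀ = 0 := by
    apply Point.map_injective (W' := P.freyCurve) (Algebra.ofId ℚ (AlgebraicClosure ℚ))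
    rw [map_nsmul, hT₀, hQ', _root_.map_zero]
  have hT0 : T₀ = 0 := frey_no_rational_torsion P T₀ hT
  rw [← hT₀, hT0, _root_.map_zero]

end Fermat.Agent.S13.helper5615
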