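import Mathlib
import Fermat.Agent.S05.helper1745_XOnly
import Fermat.Agent.S13.helper5736_KerB

/-!
# Local theory near a node for curves `y² + a₁xy = x³ + a₂x² + a₄x` (no hypothesis on `v 2`)

`K` a field with valuation `v`, `W` with `a₃ = a₆ = 0`, `a₁, a₂` integral, `v a₄ < 1`
(node at the origin modulo the maximal ideal), `v b₂ = 1` where needed.
For a point `T` of odd prime order `p` with `v p = 1` and an "inertia-like" ring endomorphism `σ`:

* `unit_fixed`: if `v x(T) = 1` then `σ` fixes the coordinates of `T`;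
* `deep_excluded`: `v a₄ < v x(T)`;
* `node_diff`: if `v a₄ < v x(T) < 1` then `σT = T` or `σT - T` has unit `x`-coordinate;
* `local_unip`: in all cases `σT = T` or `σT - T` has unit `x`-coordinate.
-/

set_option autoImplicit false

namespace Fermat.Agent.S13.helper5736

open WeierstrassCurve WeierstrassCurve.Affine
open Fermat.Agent.S05.helper1745

variable {K : Type*} [Field K] {Γ₀ : Type*} [LinearOrderedCommGroupWithZero Γ₀]

/-- The curve is `y² + a₁xy = x³ + a₂x² + a₄x` with `a₁, a₂` integral and `a₄` in the maximal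
ideal. -/
structure NodeForm (v : Valuation K Γ₀) (W : Affine K) : Prop where
  a3 : W.a₃ = 0
  a6 : W.a₆ = 0
  va1 : v W.a₁ ≤ 1
  va2 : v W.a₂ ≤ 1
  va4 : v W.a₄ < 1

namespace NodeForm

variable {v : Valuation K Γ₀} {W : Affine K}

theorem b4_eq (hN : NodeForm v W) : W.b₄ = 2 * W.a₄ := by
  simp [WeierstrassCurve.b₄, hN.a3]

theorem b6_eq (hN : NodeForm v W) : W.b₆ = 0 := by
  simp [WeierstrassCurve.b₆, hN.a3, hN.a6]

theorem b8_eq (hN : NodeForm v W) : W.b₈ = -W.a₄ ^ 2 := by
  simp [WeierstrassCurve.b₈, hN.a3, hN.a6]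

theorem vb2 (hN : NodeForm v W) : v W.b₂ ≤ 1 := by
  simp only [WeierstrassCurve.b₂]
  exact v.map_add_le (v_pow_le v hN.va1 2) (v_mul_le v (v_four_le v) hN.va2)

theorem vb4 (hN : NodeForm v W) : v W.b₄ ≤ 1 := by
  rw [hN.b4_eq]
  exact v_mul_le v (v_two_le v) (le_of_lt hN.va4)

theorem vb6 (hN : NodeForm v W) : v W.b₆ ≤ 1 := by
  rw [hN.b6_eq]
  simp

theorem vb8 (hN : NodeForm v W) : v W.b₈ ≤ 1 := by
  rw [hN.b8_eq, Valuation.map_neg]
  exact v_pow_le v (le_of_lt hN.va4) 2

theorem equation_iff' (hN : NodeForm v W) (x y : K) :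
    W.Equation x y ↔ y ^ 2 + W.a₁ * x * y = x ^ 3 + W.a₂ * x ^ 2 + W.a₄ * x := by
  rw [Affine.equation_iff, hN.a3, hN.a6]
  simp

theorem negY_eq (hN : NodeForm v W) (x y : K) : W.negY x y = -y - W.a₁ * x := by
  simp [Affine.negY, hN.a3]

variable [DecidableEq K]

/-- Torsion points of order prime to the residue characteristic have integral `x`. -/
theorem ker (hN : NodeForm v W) {x y : K} (h : W.Nonsingular x y) (n : ℕ)
    (hvn : v (n : K) = 1) (hn : n • Point.some x y h = 0) : v x ≤ 1 :=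
  v_le_one_of_torsion v W hN.vb2 hN.vb4 hN.vb6 hN.vb8 h n hvn hn

/-- Branch identity: `x(P₁ - P₂) x₁ x₂ (x₁ - x₂)² = (y₁ x₂ + y₂ x₁ + a₁ x₁ x₂)²`. -/
theorem branch_id (hN : NodeForm v W) {x₁ y₁ x₂ y₂ : K} (h₁ : W.Nonsingular x₁ y₁)
    (h₂ : W.Nonsingular x₂ y₂) (hx : x₁ ≠ x₂) :
    ∃ (X Y : K) (hD : W.Nonsingular X Y),
      Point.some x₁ y₁ h₁ - Point.some x₂ y₂ h₂ = Point.some X Y hD ∧
      X * (x₁ * x₂) * (x₁ - x₂) ^ 2 = (y₁ * x₂ + y₂ * x₁ + W.a₁ * x₁ * x₂) ^ 2 := by
  have h₂' : W.Nonsingular x₂ (W.negY x₂ y₂) := (nonsingular_neg ..).mpr h₂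
  refine ⟨_, _, nonsingular_add h₁ h₂' fun hxy => hx hxy.left, ?_, ?_⟩
  · rw [sub_eq_add_neg, Point.neg_some, Point.add_of_X_ne hx]
  · have e₁ := (hN.equation_iff' x₁ y₁).1 h₁.1
    have e₂ := (hN.equation_iff' x₂ y₂).1 h₂.1
    have hd : x₁ - x₂ ≠ 0 := sub_ne_zero.mpr hx
    rw [slope_of_X_ne hx]
    simp only [addX, negY, hN.a3]
    field_simp
    linear_combination (x₂ * (x₁ - x₂)) * e₁ - (x₁ * (x₁ - x₂)) * e₂

/-- Duplication on a node-form curve: `x(2P) ψ₂(P)² = (x² - a₄)²`. -/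
theorem dbl_node (hN : NodeForm v W) {x y : K} (h : W.Nonsingular x y) (hyy : y ≠ W.negY x y) :
    ∃ (X Y : K) (h2 : W.Nonsingular X Y),
      Point.some x y h + Point.some x y h = Point.some X Y h2 ∧
      X * (y - W.negY x y) ^ 2 = (x ^ 2 - W.a₄) ^ 2 := by
  obtain ⟨X, Y, h2, hadd, hX, -⟩ := exists_add_self_some h hyy
  refine ⟨X, Y, h2, hadd, ?_⟩
  rw [sq_psi_two h.1, hX, hN.b4_eq, hN.b6_eq, hN.b8_eq]
  ring

omit [DecidableEq K] in
/-- On a node-form curve, `y` is integral when `x` is. -/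
theorem integral_y (hN : NodeForm v W) {x y : K} (h : W.Nonsingular x y) (hvx : v x ≤ 1) :
    v y ≤ 1 := by
  have e := (hN.equation_iff' x y).1 h.1
  by_contra hcon
  have h1 : 1 < v y := not_le.1 hcon
  have hlt : v (W.a₁ * x * y) < v (y ^ 2) := by
    rw [map_mul, map_pow, sq]
    have : v (W.a₁ * x) ≤ 1 := v_mul_le v hN.va1 hvx
    exact lt_of_le_of_lt (mul_le_of_le_one_left' this)
      (lt_mul_of_one_lt_left (lt_trans zero_lt_one h1) h1)
  have hl : v (y ^ 2 + W.a₁ * x * y) = v (y ^ 2) := Valuation.map_add_eq_of_lt_left v hlt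
  have hr : v (x ^ 3 + W.a₂ * x ^ 2 + W.a₄ * x) ≤ 1 :=
    v.map_add_le (v.map_add_le (v_pow_le v hvx 3) (v_mul_le v hN.va2 (v_pow_le v hvx 2)))
      (v_mul_le v (le_of_lt hN.va4) hvx)
  rw [← e, hl, map_pow] at hr
  exact absurd hr (not_le.2 (one_lt_pow' h1 two_ne_zero))

omit [DecidableEq K] in
/-- `ψ₂ = y - negY x y` is integral at integral points. -/
theorem vpsi_le (hN : NodeForm v W) {x y : K} (hvx : v x ≤ 1) (hvy : v y ≤ 1) :
    v (y - W.negY x y) ≤ 1 := by
  rw [hN.negY_eq]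
  have e : y - (-y - W.a₁ * x) = 2 * y + W.a₁ * x := by ring
  rw [e]
  exact v.map_add_le (v_mul_le v (v_two_le v) hvy) (v_mul_le v hN.va1 hvx)

end NodeForm

section torsion

variable [DecidableEq K] {W : Affine K}

theorem torsion_nsmul (T : W.Point) (p k : ℕ) (hT : p • T = 0) : p • (k • T) = 0 := by
  rw [smul_comm, hT, smul_zero]

/-- For a nonzero point of odd order, `T + T ≠ 0`. -/
theorem add_self_ne_zero_of_odd (T : W.Point) (p : ℕ) (hp : Odd p) (hT : p • T = 0)
    (hT0 : T ≠ 0) : T + T ≠ 0 := by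
  intro h2
  obtain ⟨k, rfl⟩ := hp
  apply hT0
  have e : (2 * k + 1) • T = k • (T + T) + T := by module
  rw [e, h2, smul_zero, zero_add] at hT
  exact hT

theorem half_mul (T : W.Point) (p k : ℕ) (hpk : p = 2 * k + 1) (hT : p • T = 0) :
    (k + 1) • (T + T) = T := by
  have e : (k + 1) • (T + T) = (2 * k + 1) • T + T := by module
  rw [e, ← hpk, hT, zero_add]

end torsion

section main

variable [DecidableEq K] {v : Valuation K Γ₀} {W : Affine K}

omit [DecidableEq K] in
theorem v_eq_one_of_sq (v : Valuation K Γ₀) {a : K} (ha : v (a ^ 2) = 1) : v a = 1 := by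
  rw [map_pow] at ha
  exact sq_eq_one.mp ha

/-- `ψ₂` is a unit at a unit-`x` point of odd order prime to the residue characteristic. -/
theorem psi_unit (hN : NodeForm v W) (p : ℕ) (hodd : Odd p) (hvp : v (p : K) = 1)
    {x y : K} (h : W.Nonsingular x y) (hvx : v x = 1) (hT : p • Point.some x y h = 0) :
    y ≠ W.negY x y ∧ v (y - W.negY x y) = 1 := by
  have h2ne : Point.some x y h + Point.some x y h ≠ 0 :=
    add_self_ne_zero_of_odd _ p hodd hT (Point.some_ne_zero h)
  have hyy : y ≠ W.negY x y := fun hy => h2ne (Point.add_self_of_Y_eq hy)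
  refine ⟨hyy, ?_⟩
  obtain ⟨X, Y, h2, hadd, hid⟩ := hN.dbl_node h hyy
  have hvy : v y ≤ 1 := hN.integral_y h (le_of_eq hvx)
  have hle : v (y - W.negY x y) ≤ 1 := hN.vpsi_le (le_of_eq hvx) hvy
  have hpS : p • Point.some X Y h2 = 0 := by rw [← hadd, smul_add, hT, add_zero]
  have hX1 : v X ≤ 1 := hN.ker h2 p hvp hpS
  have hnum : v (x ^ 2 - W.a₄) = 1 := by
    have hx2 : v (x ^ 2) = 1 := by rw [map_pow, hvx, one_pow]
    rw [Valuation.map_sub_eq_of_lt_left v (by rw [hx2]; exact hN.va4), hx2]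
  have := congrArg v hid
  rw [map_mul, map_pow, map_pow, hnum, one_pow] at this
  by_contra hne
  have hlt : v (y - W.negY x y) < 1 := lt_of_le_of_ne hle hne
  have h3 : v X * v (y - W.negY x y) ^ 2 < 1 :=
    lt_of_le_of_lt (mul_le_of_le_one_left' hX1) (pow_lt_one' hlt two_ne_zero)
  rw [this] at h3
  exact lt_irrefl _ h3

/-- **Unit case**: an inertia-like `σ` fixes the coordinates of a torsion point with unit
`x`-coordinate. -/
theorem unit_fixed (hN : NodeForm v W) (p : ℕ) (hodd : Odd p) (hvp : v (p : K) = 1)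
    (σ : K →+* K) (hσ : ∀ u : K, v u ≤ 1 → v (σ u - u) < 1)
    {x y : K} (h : W.Nonsingular x y) (h' : W.Nonsingular (σ x) (σ y)) (hvx : v x = 1)
    (hT : p • Point.some x y h = 0) (hT' : p • Point.some (σ x) (σ y) h' = 0) :
    σ x = x ∧ σ y = y := by
  have hvy : v y ≤ 1 := hN.integral_y h (le_of_eq hvx)
  obtain ⟨-, hψ⟩ := psi_unit hN p hodd hvp h hvx hT
  have hx' : v (σ x - x) < 1 := hσ x (le_of_eq hvx)
  have hy' : v (σ y - y) < 1 := hσ y hvy
  by_cases hxx : σ x = x
  · refine ⟨hxx, ?_⟩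
    rcases Y_eq_of_X_eq h'.1 h.1 hxx with hy | hy
    · exact hy
    · exfalso
      have e : σ y - y = -(y - W.negY x y) := by rw [hy]; ring
      rw [e, Valuation.map_neg, hψ] at hy'
      exact lt_irrefl _ hy'
  · exfalso
    obtain ⟨X, Y, hD, hsub, hid⟩ := hN.branch_id h' h hxx
    have hR : v (σ y * x + y * σ x + W.a₁ * σ x * x) = 1 := by
      have e : σ y * x + y * σ x + W.a₁ * σ x * x =
          x * (y - W.negY x y) + ((σ y - y) * x + (σ x - x) * (y + W.a₁ * x)) := by
        rw [hN.negY_eq]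
        ring
      have h1 : v (x * (y - W.negY x y)) = 1 := by rw [map_mul, hvx, hψ, mul_one]
      have h2 : v ((σ y - y) * x + (σ x - x) * (y + W.a₁ * x)) < 1 :=
        v.map_add_lt (v_mul_lt_of_lt_of_le v hy' (le_of_eq hvx))
          (v_mul_lt_of_lt_of_le v hx'
            (v.map_add_le hvy (v_mul_le v hN.va1 (le_of_eq hvx))))
      rw [e, Valuation.map_add_eq_of_lt_left v (by rw [h1]; exact h2), h1]
    have hvσx : v (σ x) = 1 := by
      have e : σ x = x + (σ x - x) := by ring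
      rw [e, Valuation.map_add_eq_of_lt_left v (by rw [hvx]; exact hx'), hvx]
    have hvX : 1 < v X := by
      have := congrArg v hid
      rw [map_mul, map_mul, map_mul, hvσx, hvx, map_pow, map_pow, hR, one_pow, mul_one,
        mul_one] at this
      by_contra hcon
      have h3 : v X * v (σ x - x) ^ 2 < 1 :=
        lt_of_le_of_lt (mul_le_of_le_one_left' (not_lt.1 hcon)) (pow_lt_one' hx' two_ne_zero)
      rw [this] at h3
      exact lt_irrefl _ h3
    have hpD : p • Point.some X Y hD = 0 := by rw [← hsub, smul_sub, hT', hT, sub_zero]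
    exact absurd hvX (not_lt.2 (hN.ker hD p hvp hpD))

/-- Multiples of a unit-`x` torsion point are `0` or have unit `x`-coordinate. -/
theorem unit_mul (hN : NodeForm v W) (p : ℕ) (hvp : v (p : K) = 1)
    {X Y : K} (hS : W.Nonsingular X Y) (hvX : v X = 1) (hpS : p • Point.some X Y hS = 0)
    (k : ℕ) :
    k • Point.some X Y hS = 0 ∨
      ∃ (xk yk : K) (hk : W.Nonsingular xk yk), k • Point.some X Y hS = Point.some xk yk hk ∧
        v xk = 1 := by
  induction k with
  | zero => left; exact zero_nsmul _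
  | succ k ih =>
    rcases ih with h0 | ⟨xk, yk, hk, hkS, hvk⟩
    · right
      exact ⟨X, Y, hS, by rw [succ_nsmul, h0, zero_add], hvX⟩
    · have hpk : p • Point.some xk yk hk = 0 := by
        rw [← hkS]
        exact torsion_nsmul _ p k hpS
      by_cases hxx : xk = X
      · subst hxx
        rcases Y_eq_of_X_eq hk.1 hS.1 rfl with hy | hy
        · subst hy
          by_cases hyy : yk = W.negY xk yk
          · left
            rw [succ_nsmul, hkS]
            exact Point.add_self_of_Y_eq hyy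
          · right
            obtain ⟨X2, Y2, h2, hadd, hid⟩ := hN.dbl_node hk hyy
            refine ⟨X2, Y2, h2, by rw [succ_nsmul, hkS, hadd], ?_⟩
            have hle : v X2 ≤ 1 :=
              hN.ker h2 p hvp (by rw [← hadd, smul_add, hpk, add_zero])
            have hvy : v yk ≤ 1 := hN.integral_y hk (le_of_eq hvk)
            have hψ : v (yk - W.negY xk yk) ≤ 1 := hN.vpsi_le (le_of_eq hvk) hvy
            have hnum : v (xk ^ 2 - W.a₄) = 1 := by
              have hx2 : v (xk ^ 2) = 1 := by rw [map_pow, hvk, one_pow]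
              rw [Valuation.map_sub_eq_of_lt_left v (by rw [hx2]; exact hN.va4), hx2]
            have := congrArg v hid
            rw [map_mul, map_pow, map_pow, hnum, one_pow] at this
            refine le_antisymm hle ?_
            by_contra hcon
            have h3 : v X2 * v (yk - W.negY xk yk) ^ 2 < 1 :=
              mul_lt_one_of_lt_of_le (not_le.1 hcon) (pow_le_one' hψ 2)
            rw [this] at h3
            exact lt_irrefl _ h3
        · left
          rw [succ_nsmul, hkS]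
          exact Point.add_of_Y_eq rfl hy
      · obtain ⟨Xp, Yp, Xm, Ym, hp', hm, hadd, hsub, hP, -⟩ := exists_add_sub_some hk hS hxx
        right
        refine ⟨Xp, Yp, hp', by rw [succ_nsmul, hkS, hadd], ?_⟩
        have hle : v Xp ≤ 1 :=
          hN.ker hp' p hvp (by rw [← hadd, smul_add, hpk, hpS, add_zero])
        have hlem : v Xm ≤ 1 :=
          hN.ker hm p hvp (by rw [← hsub, smul_sub, hpk, hpS, sub_zero])
        have hprod : Xp * Xm * (xk - X) ^ 2 = (xk * X - W.a₄) ^ 2 := by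
          rw [hP, hN.b4_eq, hN.b6_eq, hN.b8_eq]
          ring
        have hnum : v (xk * X - W.a₄) = 1 := by
          have hx2 : v (xk * X) = 1 := by rw [map_mul, hvk, hvX, one_mul]
          rw [Valuation.map_sub_eq_of_lt_left v (by rw [hx2]; exact hN.va4), hx2]
        have hd : v (xk - X) ≤ 1 := v.map_sub_le (le_of_eq hvk) (le_of_eq hvX)
        have := congrArg v hprod
        rw [map_mul, map_mul, map_pow, map_pow, hnum, one_pow] at this
        refine le_antisymm hle ?_
        by_contra hcon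
        have h3 : v Xp * v Xm * v (xk - X) ^ 2 < 1 :=
          mul_lt_one_of_lt_of_le (mul_lt_one_of_lt_of_le (not_le.1 hcon) hlem) (pow_le_one' hd 2)
        rw [this] at h3
        exact lt_irrefl _ h3

/-- **Deep region excluded**: a point of odd prime-to-residue order has `v a₄ < v x`. -/
theorem deep_excluded (hN : NodeForm v W) (ha40 : W.a₄ ≠ 0) (p : ℕ) (hodd : Odd p)
    (hvp : v (p : K) = 1) {x y : K} (h : W.Nonsingular x y)
    (hT : p • Point.some x y h = 0) : v W.a₄ < v x := by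
  by_contra hcon
  have hle : v x ≤ v W.a₄ := not_lt.1 hcon
  have h2ne : Point.some x y h + Point.some x y h ≠ 0 :=
    add_self_ne_zero_of_odd _ p hodd hT (Point.some_ne_zero h)
  have hyy : y ≠ W.negY x y := fun hy => h2ne (Point.add_self_of_Y_eq hy)
  obtain ⟨X, Y, h2, hadd, hid⟩ := hN.dbl_node h hyy
  have ha4pos : 0 < v W.a₄ := by
    rw [pos_iff_ne_zero]
    exact (Valuation.ne_zero_iff v).2 ha40
  have hx2 : v (x ^ 2) < v W.a₄ := by
    rw [map_pow, sq]
    calc v x * v x ≤ v W.a₄ * v W.a₄ := mul_le_mul' hle hle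
      _ < 1 * v W.a₄ := mul_lt_mul_of_pos_right hN.va4 ha4pos
      _ = v W.a₄ := one_mul _
  have hnum : v (x ^ 2 - W.a₄) = v W.a₄ := Valuation.map_sub_eq_of_lt_right v hx2
  have hψ2 : v ((y - W.negY x y) ^ 2) ≤ v W.a₄ * v W.a₄ := by
    rw [sq_psi_two h.1, hN.b4_eq, hN.b6_eq]
    have e : 4 * x ^ 3 + W.b₂ * x ^ 2 + 2 * (2 * W.a₄) * x + 0 =
        x * (4 * x ^ 2 + W.b₂ * x + 4 * W.a₄) := by ring
    rw [e, map_mul]
    apply mul_le_mul' hle
    refine v.map_add_le (v.map_add_le ?_ ?_) ?_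
    · rw [map_mul]
      exact le_trans (mul_le_of_le_one_left' (v_four_le v)) (le_of_lt hx2)
    · rw [map_mul]
      exact le_trans (mul_le_of_le_one_left' hN.vb2) hle
    · rw [map_mul]
      exact mul_le_of_le_one_left' (v_four_le v)
  have hψ0 : y - W.negY x y ≠ 0 := sub_ne_zero.mpr hyy
  have hψpos : 0 < v ((y - W.negY x y) ^ 2) := by
    rw [pos_iff_ne_zero]
    exact (Valuation.ne_zero_iff v).2 (pow_ne_zero 2 hψ0)
  have hvX : 1 ≤ v X := by
    have := congrArg v hid
    rw [map_mul, map_pow v (x ^ 2 - W.a₄) 2, hnum, pow_two (v W.a₄)] at this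
    by_contra hlt
    have h3 : v X * v ((y - W.negY x y) ^ 2) < v W.a₄ * v W.a₄ :=
      calc v X * v ((y - W.negY x y) ^ 2) < 1 * v ((y - W.negY x y) ^ 2) :=
            mul_lt_mul_of_pos_right (not_le.1 hlt) hψpos
        _ = v ((y - W.negY x y) ^ 2) := one_mul _
        _ ≤ v W.a₄ * v W.a₄ := hψ2
    rw [this] at h3
    exact lt_irrefl _ h3
  have hpS : p • Point.some X Y h2 = 0 := by rw [← hadd, smul_add, hT, add_zero]
  have hvX1 : v X = 1 := le_antisymm (hN.ker h2 p hvp hpS) hvX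
  obtain ⟨k, hk⟩ := hodd
  have hT2 : (k + 1) • Point.some X Y h2 = Point.some x y h := by
    rw [← hadd]
    exact half_mul _ p k hk hT
  rcases unit_mul hN p hvp h2 hvX1 hpS (k + 1) with h0 | ⟨xk, yk, hk', hkS, hvk⟩
  · rw [hT2] at h0
    exact Point.some_ne_zero _ h0
  · rw [hT2] at hkS
    have hxk : x = xk := by
      injection hkS
    rw [← hxk] at hvk
    rw [hvk] at hle
    exact absurd hN.va4 (not_lt.2 hle)

/-- **Node region**: for a torsion point with `v a₄ < v x < 1`, either `σ` fixes it or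
`σT - T` has unit `x`-coordinate. -/
theorem node_diff (hN : NodeForm v W) (hvb2 : v W.b₂ = 1) (p : ℕ) (hvp : v (p : K) = 1)
    (σ : K →+* K) (hσ : ∀ u : K, v u ≤ 1 → v (σ u - u) < 1) (hσv : ∀ u : K, v (σ u) = v u)
    {x y : K} (h : W.Nonsingular x y) (h' : W.Nonsingular (σ x) (σ y))
    (hvx1 : v x < 1) (hvx4 : v W.a₄ < v x)
    (hT : p • Point.some x y h = 0) (hT' : p • Point.some (σ x) (σ y) h' = 0) :
    (σ x = x ∧ σ y = y) ∨
      ∃ (X Y : K) (hD : W.Nonsingular X Y),
        Point.some (σ x) (σ y) h' - Point.some x y h = Point.some X Y hD ∧ v X = 1 := by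
  have hxpos : 0 < v x := lt_of_le_of_lt zero_le hvx4
  have hx0 : x ≠ 0 := (Valuation.ne_zero_iff v).1 hxpos.ne'
  have hσx0 : σ x ≠ 0 := (map_ne_zero σ).2 hx0
  have e := (hN.equation_iff' x y).1 h.1
  have eγ : (y / x) ^ 2 + W.a₁ * (y / x) = x + W.a₂ + W.a₄ / x := by
    field_simp
    linear_combination e
  have hq : v (W.a₄ / x) < 1 := by
    rw [map_div₀]
    exact (div_lt_one₀ hxpos).2 hvx4
  have hγ2 : v ((y / x) ^ 2 + W.a₁ * (y / x)) ≤ 1 := by
    rw [eγ]
    exact v.map_add_le (v.map_add_le (le_of_lt hvx1) hN.va2) (le_of_lt hq)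
  have hvγ : v (y / x) ≤ 1 := by
    by_contra hcon
    have h1 : 1 < v (y / x) := not_le.1 hcon
    have hlt : v (W.a₁ * (y / x)) < v ((y / x) ^ 2) := by
      rw [map_mul, map_pow, sq]
      exact lt_of_le_of_lt (mul_le_of_le_one_left' hN.va1)
        (lt_mul_of_one_lt_left (lt_trans zero_lt_one h1) h1)
    rw [Valuation.map_add_eq_of_lt_left v hlt, map_pow] at hγ2
    exact absurd hγ2 (not_le.2 (one_lt_pow' h1 two_ne_zero))
  have hu : v (2 * (y / x) + W.a₁) = 1 := by
    apply v_eq_one_of_sq v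
    have e2 : (2 * (y / x) + W.a₁) ^ 2 = W.b₂ + (4 * x + 4 * (W.a₄ / x)) := by
      simp only [WeierstrassCurve.b₂]
      linear_combination 4 * eγ
    have hsmall : v (4 * x + 4 * (W.a₄ / x)) < v W.b₂ := by
      rw [hvb2]
      exact v.map_add_lt (v_mul_lt_of_le_of_lt v (v_four_le v) hvx1)
        (v_mul_lt_of_le_of_lt v (v_four_le v) hq)
    rw [e2, Valuation.map_add_eq_of_lt_left v hsmall, hvb2]
  have hσγ : v (σ (y / x) - y / x) < 1 := hσ _ hvγ
  have hσγ' : σ (y / x) = σ y / σ x := map_div₀ σ y x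
  have hR : σ y * x + y * σ x + W.a₁ * σ x * x =
      σ x * x * ((2 * (y / x) + W.a₁) + (σ (y / x) - y / x)) := by
    rw [hσγ']
    field_simp
    ring
  have hvR : v (σ y * x + y * σ x + W.a₁ * σ x * x) = v x * v x := by
    rw [hR, map_mul, map_mul, hσv,
      Valuation.map_add_eq_of_lt_left v (by rw [hu]; exact hσγ), hu, mul_one]
  by_cases hxx : σ x = x
  · left
    refine ⟨hxx, ?_⟩
    rcases Y_eq_of_X_eq h'.1 h.1 hxx with hy | hy
    · exact hy
    · exfalso
      have e3 : σ (y / x) - y / x = -(2 * (y / x) + W.a₁) := by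
        rw [hσγ', hy, hxx, hN.negY_eq]
        field_simp
        ring
      rw [e3, Valuation.map_neg, hu] at hσγ
      exact lt_irrefl _ hσγ
  · right
    obtain ⟨X, Y, hD, hsub, hid⟩ := hN.branch_id h' h hxx
    refine ⟨X, Y, hD, hsub, ?_⟩
    have hpD : p • Point.some X Y hD = 0 := by rw [← hsub, smul_sub, hT', hT, sub_zero]
    have hle : v X ≤ 1 := hN.ker hD p hvp hpD
    refine le_antisymm hle ?_
    have hd : v (σ x - x) ≤ v x := v.map_sub_le (le_of_eq (hσv x)) le_rfl
    have := congrArg v hid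
    rw [map_mul, map_mul, map_mul, hσv, map_pow, map_pow, hvR, sq, sq] at this
    by_contra hcon
    have hpos2 : 0 < v x * v x := mul_pos hxpos hxpos
    have h3 : v X * (v x * v x) * (v (σ x - x) * v (σ x - x)) < v x * v x * (v x * v x) :=
      calc v X * (v x * v x) * (v (σ x - x) * v (σ x - x))
          ≤ v X * (v x * v x) * (v x * v x) := mul_le_mul' le_rfl (mul_le_mul' hd hd)
        _ < 1 * (v x * v x) * (v x * v x) := by
            apply mul_lt_mul_of_pos_right _ hpos2
            exact mul_lt_mul_of_pos_right (not_le.1 hcon) hpos2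
        _ = v x * v x * (v x * v x) := by rw [one_mul]
    rw [this] at h3
    exact lt_irrefl _ h3

/-- **Local unipotence**: for a torsion point `T` of odd order prime to the residue
characteristic and an inertia-like `σ` preserving `v`, either `σ` fixes `T` or `σT - T` has
unit `x`-coordinate. -/
theorem local_unip (hN : NodeForm v W) (ha40 : W.a₄ ≠ 0) (hvb2 : v W.b₂ = 1) (p : ℕ)
    (hodd : Odd p) (hvp : v (p : K) = 1)
    (σ : K →+* K) (hσ : ∀ u : K, v u ≤ 1 → v (σ u - u) < 1) (hσv : ∀ u : K, v (σ u) = v u)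
    {x y : K} (h : W.Nonsingular x y) (h' : W.Nonsingular (σ x) (σ y))
    (hT : p • Point.some x y h = 0) (hT' : p • Point.some (σ x) (σ y) h' = 0) :
    (σ x = x ∧ σ y = y) ∨
      ∃ (X Y : K) (hD : W.Nonsingular X Y),
        Point.some (σ x) (σ y) h' - Point.some x y h = Point.some X Y hD ∧ v X = 1 := by
  have hle : v x ≤ 1 := hN.ker h p hvp hT
  rcases lt_or_eq_of_le hle with hlt | heq
  · exact node_diff hN hvb2 p hvp σ hσ hσv h h' hlt
      (deep_excluded hN ha40 p hodd hvp h hT) hT hT'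
  · left
    exact unit_fixed hN p hodd hvp σ hσ h h' heq hT hT'

end main

end Fermat.Agent.S13.helper5736
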