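import Fermat.Agent.S13.helper612_AtPFrey
import Fermat.Agent.Lib.helper822_TorsionFinite
import Fermat.Prelude.Def_FLTPrelim_CofixedLine

/-!
# S13, ingredient I5 (`at_p`): inertia at `p` and a Galois-stable line (helper612)

`at_p_of_ladder` is the field `at_p` of helper13's `Ingredients` for S13, verbatim, under two
explicit hypotheses:

* `LadderBound P` : for every finite set `S` of distinct non-integral `x`-coordinates of
  `p`-torsion points of the Frey curve, `∏_{x ∈ S} x⁻¹` divides `p` in `A`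
  (consequence of the division polynomial `Ψ_p = ± p x^((p²-1)/2) + …` having integral
  coefficients; helper853's ladder, deliverable (e));
* `Nat.card (Vp P) ≤ p²`.

The local input at `p` is `frey_inertia_sub_kerRed` (file `helper612_AtPFrey`).
Uniformity over all valuation subrings `A` over `p` is obtained without conjugacy of places:
`N ⊆ E₁(A)` iff the product of the `x`-coordinates of `N ∖ 0` (a rational number, being
Galois-fixed) is not in `A`, and membership of a rational number in `A` only depends on `p`.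
-/

set_option autoImplicit false

namespace Fermat.Agent.S13.helper612

open WeierstrassCurve WeierstrassCurve.Affine WeierstrassCurve.Affine.Point

local notation "Qbar" => AlgebraicClosure ℚ

/-- The `p`-torsion of the Frey curve over `ℚ̄`. -/
abbrev Vp (P : FreyPackage) : Type := Submodule.torsionBy ℤ (FreyPt P) P.p

/-! ### Rational numbers in a valuation subring over `p` -/

theorem isGalois_rat : IsGalois ℚ Qbar := by
  have h : (DivisionRing.toRatAlgebra : Algebra ℚ Qbar) = AlgebraicClosure.instAlgebra ℚ :=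
    Subsingleton.elim _ _
  have : IsAlgClosure ℚ Qbar := by rw [h]; infer_instance
  infer_instance

/-- An element of `ℚ̄` fixed by every automorphism is rational. -/
theorem fixed_mem_range (x : Qbar) (h : ∀ σ : Qbar ≃ₐ[ℚ] Qbar, σ x = x) :
    ∃ r : ℚ, algebraMap ℚ Qbar r = x :=
  haveI := isGalois_rat
  (InfiniteGalois.mem_range_algebraMap_iff_fixed (k := ℚ) (K := Qbar) x).mpr h

theorem algebraMap_rat_eq (r : ℚ) :
    algebraMap ℚ Qbar r = ((r.num : ℤ) : Qbar) / ((r.den : ℤ) : Qbar) := by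
  rw [eq_ratCast, Rat.cast_def]
  push_cast
  rfl

/-- Membership of a rational number in a valuation subring over `p` only depends on `p`. -/
theorem rat_mem_iff (A : ValuationSubring Qbar) {p : ℕ} (hp : p.Prime)
    (hA : A.LiesOverPrime p) (r : ℚ) :
    algebraMap ℚ Qbar r ∈ A ↔ ¬ (p : ℤ) ∣ (r.den : ℤ) := by
  rw [← A.valuation_le_one_iff, algebraMap_rat_eq, map_div₀]
  have hnum := Fermat.Agent.S05.helper2200.valuation_intCast_le_one A r.num
  constructor
  · intro hle hdvd
    have hden : A.valuation ((r.den : ℤ) : Qbar) < 1 :=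
      (Fermat.Agent.S05.helper2200.valuation_intCast_lt_one_iff A hp hA _).mpr hdvd
    have hnd : ¬ (p : ℤ) ∣ r.num := by
      intro hn
      have h1 : p ∣ r.num.natAbs := Int.natCast_dvd.mp hn
      have h2 : p ∣ r.den := Int.natCast_dvd_natCast.mp hdvd
      have := Nat.dvd_gcd h1 h2
      rw [r.reduced] at this
      exact hp.one_lt.ne' (Nat.dvd_one.mp this)
    have hnum1 := Fermat.Agent.S05.helper2200.valuation_intCast_eq_one A hp hA hnd
    rw [hnum1] at hle
    have hden0 : A.valuation ((r.den : ℤ) : Qbar) ≠ 0 := by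
      rw [Valuation.ne_zero_iff]
      exact_mod_cast r.den_ne_zero
    have : 1 < 1 / A.valuation ((r.den : ℤ) : Qbar) :=
      (one_lt_div₀ (zero_lt_iff.mpr hden0)).mpr hden
    exact absurd hle (not_le.mpr this)
  · intro hnd
    have hden1 := Fermat.Agent.S05.helper2200.valuation_intCast_eq_one A hp hA hnd
    rw [hden1, div_one]
    exact hnum

/-- If `p` divides the denominator of `r`, then `r⁻¹ ∈ p A`. -/
theorem rat_inv_val_le (A : ValuationSubring Qbar) {p : ℕ} (hp : p.Prime)
    (hA : A.LiesOverPrime p) (r : ℚ) (h : (p : ℤ) ∣ (r.den : ℤ)) :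
    A.valuation (algebraMap ℚ Qbar r)⁻¹ ≤ A.valuation (p : Qbar) := by
  rw [algebraMap_rat_eq, map_inv₀, map_div₀, inv_div]
  have hnd : ¬ (p : ℤ) ∣ r.num := by
    intro hn
    have h1 : p ∣ r.num.natAbs := Int.natCast_dvd.mp hn
    have h2 : p ∣ r.den := Int.natCast_dvd_natCast.mp h
    have := Nat.dvd_gcd h1 h2
    rw [r.reduced] at this
    exact hp.one_lt.ne' (Nat.dvd_one.mp this)
  rw [Fermat.Agent.S05.helper2200.valuation_intCast_eq_one A hp hA hnd, div_one]
  obtain ⟨k, hk⟩ := h
  rw [hk]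
  push_cast
  rw [map_mul]
  exact mul_le_of_le_one_right zero_le
    (Fermat.Agent.S05.helper2200.valuation_intCast_le_one A k)

/-! ### `x`-coordinates -/

/-- The `x`-coordinate of a point of the Frey curve (`0` for the point at infinity). -/
noncomputable def xCoord (P : FreyPackage) : FreyPt P → Qbar
  | .zero => 0
  | .some x _ _ => x

theorem xCoord_smul (P : FreyPackage) (σ : Qbar ≃ₐ[ℚ] Qbar) (T : FreyPt P) :
    xCoord P (σ • T) = σ (xCoord P T) := by
  rcases T with _ | ⟨x, y, h⟩
  · exact (map_zero σ).symm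
  · rfl

theorem exists_some_of_ne_zero (P : FreyPackage) {T : FreyPt P} (hT : T ≠ 0) :
    ∃ (y : Qbar) (h : ((P.freyCurve)⁄Qbar).Nonsingular (xCoord P T) y),
      T = Point.some (xCoord P T) y h := by
  rcases T with _ | ⟨x, y, h⟩
  · exact absurd rfl hT
  · exact ⟨y, h, rfl⟩

theorem kerRed_iff_of_ne_zero (P : FreyPackage) (A : ValuationSubring Qbar) {T : FreyPt P}
    (hT : T ≠ 0) : KerRed P A T ↔ xCoord P T ∉ A := by
  obtain ⟨y, h, hTe⟩ := exists_some_of_ne_zero P hT
  constructor
  · rintro (h0 | ⟨x', y', h', he, hx⟩)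
    · exact absurd h0 hT
    · rw [he]; exact hx
  · intro hx
    exact Or.inr ⟨_, y, h, hTe, hx⟩

/-- Two affine points with the same `x`-coordinate are equal or opposite. -/
theorem eq_or_eq_neg_of_xCoord_eq (P : FreyPackage) {S T : FreyPt P} (hS : S ≠ 0)
    (hT : T ≠ 0) (hx : xCoord P S = xCoord P T) : S = T ∨ S = -T := by
  rcases S with _ | ⟨x₁, y₁, h₁⟩
  · exact absurd rfl hS
  rcases T with _ | ⟨x₂, y₂, h₂⟩
  · exact absurd rfl hT
  have hx' : x₁ = x₂ := hx
  subst hx'
  rcases Y_eq_of_X_eq h₁.1 h₂.1 rfl with hy | hy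
  · left; subst hy; rfl
  · right
    rw [Point.neg_some]
    subst hy; rfl

theorem kerRed_nsmul (P : FreyPackage) (A : ValuationSubring Qbar) (hA : A.LiesOverPrime P.p)
    {T : FreyPt P} (hT : KerRed P A T) (k : ℕ) : KerRed P A (k • T) := by
  induction k with
  | zero => rw [zero_nsmul]; exact kerRed_zero P A
  | succ k ih => rw [succ_nsmul]; exact kerRed_add P A hA ih hT

/-! ### Valuations of finite products -/

theorem prod_not_mem (A : ValuationSubring Qbar) (S : Finset Qbar) (hS : S.Nonempty)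
    (h : ∀ x ∈ S, x ∉ A) : ∏ x ∈ S, x ∉ A := by
  classical
  have key : ∀ S : Finset Qbar, S.Nonempty → (∀ x ∈ S, 1 < A.valuation x) →
      1 < A.valuation (∏ x ∈ S, x) := by
    intro S hS
    induction hS using Finset.Nonempty.cons_induction with
    | singleton a => intro h; simpa using h a (Finset.mem_singleton_self a)
    | cons a s ha hs ih =>
      intro h
      rw [Finset.prod_cons, map_mul]
      have h1 := h a (Finset.mem_cons_self a s)
      have h2 := ih (fun x hx => h x (Finset.mem_cons_of_mem hx))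
      calc (1 : A.ValueGroup) < A.valuation a := h1
        _ = A.valuation a * 1 := (mul_one _).symm
        _ ≤ A.valuation a * A.valuation (∏ x ∈ s, x) := mul_le_mul' le_rfl h2.le
  have := key S hS (fun x hx => by
    have := h x hx
    rwa [← A.valuation_le_one_iff, not_le] at this)
  rwa [← A.valuation_le_one_iff, not_le]

/-! ### The ladder bound and the main theorem -/

/-- **Ladder bound** (consequence of the division polynomial `Ψ_p` having integral
coefficients and leading coefficient `± p`): for a finite set `S` of non-integral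
`x`-coordinates of `p`-torsion points, `∏_{x ∈ S} x⁻¹` divides `p` in `A`. -/
def LadderBound (P : FreyPackage) : Prop :=
  ∀ A : ValuationSubring Qbar, A.LiesOverPrime P.p → ∀ S : Finset Qbar,
    (∀ x ∈ S, x ∉ A ∧ ∃ (y : Qbar) (h : ((P.freyCurve)⁄Qbar).Nonsingular x y),
      P.p • (Point.some x y h : FreyPt P) = 0) →
    ∃ c ∈ A, (P.p : Qbar) = c * ∏ x ∈ S, x⁻¹

theorem torsion_nsmul (P : FreyPackage) (T : Vp P) : P.p • (T : FreyPt P) = 0 := by
  have h := T.2
  rw [Submodule.mem_torsionBy_iff] at h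
  rwa [natCast_zsmul] at h

/-- **Ingredient I5 (`at_p`) of S13**, from the ladder bound and `#E[p] ≤ p²`. -/
theorem at_p_of_ladder (P : FreyPackage) (hL : LadderBound P)
    (hcard : Nat.card (Vp P) ≤ P.p ^ 2)
    (N : Submodule (ZMod P.p) (Vp P)) (hN : IsGaloisStable ℚ N) (h0 : N ≠ ⊥) (h1 : N ≠ ⊤) :
    (∀ A : ValuationSubring Qbar, A.LiesOverPrime P.p →
      ∀ σ ∈ A.inertiaSubgroupIn ℚ, ∀ x ∈ N, σ • x = x) ∨
    (∀ A : ValuationSubring Qbar, A.LiesOverPrime P.p →
      ∀ σ ∈ A.inertiaSubgroupIn ℚ, ∀ x : Vp P, σ • x - x ∈ N) := by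
  classical
  have : Fact P.p.Prime := ⟨P.pp⟩
  have : Finite (Vp P) := Fermat.Agent.Lib.helper822.finite_torsionBy _ P.p P.hp0
  let _ : Fintype (Vp P) := Fintype.ofFinite _
  -- `N` is a line: every element is a multiple of any nonzero element
  have hline : ∀ n ∈ N, n ≠ 0 → ∀ w ∈ N, ∃ k : ℕ, k • n = w := by
    intro n hn hn0 w hw
    have hV : Module.finrank (ZMod P.p) (Vp P) ≤ 2 := by
      have h := Module.natCard_eq_pow_finrank (K := ZMod P.p) (V := Vp P)
      rw [Nat.card_zmod] at h
      rw [h] at hcard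
      exact (Nat.pow_le_pow_iff_right P.pp.one_lt).mp hcard
    have hlt : Module.finrank (ZMod P.p) N < Module.finrank (ZMod P.p) (Vp P) :=
      Submodule.finrank_lt h1
    have hpos : 0 < Module.finrank (ZMod P.p) N := by
      rw [Nat.pos_iff_ne_zero]
      intro h
      exact h0 (Submodule.finrank_eq_zero.mp h)
    have hone : Module.finrank (ZMod P.p) N = 1 := by omega
    have hn0' : (⟨n, hn⟩ : N) ≠ 0 := fun h => hn0 (congrArg Subtype.val h)
    obtain ⟨c, hc⟩ := (finrank_eq_one_iff_of_nonzero' (⟨n, hn⟩ : N) hn0').mp hone ⟨w, hw⟩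
    refine ⟨c.val, ?_⟩
    have hc' : c • n = w := congrArg Subtype.val hc
    rw [← hc', ← Nat.cast_smul_eq_nsmul (ZMod P.p), ZMod.natCast_zmod_val]
  -- the `x`-coordinates of the nonzero points of `N`
  set SN : Finset Qbar :=
    (Finset.univ.filter (fun T : Vp P => T ∈ N ∧ T ≠ 0)).image
      (fun T : Vp P => xCoord P (T : FreyPt P)) with hSN
  have hmemSN : ∀ x, x ∈ SN ↔ ∃ T : Vp P, (T ∈ N ∧ T ≠ 0) ∧ xCoord P (T : FreyPt P) = x := by
    intro x
    simp only [hSN, Finset.mem_image, Finset.mem_filter, Finset.mem_univ, true_and]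
  have hSNne : SN.Nonempty := by
    obtain ⟨n, hn, hn0⟩ := (Submodule.ne_bot_iff N).mp h0
    exact ⟨_, (hmemSN _).mpr ⟨n, ⟨hn, hn0⟩, rfl⟩⟩
  have hcoe0 : ∀ T : Vp P, T ≠ 0 → (T : FreyPt P) ≠ 0 := fun T hT h => hT (Subtype.ext h)
  -- Galois invariance of `SN`
  have hSNinv : ∀ σ : Qbar ≃ₐ[ℚ] Qbar, ∀ x ∈ SN, σ x ∈ SN := by
    intro σ x hx
    obtain ⟨T, ⟨hTN, hT0⟩, rfl⟩ := (hmemSN x).mp hx
    refine (hmemSN _).mpr ⟨σ • T, ⟨hN σ T hTN, ?_⟩, ?_⟩
    · intro h
      exact hT0 ((smul_eq_zero_iff_eq σ).mp h)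
    · exact xCoord_smul P σ (T : FreyPt P)
  -- the product of the `x`-coordinates is rational
  obtain ⟨r, hr⟩ : ∃ r : ℚ, algebraMap ℚ Qbar r = ∏ x ∈ SN, x := by
    refine fixed_mem_range _ fun σ => ?_
    have himg : SN.image σ = SN :=
      Finset.eq_of_subset_of_card_le
        (fun y hy => by
          obtain ⟨x, hx, rfl⟩ := Finset.mem_image.mp hy
          exact hSNinv σ x hx)
        (by rw [Finset.card_image_of_injective _ σ.injective])
    calc σ (∏ x ∈ SN, x) = ∏ x ∈ SN, σ x := map_prod σ _ _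
      _ = ∏ y ∈ SN.image σ, y :=
          (Finset.prod_image (f := fun y : Qbar => y) (fun a _ b _ h => σ.injective h)).symm
      _ = ∏ x ∈ SN, x := by rw [himg]
  -- dichotomy for a single `A`
  have hdich : ∀ A : ValuationSubring Qbar, A.LiesOverPrime P.p →
      ((∀ T ∈ N, KerRed P A (T : FreyPt P)) ∧ (∏ x ∈ SN, x) ∉ A) ∨
      ((∀ T ∈ N, KerRed P A (T : FreyPt P) → T = 0) ∧ (∏ x ∈ SN, x) ∈ A) := by
    intro A hA
    by_cases hex : ∃ T ∈ N, T ≠ 0 ∧ KerRed P A (T : FreyPt P)
    · left
      obtain ⟨T, hTN, hT0, hTK⟩ := hex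
      have hall : ∀ T' ∈ N, KerRed P A (T' : FreyPt P) := by
        intro T' hT'
        obtain ⟨k, rfl⟩ := hline T hTN hT0 T' hT'
        exact kerRed_nsmul P A hA hTK k
      refine ⟨hall, prod_not_mem A SN hSNne fun x hx => ?_⟩
      obtain ⟨T', ⟨hT'N, hT'0⟩, rfl⟩ := (hmemSN x).mp hx
      exact (kerRed_iff_of_ne_zero P A (hcoe0 T' hT'0)).mp (hall T' hT'N)
    · right
      push Not at hex
      refine ⟨fun T hTN hTK => by_contra fun hT0 => hex T hTN hT0 hTK, ?_⟩
      refine Subring.prod_mem A.toSubring fun x hx => ?_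
      obtain ⟨T', ⟨hT'N, hT'0⟩, rfl⟩ := (hmemSN x).mp hx
      by_contra hxA
      exact hex T' hT'N hT'0 ((kerRed_iff_of_ne_zero P A (hcoe0 T' hT'0)).mpr hxA)
  by_cases hQ : (P.p : ℤ) ∣ (r.den : ℤ)
  · -- `N` lies in the kernel of reduction of every `A`: inertia is trivial on the quotient
    right
    intro A hA σ hσ x
    have hunot : (∏ x ∈ SN, x) ∉ A := by
      rw [← hr]; exact fun h => (rat_mem_iff A P.pp hA r).mp h hQ
    have hall : ∀ T ∈ N, KerRed P A (T : FreyPt P) := by
      rcases hdich A hA with h | h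
      · exact h.1
      · exact absurd h.2 hunot
    have hK : KerRed P A ((σ • x - x : Vp P) : FreyPt P) :=
      frey_inertia_sub_kerRed P A hA σ hσ (x : FreyPt P) (torsion_nsmul P x)
    by_contra hD
    have hD0 : (σ • x - x : Vp P) ≠ 0 := fun h => hD (h ▸ N.zero_mem)
    have hDc0 := hcoe0 _ hD0
    have hx'A : xCoord P ((σ • x - x : Vp P) : FreyPt P) ∉ A :=
      (kerRed_iff_of_ne_zero P A hDc0).mp hK
    have hx'S : xCoord P ((σ • x - x : Vp P) : FreyPt P) ∉ SN := by
      intro hmem
      obtain ⟨T, ⟨hTN, hT0⟩, hTx⟩ := (hmemSN _).mp hmem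
      rcases eq_or_eq_neg_of_xCoord_eq P hDc0 (hcoe0 T hT0) hTx.symm with h | h
      · exact hD ((Subtype.ext h : (σ • x - x : Vp P) = T) ▸ hTN)
      · exact hD ((Subtype.ext h : (σ • x - x : Vp P) = -T) ▸ N.neg_mem hTN)
    obtain ⟨c, hcA, hc⟩ := hL A hA (insert (xCoord P ((σ • x - x : Vp P) : FreyPt P)) SN)
      (by
        intro z hz
        rcases Finset.mem_insert.mp hz with rfl | hz
        · obtain ⟨y, h, he⟩ := exists_some_of_ne_zero P hDc0
          exact ⟨hx'A, y, h, by rw [← he]; exact torsion_nsmul P _⟩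
        · obtain ⟨T, ⟨hTN, hT0⟩, rfl⟩ := (hmemSN z).mp hz
          obtain ⟨y, h, he⟩ := exists_some_of_ne_zero P (hcoe0 T hT0)
          exact ⟨(kerRed_iff_of_ne_zero P A (hcoe0 T hT0)).mp (hall T hTN), y, h,
            by rw [← he]; exact torsion_nsmul P _⟩)
    rw [Finset.prod_insert hx'S, Finset.prod_inv_distrib, ← hr] at hc
    have hv := congrArg A.valuation hc
    rw [map_mul, map_mul] at hv
    have hvc : A.valuation c ≤ 1 := (A.valuation_le_one_iff c).mpr hcA
    have hvx : A.valuation (xCoord P ((σ • x - x : Vp P) : FreyPt P))⁻¹ < 1 := by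
      rw [map_inv₀]
      have h1 : 1 < A.valuation (xCoord P ((σ • x - x : Vp P) : FreyPt P)) := by
        rwa [← A.valuation_le_one_iff, not_le] at hx'A
      exact (inv_lt_one₀ (lt_trans zero_lt_one h1)).mpr h1
    have hvu := rat_inv_val_le A P.pp hA r hQ
    have hp0 : 0 < A.valuation (P.p : Qbar) := by
      rw [Valuation.pos_iff]
      exact_mod_cast P.hp0
    have hlt : A.valuation (P.p : Qbar) < A.valuation (P.p : Qbar) := by
      calc A.valuation (P.p : Qbar)
          = A.valuation c * (A.valuation (xCoord P ((σ • x - x : Vp P) : FreyPt P))⁻¹ *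
              A.valuation (algebraMap ℚ Qbar r)⁻¹) := hv
        _ ≤ 1 * (A.valuation (xCoord P ((σ • x - x : Vp P) : FreyPt P))⁻¹ *
              A.valuation (P.p : Qbar)) := mul_le_mul' hvc (mul_le_mul' le_rfl hvu)
        _ = A.valuation (xCoord P ((σ • x - x : Vp P) : FreyPt P))⁻¹ *
              A.valuation (P.p : Qbar) := one_mul _
        _ < A.valuation (P.p : Qbar) := mul_lt_of_lt_one_left hp0 hvx
    exact lt_irrefl _ hlt
  · -- `N` meets the kernel of reduction trivially for every `A`: inertia fixes `N`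
    left
    intro A hA σ hσ x hx
    have hu : (∏ x ∈ SN, x) ∈ A := by
      rw [← hr]; exact (rat_mem_iff A P.pp hA r).mpr hQ
    have htriv : ∀ T ∈ N, KerRed P A (T : FreyPt P) → T = 0 := by
      rcases hdich A hA with h | h
      · exact absurd hu h.2
      · exact h.1
    have hK : KerRed P A ((σ • x - x : Vp P) : FreyPt P) :=
      frey_inertia_sub_kerRed P A hA σ hσ (x : FreyPt P) (torsion_nsmul P x)
    have hmem : σ • x - x ∈ N := N.sub_mem (hN σ x hx) hx
    exact sub_eq_zero.mp (htriv _ hmem hK)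

end Fermat.Agent.S13.helper612
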