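import Fermat.Agent.S13.helper612_AtPLocal
import Fermat.Agent.S05.helper956_FreyShape
import Fermat.Agent.S05.helper2200_Inertia

/-!
# S13, ingredient I5: the local statement at `p` for the Frey curve (helper612)

For a Frey package `P`, a valuation subring `A` of `ℚ̄` over the prime `p = P.p` and `σ` in
the inertia group of `A`:

* `KerRed P A T` : the point `T` of the Frey curve over `ℚ̄` is `0` or has `x(T) ∉ A`
  (kernel of reduction at `A`);
* `kerRed_add`, `kerRed_neg`, `kerRed_sub` : it is a subgroup;
* `frey_inertia_sub_kerRed` : `σ • T - T` lies in the kernel of reduction for every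
  `p`-torsion point `T`.

These are hypothesis-free statements about the frozen objects (no custom definitions other
than `KerRed`, which unfolds to a statement about `x`-coordinates).
-/

set_option autoImplicit false

namespace Fermat.Agent.S13.helper612

open WeierstrassCurve WeierstrassCurve.Affine WeierstrassCurve.Affine.Point
open Fermat.Agent.S05.helper305

local notation "Qbar" => AlgebraicClosure ℚ

/-- The points of the Frey curve over `ℚ̄`. -/
abbrev FreyPt (P : FreyPackage) : Type := ((P.freyCurve)⁄Qbar).Point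

/-- Kernel of reduction at `A`: the point at infinity, or an affine point with `x ∉ A`. -/
def KerRed (P : FreyPackage) (A : ValuationSubring Qbar) (T : FreyPt P) : Prop :=
  T = 0 ∨ ∃ (x y : Qbar) (h : ((P.freyCurve)⁄Qbar).Nonsingular x y),
    T = Point.some x y h ∧ x ∉ A

theorem kerRed_zero (P : FreyPackage) (A : ValuationSubring Qbar) : KerRed P A 0 := Or.inl rfl

/-- `KerRed` is `InE1` for any integral centre `e`. -/
theorem kerRed_iff_inE1 (P : FreyPackage) (A : ValuationSubring Qbar) {e : Qbar}
    (he : A.valuation e ≤ 1) (T : FreyPt P) :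
    KerRed P A T ↔ InE1 A.valuation (P.freyCurve.baseChange Qbar) e T := by
  have key : ∀ x : Qbar, x ∉ A ↔ 1 < A.valuation (x - e) := by
    intro x
    rw [← A.valuation_le_one_iff, not_le]
    constructor
    · intro hx
      have e1 : x - e = x + -e := by ring
      rw [e1, Valuation.map_add_eq_of_lt_left]
      · exact hx
      · rw [Valuation.map_neg]; exact lt_of_le_of_lt he hx
    · intro hx
      have e1 : x = (x - e) + e := by ring
      rw [e1, Valuation.map_add_eq_of_lt_left]
      · exact hx
      · exact lt_of_le_of_lt he hx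
  constructor
  · rintro (h0 | ⟨x, y, h, rfl, hx⟩)
    · exact Or.inl h0
    · exact Or.inr ⟨x - e, _, ⟨x, y, h, rfl, rfl, rfl⟩, (key x).mp hx⟩
  · rintro (h0 | ⟨ξ, η, ⟨x, y, h, rfl, rfl, -⟩, hv⟩)
    · exact Or.inl h0
    · exact Or.inr ⟨x, y, h, rfl, (key x).mpr hv⟩

/-- The kernel of reduction at a place over `p` is closed under subtraction. -/
theorem kerRed_sub (P : FreyPackage) (A : ValuationSubring Qbar) (hA : A.LiesOverPrime P.p)
    {S T : FreyPt P} (hS : KerRed P A S) (hT : KerRed P A T) : KerRed P A (S - T) := by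
  have hp2 : P.p ≠ 2 := by have := P.hp5; omega
  obtain ⟨e, al, be, hSh, he, hal, hbe, -, -, -, -⟩ :=
    Fermat.Agent.S05.helper956.frey_shape_valuationSubring P A P.pp hp2 hA
  have hv2 : A.valuation (2 : Qbar) = 1 :=
    Fermat.Agent.S05.helper2200.valuation_two_eq_one A P.pp hp2 hA
  rw [kerRed_iff_inE1 P A he] at hS hT ⊢
  exact InE1.sub hSh hv2 hal hbe hS hT

theorem kerRed_neg (P : FreyPackage) (A : ValuationSubring Qbar) (hA : A.LiesOverPrime P.p)
    {T : FreyPt P} (hT : KerRed P A T) : KerRed P A (-T) := by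
  have := kerRed_sub P A hA (kerRed_zero P A) hT
  rwa [zero_sub] at this

theorem kerRed_add (P : FreyPackage) (A : ValuationSubring Qbar) (hA : A.LiesOverPrime P.p)
    {S T : FreyPt P} (hS : KerRed P A S) (hT : KerRed P A T) : KerRed P A (S + T) := by
  have := kerRed_sub P A hA hS (kerRed_neg P A hA hT)
  rwa [sub_neg_eq_add] at this

/-- **Local statement at `p` for the Frey curve.**  For `A` over `p = P.p`, `σ` in the inertia
group of `A` and a `p`-torsion point `T` of the Frey curve over `ℚ̄`, the difference `σ • T - T`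
lies in the kernel of reduction at `A`. -/
theorem frey_inertia_sub_kerRed (P : FreyPackage) (A : ValuationSubring Qbar)
    (hA : A.LiesOverPrime P.p) (σ : Qbar ≃ₐ[ℚ] Qbar) (hσ : σ ∈ A.inertiaSubgroupIn ℚ)
    (T : FreyPt P) (hT : P.p • T = 0) : KerRed P A (σ • T - T) := by
  have hp2 : P.p ≠ 2 := by have := P.hp5; omega
  obtain ⟨e, al, be, hSh, he, hal, hbe, -, hbe0, hdisc, hcase⟩ :=
    Fermat.Agent.S05.helper956.frey_shape_valuationSubring P A P.pp hp2 hA
  have hv2 : A.valuation (2 : Qbar) = 1 :=
    Fermat.Agent.S05.helper2200.valuation_two_eq_one A P.pp hp2 hA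
  rw [kerRed_iff_inE1 P A he]
  rcases T with _ | ⟨x, y, h⟩
  · left
    have h0 : σ • (0 : FreyPt P) = 0 := rfl
    show σ • (0 : FreyPt P) - 0 = 0
    rw [h0, sub_zero]
  · have hmap : σ • (Point.some x y h : FreyPt P) = Point.some (σ x) (σ y)
        ((WeierstrassCurve.Affine.baseChange_nonsingular P.freyCurve σ.toAlgHom.injective
          x y).mpr h) :=
      Point.map_some σ.toAlgHom h
    rw [hmap]
    have hσ' : ∀ z : Qbar, A.valuation z ≤ 1 → A.valuation ((σ : Qbar →+* Qbar) z - z) < 1 :=
      fun z hz => Fermat.Agent.S05.helper2200.valuation_apply_sub_lt_one A hσ z hz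
    have hσrat : ∀ r : ℚ, (σ : Qbar →+* Qbar) (algebraMap ℚ Qbar r) = algebraMap ℚ Qbar r :=
      fun r => σ.commutes r
    have hcase' : A.valuation (algebraMap ℚ Qbar be) = 1 ∨
        ∃ d : Qbar, (σ : Qbar →+* Qbar) d = d ∧
          A.valuation (algebraMap ℚ Qbar be) = A.valuation d ^ P.p := by
      rcases hcase with h1 | ⟨-, w, -, hw⟩
      · exact Or.inl h1
      · exact Or.inr ⟨(w : Qbar), map_intCast σ w, hw⟩
    exact local_at_p hSh hv2 hal hbe hbe0 hdisc P.p P.hp_odd (σ : Qbar →+* Qbar) hσ'
      (hσrat e) (hσrat _) (hσrat _) hcase' x y h _ hT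

end Fermat.Agent.S13.helper612
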