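import Fermat.Agent.S05.helper305_NodeVal
import Fermat.Agent.S05.helper1205_E1Add

/-!
# S13, ingredient I5: the local statement at `p` in shape coordinates (helper612)

Setting of the S05 library of helper305: a Weierstrass curve `W` over a field `K` with
`Shape W e al be` (equation `η² = ξ (ξ² + al ξ + be)` in `ξ = x - e`, `η = y + (a₁ x + a₃)/2`),
an arbitrary valuation `v` with `v 2 = 1`, and a ring endomorphism `σ` of `K` which is trivial
modulo the maximal ideal (`v x ≤ 1 → v (σ x - x) < 1`).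

In contrast with S05 there is **no hypothesis on `v p`**: the residue characteristic may be `p`.
The conclusion is then not `σ T = T` but `σ T - T ∈ E₁` (kernel of reduction), for every
`p`-torsion point `T`, both for good reduction and for a node at `ξ = 0` whose depth `v be` is
a `p`-th power of the valuation of a `σ`-fixed element.

Main results:
* `InE1.add`, `InE1.neg`, `InE1.sub`: the kernel of reduction is a subgroup;
* `nodeVal_at`: helper305's NODEVAL for any odd `n`, without hypotheses on `v n`;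
* `local_at_p`: the local statement.
-/

set_option autoImplicit false
set_option linter.unusedSectionVars false

namespace Fermat.Agent.S13.helper612

open WeierstrassCurve WeierstrassCurve.Affine
open Fermat.Agent.S05.helper305

variable {K : Type*} [Field K]
variable {Γ₀ : Type*} [LinearOrderedCommGroupWithZero Γ₀]

section field

variable {v : Valuation K Γ₀} {al be ξ₁ η₁ ξ₂ η₂ ξ₃ η₃ lam : K}

/-- In the value group: `a * w = 1` with `w < 1` forces `1 < a`. -/
theorem one_lt_of_mul_eq_one {a w : Γ₀} (hw : w < 1) (h : a * w = 1) : 1 < a := by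
  by_contra hcon
  have ha : a ≤ 1 := not_lt.mp hcon
  have : a * w < 1 :=
    lt_of_le_of_lt (mul_le_mul' ha le_rfl) (by rw [one_mul]; exact hw)
  exact absurd h this.ne

/-- If the slope of the chord/tangent is non-integral and the two points are integral, the sum
lies in the kernel of reduction. -/
theorem xi3_of_lam (h : AddRel al be ξ₁ η₁ ξ₂ η₂ ξ₃ η₃ lam) (hal : v al ≤ 1)
    (h₁ : v ξ₁ ≤ 1) (h₂ : v ξ₂ ≤ 1) (hlam : 1 < v lam) : 1 < v ξ₃ := by
  have hlam2 : 1 < v (lam ^ 2) := by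
    rw [map_pow]; exact one_lt_pow₀ hlam two_ne_zero
  have e3 : ξ₃ = lam ^ 2 + (-al - ξ₁ - ξ₂) := by rw [h.hξ]; ring
  rw [e3, Valuation.map_add_eq_of_lt_left]
  · exact hlam2
  · refine lt_of_le_of_lt ?_ hlam2
    refine v.map_sub_le (v.map_sub_le ?_ h₁) h₂
    rw [Valuation.map_neg]; exact hal

/-- **Same nonsingular reduction.** If `(ξ₁, η₁)` is congruent to the negative `(ξ₂, -η₂)` of
the second point modulo the maximal ideal, and the reduction of the second point is a
nonsingular point of the reduced curve (`η₂` a unit, or `f'(ξ₂)` a unit), then the sum lies in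
the kernel of reduction. -/
theorem cong_unit (h : AddRel al be ξ₁ η₁ ξ₂ η₂ ξ₃ η₃ lam) (hv2 : v 2 = 1)
    (hal : v al ≤ 1) (h₂ : v ξ₂ ≤ 1) (hη₂ : v η₂ ≤ 1)
    (hξ : v (ξ₁ - ξ₂) < 1) (hη : v (η₁ + η₂) < 1)
    (hns : v η₂ = 1 ∨ v (3 * ξ₂ ^ 2 + 2 * al * ξ₂ + be) = 1) : 1 < v ξ₃ := by
  have h2 := two_ne_zero_of_val v hv2
  have h₁ : v ξ₁ ≤ 1 := by
    have e : ξ₁ = ξ₂ + (ξ₁ - ξ₂) := by ring
    rw [e]; exact v.map_add_le h₂ hξ.le
  refine xi3_of_lam h hal h₁ h₂ ?_
  by_cases hne : ξ₁ = ξ₂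
  · -- tangent case
    obtain ⟨h12, hη0, hl⟩ := h.lam_tangent h2 hne
    subst hne h12
    have hη' : v η₁ < 1 := by
      have : v (η₁ + η₁) = v η₁ := by rw [← two_mul, map_mul, hv2, one_mul]
      rw [this] at hη; exact hη
    have hf : v (3 * ξ₁ ^ 2 + 2 * al * ξ₁ + be) = 1 := by
      rcases hns with h1 | h1
      · exact absurd h1 hη'.ne
      · exact h1
    have hl' : lam * (2 * η₁) = 3 * ξ₁ ^ 2 + 2 * al * ξ₁ + be := by
      rw [hl]; field_simp
    have hv := congrArg v hl'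
    rw [map_mul, map_mul, hv2, one_mul, hf] at hv
    exact one_lt_of_mul_eq_one hη' hv
  · -- chord case
    have hl : lam * (ξ₁ - ξ₂) = η₁ - η₂ := by
      rcases h.hlam with ⟨-, hl⟩ | ⟨he, -⟩
      · exact hl
      · exact absurd he hne
    by_cases hu : v η₂ = 1
    · have hnum : v (η₁ - η₂) = 1 := by
        have e : η₁ - η₂ = -(2 * η₂) + (η₁ + η₂) := by ring
        rw [e]
        refine val_add_eq_one v ?_ hη
        rw [Valuation.map_neg, map_mul, hv2, one_mul, hu]
      have hv := congrArg v hl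
      rw [map_mul, hnum] at hv
      exact one_lt_of_mul_eq_one hξ hv
    · have hf : v (3 * ξ₂ ^ 2 + 2 * al * ξ₂ + be) = 1 := by
        rcases hns with h1 | h1
        · exact absurd h1 hu
        · exact h1
      have c₁ := h.c₁
      have c₂ := h.c₂
      have hd : ξ₁ - ξ₂ ≠ 0 := sub_ne_zero.mpr hne
      have hg : v (3 * ξ₂ ^ 2 + 2 * al * ξ₂ + be + (ξ₁ - ξ₂) * (ξ₁ + 2 * ξ₂ + al)) = 1 := by
        refine val_add_eq_one v hf ?_
        rw [map_mul]
        have h3 : v (ξ₁ + 2 * ξ₂ + al) ≤ 1 := by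
          refine v.map_add_le (v.map_add_le h₁ ?_) hal
          rw [map_mul, hv2, one_mul]; exact h₂
        exact lt_of_le_of_lt (mul_le_of_le_one_right zero_le h3) hξ
      have key : lam * (η₁ + η₂) =
          3 * ξ₂ ^ 2 + 2 * al * ξ₂ + be + (ξ₁ - ξ₂) * (ξ₁ + 2 * ξ₂ + al) := by
        apply mul_left_cancel₀ hd
        linear_combination (η₁ + η₂) * hl + c₁ - c₂
      have hv := congrArg v key
      rw [map_mul, hg] at hv
      exact one_lt_of_mul_eq_one hη hv

end field

section points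

variable [DecidableEq K]
variable {v : Valuation K Γ₀} {W : WeierstrassCurve K} {e al be : K}

/-- The kernel of reduction is closed under negation. -/
theorem InE1.neg (h2 : (2 : K) ≠ 0) {P : W.toAffine.Point} (hP : InE1 v W e P) :
    InE1 v W e (-P) := by
  rcases hP with rfl | ⟨ξ, η, hP, hv⟩
  · left; exact neg_zero
  · exact Or.inr ⟨ξ, -η, hP.neg h2, hv⟩

/-- The kernel of reduction is closed under addition (integral `al`, `be`). -/
theorem InE1.add (hS : Shape W e al be) (hv2 : v 2 = 1) (hal : v al ≤ 1) (hbe : v be ≤ 1)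
    {P Q : W.toAffine.Point} (hP : InE1 v W e P) (hQ : InE1 v W e Q) :
    InE1 v W e (P + Q) := by
  rcases hP with rfl | ⟨ξ₁, η₁, hP, hv₁⟩
  · rw [zero_add]; exact hQ
  rcases hQ with rfl | ⟨ξ₂, η₂, hQ, hv₂⟩
  · rw [add_zero]; exact Or.inr ⟨ξ₁, η₁, hP, hv₁⟩
  by_cases hne : ξ₁ = ξ₂ ∧ η₁ = -η₂
  · obtain ⟨rfl, rfl⟩ := hne
    left
    have hQ' : IsPt W e Q ξ₁ (-(-η₂)) := by rw [neg_neg]; exact hQ
    exact hP.add_eq_zero hS.two_ne hQ'
  · obtain ⟨ξ₃, η₃, lam, hP₃, hrel⟩ := hP.add hS hQ hne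
    exact Or.inr ⟨ξ₃, η₃, hP₃,
      (Fermat.Agent.S05.helper1205.e1_add v hrel hv2 hal hbe hv₁ hv₂).1⟩

/-- The kernel of reduction is closed under subtraction. -/
theorem InE1.sub (hS : Shape W e al be) (hv2 : v 2 = 1) (hal : v al ≤ 1) (hbe : v be ≤ 1)
    {P Q : W.toAffine.Point} (hP : InE1 v W e P) (hQ : InE1 v W e Q) :
    InE1 v W e (P - Q) := by
  rw [sub_eq_add_neg]
  exact InE1.add hS hv2 hal hbe hP (InE1.neg hS.two_ne hQ)

/-- Same nonsingular reduction, at point level: `T' - T` lies in the kernel of reduction. -/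
theorem sub_inE1_of_cong_unit (hS : Shape W e al be) (hv2 : v 2 = 1) (hal : v al ≤ 1)
    {T T' : W.toAffine.Point} {ξ η ξ' η' : K} (hT : IsPt W e T ξ η) (hT' : IsPt W e T' ξ' η')
    (hξ1 : v ξ ≤ 1) (hη1 : v η ≤ 1) (hξ : v (ξ' - ξ) < 1) (hη : v (η' - η) < 1)
    (hns : v η = 1 ∨ v (3 * ξ ^ 2 + 2 * al * ξ + be) = 1) : InE1 v W e (T' - T) := by
  have h2 := hS.two_ne
  have hTn : IsPt W e (-T) ξ (-η) := hT.neg h2
  rw [sub_eq_add_neg]
  by_cases hne : ξ' = ξ ∧ η' = -(-η)
  · left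
    obtain ⟨h1, h2'⟩ := hne
    rw [neg_neg] at h2'
    subst h1 h2'
    exact hT'.add_eq_zero h2 hTn
  · obtain ⟨ξ₃, η₃, lam, hP₃, hrel⟩ := hT'.add hS hTn hne
    refine Or.inr ⟨ξ₃, η₃, hP₃, cong_unit hrel hv2 hal hξ1 ?_ hξ ?_ ?_⟩
    · rw [Valuation.map_neg]; exact hη1
    · rw [← sub_eq_add_neg]; exact hη
    · rw [Valuation.map_neg]; exact hns

/-- Near-node congruence, at point level (helper305's `node_cong`): `T' - T` lies in the
kernel of reduction. -/
theorem sub_inE1_of_node_cong (hS : Shape W e al be) (hv2 : v 2 = 1) (hal : v al ≤ 1)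
    {T T' : W.toAffine.Point} {ξ η ξ' η' : K} (hT : IsPt W e T ξ η) (hT' : IsPt W e T' ξ' η')
    (hξ1 : v ξ ≤ 1) (hηξ : v η = v ξ) (hξ : v (ξ' - ξ) < v ξ) (hη : v (η' - η) < v η) :
    InE1 v W e (T' - T) := by
  have h2 := hS.two_ne
  have hTn : IsPt W e (-T) ξ (-η) := hT.neg h2
  rw [sub_eq_add_neg]
  by_cases hne : ξ' = ξ ∧ η' = -(-η)
  · left
    obtain ⟨h1, h2'⟩ := hne
    rw [neg_neg] at h2'
    subst h1 h2'
    exact hT'.add_eq_zero h2 hTn
  · obtain ⟨ξ₃, η₃, lam, hP₃, hrel⟩ := hT'.add hS hTn hne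
    refine Or.inr ⟨ξ₃, η₃, hP₃, hrel.node_cong hv2 hal hξ1 ?_ hξ ?_⟩
    · rw [Valuation.map_neg]; exact hηξ
    · rw [← sub_eq_add_neg, Valuation.map_neg]; exact hη

/-- **NODEVAL without any hypothesis on `v n`** (helper305's proof, for an odd `n`): for
multiplicative reduction (`v al = 1`, `v be < 1`), an `n`-torsion point with `v (x - e) < 1`
satisfies `v be < v (x - e)` and `v (x - e) ^ n = v be ^ (2 m)`. -/
theorem nodeVal_at (hS : Shape W e al be) (hv2 : v 2 = 1) (hal : v al = 1) (hbe : v be < 1)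
    (hbe0 : be ≠ 0) (n : ℕ) (hn : Odd n) {x y : K} (h : W.toAffine.Nonsingular x y)
    (hξ : v (x - e) < 1) (hnP : n • (Point.some x y h : W.toAffine.Point) = 0) :
    v be < v (x - e) ∧ ∃ m : ℕ, v (x - e) ^ n = v be ^ (2 * m) := by
  obtain ⟨T, hT⟩ := exists_T hS hbe0
  have hTT := T_add_T hS hT
  have hP : IsPt W e (Point.some x y h) (x - e) (eta W x y) := ⟨x, y, h, rfl, rfl, rfl⟩
  have hcurve := hP.curve hS
  have hβpos : 0 < v be := (Valuation.pos_iff v).mpr hbe0
  have hT0 : ¬ InE0 v W e T := by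
    rintro (h0 | ⟨ξ, η, hTpt, hv⟩)
    · exact hT.ne_zero h0
    · obtain ⟨hξ0, -⟩ := hTpt.unique hT
      rw [hξ0, map_zero] at hv
      exact absurd hv (not_le.mpr zero_lt_one)
  have hnT : n • T = T := by
    obtain ⟨m, rfl⟩ := hn
    exact (nsmul_two_torsion hTT m).2
  have hA : v be < v (x - e) := by
    by_contra hle
    push Not at hle
    by_cases h0 : x - e = 0
    · have hη0 : eta W x y = 0 := by
        rw [h0] at hcurve
        simpa using hcurve
      have hP' : IsPt W e (Point.some x y h) 0 0 := by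
        rw [h0, hη0] at hP; exact hP
      have hPT : Point.some x y h = T := hP'.ext hT
      rw [hPT, hnT] at hnP
      exact hT.ne_zero hnP
    · have hne : ¬(x - e = 0 ∧ eta W x y = -0) := fun hh => h0 hh.1
      obtain ⟨ξ₃, η₃, lam, hP₃, hrel⟩ := hP.add hS hT hne
      obtain ⟨h1, -⟩ := hrel.add_T h0
      have hξpos : 0 < v (x - e) := (Valuation.pos_iff v).mpr h0
      have hE0 : InE0 v W e (Point.some x y h + T) :=
        Or.inr ⟨ξ₃, η₃, hP₃, by rw [h1, map_div₀]; exact (one_le_div₀ hξpos).mpr hle⟩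
      have hE := InE0.nsmul hS hv2 hal.le hbe hE0 n
      rw [nsmul_add, hnP, zero_add, hnT] at hE
      exact hT0 hE
  refine ⟨hA, ?_⟩
  have hξpos : 0 < v (x - e) := hβpos.trans hA
  have hξ0 : x - e ≠ 0 := (Valuation.pos_iff v).mp hξpos
  have hr2 : (eta W x y / (x - e)) ^ 2 - al = (x - e) + be / (x - e) := by
    rw [div_pow, hcurve]
    field_simp
    ring
  have hbeξ : v (be / (x - e)) < 1 := by
    rw [map_div₀]; exact (div_lt_one₀ hξpos).mpr hA
  have hr : v ((eta W x y / (x - e)) ^ 2 - al) < 1 := by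
    rw [hr2]; exact v.map_add_lt hξ hbeξ
  have hvr : v (eta W x y / (x - e)) = 1 := by
    apply val_eq_one_of_sq v
    have e1 : (eta W x y / (x - e)) ^ 2 = al + ((eta W x y / (x - e)) ^ 2 - al) := by ring
    rw [e1]; exact val_add_eq_one v hal hr
  have hMid : InMid v W e (eta W x y / (x - e)) (v (x - e)) (Point.some x y h) :=
    ⟨x - e, eta W x y, hP, rfl, by rw [sub_self, map_zero]; exact zero_lt_one⟩
  exact mid_torsion' hS hv2 hr hvr hbe0 hT hMid hξ hA n hnP

/-- `nodeVal_at` in `IsPt` form. -/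
theorem nodeVal_isPt (hS : Shape W e al be) (hv2 : v 2 = 1) (hal : v al = 1) (hbe : v be < 1)
    (hbe0 : be ≠ 0) (n : ℕ) (hn : Odd n) {T : W.toAffine.Point} {ξ η : K}
    (hT : IsPt W e T ξ η) (hξ : v ξ < 1) (hnT : n • T = 0) :
    v be < v ξ ∧ ∃ m : ℕ, v ξ ^ n = v be ^ (2 * m) := by
  obtain ⟨x, y, h, rfl, rfl, rfl⟩ := hT
  exact nodeVal_at hS hv2 hal hbe hbe0 n hn h hξ hnT

/-- If the discriminant `al² - 4 be` is a unit, a point with `η ∈ 𝔪` and (`ξ` a unit or `be` a
unit) reduces to a simple root of the reduced cubic: `f'(ξ)` is a unit. -/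
theorem val_deriv_eq_one (hv2 : v 2 = 1) (hal : v al ≤ 1)
    (hdisc : v (al ^ 2 - 4 * be) = 1) {ξ η : K} (hc : η ^ 2 = ξ * (ξ ^ 2 + al * ξ + be))
    (hξ1 : v ξ ≤ 1) (hη : v η < 1) (hcase : v ξ = 1 ∨ v be = 1) :
    v (3 * ξ ^ 2 + 2 * al * ξ + be) = 1 := by
  rcases lt_or_eq_of_le hξ1 with hlt | heq
  · have hbe1 : v be = 1 := by
      rcases hcase with h | h
      · exact absurd h hlt.ne
      · exact h
    have e1 : 3 * ξ ^ 2 + 2 * al * ξ + be = be + ξ * (3 * ξ + 2 * al) := by ring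
    rw [e1]
    refine val_add_eq_one v hbe1 ?_
    rw [map_mul]
    have h3 : v (3 * ξ + 2 * al) ≤ 1 := by
      refine v.map_add_le ?_ ?_
      · rw [map_mul]; exact mul_le_one' (val_three_le v hv2) hξ1
      · rw [map_mul, hv2, one_mul]; exact hal
    exact lt_of_le_of_lt (mul_le_of_le_one_right zero_le h3) hlt
  · have hq : v (ξ ^ 2 + al * ξ + be) < 1 := by
      have := congrArg v hc
      rw [map_pow, map_mul, heq, one_mul] at this
      rw [← this]
      exact pow_lt_one₀ zero_le hη two_ne_zero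
    have hq' : v (2 * ξ + al) = 1 := by
      apply val_eq_one_of_sq v
      have e1 : (2 * ξ + al) ^ 2 = (al ^ 2 - 4 * be) + 4 * (ξ ^ 2 + al * ξ + be) := by ring
      rw [e1]
      refine val_add_eq_one v hdisc ?_
      rw [map_mul, val_four v hv2, one_mul]; exact hq
    have e2 : 3 * ξ ^ 2 + 2 * al * ξ + be = ξ * (2 * ξ + al) + (ξ ^ 2 + al * ξ + be) := by
      ring
    rw [e2]
    refine val_add_eq_one v ?_ hq
    rw [map_mul, heq, hq', one_mul]

/-- **Local statement at `p`, abstract form.**  Good reduction or a node at `ξ = 0`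
(`al² - 4 be` a unit), `σ` trivial modulo the maximal ideal, and in the node case
`v be = v d ^ p` for a `σ`-fixed `d`.  Then for a `p`-torsion point `T` with conjugate `T'`
(shape coordinates `σ ξ`, `σ η`), the difference `T' - T` lies in the kernel of reduction.
No hypothesis on `v p`. -/
theorem local_aux (hS : Shape W e al be) (hv2 : v 2 = 1) (hal : v al ≤ 1) (hbe : v be ≤ 1)
    (hbe0 : be ≠ 0) (hdisc : v (al ^ 2 - 4 * be) = 1) (p : ℕ) (hp : Odd p)
    (σ : K →+* K) (hσ : ∀ x : K, v x ≤ 1 → v (σ x - x) < 1)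
    (hcase : v be = 1 ∨ ∃ d : K, σ d = d ∧ v be = v d ^ p)
    {T T' : W.toAffine.Point} {ξ η : K} (hT : IsPt W e T ξ η)
    (hT' : IsPt W e T' (σ ξ) (σ η)) (hpT : p • T = 0) : InE1 v W e (T' - T) := by
  have hcurve := hT.curve hS
  by_cases hξ1 : v ξ ≤ 1
  · -- integral point
    have hη1 : v η ≤ 1 := by
      apply val_le_one_of_sq v
      rw [hcurve, map_mul]
      have hq : v (ξ ^ 2 + al * ξ + be) ≤ 1 := by
        refine v.map_add_le (v.map_add_le ?_ ?_) hbe
        · rw [map_pow]; exact pow_le_one₀ zero_le hξ1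
        · rw [map_mul]; exact mul_le_one' hal hξ1
      exact mul_le_one' hξ1 hq
    have hdξ : v (σ ξ - ξ) < 1 := hσ ξ hξ1
    have hdη : v (σ η - η) < 1 := hσ η hη1
    by_cases hcs : v ξ = 1 ∨ v be = 1
    · -- nonsingular reduction
      refine sub_inE1_of_cong_unit hS hv2 hal hT hT' hξ1 hη1 hdξ hdη ?_
      by_cases hu : v η = 1
      · exact Or.inl hu
      · exact Or.inr
          (val_deriv_eq_one hv2 hal hdisc hcurve hξ1 (lt_of_le_of_ne hη1 hu) hcs)
    · -- node region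
      push Not at hcs
      have hξlt : v ξ < 1 := lt_of_le_of_ne hξ1 hcs.1
      have hbelt : v be < 1 := lt_of_le_of_ne hbe hcs.2
      have hal1 : v al = 1 := by
        apply val_eq_one_of_sq v
        have e1 : al ^ 2 = (al ^ 2 - 4 * be) + 4 * be := by ring
        rw [e1]
        refine val_add_eq_one v hdisc ?_
        rw [map_mul, val_four v hv2, one_mul]; exact hbelt
      obtain ⟨d, hσd, hd⟩ : ∃ d : K, σ d = d ∧ v be = v d ^ p := by
        rcases hcase with h1 | h1
        · exact absurd h1 hcs.2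
        · exact h1
      obtain ⟨hA, m, hm⟩ := nodeVal_isPt hS hv2 hal1 hbelt hbe0 p hp hT hξlt hpT
      have hp0 : p ≠ 0 := by
        rcases hp with ⟨k, hk⟩
        omega
      have hvξ : v ξ = v (d ^ (2 * m)) := by
        rw [hd, ← pow_mul, mul_comm p, pow_mul] at hm
        rw [map_pow]
        exact (pow_left_inj₀ zero_le zero_le hp0).mp hm
      have hβpos : 0 < v be := (Valuation.pos_iff v).mpr hbe0
      have hξpos : 0 < v ξ := hβpos.trans hA
      have hξ0 : ξ ≠ 0 := (Valuation.pos_iff v).mp hξpos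
      have hDpos : 0 < v (d ^ (2 * m)) := hvξ ▸ hξpos
      have hD0 : d ^ (2 * m) ≠ 0 := (Valuation.pos_iff v).mp hDpos
      have hσD : σ (d ^ (2 * m)) = d ^ (2 * m) := by rw [map_pow, hσd]
      have hdξ' : v (σ ξ - ξ) < v ξ := by
        have hu : v (ξ / d ^ (2 * m)) ≤ 1 := by
          rw [map_div₀, hvξ, div_self hDpos.ne']
        have hlt := hσ (ξ / d ^ (2 * m)) hu
        have e1 : σ ξ - ξ = d ^ (2 * m) * (σ (ξ / d ^ (2 * m)) - ξ / d ^ (2 * m)) := by
          rw [map_div₀, hσD]; field_simp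
        rw [e1, map_mul, hvξ]
        exact mul_lt_of_lt_one_right hDpos hlt
      have hηρ : η = η / ξ * ξ := by field_simp
      have hr2 : (η / ξ) ^ 2 - al = ξ + be / ξ := by
        rw [div_pow, hcurve]; field_simp; ring
      have hbeξ : v (be / ξ) < 1 := by
        rw [map_div₀]; exact (div_lt_one₀ hξpos).mpr hA
      have hr : v ((η / ξ) ^ 2 - al) < 1 := by
        rw [hr2]; exact v.map_add_lt hξlt hbeξ
      have hvρ : v (η / ξ) = 1 := by
        apply val_eq_one_of_sq v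
        have e1 : (η / ξ) ^ 2 = al + ((η / ξ) ^ 2 - al) := by ring
        rw [e1]; exact val_add_eq_one v hal1 hr
      have hηξ : v η = v ξ := by
        rw [hηρ, map_mul, hvρ, one_mul]
      have hdρ : v (σ (η / ξ) - η / ξ) < 1 := hσ _ hvρ.le
      have hσρ : v (σ (η / ξ)) ≤ 1 := by
        have e1 : σ (η / ξ) = η / ξ + (σ (η / ξ) - η / ξ) := by ring
        rw [e1]; exact v.map_add_le hvρ.le hdρ.le
      have hdη' : v (σ η - η) < v η := by
        have e1 : σ η - η = σ (η / ξ) * (σ ξ - ξ) + (σ (η / ξ) - η / ξ) * ξ := by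
          have e2 : σ η = σ (η / ξ) * σ ξ := by rw [← map_mul, ← hηρ]
          rw [e2]
          have e3 : η / ξ * ξ = η := hηρ.symm
          linear_combination e3
        rw [e1, hηξ]
        refine v.map_add_lt ?_ ?_
        · rw [map_mul]
          exact lt_of_le_of_lt (mul_le_of_le_one_left zero_le hσρ) hdξ'
        · rw [map_mul]
          exact mul_lt_of_lt_one_left hξpos hdρ
      exact sub_inE1_of_node_cong hS hv2 hal hT hT' hξ1 hηξ hdξ' hdη'
  · -- kernel of reduction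
    push Not at hξ1
    have hξpos : 0 < v ξ := lt_trans zero_lt_one hξ1
    have hξ0 : ξ ≠ 0 := (Valuation.pos_iff v).mp hξpos
    have hinv : v ξ⁻¹ < 1 := by
      rw [map_inv₀]; exact (inv_lt_one₀ hξpos).mpr hξ1
    have h1 : v (σ ξ⁻¹) < 1 := by
      have e1 : σ ξ⁻¹ = ξ⁻¹ + (σ ξ⁻¹ - ξ⁻¹) := by ring
      rw [e1]; exact v.map_add_lt hinv (hσ _ hinv.le)
    have hσξ0 : σ ξ ≠ 0 := (map_ne_zero σ).mpr hξ0
    have hσξ1 : 1 < v (σ ξ) := by
      rw [map_inv₀, map_inv₀] at h1
      exact (inv_lt_one₀ ((Valuation.pos_iff v).mpr hσξ0)).mp h1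
    exact InE1.sub hS hv2 hal hbe (Or.inr ⟨_, _, hT', hσξ1⟩) (Or.inr ⟨_, _, hT, hξ1⟩)

/-- **Local statement at `p`** in the coordinate form of the S05 spec (`GoodStmt`/`MultStmt`
shape, but without `v p = 1` and with conclusion in the kernel of reduction). -/
theorem local_at_p (hS : Shape W e al be) (hv2 : v 2 = 1) (hal : v al ≤ 1) (hbe : v be ≤ 1)
    (hbe0 : be ≠ 0) (hdisc : v (al ^ 2 - 4 * be) = 1) (p : ℕ) (hp : Odd p)
    (σ : K →+* K) (hσ : ∀ x : K, v x ≤ 1 → v (σ x - x) < 1)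
    (hσe : σ e = e) (hσ1 : σ W.a₁ = W.a₁) (hσ3 : σ W.a₃ = W.a₃)
    (hcase : v be = 1 ∨ ∃ d : K, σ d = d ∧ v be = v d ^ p)
    (x y : K) (h : W.toAffine.Nonsingular x y) (h' : W.toAffine.Nonsingular (σ x) (σ y))
    (hT : p • (Point.some x y h : W.toAffine.Point) = 0) :
    InE1 v W e (Point.some (σ x) (σ y) h' - Point.some x y h) := by
  have hT_pt : IsPt W e (Point.some x y h) (x - e) (eta W x y) := ⟨x, y, h, rfl, rfl, rfl⟩
  have hσξ : σ (x - e) = σ x - e := by rw [map_sub, hσe]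
  have hση : σ (eta W x y) = eta W (σ x) (σ y) := by
    simp only [eta, map_add, map_div₀, map_mul, hσ1, hσ3, map_ofNat]
  have hT'_pt : IsPt W e (Point.some (σ x) (σ y) h') (σ (x - e)) (σ (eta W x y)) :=
    ⟨σ x, σ y, h', rfl, hσξ, hση⟩
  exact local_aux hS hv2 hal hbe hbe0 hdisc p hp σ hσ hcase hT_pt hT'_pt hT

end points

end Fermat.Agent.S13.helper612
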