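import Mathlib
import Fermat.Prelude.Def_FLTPrelim_FreyPackage
import Fermat.Prelude.Def_FLTPrelim_GaloisRep

/-!
# S13, ingredient I7: point stabilisers of torsion points are open (Krull topology)

For every Weierstrass curve `W` over `ℚ` and every point `x` of `W(ℚ̄)` (in particular every
torsion point), the stabiliser of `x` in `Gal(ℚ̄/ℚ)` is open.
-/

set_option autoImplicit false
open WeierstrassCurve WeierstrassCurve.Affine WeierstrassCurve.Affine.Point

namespace Fermat.Agent.S13.helper6673

/-- The stabiliser of a point of `W(ℚ̄)` is open in `Gal(ℚ̄/ℚ)`. -/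
theorem isOpen_stabilizer_point (W : WeierstrassCurve ℚ)
    (Q : (W⁄(AlgebraicClosure ℚ)).Point) :
    IsOpen {σ : AlgebraicClosure ℚ ≃ₐ[ℚ] AlgebraicClosure ℚ | σ • Q = Q} := by
  rcases Q with _ | ⟨x, y, h⟩
  · have : {σ : AlgebraicClosure ℚ ≃ₐ[ℚ] AlgebraicClosure ℚ |
        σ • (Point.zero : (W⁄(AlgebraicClosure ℚ)).Point) = Point.zero} = Set.univ := by
      ext σ
      simp only [Set.mem_ofPred_eq, Set.mem_univ, iff_true]
      rfl
    rw [this]
    exact isOpen_univ
  · have halg : Algebra.IsAlgebraic ℚ (AlgebraicClosure ℚ) := AlgebraicClosure.isAlgebraic ℚ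
    let E : IntermediateField ℚ (AlgebraicClosure ℚ) :=
      IntermediateField.adjoin ℚ ({x, y} : Set (AlgebraicClosure ℚ))
    have hfin : FiniteDimensional ℚ E :=
      IntermediateField.finiteDimensional_adjoin
        (fun z _ => (halg.isAlgebraic z).isIntegral)
    have hopen : IsOpen (E.fixingSubgroup : Set (AlgebraicClosure ℚ ≃ₐ[ℚ] AlgebraicClosure ℚ)) :=
      IntermediateField.fixingSubgroup_isOpen E
    -- the stabiliser as a subgroup
    let H : Subgroup (AlgebraicClosure ℚ ≃ₐ[ℚ] AlgebraicClosure ℚ) :=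
      MulAction.stabilizer _ (Point.some x y h : (W⁄(AlgebraicClosure ℚ)).Point)
    have hle : E.fixingSubgroup ≤ H := by
      intro σ hσ
      rw [IntermediateField.mem_fixingSubgroup_iff] at hσ
      have hx : σ x = x := hσ x (IntermediateField.subset_adjoin ℚ _ (by simp))
      have hy : σ y = y := hσ y (IntermediateField.subset_adjoin ℚ _ (by simp))
      change Point.map σ.toAlgHom (Point.some x y h) = Point.some x y h
      rw [Point.map_some]
      simp only [Point.some.injEq]
      exact ⟨hx, hy⟩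
    have hH : IsOpen (H : Set (AlgebraicClosure ℚ ≃ₐ[ℚ] AlgebraicClosure ℚ)) :=
      Subgroup.isOpen_mono hle hopen
    have hset : {σ : AlgebraicClosure ℚ ≃ₐ[ℚ] AlgebraicClosure ℚ |
        σ • (Point.some x y h : (W⁄(AlgebraicClosure ℚ)).Point) = Point.some x y h}
          = (H : Set (AlgebraicClosure ℚ ≃ₐ[ℚ] AlgebraicClosure ℚ)) := by
      ext σ
      rfl
    rw [hset]
    exact hH

/-- **I7** in the shape of the S13 skeleton: the stabiliser of a `p`-torsion point of the
Frey curve is open. -/
theorem open_stab (P : FreyPackage)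
    (x : Submodule.torsionBy ℤ ((P.freyCurve)⁄(AlgebraicClosure ℚ)).Point P.p) :
    IsOpen {σ : AlgebraicClosure ℚ ≃ₐ[ℚ] AlgebraicClosure ℚ | σ • x = x} := by
  have h := isOpen_stabilizer_point P.freyCurve (x : ((P.freyCurve)⁄(AlgebraicClosure ℚ)).Point)
  have hset : {σ : AlgebraicClosure ℚ ≃ₐ[ℚ] AlgebraicClosure ℚ | σ • x = x}
      = {σ : AlgebraicClosure ℚ ≃ₐ[ℚ] AlgebraicClosure ℚ |
          σ • (x : ((P.freyCurve)⁄(AlgebraicClosure ℚ)).Point) = x} := by
    ext σ
    constructor
    · intro hx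
      exact congrArg Subtype.val hx
    · intro hx
      exact Subtype.ext hx
  rw [hset]
  exact h

end Fermat.Agent.S13.helper6673
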