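import Mathlib
import Fermat.Prelude.Def_FLTPrelim_FreyPackage
import Fermat.Prelude.Def_FLTPrelim_GaloisRep

/-!
# Point stabilisers are open (ingredient I7 of the S13 skeleton)

For an algebraic field extension `K / k` and a Weierstrass curve `W` over `k`, the stabiliser
of any `K`-point under `K ≃ₐ[k] K` is open for the Krull topology: it contains the fixing
subgroup of the finite extension generated by the coordinates of the point.
-/

set_option autoImplicit false
open WeierstrassCurve WeierstrassCurve.Affine WeierstrassCurve.Affine.Point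

namespace Fermat.Agent.S13.helper6970

section Generic

variable {k : Type*} {K : Type*} [Field k] [Field K] [DecidableEq K] [Algebra k K]
  {W : WeierstrassCurve k}

/-- The stabiliser of a point, as a subgroup. -/
def stabSub (Q : (W⁄K).Point) : Subgroup (K ≃ₐ[k] K) where
  carrier := {σ | σ • Q = Q}
  mul_mem' := by
    intro σ τ hσ hτ
    change (σ * τ) • Q = Q
    rw [mul_smul]
    change τ • Q = Q at hτ
    change σ • Q = Q at hσ
    rw [hτ, hσ]
  one_mem' := one_smul _ Q
  inv_mem' := by
    intro σ hσ
    change σ • Q = Q at hσ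
    change σ⁻¹ • Q = Q
    calc σ⁻¹ • Q = σ⁻¹ • (σ • Q) := by rw [hσ]
      _ = Q := inv_smul_smul σ Q

lemma mem_stabSub (Q : (W⁄K).Point) (σ : K ≃ₐ[k] K) : σ ∈ stabSub Q ↔ σ • Q = Q := Iff.rfl

lemma coe_stabSub (Q : (W⁄K).Point) :
    (stabSub Q : Set (K ≃ₐ[k] K)) = {σ | σ • Q = Q} := rfl

/-- The fixing subgroup of the field generated by the coordinates of a point fixes the point. -/
lemma fixingSubgroup_le_stabSub {x y : K} (h : (W⁄K).Nonsingular x y) :
    (IntermediateField.adjoin k ({x, y} : Set K)).fixingSubgroup ≤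
      stabSub (Point.some x y h) := by
  intro σ hσ
  rw [IntermediateField.mem_fixingSubgroup_iff] at hσ
  have hx : σ x = x := hσ x (IntermediateField.subset_adjoin k _ (by simp))
  have hy : σ y = y := hσ y (IntermediateField.subset_adjoin k _ (by simp))
  change Point.map (W' := W) σ.toAlgHom (Point.some x y h) = Point.some x y h
  rw [Point.map_some]
  simp only [Point.some.injEq]
  exact ⟨hx, hy⟩

/-- **Point stabilisers are open** for the Krull topology. -/
theorem isOpen_stabSub [Algebra.IsAlgebraic k K] (Q : (W⁄K).Point) :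
    IsOpen (stabSub Q : Set (K ≃ₐ[k] K)) := by
  rcases Q with _ | ⟨x, y, h⟩
  · have : stabSub (W := W) (K := K) (Point.zero : (W⁄K).Point) = ⊤ := by
      rw [eq_top_iff]
      intro σ _
      rfl
    rw [this]
    exact isOpen_univ
  · have hfin : FiniteDimensional k (IntermediateField.adjoin k ({x, y} : Set K)) := by
      have : Finite ({x, y} : Set K) := ((Set.finite_singleton y).insert x).to_subtype
      exact IntermediateField.finiteDimensional_adjoin
        (fun z _ => (Algebra.IsAlgebraic.isAlgebraic z).isIntegral)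
    exact Subgroup.isOpen_mono (fixingSubgroup_le_stabSub h)
      (IntermediateField.fixingSubgroup_isOpen _)

/-- Set form: the stabiliser of a point is an open set. -/
theorem isOpen_setOf_smul_eq [Algebra.IsAlgebraic k K] (Q : (W⁄K).Point) :
    IsOpen {σ : K ≃ₐ[k] K | σ • Q = Q} :=
  isOpen_stabSub Q

/-- Torsion form: the stabiliser of an `n`-torsion point is an open set. -/
theorem isOpen_setOf_smul_eq_torsionBy [Algebra.IsAlgebraic k K] (n : ℕ)
    (x : Submodule.torsionBy ℤ (W⁄K).Point n) :
    IsOpen {σ : K ≃ₐ[k] K | σ • x = x} := by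
  have h := isOpen_setOf_smul_eq (k := k) (K := K) (W := W) (x : (W⁄K).Point)
  have e : {σ : K ≃ₐ[k] K | σ • x = x} = {σ : K ≃ₐ[k] K | σ • (x : (W⁄K).Point) = x} := by
    ext σ
    change σ • x = x ↔ σ • (x : (W⁄K).Point) = x
    constructor
    · intro hσ
      exact congrArg Subtype.val hσ
    · intro hσ
      exact Subtype.ext hσ
  rw [e]
  exact h

end Generic

/-- **Ingredient I7 of the S13 skeleton, verbatim**: stabilisers of `p`-torsion points of the
Frey curve are open in `Gal(ℚ̄/ℚ)`. -/
theorem open_stab (P : FreyPackage)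
    (x : Submodule.torsionBy ℤ ((P.freyCurve)⁄(AlgebraicClosure ℚ)).Point P.p) :
    IsOpen {σ : AlgebraicClosure ℚ ≃ₐ[ℚ] AlgebraicClosure ℚ | σ • x = x} :=
  haveI : Algebra.IsAlgebraic ℚ (AlgebraicClosure ℚ) := AlgebraicClosure.isAlgebraic ℚ
  isOpen_setOf_smul_eq_torsionBy P.p x

end Fermat.Agent.S13.helper6970
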