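import Fermat.Agent.Lib.helper853_TorsionLadder
import Fermat.Agent.S13.helper3034_FreyAtTwo
import Fermat.Prelude.Def_FLTPrelim_FreyPackage
import Fermat.Prelude.Def_FLTPrelim_GaloisRep

/-!
# The `p`-torsion of the Frey curve over `ℚ̄` (helper853, S13 ingredient I1)

Frey-level consequences of the x-only ladder `Fermat.Agent.Lib.helper853`:

* `frey_finite`, `frey_nontrivial`, `frey_card_le`, `frey_torsion` : the fields
  `finite`, `nontrivial`, `card_le` of the S13 skeletons (verbatim shapes);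
* `frey_divPoly` : an integral division polynomial `G ∈ ℤ[X]` with leading coefficient `p`,
  degree `(p² - 1)/2`, whose roots are exactly the x-coordinates of the nonzero `p`-torsion
  points (shape `DivPolyStmt` of `helper432_Spec`);
* `frey_prod_inv_x_dvd` : Newton-polygon input in divisibility form, for every valuation
  subring `A` of `ℚ̄`.
-/

set_option autoImplicit false

namespace Fermat.Agent.S13.helper853

open WeierstrassCurve WeierstrassCurve.Affine Polynomial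
open Fermat.Agent.Lib.helper853

/-- The discriminant of the Frey curve is `(abc)^(2p) / 2^8`. -/
theorem frey_Δ (P : FreyPackage) :
    P.freyCurve.Δ = ((P.a : ℚ) ^ P.p * (P.b : ℚ) ^ P.p * (P.c : ℚ) ^ P.p) ^ 2 / 256 := by
  have hF : (P.a : ℚ) ^ P.p + (P.b : ℚ) ^ P.p = (P.c : ℚ) ^ P.p := by exact_mod_cast P.hFLT
  rw [← hF]
  simp only [WeierstrassCurve.Δ, WeierstrassCurve.b₂, WeierstrassCurve.b₄, WeierstrassCurve.b₆,
    WeierstrassCurve.b₈, FreyPackage.freyCurve]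
  ring

theorem frey_Δ_ne_zero (P : FreyPackage) : P.freyCurve.Δ ≠ 0 := by
  have hA : ((P.a : ℚ)) ^ P.p ≠ 0 := pow_ne_zero _ (Int.cast_ne_zero.mpr P.ha0)
  have hB : ((P.b : ℚ)) ^ P.p ≠ 0 := pow_ne_zero _ (Int.cast_ne_zero.mpr P.hb0)
  have hC : ((P.c : ℚ)) ^ P.p ≠ 0 := pow_ne_zero _ (Int.cast_ne_zero.mpr P.hc0)
  rw [frey_Δ]
  exact div_ne_zero (pow_ne_zero 2 (mul_ne_zero (mul_ne_zero hA hB) hC)) (by norm_num)

theorem frey_baseChange_Δ_ne_zero (P : FreyPackage) (K : Type*) [Field K] [Algebra ℚ K] :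
    ((P.freyCurve)⁄K).Δ ≠ 0 := by
  change (P.freyCurve.map (algebraMap ℚ K)).Δ ≠ 0
  rw [WeierstrassCurve.map_Δ]
  exact (_root_.map_ne_zero _).mpr (frey_Δ_ne_zero P)

theorem frey_p_ne_zero (P : FreyPackage) : ((P.p : ℕ) : AlgebraicClosure ℚ) ≠ 0 :=
  Nat.cast_ne_zero.mpr P.hp0

/-- **I1, field `finite`.** -/
theorem frey_finite (P : FreyPackage) :
    Finite (Submodule.torsionBy ℤ ((P.freyCurve)⁄(AlgebraicClosure ℚ)).Point P.p) :=
  finite_torsionBy_of_odd _ P.hp_odd (frey_p_ne_zero P)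

/-- **I1, field `nontrivial`.** -/
theorem frey_nontrivial (P : FreyPackage) :
    Nontrivial (Submodule.torsionBy ℤ ((P.freyCurve)⁄(AlgebraicClosure ℚ)).Point P.p) :=
  nontrivial_torsionBy _ (frey_baseChange_Δ_ne_zero P _) P.hp_odd
    (by have := P.hp5; omega) (frey_p_ne_zero P)

/-- **I1, field `card_le`.** -/
theorem frey_card_le (P : FreyPackage) :
    Nat.card (Submodule.torsionBy ℤ ((P.freyCurve)⁄(AlgebraicClosure ℚ)).Point P.p) ≤ P.p ^ 2 :=
  card_torsionBy_le_sq _ P.hp_odd (frey_p_ne_zero P)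

/-- **I1** in the shape `TorsionStmt` of `helper432_Spec`. -/
theorem frey_torsion (P : FreyPackage) :
    Finite (Submodule.torsionBy ℤ ((P.freyCurve)⁄(AlgebraicClosure ℚ)).Point P.p) ∧
    Nontrivial (Submodule.torsionBy ℤ ((P.freyCurve)⁄(AlgebraicClosure ℚ)).Point P.p) ∧
    Nat.card (Submodule.torsionBy ℤ ((P.freyCurve)⁄(AlgebraicClosure ℚ)).Point P.p) ≤ P.p ^ 2 :=
  ⟨frey_finite P, frey_nontrivial P, frey_card_le P⟩

open Fermat.Agent.S13.helper3034 in
/-- The ladder polynomial of the Frey curve over any field `K ⊇ ℚ` comes from `ℤ[X]`. -/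
theorem frey_psiP_map (P : FreyPackage) (K : Type*) [Field K] [Algebra ℚ K] (m : ℕ) :
    (psiP (1 + 4 * A2 P) (2 * A4 P) 0 (-(A4 P) ^ 2) m).map (Int.castRingHom K) =
      psiP ((P.freyCurve)⁄K).b₂ ((P.freyCurve)⁄K).b₄ ((P.freyCurve)⁄K).b₆
        ((P.freyCurve)⁄K).b₈ m := by
  rw [psiP_map]
  have h2 : ((P.freyCurve)⁄K).b₂ = 1 + 4 * (A2 P : K) := map_b₂ P
  have h4 : ((P.freyCurve)⁄K).b₄ = 2 * (A4 P : K) := map_b₄ P
  have h6 : ((P.freyCurve)⁄K).b₆ = 0 := map_b₆ P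
  have h8 : ((P.freyCurve)⁄K).b₈ = -(A4 P : K) ^ 2 := map_b₈ P
  rw [h2, h4, h6, h8]
  simp only [map_add, map_mul, map_one, map_ofNat, map_zero, map_neg, map_pow, eq_intCast]

/-- **Integral division polynomial of the Frey curve** (shape `DivPolyStmt` of `helper432_Spec`):
`G ∈ ℤ[X]` with leading coefficient `p` and degree `(p² - 1)/2` whose roots in `ℚ̄` are exactly
the x-coordinates of the nonzero `p`-torsion points. -/
theorem frey_divPoly (P : FreyPackage) : ∃ G : Polynomial ℤ,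
    G.leadingCoeff = (P.p : ℤ) ∧ 2 * G.natDegree + 1 = P.p ^ 2 ∧
    ∀ (x y : AlgebraicClosure ℚ) (h : ((P.freyCurve)⁄(AlgebraicClosure ℚ)).Nonsingular x y),
      (P.p • (Point.some x y h : ((P.freyCurve)⁄(AlgebraicClosure ℚ)).Point) = 0 ↔
        Polynomial.aeval x G = 0) := by
  obtain ⟨m, hm⟩ := P.hp_odd
  have hLC := psiP_isLC (1 + 4 * helper3034.A2 P) (2 * helper3034.A4 P) 0
    (-(helper3034.A4 P) ^ 2) m
  have hlc : -(2 * (m : ℤ) + 1) ≠ 0 := by omega
  have hnd := hLC.natDegree_eq hlc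
  refine ⟨-psiP (1 + 4 * helper3034.A2 P) (2 * helper3034.A4 P) 0 (-(helper3034.A4 P) ^ 2) m,
    ?_, ?_, ?_⟩
  · rw [leadingCoeff_neg, leadingCoeff, hnd, hLC.2, hm]
    push_cast
    ring
  · rw [natDegree_neg, hnd, hm]
    ring
  · intro x y h
    rw [hm, nsmul_eq_zero_iff_psiP, ← frey_psiP_map, eval_map, map_neg, neg_eq_zero]
    rfl

/-- **Newton-polygon input for the Frey curve** (divisibility form): for a valuation subring `A`
of `ℚ̄` and a finite set `T ⊆ A` of elements of the form `1 / x(Q)`, `Q` a `p`-torsion point,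
the product `∏ t ∈ T, t` divides `p` in `A`. -/
theorem frey_prod_inv_x_dvd (P : FreyPackage) (A : ValuationSubring (AlgebraicClosure ℚ))
    (T : Finset (AlgebraicClosure ℚ))
    (hT : ∀ t ∈ T, t ∈ A ∧
      ∃ (x y : AlgebraicClosure ℚ) (h : ((P.freyCurve)⁄(AlgebraicClosure ℚ)).Nonsingular x y),
        t * x = 1 ∧
          P.p • (Point.some x y h : ((P.freyCurve)⁄(AlgebraicClosure ℚ)).Point) = 0) :
    ∃ a ∈ A, (∏ t ∈ T, t) * a = ((P.p : ℕ) : AlgebraicClosure ℚ) := by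
  obtain ⟨m, hm⟩ := P.hp_odd
  have h2 : ((P.freyCurve)⁄(AlgebraicClosure ℚ)).b₂ ∈ A.toSubring := by
    have : ((P.freyCurve)⁄(AlgebraicClosure ℚ)).b₂ =
        ((1 + 4 * helper3034.A2 P : ℤ) : AlgebraicClosure ℚ) := by
      rw [show ((P.freyCurve)⁄(AlgebraicClosure ℚ)).b₂ = _ from helper3034.map_b₂ P]
      push_cast
      ring
    rw [this]
    exact intCast_mem _ _
  have h4 : ((P.freyCurve)⁄(AlgebraicClosure ℚ)).b₄ ∈ A.toSubring := by
    have : ((P.freyCurve)⁄(AlgebraicClosure ℚ)).b₄ =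
        ((2 * helper3034.A4 P : ℤ) : AlgebraicClosure ℚ) := by
      rw [show ((P.freyCurve)⁄(AlgebraicClosure ℚ)).b₄ = _ from helper3034.map_b₄ P]
      push_cast
      ring
    rw [this]
    exact intCast_mem _ _
  have h6 : ((P.freyCurve)⁄(AlgebraicClosure ℚ)).b₆ ∈ A.toSubring := by
    rw [show ((P.freyCurve)⁄(AlgebraicClosure ℚ)).b₆ = _ from helper3034.map_b₆ P]
    exact zero_mem _
  have h8 : ((P.freyCurve)⁄(AlgebraicClosure ℚ)).b₈ ∈ A.toSubring := by
    have : ((P.freyCurve)⁄(AlgebraicClosure ℚ)).b₈ =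
        ((-(helper3034.A4 P) ^ 2 : ℤ) : AlgebraicClosure ℚ) := by
      rw [show ((P.freyCurve)⁄(AlgebraicClosure ℚ)).b₈ = _ from helper3034.map_b₈ P]
      push_cast
      ring
    rw [this]
    exact intCast_mem _ _
  have hp : ((2 * m + 1 : ℕ) : AlgebraicClosure ℚ) ≠ 0 := by
    rw [← hm]
    exact frey_p_ne_zero P
  have key := prod_inv_x_dvd ((P.freyCurve)⁄(AlgebraicClosure ℚ)) A.toSubring h2 h4 h6 h8 m hp T
    (by
      intro t ht
      obtain ⟨htA, x, y, h, hx1, hx0⟩ := hT t ht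
      refine ⟨htA, x, y, h, hx1, ?_⟩
      rw [← hm]
      exact hx0)
  obtain ⟨a, haA, ha⟩ := key
  refine ⟨a, haA, ?_⟩
  rw [ha, hm]

end Fermat.Agent.S13.helper853
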