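import Mathlib
import Fermat.Prelude.Def_FLTPrelim_FreyPackage
import Fermat.Prelude.Def_FLTPrelim_GaloisRep
import Fermat.Prelude.Def_FLTPrelim_Ramification
import Fermat.Prelude.Def_FLTPrelim_CofixedLine

/-!
# S13: card-free assembly (helper8682)

Variant of the S13 reduction in which the exact count `Nat.card E[p] = p ^ 2` is NOT an input:
only `Finite`, `Nontrivial` and `Nat.card ≤ p ^ 2` are needed (the exact count then follows from
the existence of a proper nonzero stable submodule, and is handed to the `at_p` input as a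
hypothesis).  Two forms of the Minkowski input are supported:

* `cofixedLine_of_inputs`  : Minkowski for arbitrary subgroups containing all inertia groups;
* `cofixedLine_of_inputs_normal` : Minkowski for NORMAL subgroups, with `at_p` only required
  uniformly as before (the subgroups it is applied to are normal).
-/

set_option autoImplicit false
open WeierstrassCurve WeierstrassCurve.Affine WeierstrassCurve.Affine.Point

namespace Fermat.Agent.S13.helper8682

noncomputable section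

/-- The absolute Galois group of `ℚ`. -/
abbrev GQ : Type := AlgebraicClosure ℚ ≃ₐ[ℚ] AlgebraicClosure ℚ

/-- The `p`-torsion of the Frey curve over `ℚ̄`. -/
abbrev Vp (P : FreyPackage) : Type :=
  Submodule.torsionBy ℤ ((P.freyCurve)⁄(AlgebraicClosure ℚ)).Point P.p

variable {P : FreyPackage}

lemma smul_zmod_smul (σ : GQ) (c : ZMod P.p) (x : Vp P) : σ • (c • x) = c • (σ • x) :=
  ZMod.map_smul (DistribSMul.toAddMonoidHom (Vp P) σ) c x

/-- The subgroup of `G_ℚ` acting trivially on a submodule `N`. -/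
def fixSub (N : Submodule (ZMod P.p) (Vp P)) : Subgroup GQ where
  carrier := {σ | ∀ x ∈ N, σ • x = x}
  mul_mem' := by
    intro σ τ hσ hτ x hx
    rw [mul_smul, hτ x hx, hσ x hx]
  one_mem' := by intro x _; exact one_smul _ x
  inv_mem' := by
    intro σ hσ x hx
    have h := hσ x hx
    calc σ⁻¹ • x = σ⁻¹ • (σ • x) := by rw [h]
      _ = x := inv_smul_smul σ x

lemma mem_fixSub {N : Submodule (ZMod P.p) (Vp P)} {σ : GQ} :
    σ ∈ fixSub N ↔ ∀ x ∈ N, σ • x = x := Iff.rfl

/-- The subgroup of `G_ℚ` acting trivially on the quotient by a stable submodule `N`. -/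
def cofixSub (N : Submodule (ZMod P.p) (Vp P)) (hN : IsGaloisStable ℚ N) : Subgroup GQ where
  carrier := {σ | ∀ x : Vp P, σ • x - x ∈ N}
  mul_mem' := by
    intro σ τ hσ hτ x
    have h1 : (σ * τ) • x - x = σ • (τ • x - x) + (σ • x - x) := by
      rw [mul_smul, smul_sub]; abel
    rw [h1]
    exact N.add_mem (hN σ _ (hτ x)) (hσ x)
  one_mem' := by intro x; simp
  inv_mem' := by
    intro σ hσ x
    have h1 : σ⁻¹ • x - x = -(σ⁻¹ • (σ • x - x)) := by
      rw [smul_sub, inv_smul_smul]; abel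
    rw [h1]
    exact N.neg_mem (hN σ⁻¹ _ (hσ x))

lemma mem_cofixSub {N : Submodule (ZMod P.p) (Vp P)} {hN : IsGaloisStable ℚ N} {σ : GQ} :
    σ ∈ cofixSub N hN ↔ ∀ x : Vp P, σ • x - x ∈ N := Iff.rfl

lemma fixSub_normal (N : Submodule (ZMod P.p) (Vp P)) (hN : IsGaloisStable ℚ N) :
    (fixSub N).Normal := by
  refine ⟨fun σ hσ g x hx => ?_⟩
  have h1 : g⁻¹ • x ∈ N := hN g⁻¹ x hx
  rw [mul_smul, mul_smul, hσ _ h1, smul_inv_smul]

lemma cofixSub_normal (N : Submodule (ZMod P.p) (Vp P)) (hN : IsGaloisStable ℚ N) :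
    (cofixSub N hN).Normal := by
  refine ⟨fun σ hσ g x => ?_⟩
  have h1 : σ • (g⁻¹ • x) - g⁻¹ • x ∈ N := hσ (g⁻¹ • x)
  have h2 : (g * σ * g⁻¹) • x - x = g • (σ • (g⁻¹ • x) - g⁻¹ • x) := by
    rw [mul_smul, mul_smul, smul_sub, smul_inv_smul]
  rw [h2]
  exact hN g _ h1

/-- The kernel of the action on `V`. -/
def kerSub (P : FreyPackage) : Subgroup GQ where
  carrier := {σ | ∀ x : Vp P, σ • x = x}
  mul_mem' := by
    intro σ τ hσ hτ x
    rw [mul_smul, hτ x, hσ x]
  one_mem' := by intro x; exact one_smul _ x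
  inv_mem' := by
    intro σ hσ x
    calc σ⁻¹ • x = σ⁻¹ • (σ • x) := by rw [hσ x]
      _ = x := inv_smul_smul σ x

lemma kerSub_le_fixSub (N : Submodule (ZMod P.p) (Vp P)) : kerSub P ≤ fixSub N :=
  fun _ hσ x _ => hσ x

lemma kerSub_le_cofixSub (N : Submodule (ZMod P.p) (Vp P)) (hN : IsGaloisStable ℚ N) :
    kerSub P ≤ cofixSub N hN := by
  intro σ hσ x
  change σ • x - x ∈ N
  rw [hσ x, sub_self]
  exact N.zero_mem

lemma isOpen_kerSub [Finite (Vp P)] (h : ∀ x : Vp P, IsOpen {σ : GQ | σ • x = x}) :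
    IsOpen (kerSub P : Set GQ) := by
  have : (kerSub P : Set GQ) = ⋂ x : Vp P, {σ : GQ | σ • x = x} := by
    ext σ
    simp only [Set.mem_iInter, Set.mem_ofPred_eq]
    rfl
  rw [this]
  exact isOpen_iInter_of_finite h

section LinearAlgebra

variable [Fact P.p.Prime]

/-- With `Nat.card V ≤ p ^ 2`, a proper nonzero submodule forces `finrank V = 2`. -/
lemma finrank_eq_two_of_sub [Finite (Vp P)] (hcard : Nat.card (Vp P) ≤ P.p ^ 2)
    (N : Submodule (ZMod P.p) (Vp P)) (h0 : N ≠ ⊥) (h1 : N ≠ ⊤) :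
    Module.finrank (ZMod P.p) (Vp P) = 2 := by
  have hp : 1 < P.p := (Fact.out : P.p.Prime).one_lt
  have h := Module.natCard_eq_pow_finrank (K := ZMod P.p) (V := Vp P)
  rw [Nat.card_zmod] at h
  rw [h] at hcard
  have hle : Module.finrank (ZMod P.p) (Vp P) ≤ 2 := (Nat.pow_le_pow_iff_right hp).mp hcard
  have hlt : Module.finrank (ZMod P.p) N < Module.finrank (ZMod P.p) (Vp P) :=
    Submodule.finrank_lt h1
  have hpos : 0 < Module.finrank (ZMod P.p) N := by
    rw [Nat.pos_iff_ne_zero]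
    intro h
    exact h0 (Submodule.finrank_eq_zero.mp h)
  omega

/-- With `Nat.card V ≤ p ^ 2`, a proper nonzero submodule forces `Nat.card V = p ^ 2`. -/
lemma card_eq_sq_of_sub [Finite (Vp P)] (hcard : Nat.card (Vp P) ≤ P.p ^ 2)
    (N : Submodule (ZMod P.p) (Vp P)) (h0 : N ≠ ⊥) (h1 : N ≠ ⊤) :
    Nat.card (Vp P) = P.p ^ 2 := by
  have h := Module.natCard_eq_pow_finrank (K := ZMod P.p) (V := Vp P)
  rw [Nat.card_zmod, finrank_eq_two_of_sub hcard N h0 h1] at h
  exact h

lemma finrank_sub_eq_one (hV : Module.finrank (ZMod P.p) (Vp P) = 2)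
    (N : Submodule (ZMod P.p) (Vp P)) (h0 : N ≠ ⊥) (h1 : N ≠ ⊤) :
    Module.finrank (ZMod P.p) N = 1 := by
  have : Module.Finite (ZMod P.p) (Vp P) := Module.finite_of_finrank_pos (by omega)
  have hlt : Module.finrank (ZMod P.p) N < 2 := hV ▸ Submodule.finrank_lt h1
  have hpos : 0 < Module.finrank (ZMod P.p) N := by
    rw [Nat.pos_iff_ne_zero]
    intro h
    exact h0 (Submodule.finrank_eq_zero.mp h)
  omega

lemma exists_smul_eq_of_line (hV : Module.finrank (ZMod P.p) (Vp P) = 2)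
    (N : Submodule (ZMod P.p) (Vp P)) (h0 : N ≠ ⊥) (h1 : N ≠ ⊤)
    {n : Vp P} (hn : n ∈ N) (hn0 : n ≠ 0) {w : Vp P} (hw : w ∈ N) :
    ∃ c : ZMod P.p, c • n = w := by
  have h := finrank_sub_eq_one hV N h0 h1
  have hn0' : (⟨n, hn⟩ : N) ≠ 0 := fun h => hn0 (congrArg Subtype.val h)
  obtain ⟨c, hc⟩ := (finrank_eq_one_iff_of_nonzero' (⟨n, hn⟩ : N) hn0').mp h ⟨w, hw⟩
  exact ⟨c, congrArg Subtype.val hc⟩

lemma exists_decomp_of_notMem (hV : Module.finrank (ZMod P.p) (Vp P) = 2)
    (N : Submodule (ZMod P.p) (Vp P)) (h0 : N ≠ ⊥)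
    {y : Vp P} (hy : y ∉ N) (v : Vp P) :
    ∃ n ∈ N, ∃ d : ZMod P.p, v = n + d • y := by
  have : Module.Finite (ZMod P.p) (Vp P) := Module.finite_of_finrank_pos (by omega)
  have hlt : N < N ⊔ Submodule.span (ZMod P.p) {y} := by
    refine lt_of_le_of_ne le_sup_left ?_
    intro h
    apply hy
    rw [h]
    exact Submodule.mem_sup_right (Submodule.mem_span_singleton_self y)
  have hpos : 0 < Module.finrank (ZMod P.p) N := by
    rw [Nat.pos_iff_ne_zero]
    intro h
    exact h0 (Submodule.finrank_eq_zero.mp h)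
  have h2 : Module.finrank (ZMod P.p) N <
      Module.finrank (ZMod P.p) ↥(N ⊔ Submodule.span (ZMod P.p) {y}) :=
    Submodule.finrank_lt_finrank_of_lt hlt
  have hle : Module.finrank (ZMod P.p) ↥(N ⊔ Submodule.span (ZMod P.p) {y}) ≤ 2 :=
    hV ▸ Submodule.finrank_le _
  have htop : N ⊔ Submodule.span (ZMod P.p) {y} = ⊤ :=
    Submodule.eq_top_of_finrank_eq (by omega)
  have hv : v ∈ N ⊔ Submodule.span (ZMod P.p) {y} := htop ▸ Submodule.mem_top
  obtain ⟨n, hn, z, hz, rfl⟩ := Submodule.mem_sup.mp hv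
  obtain ⟨d, rfl⟩ := Submodule.mem_span_singleton.mp hz
  exact ⟨n, hn, d, rfl⟩

/-- A unipotent element fixes a stable line pointwise. -/
lemma unipotent_fix_line (hV : Module.finrank (ZMod P.p) (Vp P) = 2)
    (N : Submodule (ZMod P.p) (Vp P)) (hN : IsGaloisStable ℚ N) (h0 : N ≠ ⊥) (h1 : N ≠ ⊤)
    (σ : GQ) (hσ : ∀ x : Vp P, σ • (σ • x - x) = σ • x - x) :
    ∀ x ∈ N, σ • x = x := by
  intro n hn
  by_cases hn0 : n = 0
  · rw [hn0, smul_zero]
  obtain ⟨c, hc⟩ := exists_smul_eq_of_line hV N h0 h1 hn hn0 (hN σ n hn)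
  have h := hσ n
  rw [← hc] at h
  have h' : σ • (c • n - n) = c • (c • n) - c • n := by
    rw [smul_sub, smul_zmod_smul, ← hc]
  rw [h'] at h
  have h3 : ((c - 1) * (c - 1)) • n = 0 := by
    have : ((c - 1) * (c - 1)) • n = c • (c • n) - c • n - (c • n - n) := by
      rw [mul_smul, sub_smul, sub_smul, one_smul, smul_sub, one_smul]
    rw [this, h, sub_self]
  rcases smul_eq_zero.mp h3 with h4 | h4
  · have h5 : c - 1 = 0 := by
      rcases mul_eq_zero.mp h4 with h5 | h5 <;> exact h5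
    have h6 : c = 1 := sub_eq_zero.mp h5
    rw [← hc, h6, one_smul]
  · exact absurd h4 hn0

/-- A unipotent element acts trivially modulo a stable line. -/
lemma unipotent_cofix_line (hV : Module.finrank (ZMod P.p) (Vp P) = 2)
    (N : Submodule (ZMod P.p) (Vp P)) (hN : IsGaloisStable ℚ N) (h0 : N ≠ ⊥) (h1 : N ≠ ⊤)
    (σ : GQ) (hσ : ∀ x : Vp P, σ • (σ • x - x) = σ • x - x) :
    ∀ x : Vp P, σ • x - x ∈ N := by
  intro x
  by_contra hy
  have hfix := unipotent_fix_line hV N hN h0 h1 σ hσ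
  have hall : ∀ v : Vp P, σ • v = v := by
    intro v
    obtain ⟨n, hn, d, rfl⟩ := exists_decomp_of_notMem hV N h0 hy v
    rw [smul_add, smul_zmod_smul, hfix n hn, hσ x]
  apply hy
  rw [hall x, sub_self]
  exact N.zero_mem

end LinearAlgebra

/-- The inputs from which S13 follows by pure linear algebra; the exact count of `E[p]`
is not required. -/
structure Inputs (P : FreyPackage) : Prop where
  /-- I1a: the `p`-torsion is finite. -/
  fin : Finite (Vp P)
  /-- I1b: the `p`-torsion is nontrivial. -/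
  nontriv : Nontrivial (Vp P)
  /-- I1c: the `p`-torsion has at most `p ^ 2` points. -/
  card_le : Nat.card (Vp P) ≤ P.p ^ 2
  /-- I2 (= S05): unramified at odd primes different from `p`. -/
  unram_odd : ∀ q : ℕ, q.Prime → q ≠ 2 → q ≠ P.p → P.GaloisRepUnramifiedAt q
  /-- I3: inertia at `2` is unipotent. -/
  unip_two : ∀ A : ValuationSubring (AlgebraicClosure ℚ), A.LiesOverPrime 2 →
    ∀ σ ∈ A.inertiaSubgroupIn ℚ, ∀ x : Vp P, σ • (σ • x - x) = σ • x - x
  /-- I4: the Frey curve has no rational point of order `p`. -/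
  no_fixed : ∀ x : Vp P, (∀ σ : GQ, σ • x = x) → x = 0
  /-- I5: for a stable line, inertia at `p` is trivial on the line or on the quotient
  (the exact count may be used). -/
  at_p : Nat.card (Vp P) = P.p ^ 2 →
    ∀ N : Submodule (ZMod P.p) (Vp P), IsGaloisStable ℚ N → N ≠ ⊥ → N ≠ ⊤ →
    (∀ A : ValuationSubring (AlgebraicClosure ℚ), A.LiesOverPrime P.p →
      ∀ σ ∈ A.inertiaSubgroupIn ℚ, ∀ x ∈ N, σ • x = x) ∨
    (∀ A : ValuationSubring (AlgebraicClosure ℚ), A.LiesOverPrime P.p →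
      ∀ σ ∈ A.inertiaSubgroupIn ℚ, ∀ x : Vp P, σ • x - x ∈ N)
  /-- I6: Minkowski, in inertia form, for NORMAL open subgroups. -/
  minkowski : ∀ H : Subgroup GQ, H.Normal → IsOpen (H : Set GQ) →
    (∀ q : ℕ, q.Prime → ∀ A : ValuationSubring (AlgebraicClosure ℚ), A.LiesOverPrime q →
      A.inertiaSubgroupIn ℚ ≤ H) → H = ⊤
  /-- I7: point stabilisers are open. -/
  open_stab : ∀ x : Vp P, IsOpen {σ : GQ | σ • x = x}

/-- **S13 from the inputs** (card-free form; Minkowski only for normal subgroups). -/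
theorem cofixedLine_of_inputs (P : FreyPackage) (I : Inputs P)
    (hred : ¬ GaloisRepIsIrreducible (K := AlgebraicClosure ℚ) ℚ P.freyCurve P.p) :
    HasGaloisStableCofixedLine (K := AlgebraicClosure ℚ) ℚ P.freyCurve P.p := by
  have : Fact P.p.Prime := ⟨P.pp⟩
  have hfin : Finite (Vp P) := I.fin
  have hnt : Nontrivial (Vp P) := I.nontriv
  -- a stable line
  obtain ⟨N, hN, h0, h1⟩ : ∃ N : Submodule (ZMod P.p) (Vp P),
      IsGaloisStable ℚ N ∧ N ≠ ⊥ ∧ N ≠ ⊤ := by
    by_contra hcon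
    apply hred
    refine ⟨hnt, fun N hN => ?_⟩
    by_contra h
    push Not at h
    exact hcon ⟨N, hN, h.1, h.2⟩
  have hV : Module.finrank (ZMod P.p) (Vp P) = 2 := finrank_eq_two_of_sub I.card_le N h0 h1
  have hcard : Nat.card (Vp P) = P.p ^ 2 := card_eq_sq_of_sub I.card_le N h0 h1
  have hker : IsOpen (kerSub P : Set GQ) := isOpen_kerSub I.open_stab
  have hopen1 : IsOpen (fixSub N : Set GQ) := Subgroup.isOpen_mono (kerSub_le_fixSub N) hker
  have hopen2 : IsOpen (cofixSub N hN : Set GQ) :=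
    Subgroup.isOpen_mono (kerSub_le_cofixSub N hN) hker
  -- inertia away from `p` lies in both subgroups
  have haway : ∀ q : ℕ, q.Prime → q ≠ P.p →
      ∀ A : ValuationSubring (AlgebraicClosure ℚ), A.LiesOverPrime q →
      ∀ σ ∈ A.inertiaSubgroupIn ℚ, σ ∈ fixSub N ∧ σ ∈ cofixSub N hN := by
    intro q hq hqp A hA σ hσ
    by_cases hq2 : q = 2
    · subst hq2
      have hu := I.unip_two A hA σ hσ
      exact ⟨unipotent_fix_line hV N hN h0 h1 σ hu, unipotent_cofix_line hV N hN h0 h1 σ hu⟩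
    · have hk : σ ∈ kerSub P := fun x => I.unram_odd q hq hq2 hqp A hA σ hσ x
      exact ⟨kerSub_le_fixSub N hk, kerSub_le_cofixSub N hN hk⟩
  rcases I.at_p hcard N hN h0 h1 with hp | hp
  · -- inertia everywhere fixes the line: contradiction with I4
    exfalso
    have htop : fixSub N = ⊤ := by
      refine I.minkowski _ (fixSub_normal N hN) hopen1 fun q hq A hA σ hσ => ?_
      by_cases hqp : q = P.p
      · subst hqp
        exact hp A hA σ hσ
      · exact (haway q hq hqp A hA σ hσ).1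
    obtain ⟨n, hn, hn0⟩ := (Submodule.ne_bot_iff N).mp h0
    refine hn0 (I.no_fixed n fun σ => ?_)
    have hσ : σ ∈ fixSub N := htop ▸ Subgroup.mem_top σ
    exact hσ n hn
  · -- inertia everywhere is trivial on the quotient: `N` is cofixed
    have htop : cofixSub N hN = ⊤ := by
      refine I.minkowski _ (cofixSub_normal N hN) hopen2 fun q hq A hA σ hσ => ?_
      by_cases hqp : q = P.p
      · subst hqp
        exact hp A hA σ hσ
      · exact (haway q hq hqp A hA σ hσ).2
    refine ⟨N, hN, h0, h1, fun σ x => ?_⟩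
    have hσ : σ ∈ cofixSub N hN := htop ▸ Subgroup.mem_top σ
    exact hσ x

end

end Fermat.Agent.S13.helper8682
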