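import Fermat.Agent.S13.helper954_LocalE1
import Fermat.Agent.Lib.helper954_QbarPlaces
import Fermat.Agent.S05.helper172_FreyShape
import Fermat.Prelude.Def_FLTPrelim_CofixedLine

/-!
# S13, ingredient I5 (`at_p`) for the Frey curve (helper954)

For a Galois-stable line `N` in the `p`-torsion `V` of the Frey curve, the inertia groups at `p`
act trivially either on `N` or on `V / N` (field `at_p` of the S13 skeleton of helper13).

Inputs (hypotheses): `Nat.card V = p ^ 2` and the divisibility statement `PsiDivStmt`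
(consequence of the `p`-division polynomial having integer coefficients and leading coefficient
`± p`).
-/

set_option autoImplicit false

namespace Fermat.Agent.S13.helper954

open WeierstrassCurve WeierstrassCurve.Affine WeierstrassCurve.Affine.Point
open Fermat.Agent.S05.helper305
open Fermat.Agent.Lib.helper954
open scoped Pointwise

local notation "Qb" => AlgebraicClosure ℚ
local notation "GQ" => (AlgebraicClosure ℚ ≃ₐ[ℚ] AlgebraicClosure ℚ)

/-- The Frey curve over `ℚ̄`. -/
noncomputable abbrev freyQb (P : FreyPackage) : WeierstrassCurve Qb :=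
  P.freyCurve.map (algebraMap ℚ Qb)

/-- The `p`-torsion of the Frey curve over `ℚ̄`. -/
abbrev Vp (P : FreyPackage) : Type :=
  Submodule.torsionBy ℤ ((P.freyCurve)⁄Qb).Point P.p

/-- **Divisibility input** (from the `p`-division polynomial): for a finite set `S` of distinct
`x`-coordinates of nonzero `p`-torsion points whose inverses lie in a valuation subring `A`,
the product of the inverses divides `p` in `A`; in valuation form. -/
def PsiDivStmt (P : FreyPackage) : Prop :=
  ∀ (A : ValuationSubring Qb) (S : Finset Qb),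
    (∀ x ∈ S, x ≠ 0 ∧ x⁻¹ ∈ A ∧ ∃ (y : Qb) (h : (freyQb P).toAffine.Nonsingular x y),
        P.p • (Point.some x y h : (freyQb P).toAffine.Point) = 0) →
    A.valuation (P.p : Qb) ≤ ∏ x ∈ S, A.valuation x⁻¹

section local_at_A

variable (P : FreyPackage) (A : ValuationSubring Qb)

theorem apply_some (σ : GQ) {x y : Qb} (h : (freyQb P).toAffine.Nonsingular x y) :
    ∃ h' : (freyQb P).toAffine.Nonsingular (σ x) (σ y),
      σ • (Point.some x y h : ((P.freyCurve)⁄Qb).Point) = Point.some (σ x) (σ y) h' := by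
  have h' : (freyQb P).toAffine.Nonsingular (σ x) (σ y) :=
    (WeierstrassCurve.Affine.baseChange_nonsingular (W := P.freyCurve)
      (f := σ.toAlgHom) σ.toAlgHom.injective x y).mpr h
  exact ⟨h', rfl⟩

/-- Point-level form of (a): inertia at `A ∣ p` moves `p`-torsion points inside `E₁(A)`. -/
theorem inE1_inertia_sub {e al be : ℚ}
    (hS : Shape (freyQb P) (algebraMap ℚ Qb e) (algebraMap ℚ Qb al) (algebraMap ℚ Qb be))
    (hv2 : A.valuation (2 : Qb) = 1)
    (hal : A.valuation (algebraMap ℚ Qb al) ≤ 1) (hbe : A.valuation (algebraMap ℚ Qb be) ≤ 1)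
    (hbe0 : be ≠ 0) (hdisc : A.valuation (algebraMap ℚ Qb (al ^ 2 - 4 * be)) = 1)
    (hcase : A.valuation (algebraMap ℚ Qb be) = 1 ∨
        (A.valuation (algebraMap ℚ Qb al) = 1 ∧
          ∃ w : ℤ, w ≠ 0 ∧ A.valuation (algebraMap ℚ Qb be) = A.valuation (w : Qb) ^ P.p))
    {σ : GQ} (hσ : σ ∈ A.inertiaSubgroupIn ℚ)
    (T : ((P.freyCurve)⁄Qb).Point) (hT : P.p • T = 0) :
    InE1 A.valuation (freyQb P) (algebraMap ℚ Qb e) (σ • T - T) := by
  cases T with
  | zero =>
    left
    have h0 : σ • (0 : ((P.freyCurve)⁄Qb).Point) = 0 := rfl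
    change σ • (0 : ((P.freyCurve)⁄Qb).Point) - 0 = 0
    rw [h0, sub_zero]
  | some x y h =>
    obtain ⟨h', hσT⟩ := apply_some P σ h
    rw [hσT]
    have hdisc' : A.valuation (algebraMap ℚ Qb al ^ 2 - 4 * algebraMap ℚ Qb be) = 1 := by
      have : algebraMap ℚ Qb (al ^ 2 - 4 * be)
          = algebraMap ℚ Qb al ^ 2 - 4 * algebraMap ℚ Qb be := by
        simp only [map_sub, map_mul, map_pow, map_ofNat]
      rw [← this]; exact hdisc
    refine inE1_sigma_sub hS hv2 hal hbe ((map_ne_zero (algebraMap ℚ Qb)).mpr hbe0) hdisc'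
      (σ : Qb →+* Qb) ?_ (σ.commutes e) ?_ ?_ P.hp_odd ?_ h h' hT
    · intro z hz
      have hzA : z ∈ A := (ValuationSubring.valuation_le_one_iff A z).1 hz
      exact (ValuationSubring.mem_nonunits_iff (A := A)).1
        (apply_sub_mem_nonunits_of_mem_inertia hσ hzA)
    · change σ (algebraMap ℚ Qb P.freyCurve.a₁) = algebraMap ℚ Qb P.freyCurve.a₁
      exact σ.commutes _
    · change σ (algebraMap ℚ Qb P.freyCurve.a₃) = algebraMap ℚ Qb P.freyCurve.a₃
      exact σ.commutes _
    · rcases hcase with hc | ⟨hal1, w, -, hw⟩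
      · exact Or.inl hc
      · refine Or.inr ⟨hal1, ?_, (w : Qb), map_intCast σ w, hw⟩
        obtain ⟨r, hr⟩ := IsAlgClosed.exists_pow_nat_eq (algebraMap ℚ Qb al) (n := 2) (by norm_num)
        exact ⟨r, hr⟩

/-- The coordinates of a point in `E₁`. -/
theorem one_lt_of_inE1_some {K : Type*} [Field K] [DecidableEq K] {Γ₀ : Type*}
    [LinearOrderedCommGroupWithZero Γ₀] {v : Valuation K Γ₀} {W : WeierstrassCurve K} {e x y : K}
    {h : W.toAffine.Nonsingular x y} (hE : InE1 v W e (Point.some x y h)) : 1 < v (x - e) := by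
  rcases hE with h0 | ⟨ξ, η, ⟨x', y', h', hP, rfl, -⟩, hv⟩
  · exact absurd h0 (Point.some_ne_zero h)
  · rw [Point.some.injEq] at hP
    rw [hP.1]
    exact hv

theorem nsmul_coe_eq_zero (T : Vp P) : P.p • (T : ((P.freyCurve)⁄Qb).Point) = 0 := by
  have := (Submodule.mem_torsionBy_iff _ _).1 T.2
  rwa [natCast_zsmul] at this

/-- **(b')**: if a nonzero Galois-stable submodule `N` of the `p`-torsion lies in the kernel of
reduction `E₁(A)` at a place `A ∣ p`, then every `p`-torsion point of `E₁(A)` lies in `N`. -/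
theorem mem_of_inE1_of_stable (hΨ : PsiDivStmt P) (hA : A.LiesOverPrime P.p) [Finite (Vp P)]
    {e : ℚ} (he : A.valuation (algebraMap ℚ Qb e) ≤ 1)
    (N : Submodule (ZMod P.p) (Vp P)) (hN : IsGaloisStable ℚ N) (hN0 : N ≠ ⊥)
    (hNE1 : ∀ T ∈ N, InE1 A.valuation (freyQb P) (algebraMap ℚ Qb e)
      (T : ((P.freyCurve)⁄Qb).Point))
    (T : Vp P) (hT : InE1 A.valuation (freyQb P) (algebraMap ℚ Qb e)
      (T : ((P.freyCurve)⁄Qb).Point)) : T ∈ N := by
  classical
  by_contra hTN
  -- valuation facts for coordinates of points of `E₁`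
  have hval : ∀ {x y : Qb} {h : (freyQb P).toAffine.Nonsingular x y},
      InE1 A.valuation (freyQb P) (algebraMap ℚ Qb e) (Point.some x y h) →
      x ≠ 0 ∧ A.valuation x⁻¹ < 1 := by
    intro x y h hE
    have h1 := one_lt_of_inE1_some hE
    have h2 : 1 < A.valuation x := by
      have : x = (x - algebraMap ℚ Qb e) + algebraMap ℚ Qb e := by ring
      rw [this, Valuation.map_add_eq_of_lt_left _ (lt_of_le_of_lt he h1)]
      exact h1
    have hx0 : x ≠ 0 := by
      rintro rfl
      rw [_root_.map_zero] at h2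
      exact absurd h2 (not_lt.mpr zero_le_one)
    refine ⟨hx0, ?_⟩
    rw [map_inv₀]
    exact inv_lt_one_of_one_lt₀ h2
  -- the set of `x`-coordinates of the nonzero points of `N`
  let SN : Set Qb := {x | ∃ T' : Vp P, T' ∈ N ∧
    ∃ (y : Qb) (h : (freyQb P).toAffine.Nonsingular x y),
      (T' : ((P.freyCurve)⁄Qb).Point) = Point.some x y h}
  let xOf : Vp P → Qb := fun T' =>
    match (T' : ((P.freyCurve)⁄Qb).Point) with
    | .zero => 0
    | .some x _ _ => x
  have hfin : SN.Finite := by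
    refine Set.Finite.subset (Set.finite_range xOf) ?_
    rintro x ⟨T', -, y, h, hT'⟩
    refine ⟨T', ?_⟩
    simp only [xOf]
    rw [hT']
  set X : Finset Qb := hfin.toFinset with hX
  have hmemX : ∀ x, x ∈ X ↔ ∃ T' : Vp P, T' ∈ N ∧
      ∃ (y : Qb) (h : (freyQb P).toAffine.Nonsingular x y),
        (T' : ((P.freyCurve)⁄Qb).Point) = Point.some x y h := by
    intro x
    rw [hX, Set.Finite.mem_toFinset]
    rfl
  have hXprop : ∀ x ∈ X, x ≠ 0 ∧ A.valuation x⁻¹ < 1 := by
    intro x hx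
    obtain ⟨T', hT'N, y, h, hT'⟩ := (hmemX x).1 hx
    have := hNE1 T' hT'N
    rw [hT'] at this
    exact hval this
  -- `X` is nonempty
  obtain ⟨T₁, hT₁N, hT₁0⟩ := (Submodule.ne_bot_iff N).mp hN0
  have hXne : X.Nonempty := by
    have hT₁0' : (T₁ : ((P.freyCurve)⁄Qb).Point) ≠ 0 := fun h0 => hT₁0 (Subtype.ext h0)
    cases hT₁ : (T₁ : ((P.freyCurve)⁄Qb).Point) with
    | zero => exact absurd hT₁ hT₁0'
    | some x y h => exact ⟨x, (hmemX x).2 ⟨T₁, hT₁N, y, h, hT₁⟩⟩
  -- `X` is Galois stable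
  have hstab : ∀ σ : GQ, ∀ x ∈ X, σ x ∈ X := by
    intro σ x hx
    obtain ⟨T', hT'N, y, h, hT'⟩ := (hmemX x).1 hx
    obtain ⟨h', hσT⟩ := apply_some P σ h
    refine (hmemX (σ x)).2 ⟨σ • T', hN σ T' hT'N, σ y, h', ?_⟩
    change σ • (T' : ((P.freyCurve)⁄Qb).Point) = _
    rw [hT']
    exact hσT
  have himage : ∀ σ : GQ, X.image σ = X := by
    intro σ
    apply Finset.eq_of_subset_of_card_le
    · intro z hz
      obtain ⟨x, hx, rfl⟩ := Finset.mem_image.1 hz
      exact hstab σ x hx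
    · rw [Finset.card_image_of_injective _ σ.injective]
  -- the product of the inverses is rational
  set w : Qb := ∏ x ∈ X, x⁻¹ with hw
  have hwfix : ∀ σ : GQ, σ w = w := by
    intro σ
    rw [hw, map_prod]
    conv_rhs => rw [← himage σ]
    rw [Finset.prod_image (fun a _ b _ hab => σ.injective hab)]
    exact Finset.prod_congr rfl fun x _ => map_inv₀ σ x
  obtain ⟨q, hq⟩ := exists_rat_of_fixed w hwfix
  have hw0 : w ≠ 0 := by
    rw [hw, Finset.prod_ne_zero_iff]
    intro x hx
    exact inv_ne_zero (hXprop x hx).1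
  have hq0 : q ≠ 0 := by
    rintro rfl
    rw [_root_.map_zero] at hq
    exact hw0 hq.symm
  have hvw : A.valuation w = ∏ x ∈ X, A.valuation x⁻¹ := by rw [hw, map_prod]
  have hvwlt : A.valuation w < 1 := by
    obtain ⟨x₁, hx₁⟩ := hXne
    rw [hvw, ← Finset.mul_prod_erase X _ hx₁]
    have h1 : ∏ x ∈ X.erase x₁, A.valuation x⁻¹ ≤ 1 :=
      Finset.prod_le_one' fun x hx => (hXprop x (Finset.mem_of_mem_erase hx)).2.le
    calc A.valuation x₁⁻¹ * ∏ x ∈ X.erase x₁, A.valuation x⁻¹
        ≤ A.valuation x₁⁻¹ * 1 := mul_le_mul' le_rfl h1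
      _ = A.valuation x₁⁻¹ := mul_one _
      _ < 1 := (hXprop x₁ hx₁).2
  have hvwle : A.valuation w ≤ A.valuation (P.p : Qb) := by
    rw [← hq] at hvwlt ⊢
    exact valuation_rat_le_of_lt_one P.pp A hA hq0 hvwlt
  -- the point `T`
  have hT0 : (T : ((P.freyCurve)⁄Qb).Point) ≠ 0 := by
    intro h0
    apply hTN
    have : T = 0 := Subtype.ext h0
    rw [this]
    exact N.zero_mem
  cases hTc : (T : ((P.freyCurve)⁄Qb).Point) with
  | zero => exact hT0 hTc
  | some x₀ y₀ h₀ =>
    rw [hTc] at hT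
    obtain ⟨hx₀0, hx₀lt⟩ := hval hT
    have hx₀X : x₀ ∉ X := by
      intro hx
      obtain ⟨T', hT'N, y, h, hT'⟩ := (hmemX x₀).1 hx
      rcases Y_eq_of_X_eq h₀.1 h.1 rfl with hy | hy
      · apply hTN
        have : T = T' := by
          apply Subtype.ext
          rw [hTc, hT']
          subst hy
          rfl
        rw [this]; exact hT'N
      · apply hTN
        have : T = -T' := by
          have hneg : -(Point.some x₀ y h : ((P.freyCurve)⁄Qb).Point) =
              Point.some x₀ ((freyQb P).toAffine.negY x₀ y) ((nonsingular_neg ..).mpr h) :=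
            Point.neg_some h
          apply Subtype.ext
          rw [Submodule.coe_neg, hTc, hT']
          subst hy
          exact hneg.symm
        rw [this]; exact N.neg_mem hT'N
    have key := hΨ A (insert x₀ X) (by
      intro x hx
      rcases Finset.mem_insert.1 hx with rfl | hx
      · refine ⟨hx₀0, ?_, y₀, h₀, ?_⟩
        · exact (ValuationSubring.valuation_le_one_iff A _).1 hx₀lt.le
        · have h1 := nsmul_coe_eq_zero P T
          rw [hTc] at h1
          exact h1
      · obtain ⟨T', hT'N, y, h, hT'⟩ := (hmemX x).1 hx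
        refine ⟨(hXprop x hx).1, ?_, y, h, ?_⟩
        · exact (ValuationSubring.valuation_le_one_iff A _).1 (hXprop x hx).2.le
        · have h1 := nsmul_coe_eq_zero P T'
          rw [hT'] at h1
          exact h1)
    rw [Finset.prod_insert hx₀X, ← hvw] at key
    have hwpos : 0 < A.valuation w := zero_lt_iff.mpr ((Valuation.ne_zero_iff _).mpr hw0)
    have : A.valuation x₀⁻¹ * A.valuation w < 1 * A.valuation w :=
      mul_lt_mul_of_pos_right hx₀lt hwpos
    rw [one_mul] at this
    exact absurd (key.trans_lt this) (not_lt.mpr hvwle)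

end local_at_A

/-! ### Global assembly -/

section global

variable {P : FreyPackage}

/-- The subgroup of `G_ℚ` acting trivially on a submodule `N`. -/
def fixSub (N : Submodule (ZMod P.p) (Vp P)) : Subgroup GQ where
  carrier := {σ | ∀ x ∈ N, σ • x = x}
  mul_mem' := by
    intro σ τ hσ hτ x hx
    rw [mul_smul, hτ x hx, hσ x hx]
  one_mem' := by intro x _; exact one_smul _ x
  inv_mem' := by
    intro σ hσ x hx
    have h := hσ x hx
    calc σ⁻¹ • x = σ⁻¹ • (σ • x) := by rw [h]
      _ = x := inv_smul_smul σ x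

/-- The subgroup of `G_ℚ` acting trivially on the quotient by a stable submodule `N`. -/
def cofixSub (N : Submodule (ZMod P.p) (Vp P)) (hN : IsGaloisStable ℚ N) : Subgroup GQ where
  carrier := {σ | ∀ x : Vp P, σ • x - x ∈ N}
  mul_mem' := by
    intro σ τ hσ hτ x
    have h1 : (σ * τ) • x - x = σ • (τ • x - x) + (σ • x - x) := by
      rw [mul_smul, smul_sub]; abel
    rw [h1]
    exact N.add_mem (hN σ _ (hτ x)) (hσ x)
  one_mem' := by intro x; simp
  inv_mem' := by
    intro σ hσ x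
    have h1 : σ⁻¹ • x - x = -(σ⁻¹ • (σ • x - x)) := by
      rw [smul_sub, inv_smul_smul]; abel
    rw [h1]
    exact N.neg_mem (hN σ⁻¹ _ (hσ x))

theorem fixSub_normal (N : Submodule (ZMod P.p) (Vp P)) (hN : IsGaloisStable ℚ N) :
    (fixSub N).Normal := by
  constructor
  intro σ hσ τ x hx
  have h1 : τ⁻¹ • x ∈ N := hN τ⁻¹ x hx
  rw [mul_smul, mul_smul, hσ _ h1, smul_inv_smul]

theorem cofixSub_normal (N : Submodule (ZMod P.p) (Vp P)) (hN : IsGaloisStable ℚ N) :
    (cofixSub N hN).Normal := by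
  constructor
  intro σ hσ τ x
  change (τ * σ * τ⁻¹) • x - x ∈ N
  have h1 : (τ * σ * τ⁻¹) • x - x = τ • (σ • (τ⁻¹ • x) - τ⁻¹ • x) := by
    rw [mul_smul, mul_smul, smul_sub, smul_inv_smul]
  rw [h1]
  exact hN τ _ (hσ (τ⁻¹ • x))

/-- A proper submodule of the two-dimensional `V` is spanned by any of its nonzero elements. -/
theorem exists_zmod_smul_eq (hcard : Nat.card (Vp P) = P.p ^ 2)
    (N : Submodule (ZMod P.p) (Vp P)) (h1 : N ≠ ⊤) {n : Vp P} (hn : n ∈ N) (hn0 : n ≠ 0)
    {w : Vp P} (hw : w ∈ N) : ∃ c : ZMod P.p, c • n = w := by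
  have : Fact P.p.Prime := ⟨P.pp⟩
  have hfin : Finite (Vp P) := Nat.finite_of_card_ne_zero (by
    rw [hcard]; exact pow_ne_zero _ P.pp.ne_zero)
  have hV : Module.finrank (ZMod P.p) (Vp P) = 2 := by
    have h := Module.natCard_eq_pow_finrank (K := ZMod P.p) (V := Vp P)
    rw [hcard, Nat.card_zmod] at h
    exact (Nat.pow_right_injective P.pp.two_le h).symm
  have : Module.Finite (ZMod P.p) (Vp P) := Module.finite_of_finrank_pos (by omega)
  have hlt : Module.finrank (ZMod P.p) N < 2 := hV ▸ Submodule.finrank_lt h1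
  have hn0' : (⟨n, hn⟩ : N) ≠ 0 := fun h => hn0 (congrArg Subtype.val h)
  have hpos : 0 < Module.finrank (ZMod P.p) N := by
    rw [Nat.pos_iff_ne_zero]
    intro h
    have hbot : N = ⊥ := Submodule.finrank_eq_zero.mp h
    rw [hbot] at hn
    exact hn0 ((Submodule.mem_bot _).1 hn)
  have hone : Module.finrank (ZMod P.p) N = 1 := by omega
  obtain ⟨c, hc⟩ := (finrank_eq_one_iff_of_nonzero' (⟨n, hn⟩ : N) hn0').mp hone ⟨w, hw⟩
  exact ⟨c, congrArg Subtype.val hc⟩

/-- For one place `A ∣ p`: the inertia group of `A` acts trivially on `N` or on `V / N`. -/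
theorem local_dichotomy (hcard : Nat.card (Vp P) = P.p ^ 2) (hΨ : PsiDivStmt P)
    (A : ValuationSubring Qb) (hA : A.LiesOverPrime P.p)
    (N : Submodule (ZMod P.p) (Vp P)) (hN : IsGaloisStable ℚ N) (h0 : N ≠ ⊥) (h1 : N ≠ ⊤) :
    A.inertiaSubgroupIn ℚ ≤ fixSub N ∨ A.inertiaSubgroupIn ℚ ≤ cofixSub N hN := by
  have : Fact P.p.Prime := ⟨P.pp⟩
  have hfin : Finite (Vp P) := Nat.finite_of_card_ne_zero (by
    rw [hcard]; exact pow_ne_zero _ P.pp.ne_zero)
  have hp2 : P.p ≠ 2 := by have := P.hp5; omega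
  have hv2 : A.valuation (2 : Qb) = 1 := by
    have := valuation_natCast_eq_one P.pp A hA (n := 2)
      (fun h => hp2 ((Nat.prime_dvd_prime_iff_eq P.pp Nat.prime_two).1 h))
    simpa using this
  have hvp : A.valuation (P.p : Qb) < 1 := (ValuationSubring.mem_nonunits_iff (A := A)).1 hA
  obtain ⟨e, al, be, hS, he, hal, hbe, hbe0, hdisc, hcase⟩ :=
    Fermat.Agent.S05.helper172.exists_shape P A.valuation P.pp hv2 hvp
  have ha : ∀ σ ∈ A.inertiaSubgroupIn ℚ, ∀ T : Vp P,
      InE1 A.valuation (freyQb P) (algebraMap ℚ Qb e)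
        ((σ • T - T : Vp P) : ((P.freyCurve)⁄Qb).Point) := by
    intro σ hσ T
    exact inE1_inertia_sub P A hS hv2 hal hbe hbe0 hdisc hcase hσ
      (T : ((P.freyCurve)⁄Qb).Point) (nsmul_coe_eq_zero P T)
  by_cases hall : ∀ T ∈ N, InE1 A.valuation (freyQb P) (algebraMap ℚ Qb e)
      (T : ((P.freyCurve)⁄Qb).Point)
  · right
    intro σ hσ T
    exact mem_of_inE1_of_stable P A hΨ hA he N hN h0 hall _ (ha σ hσ T)
  · left
    push Not at hall
    obtain ⟨T₀, hT₀N, hT₀⟩ := hall
    intro σ hσ x hx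
    by_contra hne
    have hy : σ • x - x ∈ N := N.sub_mem (hN σ x hx) hx
    have hy0 : σ • x - x ≠ 0 := sub_ne_zero.mpr hne
    obtain ⟨c, hc⟩ := exists_zmod_smul_eq hcard N h1 hy hy0 hT₀N
    apply hT₀
    have hT₀eq : T₀ = c.val • (σ • x - x) := by
      rw [← hc, ← Nat.cast_smul_eq_nsmul (ZMod P.p), ZMod.natCast_zmod_val]
    rw [hT₀eq]
    have hcoe : ((c.val • (σ • x - x) : Vp P) : ((P.freyCurve)⁄Qb).Point)
        = c.val • ((σ • x - x : Vp P) : ((P.freyCurve)⁄Qb).Point) := rfl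
    rw [hcoe]
    exact inE1_nsmul hS hv2 hal hbe (ha σ hσ x) c.val

/-- **Ingredient I5 (`at_p`) of S13**: for a Galois-stable line `N` in the `p`-torsion of the
Frey curve, the inertia groups at `p` act trivially on `N`, or they act trivially on the
quotient by `N`. -/
theorem at_p (P : FreyPackage) (hcard : Nat.card (Vp P) = P.p ^ 2) (hΨ : PsiDivStmt P) :
    ∀ N : Submodule (ZMod P.p) (Vp P), IsGaloisStable ℚ N → N ≠ ⊥ → N ≠ ⊤ →
      (∀ A : ValuationSubring Qb, A.LiesOverPrime P.p →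
        ∀ σ ∈ A.inertiaSubgroupIn ℚ, ∀ x ∈ N, σ • x = x) ∨
      (∀ A : ValuationSubring Qb, A.LiesOverPrime P.p →
        ∀ σ ∈ A.inertiaSubgroupIn ℚ, ∀ x : Vp P, σ • x - x ∈ N) := by
  intro N hN h0 h1
  obtain ⟨A₀, hA₀⟩ := Fermat.Agent.Lib.helper54.exists_liesOverPrime P.pp
  rcases local_dichotomy hcard hΨ A₀ hA₀ N hN h0 h1 with h | h
  · left
    intro A hA σ hσ x hx
    have := fixSub_normal N hN
    exact inertia_le_of_normal (fixSub N) P.pp A₀ A hA₀ hA h hσ x hx
  · right
    intro A hA σ hσ x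
    have := cofixSub_normal N hN
    exact inertia_le_of_normal (cofixSub N hN) P.pp A₀ A hA₀ hA h hσ x

end global

end Fermat.Agent.S13.helper954
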