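import Fermat.Agent.S05.helper305_Points
import Fermat.Agent.S05.helper712_E1

/-!
# S13, ingredient I5 (`at_p`): local lemmas at a place of arbitrary residue characteristic
(helper954)

Setting: a valued field `(K, v)` with `v 2 = 1`, a Weierstrass curve `W` of shape
`η² = ξ (ξ² + al ξ + be)` (`helper305_Shape`) with `al`, `be` integral and `al² - 4 be` a unit.
Nothing here assumes that the torsion order is a unit, so the lemmas apply at residue
characteristic `p` for `p`-torsion points.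

* `inE1_add`, `inE1_neg`, `inE1_sub`: the kernel of reduction `E₁` is a subgroup.
* `inE0_add`, `inE0_nsmul`: `E₀` is closed under addition (node case `v be < 1`).
* `inE1_sub_of_same_red`: two points with the same nonsingular reduction differ by an
  element of `E₁`.
* `inE1_sub_of_mid`: two points near the node, on the same branch, with `v (ξ' - ξ) < v ξ`,
  differ by an element of `E₁`.
* `inE1_sigma_sub`: for an "inertia-like" ring endomorphism `σ` and an odd-torsion point `P`,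
  `σ P - P ∈ E₁`.
-/

set_option autoImplicit false

namespace Fermat.Agent.S13.helper954

open WeierstrassCurve WeierstrassCurve.Affine
open Fermat.Agent.S05.helper305

variable {K : Type*} [Field K]
variable {Γ₀ : Type*} [LinearOrderedCommGroupWithZero Γ₀]

section valuation

variable {v : Valuation K Γ₀}

theorem vle_mul {a b : K} (ha : v a ≤ 1) (hb : v b ≤ 1) : v (a * b) ≤ 1 := by
  rw [v.map_mul]; exact mul_le_one' ha hb

theorem vle_add {a b : K} (ha : v a ≤ 1) (hb : v b ≤ 1) : v (a + b) ≤ 1 :=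
  v.map_add_le ha hb

theorem vle_sub {a b : K} (ha : v a ≤ 1) (hb : v b ≤ 1) : v (a - b) ≤ 1 :=
  v.map_sub_le ha hb

theorem vle_pow {a : K} (ha : v a ≤ 1) (n : ℕ) : v (a ^ n) ≤ 1 := by
  rw [v.map_pow]; exact pow_le_one₀ zero_le ha

theorem vlt_mul {a b : K} (ha : v a ≤ 1) (hb : v b < 1) : v (a * b) < 1 := by
  rw [v.map_mul]; exact lt_of_le_of_lt (mul_le_of_le_one_left' ha) hb

theorem vlt_mul' {a b : K} (ha : v a < 1) (hb : v b ≤ 1) : v (a * b) < 1 := by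
  rw [mul_comm]; exact vlt_mul hb ha

theorem vlt_add {a b : K} (ha : v a < 1) (hb : v b < 1) : v (a + b) < 1 :=
  v.map_add_lt ha hb

theorem vlt_sub {a b : K} (ha : v a < 1) (hb : v b < 1) : v (a - b) < 1 :=
  v.map_sub_lt ha hb

theorem v_three_le (hv2 : v 2 = 1) : v (3 : K) ≤ 1 := by
  have : (3 : K) = 2 + 1 := by norm_num
  rw [this]
  exact v.map_add_le hv2.le v.map_one.le

theorem v_four (hv2 : v 2 = 1) : v (4 : K) = 1 := by
  have : (4 : K) = 2 * 2 := by norm_num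
  rw [this, v.map_mul, hv2, one_mul]

/-- `1 < v lam` and integral `al, ξ₁, ξ₂` give `1 < v (lam² - al - ξ₁ - ξ₂)`. -/
theorem one_lt_val_xi3 {lam al ξ₁ ξ₂ : K} (hlam : 1 < v lam) (hal : v al ≤ 1)
    (h₁ : v ξ₁ ≤ 1) (h₂ : v ξ₂ ≤ 1) : 1 < v (lam ^ 2 - al - ξ₁ - ξ₂) := by
  have h1 : 1 < v (lam ^ 2) := by
    rw [v.map_pow]; exact one_lt_pow₀ hlam two_ne_zero
  have h2 : v (al + ξ₁ + ξ₂) ≤ 1 := vle_add (vle_add hal h₁) h₂
  have h3 : lam ^ 2 - al - ξ₁ - ξ₂ = lam ^ 2 - (al + ξ₁ + ξ₂) := by ring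
  rw [h3, Valuation.map_sub_eq_of_lt_left v (lt_of_le_of_lt h2 h1)]
  exact h1

/-- If `lam * d = g` with `g` a unit and `d` a nonunit then `1 < v lam`. -/
theorem one_lt_of_mul_eq {lam d g : K} (h : lam * d = g) (hg : v g = 1) (hd : v d < 1) :
    1 < v lam := by
  by_contra hcon
  have hle : v lam ≤ 1 := not_lt.mp hcon
  have : v (lam * d) < 1 := vlt_mul hle hd
  rw [h, hg] at this
  exact lt_irrefl _ this

/-- Nonsingular reduction: if `al² - 4 be` is a unit and `ξ` or `be` is a unit, a point where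
`f(ξ) = ξ(ξ² + al ξ + be)` is a nonunit has `f'(ξ)` a unit. -/
theorem val_deriv_eq_one {al be ξ : K} (hv2 : v 2 = 1) (hal : v al ≤ 1) (hbe : v be ≤ 1)
    (hdisc : v (al ^ 2 - 4 * be) = 1) (hξ : v ξ ≤ 1) (hns : v ξ = 1 ∨ v be = 1)
    (hf : v (ξ * (ξ ^ 2 + al * ξ + be)) < 1) :
    v (3 * ξ ^ 2 + 2 * al * ξ + be) = 1 := by
  have h3 := v_three_le hv2
  have h4 := v_four hv2
  have hle : v (3 * ξ ^ 2 + 2 * al * ξ + be) ≤ 1 :=
    vle_add (vle_add (vle_mul h3 (vle_pow hξ 2)) (vle_mul (vle_mul hv2.le hal) hξ)) hbe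
  by_contra hne
  have hlt : v (3 * ξ ^ 2 + 2 * al * ξ + be) < 1 := lt_of_le_of_ne hle hne
  -- `ξ² · disc` is a nonunit
  have key : v (ξ ^ 2 * (al ^ 2 - 4 * be)) < 1 := by
    have : ξ ^ 2 * (al ^ 2 - 4 * be) =
        (2 * ξ + al) * (ξ * (3 * ξ ^ 2 + 2 * al * ξ + be) - ξ * (ξ ^ 2 + al * ξ + be))
          - 4 * ξ * (ξ * (ξ ^ 2 + al * ξ + be)) := by ring
    rw [this]
    refine vlt_sub (vlt_mul (vle_add (vle_mul hv2.le hξ) hal) (vlt_sub (vlt_mul hξ hlt) hf))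
      (vlt_mul (vle_mul h4.le hξ) hf)
  rw [v.map_mul, hdisc, mul_one, v.map_pow] at key
  have hξlt : v ξ < 1 := by
    by_contra hcon
    have h1 : 1 ≤ v ξ := not_lt.mp hcon
    exact absurd key (not_lt.mpr (one_le_pow₀ h1))
  rcases hns with h | h
  · rw [h] at hξlt; exact lt_irrefl _ hξlt
  · have : 3 * ξ ^ 2 + 2 * al * ξ + be = be + ξ * (3 * ξ + 2 * al) := by ring
    rw [this, Valuation.map_add_eq_of_lt_left] at hlt
    · rw [h] at hlt; exact lt_irrefl _ hlt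
    · rw [h]
      exact vlt_mul' hξlt (vle_add (vle_mul h3 hξ) (vle_mul hv2.le hal))

end valuation

/-! ### `AddRel`-level lemmas -/

section rel

variable {v : Valuation K Γ₀} {al be ξ₁ η₁ ξ₂ η₂ ξ₃ η₃ lam r : K}

/-- Integrality of `η` for a point with integral `ξ`. -/
theorem val_eta_le_one {ξ η : K} (c : η ^ 2 = ξ * (ξ ^ 2 + al * ξ + be)) (hal : v al ≤ 1)
    (hbe : v be ≤ 1) (hξ : v ξ ≤ 1) : v η ≤ 1 := by
  apply val_le_one_of_sq v
  rw [c]
  exact vle_mul hξ (vle_add (vle_add (vle_pow hξ 2) (vle_mul hal hξ)) hbe)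

/-- **Same nonsingular reduction**: if `(ξ₁, η₁)` and `(ξ₂, -η₂)` are integral points with the
same reduction, and this reduction is nonsingular, their difference `(ξ₃, η₃)` lies in the kernel
of reduction. -/
theorem rel_same_red (h : AddRel al be ξ₁ η₁ ξ₂ η₂ ξ₃ η₃ lam)
    (hv2 : v 2 = 1) (hal : v al ≤ 1) (hbe : v be ≤ 1) (hdisc : v (al ^ 2 - 4 * be) = 1)
    (h₁ : v ξ₁ ≤ 1) (h₂ : v ξ₂ ≤ 1) (hns : v ξ₁ = 1 ∨ v be = 1)
    (hξ : v (ξ₁ - ξ₂) < 1) (hη : v (η₁ + η₂) < 1) : 1 < v ξ₃ := by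
  rw [h.hξ]
  refine one_lt_val_xi3 ?_ hal h₁ h₂
  have hη₁ : v η₁ ≤ 1 := val_eta_le_one h.c₁ hal hbe h₁
  have hη₂ : v η₂ ≤ 1 := val_eta_le_one h.c₂ hal hbe h₂
  have h3 := v_three_le hv2
  -- if `η₁` is a nonunit then `f'(ξ₁)` is a unit
  have hderiv : v η₁ < 1 → v (3 * ξ₁ ^ 2 + 2 * al * ξ₁ + be) = 1 := by
    intro hlt
    apply val_deriv_eq_one hv2 hal hbe hdisc h₁ hns
    rw [← h.c₁, pow_two]
    exact vlt_mul hη₁ hlt
  rcases h.hlam with ⟨hne, hl⟩ | ⟨he, h12, -, hl⟩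
  · by_cases hu : v (η₁ - η₂) = 1
    · exact one_lt_of_mul_eq hl hu hξ
    · have hlt : v (η₁ - η₂) < 1 := lt_of_le_of_ne (vle_sub hη₁ hη₂) hu
      have h2η : v (2 * η₁) < 1 := by
        have : 2 * η₁ = (η₁ - η₂) + (η₁ + η₂) := by ring
        rw [this]; exact vlt_add hlt hη
      have hη₁lt : v η₁ < 1 := by rwa [v.map_mul, hv2, one_mul] at h2η
      have hd := hderiv hη₁lt
      have hG : lam * (η₁ + η₂) = ξ₁ ^ 2 + ξ₁ * ξ₂ + ξ₂ ^ 2 + al * (ξ₁ + ξ₂) + be := by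
        apply mul_right_cancel₀ (sub_ne_zero.mpr hne)
        linear_combination (η₁ + η₂) * hl + h.c₁ - h.c₂
      have hGv : v (ξ₁ ^ 2 + ξ₁ * ξ₂ + ξ₂ ^ 2 + al * (ξ₁ + ξ₂) + be) = 1 := by
        have : ξ₁ ^ 2 + ξ₁ * ξ₂ + ξ₂ ^ 2 + al * (ξ₁ + ξ₂) + be =
            (3 * ξ₁ ^ 2 + 2 * al * ξ₁ + be) - (ξ₁ - ξ₂) * (2 * ξ₁ + ξ₂ + al) := by ring
        rw [this]
        apply val_sub_eq_one v hd
        exact vlt_mul' hξ (vle_add (vle_add (vle_mul hv2.le h₁) h₂) hal)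
      exact one_lt_of_mul_eq hG hGv hη
  · have h2η : v (2 * η₁) < 1 := by
      have : 2 * η₁ = η₁ + η₂ := by rw [← h12]; ring
      rw [this]; exact hη
    have hη₁lt : v η₁ < 1 := by rwa [v.map_mul, hv2, one_mul] at h2η
    exact one_lt_of_mul_eq hl (hderiv hη₁lt) h2η

/-- **Same branch near the node**: if `(ξ₁, η₁)` lies on the branch `η/ξ ≡ r`, `(ξ₂, η₂)` on the
branch `η/ξ ≡ -r` (so that `(ξ₂, -η₂)` is on the branch `r`), and `v (ξ₁ - ξ₂) < v ξ₁`, then the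
sum `(ξ₃, η₃)` lies in the kernel of reduction. -/
theorem rel_mid_same (h : AddRel al be ξ₁ η₁ ξ₂ η₂ ξ₃ η₃ lam)
    (hv2 : v 2 = 1) (hal : v al ≤ 1) (hvr : v r = 1)
    (h0 : ξ₁ ≠ 0) (h₁ : v ξ₁ ≤ 1) (hξ : v (ξ₁ - ξ₂) < v ξ₁)
    (hb₁ : v (η₁ / ξ₁ - r) < 1) (hb₂ : v (η₂ / ξ₂ + r) < 1) : 1 < v ξ₃ := by
  have hv₂ : v ξ₂ = v ξ₁ := by
    have : ξ₂ = ξ₁ - (ξ₁ - ξ₂) := by ring
    rw [this]
    exact Valuation.map_sub_eq_of_lt_left v hξ
  have hpos : 0 < v ξ₁ := zero_lt_iff.mpr ((Valuation.ne_zero_iff v).mpr h0)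
  have h0' : ξ₂ ≠ 0 := by
    rw [← Valuation.ne_zero_iff v, hv₂]; exact hpos.ne'
  have h₂ : v ξ₂ ≤ 1 := hv₂ ▸ h₁
  rw [h.hξ]
  refine one_lt_val_xi3 ?_ hal h₁ h₂
  have h2r : v (2 * r) = 1 := by rw [v.map_mul, hv2, hvr, one_mul]
  have hρ : v (η₁ / ξ₁ - η₂ / ξ₂) = 1 := by
    have : η₁ / ξ₁ - η₂ / ξ₂ = 2 * r + ((η₁ / ξ₁ - r) - (η₂ / ξ₂ + r)) := by ring
    rw [this]
    exact val_add_eq_one v h2r (vlt_sub hb₁ hb₂)
  have hρ₁ : v (η₁ / ξ₁) ≤ 1 := by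
    have : η₁ / ξ₁ = r + (η₁ / ξ₁ - r) := by ring
    rw [this]
    exact vle_add hvr.le hb₁.le
  have hdiff : v (η₁ - η₂) = v ξ₁ := by
    have : η₁ - η₂ = (η₁ / ξ₁ - η₂ / ξ₂) * ξ₂ + η₁ / ξ₁ * (ξ₁ - ξ₂) := by
      field_simp
      ring
    rw [this, Valuation.map_add_eq_of_lt_left]
    · rw [v.map_mul, hρ, one_mul, hv₂]
    · rw [v.map_mul, v.map_mul, hρ, one_mul, hv₂]
      exact lt_of_le_of_lt (mul_le_of_le_one_left' hρ₁) hξ
  rcases h.hlam with ⟨-, hl⟩ | ⟨he, h12, -, -⟩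
  · by_contra hcon
    have hle : v lam ≤ 1 := not_lt.mp hcon
    have h5 : v (lam * (ξ₁ - ξ₂)) < v ξ₁ := by
      rw [v.map_mul]
      exact lt_of_le_of_lt (mul_le_of_le_one_left' hle) hξ
    rw [hl, hdiff] at h5
    exact lt_irrefl _ h5
  · exfalso
    rw [he, h12, sub_self, map_zero] at hρ
    exact zero_ne_one hρ

/-- **`E₀` is closed under addition** (node case): if `1 ≤ v ξ₁`, `1 ≤ v ξ₂` and `v be < 1`
then `1 ≤ v ξ₃`. -/
theorem rel_e0_add (h : AddRel al be ξ₁ η₁ ξ₂ η₂ ξ₃ η₃ lam)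
    (hv2 : v 2 = 1) (hal : v al ≤ 1) (hbe : v be < 1)
    (h₁ : 1 ≤ v ξ₁) (h₂ : 1 ≤ v ξ₂) : 1 ≤ v ξ₃ := by
  have h2 : (2 : K) ≠ 0 := two_ne_zero_of_val v hv2
  have hF := h.F2 h2
  -- bound `v η ^ 2 ≤ v ξ ^ 3`
  have hbound : ∀ {ξ η : K}, η ^ 2 = ξ * (ξ ^ 2 + al * ξ + be) → 1 ≤ v ξ →
      v η ^ 2 ≤ v ξ ^ 3 := by
    intro ξ η c hξ
    have hsq : (1 : Γ₀) ≤ v ξ ^ 2 := one_le_pow₀ hξ
    have hq : v (ξ ^ 2 + al * ξ + be) ≤ v ξ ^ 2 := by
      refine v.map_add_le (v.map_add_le (by rw [v.map_pow]) ?_) (hbe.le.trans hsq)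
      rw [v.map_mul, pow_two]
      exact mul_le_mul' (hal.trans hξ) le_rfl
    rw [← v.map_pow, c, v.map_mul, pow_succ' (v ξ) 2]
    exact mul_le_mul' le_rfl hq
  have hb₁ := hbound h.c₁ h₁
  have hb₂ := hbound h.c₂ h₂
  set a : Γ₀ := v ξ₁ * v ξ₂ with ha
  have ha1 : 1 ≤ a := one_le_mul_of_one_le_of_one_le h₁ h₂
  have hsub : v (ξ₁ * ξ₂ - be) = a := by
    rw [Valuation.map_sub_eq_of_lt_left, v.map_mul]
    rw [v.map_mul]
    exact lt_of_lt_of_le hbe ha1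
  have hv := congrArg v hF
  rw [v.map_mul, v.map_pow, v.map_mul, v.map_mul, v.map_pow, hsub, ← ha] at hv
  -- `d ^ 2 ≤ a ^ 3`
  have hd : v (η₁ * ξ₂ + η₂ * ξ₁) ^ 2 ≤ a ^ 3 := by
    have hle : v (η₁ * ξ₂ + η₂ * ξ₁) ≤ max (v (η₁ * ξ₂)) (v (η₂ * ξ₁)) := v.map_add _ _
    have h1' : v (η₁ * ξ₂) ^ 2 ≤ a ^ 3 := by
      rw [v.map_mul, mul_pow, ha, mul_pow]
      refine mul_le_mul' hb₁ ?_
      exact pow_le_pow_right₀ h₂ (by norm_num)
    have h2' : v (η₂ * ξ₁) ^ 2 ≤ a ^ 3 := by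
      rw [v.map_mul, mul_pow, ha, mul_pow, mul_comm]
      refine mul_le_mul' ?_ hb₂
      exact pow_le_pow_right₀ h₁ (by norm_num)
    rcases max_cases (v (η₁ * ξ₂)) (v (η₂ * ξ₁)) with ⟨hm, -⟩ | ⟨hm, -⟩
    · rw [hm] at hle
      exact (pow_le_pow_left₀ zero_le hle 2).trans h1'
    · rw [hm] at hle
      exact (pow_le_pow_left₀ zero_le hle 2).trans h2'
  have ha3 : a * a ^ 2 = a ^ 3 := (pow_succ' a 2).symm
  rw [ha3] at hv
  by_contra hcon
  have hlt : v ξ₃ < 1 := not_le.mp hcon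
  have hdpos : 0 < v (η₁ * ξ₂ + η₂ * ξ₁) ^ 2 := by
    rw [pos_iff_ne_zero]
    intro h0
    rw [h0, mul_zero] at hv
    have : (0 : Γ₀) < a ^ 3 := pow_pos (lt_of_lt_of_le zero_lt_one ha1) 3
    exact this.ne hv
  have : v ξ₃ * v (η₁ * ξ₂ + η₂ * ξ₁) ^ 2 < 1 * v (η₁ * ξ₂ + η₂ * ξ₁) ^ 2 :=
    mul_lt_mul_of_pos_right hlt hdpos
  rw [one_mul, hv] at this
  exact absurd hd (not_le.mpr this)

end rel

/-! ### Point-level lemmas -/

section points

variable [DecidableEq K] {v : Valuation K Γ₀} {W : WeierstrassCurve K} {e al be : K}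

omit [DecidableEq K] in
theorem inE1_zero : InE1 v W e (0 : W.toAffine.Point) := Or.inl rfl

omit [DecidableEq K] in
theorem inE0_zero : InE0 v W e (0 : W.toAffine.Point) := Or.inl rfl

theorem inE1_neg (hS : Shape W e al be) {P : W.toAffine.Point} (h : InE1 v W e P) :
    InE1 v W e (-P) := by
  rcases h with rfl | ⟨ξ, η, hP, hv⟩
  · left; exact neg_zero
  · exact Or.inr ⟨ξ, -η, hP.neg hS.two_ne, hv⟩

/-- The kernel of reduction is closed under addition. -/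
theorem inE1_add (hS : Shape W e al be) (hv2 : v 2 = 1) (hal : v al ≤ 1) (hbe : v be ≤ 1)
    {P Q : W.toAffine.Point} (hP : InE1 v W e P) (hQ : InE1 v W e Q) :
    InE1 v W e (P + Q) := by
  rcases hP with rfl | ⟨ξ₁, η₁, hP, hv₁⟩
  · rw [zero_add]; exact hQ
  rcases hQ with rfl | ⟨ξ₂, η₂, hQ, hv₂⟩
  · rw [add_zero]; exact Or.inr ⟨ξ₁, η₁, hP, hv₁⟩
  by_cases hne : ξ₁ = ξ₂ ∧ η₁ = -η₂
  · left
    obtain ⟨rfl, rfl⟩ := hne
    have hQ' : IsPt W e Q ξ₁ (- -η₂) := by rwa [neg_neg]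
    exact hP.add_eq_zero hS.two_ne hQ'
  · obtain ⟨ξ₃, η₃, lam, hP₃, hrel⟩ := hP.add hS hQ hne
    exact Or.inr ⟨ξ₃, η₃, hP₃,
      (Fermat.Agent.S05.helper712.e1_add v hrel hv2 hal hbe hv₁ hv₂).1⟩

theorem inE1_sub (hS : Shape W e al be) (hv2 : v 2 = 1) (hal : v al ≤ 1) (hbe : v be ≤ 1)
    {P Q : W.toAffine.Point} (hP : InE1 v W e P) (hQ : InE1 v W e Q) :
    InE1 v W e (P - Q) := by
  rw [sub_eq_add_neg]
  exact inE1_add hS hv2 hal hbe hP (inE1_neg hS hQ)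

theorem inE1_nsmul (hS : Shape W e al be) (hv2 : v 2 = 1) (hal : v al ≤ 1) (hbe : v be ≤ 1)
    {P : W.toAffine.Point} (hP : InE1 v W e P) (n : ℕ) : InE1 v W e (n • P) := by
  induction n with
  | zero => rw [zero_nsmul]; exact inE1_zero
  | succ n ih => rw [succ_nsmul]; exact inE1_add hS hv2 hal hbe ih hP

/-- `E₀` is closed under addition in the node case. -/
theorem inE0_add (hS : Shape W e al be) (hv2 : v 2 = 1) (hal : v al ≤ 1) (hbe : v be < 1)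
    {P Q : W.toAffine.Point} (hP : InE0 v W e P) (hQ : InE0 v W e Q) :
    InE0 v W e (P + Q) := by
  rcases hP with rfl | ⟨ξ₁, η₁, hP, hv₁⟩
  · rw [zero_add]; exact hQ
  rcases hQ with rfl | ⟨ξ₂, η₂, hQ, hv₂⟩
  · rw [add_zero]; exact Or.inr ⟨ξ₁, η₁, hP, hv₁⟩
  by_cases hne : ξ₁ = ξ₂ ∧ η₁ = -η₂
  · left
    obtain ⟨rfl, rfl⟩ := hne
    have hQ' : IsPt W e Q ξ₁ (- -η₂) := by rwa [neg_neg]
    exact hP.add_eq_zero hS.two_ne hQ'
  · obtain ⟨ξ₃, η₃, lam, hP₃, hrel⟩ := hP.add hS hQ hne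
    exact Or.inr ⟨ξ₃, η₃, hP₃, rel_e0_add hrel hv2 hal hbe hv₁ hv₂⟩

theorem inE0_nsmul (hS : Shape W e al be) (hv2 : v 2 = 1) (hal : v al ≤ 1) (hbe : v be < 1)
    {P : W.toAffine.Point} (hP : InE0 v W e P) (n : ℕ) : InE0 v W e (n • P) := by
  induction n with
  | zero => rw [zero_nsmul]; exact inE0_zero
  | succ n ih => rw [succ_nsmul]; exact inE0_add hS hv2 hal hbe ih hP

/-- Two integral points with the same nonsingular reduction differ by an element of the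
kernel of reduction. -/
theorem inE1_sub_of_same_red (hS : Shape W e al be) (hv2 : v 2 = 1) (hal : v al ≤ 1)
    (hbe : v be ≤ 1) (hdisc : v (al ^ 2 - 4 * be) = 1)
    {P P' : W.toAffine.Point} {ξ η ξ' η' : K} (hP : IsPt W e P ξ η) (hP' : IsPt W e P' ξ' η')
    (h₁ : v ξ ≤ 1) (hns : v ξ = 1 ∨ v be = 1) (hξ : v (ξ' - ξ) < 1) (hη : v (η' - η) < 1) :
    InE1 v W e (P' - P) := by
  have hneg : IsPt W e (-P) ξ (-η) := hP.neg hS.two_ne
  rw [sub_eq_add_neg]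
  by_cases hne : ξ' = ξ ∧ η' = - -η
  · left
    obtain ⟨rfl, rfl⟩ := hne
    exact hP'.add_eq_zero hS.two_ne (by rw [neg_neg]; exact hneg)
  · obtain ⟨ξ₃, η₃, lam, hP₃, hrel⟩ := hP'.add hS hneg hne
    have h₁' : v ξ' ≤ 1 := by
      have : ξ' = ξ + (ξ' - ξ) := by ring
      rw [this]; exact vle_add h₁ hξ.le
    have hns' : v ξ' = 1 ∨ v be = 1 := by
      rcases hns with h | h
      · left
        have : ξ' = ξ + (ξ' - ξ) := by ring
        rw [this]; exact val_add_eq_one v h hξ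
      · exact Or.inr h
    refine Or.inr ⟨ξ₃, η₃, hP₃, rel_same_red hrel hv2 hal hbe hdisc h₁' h₁ hns' hξ ?_⟩
    rwa [← sub_eq_add_neg]

/-- Two points near the node, on the same branch `η/ξ ≡ r`, with `v (ξ' - ξ) < v ξ`, differ
by an element of the kernel of reduction. -/
theorem inE1_sub_of_mid (hS : Shape W e al be) (hv2 : v 2 = 1) (hal : v al ≤ 1) {r : K}
    (hvr : v r = 1)
    {P P' : W.toAffine.Point} {ξ η ξ' η' : K} (hP : IsPt W e P ξ η) (hP' : IsPt W e P' ξ' η')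
    (hξ0 : ξ ≠ 0) (h₁ : v ξ ≤ 1) (hξ : v (ξ' - ξ) < v ξ)
    (hb : v (η / ξ - r) < 1) (hb' : v (η' / ξ' - r) < 1) :
    InE1 v W e (P' - P) := by
  have hneg : IsPt W e (-P) ξ (-η) := hP.neg hS.two_ne
  rw [sub_eq_add_neg]
  by_cases hne : ξ' = ξ ∧ η' = - -η
  · left
    obtain ⟨rfl, rfl⟩ := hne
    exact hP'.add_eq_zero hS.two_ne (by rw [neg_neg]; exact hneg)
  · obtain ⟨ξ₃, η₃, lam, hP₃, hrel⟩ := hP'.add hS hneg hne
    have hv' : v ξ' = v ξ := by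
      have : ξ' = ξ + (ξ' - ξ) := by ring
      rw [this]; exact Valuation.map_add_eq_of_lt_left v hξ
    have hξ0' : ξ' ≠ 0 := by
      rw [← Valuation.ne_zero_iff v, hv']; exact (Valuation.ne_zero_iff v).mpr hξ0
    refine Or.inr ⟨ξ₃, η₃, hP₃, rel_mid_same hrel hv2 hal hvr hξ0' (hv' ▸ h₁) (hv' ▸ hξ) hb' ?_⟩
    have : -η / ξ + r = -(η / ξ - r) := by ring
    rw [this, Valuation.map_neg]
    exact hb

theorem odd_nsmul_of_add_self {G : Type*} [AddCommGroup G] {T : G} (hTT : T + T = 0) {p : ℕ}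
    (hp : Odd p) : p • T = T := by
  obtain ⟨m, rfl⟩ := hp
  rw [add_nsmul, one_nsmul, mul_nsmul, two_nsmul, hTT, nsmul_zero, zero_add]

/-- A point of odd order near the node satisfies `v be < v ξ` (it cannot lie in `T + E₀`). -/
theorem val_be_lt_of_odd_torsion (hS : Shape W e al be) (hv2 : v 2 = 1) (hal : v al ≤ 1)
    (hbe : v be < 1) (hbe0 : be ≠ 0) {P : W.toAffine.Point} {ξ η : K} (hP : IsPt W e P ξ η)
    {p : ℕ} (hp : Odd p) (hpP : p • P = 0) : v be < v ξ := by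
  by_contra hcon
  have hle : v ξ ≤ v be := not_lt.mp hcon
  obtain ⟨T, hT⟩ := exists_T (W := W) (e := e) hS hbe0
  have hTT : T + T = 0 := T_add_T hS hT
  have hpT : p • T = T := odd_nsmul_of_add_self hTT hp
  by_cases hξ0 : ξ = 0
  · -- `P = T`
    have hη0 : η = 0 := by
      have hc := hP.curve hS
      rw [hξ0, zero_mul] at hc
      exact pow_eq_zero_iff (two_ne_zero) |>.mp hc
    have hPT : P = T := by
      rw [hξ0, hη0] at hP
      exact hP.ext hT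
    rw [hPT, hpT] at hpP
    exact hT.ne_zero hpP
  · have hne : ¬(ξ = 0 ∧ η = -0) := fun h => hξ0 h.1
    obtain ⟨ξ₃, η₃, lam, hP₃, hrel⟩ := hP.add hS hT hne
    obtain ⟨hξ₃, -⟩ := hrel.add_T hξ0
    have hpos : 0 < v ξ := zero_lt_iff.mpr ((Valuation.ne_zero_iff v).mpr hξ0)
    have h1 : 1 ≤ v ξ₃ := by
      rw [hξ₃, map_div₀]
      exact (one_le_div₀ hpos).mpr hle
    have hE0 : InE0 v W e (P + T) := Or.inr ⟨ξ₃, η₃, hP₃, h1⟩
    have hE0' := inE0_nsmul hS hv2 hal hbe hE0 p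
    rw [nsmul_add, hpP, zero_add, hpT] at hE0'
    rcases hE0' with h0 | ⟨ξ₄, η₄, hT', hv₄⟩
    · exact hT.ne_zero h0
    · obtain ⟨h4, -⟩ := hT'.unique hT
      rw [h4, map_zero] at hv₄
      exact absurd hv₄ (not_le.mpr zero_lt_one)

end points

/-! ### The main local statement -/

section main

variable [DecidableEq K] {v : Valuation K Γ₀} {W : WeierstrassCurve K} {e al be : K}

/-- **Inertia moves odd-torsion points inside the kernel of reduction.**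
`σ` is a ring endomorphism of `K` which is trivial modulo the maximal ideal of `v` and fixes the
data of the curve.  Either the reduction is good (`v be = 1`) or it is multiplicative
(`v al = 1`, `al` a square) with `v be = v w ^ p` for some `σ`-fixed `w`.  Then for every point
`P = (x, y)` with `p • P = 0`, `p` odd, the difference `σ P - P` lies in `E₁`.
No assumption is made on `v p`. -/
theorem inE1_sigma_sub (hS : Shape W e al be) (hv2 : v 2 = 1) (hal : v al ≤ 1) (hbe : v be ≤ 1)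
    (hbe0 : be ≠ 0) (hdisc : v (al ^ 2 - 4 * be) = 1)
    (σ : K →+* K) (hσ : ∀ x : K, v x ≤ 1 → v (σ x - x) < 1)
    (hσe : σ e = e) (hσ1 : σ W.a₁ = W.a₁) (hσ3 : σ W.a₃ = W.a₃)
    {p : ℕ} (hp : Odd p)
    (hcase : v be = 1 ∨ (v al = 1 ∧ (∃ r : K, r ^ 2 = al) ∧ ∃ w : K, σ w = w ∧ v be = v w ^ p))
    {x y : K} (h : W.toAffine.Nonsingular x y) (h' : W.toAffine.Nonsingular (σ x) (σ y))
    (hP : p • (Point.some x y h : W.toAffine.Point) = 0) :
    InE1 v W e (Point.some (σ x) (σ y) h' - Point.some x y h) := by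
  have hp0 : p ≠ 0 := by
    rintro rfl
    exact absurd hp (by decide)
  have hPt : IsPt W e (Point.some x y h) (x - e) (eta W x y) := ⟨x, y, h, rfl, rfl, rfl⟩
  have hσ2 : σ 2 = 2 := map_ofNat σ 2
  have hση : σ (eta W x y) = eta W (σ x) (σ y) := by
    simp only [eta, map_add, map_mul, map_div₀, hσ1, hσ3, hσ2]
  have hσξ : σ (x - e) = σ x - e := by rw [map_sub, hσe]
  have hPt' : IsPt W e (Point.some (σ x) (σ y) h') (σ (x - e)) (σ (eta W x y)) :=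
    ⟨σ x, σ y, h', rfl, hσξ, hση⟩
  have hcurve := hPt.curve hS
  set ξ := x - e with hξdef
  set η := eta W x y with hηdef
  rcases lt_or_ge 1 (v ξ) with hgt | hle
  · -- `P ∈ E₁`
    have hξ0 : ξ ≠ 0 := by
      rintro h0
      rw [h0, map_zero] at hgt
      exact absurd hgt (not_lt.mpr zero_le_one)
    have hinv : v ξ⁻¹ < 1 := by
      rw [map_inv₀]; exact inv_lt_one_of_one_lt₀ hgt
    have h1 := hσ ξ⁻¹ hinv.le
    have h2 : v (σ ξ⁻¹) < 1 := by
      have : σ ξ⁻¹ = ξ⁻¹ + (σ ξ⁻¹ - ξ⁻¹) := by ring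
      rw [this]; exact vlt_add hinv h1
    have hσξ0 : σ ξ ≠ 0 := (map_ne_zero σ).mpr hξ0
    have h3 : 1 < v (σ ξ) := by
      rw [map_inv₀, map_inv₀] at h2
      exact (inv_lt_one₀ (zero_lt_iff.mpr ((Valuation.ne_zero_iff v).mpr hσξ0))).mp h2
    exact inE1_sub hS hv2 hal hbe (Or.inr ⟨_, _, hPt', h3⟩) (Or.inr ⟨_, _, hPt, hgt⟩)
  · have hηle : v η ≤ 1 := val_eta_le_one hcurve hal hbe hle
    have hdξ : v (σ ξ - ξ) < 1 := hσ ξ hle
    have hdη : v (σ η - η) < 1 := hσ η hηle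
    by_cases hns : v ξ = 1 ∨ v be = 1
    · exact inE1_sub_of_same_red hS hv2 hal hbe hdisc hPt hPt' hle hns hdξ hdη
    · -- node region
      push Not at hns
      obtain ⟨hξ1, hbe1⟩ := hns
      have hξlt : v ξ < 1 := lt_of_le_of_ne hle hξ1
      have hbelt : v be < 1 := lt_of_le_of_ne hbe hbe1
      rcases hcase with hc | ⟨hal1, ⟨r, hr⟩, w, hσw, hw⟩
      · exact absurd hc hbe1
      have hbeξ : v be < v ξ := val_be_lt_of_odd_torsion hS hv2 hal hbelt hbe0 hPt hp hP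
      have hvbe0 : v be ≠ 0 := (Valuation.ne_zero_iff v).mpr hbe0
      have hpos : 0 < v ξ := lt_of_le_of_lt zero_le hbeξ
      have hξ0 : ξ ≠ 0 := (Valuation.ne_zero_iff v).mp hpos.ne'
      have hvr : v r = 1 := val_eq_one_of_sq v (by rw [hr]; exact hal1)
      -- the branch
      have hρ2 : (η / ξ) ^ 2 = al + (ξ + be / ξ) := by
        rw [div_pow, hcurve]
        field_simp
        ring
      have hbe' : v (be / ξ) < 1 := by
        rw [map_div₀]; exact (div_lt_one₀ hpos).mpr hbeξ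
      have hprod : v ((η / ξ - r) * (η / ξ + r)) < 1 := by
        have : (η / ξ - r) * (η / ξ + r) = ξ + be / ξ := by
          linear_combination hρ2 - hr
        rw [this]; exact vlt_add hξlt hbe'
      obtain ⟨r', hr', hvr', hb⟩ : ∃ r' : K, r' ^ 2 = al ∧ v r' = 1 ∧ v (η / ξ - r') < 1 := by
        by_cases hb : v (η / ξ - r) < 1
        · exact ⟨r, hr, hvr, hb⟩
        · refine ⟨-r, by rw [neg_sq]; exact hr, by rw [Valuation.map_neg]; exact hvr, ?_⟩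
          rw [sub_neg_eq_add]
          by_contra hb2
          have h1 : 1 ≤ v (η / ξ - r) := not_lt.mp hb
          have h2 : 1 ≤ v (η / ξ + r) := not_lt.mp hb2
          rw [v.map_mul] at hprod
          exact absurd (one_le_mul_of_one_le_of_one_le h1 h2) (not_le.mpr hprod)
      -- the depth is the valuation of a `σ`-fixed element
      obtain ⟨T, hT⟩ := exists_T (W := W) (e := e) hS hbe0
      have hMid : InMid v W e r' (v ξ) (Point.some x y h) := ⟨ξ, η, hPt, rfl, hb⟩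
      obtain ⟨k, hk⟩ := mid_torsion hS hv2 hr' hvr' hbe0 hT hMid hξlt hbeξ p hP
      have hvξ : v ξ = v (w ^ k) := by
        rw [map_pow]
        have hpow : v ξ ^ p = (v w ^ k) ^ p := by
          rw [hk, hw, ← pow_mul, ← pow_mul, mul_comm]
        exact (pow_left_inj₀ zero_le zero_le hp0).mp hpow
      have hwk0 : v (w ^ k) ≠ 0 := hvξ ▸ hpos.ne'
      have hu : v (ξ / w ^ k) = 1 := by
        rw [map_div₀, hvξ]; exact div_self hwk0
      have hd := hσ (ξ / w ^ k) hu.le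
      have hσwk : σ (w ^ k) = w ^ k := by rw [map_pow, hσw]
      rw [map_div₀, hσwk] at hd
      have hrw : σ ξ / w ^ k - ξ / w ^ k = (σ ξ - ξ) / w ^ k := by ring
      rw [hrw, map_div₀, div_lt_one₀ (zero_lt_iff.mpr hwk0), ← hvξ] at hd
      -- the branch of `σ P`
      have hρle : v (η / ξ) ≤ 1 := by
        have : η / ξ = r' + (η / ξ - r') := by ring
        rw [this]; exact vle_add hvr'.le hb.le
      have hdρ := hσ (η / ξ) hρle
      rw [map_div₀] at hdρ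
      have hb' : v (σ η / σ ξ - r') < 1 := by
        have : σ η / σ ξ - r' = (σ η / σ ξ - η / ξ) + (η / ξ - r') := by ring
        rw [this]; exact vlt_add hdρ hb
      exact inE1_sub_of_mid hS hv2 hal hvr' hPt hPt' hξ0 hle hd hb hb'

end main

end Fermat.Agent.S13.helper954
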