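import Fermat.Agent.Lib.helper956_LadderTorsion
import Fermat.Prelude.Def_FLTPrelim_FreyPackage

/-!
# The `p`-torsion of the Frey curve has exactly `p²` points (helper956, S13 ingredient I1)

For a Frey package `P` and any algebraically closed field `K ⊇ ℚ` (e.g. `AlgebraicClosure ℚ`),
the `ℤ`-torsion submodule `E[p]` of the Frey curve over `K` is finite with exactly `p²` elements.
Stated for an arbitrary `Algebra ℚ K` and `DecidableEq K` instance, so that it unifies with
whatever instances the consumer's statement elaborated with.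
-/

set_option autoImplicit false

namespace Fermat.Agent.S13.helper956

open WeierstrassCurve WeierstrassCurve.Affine
open Fermat.Agent.Lib.helper956

theorem freyCurve_Δ (P : FreyPackage) :
    P.freyCurve.Δ = ((P.a : ℚ) ^ P.p * (P.b : ℚ) ^ P.p * (P.c : ℚ) ^ P.p) ^ 2 / 256 := by
  have hF : (P.a : ℚ) ^ P.p + (P.b : ℚ) ^ P.p = (P.c : ℚ) ^ P.p := by exact_mod_cast P.hFLT
  simp only [WeierstrassCurve.Δ, WeierstrassCurve.b₂, WeierstrassCurve.b₄, WeierstrassCurve.b₆,
    WeierstrassCurve.b₈, FreyPackage.freyCurve]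
  rw [← hF]
  ring

theorem freyCurve_Δ_ne_zero (P : FreyPackage) : P.freyCurve.Δ ≠ 0 := by
  rw [freyCurve_Δ]
  have ha : (P.a : ℚ) ≠ 0 := by exact_mod_cast P.ha0
  have hb : (P.b : ℚ) ≠ 0 := by exact_mod_cast P.hb0
  have hc : (P.c : ℚ) ≠ 0 := by exact_mod_cast P.hc0
  positivity

variable (K : Type*) [Field K] [Algebra ℚ K]

theorem freyCurve_baseChange_Δ_ne_zero (P : FreyPackage) : (P.freyCurve⁄K).Δ ≠ 0 := by
  have h : (P.freyCurve⁄K).Δ = algebraMap ℚ K P.freyCurve.Δ := WeierstrassCurve.map_Δ _ _
  rw [h]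
  exact fun h0 => freyCurve_Δ_ne_zero P
    ((algebraMap ℚ K).injective (h0.trans (map_zero _).symm))

theorem natCast_ne_zero_of_algebra {n : ℕ} (hn : n ≠ 0) : (n : K) ≠ 0 := by
  intro h0
  have h1 : algebraMap ℚ K (n : ℚ) = 0 := by rw [map_natCast]; exact h0
  have h2 : (n : ℚ) = 0 := (algebraMap ℚ K).injective (h1.trans (map_zero _).symm)
  exact hn (by exact_mod_cast h2)

variable [DecidableEq K]

/-- The `p`-torsion of the Frey curve over `K` is finite. -/
theorem frey_torsion_finite (P : FreyPackage) :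
    Finite (Submodule.torsionBy ℤ (P.freyCurve⁄K).Point P.p) :=
  finite_torsionBy _ P.p P.hp_odd (natCast_ne_zero_of_algebra K P.hp0)

/-- The `p`-torsion of the Frey curve over `K` has at most `p²` points. -/
theorem frey_torsion_card_le (P : FreyPackage) :
    Nat.card (Submodule.torsionBy ℤ (P.freyCurve⁄K).Point P.p) ≤ P.p ^ 2 :=
  card_torsionBy_le _ P.p P.hp_odd (natCast_ne_zero_of_algebra K P.hp0)

variable [IsAlgClosed K]

/-- **I1 of the S13 skeleton**: the `p`-torsion of the Frey curve over an algebraically closed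
field `K ⊇ ℚ` has exactly `p²` points. -/
theorem frey_torsion_card (P : FreyPackage) :
    Nat.card (Submodule.torsionBy ℤ (P.freyCurve⁄K).Point P.p) = P.p ^ 2 :=
  card_torsionBy_eq _ (freyCurve_baseChange_Δ_ne_zero K P) P.p P.hp_odd
    (by have := P.hp5; omega) (natCast_ne_zero_of_algebra K P.hp0)

/-- The `p`-torsion of the Frey curve over `K` is nontrivial. -/
theorem frey_torsion_nontrivial (P : FreyPackage) :
    Nontrivial (Submodule.torsionBy ℤ (P.freyCurve⁄K).Point P.p) := by
  have := frey_torsion_finite K P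
  rw [← Finite.one_lt_card_iff_nontrivial, frey_torsion_card K P]
  have := P.hp5
  nlinarith

end Fermat.Agent.S13.helper956
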